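import Fermat.Agent.S43Glue.Main

/-!
# Mazur's principle for odd `p` (statement)
-/

set_option autoImplicit false
set_option linter.style.haveILetI false

namespace Fermat.Agent.RT

open Fermat.Agent.GalRep Fermat.Agent.S43Glue CuspForm

local notation "Qbar" => AlgebraicClosure ℚ
local notation "GQ" => Qbar ≃ₐ[ℚ] Qbar

/-- Mazur's principle for an odd prime `p`; if `p = 3` the level `M` is divisible by a prime
`r ≡ 2 mod 3`. -/
def MazSt : Prop :=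
  ∀ (p : ℕ) [Fact p.Prime] (_ : p ≠ 2) (M q : ℕ) [NeZero M] [NeZero (M * q)] (S : Set ℕ)
    (ρ : GQ →* Matrix (Fin 2) (Fin 2) (ZMod p)),
    (p ≠ 3 ∨ ∃ r : ℕ, r.Prime ∧ r % 3 = 2 ∧ r ∣ M) →
    q.Prime → ¬ q ∣ M → q ≠ p → S.Finite → p ∈ S → (∀ r : ℕ, r.Prime → r ∣ M * q → r ∈ S) →
    FinLevel ρ → (∀ g, (ρ g).det = chiK p (ZMod p) g) →
    Submodule.span (ZMod p) (Set.range ρ) = ⊤ →
    (∀ A : ValuationSubring Qbar, A.LiesOverPrime q → ∀ σ ∈ A.inertiaSubgroupIn ℚ, ρ σ = 1) →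
    HMod ρ (M * q) S →
      HMod ρ M S ∨ (p ∣ q - 1 ∧ ∀ A : ValuationSubring Qbar, A.LiesOverPrime q →
        ∀ τ : GQ, A.IsFrobeniusAt τ q → ρ τ = 1 ∨ ρ τ = -1)

end Fermat.Agent.RT
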