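import Fermat.Agent.RT.HTW
import Fermat.Prelude.Def_GaloisRep_Residual

/-!
# Absolute irreducibility and the Taylor--Wiles hypothesis
-/

set_option autoImplicit false
set_option maxHeartbeats 400000
set_option linter.style.haveILetI false

noncomputable section

namespace Fermat.Agent.RT

open Fermat.Agent.Frob Fermat.Agent.S43Glue
open scoped Pointwise TensorProduct

local notation "Qbar" => AlgebraicClosure ℚ
local notation "GQ" => Qbar ≃ₐ[ℚ] Qbar

section Irr

variable {F K V : Type*} [Field F] [Field K] [Algebra F K] [AddCommGroup V] [Module F V]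
  {G : Type*} [Group G]

/-- irreducible odd representations stay irreducible after base change -/
theorem irr_baseChange (hV : Module.finrank F V = 2) (h2 : (2 : F) ≠ 0) (ρ : G →* Module.End F V)
    (hirr : ∀ W : Submodule F V, (∀ σ, ∀ x ∈ W, ρ σ x ∈ W) → W = ⊥ ∨ W = ⊤)
    {c : G} (hcc : c * c = 1) (hdet : LinearMap.det (ρ c) = -1)
    (W : Submodule K (K ⊗[F] V)) (hW : ∀ σ, ∀ x ∈ W, (ρ σ).baseChange K x ∈ W) :
    W = ⊥ ∨ W = ⊤ := by
  classical
  haveI : Module.Finite F V := Module.finite_of_finrank_eq_succ hV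
  have h11 : (1 : F) ≠ -1 := by
    intro h
    apply h2
    have : (1 : F) + 1 = 0 := by nth_rewrite 1 [h]; ring
    rw [← this]; norm_num
  have hcsq : ∀ v, ρ c (ρ c v) = v := by
    intro v
    rw [← Module.End.mul_apply, ← map_mul, hcc, map_one, Module.End.one_apply]
  obtain ⟨v1, hv1, hc1⟩ : ∃ v, v ≠ 0 ∧ ρ c v = v := by
    by_contra hfix
    push Not at hfix
    have h1 : ρ c = -1 := by
      apply LinearMap.ext
      intro v
      have h2 : ρ c (ρ c v + v) = ρ c v + v := by rw [map_add, hcsq, add_comm]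
      have h3 : ρ c v + v = 0 := by
        by_contra h4
        exact hfix _ h4 h2
      rw [LinearMap.neg_apply, Module.End.one_apply]
      exact eq_neg_of_add_eq_zero_left h3
    have h3 : LinearMap.det (ρ c) = 1 := by
      rw [h1, ← neg_one_smul F (1 : Module.End F V), LinearMap.det_smul, hV]
      simp
    rw [hdet] at h3
    exact h11 h3.symm
  obtain ⟨v2, hv2, hc2⟩ : ∃ v, v ≠ 0 ∧ ρ c v = -v := by
    by_contra hfix
    push Not at hfix
    have h1 : ρ c = 1 := by
      apply LinearMap.ext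
      intro v
      have h2 : ρ c (ρ c v - v) = -(ρ c v - v) := by rw [map_sub, hcsq, neg_sub]
      have h3 : ρ c v - v = 0 := by
        by_contra h4
        exact hfix _ h4 h2
      rw [Module.End.one_apply]
      exact sub_eq_zero.mp h3
    have h3 : LinearMap.det (ρ c) = 1 := by rw [h1, map_one]
    rw [hdet] at h3
    exact h11 h3.symm
  have hli : LinearIndependent F ![v1, v2] := by
    rw [LinearIndependent.pair_iff' hv1]
    intro a ha
    have h3 : ρ c v2 = v2 := by rw [← ha, map_smul, hc1]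
    rw [hc2] at h3
    have h4 : (2 : F) • v2 = 0 := by
      rw [two_smul]
      nth_rewrite 1 [← h3]
      exact neg_add_cancel v2
    rcases smul_eq_zero.mp h4 with h5 | h5
    · exact h2 h5
    · exact hv2 h5
  let b : Module.Basis (Fin 2) F V := basisOfLinearIndependentOfCardEqFinrank hli (by simp [hV])
  have hb0 : b 0 = v1 := by simp [b]
  have hb1 : b 1 = v2 := by simp [b]
  by_cases hW0 : W = ⊥
  · exact Or.inl hW0
  right
  obtain ⟨w, hwW, hw⟩ := Submodule.exists_mem_ne_zero_of_ne_bot hW0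
  have h2K : (2 : K) ≠ 0 := by
    intro h
    apply h2
    apply (algebraMap F K).injective
    rw [map_ofNat, h, map_zero]
  -- a rational vector in `W`
  obtain ⟨v, hv, hvW⟩ : ∃ v : V, v ≠ 0 ∧ (1 : K) ⊗ₜ[F] v ∈ W := by
    have hsum : w = (b.baseChange K).repr w 0 • ((1 : K) ⊗ₜ[F] v1) +
        (b.baseChange K).repr w 1 • ((1 : K) ⊗ₜ[F] v2) := by
      conv_lhs => rw [← (b.baseChange K).sum_repr w]
      rw [Fin.sum_univ_two, Module.Basis.baseChange_apply, Module.Basis.baseChange_apply, hb0, hb1]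
    set x := (b.baseChange K).repr w 0 with hx
    set y := (b.baseChange K).repr w 1 with hy
    have hcw : (ρ c).baseChange K w = x • ((1 : K) ⊗ₜ[F] v1) - y • ((1 : K) ⊗ₜ[F] v2) := by
      rw [hsum, map_add, map_smul, map_smul, LinearMap.baseChange_tmul, LinearMap.baseChange_tmul,
        hc1, hc2, TensorProduct.tmul_neg, smul_neg, sub_eq_add_neg]
    have hcwW := hW c w hwW
    by_cases hx0 : x = 0
    · have hy0 : y ≠ 0 := by
        intro hy0
        apply hw
        rw [hsum, hx0, hy0, zero_smul, zero_smul, add_zero]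
      refine ⟨v2, hv2, ?_⟩
      have h1 : w = y • ((1 : K) ⊗ₜ[F] v2) := by rw [hsum, hx0, zero_smul, zero_add]
      rw [h1] at hwW
      have h3 := W.smul_mem y⁻¹ hwW
      rwa [smul_smul, inv_mul_cancel₀ hy0, one_smul] at h3
    · refine ⟨v1, hv1, ?_⟩
      have h1 : w + (ρ c).baseChange K w = (2 * x) • ((1 : K) ⊗ₜ[F] v1) := by
        rw [hcw]
        nth_rewrite 1 [hsum]
        module
      have h3 := W.smul_mem (2 * x)⁻¹ (h1 ▸ W.add_mem hwW hcwW)
      rwa [smul_smul, inv_mul_cancel₀ (mul_ne_zero h2K hx0), one_smul] at h3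
  let W' : Submodule F V :=
    { carrier := {u | (1 : K) ⊗ₜ[F] u ∈ W}
      zero_mem' := by
        change (1 : K) ⊗ₜ[F] (0 : V) ∈ W
        rw [TensorProduct.tmul_zero]
        exact W.zero_mem
      add_mem' := by
        intro a d ha hd
        change (1 : K) ⊗ₜ[F] (a + d) ∈ W
        rw [TensorProduct.tmul_add]
        exact W.add_mem ha hd
      smul_mem' := by
        intro r a ha
        change (1 : K) ⊗ₜ[F] (r • a) ∈ W
        have h1 : (1 : K) ⊗ₜ[F] (r • a) = (algebraMap F K r) • ((1 : K) ⊗ₜ[F] a) := by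
          rw [TensorProduct.tmul_smul, algebraMap_smul]
        rw [h1]
        exact W.smul_mem _ ha }
  have hW' : W' = ⊤ := by
    rcases hirr W' (fun σ x hx => by
      change (1 : K) ⊗ₜ[F] (ρ σ x) ∈ W
      have := hW σ _ hx
      rwa [LinearMap.baseChange_tmul] at this) with h | h
    · exfalso
      have h1 : v ∈ W' := hvW
      rw [h] at h1
      exact hv (by simpa using h1)
    · exact h
  rw [eq_top_iff]
  intro z _
  induction z using TensorProduct.induction_on with
  | zero => exact W.zero_mem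
  | tmul a u =>
    have h1 : a ⊗ₜ[F] u = a • ((1 : K) ⊗ₜ[F] u) := by
      rw [TensorProduct.smul_tmul', smul_eq_mul, mul_one]
    rw [h1]
    apply W.smul_mem
    have : u ∈ W' := hW' ▸ Submodule.mem_top
    exact this
  | add a d ha hd => exact W.add_mem (ha trivial) (hd trivial)

end Irr

section Root

/-- roots of quadratic polynomials over `𝔽₃` -/
theorem pow_nine {K : Type*} [Field K] [CharP K 3] (ι : ZMod 3 →+* K) (a b : ZMod 3) (x : K)
    (h : x ^ 2 + ι a * x + ι b = 0) : x ^ 9 = x := by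
  haveI : Fact (Nat.Prime 3) := ⟨Nat.prime_three⟩
  have ha : ι a ^ 3 = ι a := by rw [← map_pow, ZMod.pow_card]
  have hb : ι b ^ 3 = ι b := by rw [← map_pow, ZMod.pow_card]
  have h3 : (x ^ 3) ^ 2 + ι a * x ^ 3 + ι b = 0 := by
    have h4 : (x ^ 2 + ι a * x + ι b) ^ 3 = 0 := by rw [h]; ring
    rw [add_pow_char, add_pow_char, mul_pow, ha, hb, ← pow_mul] at h4
    rw [← h4]
    ring
  have h5 : (x ^ 3 - x) * (x ^ 3 + x + ι a) = 0 := by
    linear_combination h3 - h
  rcases mul_eq_zero.mp h5 with h6 | h6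
  · have h7 : x ^ 3 = x := sub_eq_zero.mp h6
    calc x ^ 9 = (x ^ 3) ^ 3 := by ring
      _ = x := by rw [h7, h7]
  · have h7 : x ^ 3 = -(x + ι a) := by linear_combination h6
    have h8 : x ^ 9 = -(x + ι a) ^ 3 := by
      calc x ^ 9 = (x ^ 3) ^ 3 := by ring
        _ = (-(x + ι a)) ^ 3 := by rw [h7]
        _ = -(x + ι a) ^ 3 := by ring
    have h9 : (x + ι a) ^ 3 = x ^ 3 + (ι a) ^ 3 := by rw [add_pow_char]
    rw [h8, h9, ha, h7]
    ring

end Root

section BC

variable {k : Type} [Field k] (ρ : ResidualGaloisRep k) (K : Type) [Field K] [Algebra k K] (σ : GQ)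

theorem det_bc : LinearMap.det ((ρ.baseChange K).ρ σ) = algebraMap k K (LinearMap.det (ρ.ρ σ)) :=
  LinearMap.det_baseChange (ρ.ρ σ)

theorem charpoly_bc : LinearMap.charpoly ((ρ.baseChange K).ρ σ) =
    (LinearMap.charpoly (ρ.ρ σ)).map (algebraMap k K) :=
  LinearMap.charpoly_baseChange (ρ.ρ σ) K

theorem sq_bc (h : (ρ.ρ σ - 1) * (ρ.ρ σ - 1) = 0) :
    ((ρ.baseChange K).ρ σ - 1) * ((ρ.baseChange K).ρ σ - 1) = 0 := by
  have h2 : (ρ.baseChange K).ρ σ - 1 = (ρ.ρ σ - 1).baseChange K := by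
    rw [LinearMap.baseChange_sub, LinearMap.baseChange_one]
    rfl
  have h3 : (ρ.ρ σ - 1).baseChange K * (ρ.ρ σ - 1).baseChange K = 0 := by
    rw [← LinearMap.baseChange_mul, h, LinearMap.baseChange_zero]
  rw [h2]
  exact h3

end BC

section Rep

variable {p : ℕ} [hp : Fact p.Prime]

/-- the hypotheses on a residual representation over `𝔽_p` -/
structure GoodRes (p : ℕ) [Fact p.Prime] (ρ₀ : ResidualGaloisRep (ZMod p)) : Prop where
  irr : ρ₀.IsIrreducible
  det : ∀ σ, LinearMap.det (ρ₀.ρ σ) = chiK p (ZMod p) σ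
  uni : ∀ q : ℕ, q.Prime → q ≠ p → ∀ A : ValuationSubring Qbar, A.LiesOverPrime q →
      ∀ σ ∈ A.inertiaSubgroupIn ℚ, (ρ₀.ρ σ - 1) * (ρ₀.ρ σ - 1) = 0

theorem two_ne_zero_of (hp2 : p ≠ 2) {k : Type} [Field k] (φ : ZMod p →+* k) : (2 : k) ≠ 0 := by
  haveI : CharP k p := charP_of_injective_ringHom φ.injective p
  intro h
  have h4 : ((2 : ℕ) : k) = 0 := by exact_mod_cast h
  have h5 := (CharP.cast_eq_zero_iff k p 2).mp h4
  exact hp2 ((Nat.prime_dvd_prime_iff_eq hp.out Nat.prime_two).mp h5)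

variable {ρ₀ : ResidualGaloisRep (ZMod p)} (h₀ : GoodRes p ρ₀) {k : Type} [Field k]
  (φ : ZMod p →+* k)

include h₀

theorem irr_along (hp2 : p ≠ 2) : (ρ₀.baseChangeAlong φ).IsIrreducible := by
  letI : Algebra (ZMod p) k := φ.toAlgebra
  intro W hW
  refine irr_baseChange (F := ZMod p) (K := k) ρ₀.finrank_eq
    (two_ne_zero_of hp2 (RingHom.id (ZMod p))) ρ₀.ρ (fun W hW => h₀.irr W hW)
    (c := (complexConjugation : GQ)) complexConjugation_mul_self ?_ W hW
  rw [h₀.det, LR.chi_conj]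

theorem det_along (σ : GQ) :
    LinearMap.det ((ρ₀.baseChangeAlong φ).ρ σ) = φ (chiK p (ZMod p) σ) := by
  letI : Algebra (ZMod p) k := φ.toAlgebra
  rw [← h₀.det]
  exact LinearMap.det_baseChange (ρ₀.ρ σ)

theorem irr_along_base (hp2 : p ≠ 2) (K : Type) [Field K] [Algebra k K] :
    ((ρ₀.baseChangeAlong φ).baseChange K).IsIrreducible := by
  intro W hW
  refine irr_baseChange (F := k) (K := K) (ρ₀.baseChangeAlong φ).finrank_eq
    (two_ne_zero_of hp2 φ) (ρ₀.baseChangeAlong φ).ρ (fun W hW => irr_along h₀ φ hp2 W hW)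
    (c := (complexConjugation : GQ)) complexConjugation_mul_self ?_ W hW
  rw [det_along h₀, LR.chi_conj, map_neg, map_one]

theorem absIrr_along (hp2 : p ≠ 2) : (ρ₀.baseChangeAlong φ).IsAbsolutelyIrreducible :=
  irr_along_base h₀ φ hp2 (AlgebraicClosure k)

theorem hTW_along (hp35 : p = 3 ∨ p = 5) (K : Type) [Field K] [Algebra k K]
    (G : Subgroup GQ) (hG : G.index = 2)
    (V : Submodule K ((ρ₀.baseChangeAlong φ).baseChange K).V)
    (hV : ∀ σ ∈ G, ∀ x ∈ V, ((ρ₀.baseChangeAlong φ).baseChange K).ρ σ x ∈ V) :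
    V = ⊥ ∨ V = ⊤ := by
  have hp2 : p ≠ 2 := by rcases hp35 with rfl | rfl <;> norm_num
  letI : Algebra (ZMod p) k := φ.toAlgebra
  let ρ1 := ρ₀.baseChangeAlong φ
  let ρ2 := ρ1.baseChange K
  refine stable_line hp35 ρ2.finrank_eq ((algebraMap k K).comp φ) ρ2.ρ
    ρ2.factorsThroughFiniteLevel (irr_along_base h₀ φ hp2 K) ?_ ?_ ?_ G hG V hV
  · intro σ
    rw [RingHom.comp_apply, ← det_along h₀ φ σ]
    exact det_bc ρ1 K σ
  · intro q hq hqp A hA σ hσ
    exact sq_bc ρ1 K σ (sq_bc ρ₀ k σ (h₀.uni q hq hqp A hA σ hσ))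
  · intro hp3 σ x v hv hx
    subst hp3
    haveI : CharP K 3 := charP_of_injective_ringHom ((algebraMap k K).comp φ).injective 3
    have hch : (ρ2.ρ σ).charpoly = ((ρ₀.ρ σ).charpoly.map (algebraMap (ZMod 3) k)).map
        (algebraMap k K) := by
      rw [← charpoly_bc ρ₀ k σ]
      exact charpoly_bc ρ1 K σ
    have hdeg : (ρ₀.ρ σ).charpoly.natDegree = 2 := by
      rw [LinearMap.charpoly_natDegree, ρ₀.finrank_eq]
    have hmon := LinearMap.charpoly_monic (ρ₀.ρ σ)
    have hroot : ((ρ2.ρ σ).charpoly).eval x = 0 := by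
      have h1 := LinearMap.aeval_self_charpoly (ρ2.ρ σ)
      have h2 : Polynomial.aeval (ρ2.ρ σ) ((ρ2.ρ σ).charpoly) v =
          ((ρ2.ρ σ).charpoly).eval x • v :=
        Module.End.aeval_apply_of_hasEigenvector ⟨by
          rw [Module.End.mem_eigenspace_iff]; exact hx, hv⟩
      rw [h1, LinearMap.zero_apply] at h2
      rcases smul_eq_zero.mp h2.symm with h3 | h3
      · exact h3
      · exact absurd h3 hv
    rw [hch] at hroot
    have hq : (ρ₀.ρ σ).charpoly = Polynomial.X ^ 2 + Polynomial.C ((ρ₀.ρ σ).charpoly.coeff 1) *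
        Polynomial.X + Polynomial.C ((ρ₀.ρ σ).charpoly.coeff 0) := by
      conv_lhs => rw [hmon.as_sum, hdeg]
      rw [Finset.sum_range_succ, Finset.sum_range_one]
      simp only [pow_zero, mul_one, pow_one]
      ring
    rw [hq] at hroot
    simp only [Polynomial.map_add, Polynomial.map_mul, Polynomial.map_pow, Polynomial.map_X,
      Polynomial.map_C, Polynomial.eval_add, Polynomial.eval_mul, Polynomial.eval_pow,
      Polynomial.eval_X, Polynomial.eval_C] at hroot
    exact pow_nine ((algebraMap k K).comp φ) _ _ x hroot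

end Rep

end Fermat.Agent.RT
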