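import Mathlib
import Fermat.Prelude.Def_GaloisRep_DeformationRingData
import Fermat.Prelude.Def_GaloisRep_LocalConditions
import Fermat.Prelude.Def_GaloisRep_StrictOrdinary
import Fermat.Prelude.Def_GaloisRep_Flat
import Fermat.Prelude.Def_CuspForm_HeckeLocal

/-!
# T10: interface (deformation rings, Hecke–Galois data)
-/

set_option autoImplicit false

noncomputable section

namespace Fermat.Agent.RT

open IsLocalRing GaloisRep Polynomial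

/-- local behaviour at `p` -/
inductive PType : Type
  | fl
  | st
  | ord

/-- the base condition -/
def baseCond (𝒪 : Type) [CommRing 𝒪] (t : PType) (p : ℕ) (S : Finset ℕ) :
    ∀ ⦃A : Type⦄ [CommRing A] [IsLocalRing A] [Algebra 𝒪 A], GaloisRepAdic A → Prop :=
  fun _A _ _ _ ρ => match t with
    | .fl => flatCondition 𝒪 p S ρ
    | .st => strictOrdinaryCondition 𝒪 p S ρ
    | .ord => ordinaryCondition 𝒪 p S ρ

/-- unramified outside `S`, unipotent on inertia at the `q ∈ Smin`, `q ≠ p`; `t` at `p` -/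
def DD (𝒪 : Type) [CommRing 𝒪] (t : PType) (p : ℕ) (S Smin : Finset ℕ) :
    ∀ ⦃A : Type⦄ [CommRing A] [IsLocalRing A] [Algebra 𝒪 A], GaloisRepAdic A → Prop :=
  fun _A _ _ _ ρ => baseCond 𝒪 t p S ρ ∧ ∀ q ∈ Smin, q.Prime → q ≠ p → ρ.IsUnipotentOnInertiaAt q

/-- (a) existence of the deformation rings -/
def ExistsDefRing : Prop :=
  ∀ (𝒪 : Type) [CommRing 𝒪] [IsDomain 𝒪] [IsDiscreteValuationRing 𝒪]
    [IsAdicComplete (maximalIdeal 𝒪) 𝒪] [Finite (ResidueField 𝒪)]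
    (p : ℕ) [Fact p.Prime] (_ : p ≠ 2) (_ : (p : 𝒪) ∈ maximalIdeal 𝒪)
    (ρbar : ResidualGaloisRep (ResidueField 𝒪)) (_ : ρbar.IsAbsolutelyIrreducible)
    (t : PType) (S Smin : Finset ℕ) (_ : p ∈ S)
    (_ : DD 𝒪 t p S Smin (GaloisRepAdic.ofResidualGaloisRep ρbar)),
    Nonempty (DeformationRingData 𝒪 ρbar (DD 𝒪 t p S Smin))

/-- `ρbar` is attached to `θ` -/
def AttRes {k : Type} [Field k] {N : ℕ} [NeZero N] {S : Set ℕ} (θ : CuspForm.heckeAlgebra N 2 S →+* k)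
    (ρbar : ResidualGaloisRep k) : Prop :=
  ∀ (ℓ : ℕ) (hℓ : ℓ.Prime) (hℓN : ¬ ℓ ∣ N) (hℓS : ℓ ∉ S),
    ∀ A : ValuationSubring (AlgebraicClosure ℚ), A.LiesOverPrime ℓ →
      ∀ σ : AlgebraicClosure ℚ ≃ₐ[ℚ] AlgebraicClosure ℚ, A.IsFrobeniusAt σ ℓ →
        LinearMap.charpoly (ρbar.ρ σ) =
          X ^ 2 - C (θ (CuspForm.heckeAlgebra.T hℓ hℓN hℓS)) * X + C ((ℓ : k))

/-- (b) existence of the Hecke–Galois datum over `heckeLocal` and its properties.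
`p ∤ N`: type `fl`; `p ∥ N`: type `ord` if the residual representation is ordinary, and type `st`
if moreover it is not flat. -/
def ExistsDatum : Prop :=
  ∀ (𝒪 : Type) [CommRing 𝒪] [IsDomain 𝒪] [IsDiscreteValuationRing 𝒪]
    [IsAdicComplete (maximalIdeal 𝒪) 𝒪] [Finite (ResidueField 𝒪)] [CharZero 𝒪]
    (p : ℕ) [Fact p.Prime] (_ : p ≠ 2) (_ : (p : 𝒪) ∈ maximalIdeal 𝒪)
    (ρbar : ResidualGaloisRep (ResidueField 𝒪)) (_ : ρbar.IsAbsolutelyIrreducible)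
    (N : ℕ) [NeZero N] [Fact (CuspForm.HasIntegralStructure N 2)] (S : Finset ℕ) (_ : p ∈ S)
    (_ : ∀ q : ℕ, q.Prime → q ∣ N → q ∈ S)
    (θ : CuspForm.heckeAlgebra N 2 (↑S : Set ℕ) →+* ResidueField 𝒪) (_ : AttRes θ ρbar),
    ∃ H : CuspForm.HeckeGaloisRepDatum N (↑S : Set ℕ) 𝒪 θ (CuspForm.heckeLocal N (↑S) 𝒪 θ),
      H.π = CuspForm.heckeLocal.π N (↑S) 𝒪 θ ∧
      H.ρ.residual.IsEquiv (ρbar.baseChangeAlong
        (ResidueField.map (algebraMap 𝒪 (CuspForm.heckeLocal N (↑S) 𝒪 θ)))) ∧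
      (∀ (t : PType) (Smin : Finset ℕ), (∀ q ∈ Smin, q.Prime → q ≠ p → q ∣ N ∧ ¬ q ^ 2 ∣ N) →
        (match t with
          | .fl => ¬ p ∣ N
          | .ord => p ∣ N ∧ ¬ p ^ 2 ∣ N ∧ (GaloisRepAdic.ofResidualGaloisRep ρbar).IsOrdinaryAt p
          | .st => p ∣ N ∧ ¬ p ^ 2 ∣ N ∧ (GaloisRepAdic.ofResidualGaloisRep ρbar).IsOrdinaryAt p ∧
              ¬ (GaloisRepAdic.ofResidualGaloisRep ρbar).IsFlatAt p) →
        DD 𝒪 t p S Smin H.ρ)

end Fermat.Agent.RT
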