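import Fermat.Agent.DefRing.MatRep
import Fermat.Agent.RT.T10St

/-!
# T10/T11: the local conditions for matrix representations over rings receiving Hecke algebras
-/

set_option autoImplicit false

noncomputable section

namespace Fermat.Agent.RT

open IsLocalRing GaloisRep Fermat.Agent.DefRing

/-- the level matches the type at `p` -/
def LevelType {k : Type} [Field k] (t : PType) (p N : ℕ) (ρbar : ResidualGaloisRep k) : Prop :=
  match t with
  | .fl => ¬ p ∣ N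
  | .ord => p ∣ N ∧ ¬ p ^ 2 ∣ N ∧ (GaloisRepAdic.ofResidualGaloisRep ρbar).IsOrdinaryAt p
  | .st => p ∣ N ∧ ¬ p ^ 2 ∣ N ∧ (GaloisRepAdic.ofResidualGaloisRep ρbar).IsOrdinaryAt p ∧
      ¬ (GaloisRepAdic.ofResidualGaloisRep ρbar).IsFlatAt p

/-- (b') the deformation conditions for a matrix representation `T` over a complete local
`𝒪`-algebra `B`, finite over `𝒪`, attached to a homomorphism `g` from the Hecke algebra of
level `N` -/
def DatumB : Prop :=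
  ∀ (𝒪 : Type) [CommRing 𝒪] [IsDomain 𝒪] [IsDiscreteValuationRing 𝒪]
    [IsAdicComplete (maximalIdeal 𝒪) 𝒪] [Finite (ResidueField 𝒪)] [CharZero 𝒪]
    (p : ℕ) [Fact p.Prime] (_ : p ≠ 2) (_ : (p : 𝒪) ∈ maximalIdeal 𝒪)
    (ρbar : ResidualGaloisRep (ResidueField 𝒪)) (_ : ρbar.IsAbsolutelyIrreducible)
    (b : Module.Basis (Fin 2) (ResidueField 𝒪) ρbar.V)
    (N : ℕ) [NeZero N] (S : Set ℕ) (Sf : Finset ℕ) (_ : (Sf : Set ℕ) = S) (_ : p ∈ S)
    (_ : ∀ q : ℕ, q.Prime → q ∣ N → q ∈ S)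
    (B : Type) [CommRing B] [IsLocalRing B] [IsNoetherianRing B]
    [IsAdicComplete (maximalIdeal B) B] [Algebra 𝒪 B] [IsLocalHom (algebraMap 𝒪 B)]
    [Module.Finite 𝒪 B] (_ : Function.Surjective (residue B ∘ algebraMap 𝒪 B))
    (g : CuspForm.heckeAlgebra N 2 S →+* B)
    (T : GQ →* Matrix (Fin 2) (Fin 2) B) (hT : MatCont T)
    (_ : ∀ σ i j, residue B (T σ i j) =
      ResidueField.map (algebraMap 𝒪 B) (resMat ρbar b σ i j))
    (_ : ∀ (ℓ : ℕ) (hℓ : ℓ.Prime) (hℓN : ¬ ℓ ∣ N) (hℓS : ℓ ∉ S),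
      ∀ A : ValuationSubring (AlgebraicClosure ℚ), A.LiesOverPrime ℓ → ∀ τ : GQ,
        A.IsFrobeniusAt τ ℓ →
          (T τ).trace = g (CuspForm.heckeAlgebra.T hℓ hℓN hℓS) ∧ (T τ).det = (ℓ : B))
    (t : PType) (Smin : Finset ℕ)
    (_ : ∀ q ∈ Smin, q.Prime → q ≠ p → q ∣ N ∧ ¬ q ^ 2 ∣ N) (_ : LevelType t p N ρbar),
    DD 𝒪 t p Sf Smin (matRep T hT)

end Fermat.Agent.RT
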