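import Fermat.Agent.SelP.Tau2
import Fermat.Agent.FlatLoc.Final2
import Fermat.Agent.FlatLoc.Count
import Fermat.Agent.TWG.Res
import Fermat.Agent.TWPr.TWSel

/-!
# Kummer classes in flat two-dimensional representations are units
-/

set_option autoImplicit false
set_option maxHeartbeats 400000
set_option linter.unusedSectionVars false
set_option linter.style.haveILetI false

noncomputable section

namespace Fermat.Agent.FlatLoc

open Fermat.Agent.ECRed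

variable {K : Type*} [Field K] {κ : Type*} [Field κ] {G : Type*} [Group G]
  [MulSemiringAction G K] {p : ℕ} [hp : Fact p.Prime] (C : Ctx K κ G p) {ϖ : K}
  (hϖ : ϖ ^ (p ^ 2 - 1) = p)

namespace Ctx

include C hϖ

lemma exists_JJ_mul' {σ₀ : G} (hσ₀ : IsPrimitiveRoot (C.Th hϖ σ₀) (p ^ 2 - 1)) (σ : G) :
    ∃ (τ : G) (k : ℕ), τ ∈ JJ G ϖ ∧ σ = τ * σ₀ ^ k := by
  have he : NeZero (p ^ 2 - 1) := ⟨e_ne_zero⟩
  obtain ⟨k, -, hk⟩ := hσ₀.eq_pow_of_mem_rootsOfUnity (ξ := C.Th hϖ σ)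
    ((mem_rootsOfUnity _ _).mpr (C.Th_pow hϖ σ))
  refine ⟨σ * (σ₀ ^ k)⁻¹, k, ?_, by group⟩
  rw [C.mem_JJ_iff hϖ, map_mul, map_inv, map_pow, hk, mul_inv_cancel]

lemma omega_ne_one' {σ₀ : G} (hσ₀ : IsPrimitiveRoot (C.Th hϖ σ₀) (p ^ 2 - 1)) :
    C.ω σ₀ ≠ 1 := by
  intro h
  have h1 := C.r_omega_eq hϖ σ₀
  have hp2 := C.two_lt_nat
  rw [h, Units.val_one, ZMod.val_one'' (by omega), Nat.cast_one, ← C.Th_apply hϖ] at h1
  have h2 := Nat.le_of_dvd (by omega) ((C.r_Th_prim hϖ hσ₀).dvd_of_pow_eq_one _ h1)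
  have hp9 : 3 * p ≤ p ^ 2 := by nlinarith
  omega

/-- the norm from `L₀` -/
lemma norm_fixed {σ₀ : G} (hσ₀ : IsPrimitiveRoot (C.Th hϖ σ₀) (p ^ 2 - 1)) {q : K}
    (hq : q ∈ L0 G ϖ) (σ : G) :
    σ • (∏ i ∈ Finset.range (p ^ 2 - 1), σ₀ ^ i • q) =
      ∏ i ∈ Finset.range (p ^ 2 - 1), σ₀ ^ i • q := by
  set e := p ^ 2 - 1 with he
  have hpow : σ₀ ^ e • q = q := by
    apply hq
    rw [C.mem_JJ_iff hϖ, map_pow]
    exact C.Th_pow hϖ σ₀
  have h1 : σ₀ • (∏ i ∈ Finset.range e, σ₀ ^ i • q) = ∏ i ∈ Finset.range e, σ₀ ^ i • q := by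
    rw [Finset.smul_prod']
    have h2 : ∀ i, σ₀ • σ₀ ^ i • q = σ₀ ^ (i + 1) • q := fun i => by rw [smul_smul, pow_succ']
    rw [Finset.prod_congr rfl fun i _ => h2 i]
    have h3 := Finset.prod_range_succ (fun i => σ₀ ^ i • q) e
    have h4 := Finset.prod_range_succ' (fun i => σ₀ ^ i • q) e
    rw [h3, hpow, pow_zero, one_smul] at h4
    by_cases hq0 : q = 0
    · subst hq0
      simp
    · exact (mul_right_cancel₀ hq0 h4).symm
  have h2 : ∀ k : ℕ, σ₀ ^ k • (∏ i ∈ Finset.range e, σ₀ ^ i • q) =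
      ∏ i ∈ Finset.range e, σ₀ ^ i • q := by
    intro k
    induction k with
    | zero => rw [pow_zero, one_smul]
    | succ k ih => rw [pow_succ, mul_smul, h1, ih]
  obtain ⟨τ, k, hτ, rfl⟩ := C.exists_JJ_mul' hϖ hσ₀ σ
  rw [mul_smul, h2, Finset.smul_prod']
  refine Finset.prod_congr rfl fun i _ => ?_
  have h3 := hq _ (C.conj_mem_JJ hϖ (τ := σ₀ ^ i) hτ)
  rw [mul_smul, mul_smul, inv_smul_eq_iff] at h3
  exact h3

/-- the triangular case -/
theorem tri_tau [IsAlgClosed κ] {β : G → ZMod p}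
    {hβ : ∀ σ τ, β (σ * τ) = C.ω σ * β τ + β σ * (1 : G →* (ZMod p)ˣ) τ}
    (h : IsFlatMod C.R (triRep C.ω 1 β hβ)) {σ₀ : G}
    (hσ₀ : IsPrimitiveRoot (C.Th hϖ σ₀) (p ^ 2 - 1)) (h0 : β σ₀ = 0) {τ : G}
    (hτ : ∀ Y : K, C.v.Eq 0 Y → (∀ σ : G, σ • Y ^ p = Y ^ p) → τ • Y = Y) :
    β (τ ^ (p ^ 2 - 1)) = 0 := by
  set e := p ^ 2 - 1 with he
  obtain ⟨y, hy, hl⟩ := C.tri_lev hϖ h hσ₀ h0 1
  -- `y` is a unit
  have hyp : C.v.Eq 0 (y ^ p) := by
    have h1 : C.v.Gt 0 (y ^ p - 1) := hl.gt (by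
      have := C.epos
      positivity)
    have := OrdFn.eq_one (v := C.v).add_gt h1
    rwa [add_sub_cancel] at this
  have hyv : C.v.Eq 0 y := by
    refine ⟨hy.1, ?_⟩
    have h2 := hyp.2
    rw [OrdFn.ord_pow hy.1] at h2
    have : (p : ℝ) ≠ 0 := by have := one_lt (p := p); linarith
    exact (mul_eq_zero.mp h2).resolve_left this
  have hkum : ∀ i : ℕ, Kum C ϖ (fun σ => AddMonoidHom.mulRight (β σ) 1) (σ₀ ^ i • y) := by
    intro i
    induction i with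
    | zero => rw [pow_zero, one_smul]; exact hy
    | succ i ih =>
      rw [pow_succ', mul_smul]
      exact C.tri_hT hϖ (hβ := hβ) h0 1 _ ih
  set Y := ∏ i ∈ Finset.range e, σ₀ ^ i • y with hY
  have hYv : C.v.Eq 0 Y := by
    rw [hY]
    refine Finset.prod_induction _ (fun z => C.v.Eq 0 z) (fun a b ha hb => ?_) OrdFn.eq_one
      (fun i _ => (eq_smul C.hv _).mpr hyv)
    have := ha.mul hb
    rwa [add_zero] at this
  have hYp : ∀ σ : G, σ • Y ^ p = Y ^ p := by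
    intro σ
    have h1 : Y ^ p = ∏ i ∈ Finset.range e, σ₀ ^ i • (y ^ p) := by
      rw [hY, ← Finset.prod_pow]
      exact Finset.prod_congr rfl fun i _ => (smul_pow' _ _ _).symm
    rw [h1]
    exact C.norm_fixed hϖ hσ₀ (C.kum_pow hy) σ
  have hfix := hτ Y hYv hYp
  have hfix' : τ ^ e • Y = Y := by
    have : ∀ k : ℕ, τ ^ k • Y = Y := by
      intro k
      induction k with
      | zero => rw [pow_zero, one_smul]
      | succ k ih => rw [pow_succ, mul_smul, hfix, ih]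
    exact this e
  have hJ : τ ^ e ∈ JJ G ϖ := by
    rw [C.mem_JJ_iff hϖ, map_pow]
    exact C.Th_pow hϖ τ
  have hact : τ ^ e • Y = C.ψ (β (τ ^ e)) ^ e * Y := by
    rw [hY, Finset.smul_prod']
    have h1 : ∀ i ∈ Finset.range e, τ ^ e • σ₀ ^ i • y = C.ψ (β (τ ^ e)) * σ₀ ^ i • y := by
      intro i _
      have := (hkum i).2 _ hJ
      rw [this]
      congr 2
      change 1 * β (τ ^ e) = β (τ ^ e)
      rw [one_mul]
    rw [Finset.prod_congr rfl h1, Finset.prod_mul_distrib, Finset.prod_const, Finset.card_range]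
  rw [hfix'] at hact
  have h2 : C.ψ (β (τ ^ e)) ^ e = 1 := (mul_right_cancel₀ hYv.1 (by rw [one_mul]; exact hact)).symm
  rw [← AddChar.map_nsmul_eq_pow, ← AddChar.map_zero_eq_one C.ψ] at h2
  have h3 := C.hψ h2
  rw [nsmul_eq_mul] at h3
  refine (mul_eq_zero.mp h3).resolve_left fun h4 => ?_
  rw [ZMod.natCast_eq_zero_iff] at h4
  exact not_dvd_e h4

/-- **elements which fix all unit Kummer generators act trivially up to a tame power** -/
theorem flat_tau [IsAlgClosed κ] {ρ : G →* Matrix (Fin 2) (Fin 2) (ZMod p)}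
    (hflat : IsFlatMod C.R (vb ρ)) (hdet : ∀ σ, (ρ σ).det = C.ω σ) {τ : G}
    (hτ : ∀ Y : K, C.v.Eq 0 Y → (∀ σ : G, σ • Y ^ p = Y ^ p) → τ • Y = Y) :
    ρ (τ ^ (p ^ 2 - 1)) = 1 := by
  classical
  have hJ : τ ^ (p ^ 2 - 1) ∈ JJ G ϖ := by
    rw [C.mem_JJ_iff hϖ, map_pow]
    exact C.Th_pow hϖ τ
  by_cases hord : ∃ x : Fin 2 → ZMod p, x ≠ 0 ∧ ∀ σ : G, (ρ σ).mulVec x = (C.ω σ : ZMod p) • x
  swap
  · obtain ⟨σ₀, S⟩ := exists_ss hϖ hflat hdet hord
    exact S.triv _ hJ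
  obtain ⟨x, hx, hxω⟩ := hord
  obtain ⟨σ₀, hσ₀⟩ := C.Th_surj hϖ
  have hω := C.omega_ne_one' hϖ hσ₀
  have hω' : (C.ω σ₀ : ZMod p) ≠ 1 := fun h => hω (Units.ext h)
  have hω0 : (C.ω σ₀ : ZMod p) ≠ 0 := (C.ω σ₀).ne_zero
  set s := ρ σ₀ with hs
  set d : ZMod p := ((C.ω σ₀ : (ZMod p)ˣ) : ZMod p) with hd
  have hsx : s.mulVec x = d • x := hxω σ₀
  have hsdet : s.det = d := hdet σ₀
  -- the trace
  have htr : s.trace = d + 1 := by
    have h1 : s.mulVec (s.mulVec x) - s.trace • s.mulVec x + s.det • x = 0 := by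
      ext i
      fin_cases i <;>
      simp [Matrix.mulVec, dotProduct, Fin.sum_univ_two, Matrix.det_fin_two,
        Matrix.trace_fin_two] <;> ring
    rw [hsx, Matrix.mulVec_smul, hsx, hsdet, smul_smul, smul_smul, ← sub_smul, ← add_smul] at h1
    have h2 := (smul_eq_zero.mp h1).resolve_right hx
    have h3 : d * (d + 1 - s.trace) = 0 := by linear_combination h2
    exact (sub_eq_zero.mp ((mul_eq_zero.mp h3).resolve_left hω0)).symm
  obtain ⟨v, hv, hsv⟩ : ∃ v : Fin 2 → ZMod p, v ≠ 0 ∧ s.mulVec v = v := by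
    have h1 : (s - 1).det = 0 := by
      have : (s - 1).det = 1 - s.trace + s.det := by
        simp [Matrix.det_fin_two, Matrix.trace_fin_two]; ring
      rw [this, htr, hsdet]; ring
    obtain ⟨v, hv, hv0⟩ := Matrix.exists_mulVec_eq_zero_iff.mpr h1
    refine ⟨v, hv, ?_⟩
    rwa [Matrix.sub_mulVec, Matrix.one_mulVec, sub_eq_zero] at hv0
  set P : Matrix (Fin 2) (Fin 2) (ZMod p) := !![x 0, v 0; x 1, v 1] with hP
  have hPdet : P.det ≠ 0 := by
    intro h0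
    rw [hP, Matrix.det_fin_two_of] at h0
    have h1 : ∃ a b : ZMod p, (a ≠ 0 ∨ b ≠ 0) ∧ a • x + b • v = 0 := by
      by_cases hx0 : x 0 = 0
      · have hx1 : x 1 ≠ 0 := by
          intro h; apply hx; ext i; fin_cases i
          · exact hx0
          · exact h
        have hv0 : v 0 = 0 := by
          rw [hx0, zero_mul, zero_sub, neg_eq_zero] at h0
          exact (mul_eq_zero.mp h0).resolve_right hx1
        refine ⟨v 1, -x 1, Or.inr (neg_ne_zero.mpr hx1), ?_⟩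
        ext i; fin_cases i
        · simp [hx0, hv0]
        · simp; ring
      · refine ⟨v 0, -x 0, Or.inr (neg_ne_zero.mpr hx0), ?_⟩
        ext i; fin_cases i
        · simp; ring
        · simp; linear_combination -h0
    obtain ⟨a, b, hab, h2⟩ := h1
    have h3 := congrArg s.mulVec h2
    rw [Matrix.mulVec_add, Matrix.mulVec_smul, Matrix.mulVec_smul, hsx, hsv,
      Matrix.mulVec_zero] at h3
    have h4 : (a * (d - 1)) • x = 0 := by
      have : (a * (d - 1)) • x = (a • d • x + b • v) - (a • x + b • v) := by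
        rw [smul_smul]; module
      rw [this, h3, h2, sub_zero]
    have h5 := (smul_eq_zero.mp h4).resolve_right hx
    have ha : a = 0 := (mul_eq_zero.mp h5).resolve_right (sub_ne_zero.mpr hω')
    rw [ha, zero_smul, zero_add] at h2
    have hb : b = 0 := (smul_eq_zero.mp h2).resolve_right hv
    rcases hab with h | h
    · exact h ha
    · exact h hb
  have hPu : IsUnit P.det := isUnit_iff_ne_zero.mpr hPdet
  have hP1 : P * P⁻¹ = 1 := Matrix.mul_nonsing_inv P hPu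
  have hP2 : P⁻¹ * P = 1 := Matrix.nonsing_inv_mul P hPu
  let ρ' : G →* Matrix (Fin 2) (Fin 2) (ZMod p) :=
    { toFun := fun σ => P⁻¹ * ρ σ * P
      map_one' := by rw [map_one, mul_one, hP2]
      map_mul' := fun σ τ => by
        rw [map_mul]
        calc P⁻¹ * (ρ σ * ρ τ) * P = P⁻¹ * ρ σ * 1 * ρ τ * P := by
              simp only [mul_assoc, one_mul, mul_one]
          _ = P⁻¹ * ρ σ * (P * P⁻¹) * ρ τ * P := by rw [hP1]
          _ = P⁻¹ * ρ σ * P * (P⁻¹ * ρ τ * P) := by simp only [mul_assoc] }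
  have hρ' : ∀ σ, ρ' σ = P⁻¹ * ρ σ * P := fun σ => rfl
  have hcol0 : ∀ σ : G, (ρ' σ) 0 0 = C.ω σ ∧ (ρ' σ) 1 0 = 0 := by
    intro σ
    have h1 : P.mulVec ![1, 0] = x := by
      ext i; fin_cases i <;> simp [hP]
    have h2 : (ρ' σ).mulVec ![1, 0] = (C.ω σ : ZMod p) • ![1, 0] := by
      rw [hρ', ← Matrix.mulVec_mulVec, ← Matrix.mulVec_mulVec, h1, hxω, Matrix.mulVec_smul, ← h1,
        Matrix.mulVec_mulVec, hP2, Matrix.one_mulVec]
    have e0 := congrFun h2 0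
    have e1 := congrFun h2 1
    simp [Matrix.mulVec, dotProduct, Fin.sum_univ_two] at e0 e1
    exact ⟨e0, e1⟩
  have h11 : ∀ σ : G, ρ' σ 1 1 = 1 := by
    intro σ
    have h1 : (ρ' σ).det = C.ω σ := by
      rw [hρ', Matrix.det_mul, Matrix.det_mul, hdet, mul_right_comm, ← Matrix.det_mul, hP2,
        Matrix.det_one, one_mul]
    rw [Matrix.det_fin_two, (hcol0 σ).1, (hcol0 σ).2, mul_zero, sub_zero] at h1
    have h2 : (C.ω σ : ZMod p) ≠ 0 := (C.ω σ).ne_zero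
    exact mul_left_cancel₀ h2 (h1.trans (mul_one _).symm)
  have hs' : ρ' σ₀ 0 1 = 0 := by
    have h1 : P.mulVec ![0, 1] = v := by
      ext i; fin_cases i <;> simp [hP]
    have h2 : (ρ' σ₀).mulVec ![0, 1] = ![0, 1] := by
      rw [hρ', ← Matrix.mulVec_mulVec, ← Matrix.mulVec_mulVec, h1, hsv, ← h1,
        Matrix.mulVec_mulVec, hP2, Matrix.one_mulVec]
    have e0 := congrFun h2 0
    simp [Matrix.mulVec, dotProduct, Fin.sum_univ_two] at e0
    exact e0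
  have hβ : ∀ σ τ : G, ρ' (σ * τ) 0 1 = C.ω σ * ρ' τ 0 1 + ρ' σ 0 1 *
      ((1 : G →* (ZMod p)ˣ) τ : (ZMod p)ˣ) := by
    intro σ τ
    rw [map_mul, Matrix.mul_apply, Fin.sum_univ_two, (hcol0 σ).1, h11]
    simp
  have hflat' : IsFlatMod C.R (triRep C.ω 1 (fun σ => ρ' σ 0 1) hβ) := by
    let ι : (ZMod p × ZMod p) →+ (Fin 2 → ZMod p) :=
      AddMonoidHom.mk' (fun w => P.mulVec ![w.1, w.2]) fun a b => by
        rw [← Matrix.mulVec_add]
        congr 1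
        ext i; fin_cases i <;> rfl
    refine hflat.sub ι ?_ ?_
    · intro a b hab
      have h1 : P.mulVec ![a.1, a.2] = P.mulVec ![b.1, b.2] := hab
      have h2 := congrArg P⁻¹.mulVec h1
      rw [Matrix.mulVec_mulVec, Matrix.mulVec_mulVec, hP2, Matrix.one_mulVec,
        Matrix.one_mulVec] at h2
      exact Prod.ext (congrFun h2 0) (congrFun h2 1)
    · intro σ w
      change P.mulVec ![(C.ω σ : ZMod p) * w.1 + ρ' σ 0 1 * w.2, _ * w.2] =
        (ρ σ).mulVec (P.mulVec ![w.1, w.2])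
      have h1 : (ρ σ).mulVec (P.mulVec ![w.1, w.2]) = P.mulVec ((ρ' σ).mulVec ![w.1, w.2]) := by
        rw [Matrix.mulVec_mulVec, Matrix.mulVec_mulVec, hρ']
        congr 1
        rw [← Matrix.mul_assoc, ← Matrix.mul_assoc, hP1, Matrix.one_mul]
      rw [h1]
      congr 1
      ext i
      fin_cases i
      · simp [Matrix.mulVec, dotProduct, Fin.sum_univ_two, (hcol0 σ).1]
      · simp [Matrix.mulVec, dotProduct, Fin.sum_univ_two, (hcol0 σ).2, h11]
  have hz := C.tri_tau hϖ hflat' hσ₀ hs' hτ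
  have h1 : ρ' (τ ^ (p ^ 2 - 1)) = 1 := by
    have h00 : ρ' (τ ^ (p ^ 2 - 1)) 0 0 = 1 := by
      rw [(hcol0 _).1, C.omega_JJ hϖ hJ, Units.val_one]
    ext i j
    fin_cases i <;> fin_cases j
    · exact h00
    · exact hz
    · exact (hcol0 _).2
    · exact h11 _
  have h2 : ρ (τ ^ (p ^ 2 - 1)) = P * ρ' (τ ^ (p ^ 2 - 1)) * P⁻¹ := by
    rw [hρ']
    calc ρ (τ ^ (p ^ 2 - 1)) = (P * P⁻¹) * ρ (τ ^ (p ^ 2 - 1)) * (P * P⁻¹) := by
          rw [hP1, Matrix.one_mul, Matrix.mul_one]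
      _ = _ := by simp only [Matrix.mul_assoc]
  rw [h2, h1, Matrix.mul_one, hP1]

end Ctx

end Fermat.Agent.FlatLoc

namespace Fermat.Agent.RT

open Fermat.Agent.FlatLoc Fermat.Agent.SelP Fermat.Agent.S43Glue Fermat.Agent.Carayol
  Fermat.Agent.TWG Fermat.Agent.ECRed

local notation "Qbar" => AlgebraicClosure ℚ
local notation "GQ" => (AlgebraicClosure ℚ ≃ₐ[ℚ] AlgebraicClosure ℚ)

/-- **flat ⇒ the Kummer classes which occur are units** -/
theorem fu_flat {p : ℕ} [hp : Fact p.Prime] (hp2 : p ≠ 2)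
    {ρ : GQ →* Matrix (Fin 2) (Fin 2) (ZMod p)}
    (hdet : ∀ g, (ρ g).det = chiK p (ZMod p) g) (hfl : FlatRes p ρ) {A : ValuationSubring Qbar}
    (hA : A.LiesOverPrime p) (b : Qbar) (hb : b ≠ 0)
    (h1 : ∀ σ ∈ A.inertiaSubgroupIn ℚ, σ (b ^ p) = b ^ p)
    (h2 : ∀ σ ∈ A.inertiaSubgroupIn ℚ, ρ σ = 1 → σ b = b) :
    ∃ l : ℤ, A.valuation (b * (p : Qbar) ^ l) = 1 := by
  obtain ⟨τ, hτ⟩ := exists_isTau hp2 hA
  set C := ctx hp2 hA with hC
  haveI : IsAlgClosed (IsLocalRing.ResidueField A) := GoodRed.isAlgClosed_residueField A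
  obtain ⟨ϖ, hϖ⟩ := exists_varpi p
  let j : II A →* GQ := (A.decompositionSubgroup ℚ).subtype.comp (II A).subtype
  have hfl' : IsFlatMod C.R (vb (ρ.comp j)) := by
    have hR' : ∀ r ∈ RR hA, ∀ σ : II A, σ • r = r := fun r hr => ((C.mem_R r).mp hr).1
    have h3 := IsFlatMod.baseChange (Zloc_le_RR hA) hfl j (fun σ z => rfl) hR'
    exact h3
  obtain ⟨s, hs, hs'⟩ := (mem_Iinf.mp hτ.mem).1
  let sI : II A := ⟨s, hs⟩
  have hj : j sI = τ := hs'
  have hK : ∀ Y : Qbar, (∀ σ : II A, σ • Y ^ p = Y ^ p) → Y ^ p ∈ K0 A := by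
    intro Y hY
    rw [mem_K0]
    rintro _ ⟨σ, hσ, rfl⟩
    exact hY ⟨σ, hσ⟩
  have key := C.flat_tau hϖ hfl' (fun σ => by
    change (ρ (j σ)).det = _
    rw [hdet, TWPr.chiK_eq_cyc]
    rfl) (τ := sI) (fun Y hY hYp => by
      have h3 : A.valuation Y = 1 := by
        have h4 : Y ∈ A := (ge_vA hA).mp hY.ge
        have h5 : ¬ A.valuation Y < 1 := fun h6 => by
          have h7 := (gt_vA hA).mpr h6
          have h8 := (OrdFn.gt_iff hY.1).mp h7
          have h9 : (vA hA).ord Y = 0 := hY.2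
          rw [h9] at h8
          exact lt_irrefl _ h8
        exact le_antisymm ((A.valuation_le_one_iff Y).mpr h4) (not_lt.mp h5)
      have h10 : τ Y = Y := hτ.unit Y ⟨hY.1, 1, by rw [pow_one]; exact hK Y hYp⟩ h3
      rw [← hj] at h10
      exact h10)
  have hρτ : ρ (τ ^ (p ^ 2 - 1)) = 1 := by
    have h3 : (ρ.comp j) (sI ^ (p ^ 2 - 1)) = ρ (τ ^ (p ^ 2 - 1)) := by
      rw [MonoidHom.comp_apply, map_pow, hj]
    rw [← h3]
    exact key
  have hτI := (mem_Iinf.mp hτ.mem).1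
  -- `τ b = b`
  set ζ := τ b / b with hζ
  have hζp : ζ ^ p = 1 := by
    rw [hζ, div_pow, ← map_pow, h1 τ hτI, div_self (pow_ne_zero p hb)]
  have hτb : τ b = ζ * b := by rw [hζ, div_mul_cancel₀ _ hb]
  have hτζ : τ ζ = ζ := fix_of_cycP (mem_Iinf.mp hτ.mem).2 (n := 1) (by rw [pow_one]; exact hζp)
  have hpow : ∀ k : ℕ, (τ ^ k) b = ζ ^ k * b := by
    intro k
    induction k with
    | zero => simp
    | succ k ih =>
      rw [pow_succ', AlgEquiv.mul_apply, ih, map_mul, map_pow, hτζ, hτb]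
      ring
  have h3 := h2 (τ ^ (p ^ 2 - 1)) (pow_mem hτI _) hρτ
  rw [hpow] at h3
  have h4 : ζ ^ (p ^ 2 - 1) = 1 := mul_right_cancel₀ hb (by rw [one_mul]; exact h3)
  have h5 : ζ = 1 := by
    have h6 : orderOf ζ ∣ p := orderOf_dvd_of_pow_eq_one hζp
    have h7 : orderOf ζ ∣ p ^ 2 - 1 := orderOf_dvd_of_pow_eq_one h4
    rcases (Nat.dvd_prime hp.out).mp h6 with h8 | h8
    · exact orderOf_eq_one_iff.mp h8
    · rw [h8] at h7
      exact absurd h7 Ctx.not_dvd_e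
  have h6 : τ b = b := by rw [hτb, h5, one_mul]
  have hkum : Kum p A b := by
    refine ⟨hb, 1, ?_⟩
    rw [pow_one, mem_K0]
    exact fun σ hσ => h1 σ hσ
  obtain ⟨m, hm⟩ := hτ.val_of_fixed hA hkum h6
  refine ⟨-m, ?_⟩
  rw [map_mul, hm, map_zpow₀, ← zpow_add₀ val_p_ne, add_neg_cancel, zpow_zero]

end Fermat.Agent.RT
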