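import Fermat.Agent.RT.A2a
import Fermat.Agent.RT.FUFlat

/-!
# Level lowering at `p` (A2)
-/

set_option autoImplicit false

namespace Fermat.Agent.RT

/-- **(A2)** -/
theorem a2 {p : ℕ} [Fact p.Prime] (hp2 : p ≠ 2) : TWG.A2St p :=
  AtH.a2_of hp2 fun _ _ hdet hfl _ hA b hb h1 h2 => fu_flat hp2 hdet hfl hA b hb h1 h2

end Fermat.Agent.RT
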