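import Fermat.Agent.TWG.Res

/-!
# T7: level lowering, statements
-/

set_option autoImplicit false

noncomputable section

namespace Fermat.Agent.TWG

open Fermat.Agent.S43Glue Fermat.Agent.TW56 Fermat.Agent.DefRing

local notation "Qbar" => AlgebraicClosure ℚ

/-- (T7a) Mazur's principle -/
def MazG (p : ℕ) [Fact p.Prime] : Prop :=
  ∀ (M q : ℕ) [NeZero M] [NeZero (M * q)] (S : Set ℕ)
    (ρ : GQ →* Matrix (Fin 2) (Fin 2) (ZMod p)),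
    q.Prime → ¬ q ∣ M → q ≠ p → S.Finite → p ∈ S → (∀ r : ℕ, r.Prime → r ∣ M * q → r ∈ S) →
    (p ≠ 3 ∨ ∃ r : ℕ, r.Prime ∧ r % 3 = 2 ∧ r ∣ M) →
    FinLevel ρ → (∀ g, (ρ g).det = chiK p (ZMod p) g) →
    Submodule.span (ZMod p) (Set.range ρ) = ⊤ →
    (∀ A : ValuationSubring Qbar, A.LiesOverPrime q → ∀ σ ∈ A.inertiaSubgroupIn ℚ, ρ σ = 1) →
    HMod ρ (M * q) S →
      HMod ρ M S ∨ (p ∣ q - 1 ∧ ∀ A : ValuationSubring Qbar, A.LiesOverPrime q →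
        ∀ τ : GQ, A.IsFrobeniusAt τ q → ρ τ = 1 ∨ ρ τ = -1)

/-- (A2) `p ∥ N`, `ρ` flat at `p` -/
def A2St (p : ℕ) [Fact p.Prime] : Prop :=
  ∀ (M : ℕ) [NeZero M] [NeZero (p * M)] (S : Set ℕ)
    (ρ : GQ →* Matrix (Fin 2) (Fin 2) (ZMod p)),
    ¬ p ∣ M → S.Finite → p ∈ S → (∀ r : ℕ, r.Prime → r ∣ p * M → r ∈ S) →
    (p ≠ 3 ∨ ∃ r : ℕ, r.Prime ∧ r % 3 = 2 ∧ r ∣ M) →
    FinLevel ρ → (∀ g, (ρ g).det = chiK p (ZMod p) g) →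
    Submodule.span (ZMod p) (Set.range ρ) = ⊤ →
    FlatRes p ρ → HMod ρ (p * M) S → HMod ρ M S

/-- (A3) `q² ∥ N`, `ρ` unipotent at `q` -/
def A3St (p : ℕ) [Fact p.Prime] : Prop :=
  ∀ (q N : ℕ) [NeZero (q ^ 2 * N)] [NeZero (q * N)] (S : Set ℕ)
    (ρ : GQ →* Matrix (Fin 2) (Fin 2) (ZMod p)),
    q.Prime → q ≠ p → ¬ q ∣ N → S.Finite → p ∈ S → (∀ r : ℕ, r.Prime → r ∣ q * N → r ∈ S) →
    (p ≠ 3 ∨ ∃ r : ℕ, r.Prime ∧ r % 3 = 2 ∧ r ∣ N) →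
    FinLevel ρ → (∀ g, (ρ g).det = chiK p (ZMod p) g) →
    Submodule.span (ZMod p) (Set.range ρ) = ⊤ →
    (∀ A : ValuationSubring Qbar, A.LiesOverPrime q → ∀ σ ∈ A.inertiaSubgroupIn ℚ,
      (ρ σ - 1) * (ρ σ - 1) = 0) →
    HMod ρ (q ^ 2 * N) S → HMod ρ (q * N) S

/-- the minimal level -/
structure IsMinLevel (p : ℕ) [Fact p.Prime] (ρ : GQ →* Matrix (Fin 2) (Fin 2) (ZMod p))
    (N : ℕ) : Prop where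
  sqf : Squarefree N
  ram : ∀ q : ℕ, q.Prime → q ≠ p → (q ∣ N ↔ ¬ UnrAt ρ q)
  atp : p ∣ N ↔ ¬ FlatRes p ρ

/-- **(T7)** level lowering to the minimal level -/
def LowSt (p : ℕ) [Fact p.Prime] : Prop :=
  ∀ (ρ : GQ →* Matrix (Fin 2) (Fin 2) (ZMod p)), SSRep p ρ → (FlatRes p ρ ∨ MOrd p ρ) →
    ∀ (M₀ : ℕ) [NeZero M₀] (S : Set ℕ), S.Finite → p ∈ S → (∀ r : ℕ, r.Prime → r ∣ M₀ → r ∈ S) →
    ¬ p ^ 2 ∣ M₀ → (∀ q : ℕ, q.Prime → q ≠ p → ¬ q ^ 3 ∣ M₀) → HMod ρ M₀ S →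
    ∃ (N₀ : ℕ) (_ : NeZero N₀), N₀ ∣ M₀ ∧ IsMinLevel p ρ N₀ ∧ HMod ρ N₀ S

/-- raising the level -/
def RaiseSt (p : ℕ) [Fact p.Prime] : Prop :=
  ∀ (ρ : GQ →* Matrix (Fin 2) (Fin 2) (ZMod p)) (M N : ℕ) [NeZero M] [NeZero N] (S : Set ℕ),
    M ∣ N → (∀ r : ℕ, r.Prime → r ∣ N → r ∈ S) → HMod ρ M S → HMod ρ N S

/-- the auxiliary prime for `p = 3` -/
def AuxPrimeSt (p : ℕ) [Fact p.Prime] : Prop :=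
  ∀ (ρ : GQ →* Matrix (Fin 2) (Fin 2) (ZMod p)), SSRep p ρ → p = 3 → ∀ (S : Set ℕ), S.Finite →
    (∀ q : ℕ, q.Prime → q ∉ S → UnrAt ρ q) →
    ∃ r : ℕ, r.Prime ∧ r ∉ S ∧ r % 3 = 2 ∧ (r : ZMod p) ≠ 1 ∧
      ∀ A : ValuationSubring Qbar, A.LiesOverPrime r → ∀ τ : GQ, A.IsFrobeniusAt τ r →
        (ρ τ).trace ^ 2 ≠ ((r : ZMod p) + 1) ^ 2

end Fermat.Agent.TWG
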