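import Fermat.Agent.AtH.Main
import Fermat.Agent.RT.LowSt
import Fermat.Agent.TWG.Raise
import Fermat.Agent.MazurP3.Final

/-!
# Level lowering at `p` (A2)
-/

set_option autoImplicit false
set_option linter.unusedSectionVars false
set_option linter.style.haveILetI false
set_option synthInstance.maxHeartbeats 400000

noncomputable section

namespace Fermat.Agent.AtH

open ModularCurve Fermat.Agent.GoodRed Fermat.Agent.Models Fermat.Agent.ModFun
open Fermat.Agent.Curves AlgebraicCurve IsLocalRing Fermat.Agent.SSMod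
open Fermat.Agent.HeckeQ Fermat.Agent.Mono Fermat.Agent.MazurP Fermat.Agent.AtP
open Fermat.Agent.AnJac Fermat.Agent.GalRep Fermat.Agent.S43Glue CuspForm Matrix
open Fermat.Agent.AtG Fermat.Agent.TWG Fermat.Agent.PicFlat

local notation "Qbar" => AlgebraicClosure ℚ
local notation "GQ" => Qbar ≃ₐ[ℚ] Qbar

/-- the input on flat representations -/
def FUFlatSt (p : ℕ) [Fact p.Prime] : Prop :=
  ∀ (ρ : GQ →* Matrix (Fin 2) (Fin 2) (ZMod p)), FinLevel ρ →
    (∀ g, (ρ g).det = chiK p (ZMod p) g) → FlatRes p ρ →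
    ∀ A : ValuationSubring Qbar, A.LiesOverPrime p → ∀ b : Qbar, b ≠ 0 →
      (∀ σ ∈ A.inertiaSubgroupIn ℚ, σ (b ^ p) = b ^ p) →
      (∀ σ ∈ A.inertiaSubgroupIn ℚ, ρ σ = 1 → σ b = b) →
        ∃ l : ℤ, A.valuation (b * (p : Qbar) ^ l) = 1

/-- level lowering at `p`, direct cases -/
theorem a2_direct {p : ℕ} [hp : Fact p.Prime] (hp2 : p ≠ 2) (hFU : FUFlatSt p) {M : ℕ} [NeZero M]
    [NeZero (p * M)] (h3 : p = 3 → 2 ∣ M) {S : Set ℕ} {ρ : GQ →* Matrix (Fin 2) (Fin 2) (ZMod p)}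
    (hpM : ¬ p ∣ M) (hS : S.Finite) (hpS : p ∈ S) (hMS : ∀ r : ℕ, r.Prime → r ∣ p * M → r ∈ S)
    (hρ : FinLevel ρ) (hdet : ∀ g, (ρ g).det = chiK p (ZMod p) g)
    (hspan : Submodule.span (ZMod p) (Set.range ρ) = ⊤) (hfl : FlatRes p ρ)
    (hmod : HMod ρ (p * M) S) : HMod ρ M S := by
  haveI : NeZero p := ⟨hp.out.ne_zero⟩
  have hcop : Nat.Coprime p M := (Nat.Prime.coprime_iff_not_dvd hp.out).mpr hpM
  obtain ⟨A, hA, -⟩ := Frob.exists_place_frobenius hp.out
  haveI := FrobDens.charP_residueField A hp.out hA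
  letI : Algebra (ZMod p) (ResidueField A) := ZMod.algebra _ p
  haveI := TWGal.isAlgebraic_residueField (A := A) hp.out hA
  have hNK : (M : Qbar) ≠ 0 := by exact_mod_cast NeZero.ne M
  have hNκ : (M : ResidueField A) ≠ 0 := SSMod.cast_ne_zero_of_coprime (q := p) hcop
  haveI := Curves.isFunctionField_fullC (ResidueField A) M hNκ
  have hgood := exists_jGood hp.out hA M (fun h => absurd h hp2) h3 hNK hNκ
  have hJ : JLift (residue A) M := jLift_of_good residue_surjective hNK hNκ hgood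
  have h5 : 5 ≤ p ∨ (p = 3 ∧ nuThree M = 0) := by
    by_cases h : p = 3
    · right
      exact ⟨h, MazurP3.nuThree_eq_zero_of_prime (r := 2) Nat.prime_two (by norm_num) (h3 h)⟩
    · left
      have h1 := hp.out.two_le
      by_contra hcon
      have h4 : p = 4 := by omega
      exact absurd hp.out (by rw [h4]; decide)
  refine at_p_aux_odd h5 hpM hS hpS hMS hρ hdet hspan hA hJ ?_ (fun b hb h1 h2 => ?_) hmod
  · intro P hP v hv h
    exact op_eq_pow_odd (hasPrim_κ hpS) (fun h => absurd h hp2) h3 hA hpM hpS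
      (fun i hi => i.2.2 (hMS i.1 i.2.1 (hi.mul_left _))) P hP hv h
  · exact hFU ρ hρ hdet hfl A hA b hb h1 h2

/-- **(A2)** -/
theorem a2_of {p : ℕ} [hp : Fact p.Prime] (hp2 : p ≠ 2) (hFU : FUFlatSt p) : A2St p := by
  intro M _ _ S ρ hpM hS hpS hMS haux hρ hdet hspan hfl hmod
  by_cases h : p = 3 → 2 ∣ M
  · exact a2_direct hp2 hFU h hpM hS hpS hMS hρ hdet hspan hfl hmod
  push Not at h
  obtain ⟨h3, h2M⟩ := h
  have hMaz := MazurP3.mazurPrinciple_odd p hp2
  have hM0 := NeZero.ne M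
  haveI : NeZero (M * 2) := ⟨mul_ne_zero hM0 two_ne_zero⟩
  haveI : NeZero (p * (M * 2)) := ⟨mul_ne_zero hp.out.ne_zero (NeZero.ne (M * 2))⟩
  let S' : Set ℕ := insert 2 S
  have hS' : S'.Finite := hS.insert 2
  have hpS' : p ∈ S' := Set.mem_insert_of_mem _ hpS
  have hMS' : ∀ r : ℕ, r.Prime → r ∣ p * (M * 2) → r ∈ S' := by
    intro r hr hrM
    rw [← mul_assoc] at hrM
    rcases (Nat.Prime.dvd_mul hr).1 hrM with h | h
    · exact Set.mem_insert_of_mem _ (hMS r hr h)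
    · rw [(Nat.prime_dvd_prime_iff_eq hr Nat.prime_two).1 h]
      exact Set.mem_insert _ _
  have hp2' : ¬ p ∣ M * 2 := by
    intro h
    rcases (Nat.Prime.dvd_mul hp.out).1 h with h | h
    · exact hpM h
    · exact hp2 ((Nat.prime_dvd_prime_iff_eq hp.out Nat.prime_two).1 h)
  have h1 : HMod ρ (p * (M * 2)) S' := raise p ρ (p * M) (p * (M * 2)) S'
    (mul_dvd_mul_left p (dvd_mul_right M 2)) hMS' (hmod.mono (Set.subset_insert _ _))
  have h2 : HMod ρ (M * 2) S' := a2_direct hp2 hFU (fun _ => dvd_mul_left 2 M) hp2' hS' hpS' hMS'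
    hρ hdet hspan hfl h1
  have hunr : ∀ A : ValuationSubring Qbar, A.LiesOverPrime 2 → ∀ σ ∈ A.inertiaSubgroupIn ℚ,
      ρ σ = 1 := by
    intro A hA σ hσ
    refine hmod.unramified hρ hdet hspan hS hpS Nat.prime_two (fun h => ?_) (Ne.symm hp2) hA hσ
    rcases (Nat.Prime.dvd_mul Nat.prime_two).1 h with h | h
    · exact hp2 ((Nat.prime_dvd_prime_iff_eq Nat.prime_two hp.out).1 h).symm
    · exact h2M h
  rcases hMaz M 2 S' ρ haux Nat.prime_two h2M (Ne.symm hp2) hS' hpS'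
    (fun r hr hrM => hMS' r hr (hrM.mul_left p)) hρ hdet hspan hunr h2 with h4 | ⟨h4, -⟩
  · exact h4.shrink hρ hdet hS' (Set.subset_insert _ _) hpS
      (fun q hq hqM => hMS q hq (hqM.mul_left p))
  · exact absurd (Nat.le_of_dvd (by norm_num) h4) (by have := hp.out.two_le; omega)

end Fermat.Agent.AtH
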