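import Fermat.Agent.RT.BRep

/-!
# The data of level `n`
-/

set_option autoImplicit false
set_option maxHeartbeats 400000

noncomputable section

namespace Fermat.Agent.RT

open IsLocalRing Matrix Fermat.Agent.DefRing Fermat.Agent.GalRep Fermat.Agent.TWPatch
  Fermat.Agent.TWLoc Fermat.Agent.TWGal CuspForm Fermat.Agent.AnJac Fermat.Agent.HeckeQ
open Fermat.Agent.TWCoh hiding GQ

local notation "Qbar" => AlgebraicClosure ℚ

attribute [local instance] algDk BLev.cnl

variable {p : ℕ} [hpf : Fact p.Prime] {O : Type} [CommRing O] [CNL O] {G : Bas p O}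

section Points

variable {K : Type} [Field K] [CharZero K] [IsAlgClosed K] [Algebra O K] {r n : ℕ} (L : BLev G r n)

/-- points of the first type -/
def BLev.P (K : Type) [Field K] [Algebra O K] : Type :=
  Σ χ : DG p n r →* Kˣ, EPt L.pcond L.ψ K (chHom O K (DG p n r) χ)

variable {L}

/-- the values of the points -/
def yy (e : L.P K) : L.R →+* K := e.2.y.comp (toFN₁ L.pcond)

theorem yy_Λ (e : L.P K) (x : DRing O p n r) :
    yy e (algebraMap _ L.R x) = chHom O K (DG p n r) e.1 x := by
  rw [yy, RingHom.comp_apply, toFN₁_algebraMap, e.2.y_algebraMap]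

theorem algebraMap_RO (a : O) :
    algebraMap O L.R a = algebraMap (DRing O p n r) L.R (algebraMap O _ a) := rfl

theorem yy_O (e : L.P K) (a : O) : yy e (algebraMap O L.R a) = algebraMap O K a := by
  rw [algebraMap_RO, yy_Λ, chHom_algebraMap]

variable (hinj : Function.Injective (algebraMap O K))

include hinj in
theorem exists_P {t : L.R} (ht : toFN₁ L.pcond t ≠ 0) : ∃ e : L.P K, yy e t ≠ 0 := by
  haveI := G.cnlDk n r
  obtain ⟨χ, e, he⟩ := exists_EPt₁ L.pcond (fun χ : DG p n r →* Kˣ => chHom O K (DG p n r) χ)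
    (fun x hx => chHom_injective hinj x hx) ht
  exact ⟨⟨χ, e⟩, he⟩

theorem toFN_eq (x : L.R) : toFN₂ L.pcond x = toFN₁ L.pcond x := by
  have key : ∀ x ∈ Algebra.adjoin (DRing O p n r) (Set.range (TN.T L.pcond)),
      toFN₂ L.pcond x = toFN₁ L.pcond x := by
    intro x hx
    induction hx using Algebra.adjoin_induction with
    | mem x hx =>
      obtain ⟨l, rfl⟩ := hx
      rw [toFN₁_T, toFN₂_T]
    | algebraMap a => rw [toFN₁_algebraMap, toFN₂_algebraMap]
    | add x y _ _ hx hy => rw [map_add, map_add, hx, hy]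
    | mul x y _ _ hx hy => rw [map_mul, map_mul, hx, hy]
  exact key x (by rw [TN.adjoin]; trivial)

include hinj in
/-- the points are jointly injective -/
theorem ext_points {s t : L.R} (h1 : ∀ e : L.P K, yy e s = yy e t) : s = t := by
  rw [← sub_eq_zero]
  have h2 : toFN₁ L.pcond (s - t) = 0 := by
    by_contra hne
    obtain ⟨e, he⟩ := exists_P hinj hne
    exact he (by rw [map_sub, h1, sub_self])
  exact TN_ext L.pcond h2 (by rw [toFN_eq]; exact h2)

end Points

end Fermat.Agent.RT
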