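import Fermat.Agent.RT.BRing

import Fermat.Agent.TWInst.Zero

/-!
# The ring at level zero
-/

set_option autoImplicit false
set_option maxHeartbeats 400000

noncomputable section

namespace Fermat.Agent.RT

open IsLocalRing Matrix Fermat.Agent.DefRing Fermat.Agent.GalRep Fermat.Agent.TWPatch
  Fermat.Agent.TWLoc Fermat.Agent.TWGal CuspForm Fermat.Agent.AnJac Fermat.Agent.HeckeQ
open Fermat.Agent.TWCoh hiding GQ

local notation "Qbar" => AlgebraicClosure ℚ

attribute [local instance] algDk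

section Zero

variable {p : ℕ} [hpf : Fact p.Prime] {O : Type} [CommRing O] [CNL O] (G : Bas p O)

/-- the ring at level zero -/
abbrev Bas.R₀ : Type := T0 O G.N G.τ (Set.Subset.refl G.S)

theorem rnI_refl (t : HA O G.S) : rnI O (Set.Subset.refl G.S) t = t := by
  have : rnI O (Set.Subset.refl G.S) = AlgHom.id O _ := by
    apply MvPolynomial.algHom_ext
    intro l
    rw [rnI_X]
    rfl
  rw [this]
  rfl

theorem Bas.mk₀_eq_zero {t : HA O G.S} :
    (Ideal.Quotient.mk _ t : G.R₀) = 0 ↔ ∀ x : M0 O G.N G.τ, t • x = 0 := by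
  rw [Ideal.Quotient.eq_zero_iff_mem, Ideal.mem_comap, rnI_refl, Module.mem_annihilator]

variable {d : ℕ} (b₀ : Module.Basis (Fin d) O (M0 O G.N G.τ))

/-- the action on the module of level zero -/
def Bas.a₀ : G.R₀ →+* Matrix (Fin d) (Fin d) O :=
  Ideal.Quotient.lift _ (((LinearMap.toMatrixAlgEquiv b₀).toRingEquiv.toRingHom).comp
    (Algebra.lsmul O O (M0 O G.N G.τ)).toRingHom) (fun t ht => by
      have h1 := (G.mk₀_eq_zero).mp (Ideal.Quotient.eq_zero_iff_mem.mpr ht)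
      have h2 : (Algebra.lsmul O O (M0 O G.N G.τ) : HA O G.S →ₐ[O] Module.End O _) t = 0 :=
        LinearMap.ext h1
      change LinearMap.toMatrixAlgEquiv b₀ (Algebra.lsmul O O (M0 O G.N G.τ) t) = 0
      rw [h2, map_zero])

theorem Bas.a₀_mk (t : HA O G.S) : G.a₀ b₀ (Ideal.Quotient.mk _ t) =
    LinearMap.toMatrix b₀ b₀ (Algebra.lsmul O O (M0 O G.N G.τ) t : Module.End O _) := rfl

theorem Bas.a₀_injective : Function.Injective (G.a₀ b₀) := by
  rw [injective_iff_map_eq_zero]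
  intro t ht
  obtain ⟨t, rfl⟩ := Ideal.Quotient.mk_surjective t
  rw [G.a₀_mk] at ht
  rw [G.mk₀_eq_zero]
  have h1 := (LinearEquiv.map_eq_zero_iff (LinearMap.toMatrix b₀ b₀)).mp ht
  exact fun x => LinearMap.congr_fun h1 x

theorem Bas.a₀_smul (a : O) (t : G.R₀) : G.a₀ b₀ (a • t) = a • G.a₀ b₀ t := by
  obtain ⟨t, rfl⟩ := Ideal.Quotient.mk_surjective t
  have h1 : a • (Ideal.Quotient.mk _ t : G.R₀) = Ideal.Quotient.mk _ (a • t) := rfl
  rw [h1, G.a₀_mk, G.a₀_mk, map_smul, map_smul]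

include b₀ in
theorem Bas.fin₀ : Module.Finite O G.R₀ := by
  let g : G.R₀ →ₗ[O] Matrix (Fin d) (Fin d) O :=
    { toFun := G.a₀ b₀
      map_add' := map_add _
      map_smul' := G.a₀_smul b₀ }
  exact Module.Finite.of_injective g (G.a₀_injective b₀)

variable [Nontrivial (M0 O G.N G.τ)]

theorem Bas.exists_κ₀ : ∃ g : G.R₀ →ₐ[O] ResidueField O,
    ∀ l : PS G.S, g (T0.T (Set.Subset.refl G.S) l) = G.τ l := by
  obtain ⟨g, h1, h2⟩ := T0_local (O := O) (k := ResidueField O) (N := G.N) (τ := G.τ)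
    residue_surjective (Set.Subset.refl G.S)
  exact ⟨{ g with commutes' := h1 }, h2⟩

/-- the residue map of level zero -/
def Bas.κ₀ : G.R₀ →ₐ[O] ResidueField O := G.exists_κ₀.choose

theorem Bas.κ₀_T (l : PS G.S) : G.κ₀ (T0.T (Set.Subset.refl G.S) l) = G.τ l :=
  G.exists_κ₀.choose_spec l

theorem Bas.κ₀_mk (t : HA O G.S) :
    G.κ₀ (Ideal.Quotient.mk _ t) = MvPolynomial.aeval (R := O) G.τ t := by
  have h2 : G.κ₀.comp (Ideal.Quotient.mkₐ O _) = MvPolynomial.aeval (R := O) G.τ := by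
    apply MvPolynomial.algHom_ext
    intro l
    rw [MvPolynomial.aeval_X]
    exact G.κ₀_T l
  rw [← h2]
  rfl

theorem Bas.isLocal₀ : IsLocalRing G.R₀ := by
  have hmax := evI_isMaximal (Λ := O) (k := ResidueField O) residue_surjective G.τ
  have hm : (RingHom.ker (G.κ₀ : G.R₀ →+* ResidueField O)).IsMaximal :=
    RingHom.ker_isMaximal_of_surjective _ (kappa_surjective G.κ₀)
  refine IsLocalRing.of_unique_max_ideal ⟨_, hm, fun n hn => ?_⟩
  have hn' : (n.comap (Ideal.Quotient.mk ((Module.annihilator (HA O G.S)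
      (M0 O G.N G.τ)).comap (rnI O (Set.Subset.refl G.S))))).IsMaximal :=
    Ideal.comap_isMaximal_of_surjective _ Ideal.Quotient.mk_surjective
  have h1 := ann_maximal_eq (Λ := O) (M := M0 O G.N G.τ) residue_surjective
    (fun t ht x => loc_exists O _ ht x) hn' (fun t ht => by
      rw [Ideal.mem_comap, G.mk₀_eq_zero.mpr (Module.mem_annihilator.mp ht)]
      exact n.zero_mem)
  ext t
  obtain ⟨t, rfl⟩ := Ideal.Quotient.mk_surjective t
  rw [← Ideal.mem_comap, h1, mem_evI, RingHom.mem_ker]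
  change _ ↔ G.κ₀ (Ideal.Quotient.mk _ t) = 0
  rw [G.κ₀_mk]

/-- the algebra at level zero is complete -/
theorem Bas.cnl₀ {d : ℕ} (b₀ : Module.Basis (Fin d) O (M0 O G.N G.τ)) : CNL G.R₀ :=
  haveI := G.isLocal₀
  haveI := G.fin₀ b₀
  CNL.of_finite (O := O)

/-- generation -/
theorem Bas.adjoin₀ : Algebra.adjoin O (Set.range (T0.T (O := O) (N := G.N) (τ := G.τ)
    (Set.Subset.refl G.S))) = ⊤ := by
  rw [eq_top_iff]
  rintro x -
  obtain ⟨x, rfl⟩ := Ideal.Quotient.mk_surjective x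
  induction x using MvPolynomial.induction_on with
  | C r => exact Subalgebra.algebraMap_mem _ r
  | add p q hp hq => rw [map_add]; exact add_mem hp hq
  | mul_X p l hp => rw [map_mul]; exact mul_mem hp (Algebra.subset_adjoin ⟨l, rfl⟩)

/-- the map from the Hecke algebra of level `N` -/
theorem Bas.exists_x₀ {K : Type} [Field K] [CharZero K] (φC : O →+* K)
    (hinj : Function.Injective φC) : ∃ x₀ : heckeAlgebra G.N 2 G.S →+* G.R₀,
      ∀ l : PS G.S, x₀ (gT G.not_dvd_N l) = T0.T (Set.Subset.refl G.S) l :=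
  exists_heckeHom_M0 φC hinj (Set.Subset.refl G.S) G.not_dvd_N G.hNS
    (G.noneis G.N G.nz.out)

variable {G}
variable {r n : ℕ} (L : BLev G r n)

/-- the polynomial map underlying `β` -/
def BLev.βp : HA (DRing O p n r) (bad L.Q) →+* G.R₀ :=
  (Ideal.Quotient.mk _).comp ((rn O L.Q).toRingHom.comp
    (MvPolynomial.map (aug O (DG p n r)).toRingHom))

theorem BLev.βp_X (l : PS (bad L.Q)) :
    L.βp (MvPolynomial.X l) = T0.T (Set.Subset.refl G.S) (inclPS (sub_bad L.Q) l) := by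
  change Ideal.Quotient.mk _ (rn O L.Q (MvPolynomial.map _ (MvPolynomial.X l))) = _
  rw [MvPolynomial.map_X, rn_X]
  rfl

theorem BLev.βp_C (x : DRing O p n r) :
    L.βp (MvPolynomial.C x) = algebraMap O _ (aug O (DG p n r) x) := by
  change Ideal.Quotient.mk _ (rn O L.Q (MvPolynomial.map _ (MvPolynomial.C x))) = _
  rw [MvPolynomial.map_C, ← MvPolynomial.algebraMap_eq, AlgHom.commutes]
  rfl

theorem BLev.βp_eq_zero {t : HA (DRing O p n r) (bad L.Q)}
    (ht : t ∈ annT (sub_bad L.Q) L.ψ (allP L.Q ∅)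
      (MQ (N := G.N) (I := ∅) G.τ L.α L.pcond.cdr_dvd L.ψ)) : L.βp t = 0 := by
  haveI := G.cnlDk n r
  obtain ⟨π, hπ, -, h2⟩ := exists_pi L.pcond
  change Ideal.Quotient.mk _ (rn O L.Q (MvPolynomial.map _ t)) = (0 : G.R₀)
  rw [G.mk₀_eq_zero]
  intro y
  obtain ⟨x, rfl⟩ := hπ y
  rw [← h2, mem_annT.1 ht, map_zero]

/-- reduction to level zero, as a ring homomorphism -/
def BLev.btr : L.R →+* G.R₀ :=
  Ideal.Quotient.lift _ L.βp (fun _ ht => L.βp_eq_zero
    ((Submodule.mem_inf (p := annT (sub_bad L.Q) L.ψ (allP L.Q ∅)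
      (MQ (N := G.N) (I := ∅) G.τ L.α L.pcond.cdr_dvd L.ψ))).mp ht).1)

/-- reduction to level zero -/
def BLev.bt : L.R →ₐ[O] G.R₀ :=
  { L.btr with
    commutes' := fun a => by
      change L.βp (algebraMap O _ a) = _
      have h1 : (algebraMap O (HA (DRing O p n r) (bad L.Q)) a) =
        MvPolynomial.C (algebraMap O (DRing O p n r) a) := rfl
      rw [h1, L.βp_C, AlgHom.commutes]
      rfl }

theorem BLev.bt_mk (t : HA (DRing O p n r) (bad L.Q)) :
    L.bt (Ideal.Quotient.mk _ t) = Ideal.Quotient.mk _ (rn O L.Q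
      (MvPolynomial.map (aug O (DG p n r)).toRingHom t)) := rfl

theorem BLev.bt_T (l : PS (bad L.Q)) :
    L.bt (TN.T L.pcond l) = T0.T (Set.Subset.refl G.S) (inclPS (sub_bad L.Q) l) := L.βp_X l

theorem BLev.bt_Λ (x : DRing O p n r) :
    L.bt (algebraMap _ L.R x) = algebraMap O _ (aug O (DG p n r) x) := L.βp_C x

/-- compatibility of the residue maps -/
theorem BLev.κ₀_bt (x : L.R) : G.κ₀ (L.bt x) = L.κ x := by
  have key : ∀ x ∈ Algebra.adjoin (DRing O p n r) (Set.range (TN.T L.pcond)),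
      G.κ₀ (L.bt x) = L.κ x := by
    intro x hx
    induction hx using Algebra.adjoin_induction with
    | mem x hx =>
      obtain ⟨l, rfl⟩ := hx
      rw [L.bt_T, G.κ₀_T, L.κ_T]
    | algebraMap a =>
      rw [L.bt_Λ, L.κ_Λ, AlgHom.commutes]
      rfl
    | add x y _ _ hx hy => rw [map_add, map_add, map_add, hx, hy]
    | mul x y _ _ hx hy => rw [map_mul, map_mul, map_mul, hx, hy]
  exact key x (by rw [TN.adjoin]; trivial)

end Zero

end Fermat.Agent.RT
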