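import Fermat.Agent.TWInst.Rep
import Fermat.Agent.TWCoh.Points2
import Fermat.Agent.TWCoh.Diamond
import Fermat.Agent.TWCoh.M0Hom

/-!
# The base data for the Taylor-Wiles method in the minimal case of `R = T`

`Bas p O` generalises `TWInst.Glob`: any odd `p`, any level `N` (also `p ∣ N`), no auxiliary
family of ramified characters.  `BLev G r n` = Taylor-Wiles primes `q ≡ 1 mod p^(n+1)` together with
the diamond characters with values in `DRing O p n r = O[(ℤ/p^n)^r]`.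
-/

set_option autoImplicit false
set_option maxHeartbeats 400000

noncomputable section

namespace Fermat.Agent.RT

open IsLocalRing Matrix Fermat.Agent.DefRing Fermat.Agent.GalRep Fermat.Agent.TWPatch
  Fermat.Agent.TWLoc Fermat.Agent.TWGal CuspForm
open Fermat.Agent.TWCoh hiding GQ

local notation "Qbar" => AlgebraicClosure ℚ

/-- the residue algebra of the ring of diamond operators -/
@[reducible] def algDk (O : Type) [CommRing O] [IsLocalRing O] (p n r : ℕ) :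
    Algebra (DRing O p n r) (ResidueField O) :=
  ((algebraMap O (ResidueField O)).comp (aug O (DG p n r)).toRingHom).toAlgebra

/-- the base data -/
structure Bas (p : ℕ) [Fact p.Prime] (O : Type) [CommRing O] [CNL O] where
  N : ℕ
  [nz : NeZero N]
  aux : p ≠ 3 ∨ ∃ r : ℕ, r.Prime ∧ r % 3 = 2 ∧ r ∣ N
  hp2 : p ≠ 2
  hpO : (p : O) ∈ maximalIdeal O
  S : Set ℕ
  hS : S.Finite
  hpS : p ∈ S
  hNS : ∀ q : ℕ, q.Prime → q ∣ N → q ∈ S
  ρb : GQ →* Matrix (Fin 2) (Fin 2) (ResidueField O)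
  cont : ∃ L : IntermediateField ℚ Qbar, FiniteDimensional ℚ L ∧
    ∀ σ : GQ, (∀ x ∈ L, σ x = x) → ρb σ = 1
  span : Submodule.span (ResidueField O) (Set.range ρb) = ⊤
  f : heckeAlgebra N 2 S →+* ResidueField O
  frob : ∀ (ℓ : ℕ) (hℓ : ℓ.Prime) (hℓN : ¬ ℓ ∣ N) (hℓS : ℓ ∉ S),
    ∀ A : ValuationSubring Qbar, A.LiesOverPrime ℓ → ∀ τ : GQ, A.IsFrobeniusAt τ ℓ →
      (ρb τ).trace = f (heckeAlgebra.T hℓ hℓN hℓS) ∧ (ρb τ).det = (ℓ : ResidueField O)
  comm : ∃ g h : GQ, (ρb (g * h * g⁻¹ * h⁻¹)).trace ≠ 2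

attribute [instance] Bas.nz

section

variable {p : ℕ} [hpf : Fact p.Prime] {O : Type} [CommRing O] [CNL O] (G : Bas p O)

theorem Bas.v3 : (3 : ResidueField O) ≠ 0 ∨ NoV G.N := by
  rcases G.aux with h | ⟨r, hr, hr3, hrN⟩
  · left
    intro h3
    have h1 : ((p : ℕ) : ResidueField O) = 0 := by
      rw [← map_natCast (residue O), residue_eq_zero_iff]
      exact G.hpO
    haveI : CharP (ResidueField O) p := (CharP.charP_iff_prime_eq_zero hpf.out).mpr h1
    have h2 := (CharP.cast_eq_zero_iff (ResidueField O) p 3).mp (by exact_mod_cast h3)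
    exact h ((Nat.prime_dvd_prime_iff_eq hpf.out Nat.prime_three).mp h2)
  · exact Or.inr (noV_of_prime hr hr3 hrN)

theorem Bas.not_dvd_N (l : PS G.S) : ¬ l.1 ∣ G.N := fun h => l.2.2 (G.hNS _ l.2.1 h)

/-- the residual eigenvalues -/
def Bas.τ (l : PS G.S) : ResidueField O := G.f (gT G.not_dvd_N l)

include G in
theorem Bas.charP : CharP (ResidueField O) p := by
  have h1 : ((p : ℕ) : ResidueField O) = 0 := by
    rw [← map_natCast (residue O), residue_eq_zero_iff]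
    exact G.hpO
  exact (CharP.charP_iff_prime_eq_zero hpf.out).mpr h1

include G in
theorem Bas.pk : (p : ResidueField O) = 0 := by
  haveI := G.charP
  exact CharP.cast_eq_zero _ _

include G in
theorem Bas.ne_zero_of_lt {m : ℕ} (h0 : m ≠ 0) (hm : m < p) : (m : ResidueField O) ≠ 0 := by
  haveI := G.charP
  intro h
  have h1 := (CharP.cast_eq_zero_iff (ResidueField O) p m).mp h
  exact absurd (Nat.le_of_dvd (Nat.pos_of_ne_zero h0) h1) (not_le.mpr hm)

include G in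
theorem Bas.two_ne : (2 : ResidueField O) ≠ 0 := by
  have h1 := hpf.out.two_le
  have h2 := G.hp2
  have := G.ne_zero_of_lt (m := 2) two_ne_zero (by omega)
  exact_mod_cast this

include G in
theorem Bas.nt : Nontrivial O := (algebraMap O (ResidueField O)).domain_nontrivial

/-- Frobenius elements -/
theorem Bas.trace_frob (l : PS G.S) {A : ValuationSubring Qbar} (hA : A.LiesOverPrime l.1)
    {σ : GQ} (hσ : A.IsFrobeniusAt σ l.1) : (G.ρb σ).trace = G.τ l :=
  (G.frob l.1 l.2.1 (G.not_dvd_N l) l.2.2 A hA σ hσ).1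

theorem Bas.det_frob (l : PS G.S) {A : ValuationSubring Qbar} (hA : A.LiesOverPrime l.1)
    {σ : GQ} (hσ : A.IsFrobeniusAt σ l.1) : (G.ρb σ).det = (l.1 : ResidueField O) :=
  (G.frob l.1 l.2.1 (G.not_dvd_N l) l.2.2 A hA σ hσ).2

/-- **a non-Eisenstein prime** -/
theorem Bas.noneis (M : ℕ) (hM : M ≠ 0) :
    ∃ l₀ : PS G.S, (M : ℤ) ∣ l₀.1 - 1 ∧ G.τ l₀ ≠ 1 + (l₀.1 : ResidueField O) := by
  obtain ⟨g, h, hgh⟩ := G.comm
  obtain ⟨L, hL, hLk⟩ := G.cont
  haveI hMp : NeZero (M * p) := ⟨mul_ne_zero hM hpf.out.ne_zero⟩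
  obtain ⟨ζ, hζ⟩ := HasEnoughRootsOfUnity.exists_primitiveRoot Qbar (M * p)
  haveI : FiniteDimensional ℚ L := hL
  have hζi : IsIntegral ℚ ζ := Algebra.IsIntegral.isIntegral ζ
  haveI : FiniteDimensional ℚ (IntermediateField.adjoin ℚ {ζ}) :=
    IntermediateField.adjoin.finiteDimensional hζi
  set γ := g * h * g⁻¹ * h⁻¹ with hγ
  -- the commutator fixes the roots of unity
  have hact : ∀ s : GQ, ∃ u : ℕ, s ζ = ζ ^ u := by
    intro s
    have h1 : (s ζ) ^ (M * p) = 1 := by rw [← map_pow, hζ.pow_eq_one, map_one]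
    obtain ⟨i, -, hi⟩ := hζ.eq_pow_of_pow_eq_one h1
    exact ⟨i, hi.symm⟩
  have hcomm : ∀ s t : GQ, s (t ζ) = t (s ζ) := by
    intro s t
    obtain ⟨u, hu⟩ := hact s
    obtain ⟨v, hv⟩ := hact t
    rw [hv, map_pow, hu, map_pow, hv, ← pow_mul, ← pow_mul, mul_comm]
  have hfix : γ ζ = ζ := by
    rw [hγ]
    simp only [AlgEquiv.mul_apply]
    rw [hcomm g⁻¹ h⁻¹]
    have e1 : h (h⁻¹ (g⁻¹ ζ)) = g⁻¹ ζ := by
      rw [← AlgEquiv.mul_apply, mul_inv_cancel, AlgEquiv.one_apply]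
    rw [e1, ← AlgEquiv.mul_apply, mul_inv_cancel, AlgEquiv.one_apply]
  obtain ⟨ℓ, hℓ, hℓS, A, hA, τ, hτ, n, m, hn, hm⟩ :=
    FrobDens.exists_frobenius (L ⊔ IntermediateField.adjoin ℚ {ζ}) (G.S ∪ {l | l ∣ M * p})
      (G.hS.union ((Set.finite_le_nat (M * p)).subset fun l hl =>
        Nat.le_of_dvd (Nat.pos_of_ne_zero hMp.out) hl)) γ
  have hℓM : ¬ ℓ ∣ M * p := fun h => hℓS (Or.inr h)
  have hζm : ζ ∈ L ⊔ IntermediateField.adjoin ℚ {ζ} :=
    (le_sup_right : IntermediateField.adjoin ℚ {ζ} ≤ L ⊔ IntermediateField.adjoin ℚ {ζ})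
      (IntermediateField.mem_adjoin_simple_self ℚ ζ)
  have hτζ : τ ζ = ζ := by
    rw [← hm ζ hζm]
    clear hm
    induction m with
    | zero => rfl
    | succ m ih => rw [pow_succ, AlgEquiv.mul_apply, hfix, ih]
  rw [frob_rootOfUnity hℓ hA hτ hℓM hζ.pow_eq_one] at hτζ
  have hdvd : (M * p : ℕ) ∣ ℓ - 1 := by
    have h1 : ζ ^ (ℓ - 1) = 1 := by
      have h2 : ζ ^ (ℓ - 1) * ζ = 1 * ζ := by
        rw [← pow_succ, Nat.sub_add_cancel hℓ.one_lt.le, one_mul, hτζ]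
      exact mul_right_cancel₀ (hζ.ne_zero hMp.out) h2
    exact (hζ.pow_eq_one_iff_dvd _).mp h1
  have hℓ1 : ((ℓ : ℕ) : ResidueField O) = 1 := by
    obtain ⟨c, hc⟩ := (dvd_mul_left p M).trans hdvd
    have h2 : ℓ = p * c + 1 := by
      have := hℓ.one_lt
      omega
    rw [h2]
    push_cast
    rw [G.pk, zero_mul, zero_add]
  refine ⟨⟨ℓ, hℓ, fun h => hℓS (Or.inl h)⟩, ?_, fun htr => hgh ?_⟩
  · have h1 : ((M : ℕ) : ℤ) ∣ ((ℓ - 1 : ℕ) : ℤ) :=
      Int.natCast_dvd_natCast.mpr ((dvd_mul_right M p).trans hdvd)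
    rw [Nat.cast_sub hℓ.one_lt.le] at h1
    exact_mod_cast h1
  · have h1 := G.trace_frob ⟨ℓ, hℓ, fun h => hℓS (Or.inl h)⟩ hA hτ
    have h2 := G.det_frob ⟨ℓ, hℓ, fun h => hℓS (Or.inl h)⟩ hA hτ
    rw [htr] at h1
    simp only at h1 h2
    rw [hℓ1] at h1 h2
    have h3 : G.ρb (τ ^ n) = G.ρb γ := by
      have h4 : G.ρb (γ⁻¹ * τ ^ n) = 1 := hLk _ fun x hx => by
        rw [AlgEquiv.mul_apply, hn x (le_sup_left (a := L) hx)]
        exact inv_smul_smul γ x
      have h5 : τ ^ n = γ * (γ⁻¹ * τ ^ n) := by group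
      rw [h5, map_mul, h4, mul_one]
    rw [← h3, map_pow, trace_pow_two, h1, h2]
    have h6 : ∀ j, dk (1 + 1 : ResidueField O) 1 j = 2 := by
      intro j
      induction j using Nat.twoStepInduction with
      | zero => rfl
      | one => exact one_add_one_eq_two
      | more j ih1 ih2 =>
        rw [dk, ih1, ih2]
        ring
    exact h6 n

/-- the auxiliary data of level `n` -/
structure BLev (r n : ℕ) where
  qs : Fin r → PS G.S
  inj : Function.Injective qs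
  hq1 : ∀ j, p ^ (n + 1) ∣ (qs j).1 - 1
  α : PS G.S → ResidueField O
  β : PS G.S → ResidueField O
  sum : ∀ j, G.τ (qs j) = α (qs j) + β (qs j)
  prod : ∀ j, α (qs j) * β (qs j) = 1
  dist : ∀ j, α (qs j) ≠ β (qs j)
  ψ : ∀ q : ℕ, DirichletCharacter (DRing O p n r) q
  fl : ∀ j, (ZMod (qs j).1)ˣ →* Multiplicative (ZMod (p ^ n))
  hfl : ∀ j, Function.Surjective (fl j)
  hψsq : ∀ j (u : (ZMod (qs j).1)ˣ), ψ (qs j).1 u ^ 2 = MonoidAlgebra.of O _ (sgl j (fl j u))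
  hψof : ∀ j (u : (ZMod (qs j).1)ˣ), ∃ g, ψ (qs j).1 u = MonoidAlgebra.of O _ (sgl j g)
  hψ1 : ∀ q, (∀ j, (qs j).1 ≠ q) → ψ q = 1
  hψp : ∀ q, ψ q ^ p ^ n = 1
  hψa : ∀ q (u : (ZMod q)ˣ), aug O _ (ψ q u) = 1

/-- existence of characters -/
theorem exists_BLev (r n : ℕ) (qs : Fin r → PS G.S) (inj : Function.Injective qs)
    (hq1 : ∀ j, p ^ (n + 1) ∣ (qs j).1 - 1) (α β : PS G.S → ResidueField O)
    (sum : ∀ j, G.τ (qs j) = α (qs j) + β (qs j)) (prod : ∀ j, α (qs j) * β (qs j) = 1)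
    (dist : ∀ j, α (qs j) ≠ β (qs j)) :
    ∃ L : BLev G r n, L.qs = qs ∧ L.α = α ∧ L.β = β := by
  classical
  obtain ⟨ψ, fl, h1, h2, h3, h4, h5, h6⟩ := exists_diamonds (O := O) (p := p) (n := n) G.hp2
    (fun j => (qs j).1) (fun i j hij => inj (Subtype.ext hij)) (fun j => (qs j).2.1)
    (fun j => (pow_dvd_pow p (Nat.le_succ n)).trans (hq1 j))
  exact ⟨⟨qs, inj, hq1, α, β, sum, prod, dist, ψ, fl, h1, h2, h3, h4, h5, h6⟩, rfl, rfl, rfl⟩

variable {G} {r n : ℕ} (L : BLev G r n)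

/-- the set of auxiliary primes -/
def BLev.Q : Finset (PS G.S) := by
  classical
  exact Finset.univ.image L.qs

theorem BLev.mem_Q {l : PS G.S} : l ∈ L.Q ↔ ∃ j, L.qs j = l := by
  classical
  rw [BLev.Q, Finset.mem_image]
  simp

/-- the big level -/
def BLev.NN : ℕ := lvl G.N L.Q * cdr L.Q ∅

theorem BLev.mem_allP {q : ℕ} : q ∈ allP L.Q ∅ ↔ (∃ j, (L.qs j).1 = q) := by
  rw [allP, Finset.union_empty, Finset.mem_image]
  constructor
  · rintro ⟨l, hl, rfl⟩
    obtain ⟨j, rfl⟩ := L.mem_Q.mp hl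
    exact ⟨j, rfl⟩
  · rintro ⟨j, rfl⟩
    exact ⟨L.qs j, L.mem_Q.mpr ⟨j, rfl⟩, rfl⟩

theorem BLev.prime_allP {q : ℕ} (hq : q ∈ allP L.Q ∅) : q.Prime := by
  obtain ⟨j, rfl⟩ := L.mem_allP.mp hq
  exact (L.qs j).2.1

theorem BLev.NN_ne : L.NN ≠ 0 := by
  refine mul_ne_zero (mul_ne_zero G.nz.out ?_) ?_
  · exact Finset.prod_ne_zero_iff.2 fun r _ => r.2.1.ne_zero
  · exact Finset.prod_ne_zero_iff.2 fun q hq => (L.prime_allP hq).ne_zero

instance : NeZero L.NN := ⟨L.NN_ne⟩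

theorem BLev.qs_one (j : Fin r) : (((L.qs j).1 : ℕ) : ResidueField O) = 1 := by
  obtain ⟨c, hc⟩ := L.hq1 j
  have h1 := (L.qs j).2.1.one_lt
  have h2 : (L.qs j).1 = p * (p ^ n * c) + 1 := by
    have : p ^ (n + 1) * c = p * (p ^ n * c) := by ring
    omega
  rw [h2]
  push_cast
  rw [G.pk, zero_mul, zero_add]

theorem BLev.pcond : letI := algDk O p n r
    PCond (aug O (DG p n r)).toRingHom (0 : DRing O p n r) p G.N L.NN L.Q ∅
      G.τ L.α L.β L.ψ L.ψ := by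
  letI := algDk O p n r
  have haug : ∀ x : O, aug O (DG p n r) (algebraMap O _ x) = x := fun x =>
    (aug O (DG p n r)).commutes x
  exact
  { hOk := residue_surjective
    hε := fun x => ⟨algebraMap O _ x, haug x⟩
    hεk := fun r => rfl
    hlam := map_zero _
    pp := hpf.out
    hp := G.pk
    hp2 := G.hp2
    v3 := G.v3
    Ipr := fun q hq => absurd hq (Finset.notMem_empty q)
    Iex := fun q hq => absurd hq (Finset.notMem_empty q)
    tw :=
      { not_dvd := fun q _ => G.not_dvd_N q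
        one := fun q hq => by
          obtain ⟨j, rfl⟩ := L.mem_Q.mp hq
          exact L.qs_one j
        sum := fun q hq => by
          obtain ⟨j, rfl⟩ := L.mem_Q.mp hq
          exact L.sum j
        prod := fun q hq => by
          obtain ⟨j, rfl⟩ := L.mem_Q.mp hq
          have h1 : (1 : DirichletCharacter O 1)⁻¹ (((L.qs j).1 : ℕ) : ZMod 1) = 1 := by
            rw [inv_one, MulChar.one_apply (isUnit_of_subsingleton _)]
          rw [L.prod, h1, mul_one, map_natCast, L.qs_one]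
        distinct := fun q hq => by
          obtain ⟨j, rfl⟩ := L.mem_Q.mp hq
          exact L.dist j
        alpha := fun q hq h0 => by
          obtain ⟨j, rfl⟩ := L.mem_Q.mp hq
          have := L.prod j
          rw [h0, zero_mul] at this
          exact zero_ne_one this }
    pow₁ := fun q _ => ⟨n, L.hψp q⟩
    pow₂ := fun q _ => ⟨n, L.hψp q⟩
    aug := fun q _ a => L.hψa q a
    cong := fun q _ a => ⟨0, by rw [mul_zero]; exact sub_self _⟩
    lev := dvd_rfl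
    supp := fun l hl hlN => by
      rcases hl.dvd_mul.mp hlN with h1 | h1
      · rcases hl.dvd_mul.mp h1 with h2 | h2
        · exact Or.inl (G.hNS l hl h2)
        · rw [Prime.dvd_finsetProd_iff hl.prime] at h2
          obtain ⟨q, hq, h3⟩ := h2
          exact Or.inr ⟨q, hq, ((Nat.prime_dvd_prime_iff_eq hl q.2.1).1 h3).symm⟩
      · rw [cdr, Prime.dvd_finsetProd_iff hl.prime] at h1
        obtain ⟨q, hq, h3⟩ := h1
        have h4 := (Nat.prime_dvd_prime_iff_eq hl (L.prime_allP hq)).1 h3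
        subst h4
        obtain ⟨j, hj⟩ := L.mem_allP.mp hq
        exact Or.inr ⟨L.qs j, L.mem_Q.mpr ⟨j, rfl⟩, hj⟩
    noneis := G.noneis _ L.NN_ne }

end

end Fermat.Agent.RT
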