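import Fermat.Agent.MazH.Bound
import Fermat.Prelude.Def_CuspForm_Newforms

/-!
# `a_q² ≠ (q+1)²`
-/

set_option autoImplicit false

noncomputable section

namespace Fermat.Agent.RT

open CuspForm ComplexConjugate

/-- **`a_q² ≠ (q+1)²`** for normalized eigenforms -/
theorem qCoeff_sq_ne' {M : ℕ} [NeZero M] {f : Newform.S2 M} (hf : f.IsNormalizedEigenform) {q : ℕ}
    (hq : q.Prime) (hqM : ¬ q ∣ M) :
    (ModularFormClass.qCoeff f q) ^ 2 ≠ ((q : ℂ) + 1) ^ 2 := by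
  intro h
  set a := ModularFormClass.qCoeff f q with ha
  have ha' : DSLift.heckeOp M 2 hq f = a • f := by
    rw [DSLift.heckeOp_apply_of_isNormalizedEigenform M hf hq]
  have hreal : conj a = a := by
    have hq1 : conj ((q : ℂ) + 1) = (q : ℂ) + 1 := by
      rw [map_add, map_one, Complex.conj_natCast]
    rcases sq_eq_sq_iff_eq_or_eq_neg.mp h with h1 | h1
    · rw [h1, hq1]
    · rw [h1, map_neg, hq1]
  exact hf.ne_zero (MazH.eig_ne hq hqM ha' (by rw [hreal, ← sq, h]))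

theorem qCoeff_sq_ne {M : ℕ} [NeZero M] {f : Newform.S2 M} (hf : f.IsNewform) {q : ℕ}
    (hq : q.Prime) (hqM : ¬ q ∣ M) :
    (ModularFormClass.qCoeff f q) ^ 2 ≠ ((q : ℂ) + 1) ^ 2 :=
  qCoeff_sq_ne' hf.1 hq hqM

end Fermat.Agent.RT
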