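import Fermat.Agent.S43Glue.Ring
import Fermat.Agent.TWDia.Dvr

/-!
# The coefficient ring
-/

set_option autoImplicit false
set_option maxHeartbeats 400000
set_option linter.style.haveILetI false

noncomputable section

namespace Fermat.Agent.RT

open IsLocalRing TensorProduct Fermat.Agent.GalRep Fermat.Agent.TWPatch Polynomial
  Fermat.Agent.S43Glue

/-- splitting of quadratic polynomials -/
def Splits2 (p : ℕ) [Fact p.Prime] (O : Type) [CommRing O] [IsLocalRing O] : Prop :=
  ∀ (φ : ZMod p →+* ResidueField O) (b c : ZMod p), ∃ α β : ResidueField O,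
    (X ^ 2 - C (φ b) * X + C (φ c) : (ResidueField O)[X]) = (X - C α) * (X - C β)

theorem exists_coeff_dom (p : ℕ) [hp : Fact p.Prime] {D : Type} [CommRing D] [IsDomain D]
    [IsLocalRing D] [Algebra ℤ_[p] D] [Module.Finite ℤ_[p] D]
    (hinjD : Function.Injective (algebraMap ℤ_[p] D)) :
    ∃ (O : Type) (_ : CommRing O) (_ : IsDomain O) (_ : IsDiscreteValuationRing O)
      (_ : CNL O) (_ : CharZero O) (_ : Algebra ℤ_[p] O) (_ : Module.Finite ℤ_[p] O),
      (p : O) ∈ maximalIdeal O ∧ Splits2 p O ∧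
      ∃ g : D →+* O, ∀ x ∈ maximalIdeal D, g x ∈ maximalIdeal O := by
  have hp1 : 1 < p := hp.out.one_lt
  have hpp : 1 < p ^ 2 := Nat.one_lt_pow two_ne_zero hp1
  have hn0 : p ^ 2 - 1 ≠ 0 := by omega
  haveI : Finite (ResidueField ℤ_[p]) := CNL.finRes
  haveI : Algebra.IsIntegral ℤ_[p] D := Algebra.IsIntegral.of_finite _ _
  let K := AlgebraicClosure ℚ_[p]
  haveI : CharZero K := inferInstance
  haveI : FaithfulSMul ℤ_[p] D := (faithfulSMul_iff_algebraMap_injective _ _).mpr hinjD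
  haveI : FaithfulSMul ℤ_[p] K := by
    rw [faithfulSMul_iff_algebraMap_injective]
    exact TWDia.injective_padic _
  haveI : Algebra.IsAlgebraic ℤ_[p] D := Algebra.IsIntegral.isAlgebraic
  let y₀ : D →ₐ[ℤ_[p]] K := IsAlgClosed.lift
  -- adjoin a root of unity
  let f : D[X] := X ^ (p ^ 2 - 1) - 1
  have hfm : f.Monic := monic_X_pow_sub_C (1 : D) hn0
  haveI : NeZero (p ^ 2 - 1) := ⟨hn0⟩
  haveI : NeZero ((p ^ 2 - 1 : ℕ) : K) := ⟨Nat.cast_ne_zero.mpr hn0⟩
  obtain ⟨ζK, hζK⟩ := HasEnoughRootsOfUnity.exists_primitiveRoot K (p ^ 2 - 1)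
  let B := AdjoinRoot f
  haveI : IsScalarTower ℤ_[p] D B := inferInstance
  haveI : Module.Finite D B := hfm.finite_adjoinRoot
  haveI : Module.Finite ℤ_[p] B := Module.Finite.trans D B
  let y : B →+* K := AdjoinRoot.lift (y₀ : D →+* K) ζK (by
    simp [f, hζK.pow_eq_one])
  obtain ⟨O', i1, i2, i3, i4, i5, i6, i7, h1, jO, y', hj, hy⟩ := TWDia.exists_dvr (p := p) y
  have hinj : Function.Injective (algebraMap ℤ_[p] O') := by
    intro a b hab
    exact TWDia.injective_padic (jO.comp (algebraMap ℤ_[p] O')) (congrArg jO hab)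
  obtain ⟨h2, h3, h4, h5, h6⟩ := GalRep.dvr_ext (O := ℤ_[p]) (B := O') hinj
  haveI : CNL O' := ⟨inferInstance, inferInstance, i4, h5⟩
  refine ⟨O', i1, i2, i3, inferInstance, i5, i6, i7, h1, ?_, y'.comp (AdjoinRoot.of f), ?_⟩
  · intro φ b c
    letI := φ.toAlgebra
    have hunit : IsUnit ((p ^ 2 - 1 : ℕ) : O') := by
      by_contra h
      have h1' : ((p ^ 2 - 1 : ℕ) : O') ∈ maximalIdeal O' := h
      have h2 : (1 : O') ∈ maximalIdeal O' := by
        have h3 : ((p ^ 2 - 1 : ℕ) : O') = (p : O') * p - 1 := by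
          rw [Nat.cast_sub hpp.le]
          push_cast
          ring
        have h4 : (1 : O') = p * p - ((p ^ 2 - 1 : ℕ) : O') := by
          rw [h3]; ring
        rw [h4]
        exact Ideal.sub_mem _ (Ideal.mul_mem_left _ _ h1) h1'
      exact h2 isUnit_one
    have hζ : IsPrimitiveRoot (y' (AdjoinRoot.root f)) (p ^ 2 - 1) := by
      apply IsPrimitiveRoot.of_map_of_injective (f := jO) _ hj
      rw [hy]
      have : y (AdjoinRoot.root f) = ζK := AdjoinRoot.lift_root _
      rw [this]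
      exact hζK
    exact quad_splits (residue_primitive hn0 hunit hζ) b c
  · -- locality
    set g : D →+* O' := y'.comp (AdjoinRoot.of f) with hg
    let P : Ideal D := (maximalIdeal O').comap g
    haveI : P.IsPrime := Ideal.comap_isPrime g (maximalIdeal O')
    have hcm : P.comap (algebraMap ℤ_[p] D) = maximalIdeal ℤ_[p] := by
      symm
      apply (maximalIdeal.isMaximal ℤ_[p]).eq_of_le (Ideal.IsPrime.ne_top inferInstance)
      rw [PadicInt.maximalIdeal_eq_span_p, Ideal.span_singleton_le_iff_mem, Ideal.mem_comap,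
        Ideal.mem_comap, map_natCast, map_natCast]
      exact h1
    haveI hPm : P.IsMaximal := by
      haveI h7 : (P.comap (algebraMap ℤ_[p] D)).IsMaximal := hcm ▸ maximalIdeal.isMaximal _
      exact Ideal.isMaximal_of_isIntegral_of_isMaximal_comap (R := ℤ_[p]) P h7
    intro x hx
    rw [← IsLocalRing.eq_maximalIdeal hPm] at hx
    exact hx

/-- a coefficient ring to which a homomorphism `T → 𝔽_p` lifts -/
theorem exists_coeff_lift (p : ℕ) [hp : Fact p.Prime] {T : Type} [CommRing T] [Module.Finite ℤ T]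
    [Module.Free ℤ T] (θ : T →+* ZMod p) :
    ∃ (O : Type) (_ : CommRing O) (_ : IsDomain O) (_ : IsDiscreteValuationRing O)
      (_ : CNL O) (_ : CharZero O) (_ : Algebra ℤ_[p] O) (_ : Module.Finite ℤ_[p] O),
      (p : O) ∈ maximalIdeal O ∧ Splits2 p O ∧
      ∃ χ : T →+* O, ∀ (φ : ZMod p →+* ResidueField O) (t : T),
        residue O (χ t) = φ (θ t) := by
  haveI : Finite (ResidueField ℤ_[p]) := CNL.finRes
  let A := ℤ_[p] ⊗[ℤ] T
  let θp : A →+* ZMod p := (Algebra.TensorProduct.lift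
    ((PadicInt.toZMod (p := p)).toIntAlgHom) θ.toIntAlgHom (fun _ _ => Commute.all _ _)).toRingHom
  have hsurj : Function.Surjective θp := by
    intro x
    exact ⟨((x.val : ℕ) : A), by rw [map_natCast, ZMod.natCast_val, ZMod.cast_id]⟩
  haveI hmax : (RingHom.ker θp).IsMaximal := RingHom.ker_isMaximal_of_surjective θp hsurj
  obtain ⟨Q, hQ, hQm⟩ := Ideal.exists_minimalPrimes_le (I := (⊥ : Ideal A)) (J := RingHom.ker θp)
    bot_le
  haveI hQp : Q.IsPrime := Ideal.IsMinimalPrime.isPrime hQ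
  haveI : IsDomain (A ⧸ Q) := Ideal.Quotient.isDomain Q
  haveI : Module.Finite ℤ_[p] A := inferInstance
  haveI : Module.Finite ℤ_[p] (A ⧸ Q) := inferInstance
  haveI hDloc : IsLocalRing (A ⧸ Q) := isLocalRing_ext ℤ_[p] (A ⧸ Q)
  have hinjD : Function.Injective (algebraMap ℤ_[p] (A ⧸ Q)) := by
    rw [injective_iff_map_eq_zero]
    intro c hc
    by_contra hc0
    have h1 : algebraMap ℤ_[p] A c ∈ Q := by
      rw [← Ideal.Quotient.eq_zero_iff_mem]
      exact hc
    have h2 : algebraMap ℤ_[p] A c ∈ nonZeroDivisors A := by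
      rw [mem_nonZeroDivisors_iff]
      have hz : ∀ z : A, algebraMap ℤ_[p] A c * z = 0 → z = 0 := by
        intro z hz
        rw [← Algebra.smul_def] at hz
        exact (smul_eq_zero.mp hz).resolve_left hc0
      exact ⟨hz, fun z h => hz z (by rw [mul_comm]; exact h)⟩
    exact Set.disjoint_left.mp (Ideal.disjoint_nonZeroDivisors_of_mem_minimalPrimes hQ) h1 h2
  obtain ⟨O, i1, i2, i3, i4, i5, i6, i7, hpO, hspl, g, hg⟩ := exists_coeff_dom (D := A ⧸ Q) p hinjD
  let χ : T →+* O := (g.comp (Ideal.Quotient.mk Q)).comp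
    (Algebra.TensorProduct.includeRight (R := ℤ) (A := ℤ_[p]) (B := T)).toRingHom
  refine ⟨O, i1, i2, i3, i4, i5, i6, i7, hpO, hspl, χ, fun φ t => ?_⟩
  -- `t - n` is in the kernel
  have h1 : θp ((1 : ℤ_[p]) ⊗ₜ[ℤ] (t - ((θ t).val : T))) = 0 := by
    have h0 : θp ((1 : ℤ_[p]) ⊗ₜ[ℤ] (t - ((θ t).val : T))) =
        (PadicInt.toZMod (p := p)).toIntAlgHom 1 * θ.toIntAlgHom (t - ((θ t).val : T)) :=
      Algebra.TensorProduct.lift_tmul _ _ (fun _ _ => Commute.all _ _) _ _
    rw [h0, map_one, one_mul]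
    change θ (t - ((θ t).val : T)) = 0
    rw [map_sub, map_natCast, ZMod.natCast_val, ZMod.cast_id, sub_self]
  have h2 : Ideal.Quotient.mk Q ((1 : ℤ_[p]) ⊗ₜ[ℤ] (t - ((θ t).val : T))) ∈
      maximalIdeal (A ⧸ Q) := by
    haveI : ((RingHom.ker θp).map (Ideal.Quotient.mk Q)).IsMaximal := by
      refine Ideal.IsMaximal.map_of_surjective_of_ker_le Ideal.Quotient.mk_surjective ?_
      rw [Ideal.mk_ker]
      exact hQm
    rw [← IsLocalRing.eq_maximalIdeal this]
    exact Ideal.mem_map_of_mem _ h1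
  have h3 := hg _ h2
  have h4 : χ (t - ((θ t).val : T)) ∈ maximalIdeal O := h3
  rw [← residue_eq_zero_iff, map_sub, map_sub, map_natCast, map_natCast, sub_eq_zero] at h4
  rw [h4]
  conv_rhs => rw [← ZMod.natCast_zmod_val (θ t)]
  rw [map_natCast]

end Fermat.Agent.RT
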