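import Fermat.Agent.RT.Choose
import Fermat.Agent.TWInst.Fields
import Fermat.Agent.Newform.New
import Fermat.Agent.Newform.Mult
import Fermat.Agent.S43Glue.Classical

/-!
# The coefficient ring, II
-/

set_option autoImplicit false
set_option maxHeartbeats 400000
set_option linter.style.haveILetI false

noncomputable section

namespace Fermat.Agent.RT

open IsLocalRing TensorProduct Fermat.Agent.GalRep Fermat.Agent.TWPatch
  Fermat.Agent.S43Glue Cardinal

/-- a coefficient ring over which a maximal ideal lifts -/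
theorem exists_coeff_max (p : ℕ) [hp : Fact p.Prime] {T : Type} [CommRing T] [Module.Finite ℤ T]
    [Module.Free ℤ T] (I : Ideal T) [hI : I.IsMaximal] (hpI : (p : T) ∈ I) :
    ∃ (O : Type) (_ : CommRing O) (_ : IsDomain O) (_ : IsDiscreteValuationRing O)
      (_ : CNL O) (_ : CharZero O) (_ : Algebra ℤ_[p] O) (_ : Module.Finite ℤ_[p] O),
      (p : O) ∈ maximalIdeal O ∧ Splits2 p O ∧
      ∃ χ : T →+* O, ∀ t ∈ I, χ t ∈ maximalIdeal O := by
  haveI : Finite (ResidueField ℤ_[p]) := CNL.finRes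
  letI : Field (T ⧸ I) := Ideal.Quotient.field I
  haveI : CharP (T ⧸ I) p := by
    rw [CharP.charP_iff_prime_eq_zero hp.out, ← map_natCast (Ideal.Quotient.mk I),
      Ideal.Quotient.eq_zero_iff_mem]
    exact hpI
  let A := ℤ_[p] ⊗[ℤ] T
  let θp : A →+* T ⧸ I := (Algebra.TensorProduct.lift
    (((ZMod.castHom dvd_rfl (T ⧸ I)).comp (PadicInt.toZMod (p := p))).toIntAlgHom)
    (Ideal.Quotient.mk I).toIntAlgHom (fun _ _ => Commute.all _ _)).toRingHom
  have hθp : ∀ t : T, θp ((1 : ℤ_[p]) ⊗ₜ[ℤ] t) = Ideal.Quotient.mk I t := by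
    intro t
    have h0 : θp ((1 : ℤ_[p]) ⊗ₜ[ℤ] t) =
        ((ZMod.castHom dvd_rfl (T ⧸ I)).comp (PadicInt.toZMod (p := p))).toIntAlgHom 1 *
          (Ideal.Quotient.mk I).toIntAlgHom t :=
      Algebra.TensorProduct.lift_tmul _ _ (fun _ _ => Commute.all _ _) _ _
    rw [h0, map_one, one_mul]
    rfl
  have hsurj : Function.Surjective θp := by
    intro x
    obtain ⟨t, rfl⟩ := Ideal.Quotient.mk_surjective x
    exact ⟨_, hθp t⟩
  haveI hmax : (RingHom.ker θp).IsMaximal := RingHom.ker_isMaximal_of_surjective θp hsurj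
  obtain ⟨Q, hQ, hQm⟩ := Ideal.exists_minimalPrimes_le (I := (⊥ : Ideal A)) (J := RingHom.ker θp)
    bot_le
  haveI hQp : Q.IsPrime := Ideal.IsMinimalPrime.isPrime hQ
  haveI : IsDomain (A ⧸ Q) := Ideal.Quotient.isDomain Q
  haveI : Module.Finite ℤ_[p] A := inferInstance
  haveI : Module.Finite ℤ_[p] (A ⧸ Q) := inferInstance
  haveI hDloc : IsLocalRing (A ⧸ Q) := isLocalRing_ext ℤ_[p] (A ⧸ Q)
  have hinjD : Function.Injective (algebraMap ℤ_[p] (A ⧸ Q)) := by
    rw [injective_iff_map_eq_zero]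
    intro c hc
    by_contra hc0
    have h1 : algebraMap ℤ_[p] A c ∈ Q := by
      rw [← Ideal.Quotient.eq_zero_iff_mem]
      exact hc
    have h2 : algebraMap ℤ_[p] A c ∈ nonZeroDivisors A := by
      rw [mem_nonZeroDivisors_iff]
      have hz : ∀ z : A, algebraMap ℤ_[p] A c * z = 0 → z = 0 := by
        intro z hz
        rw [← Algebra.smul_def] at hz
        exact (smul_eq_zero.mp hz).resolve_left hc0
      exact ⟨hz, fun z h => hz z (by rw [mul_comm]; exact h)⟩
    exact Set.disjoint_left.mp (Ideal.disjoint_nonZeroDivisors_of_mem_minimalPrimes hQ) h1 h2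
  obtain ⟨O, i1, i2, i3, i4, i5, i6, i7, hpO, hspl, g, hg⟩ :=
    exists_coeff_dom (D := A ⧸ Q) p hinjD
  let χ : T →+* O := (g.comp (Ideal.Quotient.mk Q)).comp
    (Algebra.TensorProduct.includeRight (R := ℤ) (A := ℤ_[p]) (B := T)).toRingHom
  refine ⟨O, i1, i2, i3, i4, i5, i6, i7, hpO, hspl, χ, fun t ht => ?_⟩
  have h1 : θp ((1 : ℤ_[p]) ⊗ₜ[ℤ] t) = 0 := by
    rw [hθp, Ideal.Quotient.eq_zero_iff_mem]
    exact ht
  have h2 : Ideal.Quotient.mk Q ((1 : ℤ_[p]) ⊗ₜ[ℤ] t) ∈ maximalIdeal (A ⧸ Q) := by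
    haveI : ((RingHom.ker θp).map (Ideal.Quotient.mk Q)).IsMaximal := by
      refine Ideal.IsMaximal.map_of_surjective_of_ker_le Ideal.Quotient.mk_surjective ?_
      rw [Ideal.mk_ker]
      exact hQm
    rw [← IsLocalRing.eq_maximalIdeal this]
    exact Ideal.mem_map_of_mem _ h1
  exact hg _ h2

/-- extension of homomorphisms to algebraically closed fields of large cardinality -/
theorem exists_hom_ext {R K L : Type} [CommRing R] [IsDomain R] [Field K] [Field L] [IsAlgClosed L]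
    [Algebra R K] [Algebra R L] [FaithfulSMul R K] [FaithfulSMul R L] (hR : #R ≤ ℵ₀)
    (hL : ℵ₀ < #L) (hcard : #K ≤ #L) : Nonempty (K →ₐ[R] L) := by
  obtain ⟨s, hs⟩ := exists_isTranscendenceBasis R K
  obtain ⟨t, ht⟩ := exists_isTranscendenceBasis R L
  have h1 : #L = #t := by
    have := IsAlgClosed.cardinal_eq_cardinal_transcendence_basis_of_aleph0_lt _ ht hR hL
    rwa [Cardinal.lift_id, Cardinal.lift_id] at this
  have h2 : #s ≤ #t := by
    rw [← h1]
    exact (mk_set_le s).trans hcard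
  obtain ⟨e⟩ := h2
  have hi : AlgebraicIndependent R (fun x : s => ((e x : t) : L)) := ht.1.comp e e.injective
  let A1 := Algebra.adjoin R (Set.range (Subtype.val : s → K))
  let g : A1 →ₐ[R] L := (MvPolynomial.aeval (fun x : s => ((e x : t) : L))).comp
    (hs.1.aevalEquiv.symm : A1 →ₐ[R] MvPolynomial s R)
  have hg : Function.Injective g := by
    intro x y hxy
    apply hs.1.aevalEquiv.symm.injective
    exact hi hxy
  letI : Algebra A1 L := (g : A1 →+* L).toAlgebra
  haveI : FaithfulSMul A1 L := (faithfulSMul_iff_algebraMap_injective _ _).mpr hg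
  haveI : IsScalarTower R A1 L := IsScalarTower.of_algebraMap_eq fun x => (g.commutes x).symm
  haveI : Algebra.IsAlgebraic A1 K := hs.isAlgebraic
  let f : K →ₐ[A1] L := IsAlgClosed.lift
  exact ⟨f.restrictScalars R⟩

open CuspForm CongruenceSubgroup ModularFormClass Fermat.Agent.TWInst

/-- the complex eigensystem belonging to a character -/
theorem exists_lam {p : ℕ} [hp : Fact p.Prime] {N : ℕ} [NeZero N] {O : Type} [CommRing O]
    [IsDomain O] [CNL O] [CharZero O] [Algebra ℤ_[p] O] [Module.Finite ℤ_[p] O]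
    (χ : heckeAlgebra N 2 ∅ →+* O) :
    ∃ (κ : O →+* ℂ) (_ : Function.Injective κ) (M : ℕ) (_ : NeZero M) (_ : M ∣ N)
      (g : Newform.S2 M) (_ : g.IsNewform), ∀ (l : ℕ) (hl : l.Prime) (hlN : ¬ l ∣ N),
        κ (χ (heckeAlgebra.T hl hlN (Set.notMem_empty l))) = qCoeff g l := by
  haveI : Module.Finite ℤ (heckeAlgebra N 2 ∅) := Fermat.Agent.S22.result N 2 ∅
  haveI : Algebra.IsIntegral ℤ (heckeAlgebra N 2 ∅) := inferInstance
  set Q : Ideal (heckeAlgebra N 2 ∅) := RingHom.ker χ with hQdef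
  haveI hQ : Q.IsPrime := RingHom.ker_isPrime χ
  have hQZ : Q.comap (algebraMap ℤ (heckeAlgebra N 2 ∅)) = ⊥ := by
    rw [eq_bot_iff]
    intro n hn
    rw [Ideal.mem_comap, hQdef, RingHom.mem_ker, eq_intCast, map_intCast] at hn
    exact_mod_cast hn
  have hmin : Q ∈ minimalPrimes (heckeAlgebra N 2 ∅) := by
    refine ⟨⟨hQ, bot_le⟩, ?_⟩
    rintro P ⟨hP, -⟩ hPQ
    haveI := hP
    by_contra hne
    have hlt : P < Q := lt_of_le_of_ne hPQ (fun h => hne (h ▸ le_rfl))
    have h2 := Ideal.comap_lt_comap_of_integral_mem_sdiff (R := ℤ) hPQ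
      (Set.not_subset.mp (fun h => hlt.not_ge h)).choose_spec
      (Algebra.IsIntegral.isIntegral _)
    rw [hQZ] at h2
    exact not_lt_bot h2
  obtain ⟨Ψ, hΨ⟩ := DSLift.exists_algHom_comap_eq N 2 Q hmin
  obtain ⟨f, hf1, hf⟩ := DSLift.exists_eigenvector_of_algHom N 2 Ψ
  have heig : ∀ t : heckeAlgebra N 2 ∅,
      (t : Module.End ℂ (CuspForm (Gamma0 N) 2)) f = Ψ (DSLift.toHeckeC N 2 t) • f := fun t => by
    rw [← hf, DSLift.coe_toHeckeC]
  have heig' : ∀ (p : ℕ) (hp : p.Prime), DSLift.heckeOp N 2 hp f =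
      Ψ (DSLift.toHeckeC N 2 (DSLift.heckeElt N 2 hp)) • f :=
    fun p hp => heig (DSLift.heckeElt N 2 hp)
  have hfe : f.IsNormalizedEigenform :=
    DSLift.isNormalizedEigenform_of_eigen N hf1 fun p hp => ⟨_, heig' p hp⟩
  -- the two embeddings of the coefficient ring
  have htf : Function.Injective (algebraMap ℤ_[p] O) := by
    rw [injective_iff_map_eq_zero]
    intro x hx
    by_contra hne
    obtain ⟨u, m, rfl⟩ : ∃ (u : ℤ_[p]ˣ) (m : ℕ), x = u * (p : ℤ_[p]) ^ m :=
      ⟨_, _, PadicInt.unitCoeff_spec hne⟩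
    rw [map_mul, map_pow, map_natCast] at hx
    rcases mul_eq_zero.mp hx with h1 | h1
    · exact (u.isUnit.map (algebraMap ℤ_[p] O)).ne_zero h1
    · exact pow_ne_zero m (Nat.cast_ne_zero.mpr hp.out.ne_zero) h1
  obtain ⟨φ, c, hφ, -, -, -⟩ := exists_fields (p := p) O htf
  let R := heckeAlgebra N 2 ∅ ⧸ Q
  haveI : IsDomain R := Ideal.Quotient.isDomain Q
  let j1 : R →+* KK p := Ideal.Quotient.lift Q (φ.comp χ) (fun t ht => by
    rw [RingHom.comp_apply, RingHom.mem_ker.mp ht, map_zero])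
  let j2 : R →+* ℂ := Ideal.Quotient.lift Q ((Ψ : DSLift.heckeC N 2 →+* ℂ).comp
    (DSLift.toHeckeC N 2)) (fun t ht => by
      rw [← hΨ, Ideal.mem_comap, RingHom.mem_ker] at ht
      exact ht)
  have hj1 : Function.Injective j1 := RingHom.lift_injective_of_ker_le_ideal Q _ (by
    intro t ht
    have h1 : φ (χ t) = φ 0 := by rw [map_zero]; exact ht
    exact hφ h1)
  have hj2 : Function.Injective j2 := RingHom.lift_injective_of_ker_le_ideal Q _ (by
    intro t ht
    rw [← hΨ, Ideal.mem_comap, RingHom.mem_ker]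
    exact ht)
  letI : Algebra R (KK p) := j1.toAlgebra
  letI : Algebra R ℂ := j2.toAlgebra
  haveI : FaithfulSMul R (KK p) := (faithfulSMul_iff_algebraMap_injective _ _).mpr hj1
  haveI : FaithfulSMul R ℂ := (faithfulSMul_iff_algebraMap_injective _ _).mpr hj2
  have hRc : #R ≤ ℵ₀ := by
    haveI : Module.Finite ℤ R := inferInstance
    obtain ⟨n, F, hF⟩ := Module.Finite.exists_fin' ℤ R
    rw [Cardinal.mk_le_aleph0_iff]
    exact hF.countable
  obtain ⟨F⟩ := exists_hom_ext (R := R) (K := KK p) (L := ℂ) hRc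
    (by rw [Cardinal.mk_complex]; exact Cardinal.aleph0_lt_continuum)
    (by rw [card_KK, Cardinal.mk_complex])
  have hκ : ∀ t, F (φ (χ t)) = Ψ (DSLift.toHeckeC N 2 t) := by
    intro t
    have h1 : F (algebraMap R (KK p) (Ideal.Quotient.mk Q t)) =
        algebraMap R ℂ (Ideal.Quotient.mk Q t) := F.commutes _
    exact h1
  obtain ⟨M, hM, g, hg, hgf⟩ := Newform.exists_newform hfe
  haveI : NeZero M := ⟨fun h => NeZero.ne N (Nat.eq_zero_of_zero_dvd (h ▸ hM))⟩
  have hFi : Function.Injective (F : KK p →+* ℂ) := (F : KK p →+* ℂ).injective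
  refine ⟨(F : KK p →+* ℂ).comp φ, fun a b h => hφ (hFi h), M, inferInstance, hM, g, hg, ?_⟩
  intro l hl hlN
  rw [hgf l hl hlN, RingHom.comp_apply]
  have h1 : DSLift.heckeElt N 2 hl = heckeAlgebra.T hl hlN (Set.notMem_empty l) := by
    apply Subtype.ext
    change DSLift.heckeOp N 2 hl = heckeTLin 2 hl hlN
    rw [DSLift.heckeOp_of_not_dvd hl hlN]
  rw [DSLift.qCoeff_prime_of_eigen N 2 hf1 hl (heig' l hl), h1]
  exact hκ _

end Fermat.Agent.RT
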