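import Fermat.Agent.RT.SelCot
import Fermat.Agent.TWCoh.HeckeHom
import Fermat.Agent.Newform.Conj

/-!
# Finiteness of the cotangent space of a Hecke ring at a point
-/

set_option autoImplicit false
set_option maxHeartbeats 400000

noncomputable section

namespace Fermat.Agent.RT

open Module Polynomial IsDiscreteValuationRing Fermat.Agent.RT.Sel Fermat.Agent.TWCoh
  Fermat.Agent.Newform

namespace CotFin

section Alg

variable {O R : Type*} [CommRing O] [IsDomain O] [CommRing R] [Algebra O R] (lam : R →ₐ[O] O)

theorem sub_mem_ker (x : R) : x - algebraMap O R (lam x) ∈ RingHom.ker lam := by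
  rw [RingHom.mem_ker, map_sub, AlgHom.commutes, Algebra.algebraMap_self, RingHom.id_apply,
    sub_self]

/-- the universal derivation at the point -/
def dd (x : R) : (RingHom.ker lam).Cotangent :=
  (RingHom.ker lam).toCotangent ⟨x - algebraMap O R (lam x), sub_mem_ker lam x⟩

theorem dd_add (x y : R) : dd lam (x + y) = dd lam x + dd lam y := by
  unfold dd
  rw [← map_add]
  congr 1
  apply Subtype.ext
  change x + y - algebraMap O R (lam (x + y)) = (x - algebraMap O R (lam x)) +
    (y - algebraMap O R (lam y))
  rw [map_add, map_add]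
  ring

theorem dd_algebraMap (r : O) : dd lam (algebraMap O R r) = 0 := by
  unfold dd
  have : (⟨algebraMap O R r - algebraMap O R (lam (algebraMap O R r)),
      sub_mem_ker lam _⟩ : RingHom.ker lam) = 0 := by
    apply Subtype.ext
    change algebraMap O R r - algebraMap O R (lam (algebraMap O R r)) = 0
    rw [AlgHom.commutes, Algebra.algebraMap_self, RingHom.id_apply, sub_self]
  rw [this, map_zero]

theorem dd_mul (x y : R) : dd lam (x * y) = lam x • dd lam y + lam y • dd lam x := by
  unfold dd
  have e : ∀ (r : O) (z : RingHom.ker lam), r • (RingHom.ker lam).toCotangent z =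
      (RingHom.ker lam).toCotangent (algebraMap O R r • z) := fun r z => by
    rw [map_smul, algebraMap_smul]
  rw [e, e, ← map_add, Ideal.toCotangent_eq]
  have h1 := Ideal.mul_mem_mul (sub_mem_ker lam x) (sub_mem_ker lam y)
  rw [← sq] at h1
  convert h1 using 1
  change (x * y - algebraMap O R (lam (x * y))) -
    (algebraMap O R (lam x) * (y - algebraMap O R (lam y)) +
      algebraMap O R (lam y) * (x - algebraMap O R (lam x))) = _
  rw [map_mul, map_mul]
  ring

theorem dd_of_mem {x : R} (hx : x ∈ RingHom.ker lam) :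
    dd lam x = (RingHom.ker lam).toCotangent ⟨x, hx⟩ := by
  unfold dd
  congr 1
  apply Subtype.ext
  change x - algebraMap O R (lam x) = x
  rw [show lam x = 0 from hx, map_zero, sub_zero]

/-- torsion -/
def Tor {M : Type*} [AddCommGroup M] [Module O M] (c : M) : Prop := ∃ b : O, b ≠ 0 ∧ b • c = 0

theorem Tor.add {M : Type*} [AddCommGroup M] [Module O M] {c d : M} (hc : Tor (O := O) c)
    (hd : Tor (O := O) d) : Tor (O := O) (c + d) := by
  obtain ⟨b, hb, h⟩ := hc
  obtain ⟨b', hb', h'⟩ := hd
  refine ⟨b * b', mul_ne_zero hb hb', ?_⟩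
  rw [smul_add, mul_smul b b' d, h', smul_zero, add_zero, mul_comm, mul_smul, h, smul_zero]

theorem Tor.smul {M : Type*} [AddCommGroup M] [Module O M] {c : M} (hc : Tor (O := O) c) (r : O) :
    Tor (O := O) (r • c) := by
  obtain ⟨b, hb, h⟩ := hc
  exact ⟨b, hb, by rw [smul_comm, h, smul_zero]⟩

theorem tor_zero {M : Type*} [AddCommGroup M] [Module O M] : Tor (O := O) (0 : M) :=
  ⟨1, one_ne_zero, smul_zero _⟩

/-- the torsion classes -/
theorem tor_of_adjoin {X : Set R} (hX : Algebra.adjoin O X = ⊤)
    (h : ∀ x ∈ X, Tor (O := O) (dd lam x)) (c : (RingHom.ker lam).Cotangent) :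
    Tor (O := O) c := by
  have key : ∀ x : R, Tor (O := O) (dd lam x) := by
    intro x
    have hx : x ∈ Algebra.adjoin O X := by rw [hX]; trivial
    induction hx using Algebra.adjoin_induction with
    | mem x hx => exact h x hx
    | algebraMap r => rw [dd_algebraMap]; exact tor_zero
    | add x y _ _ hx hy => rw [dd_add]; exact hx.add hy
    | mul x y _ _ hx hy => rw [dd_mul]; exact (hy.smul _).add (hx.smul _)
  obtain ⟨⟨x, hx⟩, rfl⟩ := Ideal.toCotangent_surjective _ c
  rw [← dd_of_mem lam hx]
  exact key x

/-- a class is torsion as soon as the element satisfies a separable equation -/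
theorem tor_of_poly [CharZero O] {x : R} (P : ℤ[X]) (hP : aeval x P = 0)
    (hs : (P.map (Int.castRingHom ℚ)).Separable) : Tor (O := O) (dd lam x) := by
  set a := lam x with ha
  set PO := P.map (Int.castRingHom O) with hPO
  have hPa : PO.eval a = 0 := by
    have h1 := congrArg lam hP
    rw [map_zero] at h1
    rw [hPO, eval_map]
    have h2 : lam (aeval x P) = aeval (lam x) P :=
      (aeval_algHom_apply (lam.toRingHom.toIntAlgHom) x P).symm
    rw [h2] at h1
    exact h1
  have hPx : (PO.map (algebraMap O R)).eval x = 0 := by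
    rw [hPO, Polynomial.map_map, eval_map]
    have h1 : (algebraMap O R).comp (Int.castRingHom O) = algebraMap ℤ R := RingHom.ext_int _ _
    rw [h1]
    exact hP
  -- `P'(a) ≠ 0`
  have hda : PO.derivative.eval a ≠ 0 := by
    intro h0
    let K := FractionRing O
    haveI : CharZero K := charZero_of_injective_algebraMap (IsFractionRing.injective O K)
    set aK : K := algebraMap O K a with haK
    have hsep : (P.map (Int.castRingHom K)).Separable := by
      have h1 : (Int.castRingHom K) = (algebraMap ℚ K).comp (Int.castRingHom ℚ) :=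
        (RingHom.ext_int _ _)
      rw [h1, ← Polynomial.map_map]
      exact hs.map
    obtain ⟨u, v, huv⟩ := hsep
    have e1 : (P.map (Int.castRingHom K)).eval aK = 0 := by
      have h1 : P.map (Int.castRingHom K) = PO.map (algebraMap O K) := by
        rw [hPO, Polynomial.map_map]
        congr 1
        exact RingHom.ext_int _ _
      rw [h1, haK, eval_map, eval₂_at_apply, hPa, map_zero]
    have e2 : (P.map (Int.castRingHom K)).derivative.eval aK = 0 := by
      have h1 : P.map (Int.castRingHom K) = PO.map (algebraMap O K) := by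
        rw [hPO, Polynomial.map_map]
        congr 1
        exact RingHom.ext_int _ _
      rw [h1, derivative_map, haK, eval_map, eval₂_at_apply, h0, map_zero]
    have h3 := congrArg (eval aK) huv
    rw [eval_add, eval_mul, eval_mul, e1, e2, mul_zero, mul_zero, add_zero, eval_one] at h3
    exact zero_ne_one h3
  refine ⟨PO.derivative.eval a, hda, ?_⟩
  obtain ⟨k, hk⟩ := binomExpansion (PO.map (algebraMap O R)) (algebraMap O R a)
    (x - algebraMap O R a)
  rw [add_sub_cancel, hPx, derivative_map, eval_map, eval_map, eval₂_at_apply, eval₂_at_apply,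
    hPa, map_zero, zero_add] at hk
  have hI := sub_mem_ker lam x
  unfold dd
  have e : ∀ (r : O) (z : RingHom.ker lam), r • (RingHom.ker lam).toCotangent z =
      (RingHom.ker lam).toCotangent (algebraMap O R r • z) := fun r z => by
    rw [map_smul, algebraMap_smul]
  rw [e, Ideal.toCotangent_eq_zero]
  change algebraMap O R (PO.derivative.eval a) * (x - algebraMap O R a) ∈ _
  have h4 : algebraMap O R (PO.derivative.eval a) * (x - algebraMap O R a) =
      -(k * (x - algebraMap O R a) ^ 2) := by linear_combination -hk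
  rw [h4]
  exact neg_mem (Ideal.mul_mem_left _ _ (Ideal.pow_mem_pow hI 2))

end Alg

/-- finitely generated torsion modules have finite length -/
theorem length_ne_top {O M : Type*} [CommRing O] [IsDomain O] [IsDiscreteValuationRing O]
    [AddCommGroup M] [Module O M] [Module.Finite O M] (h : ∀ c : M, Tor (O := O) c) :
    Module.length O M ≠ ⊤ := by
  obtain ⟨n, g, hg⟩ := Module.Finite.exists_fin' O M
  choose b hb0 hb using h
  let Mx : Matrix (Fin n) (Fin n) O := Matrix.diagonal fun i => b (g (Pi.single i 1))
  have h1 := length_le_of_relations g hg Mx (fun i => by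
    have h2 : Mx i = b (g (Pi.single i 1)) • (Pi.single i (1 : O) : Fin n → O) := by
      ext j
      change Matrix.diagonal (fun i => b (g (Pi.single i 1))) i j = _
      rw [Matrix.diagonal_apply, Pi.smul_apply, Pi.single_apply]
      by_cases hij : i = j
      · subst hij; simp
      · rw [if_neg hij, if_neg (Ne.symm hij), smul_zero]
    rw [h2, map_smul]
    exact hb _)
  have h2 : Mx.det ≠ 0 := by
    rw [Matrix.det_diagonal]
    exact Finset.prod_ne_zero_iff.mpr fun i _ => hb0 _
  intro h3
  rw [h3, top_le_iff] at h1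
  exact h2 (addVal_eq_top_iff.mp h1)

/-- a separable integral equation of a Hecke operator -/
theorem exists_sep {N : ℕ} [NeZero N] {S : Set ℕ} (T : CuspForm.heckeAlgebra N 2 S)
    {ι : Type*} (E : ι → Submodule ℂ (S2 N)) (hE : ⨆ i, E i = ⊤)
    (hT : ∀ i, ∃ μ : ℂ, ∀ v ∈ E i, (T : Module.End ℂ (S2 N)) v = μ • v) :
    ∃ P : ℤ[X], aeval T P = 0 ∧ (P.map (Int.castRingHom ℚ)).Separable := by
  obtain ⟨P₀, hP₀, hP₀T⟩ : IsIntegral ℤ T := Algebra.IsIntegral.isIntegral T
  have hne : P₀.map (Int.castRingHom ℚ) ≠ 0 := (hP₀.map _).ne_zero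
  obtain ⟨r, n, hsq, -, hdvd⟩ := exists_squarefree_dvd_pow_of_ne_zero hne
  obtain ⟨b, hb⟩ := IsLocalization.integerNormalization_map_to_map (nonZeroDivisors ℤ) r
  set P := IsLocalization.integerNormalization (nonZeroDivisors ℤ) r with hP
  have hb0 : ((b : ℤ) : ℚ) ≠ 0 := by
    have := nonZeroDivisors.ne_zero b.2
    exact_mod_cast this
  have hbq : P.map (Int.castRingHom ℚ) = C ((b : ℤ) : ℚ) * r := by
    have h1 : (algebraMap ℤ ℚ) = Int.castRingHom ℚ := rfl
    rw [← h1, hb]
    ext i
    rw [coeff_smul, coeff_C_mul, zsmul_eq_mul]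
  refine ⟨P, ?_, ?_⟩
  · -- the complex polynomial
    set rC := r.map (algebraMap ℚ ℂ) with hrC
    set TE : Module.End ℂ (S2 N) := (T : Module.End ℂ (S2 N)) with hTE
    have hev : ∀ (Q : ℂ[X]) (μ : ℂ) (v : S2 N), TE v = μ • v → aeval TE Q v = Q.eval μ • v := by
      intro Q μ v hv
      induction Q using Polynomial.induction_on' with
      | add p q hp hq => rw [map_add, LinearMap.add_apply, hp, hq, eval_add, add_smul]
      | monomial k c =>
        have h1 : ∀ k : ℕ, (TE ^ k) v = μ ^ k • v := by
          intro k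
          induction k with
          | zero => simp
          | succ k ih => rw [pow_succ', Module.End.mul_apply, ih, map_smul, hv, smul_smul, pow_succ]
        rw [aeval_monomial, Module.End.mul_apply, h1, Module.algebraMap_end_apply, smul_smul,
          eval_monomial]
    have hP₀C : aeval TE (P₀.map (Int.castRingHom ℂ)) = 0 := by
      have h1 : aeval TE (P₀.map (Int.castRingHom ℂ)) = aeval TE P₀ :=
        aeval_map_algebraMap ℂ TE P₀
      rw [h1]
      have h2 := congrArg (CuspForm.heckeAlgebra N 2 S).val hP₀T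
      rw [map_zero] at h2
      have h3 : (CuspForm.heckeAlgebra N 2 S).val (eval₂ (algebraMap ℤ _) T P₀) =
          aeval ((CuspForm.heckeAlgebra N 2 S).val T) P₀ := by
        rw [aeval_algHom_apply]
        rfl
      rw [h3] at h2
      exact h2
    have hrn : aeval TE (rC ^ n) = 0 := by
      obtain ⟨q, hq⟩ := hdvd
      have h1 : rC ^ n = P₀.map (Int.castRingHom ℂ) * q.map (algebraMap ℚ ℂ) := by
        rw [hrC, ← Polynomial.map_pow, hq, Polynomial.map_mul, Polynomial.map_map]
        congr 2
      rw [h1, map_mul, hP₀C, zero_mul]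
    have hr : aeval TE rC = 0 := by
      have h1 : ∀ i, E i ≤ LinearMap.ker (aeval TE rC) := by
        intro i v hv
        obtain ⟨μ, hμ⟩ := hT i
        have h2 := hev rC μ v (hμ v hv)
        have h3 := hev (rC ^ n) μ v (hμ v hv)
        rw [hrn, LinearMap.zero_apply, eval_pow] at h3
        rw [LinearMap.mem_ker, h2]
        rcases smul_eq_zero.mp h3.symm with h4 | h4
        · rw [eq_zero_of_pow_eq_zero h4, zero_smul]
        · rw [h4, smul_zero]
      have h2 : LinearMap.ker (aeval TE rC) = ⊤ := by
        rw [eq_top_iff, ← hE]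
        exact iSup_le h1
      exact LinearMap.ker_eq_top.mp h2
    apply Subtype.ext
    have h4 : ((aeval T P : CuspForm.heckeAlgebra N 2 S) : Module.End ℂ (S2 N)) = aeval TE P := by
      exact (aeval_algHom_apply (CuspForm.heckeAlgebra N 2 S).val T P).symm
    rw [h4]
    have h5 : aeval TE P = aeval TE (P.map (Int.castRingHom ℂ)) :=
      (aeval_map_algebraMap ℂ TE P).symm
    have h6 : P.map (Int.castRingHom ℂ) = C (((b : ℤ) : ℚ) : ℂ) * rC := by
      have h7 : Int.castRingHom ℂ = (algebraMap ℚ ℂ).comp (Int.castRingHom ℚ) :=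
        RingHom.ext_int _ _
      rw [h7, ← Polynomial.map_map, hbq, Polynomial.map_mul, Polynomial.map_C, hrC]
      rfl
    rw [h5, h6, map_mul, hr, mul_zero]
    rfl
  · rw [hbq]
    have h1 : r.Separable := PerfectField.separable_iff_squarefree.mpr hsq
    exact h1.unit_mul (isUnit_C.mpr (isUnit_iff_ne_zero.mpr hb0))

end CotFin

open CotFin in
/-- **(L2)** the cotangent space of a Hecke ring at a point has finite length -/
theorem length_cot_ne_top {O R : Type} [CommRing O] [IsDomain O] [IsDiscreteValuationRing O]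
    [CharZero O] [CommRing R] [Algebra O R] [Module.Finite O R] {N : ℕ} [NeZero N] {S : Set ℕ}
    (hNS : ∀ l : PS S, ¬ l.1 ∣ N) (x₀ : CuspForm.heckeAlgebra N 2 S →+* R)
    (hgen : Algebra.adjoin O (Set.range fun l => x₀ (gT hNS l)) = ⊤) (lam : R →ₐ[O] O) :
    Module.length O (RingHom.ker lam).Cotangent ≠ ⊤ := by
  haveI : IsNoetherian O R := inferInstance
  haveI : Module.Finite O (RingHom.ker lam) :=
    Module.Finite.of_injective ((RingHom.ker lam).subtype.restrictScalars O)
      Subtype.val_injective
  haveI : Module.Finite O (RingHom.ker lam).Cotangent := by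
    refine Module.Finite.of_surjective ((RingHom.ker lam).toCotangent.restrictScalars O) ?_
    exact Ideal.toCotangent_surjective _
  refine length_ne_top fun c => tor_of_adjoin lam hgen ?_ c
  rintro _ ⟨l, rfl⟩
  obtain ⟨P, hP, hs⟩ := exists_sep (gT hNS l) (Eig N N) (iSup_Eig dvd_rfl) (fun χ => by
    refine ⟨χ ⟨l.1, l.2.1, hNS l⟩, fun v hv => ?_⟩
    have h1 := mem_Eig.mp hv ⟨l.1, l.2.1, hNS l⟩
    rw [DSLift.heckeOp_of_not_dvd _ (hNS l)] at h1
    exact h1)
  refine tor_of_poly lam P ?_ hs
  have h2 := congrArg x₀ hP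
  rw [map_zero] at h2
  rw [← h2]
  exact aeval_algHom_apply (x₀.toIntAlgHom) (gT hNS l) P

end Fermat.Agent.RT
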