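import Fermat.Agent.RT.MCond

/-!
# T10 (a): the deformation conditions
-/

set_option autoImplicit false
set_option maxHeartbeats 400000
set_option linter.unusedSectionVars false

noncomputable section

namespace Fermat.Agent.RT

open IsLocalRing Matrix Fermat.Agent.DefRing Fermat.Agent.GalRep Fermat.Agent.TWGal
  Fermat.Agent.TWPatch Fermat.Agent.TW56 GaloisRep

local notation "Qbar" => AlgebraicClosure ℚ

/-! ### from matrices to representations -/

section Basic

variable {A : Type} [CommRing A] [IsLocalRing A]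

theorem isEquiv_matRep (ρ : GaloisRepAdic A) (b : Module.Basis (Fin 2) A ρ.V) :
    ρ.IsEquiv (matRep (repMat ρ b) (repMat_matCont ρ b)) :=
  ⟨{ toLinearEquiv := b.equivFun
     map_apply := fun σ x => by
      rw [matRep_apply]
      exact (LinearMap.toMatrix_mulVec_repr b b (ρ.ρ σ) x).symm }⟩

theorem exists_basis_of_isEquiv {ρ ρ' : GaloisRepAdic A} (h : ρ.IsEquiv ρ')
    (b : Module.Basis (Fin 2) A ρ.V) :
    ∃ b' : Module.Basis (Fin 2) A ρ'.V, repMat ρ' b' = repMat ρ b := by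
  obtain ⟨e⟩ := h
  obtain ⟨e'⟩ := isEquiv_matRep ρ b
  exact exists_basis_of_equiv ⟨e.symm.trans e'⟩

theorem exists_basis_baseChange {B : Type} [CommRing B] [IsLocalRing B] (φ : A →+* B)
    (hφ : IsLocalHom φ) (ρ : GaloisRepAdic A) (b : Module.Basis (Fin 2) A ρ.V) :
    ∃ b' : Module.Basis (Fin 2) B (ρ.baseChangeAlong φ hφ).V,
      repMat (ρ.baseChangeAlong φ hφ) b' = mapT φ (repMat ρ b) := by
  obtain ⟨e⟩ := isEquiv_matRep ρ b
  obtain ⟨e'⟩ := matRep_baseChangeAlong φ hφ (repMat_matCont ρ b)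
  exact exists_basis_of_equiv ⟨(e.baseChangeAlong φ hφ).trans e'⟩

/-- some basis -/
def bas (ρ : GaloisRepAdic A) : Module.Basis (Fin 2) A ρ.V :=
  Module.finBasisOfFinrankEq A ρ.V ρ.finrank_eq

end Basic

variable {𝒪 : Type} [CommRing 𝒪] [IsLocalRing 𝒪]

/-- matrix conditions defining deformation conditions -/
structure MC (𝒪 : Type) [CommRing 𝒪] [IsLocalRing 𝒪]
    (C : ∀ ⦃A : Type⦄ [CommRing A] [IsLocalRing A], (GQ →* Matrix (Fin 2) (Fin 2) A) → Prop) :
    Prop where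
  map : ∀ ⦃A B : Type⦄ [CommRing A] [IsLocalRing A] [Algebra 𝒪 A] [CommRing B] [IsLocalRing B]
    [Algebra 𝒪 B], IsArtinianTestAlgebra 𝒪 B → ∀ f : A →ₐ[𝒪] B, IsLocalHom (f : A →+* B) →
    ∀ T : GQ →* Matrix (Fin 2) (Fin 2) A, C T → C (mapT (f : A →+* B) T)
  fam : ∀ ⦃R A B : Type⦄ [CommRing R] [IsLocalRing R] [Algebra 𝒪 R] [CommRing A] [IsLocalRing A]
    [Algebra 𝒪 A] [CommRing B] [IsLocalRing B] [Algebra 𝒪 B], IsArtinianTestAlgebra 𝒪 R →
    IsArtinianTestAlgebra 𝒪 A → IsArtinianTestAlgebra 𝒪 B → ∀ (f : R →ₐ[𝒪] A) (g : R →ₐ[𝒪] B),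
    IsLocalHom (f : R →+* A) → IsLocalHom (g : R →+* B) → (∀ x, f x = 0 → g x = 0 → x = 0) →
    ∀ T : GQ →* Matrix (Fin 2) (Fin 2) R, C (mapT (f : R →+* A) T) → C (mapT (g : R →+* B) T) → C T
  lim : ∀ ⦃A : Type⦄ [CommRing A] [IsLocalRing A] [IsNoetherianRing A]
    [IsAdicComplete (maximalIdeal A) A] [Algebra 𝒪 A], IsLocalHom (algebraMap 𝒪 A) →
    Function.Surjective (IsLocalRing.residue A ∘ algebraMap 𝒪 A) →
    ∀ T : GQ →* Matrix (Fin 2) (Fin 2) A,
    (∀ ⦃B : Type⦄ [CommRing B] [IsLocalRing B] [Algebra 𝒪 B], IsArtinianTestAlgebra 𝒪 B →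
      ∀ q : A →ₐ[𝒪] B, IsLocalHom (q : A →+* B) → Function.Surjective q →
        C (mapT (q : A →+* B) T)) → C T

theorem MC.and {C C' : ∀ ⦃A : Type⦄ [CommRing A] [IsLocalRing A],
    (GQ →* Matrix (Fin 2) (Fin 2) A) → Prop} (h : MC 𝒪 C) (h' : MC 𝒪 C') :
    MC 𝒪 (fun _ _ _ T => C T ∧ C' T) where
  map := fun A B _ _ _ _ _ _ hB f hf T hT => ⟨h.map hB f hf T hT.1, h'.map hB f hf T hT.2⟩
  fam := fun R A B _ _ _ _ _ _ _ _ _ hR hA hB f g hf hg hi T h1 h2 =>
    ⟨h.fam hR hA hB f g hf hg hi T h1.1 h2.1, h'.fam hR hA hB f g hf hg hi T h1.2 h2.2⟩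
  lim := fun A _ _ _ _ _ hl hs T hT =>
    ⟨h.lim hl hs T fun B _ _ _ hB q hq hq' => (hT hB q hq hq').1,
      h'.lim hl hs T fun B _ _ _ hB q hq hq' => (hT hB q hq hq').2⟩

theorem MC.isDefCond {C : ∀ ⦃A : Type⦄ [CommRing A] [IsLocalRing A],
    (GQ →* Matrix (Fin 2) (Fin 2) A) → Prop} (h : MC 𝒪 C)
    {𝒟 : ∀ ⦃A : Type⦄ [CommRing A] [IsLocalRing A] [Algebra 𝒪 A], GaloisRepAdic A → Prop}
    (h𝒟 : ∀ ⦃A : Type⦄ [CommRing A] [IsLocalRing A] [IsNoetherianRing A] [Algebra 𝒪 A]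
      (ρ : GaloisRepAdic A) (b : Module.Basis (Fin 2) A ρ.V), 𝒟 ρ ↔ C (repMat ρ b)) :
    IsDeformationCondition 𝒪 𝒟 where
  of_isEquiv := by
    intro A _ _ _ hA ρ ρ' he hρ
    haveI := hA.isArtinian
    obtain ⟨b', hb'⟩ := exists_basis_of_isEquiv he (bas ρ)
    rw [h𝒟 ρ' b', hb']
    exact (h𝒟 ρ (bas ρ)).mp hρ
  baseChangeAlong := by
    intro A B _ _ _ _ _ _ hA hB φ hφ ρ hρ
    haveI := hA.isArtinian
    haveI := hB.isArtinian
    obtain ⟨b', hb'⟩ := exists_basis_baseChange (φ : A →+* B) hφ ρ (bas ρ)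
    rw [h𝒟 _ b', hb']
    exact h.map hB φ hφ _ ((h𝒟 ρ (bas ρ)).mp hρ)
  of_baseChangeAlong_injective := by
    intro A B _ _ _ _ _ _ hA hB φ hφ hi ρ hρ
    haveI := hA.isArtinian
    haveI := hB.isArtinian
    obtain ⟨b', hb'⟩ := exists_basis_baseChange (φ : A →+* B) hφ ρ (bas ρ)
    rw [h𝒟 _ b', hb'] at hρ
    rw [h𝒟 ρ (bas ρ)]
    exact h.fam hA hB hB φ φ hφ hφ (fun x hx _ => (injective_iff_map_eq_zero φ).mp hi x hx) _ hρ hρ
  of_fibreProduct := by
    intro A B C' P _ _ _ _ _ _ _ _ _ _ _ _ hA hB hC hP f g pA pB hpA hpB hfg hi hex ρ h1 h2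
    haveI := hA.isArtinian
    haveI := hB.isArtinian
    haveI := hP.isArtinian
    obtain ⟨b1, hb1⟩ := exists_basis_baseChange (pA : P →+* A) hpA ρ (bas ρ)
    obtain ⟨b2, hb2⟩ := exists_basis_baseChange (pB : P →+* B) hpB ρ (bas ρ)
    rw [h𝒟 _ b1, hb1] at h1
    rw [h𝒟 _ b2, hb2] at h2
    rw [h𝒟 ρ (bas ρ)]
    refine h.fam hP hA hB pA pB hpA hpB (fun x hx hx' => hi ?_) _ h1 h2
    simp only [hx, hx', map_zero]
  iff_forall_surjective := by
    intro A _ _ _ _ _ hl hs ρ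
    constructor
    · intro hρ B _ _ _ hB q hq hq'
      haveI := hB.isArtinian
      obtain ⟨b', hb'⟩ := exists_basis_baseChange (q : A →+* B) hq ρ (bas ρ)
      rw [h𝒟 _ b', hb']
      exact h.map hB q hq _ ((h𝒟 ρ (bas ρ)).mp hρ)
    · intro hρ
      rw [h𝒟 ρ (bas ρ)]
      refine h.lim hl hs _ fun B _ _ _ hB q hq hq' => ?_
      haveI := hB.isArtinian
      have h1 := hρ hB q hq hq'
      obtain ⟨b', hb'⟩ := exists_basis_baseChange (q : A →+* B) hq ρ (bas ρ)
      rwa [h𝒟 _ b', hb'] at h1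

/-! ### quotients of complete rings -/

section Quot

variable {A : Type} [CommRing A] [IsLocalRing A] [Algebra 𝒪 A]

theorem local_quot {I : Ideal A} (hI : I ≠ ⊤) : IsLocalRing (A ⧸ I) :=
  haveI : Nontrivial (A ⧸ I) := Ideal.Quotient.nontrivial_iff.mpr hI
  IsLocalRing.of_surjective' (Ideal.Quotient.mk I) Ideal.Quotient.mk_surjective

theorem localHom_quot {I : Ideal A} (hI : I ≠ ⊤) : IsLocalHom (Ideal.Quotient.mk I) :=
  haveI : Nontrivial (A ⧸ I) := Ideal.Quotient.nontrivial_iff.mpr hI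
  IsLocalHom.of_surjective _ Ideal.Quotient.mk_surjective

theorem test_quot' (hl : IsLocalHom (algebraMap 𝒪 A))
    (hs : Function.Surjective (IsLocalRing.residue A ∘ algebraMap 𝒪 A)) {I : Ideal A} (hI : I ≠ ⊤)
    [Finite (A ⧸ I)] : haveI := local_quot hI; IsArtinianTestAlgebra 𝒪 (A ⧸ I) := by
  haveI := local_quot hI
  haveI hmk := localHom_quot hI
  have he : algebraMap 𝒪 (A ⧸ I) = (Ideal.Quotient.mk I).comp (algebraMap 𝒪 A) := rfl
  refine ⟨?_, ?_, inferInstance⟩
  · rw [he]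
    exact RingHom.isLocalHom_comp _ _
  · intro y
    obtain ⟨y, rfl⟩ := residue_surjective y
    obtain ⟨a, rfl⟩ := Ideal.Quotient.mk_surjective y
    obtain ⟨c, hc⟩ := hs (residue A a)
    refine ⟨c, ?_⟩
    have h1 : algebraMap 𝒪 A c - a ∈ maximalIdeal A := by
      rw [← residue_eq_zero_iff, map_sub, sub_eq_zero]
      exact hc
    have h2 : Ideal.Quotient.mk I (algebraMap 𝒪 A c - a) ∈ maximalIdeal (A ⧸ I) :=
      map_nonunit (Ideal.Quotient.mk I) _ h1
    rw [← residue_eq_zero_iff, map_sub, map_sub, sub_eq_zero] at h2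
    exact h2

theorem finite_res [Finite (ResidueField 𝒪)] (hl : IsLocalHom (algebraMap 𝒪 A))
    (hs : Function.Surjective (IsLocalRing.residue A ∘ algebraMap 𝒪 A)) :
    Finite (ResidueField A) := by
  refine Finite.of_surjective (ResidueField.map (algebraMap 𝒪 A)) fun y => ?_
  obtain ⟨c, hc⟩ := hs y
  exact ⟨residue 𝒪 c, hc⟩

theorem finite_quotPow [IsNoetherianRing A] [Finite (ResidueField A)] (k : ℕ) :
    Finite (A ⧸ maximalIdeal A ^ k) := by
  haveI : Finite (A ⧸ maximalIdeal A) := inferInstanceAs (Finite (ResidueField A))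
  exact Ideal.finite_quotient_pow (IsNoetherian.noetherian _) k

theorem pow_ne_top' {k : ℕ} (hk : k ≠ 0) : maximalIdeal A ^ k ≠ ⊤ := fun h => by
  have h1 : maximalIdeal A ^ k ≤ maximalIdeal A := Ideal.pow_le_self hk
  rw [h, top_le_iff] at h1
  exact (maximalIdeal.isMaximal A).ne_top h1

theorem eq_zero_of_quot [IsNoetherianRing A] {x : A}
    (h : ∀ k : ℕ, Ideal.Quotient.mk (maximalIdeal A ^ (k + 1)) x = 0) : x = 0 := by
  have h1 : x ∈ (⨅ n : ℕ, maximalIdeal A ^ n : Ideal A) := by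
    rw [Ideal.mem_iInf]
    intro n
    exact Ideal.pow_le_pow_right (Nat.le_succ n) (Ideal.Quotient.eq_zero_iff_mem.mp (h n))
  rw [Ideal.iInf_pow_eq_bot_of_isLocalRing _ (maximalIdeal.isMaximal A).ne_top] at h1
  exact h1

/-- ideals are closed -/
theorem mem_of_forall_quot [IsNoetherianRing A] {J : Ideal A} {x : A}
    (h : ∀ k : ℕ, x ∈ J ⊔ maximalIdeal A ^ (k + 1)) : x ∈ J := by
  by_cases hJ : J = ⊤
  · rw [hJ]; trivial
  haveI := local_quot hJ
  haveI hmk := localHom_quot hJ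
  rw [← Ideal.Quotient.eq_zero_iff_mem]
  refine eq_zero_of_quot fun k => ?_
  rw [Ideal.Quotient.eq_zero_iff_mem]
  have h1 := Ideal.mem_map_of_mem (Ideal.Quotient.mk J) (h k)
  rw [Ideal.map_sup, Ideal.map_quotient_self, bot_sup_eq, Ideal.map_pow] at h1
  refine Ideal.pow_right_mono ?_ _ h1
  rw [Ideal.map_le_iff_le_comap]
  intro a ha
  exact map_nonunit (Ideal.Quotient.mk J) a ha

end Quot

section Conds

variable {p : ℕ} [hp : Fact p.Prime]

theorem nilp_of_test {A : Type} [CommRing A] [IsLocalRing A] [Algebra 𝒪 A]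
    (hA : IsArtinianTestAlgebra 𝒪 A) (hpA : (p : A) ∈ maximalIdeal A) :
    ∃ N : ℕ, ((p ^ N : ℕ) : A) = 0 := by
  haveI := hA.isArtinian
  obtain ⟨N, hN⟩ := IsArtinianRing.isNilpotent_jacobson_bot (R := A)
  refine ⟨N, ?_⟩
  rw [IsLocalRing.jacobson_eq_maximalIdeal ⊥ bot_ne_top] at hN
  have h1 := Ideal.pow_mem_pow hpA N
  rw [hN] at h1
  rw [Nat.cast_pow]
  exact h1

/-- the basic condition at `p` -/
def CDet (p : ℕ) ⦃A : Type⦄ [CommRing A] [IsLocalRing A]
    (T : GQ →* Matrix (Fin 2) (Fin 2) A) : Prop :=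
  (p : A) ∈ maximalIdeal A ∧ MDet p T

theorem mem_max_iff_of_local {A B : Type} [CommRing A] [IsLocalRing A] [CommRing B] [IsLocalRing B]
    {f : A →+* B} (hf : IsLocalHom f) {x : A} : f x ∈ maximalIdeal B ↔ x ∈ maximalIdeal A := by
  rw [mem_maximalIdeal, mem_maximalIdeal, mem_nonunits_iff, mem_nonunits_iff]
  exact not_congr (isUnit_map_iff f x)

theorem pmem_iff {A B : Type} [CommRing A] [IsLocalRing A] [CommRing B] [IsLocalRing B]
    {f : A →+* B} (hf : IsLocalHom f) : (p : B) ∈ maximalIdeal B ↔ (p : A) ∈ maximalIdeal A := by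
  rw [← map_natCast f, mem_max_iff_of_local hf]

theorem mc_det [Finite (ResidueField 𝒪)] : MC 𝒪 (fun _ _ _ T => CDet p T) where
  map := fun A B _ _ _ _ _ _ hB f hf T hT => ⟨(pmem_iff hf).mpr hT.1, hT.2.map _⟩
  fam := fun R A B _ _ _ _ _ _ _ _ _ hR hA hB f g hf hg hi T h1 h2 => by
    have hpR : (p : R) ∈ maximalIdeal R := (pmem_iff hf).mp h1.1
    obtain ⟨N, hN⟩ := nilp_of_test hR hpR
    refine ⟨hpR, ?_⟩
    rw [mdet_iff hN]
    intro σ
    have e1 : ((p ^ N : ℕ) : A) = 0 := by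
      rw [← map_natCast (f : R →+* A), hN, map_zero]
    have e2 : ((p ^ N : ℕ) : B) = 0 := by
      rw [← map_natCast (g : R →+* B), hN, map_zero]
    have k1 := (mdet_iff e1).mp h1.2 σ
    have k2 := (mdet_iff e2).mp h2.2 σ
    rw [det_mapT] at k1 k2
    rw [← sub_eq_zero]
    apply hi
    · change (f : R →+* A) _ = 0
      rw [map_sub, k1, map_natCast, sub_self]
    · change (g : R →+* B) _ = 0
      rw [map_sub, k2, map_natCast, sub_self]
  lim := fun A _ _ _ _ _ hl hs T hT => by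
    haveI := finite_res hl hs
    have key : ∀ k : ℕ, haveI := local_quot (pow_ne_top' (A := A) (Nat.succ_ne_zero k));
        CDet p (mapT (Ideal.Quotient.mk (maximalIdeal A ^ (k + 1))) T) := fun k => by
      haveI := local_quot (pow_ne_top' (A := A) (Nat.succ_ne_zero k))
      haveI := finite_quotPow (A := A) (k + 1)
      exact hT (test_quot' hl hs (pow_ne_top' (Nat.succ_ne_zero k)))
        (Ideal.Quotient.mkₐ 𝒪 (maximalIdeal A ^ (k + 1)))
        (localHom_quot (pow_ne_top' (Nat.succ_ne_zero k))) Ideal.Quotient.mk_surjective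
    constructor
    · haveI := local_quot (pow_ne_top' (A := A) (Nat.succ_ne_zero 0))
      exact (pmem_iff (localHom_quot (pow_ne_top' (A := A) (Nat.succ_ne_zero 0)))).mp (key 0).1
    · intro n σ a ha
      refine mem_of_forall_quot fun k => ?_
      haveI := local_quot (pow_ne_top' (A := A) (Nat.succ_ne_zero k))
      have h1 := (key k).2 n σ a ha
      rw [det_mapT, ← map_natCast (Ideal.Quotient.mk (maximalIdeal A ^ (k + 1))) a, ← map_sub,
        ← map_natCast (Ideal.Quotient.mk (maximalIdeal A ^ (k + 1))) (p ^ n),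
        ← Set.image_singleton, ← Ideal.map_span, ← Ideal.mem_comap,
        Ideal.comap_map_of_surjective _ Ideal.Quotient.mk_surjective, ← RingHom.ker_eq_comap_bot,
        Ideal.mk_ker] at h1
      exact h1

/-- a family of two rings -/
def K2 (A B : Type) (b : Bool) : Type := cond b A B

instance instK2 (A B : Type) [CommRing A] [CommRing B] (b : Bool) : CommRing (K2 A B b) :=
  match b with
  | false => inferInstanceAs (CommRing B)
  | true => inferInstanceAs (CommRing A)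

/-- a family of two maps -/
def F2 {R A B : Type} [CommRing R] [CommRing A] [CommRing B] (f : R →+* A) (g : R →+* B)
    (b : Bool) : R →+* K2 A B b :=
  match b with
  | false => g
  | true => f

/-- (strictly) ordinary -/
def COr (s : Prop) (p : ℕ) ⦃A : Type⦄ [CommRing A] [IsLocalRing A]
    (T : GQ →* Matrix (Fin 2) (Fin 2) A) : Prop := CDet p T ∧ MOr s p T

theorem mc_or [Finite (ResidueField 𝒪)] (hp2 : p ≠ 2) (s : Prop) :
    MC 𝒪 (fun _ _ _ T => COr s p T) where
  map := fun A B _ _ _ _ _ _ hB f hf T hT => ⟨mc_det.map hB f hf T hT.1, mor_map _ hT.2⟩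
  fam := fun R A B _ _ _ _ _ _ _ _ _ hR hA hB f g hf hg hi T h1 h2 => by
    have hd : CDet p T := mc_det.fam hR hA hB f g hf hg hi T h1.1 h2.1
    refine ⟨hd, ?_⟩
    refine mor_of_family (K := K2 A B) hp2 hd.1 hd.2 (F2 (f : R →+* A) (g : R →+* B))
      (fun x hx => hi x (hx true) (hx false)) fun b => ?_
    cases b
    · exact h2.2
    · exact h1.2
  lim := fun A _ _ _ _ _ hl hs T hT => by
    haveI := finite_res hl hs
    have hd : CDet p T := mc_det.lim hl hs T fun B _ _ _ hB q hq hq' => (hT hB q hq hq').1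
    refine ⟨hd, ?_⟩
    refine mor_of_family (K := fun k : ℕ => A ⧸ maximalIdeal A ^ (k + 1)) hp2 hd.1 hd.2
      (fun k => Ideal.Quotient.mk (maximalIdeal A ^ (k + 1))) (fun x hx => eq_zero_of_quot hx)
      fun k => ?_
    haveI := local_quot (pow_ne_top' (A := A) (Nat.succ_ne_zero k))
    haveI := finite_quotPow (A := A) (k + 1)
    exact (hT (test_quot' hl hs (pow_ne_top' (Nat.succ_ne_zero k)))
        (Ideal.Quotient.mkₐ 𝒪 (maximalIdeal A ^ (k + 1)))
        (localHom_quot (pow_ne_top' (Nat.succ_ne_zero k))) Ideal.Quotient.mk_surjective).2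

/-- flat -/
def CFl (p : ℕ) ⦃A : Type⦄ [CommRing A] [IsLocalRing A]
    (T : GQ →* Matrix (Fin 2) (Fin 2) A) : Prop := Finite (ResidueField A) ∧ MFlat p T

theorem mc_fl [Finite (ResidueField 𝒪)] : MC 𝒪 (fun _ _ _ T => CFl p T) where
  map := fun A B _ _ _ _ _ _ hB f hf T hT => by
    haveI := finite_of_test hB
    exact ⟨Finite.of_surjective (residue B) residue_surjective, hT.2.map _⟩
  fam := fun R A B _ _ _ _ _ _ _ _ _ hR hA hB f g hf hg hi T h1 h2 => by
    haveI := finite_of_test hR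
    haveI := finite_of_test hA
    haveI := finite_of_test hB
    refine ⟨Finite.of_surjective (residue R) residue_surjective, Fl.mflat ?_⟩
    exact Fl.of_inj2 (f : R →+* A) (g : R →+* B) hi (MFlat.fl h1.2) (MFlat.fl h2.2)
  lim := fun A _ _ _ _ _ hl hs T hT => by
    haveI := finite_res hl hs
    refine ⟨inferInstance, fun I hI hI' => ?_⟩
    haveI := local_quot hI'
    have h1 := (hT (test_quot' hl hs hI') (Ideal.Quotient.mkₐ 𝒪 I) (localHom_quot hI')
      Ideal.Quotient.mk_surjective).2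
    exact MFlat.fl h1

/-- entrywise conditions -/
theorem mc_unr [Finite (ResidueField 𝒪)] (X : Set GQ) :
    MC 𝒪 (fun _ _ _ T => ∀ σ ∈ X, T σ = 1) where
  map := fun A B _ _ _ _ _ _ hB f hf T hT σ hσ => by
    change (T σ).map f = 1
    rw [hT σ hσ]
    exact Matrix.map_one _ (map_zero f) (map_one f)
  fam := fun R A B _ _ _ _ _ _ _ _ _ hR hA hB f g hf hg hi T h1 h2 σ hσ => by
    ext i j
    rw [← sub_eq_zero]
    have e1 := congrFun (congrFun (h1 σ hσ) i) j
    have e2 := congrFun (congrFun (h2 σ hσ) i) j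
    rw [mapT_apply] at e1 e2
    apply hi
    · change (f : R →+* A) _ = 0
      rw [map_sub, e1, Matrix.one_apply, Matrix.one_apply]
      split_ifs <;> simp
    · change (g : R →+* B) _ = 0
      rw [map_sub, e2, Matrix.one_apply, Matrix.one_apply]
      split_ifs <;> simp
  lim := fun A _ _ _ _ _ hl hs T hT σ hσ => by
    haveI := finite_res hl hs
    ext i j
    rw [← sub_eq_zero]
    refine eq_zero_of_quot fun k => ?_
    haveI := local_quot (pow_ne_top' (A := A) (Nat.succ_ne_zero k))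
    haveI := finite_quotPow (A := A) (k + 1)
    have e1 := congrFun (congrFun (hT (test_quot' hl hs (pow_ne_top' (Nat.succ_ne_zero k)))
        (Ideal.Quotient.mkₐ 𝒪 (maximalIdeal A ^ (k + 1)))
        (localHom_quot (pow_ne_top' (Nat.succ_ne_zero k))) Ideal.Quotient.mk_surjective σ hσ) i) j
    rw [mapT_apply] at e1
    change (Ideal.Quotient.mk (maximalIdeal A ^ (k + 1))) (T σ i j) = _ at e1
    rw [map_sub, e1, Matrix.one_apply, Matrix.one_apply]
    split_ifs <;> simp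

theorem mc_uni [Finite (ResidueField 𝒪)] (X : Set GQ) :
    MC 𝒪 (fun _ _ _ T => ∀ σ ∈ X, (T σ).trace = 2 ∧ (T σ).det = 1) where
  map := fun A B _ _ _ _ _ _ hB f hf T hT σ hσ => by
    rw [trace_mapT, det_mapT, (hT σ hσ).1, (hT σ hσ).2, map_ofNat, map_one]
    exact ⟨rfl, rfl⟩
  fam := fun R A B _ _ _ _ _ _ _ _ _ hR hA hB f g hf hg hi T h1 h2 σ hσ => by
    obtain ⟨a1, a2⟩ := h1 σ hσ
    obtain ⟨b1, b2⟩ := h2 σ hσ
    rw [trace_mapT] at a1 b1
    rw [det_mapT] at a2 b2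
    constructor
    · rw [← sub_eq_zero]
      apply hi
      · change (f : R →+* A) _ = 0
        rw [map_sub, a1, map_ofNat, sub_self]
      · change (g : R →+* B) _ = 0
        rw [map_sub, b1, map_ofNat, sub_self]
    · rw [← sub_eq_zero]
      apply hi
      · change (f : R →+* A) _ = 0
        rw [map_sub, a2, map_one, sub_self]
      · change (g : R →+* B) _ = 0
        rw [map_sub, b2, map_one, sub_self]
  lim := fun A _ _ _ _ _ hl hs T hT σ hσ => by
    haveI := finite_res hl hs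
    have key : ∀ k : ℕ, Ideal.Quotient.mk (maximalIdeal A ^ (k + 1)) (T σ).trace = 2 ∧
        Ideal.Quotient.mk (maximalIdeal A ^ (k + 1)) (T σ).det = 1 := fun k => by
      haveI := local_quot (pow_ne_top' (A := A) (Nat.succ_ne_zero k))
      haveI := finite_quotPow (A := A) (k + 1)
      have e1 := hT (test_quot' hl hs (pow_ne_top' (Nat.succ_ne_zero k)))
        (Ideal.Quotient.mkₐ 𝒪 (maximalIdeal A ^ (k + 1)))
        (localHom_quot (pow_ne_top' (Nat.succ_ne_zero k))) Ideal.Quotient.mk_surjective σ hσ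
      rw [trace_mapT, det_mapT] at e1
      exact e1
    constructor
    · rw [← sub_eq_zero]
      refine eq_zero_of_quot fun k => ?_
      rw [map_sub, (key k).1, map_ofNat, sub_self]
    · rw [← sub_eq_zero]
      refine eq_zero_of_quot fun k => ?_
      rw [map_sub, (key k).2, map_one, sub_self]

end Conds

end Fermat.Agent.RT
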