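import Fermat.Prelude.Def_CuspForm_HeckeLocal

/-!
# T10 (b): the local Hecke algebra
-/

set_option autoImplicit false
set_option maxHeartbeats 400000
set_option synthInstance.maxHeartbeats 400000
set_option linter.unusedSectionVars false

noncomputable section

open scoped TensorProduct

namespace Fermat.Agent.RT

open CuspForm IsLocalRing

theorem surjective_atPrime {R : Type} [CommRing R] [IsLocalRing R]
    [IsNoetherianRing R] [IsAdicComplete (IsLocalRing.maximalIdeal R) R]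
    (B : Type) [CommRing B] [Algebra R B] [Module.Finite R B] (P : MaximalSpectrum B) :
    Function.Surjective (algebraMap B (Localization.AtPrime P.asIdeal)) := by
  classical
  obtain ⟨-, hbij, -, -⟩ :=
    Algebra.finite_maximalSpectrum_and_bijective_localization_of_module_finite (𝒪 := R) B
  intro z
  obtain ⟨b, hb⟩ := hbij.2 (Function.update 0 P z)
  refine ⟨b, ?_⟩
  have h := congrFun hb P
  rw [Function.update_self] at h
  exact h

variable (N : ℕ) [NeZero N] (S : Set ℕ) (𝒪 : Type) [CommRing 𝒪] [IsDomain 𝒪]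
  [IsDiscreteValuationRing 𝒪] [IsAdicComplete (maximalIdeal 𝒪) 𝒪]
  (θ : heckeAlgebra N 2 S →+* ResidueField 𝒪) [Fact (HasIntegralStructure N 2)]

/-- the map from the tensor product -/
def bmap : (𝒪 ⊗[ℤ] ↥(heckeAlgebra N 2 S)) →+* heckeLocal N S 𝒪 θ :=
  (algebraMap (heckeBaseAlgebra N S 𝒪) (heckeLocal N S 𝒪 θ)).comp (latticeBaseChange N S 𝒪)

theorem bmap_algebraMap (a : 𝒪) : bmap N S 𝒪 θ (algebraMap 𝒪 _ a) =
    algebraMap 𝒪 (heckeLocal N S 𝒪 θ) a := by
  rw [bmap, RingHom.comp_apply, latticeBaseChange_algebraMap, ← IsScalarTower.algebraMap_apply]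

theorem bmap_right (t : heckeAlgebra N 2 S) : bmap N S 𝒪 θ (1 ⊗ₜ t) = heckeLocal.π N S 𝒪 θ t := rfl

theorem bmap_tmul (a : 𝒪) (t : heckeAlgebra N 2 S) : bmap N S 𝒪 θ (a ⊗ₜ t) =
    algebraMap 𝒪 (heckeLocal N S 𝒪 θ) a * heckeLocal.π N S 𝒪 θ t := by
  have e : (a ⊗ₜ[ℤ] t : 𝒪 ⊗[ℤ] ↥(heckeAlgebra N 2 S)) =
      algebraMap 𝒪 (𝒪 ⊗[ℤ] ↥(heckeAlgebra N 2 S)) a * (1 ⊗ₜ[ℤ] t) := by
    rw [Algebra.TensorProduct.algebraMap_apply, Algebra.algebraMap_self, RingHom.id_apply,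
      Algebra.TensorProduct.tmul_mul_tmul, mul_one, one_mul]
  rw [e, map_mul, bmap_algebraMap, bmap_right]

theorem bmap_surjective : Function.Surjective (bmap N S 𝒪 θ) := by
  haveI : Module.Finite 𝒪 (heckeBaseAlgebra N S 𝒪) :=
    inferInstanceAs (Module.Finite 𝒪 (𝒪 ⊗[ℤ] ↥(heckeLatticeAlgebra N S)))
  have h1 : Function.Surjective (algebraMap (heckeBaseAlgebra N S 𝒪) (heckeLocal N S 𝒪 θ)) := by
    haveI hPmax := heckeLocalIdeal.instIsMaximal N S 𝒪 θ
    let P : MaximalSpectrum (heckeBaseAlgebra N S 𝒪) := ⟨heckeLocalIdeal N S 𝒪 θ, hPmax⟩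
    have h2 := surjective_atPrime (R := 𝒪) (heckeBaseAlgebra N S 𝒪) P
    let e := IsLocalization.algEquiv (heckeLocalIdeal N S 𝒪 θ).primeCompl
      (Localization.AtPrime (heckeLocalIdeal N S 𝒪 θ)) (heckeLocal N S 𝒪 θ)
    intro y
    obtain ⟨x, hx⟩ := h2 (e.symm y)
    refine ⟨x, ?_⟩
    have h3 := e.commutes x
    have h4 : e (algebraMap (heckeBaseAlgebra N S 𝒪)
      (Localization.AtPrime (heckeLocalIdeal N S 𝒪 θ)) x) = e (e.symm y) := congrArg e hx
    rw [e.apply_symm_apply, h3] at h4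
    exact h4
  exact h1.comp (latticeBaseChange_surjective N S 𝒪)

theorem bmap_mem_iff (x : 𝒪 ⊗[ℤ] ↥(heckeAlgebra N 2 S)) :
    bmap N S 𝒪 θ x ∈ maximalIdeal (heckeLocal N S 𝒪 θ) ↔ residualCharacter N S 𝒪 θ x = 0 := by
  rw [bmap, RingHom.comp_apply,
    IsLocalization.AtPrime.to_map_mem_maximal_iff (heckeLocal N S 𝒪 θ) (heckeLocalIdeal N S 𝒪 θ),
    ← Ideal.mem_comap,
    comap_heckeLocalIdeal N S 𝒪 θ (ker_latticeBaseChange_le_heckeCharKernel N S 𝒪 θ),
    mem_heckeCharKernel_iff]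

theorem residue_bmap (x : 𝒪 ⊗[ℤ] ↥(heckeAlgebra N 2 S)) :
    residue (heckeLocal N S 𝒪 θ) (bmap N S 𝒪 θ x) =
      ResidueField.map (algebraMap 𝒪 (heckeLocal N S 𝒪 θ)) (residualCharacter N S 𝒪 θ x) := by
  obtain ⟨a, ha⟩ := residue_surjective (residualCharacter N S 𝒪 θ x)
  have h1 : residualCharacter N S 𝒪 θ (x - algebraMap 𝒪 _ a) = 0 := by
    rw [map_sub, residualCharacter_algebraMap, ha, sub_self]
  have h2 := (bmap_mem_iff N S 𝒪 θ _).mpr h1
  rw [map_sub, bmap_algebraMap, ← residue_eq_zero_iff, map_sub, sub_eq_zero] at h2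
  rw [h2, ← ha, ResidueField.map_residue]

theorem residue_pi (t : heckeAlgebra N 2 S) :
    residue (heckeLocal N S 𝒪 θ) (heckeLocal.π N S 𝒪 θ t) =
      ResidueField.map (algebraMap 𝒪 (heckeLocal N S 𝒪 θ)) (θ t) := by
  rw [← bmap_right, residue_bmap, residualCharacter_tmul, map_one, one_mul]

theorem residue_surj_hl : Function.Surjective
    (residue (heckeLocal N S 𝒪 θ) ∘ algebraMap 𝒪 (heckeLocal N S 𝒪 θ)) := by
  intro y
  obtain ⟨y, rfl⟩ := residue_surjective y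
  obtain ⟨x, rfl⟩ := bmap_surjective N S 𝒪 θ y
  obtain ⟨a, ha⟩ := residue_surjective (residualCharacter N S 𝒪 θ x)
  refine ⟨a, ?_⟩
  rw [residue_bmap, ← ha, ResidueField.map_residue]
  rfl

theorem adjoin_pi : Algebra.adjoin 𝒪 (Set.range (heckeLocal.π N S 𝒪 θ)) = ⊤ := by
  rw [eq_top_iff]
  rintro y -
  obtain ⟨x, rfl⟩ := bmap_surjective N S 𝒪 θ y
  induction x using TensorProduct.induction_on with
  | zero => rw [map_zero]; exact Subalgebra.zero_mem _
  | tmul a t =>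
    rw [bmap_tmul]
    exact Subalgebra.mul_mem _ (Subalgebra.algebraMap_mem _ a)
      (Algebra.subset_adjoin ⟨t, rfl⟩)
  | add x y hx hy => rw [map_add]; exact Subalgebra.add_mem _ hx hy

/-- the universal property -/
theorem exists_lift {B : Type} [CommRing B] [IsLocalRing B] [Algebra 𝒪 B]
    [IsLocalHom (algebraMap 𝒪 B)] (g : heckeAlgebra N 2 S →+* B)
    (hg : ∀ t, residue B (g t) = ResidueField.map (algebraMap 𝒪 B) (θ t)) :
    ∃ ψ : heckeLocal N S 𝒪 θ →ₐ[𝒪] B, IsLocalHom (ψ : heckeLocal N S 𝒪 θ →+* B) ∧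
      ∀ t, ψ (heckeLocal.π N S 𝒪 θ t) = g t := by
  let G : (𝒪 ⊗[ℤ] ↥(heckeAlgebra N 2 S)) →ₐ[ℤ] B :=
    Algebra.TensorProduct.productMap (algebraMap 𝒪 B).toIntAlgHom g.toIntAlgHom
  have hG : ∀ a t, G (a ⊗ₜ t) = algebraMap 𝒪 B a * g t := fun a t => rfl
  have hres : ∀ x, residue B (G x) = ResidueField.map (algebraMap 𝒪 B)
      (residualCharacter N S 𝒪 θ x) := by
    intro x
    induction x using TensorProduct.induction_on with
    | zero => simp only [map_zero]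
    | tmul a t =>
      rw [hG, map_mul, hg, residualCharacter_tmul, map_mul, ResidueField.map_residue]
    | add x y hx hy => simp only [map_add, hx, hy]
  let e : (𝒪 ⊗[ℤ] ↥(heckeAlgebra N 2 S)) ≃+* heckeBaseAlgebra N S 𝒪 :=
    RingEquiv.ofBijective (latticeBaseChange N S 𝒪)
      ⟨latticeBaseChange_injective N S 𝒪 Fact.out, latticeBaseChange_surjective N S 𝒪⟩
  let G' : heckeBaseAlgebra N S 𝒪 →+* B := (G : _ →+* B).comp e.symm.toRingHom
  have hG' : ∀ x, G' (latticeBaseChange N S 𝒪 x) = G x := fun x => by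
    change G (e.symm (e x)) = G x
    rw [e.symm_apply_apply]
  have hunit : ∀ y : heckeLocalSubmonoid N S 𝒪 θ, IsUnit (G' y) := by
    rintro ⟨_, x, hx, rfl⟩
    change IsUnit (G' (latticeBaseChange N S 𝒪 x))
    rw [hG']
    by_contra hcon
    have h1 : G x ∈ maximalIdeal B := hcon
    rw [← residue_eq_zero_iff, hres, map_eq_zero] at h1
    exact hx ((mem_heckeCharKernel_iff N S 𝒪 θ x).mpr h1)
  let ψ : heckeLocal N S 𝒪 θ →+* B := IsLocalization.lift hunit
  have hψ : ∀ x, ψ (bmap N S 𝒪 θ x) = G x := fun x => by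
    change IsLocalization.lift hunit (algebraMap _ _ (latticeBaseChange N S 𝒪 x)) = G x
    rw [IsLocalization.lift_eq, hG']
  have hψa : ∀ a : 𝒪, ψ (algebraMap 𝒪 _ a) = algebraMap 𝒪 B a := fun a => by
    rw [← bmap_algebraMap, hψ, Algebra.TensorProduct.algebraMap_apply, hG, map_one, mul_one]
    rfl
  refine ⟨{ ψ with commutes' := hψa }, ⟨fun y hy => ?_⟩, fun t => ?_⟩
  · obtain ⟨x, rfl⟩ := bmap_surjective N S 𝒪 θ y
    by_contra hcon
    have h1 : bmap N S 𝒪 θ x ∈ maximalIdeal (heckeLocal N S 𝒪 θ) := hcon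
    rw [bmap_mem_iff] at h1
    have h2 : residue B (G x) = 0 := by rw [hres, h1, map_zero]
    have h3 : G x ∈ maximalIdeal B := (residue_eq_zero_iff _).mp h2
    have h4 : IsUnit (ψ (bmap N S 𝒪 θ x)) := hy
    rw [hψ] at h4
    exact h3 h4
  · change ψ (heckeLocal.π N S 𝒪 θ t) = g t
    rw [← bmap_right, hψ, hG, map_one, one_mul]

end Fermat.Agent.RT
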