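import Fermat.Agent.RT.T10a
import Fermat.Agent.RT.HLoc
import Fermat.Agent.RT.T11St
import Fermat.Agent.TWInst.Rep
import Fermat.Agent.TWGal.Carayol

/-!
# T10 (b): the Hecke–Galois datum over the local Hecke algebra
-/

set_option autoImplicit false
set_option maxHeartbeats 400000
set_option synthInstance.maxHeartbeats 400000
set_option linter.unusedSectionVars false

noncomputable section

namespace Fermat.Agent.RT

open IsLocalRing Matrix Fermat.Agent.DefRing Fermat.Agent.GalRep Fermat.Agent.TWGal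
  Fermat.Agent.TWPatch Fermat.Agent.TW56 GaloisRep CuspForm Fermat.Agent.TWInst
open scoped TensorProduct

local notation "Qbar" => AlgebraicClosure ℚ

/-! ### absolute irreducibility from the span -/

theorem absIrr_of_span {K : Type} [Field K] (ρ : ResidualGaloisRep K)
    (b : Module.Basis (Fin 2) K ρ.V) (h : Submodule.span K (Set.range (resMatHom ρ b)) = ⊤) :
    ρ.IsAbsolutelyIrreducible := by
  intro W hW
  by_cases hW0 : W = ⊥
  · exact Or.inl hW0
  right
  let K' := AlgebraicClosure K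
  let bK : Module.Basis (Fin 2) K' (K' ⊗[K] ρ.V) := Algebra.TensorProduct.basis K' b
  have hbK : ∀ i, bK i = 1 ⊗ₜ b i := fun i => Algebra.TensorProduct.basis_apply b i
  have key : ∀ M : Matrix (Fin 2) (Fin 2) K, ∀ w ∈ W,
      ((Matrix.toLin b b M).baseChange K' : K' ⊗[K] ρ.V →ₗ[K'] K' ⊗[K] ρ.V) w ∈ W := by
    intro M w hw
    have hM : M ∈ Submodule.span K (Set.range (resMatHom ρ b)) := by rw [h]; trivial
    induction hM using Submodule.span_induction with
    | mem x hx =>
      obtain ⟨g, rfl⟩ := hx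
      have e : Matrix.toLin b b (resMatHom ρ b g) = ρ.ρ g := Matrix.toLin_toMatrix b b (ρ.ρ g)
      rw [e]
      exact hW g w hw
    | zero =>
      rw [map_zero, LinearMap.baseChange_zero]
      exact W.zero_mem
    | add x y _ _ hx hy =>
      rw [map_add, LinearMap.baseChange_add]
      exact W.add_mem hx hy
    | smul a x _ hx =>
      rw [map_smul, LinearMap.baseChange_smul]
      have e : (a • ((Matrix.toLin b b x).baseChange K' :
          K' ⊗[K] ρ.V →ₗ[K'] K' ⊗[K] ρ.V)) w = (algebraMap K K' a) •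
            ((Matrix.toLin b b x).baseChange K' w) := by
        rw [LinearMap.smul_apply, algebraMap_smul]
      rw [e]
      exact W.smul_mem _ hx
  obtain ⟨w, hw, hw0⟩ := W.ne_bot_iff.mp hW0
  obtain ⟨j, hj⟩ : ∃ j, bK.repr w j ≠ 0 := by
    by_contra hcon
    push Not at hcon
    apply hw0
    apply bK.repr.injective
    rw [map_zero]
    exact Finsupp.ext hcon
  have hmem : ∀ i, bK i ∈ W := by
    intro i
    have h1 : (Matrix.toLin b b (Matrix.single i j 1)).baseChange K' =
        (bK.coord j).smulRight (bK i) := by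
      refine bK.ext fun l => ?_
      rw [hbK l, LinearMap.baseChange_tmul, LinearMap.smulRight_apply, Module.Basis.coord_apply,
        ← hbK l, bK.repr_self, Matrix.toLin_self, Finset.sum_eq_single i]
      · rw [Matrix.single_apply, hbK i, Finsupp.single_apply]
        by_cases hl : l = j
        · subst hl; simp
        · rw [if_neg (fun hh => hl hh.2.symm), if_neg hl, zero_smul, zero_smul,
            TensorProduct.tmul_zero]
      · intro b' _ hb'
        rw [Matrix.single_apply, if_neg (fun hh => hb' hh.1.symm), zero_smul]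
      · intro hi
        exact absurd (Finset.mem_univ _) hi
    have h2 := key (Matrix.single i j 1) w hw
    rw [h1, LinearMap.smulRight_apply, Module.Basis.coord_apply] at h2
    have h3 := W.smul_mem (bK.repr w j)⁻¹ h2
    rwa [smul_smul, inv_mul_cancel₀ hj, one_smul] at h3
  rw [eq_top_iff]
  intro x _
  have h4 : x = ∑ i, bK.repr x i • bK i := (bK.sum_repr x).symm
  rw [h4]
  exact Submodule.sum_mem _ fun i _ => W.smul_mem _ (hmem i)

/-! ### the determinant -/

theorem mdet_of_cyc {p : ℕ} [Fact p.Prime] {R : Type} [CommRing R] [IsLocalRing R]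
    [IsAdicComplete (maximalIdeal R) R] (hpR : (p : R) ∈ maximalIdeal R)
    {T : GQ →* Matrix (Fin 2) (Fin 2) R} (h : ∀ g, (T g).det = cyc p (maximalIdeal R) hpR g) :
    MDet p T := by
  intro n σ a ha
  rw [h]
  change padicTo p (maximalIdeal R) hpR (cycP p σ) - (a : R) ∈ _
  obtain ⟨ζ, hζ⟩ := HasEnoughRootsOfUnity.exists_primitiveRoot Qbar (p ^ n)
  have h2 := toZModPow_cycP_eq p σ hζ (ha ζ hζ.pow_eq_one)
  have h3 : PadicInt.toZModPow n (cycP p σ - (a : ℤ_[p])) = 0 := by
    rw [map_sub, h2, map_natCast, sub_self]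
  rw [← RingHom.mem_ker, PadicInt.ker_toZModPow, Ideal.mem_span_singleton] at h3
  obtain ⟨z, hz⟩ := h3
  rw [← map_natCast (padicTo p (maximalIdeal R) hpR) a, ← map_sub, hz, map_mul, map_pow,
    map_natCast, Nat.cast_pow]
  exact Ideal.mul_mem_right _ _ (Ideal.mem_span_singleton_self _)

theorem span_eq_top_of_conj {R : Type} [CommRing R] {T T' : GQ →* Matrix (Fin 2) (Fin 2) R}
    (h : ∃ Q Q' : Matrix (Fin 2) (Fin 2) R, Q * Q' = 1 ∧ Q' * Q = 1 ∧ ∀ g, Q * T g = T' g * Q)
    (hs : Submodule.span R (Set.range T) = ⊤) : Submodule.span R (Set.range T') = ⊤ := by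
  obtain ⟨Q, Q', h1, h2, h3⟩ := h
  rw [eq_top_iff]
  rintro X -
  have key : ∀ Y : Matrix (Fin 2) (Fin 2) R,
      Q * Y * Q' ∈ Submodule.span R (Set.range T') := by
    intro Y
    have hY : Y ∈ Submodule.span R (Set.range T) := by rw [hs]; trivial
    induction hY using Submodule.span_induction with
    | mem x hx =>
      obtain ⟨g, rfl⟩ := hx
      rw [h3, Matrix.mul_assoc, h1, Matrix.mul_one]
      exact Submodule.subset_span ⟨g, rfl⟩
    | zero => rw [Matrix.mul_zero, Matrix.zero_mul]; exact Submodule.zero_mem _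
    | add x y _ _ hx hy => rw [Matrix.mul_add, Matrix.add_mul]; exact Submodule.add_mem _ hx hy
    | smul a x _ hx =>
      rw [Matrix.mul_smul, Matrix.smul_mul]
      exact Submodule.smul_mem _ _ hx
  have h4 := key (Q' * X * Q)
  have h5 : Q * (Q' * X * Q) * Q' = X := by
    calc Q * (Q' * X * Q) * Q' = (Q * Q') * X * (Q * Q') := by simp only [Matrix.mul_assoc]
      _ = X := by rw [h1, Matrix.one_mul, Matrix.mul_one]
  rwa [h5] at h4

section Core

variable {𝒪 : Type} [CommRing 𝒪] [IsDomain 𝒪] [IsDiscreteValuationRing 𝒪]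
  [IsAdicComplete (maximalIdeal 𝒪) 𝒪] [Finite (ResidueField 𝒪)]
  {p : ℕ} [hp : Fact p.Prime] {ρbar : ResidualGaloisRep (ResidueField 𝒪)}
  (b : Module.Basis (Fin 2) (ResidueField 𝒪) ρbar.V)

theorem res_charpoly (σ : GQ) : LinearMap.charpoly (ρbar.ρ σ) =
    Polynomial.X ^ 2 - Polynomial.C (resMatHom ρbar b σ).trace * Polynomial.X +
      Polynomial.C (resMatHom ρbar b σ).det := by
  rw [← LinearMap.charpoly_toMatrix (ρbar.ρ σ) b, Matrix.charpoly_fin_two]
  rfl

theorem coeffs_eq {K : Type} [CommRing K] {a d a' d' : K}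
    (h : Polynomial.X ^ 2 - Polynomial.C a * Polynomial.X + Polynomial.C d =
      (Polynomial.X ^ 2 - Polynomial.C a' * Polynomial.X + Polynomial.C d' : Polynomial K)) :
    a = a' ∧ d = d' := by
  have h3 := congrArg (fun P => P.coeff 1) h
  have h4 := congrArg (fun P => P.coeff 0) h
  simp only [Polynomial.coeff_add, Polynomial.coeff_sub, Polynomial.coeff_X_pow,
    Polynomial.coeff_C_mul, Polynomial.coeff_X_one, mul_one, Polynomial.coeff_C_succ,
    add_zero, if_neg (by norm_num : ¬ (1 : ℕ) = 2), zero_sub, neg_inj] at h3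
  simp only [Polynomial.coeff_add, Polynomial.coeff_sub, Polynomial.coeff_X_pow,
    Polynomial.coeff_C_mul, Polynomial.coeff_X_zero, mul_zero, Polynomial.coeff_C_zero,
    sub_zero, if_neg (by norm_num : ¬ (0 : ℕ) = 2), zero_add] at h4
  exact ⟨h3, h4⟩

/-- the Hecke–Galois datum -/
theorem exists_core (hp2 : p ≠ 2) (hp𝒪 : (p : 𝒪) ∈ maximalIdeal 𝒪)
    (habs : ρbar.IsAbsolutelyIrreducible)
    (N : ℕ) [NeZero N] [Fact (HasIntegralStructure N 2)] (S : Finset ℕ) (hpS : p ∈ S)
    (θ : heckeAlgebra N 2 (↑S : Set ℕ) →+* ResidueField 𝒪) (hatt : AttRes θ ρbar) :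
    ∃ (T : GQ →* Matrix (Fin 2) (Fin 2) (heckeLocal N (↑S : Set ℕ) 𝒪 θ)) (hT : MatCont T)
      (H : HeckeGaloisRepDatum N (↑S : Set ℕ) 𝒪 θ (heckeLocal N (↑S : Set ℕ) 𝒪 θ)),
      H.π = heckeLocal.π N (↑S : Set ℕ) 𝒪 θ ∧ H.ρ = matRep T hT ∧
      (∀ σ i j, residue _ (T σ i j) = ResidueField.map
        (algebraMap 𝒪 (heckeLocal N (↑S : Set ℕ) 𝒪 θ)) (resMat ρbar b σ i j)) ∧
      HData.FrobCond (piH (p := p) (heckeLocal.π N (↑S : Set ℕ) 𝒪 θ)) T ∧
      Submodule.span (heckeLocal N (↑S : Set ℕ) 𝒪 θ) (Set.range T) = ⊤ ∧ MDet p T := by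
  set T₀ := heckeLocal N (↑S : Set ℕ) 𝒪 θ with hT₀
  haveI hloc : IsLocalHom (algebraMap 𝒪 T₀) := inferInstance
  obtain ⟨κ, hκ⟩ := exists_kappa (𝒪 := 𝒪) (R := T₀) (residue_surj_hl N (↑S : Set ℕ) 𝒪 θ)
  have hκs : Function.Surjective (κ : T₀ →+* ResidueField 𝒪) := fun y => by
    obtain ⟨a, rfl⟩ := residue_surjective y
    exact ⟨algebraMap 𝒪 T₀ a, κ.commutes a⟩
  have hκπ : ∀ t, κ (heckeLocal.π N (↑S : Set ℕ) 𝒪 θ t) = θ t := fun t => by
    apply (ResidueField.map (algebraMap 𝒪 T₀)).injective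
    rw [hκ, residue_pi]
  have hpT : (p : T₀) ∈ maximalIdeal T₀ := by
    rw [← map_natCast (algebraMap 𝒪 T₀), mem_max_iff_of_local hloc]
    exact hp𝒪
  have hcont : ∃ L : IntermediateField ℚ Qbar, FiniteDimensional ℚ L ∧
      ∀ σ : GQ, (∀ x ∈ L, σ x = x) → resMatHom ρbar b σ = 1 := by
    obtain ⟨L, hL, h1⟩ := ρbar.factorsThroughFiniteLevel
    refine ⟨L, hL, fun σ hσ => ?_⟩
    change LinearMap.toMatrix b b (ρbar.ρ σ) = 1
    rw [h1 σ hσ, Module.End.one_eq_id, LinearMap.toMatrix_id]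
  obtain ⟨T, hT, hfr, hdet, hres, hspan, -, -⟩ := exists_rep_hecke (N := N) (p := p)
    (S := (↑S : Set ℕ)) S.finite_toSet hp2 hpT (heckeLocal.π N (↑S : Set ℕ) 𝒪 θ)
    (κ : T₀ →+* ResidueField 𝒪) hκs (ρb := resMatHom ρbar b) hcont
    (fun ℓ hℓ hℓN _ hℓS A hA τ hτ => by
      have h1 := hatt ℓ hℓ hℓN hℓS A hA τ hτ
      rw [res_charpoly b] at h1
      obtain ⟨h2, h3⟩ := coeffs_eq h1
      exact ⟨by rw [h2]; exact (hκπ _).symm, h3⟩)
    (Fermat.Agent.DefRing.span_range_eq_top (k := ResidueField 𝒪)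
      (K := AlgebraicClosure (ResidueField 𝒪)) (resMatHom ρbar b)
      (matrix_irreducible ρbar b habs))
  have hres' : ∀ σ i j, residue T₀ (T σ i j) = ResidueField.map
        (algebraMap 𝒪 T₀) (resMat ρbar b σ i j) := fun σ i j => by
    rw [← hκ]
    have := congrFun (congrFun (hres σ) i) j
    exact congrArg (ResidueField.map (algebraMap 𝒪 T₀)) this
  have hirr : (matRep T hT).residual.IsAbsolutelyIrreducible := by
    let b1 : Module.Basis (Fin 2) T₀ (matRep T hT).V := bas _
    let b' : Module.Basis (Fin 2) (ResidueField T₀) (matRep T hT).residual.V :=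
      Algebra.TensorProduct.basis (ResidueField T₀) b1
    refine absIrr_of_span _ b' ?_
    have h2 : ((resMatHom (matRep T hT).residual b' : GQ →* _) : GQ → _) =
        mapT (residue T₀) (repMat (matRep T hT) b1) := by
      funext g
      exact LinearMap.toMatrix_baseChange (ResidueField T₀) ((matRep T hT).ρ g) b1 b1
    rw [h2]
    refine span_map_eq_top _ ?_
    obtain ⟨b2, hb2⟩ := exists_basis_matRep T hT
    -- change of basis
    refine span_eq_top_of_conj ?_ hspan
    have h3 := conj_of_matRep_isEquiv (hT := hT) (hT' := repMat_matCont (matRep T hT) b1)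
      (isEquiv_matRep (matRep T hT) b1)
    obtain ⟨Q, Q', hQ, h4⟩ := h3
    exact ⟨Q, Q', hQ, mul_eq_one_comm.mp hQ, h4⟩
  refine ⟨T, hT, { π := heckeLocal.π N (↑S : Set ℕ) 𝒪 θ
                   residue_π := residue_pi N (↑S : Set ℕ) 𝒪 θ
                   adjoin_range_π := adjoin_pi N (↑S : Set ℕ) 𝒪 θ
                   exists_point := ?_
                   residue_surjective := residue_surj_hl N (↑S : Set ℕ) 𝒪 θ
                   ρ := matRep T hT
                   charpoly_frob := ?_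
                   residual_absIrr := hirr }, rfl, rfl, hres', hfr, hspan, mdet_of_cyc hpT hdet⟩
  · intro χ hχ
    haveI : IsLocalHom (algebraMap 𝒪 𝒪) := by
      rw [Algebra.algebraMap_self]; infer_instance
    obtain ⟨ψ, -, hψ⟩ := exists_lift N (↑S : Set ℕ) 𝒪 θ (B := 𝒪) χ (fun t => by
      rw [hχ]
      obtain ⟨a, ha⟩ := residue_surjective (θ t)
      rw [← ha, ResidueField.map_residue]
      rfl)
    exact ⟨ψ, hψ⟩
  · intro ℓ hℓ hℓN hℓS A hA σ hσ
    have hℓp : ℓ ≠ p := fun h => hℓS (by rw [h]; exact hpS)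
    have hℓNp : ¬ ℓ ∣ N * p := fun h => by
      rcases hℓ.dvd_mul.mp h with h | h
      · exact hℓN h
      · exact hℓp ((Nat.prime_dvd_prime_iff_eq hℓ hp.out).mp h)
    obtain ⟨h1, h2⟩ := hfr ℓ hℓ hℓNp hℓS A hA σ hσ
    rw [piH_T _ hℓ hℓNp hℓS] at h1
    obtain ⟨b2, hb2⟩ := exists_basis_matRep T hT
    have h5 : LinearMap.charpoly ((matRep T hT).ρ σ) = (T σ).charpoly := by
      have h6 : repMat (matRep T hT) b2 σ = T σ := DFunLike.congr_fun hb2 σ
      rw [repMat_apply] at h6
      rw [← LinearMap.charpoly_toMatrix ((matRep T hT).ρ σ) b2, h6]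
    rw [h5, Matrix.charpoly_fin_two, h1, h2]

end Core

end Fermat.Agent.RT
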