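import Fermat.Agent.RT.Dat

/-!
# T10 (b'): transfer to complete local rings receiving the Hecke algebra
-/

set_option autoImplicit false
set_option maxHeartbeats 400000
set_option synthInstance.maxHeartbeats 400000
set_option linter.unusedSectionVars false

noncomputable section

namespace Fermat.Agent.RT

open IsLocalRing Matrix Fermat.Agent.DefRing Fermat.Agent.GalRep Fermat.Agent.TWGal
  Fermat.Agent.TWPatch Fermat.Agent.TW56 GaloisRep CuspForm Fermat.Agent.TWInst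
open scoped TensorProduct

local notation "Qbar" => AlgebraicClosure ℚ

/-- transfer of a matrix condition to a complete ring -/
theorem MC.map_complete {𝒪 : Type} [CommRing 𝒪] [IsLocalRing 𝒪]
    {C : ∀ ⦃A : Type⦄ [CommRing A] [IsLocalRing A], (GQ →* Matrix (Fin 2) (Fin 2) A) → Prop}
    (h : MC 𝒪 C) {A B : Type} [CommRing A] [IsLocalRing A] [Algebra 𝒪 A]
    [CommRing B] [IsLocalRing B] [IsNoetherianRing B] [IsAdicComplete (maximalIdeal B) B]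
    [Algebra 𝒪 B] (hl : IsLocalHom (algebraMap 𝒪 B))
    (hs : Function.Surjective (residue B ∘ algebraMap 𝒪 B)) (ψ : A →ₐ[𝒪] B)
    (hψ : IsLocalHom (ψ : A →+* B)) {T : GQ →* Matrix (Fin 2) (Fin 2) A} (hT : C T) :
    C (mapT (ψ : A →+* B) T) := by
  refine h.lim hl hs _ fun B' _ _ _ hB' q hq _ => ?_
  have h1 : IsLocalHom ((q.comp ψ : A →ₐ[𝒪] B') : A →+* B') := by
    have : ((q.comp ψ : A →ₐ[𝒪] B') : A →+* B') = (q : B →+* B').comp (ψ : A →+* B) := rfl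
    rw [this]
    exact RingHom.isLocalHom_comp _ _
  exact h.map hB' (q.comp ψ) h1 T hT

/-- the conditions for the local Hecke algebra -/
def HCond (𝒪 : Type) [CommRing 𝒪] [IsDomain 𝒪] [IsDiscreteValuationRing 𝒪]
    [IsAdicComplete (maximalIdeal 𝒪) 𝒪] (p : ℕ) (ρbar : ResidualGaloisRep (ResidueField 𝒪))
    (b : Module.Basis (Fin 2) (ResidueField 𝒪) ρbar.V) : Prop :=
  ∀ (N : ℕ) [NeZero N] [Fact (HasIntegralStructure N 2)] (S : Finset ℕ) (_ : p ∈ S)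
    (_ : ∀ q : ℕ, q.Prime → q ∣ N → q ∈ S)
    (θ : heckeAlgebra N 2 (↑S : Set ℕ) →+* ResidueField 𝒪) (_ : AttRes θ ρbar)
    (T : GQ →* Matrix (Fin 2) (Fin 2) (heckeLocal N (↑S : Set ℕ) 𝒪 θ)) (hT : MatCont T)
    (H : HeckeGaloisRepDatum N (↑S : Set ℕ) 𝒪 θ (heckeLocal N (↑S : Set ℕ) 𝒪 θ))
    (_ : H.ρ = matRep T hT)
    (_ : ∀ σ i j, residue (heckeLocal N (↑S : Set ℕ) 𝒪 θ) (T σ i j) = ResidueField.map
        (algebraMap 𝒪 (heckeLocal N (↑S : Set ℕ) 𝒪 θ)) (resMat ρbar b σ i j))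
    (_ : MDet p T)
    (t : PType) (Smin : Finset ℕ)
    (_ : ∀ q ∈ Smin, q.Prime → q ≠ p → q ∣ N ∧ ¬ q ^ 2 ∣ N) (_ : LevelType t p N ρbar),
    DD 𝒪 t p S Smin H.ρ

theorem datumB_of (hI : ∀ (N : ℕ) [NeZero N], HasIntegralStructure N 2)
    (hH : ∀ (𝒪 : Type) [CommRing 𝒪] [IsDomain 𝒪] [IsDiscreteValuationRing 𝒪]
    [IsAdicComplete (maximalIdeal 𝒪) 𝒪] [Finite (ResidueField 𝒪)] [CharZero 𝒪]
    (p : ℕ) [Fact p.Prime] (_ : p ≠ 2) (_ : (p : 𝒪) ∈ maximalIdeal 𝒪)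
    (ρbar : ResidualGaloisRep (ResidueField 𝒪)) (_ : ρbar.IsAbsolutelyIrreducible)
    (b : Module.Basis (Fin 2) (ResidueField 𝒪) ρbar.V), HCond 𝒪 p ρbar b) : DatumB := by
  intro 𝒪 _ _ _ _ _ _ p _ hp2 hp𝒪 ρbar habs b N _ S Sf hSf hpS hNS B _ _ _ _ _ hloc _ hs g T hT
    hres hfr t Smin hmin hlev
  subst hSf
  have hpp : p.Prime := Fact.out
  haveI : Fact (HasIntegralStructure N 2) := ⟨hI N⟩
  obtain ⟨κ, hκ⟩ := exists_kappa (𝒪 := 𝒪) (R := B) hs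
  set θ : heckeAlgebra N 2 (↑Sf : Set ℕ) →+* ResidueField 𝒪 := (κ : B →+* ResidueField 𝒪).comp g
    with hθ
  have hg : ∀ x, residue B (g x) = ResidueField.map (algebraMap 𝒪 B) (θ x) := fun x =>
    (hκ (g x)).symm
  have hinj := (ResidueField.map (algebraMap 𝒪 B)).injective
  have hatt : AttRes θ ρbar := by
    intro ℓ hℓ hℓN hℓS A hA σ hσ
    obtain ⟨h1, h2⟩ := hfr ℓ hℓ hℓN hℓS A hA σ hσ
    rw [res_charpoly b]
    have e1 : (resMatHom ρbar b σ).trace = θ (heckeAlgebra.T hℓ hℓN hℓS) := by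
      apply hinj
      rw [← hg, ← h1, Matrix.trace_fin_two, Matrix.trace_fin_two, map_add, map_add, hres, hres]
      rfl
    have e2 : (resMatHom ρbar b σ).det = (ℓ : ResidueField 𝒪) := by
      apply hinj
      rw [map_natCast, ← map_natCast (residue B), ← h2, Matrix.det_fin_two, Matrix.det_fin_two,
        map_sub, map_sub, map_mul, map_mul, map_mul, map_mul, hres, hres, hres, hres]
      rfl
    rw [e1, e2]
  obtain ⟨T₀, hT₀, H, hHπ, hHρ, hres₀, hfr₀, hspan₀, hdet₀⟩ := exists_core b hp2 hp𝒪 habs N Sf hpS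
    θ hatt
  obtain ⟨ψ, hψ, hψπ⟩ := exists_lift N (↑Sf : Set ℕ) 𝒪 θ g hg
  have hDD := hH 𝒪 p hp2 hp𝒪 ρbar habs b N Sf hpS hNS θ hatt T₀ hT₀ H hHρ hres₀ hdet₀ t Smin hmin hlev
  rw [hHρ] at hDD
  obtain ⟨b₀, hb₀⟩ := exists_basis_matRep T₀ hT₀
  have hCC : CC t p Sf Smin T₀ := by
    have := (DD_iff_CC (𝒪 := 𝒪) (matRep T₀ hT₀) b₀ t Sf Smin).mp hDD
    rwa [hb₀] at this
  have hCC' : CC t p Sf Smin (mapT (ψ : _ →+* B) T₀) :=
    (mc_CC (𝒪 := 𝒪) hp2 t Sf Smin).map_complete hloc hs ψ hψ hCC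
  -- comparison
  have hpB : (p : B) ∈ maximalIdeal B := by
    rw [← map_natCast (algebraMap 𝒪 B), mem_max_iff_of_local hloc]
    exact hp𝒪
  have hT' : MatCont (mapT (ψ : _ →+* B) T₀) := hT₀.map _ hψ
  have hNp : ∀ {ℓ : ℕ}, ¬ ℓ ∣ N * p → ¬ ℓ ∣ N := fun h h' => h (h'.mul_right p)
  have hf1 : HData.FrobCond (piH (p := p) g) T := by
    intro ℓ hℓ hℓN hℓS A hA τ hτ
    rw [piH_T g hℓ hℓN hℓS]
    exact hfr ℓ hℓ (hNp hℓN) hℓS A hA τ hτ
  have hf2 : HData.FrobCond (piH (p := p) g) (mapT (ψ : _ →+* B) T₀) := by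
    intro ℓ hℓ hℓN hℓS A hA τ hτ
    obtain ⟨h1, h2⟩ := hfr₀ ℓ hℓ hℓN hℓS A hA τ hτ
    rw [piH_T _ hℓ hℓN hℓS] at h1
    rw [piH_T g hℓ hℓN hℓS, trace_mapT, det_mapT, h1, h2, map_natCast]
    exact ⟨hψπ _, rfl⟩
  have htr : ∀ x, (T x).trace = (mapT (ψ : _ →+* B) T₀ x).trace := fun x => by
    rw [trace_eq_tR Sf.finite_toSet (NeZero.ne N) hp2 hpB (piH (p := p) g) hT hf1 x,
      trace_eq_tR Sf.finite_toSet (NeZero.ne N) hp2 hpB (piH (p := p) g) hT' hf2 x]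
  have hs2 : Submodule.span B (Set.range (mapT (ψ : _ →+* B) T₀)) = ⊤ := span_map_eq_top _ hspan₀
  have hs1 : Submodule.span B (Set.range T) = ⊤ := by
    refine span_eq_top_of_residue _ ?_
    have e := Fermat.Agent.DefRing.span_range_eq_top (k := ResidueField 𝒪)
      (K := AlgebraicClosure (ResidueField 𝒪)) (resMatHom ρbar b)
      (matrix_irreducible ρbar b habs)
    have e2 := span_map_eq_top (ResidueField.map (algebraMap 𝒪 B)) e
    have e3 : (fun x => (residue B).mapMatrix (T x)) =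
        mapT (ResidueField.map (algebraMap 𝒪 B)) (resMatHom ρbar b) := by
      funext x
      ext i j
      exact hres x i j
    rw [e3]
    exact e2
  obtain ⟨Q, Q', h1, h2, h3⟩ := exists_conj htr hs1 hs2
  have he : (matRep T hT).IsEquiv (matRep (mapT (ψ : _ →+* B) T₀) hT') :=
    matRep_isEquiv_of_conj hT hT' Q Q' h1 h2 h3
  obtain ⟨b', hb'⟩ := exists_basis_of_equiv he
  rw [DD_iff_CC (𝒪 := 𝒪) (matRep T hT) b' t Sf Smin, hb']
  exact hCC'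

theorem existsDatum_of
    (hH : ∀ (𝒪 : Type) [CommRing 𝒪] [IsDomain 𝒪] [IsDiscreteValuationRing 𝒪]
    [IsAdicComplete (maximalIdeal 𝒪) 𝒪] [Finite (ResidueField 𝒪)] [CharZero 𝒪]
    (p : ℕ) [Fact p.Prime] (_ : p ≠ 2) (_ : (p : 𝒪) ∈ maximalIdeal 𝒪)
    (ρbar : ResidualGaloisRep (ResidueField 𝒪)) (_ : ρbar.IsAbsolutelyIrreducible)
    (b : Module.Basis (Fin 2) (ResidueField 𝒪) ρbar.V), HCond 𝒪 p ρbar b) : ExistsDatum := by
  intro 𝒪 _ _ _ _ _ _ p _ hp2 hp𝒪 ρbar habs N _ _ S hpS hNS θ hatt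
  let b : Module.Basis (Fin 2) (ResidueField 𝒪) ρbar.V :=
    Module.finBasisOfFinrankEq (ResidueField 𝒪) ρbar.V ρbar.finrank_eq
  obtain ⟨T₀, hT₀, H, hHπ, hHρ, hres₀, hfr₀, hspan₀, hdet₀⟩ := exists_core b hp2 hp𝒪 habs N S hpS
    θ hatt
  refine ⟨H, hHπ, ?_, fun t Smin hmin hlev => ?_⟩
  · rw [hHρ]
    exact matRep_residual_isEquiv ρbar b _ T₀ hT₀ hres₀
  · refine hH 𝒪 p hp2 hp𝒪 ρbar habs b N S hpS hNS θ hatt T₀ hT₀ H hHρ hres₀ hdet₀ t Smin hmin ?_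
    cases t <;> exact hlev

end Fermat.Agent.RT
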