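import Fermat.Agent.GoodRed.PreRed
import Fermat.Agent.GoodRed.Red
import Mathlib.FieldTheory.SeparableClosure

/-!
# Double covers of the line and their Gauss reductions
-/

set_option autoImplicit false
set_option linter.unusedSectionVars false
set_option linter.style.haveILetI false

noncomputable section

namespace Fermat.Agent.RT.Dc

open Polynomial AlgebraicCurve Fermat.Agent.Curves Module IntermediateField Fermat.Agent.GoodRed

/-- `F = K(t)(η)` with `η² = g(t)` -/
structure DC (K : Type*) {F : Type*} [Field K] [Field F] [Algebra K F] (t η : F) (g : K[X]) :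
    Prop where
  tr : Transcendental K t
  sq : η ^ 2 = aeval t g
  nmem : η ∉ K⟮t⟯
  gen : ∀ f : F, ∃ u ∈ K⟮t⟯, ∃ v ∈ K⟮t⟯, f = u + v * η

section Basic

variable {K F : Type*} [Field K] [Field F] [Algebra K F] {t η : F} {g : K[X]}

theorem aeval_mem' (p : K[X]) : aeval t p ∈ K⟮t⟯ :=
  IntermediateField.algebra_adjoin_le_adjoin K {t} (aeval_mem_adjoin_singleton K t)

theorem aeval_ne {p : K[X]} (h : DC K t η g) (hp : p ≠ 0) : aeval t p ≠ 0 := fun h0 =>
  h.tr ⟨p, hp, h0⟩

theorem exists_frac (h : DC K t η g) {u : F} (hu : u ∈ K⟮t⟯) :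
    ∃ a d : K[X], d ≠ 0 ∧ aeval t d * u = aeval t a := by
  obtain ⟨r, s, rfl⟩ := (IntermediateField.mem_adjoin_simple_iff K u).mp hu
  by_cases hs : s = 0
  · refine ⟨0, 1, one_ne_zero, ?_⟩
    rw [hs, map_zero, div_zero, mul_zero]
  · exact ⟨r, s, hs, mul_div_cancel₀ _ (aeval_ne h hs)⟩

theorem DC.form (h : DC K t η g) (f : F) :
    ∃ a b d : K[X], d ≠ 0 ∧ aeval t d * f = aeval t a + aeval t b * η := by
  obtain ⟨u, hu, v, hv, rfl⟩ := h.gen f
  obtain ⟨a, d, hd, h1⟩ := exists_frac h hu
  obtain ⟨b, e, he, h2⟩ := exists_frac h hv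
  refine ⟨a * e, b * d, d * e, mul_ne_zero hd he, ?_⟩
  rw [map_mul, map_mul, map_mul]
  linear_combination aeval t e * h1 + aeval t d * η * h2

theorem DC.lin (h : DC K t η g) {a b : K[X]} (h0 : aeval t a + aeval t b * η = 0) :
    a = 0 ∧ b = 0 := by
  have hb : b = 0 := by
    by_contra hb
    apply h.nmem
    have h1 := aeval_ne h hb
    have h2 : η = -(aeval t a) / aeval t b := by
      rw [eq_div_iff h1]
      linear_combination h0
    rw [h2]
    exact div_mem (neg_mem (aeval_mem' a)) (aeval_mem' b)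
  refine ⟨?_, hb⟩
  by_contra ha
  rw [hb, map_zero, zero_mul, add_zero] at h0
  exact aeval_ne h ha h0

theorem DC.gne (h : DC K t η g) : g ≠ 0 := by
  rintro rfl
  have h1 := h.sq
  rw [map_zero] at h1
  have h2 : η = 0 := pow_eq_zero_iff two_ne_zero |>.mp h1
  exact h.nmem (h2 ▸ zero_mem _)

theorem DC.conj_ne (h : DC K t η g) {a b : K[X]} (hab : aeval t a + aeval t b * η ≠ 0) :
    a ^ 2 - b ^ 2 * g ≠ 0 := by
  intro h0
  have h1 : (aeval t a + aeval t b * η) * (aeval t a - aeval t b * η) = 0 := by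
    have h2 := congrArg (aeval t) h0
    rw [map_sub, map_mul, map_pow, map_pow, map_zero, ← h.sq] at h2
    linear_combination h2
  have h2 := (mul_eq_zero.mp h1).resolve_left hab
  have h3 : aeval t a + aeval t (-b) * η = 0 := by
    rw [map_neg]
    linear_combination h2
  obtain ⟨ha, hb⟩ := h.lin h3
  apply hab
  rw [ha, neg_eq_zero.mp hb, map_zero, zero_mul, add_zero]

/-- the degree is two -/
theorem DC.finrank (h : DC K t η g) : finrank K⟮t⟯ F = 2 := by
  have hli : LinearIndependent K⟮t⟯ ![(1 : F), η] := by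
    rw [LinearIndependent.pair_iff]
    rintro ⟨u, hu⟩ ⟨v, hv⟩ h0
    have h1 : u + v * η = 0 := by
      have : (⟨u, hu⟩ : K⟮t⟯) • (1 : F) + (⟨v, hv⟩ : K⟮t⟯) • η = u * 1 + v * η := rfl
      rw [this, mul_one] at h0
      exact h0
    have hv0 : v = 0 := by
      by_contra hv0
      apply h.nmem
      have h2 : η = -u / v := by
        rw [eq_div_iff hv0]
        linear_combination h1
      rw [h2]
      exact div_mem (neg_mem hu) hv
    have hu0 : u = 0 := by rw [hv0, zero_mul, add_zero] at h1; exact h1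
    exact ⟨Subtype.ext hu0, Subtype.ext hv0⟩
  have hsp : ⊤ ≤ Submodule.span K⟮t⟯ (Set.range ![(1 : F), η]) := by
    intro f _
    obtain ⟨u, hu, v, hv, rfl⟩ := h.gen f
    rw [Matrix.range_cons, Matrix.range_cons, Matrix.range_empty, Set.union_empty]
    refine Submodule.add_mem _ ?_ ?_
    · have : u = (⟨u, hu⟩ : K⟮t⟯) • (1 : F) := (mul_one u).symm
      rw [this]
      exact Submodule.smul_mem _ _ (Submodule.subset_span (by simp))
    · have : v * η = (⟨v, hv⟩ : K⟮t⟯) • η := rfl
      rw [this]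
      exact Submodule.smul_mem _ _ (Submodule.subset_span (by simp))
  have := finrank_eq_card_basis (Basis.mk hli hsp)
  rwa [Fintype.card_fin] at this

/-- separability -/
theorem DC.sep (h : DC K t η g) (h2 : (2 : K) ≠ 0) : Algebra.IsSeparable K⟮t⟯ F := by
  have hη : IsSeparable K⟮t⟯ η := by
    set gt : K⟮t⟯ := ⟨aeval t g, aeval_mem' g⟩ with hgt
    have hgt0 : gt ≠ 0 := fun h0 => aeval_ne h h.gne (congrArg Subtype.val h0)
    have hsep : (X ^ 2 - C gt : K⟮t⟯[X]).Separable := by
      refine separable_X_pow_sub_C (n := 2) gt ?_ hgt0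
      have h3 : ((2 : ℕ) : K⟮t⟯) = algebraMap K K⟮t⟯ 2 := by rw [map_ofNat]; rfl
      rw [h3]
      exact (_root_.map_ne_zero _).mpr h2
    refine hsep.of_dvd (minpoly.dvd K⟮t⟯ η ?_)
    rw [map_sub, map_pow, aeval_X, aeval_C, h.sq]
    exact sub_self _
  rw [← separableClosure.eq_top_iff, eq_top_iff]
  intro f _
  obtain ⟨u, hu, v, hv, rfl⟩ := h.gen f
  refine add_mem ?_ (mul_mem ?_ ?_)
  · exact (separableClosure K⟮t⟯ F).algebraMap_mem ⟨u, hu⟩
  · exact (separableClosure K⟮t⟯ F).algebraMap_mem ⟨v, hv⟩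
  · exact mem_separableClosure_iff.mpr hη

/-- squarefree polynomials -/
theorem dvd_of_sq_dvd {d b g : K[X]} (hd : d ≠ 0) (hg : Squarefree g) (h : d ^ 2 ∣ b ^ 2 * g) :
    d ∣ b := by
  classical
  by_cases hb : b = 0
  · rw [hb]; exact dvd_zero _
  obtain ⟨d', hd'⟩ : EuclideanDomain.gcd d b ∣ d := EuclideanDomain.gcd_dvd_left d b
  obtain ⟨b', hb'⟩ : EuclideanDomain.gcd d b ∣ b := EuclideanDomain.gcd_dvd_right d b
  set e := EuclideanDomain.gcd d b with he
  have he0 : e ≠ 0 := by
    intro h0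
    rw [h0, zero_mul] at hd'
    exact hd hd'
  have hco : IsCoprime d' b' := by
    have h1 := EuclideanDomain.gcd_eq_gcd_ab d b
    rw [← he] at h1
    refine ⟨EuclideanDomain.gcdA d b, EuclideanDomain.gcdB d b, ?_⟩
    apply mul_left_cancel₀ he0
    calc e * (EuclideanDomain.gcdA d b * d' + EuclideanDomain.gcdB d b * b')
        = (e * d') * EuclideanDomain.gcdA d b + (e * b') * EuclideanDomain.gcdB d b := by ring
      _ = e * 1 := by rw [← hd', ← hb', mul_one]; exact h1.symm
  have h2 : d' ^ 2 ∣ b' ^ 2 * g := by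
    obtain ⟨c, hc⟩ := h
    refine ⟨c, ?_⟩
    apply mul_left_cancel₀ (pow_ne_zero 2 he0)
    calc e ^ 2 * (b' ^ 2 * g) = (e * b') ^ 2 * g := by ring
      _ = b ^ 2 * g := by rw [← hb']
      _ = d ^ 2 * c := hc
      _ = (e * d') ^ 2 * c := by rw [← hd']
      _ = e ^ 2 * (d' ^ 2 * c) := by ring
  have h3 : d' ^ 2 ∣ g := (hco.pow (m := 2) (n := 2)).dvd_of_dvd_mul_left h2
  have h4 : IsUnit d' := hg d' (by rwa [← pow_two])
  obtain ⟨c, hc⟩ := h4.dvd (a := b')
  refine ⟨c, ?_⟩
  calc b = e * b' := hb'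
    _ = e * (d' * c) := by rw [← hc]
    _ = (e * d') * c := by ring
    _ = d * c := by rw [← hd']

variable [IsAlgClosed K] [IsFunctionField K F]

/-- **the ring of integral elements** -/
theorem DC.affine (h : DC K t η g) (h2 : (2 : K) ≠ 0) (hg : Squarefree g) {z : F}
    (hz : z ∈ affineRing K t) : ∃ a b : K[X], z = aeval t a + aeval t b * η := by
  letI := polyAlg K t
  letI := polyAlgAdj K t
  haveI := polyAlg_tower K t
  haveI := polyAlgAdj_tower K t
  haveI := polyAlg_tower_adj K t
  haveI := isFractionRing_adj K h.tr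
  have hXt : algebraMap K[X] F X = t := polyAlg_X K t
  have hint : IsIntegral K[X] z := (isIntegral_iff_mem_affineRing z).2 (by rwa [hXt])
  have hap : ∀ p : K[X], algebraMap K[X] F p = aeval t p := fun p => rfl
  have hap' : ∀ p : K[X], ((algebraMap K[X] K⟮t⟯ p : K⟮t⟯) : F) = aeval t p := fun p => by
    rw [← hap]
    exact (IsScalarTower.algebraMap_apply K[X] K⟮t⟯ F p).symm
  obtain ⟨a, b, d, hd, hf⟩ := h.form z
  have hdt := aeval_ne h hd
  -- divisibility of `a`, and the norm
  obtain ⟨a', ha', n, hn⟩ : ∃ a', a = d * a' ∧ ∃ n, a ^ 2 - b ^ 2 * g = d ^ 2 * n := by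
    by_cases hb : b = 0
    · rw [hb, map_zero, zero_mul, add_zero] at hf
      have hzm : z ∈ K⟮t⟯ := by
        have : z = aeval t a / aeval t d := by
          rw [eq_div_iff hdt, mul_comm]; exact hf
        rw [this]
        exact div_mem (aeval_mem' a) (aeval_mem' d)
      have hint' : IsIntegral K[X] (⟨z, hzm⟩ : K⟮t⟯) := by
        rw [← isIntegral_algebraMap_iff (B := F) (algebraMap K⟮t⟯ F).injective]
        exact hint
      obtain ⟨a', ha'⟩ := IsIntegrallyClosed.isIntegral_iff.mp hint'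
      have h3 : z = aeval t a' := by rw [← hap', ha']
      have h4 : a = d * a' := by
        by_contra hne
        have h5 := aeval_ne h (sub_ne_zero.mpr hne)
        apply h5
        rw [map_sub, map_mul, ← hf, h3, sub_self]
      refine ⟨a', h4, a' ^ 2, ?_⟩
      rw [hb, h4]
      ring
    · -- the minimal polynomial
      set r : K⟮t⟯ := (algebraMap K[X] K⟮t⟯ (2 * a)) / algebraMap K[X] K⟮t⟯ d with hr
      set s : K⟮t⟯ := (algebraMap K[X] K⟮t⟯ (a ^ 2 - b ^ 2 * g)) / algebraMap K[X] K⟮t⟯ (d ^ 2)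
        with hs
      have hd0 : algebraMap K[X] K⟮t⟯ d ≠ 0 := by
        intro h0
        exact hdt (by rw [← hap', h0]; rfl)
      have hrF : (r : F) = 2 * aeval t a / aeval t d := by
        rw [hr]
        change ((algebraMap K[X] K⟮t⟯ (2 * a) : K⟮t⟯) : F) / (algebraMap K[X] K⟮t⟯ d : K⟮t⟯) = _
        rw [hap', hap', map_mul, map_ofNat]
      have hsF : (s : F) = (aeval t a ^ 2 - aeval t b ^ 2 * η ^ 2) / aeval t d ^ 2 := by
        rw [hs]
        change ((algebraMap K[X] K⟮t⟯ (a ^ 2 - b ^ 2 * g) : K⟮t⟯) : F) /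
          (algebraMap K[X] K⟮t⟯ (d ^ 2) : K⟮t⟯) = _
        rw [hap', hap', map_sub, map_mul, map_pow, map_pow, map_pow, h.sq]
      set q : K⟮t⟯[X] := X ^ 2 - C r * X + C s with hq
      have hqm : q.Monic := by
        rw [hq]; monicity!
      have hqd : q.natDegree = 2 := by
        rw [hq]; compute_degree!
      have hz' : z = (aeval t a + aeval t b * η) / aeval t d := by
        rw [eq_div_iff hdt, mul_comm]; exact hf
      have hq0 : aeval z q = 0 := by
        rw [hq, map_add, map_sub, map_pow, map_mul, aeval_X, aeval_C, aeval_C]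
        change z ^ 2 - (r : F) * z + (s : F) = 0
        rw [hrF, hsF, hz']
        field_simp
        ring
      have hnm : z ∉ (algebraMap K⟮t⟯ F).range := by
        rintro ⟨w, hw⟩
        apply h.nmem
        have hbt := aeval_ne h hb
        have h3 : η = (aeval t d * (w : F) - aeval t a) / aeval t b := by
          rw [eq_div_iff hbt]
          have : (w : F) = z := hw
          rw [this]
          linear_combination -hf
        rw [h3]
        exact div_mem (sub_mem (mul_mem (aeval_mem' d) w.2) (aeval_mem' a)) (aeval_mem' b)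
      have hintK : IsIntegral K⟮t⟯ z := hint.tower_top
      have h2d := (minpoly.two_le_natDegree_iff hintK).mpr hnm
      have hmin : minpoly K⟮t⟯ z = q := by
        refine (Polynomial.eq_of_monic_of_dvd_of_natDegree_le (minpoly.monic hintK) hqm
          (minpoly.dvd _ _ hq0) ?_).symm
        rw [hqd]; exact h2d
      have hmin2 := minpoly.isIntegrallyClosed_eq_field_fractions' K⟮t⟯ hint
      rw [hmin] at hmin2
      have e1 := congrArg (fun P => P.coeff 1) hmin2
      have e0 := congrArg (fun P => P.coeff 0) hmin2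
      simp only [coeff_map] at e1 e0
      have hq1 : q.coeff 1 = -r := by
        rw [hq]
        simp [coeff_X_pow, coeff_C]
      have hq00 : q.coeff 0 = s := by
        rw [hq]
        simp [coeff_X_pow]
      rw [hq1] at e1
      rw [hq00] at e0
      set P1 := (minpoly K[X] z).coeff 1
      set P0 := (minpoly K[X] z).coeff 0
      have f1 : 2 * a = d * (-P1) := by
        by_contra hne
        refine aeval_ne h (sub_ne_zero.mpr hne) ?_
        have h3 := congrArg (Subtype.val : K⟮t⟯ → F) e1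
        change -(r : F) = ((algebraMap K[X] K⟮t⟯ P1 : K⟮t⟯) : F) at h3
        rw [hap', hrF] at h3
        rw [map_sub, map_mul, map_mul, map_neg, map_ofNat, ← h3]
        field_simp
        ring
      have f0 : a ^ 2 - b ^ 2 * g = d ^ 2 * P0 := by
        by_contra hne
        refine aeval_ne h (sub_ne_zero.mpr hne) ?_
        have h3 := congrArg (Subtype.val : K⟮t⟯ → F) e0
        change (s : F) = ((algebraMap K[X] K⟮t⟯ P0 : K⟮t⟯) : F) at h3
        rw [hap', hsF] at h3
        rw [map_sub, map_sub, map_mul, map_mul, map_pow, map_pow, map_pow, ← h.sq, ← h3]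
        field_simp
        ring
      refine ⟨C (2⁻¹ : K) * (-P1), ?_, P0, f0⟩
      have h3 : C (2⁻¹ : K) * 2 = (1 : K[X]) := by
        have : (2 : K[X]) = C 2 := by rw [map_ofNat]
        rw [this, ← C_mul, inv_mul_cancel₀ h2, C_1]
      linear_combination C (2⁻¹ : K) * f1 - a * h3
  have hdb : d ∣ b := by
    refine dvd_of_sq_dvd hd hg ⟨a' ^ 2 - n, ?_⟩
    rw [ha'] at hn
    linear_combination -hn
  obtain ⟨b', hb'⟩ := hdb
  refine ⟨a', b', ?_⟩
  apply mul_left_cancel₀ hdt
  rw [hf, ha', hb', map_mul, map_mul]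
  ring

end Basic

end Fermat.Agent.RT.Dc
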