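import Fermat.Agent.RT.Dc1

/-!
# Gauss reductions and good charts for double covers
-/

set_option autoImplicit false
set_option linter.unusedSectionVars false
set_option linter.style.haveILetI false

noncomputable section

namespace Fermat.Agent.RT.Dc

open Polynomial AlgebraicCurve Fermat.Agent.Curves Module IntermediateField Fermat.Agent.GoodRed

section Frm

variable {B k F : Type*} [CommRing B] [Field k] [Field F] [Algebra k F]

/-- `f = (a + b η)/d` -/
def Frm (φ : B →+* k) (t η : F) (a b d : B[X]) (f : F) : Prop :=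
  aeval t (d.map φ) * f = aeval t (a.map φ) + aeval t (b.map φ) * η

variable {φ : B →+* k} {t η : F} {g : B[X]} {a b d a' b' d' : B[X]} {f f' : F}

theorem Frm.add (h : Frm φ t η a b d f) (h' : Frm φ t η a' b' d' f') :
    Frm φ t η (a * d' + a' * d) (b * d' + b' * d) (d * d') (f + f') := by
  unfold Frm at *
  simp only [Polynomial.map_add, Polynomial.map_mul, map_add, map_mul]
  linear_combination aeval t (d'.map φ) * h + aeval t (d.map φ) * h'

theorem Frm.neg (h : Frm φ t η a b d f) : Frm φ t η (-a) (-b) d (-f) := by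
  unfold Frm at *
  simp only [Polynomial.map_neg, map_neg]
  linear_combination -h

theorem Frm.mul (hη : η ^ 2 = aeval t (g.map φ)) (h : Frm φ t η a b d f)
    (h' : Frm φ t η a' b' d' f') :
    Frm φ t η (a * a' + b * b' * g) (a * b' + a' * b) (d * d') (f * f') := by
  unfold Frm at *
  simp only [Polynomial.map_add, Polynomial.map_mul, map_add, map_mul]
  rw [← hη]
  linear_combination (aeval t (d'.map φ) * f') * h +
    (aeval t (a.map φ) + aeval t (b.map φ) * η) * h'

theorem Frm.inv (hη : η ^ 2 = aeval t (g.map φ)) (h : Frm φ t η a b d f) (hf : f ≠ 0) :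
    Frm φ t η (d * a) (-(d * b)) (a ^ 2 - b ^ 2 * g) f⁻¹ := by
  unfold Frm at *
  simp only [Polynomial.map_sub, Polynomial.map_mul, Polynomial.map_pow, Polynomial.map_neg,
    map_sub, map_mul, map_pow, map_neg]
  rw [← hη]
  have h1 : aeval t (a.map φ) ^ 2 - aeval t (b.map φ) ^ 2 * η ^ 2 =
      (aeval t (d.map φ) * f) * (aeval t (a.map φ) - aeval t (b.map φ) * η) := by
    rw [h]; ring
  rw [h1]
  field_simp
  ring

theorem Frm.const (c : B) : Frm φ t η (C c) 0 1 (algebraMap k F (φ c)) := by
  unfold Frm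
  simp only [Polynomial.map_one, Polynomial.map_zero, Polynomial.map_C, map_one, map_zero,
    aeval_C, one_mul, zero_mul, add_zero]

theorem Frm.zero' : Frm φ t η 0 0 1 0 := by
  unfold Frm
  simp only [Polynomial.map_one, Polynomial.map_zero, map_one, map_zero, mul_zero, zero_mul,
    add_zero]

theorem Frm.one' : Frm φ t η 1 0 1 1 := by
  unfold Frm
  simp only [Polynomial.map_one, Polynomial.map_zero, map_one, map_zero, mul_one, zero_mul,
    add_zero]

end Frm

variable {K κ : Type*} [Field K] [Field κ] {A : ValuationSubring K} {π : A →+* κ}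
  {F Fb : Type*} [Field F] [Field Fb] [Algebra K F] [Algebra κ Fb] {t η : F} {tb ηb : Fb}
  {g : A[X]}

/-- the reduction relation -/
def Rel (π : A →+* κ) (t η : F) (tb ηb : Fb) (f : F) (fb : Fb) : Prop :=
  ∃ a b d : A[X], d.map π ≠ 0 ∧ Frm A.subtype t η a b d f ∧ Frm π tb ηb a b d fb

theorem map_inj' {p q : A[X]} (h : p.map A.subtype = q.map A.subtype) : p = q :=
  Polynomial.map_injective A.subtype Subtype.val_injective h

theorem Rel.unique (h : DC K t η (g.map A.subtype)) (hb : DC κ tb ηb (g.map π)) {f : F}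
    {y y' : Fb} (h1 : Rel π t η tb ηb f y) (h2 : Rel π t η tb ηb f y') : y = y' := by
  obtain ⟨a, b, d, hd, e1, e2⟩ := h1
  obtain ⟨a', b', d', hd', e1', e2'⟩ := h2
  unfold Frm at e1 e2 e1' e2'
  have h3 : aeval t ((d' * a - d * a').map A.subtype) +
      aeval t ((d' * b - d * b').map A.subtype) * η = 0 := by
    simp only [Polynomial.map_sub, Polynomial.map_mul, map_sub, map_mul]
    linear_combination aeval t (d.map A.subtype) * e1' - aeval t (d'.map A.subtype) * e1
  obtain ⟨h4, h5⟩ := h.lin h3
  have h6 : d' * a = d * a' := by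
    apply map_inj'
    rwa [Polynomial.map_sub, sub_eq_zero] at h4
  have h7 : d' * b = d * b' := by
    apply map_inj'
    rwa [Polynomial.map_sub, sub_eq_zero] at h5
  have h6' := congrArg (fun p => aeval tb (p.map π)) h6
  have h7' := congrArg (fun p => aeval tb (p.map π)) h7
  simp only [Polynomial.map_mul, map_mul] at h6' h7'
  apply mul_left_cancel₀ (mul_ne_zero (aeval_ne hb hd) (aeval_ne hb hd'))
  linear_combination aeval tb (d'.map π) * e2 - aeval tb (d.map π) * e2' + h6' + ηb * h7'

/-- the reduction of a double cover -/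
def preRed (h : DC K t η (g.map A.subtype)) (hb : DC κ tb ηb (g.map π)) : PreRed A π F Fb where
  R := Rel π t η tb ηb
  unique := Rel.unique h hb
  zero := ⟨0, 0, 1, by rw [Polynomial.map_one]; exact one_ne_zero, Frm.zero', Frm.zero'⟩
  one := ⟨1, 0, 1, by rw [Polynomial.map_one]; exact one_ne_zero, Frm.one', Frm.one'⟩
  add := by
    rintro x x' y y' ⟨a, b, d, hd, e1, e2⟩ ⟨a', b', d', hd', e1', e2'⟩
    exact ⟨_, _, _, by rw [Polynomial.map_mul]; exact mul_ne_zero hd hd', e1.add e1', e2.add e2'⟩
  mul := by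
    rintro x x' y y' ⟨a, b, d, hd, e1, e2⟩ ⟨a', b', d', hd', e1', e2'⟩
    exact ⟨_, _, _, by rw [Polynomial.map_mul]; exact mul_ne_zero hd hd', e1.mul h.sq e1',
      e2.mul hb.sq e2'⟩
  neg := by
    rintro x y ⟨a, b, d, hd, e1, e2⟩
    exact ⟨_, _, _, hd, e1.neg, e2.neg⟩
  inv := by
    intro x y hR hy
    have hx : x ≠ 0 := by
      rintro rfl
      apply hy
      exact Rel.unique h hb hR ⟨0, 0, 1, by rw [Polynomial.map_one]; exact one_ne_zero,
        Frm.zero', Frm.zero'⟩
    obtain ⟨a, b, d, hd, e1, e2⟩ := hR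
    refine ⟨_, _, _, ?_, e1.inv h.sq hx, e2.inv hb.sq hy⟩
    rw [Polynomial.map_sub, Polynomial.map_mul, Polynomial.map_pow, Polynomial.map_pow]
    apply hb.conj_ne
    rw [← show aeval tb (d.map π) * y = _ from e2]
    exact mul_ne_zero (aeval_ne hb hd) hy
  const := fun c => ⟨C c, 0, 1, by rw [Polynomial.map_one]; exact one_ne_zero, Frm.const c,
    Frm.const c⟩

theorem preRed_lift (h : DC K t η (g.map A.subtype)) (hb : DC κ tb ηb (g.map π))
    (hπ : Function.Surjective π) (y : Fb) : ∃ x : F, (preRed h hb).R x y := by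
  obtain ⟨a', b', d', hd', e⟩ := hb.form y
  obtain ⟨a, rfl⟩ := Polynomial.map_surjective π hπ a'
  obtain ⟨b, rfl⟩ := Polynomial.map_surjective π hπ b'
  obtain ⟨d, rfl⟩ := Polynomial.map_surjective π hπ d'
  have hd : d.map A.subtype ≠ 0 := by
    intro h0
    apply hd'
    have : d = 0 := map_inj' (by rw [h0, Polynomial.map_zero])
    rw [this, Polynomial.map_zero]
  refine ⟨(aeval t (a.map A.subtype) + aeval t (b.map A.subtype) * η) /
    aeval t (d.map A.subtype), a, b, d, hd', ?_, e⟩
  exact mul_div_cancel₀ _ (aeval_ne h hd)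

theorem preRed_scale (h : DC K t η (g.map A.subtype)) (hb : DC κ tb ηb (g.map π)) (x : F)
    (hx : x ≠ 0) : ∃ c : K, c ≠ 0 ∧ ∃ y : Fb, y ≠ 0 ∧ (preRed h hb).R (algebraMap K F c * x) y := by
  obtain ⟨a', b', d', hd', e⟩ := h.form x
  have hab : ∃ i, (![a', b'] : Fin 2 → K[X]) i ≠ 0 := by
    by_contra! h0
    have ha := h0 0
    have hb := h0 1
    simp only [Matrix.cons_val_zero, Matrix.cons_val_one] at ha hb
    rw [ha, hb, map_zero, zero_mul, add_zero] at e
    exact mul_ne_zero (aeval_ne h hd') hx e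
  obtain ⟨c₁, q, hc₁, hq, i, hi⟩ := GaussRed.exists_scale_polys (A := A) (π := π) _ hab
  obtain ⟨c₂, δ, hc₂, hδ, hδ0⟩ := GaussRed.exists_scale_poly (A := A) (π := π) d' hd'
  have hq0 := hq 0
  have hq1 := hq 1
  simp only [Matrix.cons_val_zero, Matrix.cons_val_one] at hq0 hq1
  refine ⟨c₁ / c₂, div_ne_zero hc₁ hc₂, (aeval tb ((q 0).map π) + aeval tb ((q 1).map π) * ηb) /
    aeval tb (δ.map π), ?_, q 0, q 1, δ, hδ0, ?_, ?_⟩
  · refine div_ne_zero ?_ (aeval_ne hb hδ0)
    intro h0
    obtain ⟨h1, h2⟩ := hb.lin h0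
    fin_cases i
    · exact hi h1
    · exact hi h2
  · unfold Frm
    rw [hδ, hq0, hq1, map_mul, map_mul, map_mul, aeval_C, aeval_C, map_div₀]
    have hc₂' : algebraMap K F c₂ ≠ 0 := (_root_.map_ne_zero _).mpr hc₂
    field_simp
    linear_combination algebraMap K F c₁ * e
  · exact mul_div_cancel₀ _ (aeval_ne hb hδ0)

/-- **the Gauss reduction** -/
def gauss (h : DC K t η (g.map A.subtype)) (hb : DC κ tb ηb (g.map π))
    (hπ : Function.Surjective π) : GaussRed A π F Fb :=
  (preRed h hb).gauss (preRed_lift h hb hπ) (preRed_scale h hb)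

theorem gauss_t (h : DC K t η (g.map A.subtype)) (hb : DC κ tb ηb (g.map π))
    (hπ : Function.Surjective π) : (gauss h hb hπ).R t tb := by
  rw [gauss, PreRed.gauss_R]
  refine ⟨X, 0, 1, by rw [Polynomial.map_one]; exact one_ne_zero, ?_, ?_⟩ <;>
  · unfold Frm
    rw [Polynomial.map_one, Polynomial.map_zero, Polynomial.map_X, map_one, map_zero, aeval_X,
      one_mul, zero_mul, add_zero]

theorem gauss_η (h : DC K t η (g.map A.subtype)) (hb : DC κ tb ηb (g.map π))
    (hπ : Function.Surjective π) : (gauss h hb hπ).R η ηb := by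
  rw [gauss, PreRed.gauss_R]
  refine ⟨0, 1, 1, by rw [Polynomial.map_one]; exact one_ne_zero, ?_, ?_⟩ <;>
  · unfold Frm
    rw [Polynomial.map_one, Polynomial.map_zero, map_one, map_zero, one_mul, zero_add]

section Charts

variable [IsAlgClosed K] [IsAlgClosed κ] [IsLocalHom π] [IsFunctionField K F]
  [IsFunctionField κ Fb]

theorem G_aeval {G : GaussRed A π F Fb} (ht : G.R t tb) (q : A[X]) :
    G.R (aeval t (q.map A.subtype)) (aeval tb (q.map π)) := by
  induction q using Polynomial.induction_on with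
  | C a =>
    rw [map_C, map_C, aeval_C, aeval_C]
    exact GaussRed.R.const G a
  | add p q hp hq =>
    rw [Polynomial.map_add, Polynomial.map_add, map_add, map_add]
    exact GaussRed.R.add hp hq
  | monomial n a h =>
    rw [pow_succ, ← mul_assoc, Polynomial.map_mul, Polynomial.map_mul (f := π), map_mul, map_mul,
      map_X, map_X, aeval_X, aeval_X]
    exact GaussRed.R.mul h ht

/-- **the good chart of a double cover** -/
theorem goodChart {G : GaussRed A π F Fb} (h : DC K t η (g.map A.subtype))
    (hb : DC κ tb ηb (g.map π)) (hπ : Function.Surjective π) (ht : G.R t tb) (hη : G.R η ηb)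
    (h2 : (2 : κ) ≠ 0) (hg : Squarefree (g.map π)) : GoodChart G t tb where
  R := ht
  tr := h.tr
  trb := hb.tr
  sep := h.sep (by
    intro h0
    apply h2
    have h1 : (2 : A) = 0 := Subtype.ext h0
    rw [← map_ofNat π 2, h1, map_zero])
  sepb := hb.sep h2
  finrank_eq := by rw [h.finrank, hb.finrank]
  hπ := hπ
  lift := by
    intro yb hyb
    obtain ⟨a', b', rfl⟩ := hb.affine h2 hg hyb
    obtain ⟨a, rfl⟩ := Polynomial.map_surjective π hπ a'
    obtain ⟨b, rfl⟩ := Polynomial.map_surjective π hπ b'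
    have hint : ∀ p : K[X], aeval t p ∈ affineRing K t := fun p => by
      induction p using Polynomial.induction_on with
      | C a => rw [aeval_C]; exact algebraMap_mem_affineRing t a
      | add p q hp hq => rw [map_add]; exact (affineRing K t).add_mem hp hq
      | monomial n a h' =>
        rw [pow_succ, ← mul_assoc, map_mul, aeval_X]
        exact (affineRing K t).mul_mem h' (self_mem_affineRing t)
    have hηaff : η ∈ affineRing K t := by
      letI := polyAlg K t
      haveI := polyAlg_tower K t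
      have hXt : algebraMap K[X] F X = t := polyAlg_X K t
      rw [← hXt, ← isIntegral_iff_mem_affineRing]
      refine IsIntegral.of_pow (n := 2) two_pos ?_
      rw [h.sq]
      exact isIntegral_algebraMap (x := g.map A.subtype)
    refine ⟨aeval t (a.map A.subtype) + aeval t (b.map A.subtype) * η,
      (affineRing K t).add_mem (hint _) ((affineRing K t).mul_mem (hint _) hηaff), ?_⟩
    exact (G_aeval ht a).add ((G_aeval ht b).mul hη)

end Charts

end Fermat.Agent.RT.Dc
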