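import Fermat.Agent.S58X.Main
import Fermat.Agent.CarayolY.Main
import Fermat.Agent.Carayol.K0Thm
import Fermat.Agent.S43Glue.Classical
import Fermat.Prelude.Def_WeierstrassCurve_Mlc1RowStatement

/-!
# From a character of the Hecke algebra to modularity
-/

set_option autoImplicit false
set_option maxHeartbeats 400000
set_option linter.style.haveILetI false

noncomputable section

namespace Fermat.Agent.RT

open CuspForm CongruenceSubgroup ModularFormClass Fermat.Agent.S43Glue WeierstrassCurve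
open Fermat.Agent.S58X

/-- a normalised eigenform from a character of characteristic zero -/
theorem exists_eigenform_of_char {N : ℕ} [NeZero N] {S : Set ℕ} {O : Type} [CommRing O]
    [IsDomain O] [CharZero O] (χ : heckeAlgebra N 2 S →+* O) :
    ∃ f : CuspForm (Gamma0 N) 2, f.IsNormalizedEigenform ∧
      ∀ (ℓ : ℕ) (hℓ : ℓ.Prime) (hℓN : ¬ ℓ ∣ N) (hℓS : ℓ ∉ S) (a : ℤ),
        χ (heckeAlgebra.T hℓ hℓN hℓS) = (a : O) → qCoeff f ℓ = (a : ℂ) := by
  haveI : Module.Finite ℤ (heckeAlgebra N 2 ∅) := Fermat.Agent.S22.result N 2 ∅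
  haveI : Algebra.IsIntegral ℤ (heckeAlgebra N 2 ∅) := inferInstance
  let ι := (Subalgebra.inclusion (heckeAlgebra_mono (N := N) (k := 2) (Set.empty_subset S))).toRingHom
  letI : Algebra (heckeAlgebra N 2 S) (heckeAlgebra N 2 ∅) := ι.toAlgebra
  haveI : Algebra.IsIntegral (heckeAlgebra N 2 S) (heckeAlgebra N 2 ∅) :=
    ⟨inclusion_isIntegral (Set.empty_subset S)⟩
  haveI : (RingHom.ker χ).IsPrime := RingHom.ker_isPrime χ
  obtain ⟨Q, -, hQ, hQc⟩ := Ideal.exists_ideal_over_prime_of_isIntegral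
    (S := heckeAlgebra N 2 ∅) (RingHom.ker χ) ⊥ (by
      intro x hx
      have hx' : ι x = 0 := hx
      have h0 : x = 0 := Subalgebra.inclusion_injective _ (by
        change ι x = ι 0
        rw [hx', map_zero])
      rw [h0]
      exact zero_mem _)
  haveI := hQ
  have hQZ : Q.comap (algebraMap ℤ (heckeAlgebra N 2 ∅)) = ⊥ := by
    rw [eq_bot_iff]
    intro n hn
    rw [Ideal.mem_comap] at hn
    have h1 : (algebraMap ℤ (heckeAlgebra N 2 S) n) ∈ RingHom.ker χ := by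
      rw [← hQc, Ideal.mem_comap]
      have : algebraMap (heckeAlgebra N 2 S) (heckeAlgebra N 2 ∅)
          (algebraMap ℤ (heckeAlgebra N 2 S) n) = algebraMap ℤ (heckeAlgebra N 2 ∅) n := by
        rw [eq_intCast, eq_intCast, map_intCast]
      rwa [this]
    rw [RingHom.mem_ker, eq_intCast, map_intCast] at h1
    exact_mod_cast h1
  have hmin : Q ∈ minimalPrimes (heckeAlgebra N 2 ∅) := by
    refine ⟨⟨hQ, bot_le⟩, ?_⟩
    rintro P ⟨hP, -⟩ hPQ
    haveI := hP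
    by_contra hne
    have hlt : P < Q := lt_of_le_of_ne hPQ (fun h => hne (h ▸ le_rfl))
    have h2 := Ideal.comap_lt_comap_of_integral_mem_sdiff (R := ℤ) hPQ
      (Set.not_subset.mp (fun h => hlt.not_ge h)).choose_spec
      (Algebra.IsIntegral.isIntegral _)
    rw [hQZ] at h2
    exact not_lt_bot h2
  obtain ⟨Ψ, hΨ⟩ := DSLift.exists_algHom_comap_eq N 2 Q hmin
  obtain ⟨f, hf1, hf⟩ := DSLift.exists_eigenvector_of_algHom N 2 Ψ
  have heig : ∀ t : heckeAlgebra N 2 ∅,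
      (t : Module.End ℂ (CuspForm (Gamma0 N) 2)) f = Ψ (DSLift.toHeckeC N 2 t) • f := fun t => by
    rw [← hf, DSLift.coe_toHeckeC]
  have heig' : ∀ (p : ℕ) (hp : p.Prime), DSLift.heckeOp N 2 hp f =
      Ψ (DSLift.toHeckeC N 2 (DSLift.heckeElt N 2 hp)) • f :=
    fun p hp => heig (DSLift.heckeElt N 2 hp)
  refine ⟨f, DSLift.isNormalizedEigenform_of_eigen N hf1 fun p hp => ⟨_, heig' p hp⟩, ?_⟩
  intro ℓ hℓ hℓN hℓS a ha
  rw [DSLift.qCoeff_prime_of_eigen N 2 hf1 hℓ (heig' ℓ hℓ)]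
  have h3 : ι (heckeAlgebra.T hℓ hℓN hℓS - (a : heckeAlgebra N 2 S)) ∈ Q := by
    have h4 : heckeAlgebra.T hℓ hℓN hℓS - (a : heckeAlgebra N 2 S) ∈ RingHom.ker χ := by
      rw [RingHom.mem_ker, map_sub, ha, map_intCast, sub_self]
    rw [← hQc] at h4
    exact h4
  rw [← hΨ, Ideal.mem_comap, RingHom.mem_ker, map_sub, map_sub, map_sub, map_intCast,
    map_intCast, map_intCast, sub_eq_zero] at h3
  rw [← h3]
  congr 2
  apply Subtype.ext
  change DSLift.heckeOp N 2 hℓ = heckeTLin 2 hℓ hℓN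
  rw [DSLift.heckeOp_of_not_dvd hℓ hℓN]

/-- modularity of semistable curves from almost all coefficients -/
theorem mlc_of_char {W : WeierstrassCurve ℤ} (hΔ : W.Δ ≠ 0) (hss : W.IsSemistableModel)
    {N : ℕ} [NeZero N] (hN3 : ∀ q : ℕ, q.Prime → ¬ q ^ 3 ∣ N) {S : Set ℕ} (hS : S.Finite)
    {O : Type} [CommRing O] [IsDomain O] [CharZero O] (χ : heckeAlgebra N 2 S →+* O)
    (hχ : ∀ (ℓ : ℕ) (hℓ : ℓ.Prime) (hℓN : ¬ ℓ ∣ N) (hℓS : ℓ ∉ S),
      χ (heckeAlgebra.T hℓ hℓN hℓS) = ((W.apOfModel ℓ : ℤ) : O)) :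
    Mlc1IsModularModelOfExactConductorLevel W := by
  obtain ⟨f, hf, hfa⟩ := exists_eigenform_of_char χ
  obtain ⟨M, hM, g, hg, hgf⟩ := Newform.exists_newform hf
  have hN0 : N ≠ 0 := NeZero.ne N
  haveI : NeZero M := ⟨fun h => hN0 (Nat.eq_zero_of_zero_dvd (h ▸ hM))⟩
  let S' : Set ℕ := S ∪ {ℓ | ℓ ∣ N}
  have hfin : S'.Finite := hS.union ((Set.finite_le_nat N).subset fun ℓ hℓ =>
    Nat.le_of_dvd (Nat.pos_of_ne_zero hN0) hℓ)
  have ha : ∀ ℓ : ℕ, ℓ.Prime → ℓ ∉ S' → qCoeff g ℓ = ((W.apOfModel ℓ : ℤ) : ℂ) := by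
    intro ℓ hℓ hℓS
    have hℓN' : ¬ ℓ ∣ N := fun h => hℓS (Or.inr h)
    have hℓS' : ℓ ∉ S := fun h => hℓS (Or.inl h)
    rw [hgf ℓ hℓ hℓN']
    exact hfa ℓ hℓ hℓN' hℓS' _ (hχ ℓ hℓ hℓN' hℓS')
  have hsq : ∀ q : ℕ, q.Prime → ¬ q ^ 2 ∣ M := by
    intro q hq h2
    apply factorization_ne_two hΔ hfin ha (CarayolY.carayolCore_of Carayol.carayolK0) hg hss hq
    have h3 : 2 ≤ M.factorization q := (hq.pow_dvd_iff_le_factorization (NeZero.ne M)).mp h2
    have h4 : ¬ 3 ≤ M.factorization q := fun h => hN3 q hq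
      (((hq.pow_dvd_iff_le_factorization (NeZero.ne M)).mpr h).trans hM)
    omega
  have hMc : M ∣ W.conductorLevel := by
    have hsqf : Squarefree M := by
      rw [Nat.squarefree_iff_prime_squarefree]
      intro q hq h
      exact hsq q hq (by rwa [pow_two])
    rw [← Nat.prod_primeFactors_of_squarefree hsqf]
    refine Finset.prod_primes_dvd _ (fun q hq => (Nat.prime_of_mem_primeFactors hq).prime) ?_
    intro q hq
    have hqp := Nat.prime_of_mem_primeFactors hq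
    rw [prime_dvd_conductorLevel_iff W hΔ hqp]
    exact bad_of_exact hΔ hfin ha hg hqp (Nat.dvd_of_mem_primeFactors hq) (hsq q hqp)
  obtain ⟨h, hh, hhg⟩ := exists_eigenform_of_dvd hg.1 hMc
  refine ⟨W.conductorLevel, W.conductorLevel_pos, W.squarefree_conductorLevel,
    fun q hq => prime_dvd_conductorLevel_iff W hΔ hq, h, hh, fun ℓ hℓ hW hℓc => ?_⟩
  rw [hhg ℓ hℓ hℓc]
  exact qCoeff_eq hΔ hfin ha hg hℓ (fun h => hℓc (h.trans hMc)) hW

end Fermat.Agent.RT
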