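import Fermat.Agent.RT.LowSt
import Fermat.Agent.MazurP3.Final

/-!
# Mazur's principle, in the form used by level lowering
-/

set_option autoImplicit false

noncomputable section

namespace Fermat.Agent.RT

open Fermat.Agent.S43Glue Fermat.Agent.TW56 Fermat.Agent.DefRing

theorem mazG (p : ℕ) [Fact p.Prime] (hp2 : p ≠ 2) : TWG.MazG p := by
  intro M q _ _ S ρ hq hqM hqp hS hpS hMS h3 hρ hdet hspan hin hmod
  exact MazurP3.mazurPrinciple_odd p hp2 M q S ρ h3 hq hqM hqp hS hpS hMS hρ hdet hspan hin hmod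

end Fermat.Agent.RT
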