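import Fermat.Agent.RT.MkStep
import Fermat.Agent.RT.Fin1

/-!
# From the non-minimal case to modularity of semistable curves
-/

set_option autoImplicit false
set_option maxHeartbeats 400000
set_option linter.style.haveILetI false

noncomputable section

namespace Fermat.Agent.RT

open IsLocalRing Matrix Fermat.Agent.DefRing Fermat.Agent.GalRep Fermat.Agent.TWPatch
  Fermat.Agent.TWLoc Fermat.Agent.TWGal CuspForm GaloisRep Fermat.Agent.TWG
  Fermat.Agent.TW56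
open Fermat.Agent.TWCoh hiding GQ
open Fermat.Agent.S43Glue (FinLevel HMod chiK chiK_frob curveRep irred_of_irreducible)

local notation "Qbar" => AlgebraicClosure ℚ

theorem cubefree_aux {N e : ℕ} {Q : Finset ℕ} (hN : Squarefree (N * e))
    (hQ : ∀ q ∈ Q, q.Prime ∧ ¬ q ∣ N * e) {q : ℕ} (hq : q.Prime) :
    ¬ q ^ 3 ∣ (N * e) * ∏ q ∈ Q, q ^ 2 := by
  intro h
  by_cases hqQ : q ∈ Q
  · have h1 : q ^ 3 ∣ ∏ q ∈ Q, q ^ 2 := by
      refine Nat.Coprime.dvd_of_dvd_mul_left (Nat.Coprime.pow_left 3 ?_) h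
      exact (Nat.Prime.coprime_iff_not_dvd hq).mpr (hQ q hqQ).2
    rw [← Finset.mul_prod_erase Q _ hqQ, pow_succ] at h1
    have h2 := Nat.dvd_of_mul_dvd_mul_left (pow_pos hq.pos 2) h1
    rw [Prime.dvd_finsetProd_iff hq.prime] at h2
    obtain ⟨q', hq', h3⟩ := h2
    have h4 := (Nat.prime_dvd_prime_iff_eq hq (hQ q' (Finset.mem_of_mem_erase hq')).1).mp
      (hq.dvd_of_dvd_pow h3)
    exact (Finset.ne_of_mem_erase hq') h4.symm
  · have h1 : q ^ 3 ∣ N * e := by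
      refine Nat.Coprime.dvd_of_dvd_mul_right (Nat.Coprime.pow_left 3 ?_) h
      rw [Nat.Prime.coprime_iff_not_dvd hq, Prime.dvd_finsetProd_iff hq.prime]
      rintro ⟨q', hq', h3⟩
      have h4 := (Nat.prime_dvd_prime_iff_eq hq (hQ q' hq').1).mp (hq.dvd_of_dvd_pow h3)
      exact hqQ (h4 ▸ hq')
    have h2 : q * q ∣ N * e := by
      rw [← pow_two]
      exact (pow_dvd_pow q (by norm_num)).trans h1
    exact hq.one_lt.ne' (Nat.isUnit_iff.mp (hN q h2))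

/-- the exact form of the representation of `W` -/
def WRep {W : WeierstrassCurve ℤ} {p : ℕ} [hp : Fact p.Prime] (B : Tate.Bases W p) (hΔ : W.Δ ≠ 0)
    (O : Type) [CommRing O] [IsLocalRing O] (ρ : GaloisRepAdic O) : Prop :=
  (∀ ℓ : ℕ, ℓ.Prime → W.IsGoodPrimeFor ℓ → ℓ ≠ p → ∀ A : ValuationSubring Qbar,
    A.LiesOverPrime ℓ → ∀ σ : GQ, A.IsFrobeniusAt σ ℓ → ρ.trace σ = ((W.apOfModel ℓ : ℤ) : O)) ∧
   (∀ S Smin : Finset ℕ, (∀ q : ℕ, q.Prime → q ∉ S → q ≠ p ∧ W.IsGoodPrimeFor q) →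
      (W.IsGoodPrimeFor p → DD O .fl p S Smin ρ) ∧
      (¬ W.IsGoodPrimeFor p → DD O .ord p S Smin ρ ∧ DD O .st p S Smin ρ)) ∧
   (∀ ι : ZMod p →+* ResidueField O, ρ.residual.IsEquiv
      (((Tate.resW B hΔ).baseChangeAlong ι).baseChangeAlong (ResidueField.map (algebraMap O O))))

theorem mlc_of_inp {W : WeierstrassCurve ℤ} {p : ℕ} [hp : Fact p.Prime] (B : Tate.Bases W p)
    (hΔ : W.Δ ≠ 0) (hss : W.IsSemistableModel) (hirr : W.ModRepIsIrreducible p)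
    {O : Type} [CommRing O] [IsDomain O] [IsDiscreteValuationRing O] [CNL O] [CharZero O]
    [Algebra ℤ_[p] O] [Module.Finite ℤ_[p] O] (I : Inp B hΔ O)
    (hr : p = 3 → W.IsGoodPrimeFor I.r)
    (hgood : W.IsGoodPrimeFor p → FlatRes p (curveRep B.b))
    (hbad : ¬ W.IsGoodPrimeFor p → MOrd p (curveRep B.b))
    (hu : ¬ p ∣ I.N → ¬ W.IsGoodPrimeFor p → ∃ a : O, IsUnit a ∧ a ^ 2 - I.lam p * a + p = 0)
    (hstep : ∀ X : StepD (I.D hirr), StepSt X) (ρ : GaloisRepAdic O) (hρ : WRep B hΔ O ρ) :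
    Mlc1IsModularModelOfExactConductorLevel W := by
  classical
  obtain ⟨OD, hN, hS, hlam, hQ⟩ := I.exists_OD hirr
  obtain ⟨hρ1, hρ2, hρ3⟩ := hρ
  have hbq : ∀ q : ℕ, q.Prime → q ∉ I.Smin ∪ I.Q → q ≠ p ∧ W.IsGoodPrimeFor q := by
    intro q hq hqS
    refine ⟨fun h => hqS (Finset.mem_union_left _ (I.mem_Smin.mpr (Or.inl h))), ?_⟩
    by_contra h
    exact hqS (I.bad_sub hr hq h)
  obtain ⟨hdd1, hdd2⟩ := hρ2 (I.Smin ∪ I.Q) I.Smin hbq
  obtain ⟨t₁, ht₁, hdd⟩ : ∃ t₁ : PType, (t₁ = I.t ∨ (t₁ = .ord ∧ I.t = .fl ∧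
      (GaloisRepAdic.ofResidualGaloisRep I.ρbar).IsOrdinaryAt p ∧
      ∃ a : O, IsUnit a ∧ a ^ 2 - I.lam p * a + p = 0)) ∧
      DD O t₁ p (I.Smin ∪ I.Q) I.Smin ρ := by
    by_cases hf : FlatRes p (curveRep B.b)
    · have ht : I.t = .fl := if_pos hf
      by_cases hW : W.IsGoodPrimeFor p
      · exact ⟨.fl, Or.inl ht.symm, hdd1 hW⟩
      · exact ⟨.ord, Or.inr ⟨rfl, ht, I.ord_res' hirr (hbad hW),
          hu (fun h => I.atp.mp h hf) hW⟩, (hdd2 hW).1⟩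
    · have ht : I.t = .st := if_neg hf
      have hW : ¬ W.IsGoodPrimeFor p := fun h => hf (hgood h)
      exact ⟨.st, Or.inl ht.symm, (hdd2 hW).2⟩
  let X : StepD (I.D hirr) :=
    { ht := I.t_ne
      hdet := I.detCyc hirr
      hsplit := I.hsplit
      hTW := fun K _ _ G hG V hV => hTW_along I.h₀ (iot I.hpO) I.hp35 K G hG V hV
      hbar := fun S hS => I.dd_bar hss hirr S hS
      OD := OD
      hN := hN
      hS := hS
      hlam := fun l => by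
        rw [I.G_τ, hlam, I.lam_eq l.2.1 (I.G.not_dvd_N l)]
      t₁ := t₁
      ht₁ := by rw [hlam]; exact ht₁ }
  obtain ⟨L, hL0, χ, hL, hχ⟩ := hstep X ρ (by
    change DD O t₁ p (I.Smin ∪ OD.Q) I.Smin ρ
    rw [hQ]
    exact hdd) (hρ3 (iot I.hpO))
  haveI := hL0
  have hpQ : p ∉ I.Q := fun h => (I.mem_Q.mp h).2.2 (I.mem_Sf.mpr (Or.inl rfl))
  have hL3 : ∀ q : ℕ, q.Prime → ¬ q ^ 3 ∣ L := by
    intro q hq
    have hLe : ∃ e, Squarefree (I.N * e) ∧ (e = 1 ∨ e = p) ∧ L = (I.N * e) * ∏ q ∈ I.Q, q ^ 2 := by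
      have hODL : OD.L = I.N * ∏ q ∈ I.Q, q ^ 2 := by rw [OmD.L, hN, hQ]
      rcases hL with h | ⟨h, hpN⟩
      · refine ⟨1, ?_, Or.inl rfl, ?_⟩
        · rw [mul_one]; exact I.sqf
        · rw [mul_one, ← hODL]; exact h
      · refine ⟨p, ?_, Or.inr rfl, ?_⟩
        · rw [Nat.squarefree_mul_iff]
          refine ⟨?_, I.sqf, hp.out.prime.squarefree⟩
          rw [Nat.coprime_comm, Nat.Prime.coprime_iff_not_dvd hp.out]
          exact hpN
        · have h' : L = OD.L * p := h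
          rw [h', hODL]; ring
    obtain ⟨e, he, he', rfl⟩ := hLe
    refine cubefree_aux he (fun q' hq' => ⟨(I.mem_Q.mp hq').1, ?_⟩) hq
    have hq'1 := (I.mem_Q.mp hq').1
    rw [hq'1.dvd_mul]
    rintro (h | h)
    · exact (I.mem_Q.mp hq').2.2 (I.mem_Sf.mpr (Or.inr ⟨hq'1, h⟩))
    · rcases he' with rfl | rfl
      · exact hq'1.one_lt.ne' (Nat.dvd_one.mp h)
      · have := (Nat.prime_dvd_prime_iff_eq hq'1 hp.out).mp h
        subst this
        exact hpQ hq'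
  refine mlc_of_char hΔ hss hL3 (Finset.finite_toSet _) χ ?_
  intro ℓ hℓ hℓL hℓS
  obtain ⟨A, hA, τ, hτ⟩ := Frob.exists_place_frobenius hℓ
  rw [hχ ℓ hℓ hℓL hℓS A hA τ hτ]
  have hℓS' : ℓ ∉ I.Sf ∪ I.Q := by
    have h1 : ℓ ∉ I.Sf ∪ OD.Q := fun h => hℓS (Finset.mem_coe.mpr h)
    rwa [hQ] at h1
  have h2 := hbq ℓ hℓ fun h => hℓS' (Finset.union_subset_union_left I.sub h)
  exact hρ1 ℓ hℓ h2.2 h2.1 A hA τ hτ

end Fermat.Agent.RT
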