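import Fermat.Agent.RT.Tang

/-!
# T10 (a): existence of the deformation rings
-/

set_option autoImplicit false
set_option maxHeartbeats 400000
set_option linter.unusedSectionVars false

noncomputable section

namespace Fermat.Agent.RT

open IsLocalRing Matrix Fermat.Agent.DefRing Fermat.Agent.GalRep Fermat.Agent.TWGal
  Fermat.Agent.TWPatch Fermat.Agent.TW56 GaloisRep

local notation "Qbar" => AlgebraicClosure ℚ

section Iff

variable {A : Type} [CommRing A] [IsLocalRing A] (ρ : GaloisRepAdic A)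
  (b : Module.Basis (Fin 2) A ρ.V)

theorem ordN_iff {p : ℕ} : ρ.IsOrdinaryAt p ↔ MOr False p (repMat ρ b) := by
  unfold GaloisRepAdic.IsOrdinaryAt MOr
  refine forall_congr' fun P => imp_congr_right fun hP => ?_
  constructor
  · rintro ⟨L, ⟨b₀, rfl⟩, hD, hI⟩
    have key : ∀ σ, b₀.toMatrix b * repMat ρ b σ * b.toMatrix b₀ =
        LinearMap.toMatrix b₀ b₀ (ρ.ρ σ) := fun σ =>
      basis_toMatrix_mul_linearMap_toMatrix_mul_basis_toMatrix b₀ b b₀ b (ρ.ρ σ)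
    have hL : ∀ v ∈ (Submodule.span A {b₀ 0}), b₀.repr v 1 = 0 := by
      intro v hv
      obtain ⟨a, rfl⟩ := Submodule.mem_span_singleton.mp hv
      simp
    refine ⟨b.toMatrix b₀, b₀.toMatrix b, b.toMatrix_mul_toMatrix_flip b₀,
      b₀.toMatrix_mul_toMatrix_flip b, ?_, ?_, False.elim⟩
    · intro σ hσ
      rw [key, LinearMap.toMatrix_apply]
      exact hL _ (hD σ hσ _ (Submodule.mem_span_singleton_self _))
    · intro σ hσ
      rw [key, LinearMap.toMatrix_apply]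
      have := hL _ (hI σ hσ (b₀ 1))
      rw [map_sub, Finsupp.sub_apply, b₀.repr_self, Finsupp.single_eq_same] at this
      exact sub_eq_zero.mp this
  · rintro ⟨B, B', hB, hB', hD, hI, -⟩
    let e : ρ.V ≃ₗ[A] ρ.V := LinearEquiv.ofLinearMap (Matrix.toLin b b B) (Matrix.toLin b b B')
      (by rw [← Matrix.toLin_mul b b b, hB, Matrix.toLin_one])
      (by rw [← Matrix.toLin_mul b b b, hB', Matrix.toLin_one])
    let b₀ := b.map e
    have hb : b.toMatrix b₀ = B := by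
      ext i j
      rw [Module.Basis.toMatrix_apply]
      change b.repr (Matrix.toLin b b B (b j)) i = _
      have h1 := congrFun (congrFun (LinearMap.toMatrix_toLin b b B) i) j
      rw [LinearMap.toMatrix_apply] at h1
      exact h1
    have hb' : b₀.toMatrix b = B' := by
      have h1 : b₀.toMatrix b * B = 1 := by rw [← hb]; exact b₀.toMatrix_mul_toMatrix_flip b
      calc b₀.toMatrix b = b₀.toMatrix b * (B * B') := by rw [hB, mul_one]
        _ = B' := by rw [← mul_assoc, h1, one_mul]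
    have key : ∀ σ, B' * repMat ρ b σ * B = LinearMap.toMatrix b₀ b₀ (ρ.ρ σ) := fun σ => by
      rw [← hb, ← hb']
      exact basis_toMatrix_mul_linearMap_toMatrix_mul_basis_toMatrix b₀ b b₀ b (ρ.ρ σ)
    have hL : ∀ v : ρ.V, b₀.repr v 1 = 0 → v ∈ (Submodule.span A {b₀ 0}) := by
      intro v hv
      rw [← b₀.sum_repr v, Fin.sum_univ_two, hv, zero_smul, add_zero]
      exact Submodule.smul_mem _ _ (Submodule.mem_span_singleton_self _)
    have hent : ∀ σ, ∀ j, ρ.ρ σ (b₀ j) = (B' * repMat ρ b σ * B) 0 j • b₀ 0 +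
        (B' * repMat ρ b σ * B) 1 j • b₀ 1 := by
      intro σ j
      rw [key, LinearMap.toMatrix_apply, LinearMap.toMatrix_apply, ← Fin.sum_univ_two
        (fun i => b₀.repr (ρ.ρ σ (b₀ j)) i • b₀ i)]
      exact (b₀.sum_repr _).symm
    refine ⟨Submodule.span A {b₀ 0}, ⟨b₀, rfl⟩, ?_, ?_⟩
    · intro σ hσ v hv
      obtain ⟨a, rfl⟩ := Submodule.mem_span_singleton.mp hv
      rw [map_smul, hent, hD σ hσ, zero_smul, add_zero]
      exact Submodule.smul_mem _ _ (Submodule.smul_mem _ _ (Submodule.mem_span_singleton_self _))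
    · intro σ hσ v
      have hσD : σ ∈ P.decompositionSubgroup ℚ := by
        obtain ⟨τ, -, rfl⟩ := hσ
        exact τ.2
      apply hL
      have h1 : v = b₀.repr v 0 • b₀ 0 + b₀.repr v 1 • b₀ 1 := by
        conv_lhs => rw [← b₀.sum_repr v, Fin.sum_univ_two]
      have h2 : ρ.ρ σ v = b₀.repr v 0 • ρ.ρ σ (b₀ 0) + b₀.repr v 1 • ρ.ρ σ (b₀ 1) := by
        conv_lhs => rw [h1, map_add, map_smul, map_smul]
      rw [map_sub, Finsupp.sub_apply, h2, hent σ 0, hent σ 1, hD σ hσD, hI σ hσ]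
      simp

/-- the union of the inertia groups at the primes outside `S` -/
def XU (S : Finset ℕ) : Set GQ := {σ | ∃ q : ℕ, q.Prime ∧ q ∉ S ∧
  ∃ P : ValuationSubring Qbar, P.LiesOverPrime q ∧ σ ∈ P.inertiaSubgroupIn ℚ}

/-- the union of the inertia groups at the primes `q ∈ Smin`, `q ≠ p` -/
def XV (Smin : Finset ℕ) (p : ℕ) : Set GQ := {σ | ∃ q ∈ Smin, q.Prime ∧ q ≠ p ∧
  ∃ P : ValuationSubring Qbar, P.LiesOverPrime q ∧ σ ∈ P.inertiaSubgroupIn ℚ}

/-- the matrix condition at `p` -/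
def CT (t : PType) (p : ℕ) ⦃A : Type⦄ [CommRing A] [IsLocalRing A]
    (T : GQ →* Matrix (Fin 2) (Fin 2) A) : Prop :=
  match t with
  | .fl => CDet p T ∧ CFl p T
  | .st => COr True p T
  | .ord => COr False p T

/-- the matrix condition -/
def CC (t : PType) (p : ℕ) (S Smin : Finset ℕ) ⦃A : Type⦄ [CommRing A] [IsLocalRing A]
    (T : GQ →* Matrix (Fin 2) (Fin 2) A) : Prop :=
  CT t p T ∧ (∀ σ ∈ XU S, T σ = 1) ∧ ∀ σ ∈ XV Smin p, (T σ).trace = 2 ∧ (T σ).det = 1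

variable {𝒪 : Type} [CommRing 𝒪] {p : ℕ} [hp : Fact p.Prime]

theorem DD_iff_CC [IsNoetherianRing A] [Algebra 𝒪 A] (t : PType) (S Smin : Finset ℕ) :
    DD 𝒪 t p S Smin ρ ↔ CC t p S Smin (repMat ρ b) := by
  have hu : (∀ q : ℕ, q.Prime → q ∉ S → ρ.IsUnramifiedAt q) ↔
      ∀ σ ∈ XU S, repMat ρ b σ = 1 := by
    constructor
    · rintro h σ ⟨q, hq, hqS, P, hP, hσ⟩
      exact (unr_iff ρ b).mp (h q hq hqS) P hP σ hσ
    · intro h q hq hqS
      exact (unr_iff ρ b).mpr fun P hP σ hσ => h σ ⟨q, hq, hqS, P, hP, hσ⟩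
  have hv : (∀ q ∈ Smin, q.Prime → q ≠ p → ρ.IsUnipotentOnInertiaAt q) ↔
      ∀ σ ∈ XV Smin p, (repMat ρ b σ).trace = 2 ∧ (repMat ρ b σ).det = 1 := by
    constructor
    · rintro h σ ⟨q, hqS, hq, hqp, P, hP, hσ⟩
      exact (uni_iff ρ b).mp (h q hqS hq hqp) P hP σ hσ
    · intro h q hqS hq hqp
      exact (uni_iff ρ b).mpr fun P hP σ hσ => h σ ⟨q, hqS, hq, hqp, P, hP, hσ⟩
  have hd : ρ.DetIsCyclotomic p ↔ CDet p (repMat ρ b) := detCyc_iff ρ b
  unfold DD CC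
  rw [hv]
  cases t
  · change (ρ.DetIsCyclotomic p ∧ ρ.IsFlatAt p ∧ ∀ q : ℕ, q.Prime → q ∉ S → ρ.IsUnramifiedAt q) ∧ _
      ↔ (CDet p (repMat ρ b) ∧ CFl p (repMat ρ b)) ∧ _
    rw [hu, hd, flatAt_iff ρ b]
    unfold CFl
    tauto
  · change (ρ.DetIsCyclotomic p ∧ ρ.IsStrictOrdinaryAt p ∧
      ∀ q : ℕ, q.Prime → q ∉ S → ρ.IsUnramifiedAt q) ∧ _ ↔ COr True p (repMat ρ b) ∧ _
    rw [hu, hd, ord_iff ρ b]
    unfold COr
    constructor
    · rintro ⟨⟨h1, h2, h3⟩, h4⟩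
      exact ⟨⟨h1, (mord_iff h1.1 h1.2).mp h2.2⟩, h3, h4⟩
    · rintro ⟨⟨h1, h2⟩, h3, h4⟩
      exact ⟨⟨h1, ⟨h1.1, (mord_iff h1.1 h1.2).mpr h2⟩, h3⟩, h4⟩
  · change (ρ.DetIsCyclotomic p ∧ ρ.IsOrdinaryAt p ∧
      ∀ q : ℕ, q.Prime → q ∉ S → ρ.IsUnramifiedAt q) ∧ _ ↔ COr False p (repMat ρ b) ∧ _
    rw [hu, hd, ordN_iff ρ b]
    unfold COr
    tauto

end Iff

variable {𝒪 : Type} [CommRing 𝒪] [IsLocalRing 𝒪] [Finite (ResidueField 𝒪)]
  {p : ℕ} [hp : Fact p.Prime]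

theorem mc_CT (hp2 : p ≠ 2) (t : PType) : MC 𝒪 (fun _ _ _ T => CT t p T) := by
  cases t
  · exact MC.and mc_det mc_fl
  · exact mc_or hp2 True
  · exact mc_or hp2 False

theorem mc_CC (hp2 : p ≠ 2) (t : PType) (S Smin : Finset ℕ) :
    MC 𝒪 (fun _ _ _ T => CC t p S Smin T) :=
  MC.and (mc_CT hp2 t) (MC.and (mc_unr _) (mc_uni _))

/-- **the condition is a deformation condition** -/
theorem isDeformationCondition_DD (hp2 : p ≠ 2) (t : PType) (S Smin : Finset ℕ) :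
    IsDeformationCondition 𝒪 (DD 𝒪 t p S Smin) :=
  (mc_CC hp2 t S Smin).isDefCond fun _ _ _ _ _ ρ b => DD_iff_CC ρ b t S Smin

theorem unr_of_DD {A : Type} [CommRing A] [IsLocalRing A] [Algebra 𝒪 A] {ρ : GaloisRepAdic A}
    {t : PType} {S Smin : Finset ℕ} (h : DD 𝒪 t p S Smin ρ) :
    ∀ q : ℕ, q.Prime → q ∉ S → ρ.IsUnramifiedAt q := by
  cases t
  · exact h.1.2.2
  · exact h.1.2.2
  · exact h.1.2.2

theorem det_of_DD {A : Type} [CommRing A] [IsLocalRing A] [Algebra 𝒪 A] {ρ : GaloisRepAdic A}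
    {t : PType} {S Smin : Finset ℕ} (h : DD 𝒪 t p S Smin ρ) : ρ.DetIsCyclotomic p := by
  cases t
  · exact h.1.1
  · exact h.1.1
  · exact h.1.1

/-- **T10 (a)** -/
theorem existsDefRing : ExistsDefRing := by
  intro 𝒪 _ _ _ _ _ p _ hp2 hp𝒪 ρbar habs t S Smin hpS hbar
  refine nonempty_data ρbar (DD 𝒪 t p S Smin) habs (isDeformationCondition_DD hp2 t S Smin) hbar ?_
  refine tangentFinite p hp2 hp𝒪 ρbar S hpS (fun q hq hqS => ?_) fun A _ _ _ ρ hρ => unr_of_DD hρ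
  exact unr_of_DD hbar q hq hqS

end Fermat.Agent.RT
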