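import Fermat.Agent.RT.Lgcp
import Fermat.Agent.RT.T10a

/-!
# The residually ordinary case: `θ(T_p)` is a unit
-/

set_option autoImplicit false
set_option linter.unusedSectionVars false
set_option linter.unusedDecidableInType false
set_option linter.style.haveILetI false
set_option maxHeartbeats 2000000

noncomputable section

namespace Fermat.Agent.RT.Lgcp

open Fermat.Agent.DefRing IsLocalRing Matrix Fermat.Agent.GalRep Fermat.Agent.GalRep.HData
open CuspForm Fermat.Agent.AnJac Fermat.Agent.HeckeQ Fermat.Agent.SSMod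
open ModularCurve Fermat.Agent.ModFun Fermat.Agent.PicFlat

local notation "Qbar" => AlgebraicClosure ℚ
local notation "GQ" => (AlgebraicClosure ℚ ≃ₐ[ℚ] AlgebraicClosure ℚ)

section Core

variable {N p : ℕ} [NeZero N] [hp : Fact p.Prime] {S : Set ℕ} {B : Type} [CommRing B]
  [IsDomain B] [IsLocalRing B] [CharZero B] [IsAdicComplete (maximalIdeal B) B]
  [Algebra ℤ_[p] B] [Module.Finite ℤ_[p] B] {A : ValuationSubring Qbar}

/-- the finite level argument -/
theorem lgcu_fin (hp2 : p ≠ 2) (hpN : ¬ p ∣ N) (hA : A.LiesOverPrime p)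
    (hpB : (p : B) ∈ maximalIdeal B) {T : GQ →* Matrix (Fin 2) (Fin 2) B}
    {j : (Fin 2 → B) →ₗ[B] (Fin (DN N p).r → B)}
    (hj : ∀ g y, (padicTo p (maximalIdeal B) hpB).mapMatrix ((DN N p).ρ g) *ᵥ j y =
      j (T g *ᵥ y)) {t : B}
    (ht : ∀ y, castHom (DN N p).r B ((DN N p).T p) *ᵥ j y = j (t • y))
    {φ : GQ} (hφ : A.IsFrobeniusAt φ p)
    (hI0 : ∀ σ ∈ A.inertiaSubgroupIn ℚ, T σ 1 0 ∈ maximalIdeal B)
    (hI1 : ∀ σ ∈ A.inertiaSubgroupIn ℚ, T σ 1 1 - 1 ∈ maximalIdeal B) (y : Fin 2 → B) (n : ℕ) :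
    ∃ y' : Fin 2 → B, y' 1 ∈ maximalIdeal B ∧
      ∀ l, (p : B) ^ n ∣ j ((T φ *ᵥ (T φ *ᵥ y) - t • (T φ *ᵥ y) + p • y) - y') l := by
  haveI := free_B (p := p) hpB
  let b := Module.Free.chooseBasis ℤ_[p] B
  haveI : Fintype (Module.Free.ChooseBasisIndex ℤ_[p] B) :=
    Module.Free.ChooseBasisIndex.fintype ℤ_[p] B
  have hpn : p ^ n ≠ 0 := pow_ne_zero n hp.out.ne_zero
  obtain ⟨K, hK1, hK2, hK3⟩ := exists_K hp2 hpn hA hpN (latKum N hpn)
  have hf : (padicTo p (maximalIdeal B) hpB) = algebraMap ℤ_[p] B :=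
    RingHom.ext (padicTo_eq hpB)
  let J : (Fin 2 → B) →+ (Module.Free.ChooseBasisIndex ℤ_[p] B →
      Fin (Module.finrank ℤ (Lat N)) → ZMod (p ^ n)) := (Cn b n).comp j.toAddMonoidHom
  have hJ : ∀ v, J v = Cn b n (j v) := fun v => rfl
  have hJρ : ∀ g v i, J (T g *ᵥ v) i = latRep N hpn g (J v i) := by
    intro g v i
    have h2 : Cn b n (j (T g *ᵥ v)) i =
        (PadicInt.toZModPow n).mapMatrix ((DN N p).ρ g) *ᵥ Cn b n (j v) i := by
      rw [← hj, hf, Cn_mulVec]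
    have h1 : (PadicInt.toZModPow n).mapMatrix ((DN N p).ρ g) = (KQ N).M (bL N) hpn g :=
      (KQ N).rho_spec (bL N) p g n
    rw [h1] at h2
    exact h2
  have hJt : ∀ v i, J (t • v) i =
      (Int.castRingHom (ZMod (p ^ n))).mapMatrix (KSys.tm (bL N) (LTot N p)) *ᵥ (J v i) := by
    intro v i
    have h2 : Cn b n (j (t • v)) i =
        (PadicInt.toZModPow n).mapMatrix (castHom (DN N p).r ℤ_[p] ((DN N p).T p)) *ᵥ
          Cn b n (j v) i := by
      rw [← ht, ← map_castHom' (algebraMap ℤ_[p] B), Cn_mulVec]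
    have h1 : (PadicInt.toZModPow n).mapMatrix (castHom (DN N p).r ℤ_[p] ((DN N p).T p)) =
        (Int.castRingHom (ZMod (p ^ n))).mapMatrix (KSys.tm (bL N) (LTot N p)) := by
      exact KSys.map_castHom n (KSys.tm (bL N) (LTot N p))
    rw [h1] at h2
    exact h2
  let M₀ : AddSubgroup (Fin 2 → B) :=
    { carrier := {y | ∀ i, J y i ∈ K}
      zero_mem' := fun i => by rw [map_zero]; exact K.zero_mem
      add_mem' := fun {a b} ha hb i => by
        rw [map_add]; exact K.add_mem (ha i) (hb i)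
      neg_mem' := fun {a} ha i => by
        rw [map_neg]; exact K.neg_mem (ha i) }
  let M₁ : AddSubgroup (Fin 2 → B) :=
    { carrier := {y | y 1 ∈ maximalIdeal B}
      zero_mem' := (maximalIdeal B).zero_mem
      add_mem' := fun {a b} ha hb => (maximalIdeal B).add_mem ha hb
      neg_mem' := fun {a} ha => by
        show (-a) 1 ∈ maximalIdeal B
        rw [Pi.neg_apply]
        exact (maximalIdeal B).neg_mem ha }
  have hT1 : ∀ σ ∈ A.inertiaSubgroupIn ℚ, ∀ y : Fin 2 → B,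
      (T σ *ᵥ y) 1 - y 1 ∈ maximalIdeal B := by
    intro σ hσ y
    rw [Matrix.mulVec, dotProduct, Fin.sum_univ_two]
    have e : T σ 1 0 * y 0 + T σ 1 1 * y 1 - y 1 = T σ 1 0 * y 0 + (T σ 1 1 - 1) * y 1 := by ring
    rw [e]
    exact Ideal.add_mem _ (Ideal.mul_mem_right _ _ (hI0 σ hσ))
      (Ideal.mul_mem_right _ _ (hI1 σ hσ))
  have key : M₀.map J ≤ M₁.map J := by
    refine conn_pi hK3 (I := (A.inertiaSubgroupIn ℚ : Set GQ)) ?_ ?_ ?_ ?_
    · rintro σ hσ _ ⟨y, hy, rfl⟩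
      refine ⟨T σ *ᵥ y, fun i => ?_, ?_⟩
      · rw [hJρ]
        have h1 := K.add_mem (hK2 σ hσ (J y i)) (hy i)
        rwa [sub_add_cancel] at h1
      · funext i
        exact hJρ σ y i
    · rintro _ ⟨y, hy, rfl⟩ i
      exact hy i
    · rintro _ ⟨y, hy, rfl⟩
      refine ⟨p • y, ?_, by rw [map_nsmul]⟩
      show (p • y) 1 ∈ maximalIdeal B
      rw [Pi.smul_apply, nsmul_eq_mul]
      exact Ideal.mul_mem_right _ _ hpB
    · rintro σ hσ _ ⟨y, hy, rfl⟩
      refine ⟨T σ *ᵥ y - y, hT1 σ hσ y, ?_⟩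
      rw [map_sub]
      funext i
      rw [Pi.sub_apply, hJρ]
  have hy₀ : (T φ *ᵥ (T φ *ᵥ y) - t • (T φ *ᵥ y) + p • y) ∈ M₀ := by
    intro i
    have h1 := hK1 _ (es_lat hA hpN hφ hpn (J y i))
    have h2 : J (T φ *ᵥ (T φ *ᵥ y) - t • (T φ *ᵥ y) + p • y) i =
        (latRep N hpn φ (latRep N hpn φ (J y i)) -
          (Int.castRingHom (ZMod (p ^ n))).mapMatrix (KSys.tm (bL N) (LTot N p)) *ᵥ
            (latRep N hpn φ (J y i)) + p • (J y i)) := by
      rw [map_add, map_sub, map_nsmul, Pi.add_apply, Pi.sub_apply, Pi.smul_apply, hJρ, hJt, hJρ]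
    rw [h2]
    exact h1
  obtain ⟨y', hy', he⟩ := key ⟨_, hy₀, rfl⟩
  refine ⟨y', hy', fun l => dvd_of_Cn b n ?_ l⟩
  rw [map_sub, map_sub, sub_eq_zero]
  exact he.symm

/-- **residually ordinary eigensystems**, in matrix form -/
theorem lgcu_core (hp2 : p ≠ 2) (hpN : ¬ p ∣ N) (hpS : p ∉ S) (hS : S.Finite)
    (hA : A.LiesOverPrime p) (hpB : (p : B) ∈ maximalIdeal B) (θ : heckeAlgebra N 2 S →+* B)
    {T : GQ →* Matrix (Fin 2) (Fin 2) B} (hT : MatCont T)
    (hspan : Submodule.span B (Set.range T) = ⊤)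
    (hπ : FrobCond (D := DN N p) (S := S) (θ.comp (HData.Phi S (hdata_link (esHyp N p)))) T)
    {φ : GQ} (hφ : A.IsFrobeniusAt φ p) (hD : T φ 1 0 ∈ maximalIdeal B)
    (hI0 : ∀ σ ∈ A.inertiaSubgroupIn ℚ, T σ 1 0 ∈ maximalIdeal B)
    (hI1 : ∀ σ ∈ A.inertiaSubgroupIn ℚ, T σ 1 1 - 1 ∈ maximalIdeal B) :
    IsUnit (θ (heckeAlgebra.T (Fact.out : p.Prime) hpN hpS)) := by
  obtain ⟨j, d, hd, hj, ht, hdiv⟩ := exists_emb hpN hpS hS hpB θ hT hspan hπ
  set t := θ (heckeAlgebra.T (Fact.out : p.Prime) hpN hpS) with htdef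
  by_contra htu
  have htm : t ∈ maximalIdeal B := (mem_maximalIdeal _).2 htu
  set x := T φ 1 1 with hx
  have hTy : ∀ y : Fin 2 → B, (T φ *ᵥ y) 1 = T φ 1 0 * y 0 + x * y 1 := by
    intro y
    rw [Matrix.mulVec, dotProduct, Fin.sum_univ_two]
  -- units
  have hxu : x ∉ maximalIdeal B := by
    intro hxm
    have h1 : T φ * T φ⁻¹ = 1 := by rw [← map_mul, mul_inv_cancel, map_one]
    have h2 : (T φ).det * (T φ⁻¹).det = 1 := by rw [← Matrix.det_mul, h1, Matrix.det_one]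
    have h3 : (T φ).det ∈ maximalIdeal B := by
      rw [Matrix.det_fin_two]
      exact Ideal.sub_mem _ (Ideal.mul_mem_left _ _ hxm) (Ideal.mul_mem_left _ _ hD)
    have h4 : (1 : B) ∈ maximalIdeal B := by
      rw [← h2]
      exact Ideal.mul_mem_right _ _ h3
    exact (maximalIdeal.isMaximal B).ne_top ((Ideal.eq_top_iff_one _).2 h4)
  let y : Fin 2 → B := Pi.single 1 1
  have hy1 : y 1 = 1 := Pi.single_eq_same _ _
  have hy00 : y 0 = 0 := Pi.single_eq_of_ne (by decide) _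
  have hz : ∃ m ∈ maximalIdeal B,
      (T φ *ᵥ (T φ *ᵥ y) - t • (T φ *ᵥ y) + p • y) 1 = x * x + m := by
    refine ⟨T φ 1 0 * (T φ *ᵥ y) 0 - t * x + p, ?_, ?_⟩
    · exact Ideal.add_mem _ (Ideal.sub_mem _ (Ideal.mul_mem_right _ _ hD)
        (Ideal.mul_mem_right _ _ htm)) hpB
    · rw [Pi.add_apply, Pi.sub_apply, Pi.smul_apply, Pi.smul_apply, hTy (T φ *ᵥ y), hTy y, hy1,
        hy00, smul_eq_mul, nsmul_eq_mul]
      ring
  obtain ⟨m, hm, hz⟩ := hz
  have key : ∀ n : ℕ, (p : B) ^ n ∣ d := by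
    intro n
    obtain ⟨y', hy', hdv⟩ := lgcu_fin hp2 hpN hA hpB hj ht hφ hI0 hI1 y n
    have h1 := hdiv ((p : B) ^ n) _ (pow_ne_zero n (Nat.cast_ne_zero.2 hp.out.ne_zero)) hdv
    rw [Pi.sub_apply, hz] at h1
    have hu : IsUnit (x * x + m - y' 1) := by
      by_contra hcon
      have h3 : x * x + m - y' 1 ∈ maximalIdeal B := (mem_maximalIdeal _).2 hcon
      have h4 : x * x ∈ maximalIdeal B := by
        have := Submodule.add_mem _ h3 (Submodule.sub_mem _ hy' hm)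
        have e : x * x + m - y' 1 + (y' 1 - m) = x * x := by ring
        rwa [e] at this
      rcases ((maximalIdeal.isMaximal B).isPrime.mem_or_mem h4) with h5 | h5
      · exact hxu h5
      · exact hxu h5
    exact (hu.dvd_mul_right).1 h1
  have h0 : d = 0 := by
    refine IsHausdorff.haus (inferInstance : IsHausdorff (maximalIdeal B) B) _ fun n => ?_
    rw [SModEq.zero, smul_eq_mul, Ideal.mul_top]
    obtain ⟨z, hz⟩ := key n
    rw [hz]
    exact Ideal.mul_mem_right _ _ (Ideal.pow_mem_pow hpB n)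
  exact hd h0

/-- trace and determinant conditions -/
theorem lgcu_mat (hp2 : p ≠ 2) (hpN : ¬ p ∣ N) (hpS : p ∉ S) (hS : S.Finite)
    (hpB : (p : B) ∈ maximalIdeal B) (θ : heckeAlgebra N 2 S →+* B)
    {T : GQ →* Matrix (Fin 2) (Fin 2) B} (hT : MatCont T)
    (hspan : Submodule.span B (Set.range T) = ⊤)
    (htr : ∀ (ℓ : ℕ) (hℓ : ℓ.Prime) (hℓN : ¬ ℓ ∣ N) (hℓS : ℓ ∉ S), ℓ ≠ p →
      ∀ A : ValuationSubring Qbar, A.LiesOverPrime ℓ → ∀ τ : GQ, A.IsFrobeniusAt τ ℓ →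
        (T τ).trace = θ (heckeAlgebra.T hℓ hℓN hℓS) ∧ (T τ).det = (ℓ : B))
    (hord : MOr False p (mapT (residue B) T)) :
    IsUnit (θ (heckeAlgebra.T (Fact.out : p.Prime) hpN hpS)) := by
  obtain ⟨A, hA, φ, hφ⟩ := Frob.exists_place_frobenius hp.out
  obtain ⟨Q, Q', hQ, hQ', hD, hI, -⟩ := hord A hA
  -- lift the matrix
  choose s hs using (residue_surjective (R := B))
  set C : Matrix (Fin 2) (Fin 2) B := Q.map s with hC
  have hCres : C.map (residue B) = Q := by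
    ext i j
    exact hs _
  have hdet : IsUnit C.det := by
    by_contra hcon
    have h1 : residue B C.det = 0 := (residue_eq_zero_iff _).2 ((mem_maximalIdeal _).2 hcon)
    have h2 : residue B C.det = Q.det := by
      rw [← hCres]
      exact RingHom.map_det (residue B) C
    have h3 : Q.det * Q'.det = 1 := by rw [← Matrix.det_mul, hQ, Matrix.det_one]
    rw [← h2, h1, zero_mul] at h3
    exact zero_ne_one h3
  have hCi1 : C⁻¹ * C = 1 := Matrix.nonsing_inv_mul C hdet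
  have hCi2 : C * C⁻¹ = 1 := Matrix.mul_nonsing_inv C hdet
  have hCires : (C⁻¹).map (residue B) = Q' := by
    have h1 : (C⁻¹).map (residue B) * Q = 1 := by
      rw [← hCres, ← Matrix.map_mul, hCi1]
      exact Matrix.map_one _ (map_zero _) (map_one _)
    calc (C⁻¹).map (residue B) = (C⁻¹).map (residue B) * (Q * Q') := by rw [hQ, mul_one]
      _ = Q' := by rw [← mul_assoc, h1, one_mul]
  let T' : GQ →* Matrix (Fin 2) (Fin 2) B :=
    { toFun := fun σ => C⁻¹ * T σ * C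
      map_one' := by rw [map_one, mul_one, hCi1]
      map_mul' := fun σ τ => by
        rw [map_mul]
        calc C⁻¹ * (T σ * T τ) * C = C⁻¹ * T σ * (1 : Matrix _ _ B) * T τ * C := by
              rw [mul_one]; simp only [mul_assoc]
          _ = C⁻¹ * T σ * (C * C⁻¹) * T τ * C := by rw [hCi2]
          _ = _ := by simp only [mul_assoc] }
  have hT'def : ∀ σ, T' σ = C⁻¹ * T σ * C := fun σ => rfl
  have hT'c : MatCont T' := hT.conj C C⁻¹ hCi1 hT'def
  have hres : ∀ σ i j, residue B (T' σ i j) = (Q' * mapT (residue B) T σ * Q) i j := by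
    intro σ i j
    have h1 : (T' σ).map (residue B) = Q' * mapT (residue B) T σ * Q := by
      rw [hT'def, Matrix.map_mul, Matrix.map_mul, hCres, hCires]
      rfl
    rw [← h1]
    rfl
  have htrace : ∀ σ, (T' σ).trace = (T σ).trace := fun σ => by
    rw [hT'def, Matrix.trace_mul_comm, ← mul_assoc, hCi2, one_mul]
  have hdet' : ∀ σ, (T' σ).det = (T σ).det := fun σ => det_conj hCi1
  have hspan' : Submodule.span B (Set.range T') = ⊤ := by
    rw [eq_top_iff]
    intro X _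
    let ψ : Matrix (Fin 2) (Fin 2) B →ₗ[B] Matrix (Fin 2) (Fin 2) B :=
      (LinearMap.mulRight B C).comp (LinearMap.mulLeft B C⁻¹)
    have h1 : C * X * C⁻¹ ∈ Submodule.span B (Set.range T) := by rw [hspan]; trivial
    have h2 : ψ (C * X * C⁻¹) ∈ (Submodule.span B (Set.range T)).map ψ :=
      Submodule.mem_map_of_mem h1
    have h3 : ψ (C * X * C⁻¹) = X := by
      show C⁻¹ * (C * X * C⁻¹) * C = X
      calc C⁻¹ * (C * X * C⁻¹) * C = (C⁻¹ * C) * X * (C⁻¹ * C) := by simp only [mul_assoc]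
        _ = X := by rw [hCi1, one_mul, mul_one]
    rw [h3, Submodule.map_span] at h2
    refine Submodule.span_mono ?_ h2
    rintro _ ⟨_, ⟨σ, rfl⟩, rfl⟩
    exact ⟨σ, rfl⟩
  have hπ : FrobCond (D := DN N p) (S := S) (θ.comp (HData.Phi S (hdata_link (esHyp N p)))) T' := by
    intro ℓ hℓ hℓN hℓS A hA τ hτ
    have hℓN' : ¬ ℓ ∣ N := fun h => hℓN (h.mul_right p)
    have hℓp : ℓ ≠ p := fun h => hℓN (h ▸ dvd_mul_left ℓ N)
    rw [RingHom.comp_apply, HData.Phi_T _ (hdata_link (esHyp N p)) hℓ hℓN hℓS, htrace, hdet']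
    exact htr ℓ hℓ hℓN' hℓS hℓp A hA τ hτ
  refine lgcu_core hp2 hpN hpS hS hA hpB θ hT'c hspan' hπ hφ ?_ ?_ ?_
  · rw [← residue_eq_zero_iff, hres]
    exact hD φ hφ.mem_decompositionSubgroup
  · intro σ hσ
    have hσD : σ ∈ A.decompositionSubgroup ℚ := by
      obtain ⟨τ, -, rfl⟩ := hσ
      exact τ.2
    rw [← residue_eq_zero_iff, hres]
    exact hD σ hσD
  · intro σ hσ
    rw [← residue_eq_zero_iff, map_sub, map_one, hres, sub_eq_zero]
    exact hI σ hσ

end Core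

end Fermat.Agent.RT.Lgcp

namespace Fermat.Agent.RT

open Fermat.Agent.DefRing IsLocalRing Matrix Fermat.Agent.GalRep Polynomial TensorProduct

local notation "Qbar" => AlgebraicClosure ℚ
local notation "GQ" => (AlgebraicClosure ℚ ≃ₐ[ℚ] AlgebraicClosure ℚ)

/-- matrices of the residual representation -/
theorem repMat_residual {O : Type} [CommRing O] [IsLocalRing O] (ρ : GaloisRepAdic O)
    (b : Module.Basis (Fin 2) O ρ.V) {X : ResidualGaloisRep (ResidueField O)}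
    (h : ρ.residual.IsEquiv X) : ∃ b' : Module.Basis (Fin 2) (ResidueField O) X.V,
      repMat (GaloisRepAdic.ofResidualGaloisRep X) b' = mapT (residue O) (repMat ρ b) := by
  obtain ⟨e⟩ := h
  let b1 : Module.Basis (Fin 2) (ResidueField O) (ResidueField O ⊗[O] ρ.V) :=
    b.baseChange (ResidueField O)
  let b2 : Module.Basis (Fin 2) (ResidueField O) X.V := b1.map e.toLinearEquiv
  refine ⟨b2, ?_⟩
  apply MonoidHom.ext
  intro σ
  ext i j
  change (LinearMap.toMatrix b2 b2 (X.ρ σ)) i j = residue O (LinearMap.toMatrix b b (ρ.ρ σ) i j)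
  rw [LinearMap.toMatrix_apply, LinearMap.toMatrix_apply]
  have h1 : b2 j = e.toLinearEquiv (b1 j) := Module.Basis.map_apply _ _ _
  have h2 : X.ρ σ (b2 j) =
      e.toLinearEquiv (ρ.residual.ρ σ (b1 j)) := by
    rw [h1]
    exact (e.map_apply σ (b1 j)).symm
  have h3 : ρ.residual.ρ σ (b1 j) = ∑ l, residue O (b.repr (ρ.ρ σ (b j)) l) • b1 l := by
    change (ρ.ρ σ).baseChange (ResidueField O) (b1 j) = _
    rw [Module.Basis.baseChange_apply, LinearMap.baseChange_tmul]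
    conv_lhs => rw [← b.sum_repr (ρ.ρ σ (b j))]
    rw [TensorProduct.tmul_sum]
    refine Finset.sum_congr rfl fun l _ => ?_
    rw [Module.Basis.baseChange_apply, TensorProduct.tmul_smul, TensorProduct.smul_tmul',
      TensorProduct.smul_tmul', Algebra.smul_def, smul_eq_mul]
    rfl
  rw [h2]
  have h4 : b2.repr (e.toLinearEquiv (ρ.residual.ρ σ (b1 j))) = b1.repr (ρ.residual.ρ σ (b1 j)) := by
    show b1.repr (e.toLinearEquiv.symm (e.toLinearEquiv (ρ.residual.ρ σ (b1 j)))) = _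
    rw [LinearEquiv.symm_apply_apply]
  rw [h4, h3, map_sum, Finsupp.finsetSum_apply, Finset.sum_eq_single i]
  · rw [map_smul, Finsupp.smul_apply, b1.repr_self, Finsupp.single_eq_same, smul_eq_mul, mul_one]
  · intro l _ hl
    rw [map_smul, Finsupp.smul_apply, b1.repr_self, Finsupp.single_eq_of_ne (Ne.symm hl), smul_zero]
  · intro h
    exact absurd (Finset.mem_univ i) h

/-- **(LGCu)**: in the residually ordinary case, `θ(T_p)` is a unit. -/
theorem lgcu (p : ℕ) [hpf : Fact p.Prime] (N : ℕ) [NeZero N] (S : Set ℕ)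
    (hpN : ¬ p ∣ N) (hpS : p ∉ S) (hp2 : p ≠ 2) (hS : S.Finite)
    {O : Type} [CommRing O] [IsDomain O] [IsDiscreteValuationRing O]
    [IsAdicComplete (IsLocalRing.maximalIdeal O) O] [CharZero O]
    [Algebra ℤ_[p] O] [Module.Finite ℤ_[p] O]
    (hpO : (p : O) ∈ IsLocalRing.maximalIdeal O)
    (θ : CuspForm.heckeAlgebra N 2 S →+* O) (ρ : GaloisRepAdic O)
    (habs : ρ.residual.IsAbsolutelyIrreducible)
    (hfr : ∀ (ℓ : ℕ) (hℓ : ℓ.Prime) (hℓN : ¬ ℓ ∣ N) (hℓS : ℓ ∉ S), ℓ ≠ p →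
      ∀ A : ValuationSubring (AlgebraicClosure ℚ), A.LiesOverPrime ℓ →
        ∀ σ : AlgebraicClosure ℚ ≃ₐ[ℚ] AlgebraicClosure ℚ, A.IsFrobeniusAt σ ℓ →
          LinearMap.charpoly (ρ.ρ σ) =
            X ^ 2 - C (θ (CuspForm.heckeAlgebra.T hℓ hℓN hℓS)) * X + C ((ℓ : O)))
    {Y : ResidualGaloisRep (ResidueField O)} (heq : ρ.residual.IsEquiv Y)
    (hord : (GaloisRepAdic.ofResidualGaloisRep Y).IsOrdinaryAt p) :
    IsUnit (θ (CuspForm.heckeAlgebra.T (Fact.out : p.Prime) hpN hpS)) := by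
  let b : Module.Basis (Fin 2) O ρ.V := Module.finBasisOfFinrankEq O ρ.V ρ.finrank_eq
  obtain ⟨b', hb'⟩ := repMat_residual ρ b heq
  refine Lgcp.lgcu_mat hp2 hpN hpS hS hpO θ (repMat_matCont ρ b) (repMat_span ρ b habs) ?_ ?_
  · intro ℓ hℓ hℓN hℓS hℓp A hA τ hτ
    have h1 := hfr ℓ hℓ hℓN hℓS hℓp A hA τ hτ
    have h2 : (repMat ρ b τ).charpoly =
        X ^ 2 - C (θ (CuspForm.heckeAlgebra.T hℓ hℓN hℓS)) * X + C ((ℓ : O)) := by
      rw [repMat_apply, LinearMap.charpoly_toMatrix, h1]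
    rw [Matrix.charpoly_fin_two] at h2
    constructor
    · have h3 := congrArg (fun P => P.coeff 1) h2
      simp only [coeff_add, coeff_sub, coeff_X_pow, coeff_C_mul, coeff_X_one, mul_one,
        coeff_C_succ, add_zero, if_neg (by norm_num : ¬ (1 : ℕ) = 2), zero_sub, neg_inj] at h3
      exact h3
    · have h3 := congrArg (fun P => P.coeff 0) h2
      simp only [coeff_add, coeff_sub, coeff_X_pow, coeff_C_mul, coeff_X_zero, mul_zero,
        coeff_C_zero, sub_zero, zero_add] at h3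
      simpa using h3
  · have h5 := (ordN_iff (p := p) (GaloisRepAdic.ofResidualGaloisRep Y) b').1 hord
    rw [hb'] at h5
    exact h5

end Fermat.Agent.RT
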