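import Fermat.Agent.RT.Tate3
import Fermat.Agent.TW56.Tan

/-!
# The Tate module of an elliptic curve: assembly
-/

set_option autoImplicit false
set_option linter.style.haveILetI false

noncomputable section

namespace Fermat.Agent.RT.Tate

open IsLocalRing Polynomial Fermat.Agent.S43Glue Fermat.Agent.S58X Fermat.Agent.GalRep
  Fermat.Agent.DefRing Fermat.Agent.TWGal Fermat.Agent.TW56
open WeierstrassCurve WeierstrassCurve.Affine WeierstrassCurve.Affine.Point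

local notation "Qbar" => AlgebraicClosure ℚ
local notation "GQ" => Qbar ≃ₐ[ℚ] Qbar

variable {W : WeierstrassCurve ℤ} {p : ℕ} [hp : Fact p.Prime]

/-- flatness from the finite levels -/
theorem mflat_of_levels (B : Bases W p)
    (h : ∀ n, FlatLoc.IsFlatMod (FlatLoc.Zloc p) (vecRep (B.Mn n))) : MFlat p B.T := by
  intro I hI hI'
  -- `p ^ n ∈ I`
  obtain ⟨n, hn⟩ : ∃ n : ℕ, ((p : ℤ_[p]) ^ n) ∈ I := by
    have h1 : I ≠ ⊥ := by
      rintro rfl
      have : Finite ℤ_[p] := Finite.of_injective (Ideal.Quotient.mk (⊥ : Ideal ℤ_[p])) (by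
        rw [RingHom.injective_iff_ker_eq_bot, Ideal.mk_ker])
      exact not_finite ℤ_[p]
    obtain ⟨n, hn⟩ := PadicInt.ideal_eq_span_pow_p h1
    exact ⟨n, hn ▸ Ideal.mem_span_singleton_self _⟩
  have hker : RingHom.ker (PadicInt.toZModPow (p := p) n) ≤ RingHom.ker (Ideal.Quotient.mk I) := by
    rw [PadicInt.ker_toZModPow, Ideal.mk_ker, Ideal.span_singleton_le_iff_mem]
    exact hn
  have hsurj : Function.Surjective (PadicInt.toZModPow (p := p) n) :=
    ZMod.ringHom_surjective _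
  let g : ZMod (p ^ n) →+* ℤ_[p] ⧸ I :=
    RingHom.liftOfSurjective (PadicInt.toZModPow (p := p) n) hsurj ⟨Ideal.Quotient.mk I, hker⟩
  have hg : ∀ x, g (PadicInt.toZModPow n x) = Ideal.Quotient.mk I x := fun x =>
    RingHom.liftOfRightInverse_comp_apply _ _ _ ⟨Ideal.Quotient.mk I, hker⟩ x
  have hgs : Function.Surjective g := by
    intro y
    obtain ⟨x, rfl⟩ := Ideal.Quotient.mk_surjective y
    exact ⟨_, hg x⟩
  haveI : NeZero (p ^ n) := ⟨pow_ne_zero n hp.out.ne_zero⟩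
  refine (h n).quotient (FlatLoc.isBase_Zloc hp.out)
    (AddMonoidHom.mk' (fun v => fun i => g (v i)) fun v w => by
      funext i
      exact map_add g _ _) ?_ ?_
  · intro w
    choose v hv using fun i => hgs (w i)
    exact ⟨v, funext hv⟩
  · intro σ v
    funext i
    change g (((B.Mn n σ).mulVec v) i) =
      ((mapT (Ideal.Quotient.mk I) B.T σ).mulVec (fun i => g (v i))) i
    rw [Matrix.mulVec, Matrix.mulVec, dotProduct, dotProduct, map_sum]
    refine Finset.sum_congr rfl fun j _ => ?_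
    rw [map_mul, mapT_apply, ← hg, B.T_apply]

theorem padicTo_int {R : Type} [CommRing R] {I : Ideal R} [IsAdicComplete I R]
    (hpR : (p : R) ∈ I) (x : ℤ_[p]) (n : ℕ) (c : ℤ)
    (h : PadicInt.toZModPow n x = (c : ZMod (p ^ n))) :
    padicTo p I hpR x - c ∈ I ^ n := by
  rw [← Ideal.Quotient.eq_zero_iff_mem, map_sub, mk_padicTo, h, map_intCast, map_intCast, sub_self]

theorem cont_T (B : Bases W p) (hΔ : W.Δ ≠ 0) {R : Type} [CommRing R] [IsLocalRing R]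
    [IsAdicComplete (maximalIdeal R) R] (hpR : (p : R) ∈ maximalIdeal R) :
    MatCont (mapT (padicTo p (maximalIdeal R) hpR) B.T) := by
  intro n
  obtain ⟨L, hL, h⟩ := finite_level hΔ (pow_ne_zero n hp.out.ne_zero)
  refine ⟨L, hL, fun σ hσ i j => ?_⟩
  rw [mapT_apply]
  have h1 := padicTo_int hpR (B.T σ i j) n ((1 : Matrix (Fin 2) (Fin 2) ℤ) i j) (by
    rw [B.T_apply, B.Mn_one n (fun P hP => h σ hσ P hP), Matrix.one_apply, Matrix.one_apply]
    split_ifs <;> simp)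
  have h2 : (((1 : Matrix (Fin 2) (Fin 2) ℤ) i j : ℤ) : R) = (1 : Matrix (Fin 2) (Fin 2) R) i j := by
    rw [Matrix.one_apply, Matrix.one_apply]
    split_ifs <;> simp
  rwa [h2] at h1

/-- the determinant is cyclotomic -/
theorem mdet_T (B : Bases W p) (hΔ : W.Δ ≠ 0) (hirr : W.ModRepIsIrreducible p) :
    MDet p B.T := by
  intro n σ a ha
  rw [(trace_det B hΔ hirr σ).2]
  obtain ⟨ζ, hζ⟩ := HasEnoughRootsOfUnity.exists_primitiveRoot Qbar (p ^ n)
  have h1 := toZModPow_cycP_eq p σ hζ (ha ζ hζ.pow_eq_one)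
  have h2 : cycP p σ - (a : ℤ_[p]) ∈ RingHom.ker (PadicInt.toZModPow (p := p) n) := by
    rw [RingHom.mem_ker, map_sub, h1, map_natCast, sub_self]
  rw [PadicInt.ker_toZModPow] at h2
  rwa [Nat.cast_pow]

/-- **assembly** -/
theorem tate_of (hp2 : p ≠ 2) (hΔ : W.Δ ≠ 0) (hss : W.IsSemistableModel)
    (hirr : W.ModRepIsIrreducible p) (B : Bases W p)
    (hflat : W.IsGoodPrimeFor p → MFlat p B.T) (hord : ¬ W.IsGoodPrimeFor p → MOrd p B.T)
    (𝒪 : Type) [CommRing 𝒪] [IsDomain 𝒪] [IsDiscreteValuationRing 𝒪]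
    [IsAdicComplete (maximalIdeal 𝒪) 𝒪] [Finite (ResidueField 𝒪)] [CharZero 𝒪]
    (hp𝒪 : (p : 𝒪) ∈ maximalIdeal 𝒪) :
    ∃ ρ : GaloisRepAdic 𝒪,
      (∀ ℓ : ℕ, ℓ.Prime → W.IsGoodPrimeFor ℓ → ℓ ≠ p →
        ∀ A : ValuationSubring (AlgebraicClosure ℚ), A.LiesOverPrime ℓ →
          ∀ σ : AlgebraicClosure ℚ ≃ₐ[ℚ] AlgebraicClosure ℚ, A.IsFrobeniusAt σ ℓ →
            LinearMap.charpoly (ρ.ρ σ) =
              X ^ 2 - C ((W.apOfModel ℓ : ℤ) : 𝒪) * X + C ((ℓ : 𝒪))) ∧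
      ρ.DetIsCyclotomic p ∧
      (∀ q : ℕ, q.Prime → q ≠ p → W.IsGoodPrimeFor q → ρ.IsUnramifiedAt q) ∧
      (∀ q : ℕ, q.Prime → q ≠ p → ρ.IsUnipotentOnInertiaAt q) ∧
      (W.IsGoodPrimeFor p → ρ.IsFlatAt p) ∧
      (¬ W.IsGoodPrimeFor p → ρ.IsStrictOrdinaryAt p) ∧
      ∃ (b : Module.Basis (Fin 2) (ZMod p) (Tor (W.map (Int.castRingHom ℚ)) p))
        (c : Module.Basis (Fin 2) 𝒪 ρ.V) (f : ZMod p →+* ResidueField 𝒪),
        ∀ (σ : AlgebraicClosure ℚ ≃ₐ[ℚ] AlgebraicClosure ℚ) (i j : Fin 2),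
          residue 𝒪 (LinearMap.toMatrix c c (ρ.ρ σ) i j) = f (curveRep b σ i j) := by
  set φ := padicTo p (maximalIdeal 𝒪) hp𝒪 with hφ
  have hcont := cont_T B hΔ hp𝒪
  obtain ⟨c, hc⟩ := exists_basis_matRep (mapT φ B.T) hcont
  have htr : ∀ σ, (mapT φ B.T σ).trace = φ (B.T σ).trace := fun σ =>
    (AddMonoidHom.map_trace φ.toAddMonoidHom _).symm
  have hdt : ∀ σ, (mapT φ B.T σ).det = φ (B.T σ).det := fun σ => (φ.map_det _).symm
  refine ⟨matRep (mapT φ B.T) hcont, ?_, ?_, ?_, ?_, ?_, ?_, B.b, c, ?_⟩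
  · intro ℓ hℓ hW hℓp A hA σ hσ
    obtain ⟨h1, h2⟩ := trace_frob B hΔ hirr hℓ hW hℓp hA hσ
    rw [charpoly_matRep, htr, hdt, h1, h2, map_intCast, map_natCast]
  · exact (detCyc_iff _ c).mpr ⟨hp𝒪, by rw [hc]; exact (mdet_T B hΔ hirr).map φ⟩
  · intro q hq hqp hW
    refine (unr_iff _ c).mpr fun A hA σ hσ => ?_
    rw [hc]
    change φ.mapMatrix (B.T σ) = 1
    rw [T_inertia B hq hqp hW hA hσ, map_one]
  · intro q hq hqp
    refine (uni_iff _ c).mpr fun A hA σ hσ => ?_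
    obtain ⟨h1, h2⟩ := trace_inertia hp2 B hΔ hss hirr hq hqp hA hσ
    rw [hc, htr, hdt, h1, h2, map_ofNat, map_one]
    exact ⟨rfl, rfl⟩
  · intro hW
    refine (flatAt_iff _ c).mpr ⟨inferInstance, ?_⟩
    rw [hc]
    intro I hI hI'
    haveI : Nontrivial (𝒪 ⧸ I) := Ideal.Quotient.nontrivial_iff.mpr hI'
    exact (hflat hW).flat ((Ideal.Quotient.mk I).comp φ)
  · intro hW
    exact (ord_iff _ c).mpr ⟨hp𝒪, by rw [hc]; exact (hord hW).map φ⟩
  · have hpk : ((p : ℕ) : ResidueField 𝒪) = 0 := by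
      rw [← map_natCast (residue 𝒪), residue_eq_zero_iff]
      exact hp𝒪
    haveI : CharP (ResidueField 𝒪) p :=
      (CharP.charP_iff_prime_eq_zero hp.out).mpr hpk
    refine ⟨ZMod.castHom dvd_rfl (ResidueField 𝒪), fun σ i j => ?_⟩
    have h1 : LinearMap.toMatrix c c ((matRep (mapT φ B.T) hcont).ρ σ) i j = φ (B.T σ i j) := by
      have := congrFun (congrFun (DFunLike.congr_fun hc σ) i) j
      exact this
    rw [h1, ← toZMod_T]
    obtain ⟨a, ha⟩ := ZMod.intCast_surjective (PadicInt.toZMod (B.T σ i j))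
    have h2 : PadicInt.toZModPow 1 (B.T σ i j) = (a : ZMod (p ^ 1)) := by
      have h3 : B.T σ i j - (a : ℤ_[p]) ∈ RingHom.ker (PadicInt.toZMod (p := p)) := by
        rw [RingHom.mem_ker, map_sub, map_intCast, ha, sub_self]
      rw [PadicInt.ker_toZMod, PadicInt.maximalIdeal_eq_span_p, ← pow_one (p : ℤ_[p]),
        ← PadicInt.ker_toZModPow, RingHom.mem_ker, map_sub, sub_eq_zero, map_intCast] at h3
      exact h3
    have h4 := padicTo_int hp𝒪 (B.T σ i j) 1 a h2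
    rw [pow_one, ← residue_eq_zero_iff, map_sub, sub_eq_zero, map_intCast] at h4
    rw [h4, ← ha, map_intCast]

end Fermat.Agent.RT.Tate
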