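import Fermat.Agent.RT.LowSt
import Fermat.Agent.RT.HTW2
import Fermat.Agent.RT.Tate4
import Fermat.Agent.S43Glue.Classical

/-!
# The residual representation of `W`
-/

set_option autoImplicit false
set_option maxHeartbeats 400000
set_option linter.style.haveILetI false

noncomputable section

namespace Fermat.Agent.RT.Tate

open IsLocalRing Fermat.Agent.S43Glue Fermat.Agent.GalRep Fermat.Agent.DefRing Fermat.Agent.TWG
  Fermat.Agent.TW56 Fermat.Agent.S58X
open WeierstrassCurve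

local notation "Qbar" => AlgebraicClosure ℚ

variable {W : WeierstrassCurve ℤ} {p : ℕ} [hp : Fact p.Prime]

theorem curve_eq (B : Bases W p) (σ : GQ) :
    curveRep B.b σ = (PadicInt.toZMod (p := p)).mapMatrix (B.T σ) := by
  ext i j
  exact (toZMod_T B σ i j).symm

theorem curve_trace (B : Bases W p) (σ : GQ) :
    (curveRep B.b σ).trace = PadicInt.toZMod (B.T σ).trace := by
  rw [curve_eq, Matrix.trace_fin_two, Matrix.trace_fin_two, map_add]
  rfl

theorem curve_det (B : Bases W p) (σ : GQ) :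
    (curveRep B.b σ).det = PadicInt.toZMod (B.T σ).det := by
  rw [curve_eq, RingHom.map_det]

theorem curve_det' (B : Bases W p) (hΔ : W.Δ ≠ 0) (hirr : W.ModRepIsIrreducible p) (σ : GQ) :
    (curveRep B.b σ).det = chiK p (ZMod p) σ := by
  rw [curve_det, (trace_det B hΔ hirr σ).2, chiK_apply]
  rw [show ZMod.castHom (dvd_refl p) (ZMod p) = RingHom.id _ from RingHom.ext_zmod _ _]
  rfl

theorem curve_frob (B : Bases W p) (hΔ : W.Δ ≠ 0) (hirr : W.ModRepIsIrreducible p) {ℓ : ℕ}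
    (hℓ : ℓ.Prime) (hW : W.IsGoodPrimeFor ℓ) (hℓp : ℓ ≠ p) {A : ValuationSubring Qbar}
    (hA : A.LiesOverPrime ℓ) {τ : GQ} (hτ : A.IsFrobeniusAt τ ℓ) :
    (curveRep B.b τ).trace = ((W.apOfModel ℓ : ℤ) : ZMod p) := by
  rw [curve_trace, (trace_frob B hΔ hirr hℓ hW hℓp hA hτ).1, map_intCast]

theorem curve_unip (hp2 : p ≠ 2) (B : Bases W p) (hΔ : W.Δ ≠ 0)
    (hss : W.IsSemistableModel) (hirr : W.ModRepIsIrreducible p) {q : ℕ} (hq : q.Prime)
    (hqp : q ≠ p) {A : ValuationSubring Qbar}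
    (hA : A.LiesOverPrime q) {σ : GQ} (hσ : σ ∈ A.inertiaSubgroupIn ℚ) :
    (curveRep B.b σ - 1) * (curveRep B.b σ - 1) = 0 := by
  obtain ⟨h1, h2⟩ := trace_inertia hp2 B hΔ hss hirr hq hqp hA hσ
  have h3 := cayley (curveRep B.b σ)
  rw [curve_trace, curve_det, h1, h2, map_ofNat, map_one, one_smul, two_smul] at h3
  rw [sub_mul, mul_sub, one_mul, mul_one, ← h3]
  abel

/-- the residual representation -/
def resW (B : Bases W p) (hΔ : W.Δ ≠ 0) : ResidualGaloisRep (ZMod p) :=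
  matResRep (curveRep B.b) (curveRep_finLevel B.b (ΔQ_ne hΔ))

theorem goodRes (hp2 : p ≠ 2) (B : Bases W p) (hΔ : W.Δ ≠ 0)
    (hss : W.IsSemistableModel) (hirr : W.ModRepIsIrreducible p) : GoodRes p (resW B hΔ) where
  irr := by
    intro V hV
    exact irred_of_irreducible B.b hirr V fun σ x hx => hV σ x hx
  det σ := by
    change LinearMap.det (Matrix.toLin' (curveRep B.b σ)) = _
    rw [LinearMap.det_toLin', curve_det' B hΔ hirr]
  uni q hq hqp A hA σ hσ := by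
    have h1 := curve_unip hp2 B hΔ hss hirr hq hqp hA hσ
    have h3 : (Matrix.toLin' (curveRep B.b σ) : Module.End (ZMod p) (Fin 2 → ZMod p)) - 1 =
        Matrix.toLin' (curveRep B.b σ - 1) := by
      rw [map_sub, Matrix.toLin'_one]
      rfl
    have h4 : ((Matrix.toLin' (curveRep B.b σ) : Module.End (ZMod p) (Fin 2 → ZMod p)) - 1) *
        ((Matrix.toLin' (curveRep B.b σ) : Module.End (ZMod p) (Fin 2 → ZMod p)) - 1) = 0 := by
      rw [h3]
      have h5 := Matrix.toLin'_mul (curveRep B.b σ - 1) (curveRep B.b σ - 1)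
      rw [h1, map_zero] at h5
      exact h5.symm
    exact h4

/-- spans over subgroups of index at most two -/
theorem span_index (hp35 : p = 3 ∨ p = 5) (B : Bases W p) (hΔ : W.Δ ≠ 0)
    (hss : W.IsSemistableModel) (hirr : W.ModRepIsIrreducible p) (G : Subgroup GQ)
    (hG : G.index = 1 ∨ G.index = 2) :
    Submodule.span (ZMod p) (curveRep B.b '' (G : Set GQ)) = ⊤ := by
  have hp2 : p ≠ 2 := by rcases hp35 with rfl | rfl <;> norm_num
  have h₀ := goodRes hp2 B hΔ hss hirr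
  let φ : ZMod p →+* ZMod p := RingHom.id (ZMod p)
  let ρ1 : ResidualGaloisRep (ZMod p) := (resW B hΔ).baseChangeAlong φ
  have hb : ∃ b' : Module.Basis (Fin 2) (ZMod p) ρ1.V, ∀ σ, resMatHom ρ1 b' σ = curveRep B.b σ := by
    letI : Algebra (ZMod p) (ZMod p) := φ.toAlgebra
    let b : Module.Basis (Fin 2) (ZMod p) (resW B hΔ).V := Pi.basisFun (ZMod p) (Fin 2)
    refine ⟨Algebra.TensorProduct.basis (ZMod p) b, fun σ => ?_⟩
    have h1 : LinearMap.toMatrix b b ((resW B hΔ).ρ σ) = curveRep B.b σ :=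
      LinearMap.toMatrix'_toLin' (curveRep B.b σ)
    refine (LinearMap.toMatrix_baseChange (ZMod p) ((resW B hΔ).ρ σ) b b).trans ?_
    rw [h1]
    ext i j
    rfl
  obtain ⟨b', hb'⟩ := hb
  have hall : ∀ V : Submodule (AlgebraicClosure (ZMod p))
      (ρ1.baseChange (AlgebraicClosure (ZMod p))).V,
      (∀ σ ∈ G, ∀ x ∈ V, (ρ1.baseChange (AlgebraicClosure (ZMod p))).ρ σ x ∈ V) →
        V = ⊥ ∨ V = ⊤ := by
    intro V hV
    rcases hG with hG | hG
    · refine absIrr_along h₀ φ hp2 V fun σ x hx => hV σ ?_ x hx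
      rw [Subgroup.index_eq_one.mp hG]
      trivial
    · exact hTW_along h₀ φ hp35 (AlgebraicClosure (ZMod p)) G hG V hV
  have h1 := span_of ρ1 b' G hall
  have h2 : (fun σ => resMatHom ρ1 b' σ) = fun σ => curveRep B.b σ := funext hb'
  have h3 : resMatHom ρ1 b' '' (G : Set GQ) = curveRep B.b '' (G : Set GQ) := by
    change (fun σ => resMatHom ρ1 b' σ) '' (G : Set GQ) = (fun σ => curveRep B.b σ) '' (G : Set GQ)
    rw [h2]
  rwa [h3] at h1

/-- **the residual representation of `W`** -/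
theorem ssRep (hp35 : p = 3 ∨ p = 5) (B : Bases W p) (hΔ : W.Δ ≠ 0)
    (hss : W.IsSemistableModel) (hirr : W.ModRepIsIrreducible p) : SSRep p (curveRep B.b) where
  level := curveRep_finLevel B.b (ΔQ_ne hΔ)
  det g := curve_det' B hΔ hirr g
  span G hG := span_index hp35 B hΔ hss hirr G hG
  unip q hq hqp A hA σ hσ := curve_unip (by rcases hp35 with rfl | rfl <;> norm_num) B hΔ hss hirr
    hq hqp hA hσ

/-- the condition at `p` -/
theorem atp_curve (B : Bases W p)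
    (hflat : W.IsGoodPrimeFor p → MFlat p B.T) (hord : ¬ W.IsGoodPrimeFor p → MOrd p B.T) :
    FlatRes p (curveRep B.b) ∨ MOrd p (curveRep B.b) := by
  have e : mapT (PadicInt.toZMod (p := p)) B.T = curveRep B.b :=
    MonoidHom.ext fun σ => (curve_eq B σ).symm
  by_cases h : W.IsGoodPrimeFor p
  · left
    have h1 := (hflat h).flat (PadicInt.toZMod (p := p))
    rw [e] at h1
    exact h1
  · right
    have h1 := (hord h).map (f := PadicInt.toZMod (p := p))
    rwa [e] at h1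

/-- the finite set of bad primes -/
def badW (W : WeierstrassCurve ℤ) (p M : ℕ) : Set ℕ := {p} ∪ {ℓ | ℓ ∣ M} ∪ {ℓ | ℓ ∣ W.Δ.natAbs}

theorem badW_finite (hΔ : W.Δ ≠ 0) (M : ℕ) [NeZero M] : (badW W p M).Finite :=
  ((Set.finite_singleton p).union ((Set.finite_le_nat M).subset fun _ hℓ =>
    Nat.le_of_dvd (NeZero.pos M) hℓ)).union ((Set.finite_le_nat _).subset fun _ hℓ =>
      Nat.le_of_dvd (Nat.pos_of_ne_zero (Int.natAbs_ne_zero.mpr hΔ)) hℓ)

/-- residual modularity -/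
theorem hmod_of_res (B : Bases W p) (hΔ : W.Δ ≠ 0) (hirr : W.ModRepIsIrreducible p)
    {M₀ : ℕ} [NeZero M₀] (hres : W.IsResiduallyModularOfLevel p M₀) :
    HMod (curveRep B.b) M₀ (badW W p M₀) := by
  obtain ⟨f, 𝔪, hf, h𝔪, hp𝔪, hcong⟩ := hres
  refine hmod_of_congTo hf h𝔪 hp𝔪 (fun q _ hqN => Or.inl (Or.inr hqN)) ?_
  intro ℓ hℓ hℓS A hA τ hτ
  have hgood : W.IsGoodPrimeFor ℓ := fun h => hℓS (Or.inr (Int.natCast_dvd.mp h))
  have hℓM : ¬ ℓ ∣ M₀ := fun h => hℓS (Or.inl (Or.inr h))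
  have hℓp : ℓ ≠ p := fun h => hℓS (Or.inl (Or.inl h))
  obtain ⟨a, ha, haW⟩ := hcong ℓ hℓ hgood hℓM hℓp
  refine ⟨a, W.apOfModel ℓ, ha, ?_, haW⟩
  rw [curve_frob B hΔ hirr hℓ hgood hℓp hA hτ]

/-- **level lowering for `W`** -/
theorem low_W (hlow : LowSt p) (hp35 : p = 3 ∨ p = 5) (B : Bases W p) (hΔ : W.Δ ≠ 0)
    (hss : W.IsSemistableModel) (hirr : W.ModRepIsIrreducible p)
    (hflat : W.IsGoodPrimeFor p → MFlat p B.T) (hord : ¬ W.IsGoodPrimeFor p → MOrd p B.T)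
    {M₀ : ℕ} [NeZero M₀] (hres : W.IsResiduallyModularOfLevel p M₀)
    (hM₀ : ¬ p ^ 2 ∣ M₀) (hM₀3 : ∀ q : ℕ, q.Prime → q ≠ p → ¬ q ^ 3 ∣ M₀) :
    ∃ (N₀ : ℕ) (_ : NeZero N₀), N₀ ∣ M₀ ∧ IsMinLevel p (curveRep B.b) N₀ ∧
      HMod (curveRep B.b) N₀ (badW W p M₀) := by
  have h := hmod_of_res B hΔ hirr hres
  exact hlow (curveRep B.b) (ssRep hp35 B hΔ hss hirr) (atp_curve B hflat hord) M₀ (badW W p M₀)
    (badW_finite hΔ M₀) (Or.inl (Or.inl rfl)) (fun r _ hr => Or.inl (Or.inr hr)) hM₀ hM₀3 h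

end Fermat.Agent.RT.Tate
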