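import Fermat.Agent.RT.TateFin
import Fermat.Agent.RT.WRes
import Fermat.Agent.RT.T10a

/-!
# The deformation of the residual representation of `W` given by the Tate module
-/

set_option autoImplicit false
set_option maxHeartbeats 400000
set_option linter.style.haveILetI false

noncomputable section

namespace Fermat.Agent.RT

open IsLocalRing Polynomial Fermat.Agent.S43Glue Fermat.Agent.S58X Fermat.Agent.GalRep
  Fermat.Agent.DefRing Fermat.Agent.TWGal Fermat.Agent.TW56 GaloisRep
open scoped TensorProduct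

local notation "Qbar" => AlgebraicClosure ℚ
local notation "GQ" => Qbar ≃ₐ[ℚ] Qbar

/-- a unit root -/
theorem unit_root {O : Type} [CommRing O] [IsLocalRing O] [IsAdicComplete (maximalIdeal O) O]
    (p : ℕ) (hpO : (p : O) ∈ maximalIdeal O) {x : O} (hx : IsUnit x) :
    ∃ a : O, IsUnit a ∧ a ^ 2 - x * a + p = 0 := by
  set f : O[X] := X ^ 2 + (-(C x * X) + C (p : O)) with hf
  have hmon : f.Monic := by
    rw [hf]
    monicity!
  obtain ⟨a, ha, ha'⟩ := HenselianRing.is_henselian (I := maximalIdeal O) f hmon x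
    (by
      have : f.eval x = (p : O) := by
        rw [hf]
        simp only [eval_add, eval_pow, eval_X, eval_neg, eval_mul, eval_C]
        ring
      rw [this]
      exact hpO)
    (by
      have : f.derivative.eval x = x := by
        rw [hf]
        simp only [derivative_add, derivative_X_pow, derivative_neg, derivative_mul, derivative_C,
          derivative_X, eval_add, eval_mul, eval_C, eval_pow, eval_X, eval_neg, zero_mul, mul_one,
          zero_add, eval_zero]
        norm_num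
        ring
      rw [this]
      exact hx.map _)
  refine ⟨a, ?_, ?_⟩
  · by_contra hu
    have h1 : a ∈ maximalIdeal O := (mem_maximalIdeal a).mpr hu
    have h2 : x ∈ maximalIdeal O := by
      have := Ideal.sub_mem _ h1 ha'
      rwa [sub_sub_cancel] at this
    exact (mem_maximalIdeal x).mp h2 hx
  · have h1 : f.eval a = 0 := ha
    rw [hf] at h1
    simp only [eval_add, eval_pow, eval_X, eval_neg, eval_mul, eval_C] at h1
    rw [← h1]
    ring

variable {W : WeierstrassCurve ℤ} {p : ℕ} [hp : Fact p.Prime]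

/-- a basis of the base change of the residual representation -/
theorem exists_basis_resW (B : Tate.Bases W p) (hΔ : W.Δ ≠ 0) {k : Type} [Field k]
    (ι : ZMod p →+* k) :
    ∃ b' : Module.Basis (Fin 2) k ((Tate.resW B hΔ).baseChangeAlong ι).V,
      resMatHom ((Tate.resW B hΔ).baseChangeAlong ι) b' = mapT ι (curveRep B.b) := by
  letI : Algebra (ZMod p) k := ι.toAlgebra
  let b : Module.Basis (Fin 2) (ZMod p) (Tate.resW B hΔ).V := Pi.basisFun (ZMod p) (Fin 2)
  refine ⟨Algebra.TensorProduct.basis k b, MonoidHom.ext fun σ => ?_⟩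
  have h1 : LinearMap.toMatrix b b ((Tate.resW B hΔ).ρ σ) = curveRep B.b σ :=
    LinearMap.toMatrix'_toLin' (curveRep B.b σ)
  refine (LinearMap.toMatrix_baseChange k ((Tate.resW B hΔ).ρ σ) b b).trans ?_
  rw [h1]
  ext i j
  rfl

/-- **the residual representation is ordinary at a bad `p`** -/
theorem ord_res (B : Tate.Bases W p) (hp2 : p ≠ 2) (hΔ : W.Δ ≠ 0) (hss : W.IsSemistableModel)
    (hirr : W.ModRepIsIrreducible p) (hbad : ¬ W.IsGoodPrimeFor p) {k : Type} [Field k]
    (ι : ZMod p →+* k) :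
    (GaloisRepAdic.ofResidualGaloisRep ((Tate.resW B hΔ).baseChangeAlong ι)).IsOrdinaryAt p := by
  obtain ⟨b', hb'⟩ := exists_basis_resW B hΔ ι
  have e : mapT (PadicInt.toZMod (p := p)) B.T = curveRep B.b :=
    MonoidHom.ext fun σ => (Tate.curve_eq B σ).symm
  have h1 := ((Tate.mord_T hp2 B hΔ hss hirr hbad).map (f := PadicInt.toZMod (p := p)))
  rw [e] at h1
  have h2 := h1.map (f := ι)
  have hpk : (p : k) ∈ maximalIdeal k := by
    rw [← map_natCast ι, ZMod.natCast_self, map_zero]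
    exact zero_mem _
  refine GaloisRepAdic.IsStrictOrdinaryAt.isOrdinaryAt ?_
  refine (ord_iff _ b').mpr ⟨hpk, ?_⟩
  have h3 : repMat (GaloisRepAdic.ofResidualGaloisRep ((Tate.resW B hΔ).baseChangeAlong ι)) b' =
      resMatHom ((Tate.resW B hΔ).baseChangeAlong ι) b' := rfl
  rw [h3, hb']
  exact h2

/-- **the Tate module as a deformation** -/
theorem tate_dd (B : Tate.Bases W p) (hp2 : p ≠ 2) (hΔ : W.Δ ≠ 0) (hss : W.IsSemistableModel)
    (hirr : W.ModRepIsIrreducible p) (O : Type) [CommRing O] [IsDomain O]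
    [IsDiscreteValuationRing O] [IsAdicComplete (maximalIdeal O) O] [Finite (ResidueField O)]
    [CharZero O] (hpO : (p : O) ∈ maximalIdeal O) :
    ∃ ρ : GaloisRepAdic O,
      (∀ ℓ : ℕ, ℓ.Prime → W.IsGoodPrimeFor ℓ → ℓ ≠ p → ∀ A : ValuationSubring Qbar,
        A.LiesOverPrime ℓ → ∀ σ : GQ, A.IsFrobeniusAt σ ℓ →
          ρ.trace σ = ((W.apOfModel ℓ : ℤ) : O)) ∧
      (∀ S Smin : Finset ℕ, (∀ q : ℕ, q.Prime → q ∉ S → q ≠ p ∧ W.IsGoodPrimeFor q) →
        (W.IsGoodPrimeFor p → DD O .fl p S Smin ρ) ∧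
        (¬ W.IsGoodPrimeFor p → DD O .ord p S Smin ρ ∧ DD O .st p S Smin ρ)) ∧
      (∀ ι : ZMod p →+* ResidueField O, ρ.residual.IsEquiv
        (((Tate.resW B hΔ).baseChangeAlong ι).baseChangeAlong
          (ResidueField.map (algebraMap O O)))) := by
  set φ := padicTo p (maximalIdeal O) hpO with hφ
  have hcont := Tate.cont_T B hΔ hpO
  obtain ⟨c, hc⟩ := exists_basis_matRep (mapT φ B.T) hcont
  have htr : ∀ σ, (mapT φ B.T σ).trace = φ (B.T σ).trace := fun σ =>
    (AddMonoidHom.map_trace φ.toAddMonoidHom _).symm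
  have hdt : ∀ σ, (mapT φ B.T σ).det = φ (B.T σ).det := fun σ => (φ.map_det _).symm
  have hdet : (matRep (mapT φ B.T) hcont).DetIsCyclotomic p :=
    (detCyc_iff _ c).mpr ⟨hpO, by rw [hc]; exact (Tate.mdet_T B hΔ hirr).map φ⟩
  have hunr : ∀ q : ℕ, q.Prime → q ≠ p → W.IsGoodPrimeFor q →
      (matRep (mapT φ B.T) hcont).IsUnramifiedAt q := by
    intro q hq hqp hW
    refine (unr_iff _ c).mpr fun A hA σ hσ => ?_
    rw [hc]
    change φ.mapMatrix (B.T σ) = 1
    rw [Tate.T_inertia B hq hqp hW hA hσ, map_one]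
  have huni : ∀ q : ℕ, q.Prime → q ≠ p →
      (matRep (mapT φ B.T) hcont).IsUnipotentOnInertiaAt q := by
    intro q hq hqp
    refine (uni_iff _ c).mpr fun A hA σ hσ => ?_
    obtain ⟨h1, h2⟩ := Tate.trace_inertia hp2 B hΔ hss hirr hq hqp hA hσ
    rw [hc, htr, hdt, h1, h2, map_ofNat, map_one]
    exact ⟨rfl, rfl⟩
  refine ⟨matRep (mapT φ B.T) hcont, ?_, ?_, ?_⟩
  · intro ℓ hℓ hW hℓp A hA σ hσ
    obtain ⟨h1, h2⟩ := Tate.trace_frob B hΔ hirr hℓ hW hℓp hA hσ
    change LinearMap.trace O _ ((matRep (mapT φ B.T) hcont).ρ σ) = _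
    rw [LinearMap.trace_eq_matrix_trace O c]
    have h3 : LinearMap.toMatrix c c ((matRep (mapT φ B.T) hcont).ρ σ) = mapT φ B.T σ :=
      DFunLike.congr_fun hc σ
    rw [h3, htr, h1, map_intCast]
  · intro S Smin hS
    refine ⟨fun hW => ⟨⟨hdet, ?_, fun q hq hqS => hunr q hq (hS q hq hqS).1 (hS q hq hqS).2⟩,
      fun q _ hq hqp => huni q hq hqp⟩, fun hW => ?_⟩
    · refine (flatAt_iff _ c).mpr ⟨inferInstance, ?_⟩
      rw [hc]
      intro I hI hI'
      haveI : Nontrivial (O ⧸ I) := Ideal.Quotient.nontrivial_iff.mpr hI'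
      exact (FlatG.mflat_T B hΔ hW).flat ((Ideal.Quotient.mk I).comp φ)
    · have hst : (matRep (mapT φ B.T) hcont).IsStrictOrdinaryAt p :=
        (ord_iff _ c).mpr ⟨hpO, by rw [hc]; exact (Tate.mord_T hp2 B hΔ hss hirr hW).map φ⟩
      exact ⟨⟨⟨hdet, hst.isOrdinaryAt, fun q hq hqS => hunr q hq (hS q hq hqS).1 (hS q hq hqS).2⟩,
        fun q _ hq hqp => huni q hq hqp⟩, ⟨⟨hdet, hst, fun q hq hqS =>
          hunr q hq (hS q hq hqS).1 (hS q hq hqS).2⟩, fun q _ hq hqp => huni q hq hqp⟩⟩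
  · intro ι
    obtain ⟨b', hb'⟩ := exists_basis_resW B hΔ ι
    refine matRep_residual_isEquiv ((Tate.resW B hΔ).baseChangeAlong ι) b'
      (ResidueField.map (algebraMap O O)) (mapT φ B.T) hcont fun σ i j => ?_
    have h0 : resMat ((Tate.resW B hΔ).baseChangeAlong ι) b' σ i j =
        ι (curveRep B.b σ i j) := by
      have := congrFun (congrFun (DFunLike.congr_fun hb' σ) i) j
      exact this
    have hmap : ∀ x : ResidueField O, ResidueField.map (algebraMap O O) x = x := by
      intro x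
      obtain ⟨y, rfl⟩ := residue_surjective x
      rw [ResidueField.map_residue]
      rfl
    rw [h0, hmap, mapT_apply, ← Tate.toZMod_T]
    obtain ⟨a, ha⟩ := ZMod.intCast_surjective (PadicInt.toZMod (B.T σ i j))
    have h2 : PadicInt.toZModPow 1 (B.T σ i j) = (a : ZMod (p ^ 1)) := by
      have h3 : B.T σ i j - (a : ℤ_[p]) ∈ RingHom.ker (PadicInt.toZMod (p := p)) := by
        rw [RingHom.mem_ker, map_sub, map_intCast, ha, sub_self]
      rw [PadicInt.ker_toZMod, PadicInt.maximalIdeal_eq_span_p, ← pow_one (p : ℤ_[p]),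
        ← PadicInt.ker_toZModPow, RingHom.mem_ker, map_sub, sub_eq_zero, map_intCast] at h3
      exact h3
    have h4 := Tate.padicTo_int hpO (B.T σ i j) 1 a h2
    rw [pow_one, ← residue_eq_zero_iff, map_sub, sub_eq_zero, map_intCast] at h4
    rw [h4, ← ha, map_intCast]

end Fermat.Agent.RT
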