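import Fermat.Agent.RT.MkStep
import Fermat.Agent.RT.Lgcu
import Fermat.Agent.RT.WDD

/-!
# The unit root
-/

set_option autoImplicit false
set_option maxHeartbeats 400000
set_option linter.style.haveILetI false

noncomputable section

namespace Fermat.Agent.RT

open IsLocalRing Matrix Fermat.Agent.DefRing Fermat.Agent.GalRep Fermat.Agent.TWPatch
  Fermat.Agent.TWLoc Fermat.Agent.TWGal CuspForm GaloisRep Fermat.Agent.TWG
  Fermat.Agent.TW56
open Fermat.Agent.TWCoh hiding GQ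
open Fermat.Agent.S43Glue (FinLevel HMod chiK chiK_frob curveRep irred_of_irreducible)

local notation "Qbar" => AlgebraicClosure ℚ

namespace Inp

variable {W : WeierstrassCurve ℤ} {p : ℕ} [hp : Fact p.Prime] {B : Tate.Bases W p} {hΔ : W.Δ ≠ 0}
    {O : Type} [CommRing O] [CNL O] (I : Inp B hΔ O)

theorem isUnit_lam [IsDomain O] [CharZero O] [Algebra ℤ_[p] O] [Module.Finite ℤ_[p] O]
    (hirr : W.ModRepIsIrreducible p) (hpN : ¬ p ∣ I.N) (hord : MOrd p (curveRep B.b)) :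
    IsUnit (I.lam p) := by
  obtain ⟨T, hT, hfr, -, hres, hspan, -, -⟩ := TWInst.exists_rep_hecke (N := I.N) (p := p)
    (S := ∅) Set.finite_empty I.hp2 I.hpO I.χ (residue O) residue_surjective (ρb := I.ρb)
    I.cont_ρb (fun ℓ hℓ hℓN hℓp hℓS A hA τ hτ => by
      refine ⟨?_, ?_⟩
      · rw [I.trace_ρb, ← I.hχ ℓ hℓ hℓN hℓp A hA τ hτ]
      · rw [I.det_ρb, chiK_frob p _ hℓ hA hℓp hτ, map_natCast]) I.span_ρb
  have hm : mapT (residue O) T = I.ρb := MonoidHom.ext fun g => hres g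
  have h := Lgcp.lgcu_mat (N := I.N) (S := ∅) I.hp2 hpN (Set.notMem_empty p) Set.finite_empty
    I.hpO I.χ hT hspan (fun ℓ hℓ hℓN hℓS hℓp A hA τ hτ => by
      have hℓNp : ¬ ℓ ∣ I.N * p := fun h => by
        rcases hℓ.dvd_mul.mp h with h | h
        · exact hℓN h
        · exact hℓp ((Nat.prime_dvd_prime_iff_eq hℓ hp.out).mp h)
      obtain ⟨h1, h2⟩ := hfr ℓ hℓ hℓNp hℓS A hA τ hτ
      rw [TWInst.piH_T _ hℓ hℓNp hℓS] at h1
      exact ⟨h1, h2⟩) (by
      rw [hm]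
      have h3 := (mord_iff (I.cdet_ρb hirr).1 (I.cdet_ρb hirr).2).mp (I.mord_ρb hord)
      intro P hP
      obtain ⟨Q, Q', e1, e2, e3, e4, -⟩ := h3 P hP
      exact ⟨Q, Q', e1, e2, e3, e4, fun h => absurd h not_false⟩)
  rw [I.lam_eq hp.out hpN]
  exact h

theorem exists_unit_root [IsDomain O] [CharZero O] [Algebra ℤ_[p] O] [Module.Finite ℤ_[p] O]
    (hirr : W.ModRepIsIrreducible p) (hpN : ¬ p ∣ I.N) (hord : MOrd p (curveRep B.b)) :
    ∃ a : O, IsUnit a ∧ a ^ 2 - I.lam p * a + p = 0 :=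
  unit_root p I.hpO (I.isUnit_lam hirr hpN hord)

end Inp

end Fermat.Agent.RT
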