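import Fermat.Agent.RT.OmP3

/-!
# The passage to non-minimal level including the level `p`
-/

set_option autoImplicit false
set_option linter.unusedSectionVars false
set_option linter.style.haveILetI false

noncomputable section

namespace Fermat.Agent.RT

open Matrix CongruenceSubgroup MvPolynomial Fermat.Agent.TWCoh Fermat.Agent.RT.Om
open ModularFormClass (qCoeff)
open scoped MatrixGroups OnePoint

namespace Om

section

variable {O k : Type} [CommRing O] [IsDomain O] [IsDiscreteValuationRing O]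
  [IsAdicComplete (IsLocalRing.maximalIdeal O) O] [CharZero O] [Field k]
  [Algebra O k] {D : OmD O k} {p : ℕ} {a : O}

/-- the two descriptions of the module -/
def hpE {S' : Finset ℕ} (hpS : p ∈ S') (L : ℕ) (Q' : Finset ℕ) :
    HP O (k := k) (S := S') D.lam L Q' p a ≃ₗ[O] HQ O (τp D p a S') L Q' where
  toFun x := ⟨x.1, x.2.2, x.2.1.2⟩
  invFun x := ⟨x.1, ⟨loc_le hpS x.2.1, x.2.2⟩, x.2.1⟩
  map_add' _ _ := rfl
  map_smul' _ _ := rfl
  left_inv _ := rfl
  right_inv _ := rfl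

theorem hpE_smul {S' : Finset ℕ} (hpS : p ∈ S') (L : ℕ) (Q' : Finset ℕ) (r : HA O (S' : Set ℕ))
    (x : HP O (k := k) (S := S') D.lam L Q' p a) :
    hpE (D := D) (a := a) hpS L Q' (r • x) = φp O S' p r • hpE hpS L Q' x :=
  Subtype.ext (φp_smul r x.1).symm

/-- the quadratic equation -/
theorem quadp {L : ℕ} [NeZero L] {Q' : Finset ℕ} (hok : OkL D L Q') (hp : p.Prime)
    (hpS : p ∈ D.S) (hpL : ¬ p ∣ L) {x : SO O (L * p)}
    (hT : ∀ (l : ℕ) (hl : l.Prime), l ∉ D.S ∪ D.Q → Tz O hl x.1 = sc (D.lam l) x.1) :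
    Uz O hp (Uz O hp x.1) - sc (D.lam p) (Uz O hp x.1) + (p : ℤ) • x.1 = 0 := by
  have hLS : ∀ l : ℕ, l.Prime → l ∣ L * p → l ∈ D.S ∪ D.Q := by
    intro l hl h
    rcases (hl.dvd_mul).1 h with h | h
    · exact hok.primes l hl h
    · rw [(Nat.prime_dvd_prime_iff_eq hl hp).1 h]; exact Finset.mem_union_left _ hpS
  have h1 := cx_quad D (D.dvd.trans hok.N_dvd) hp hpL hLS (x := cx D x.1)
    (cm_mem _ (SO.mem x)) fun l hl hlS =>
    cx_eig D hl (not_dvd_N D hl fun h => hlS (Finset.mem_union_left _ h)) (hT l hl hlS)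
  rw [← cm_Uz, ← cm_Uz, ← D.lam_eq p hp fun h => hpL (h.trans hok.N_dvd)] at h1
  apply cx_injective D
  funext u v
  have h2 := congrFun (congrFun h1 u) v
  show D.κ (Uz O hp (Uz O hp x.1) u v - D.lam p * Uz O hp x.1 u v + (p : ℤ) • x.1 u v) = D.κ 0
  have h3 : D.κ (Uz O hp (Uz O hp x.1) u v) - D.κ (D.lam p) * D.κ (Uz O hp x.1 u v) +
    (p : ℤ) • D.κ (x.1 u v) = 0 := h2
  rw [map_zero, map_add, map_sub, map_mul, map_zsmul, h3]

/-- `U_p` acts through `a` -/
theorem Up_of_mem {S' : Finset ℕ} {L : ℕ} [NeZero L] (hOk : Function.Surjective (algebraMap O k))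
    (hp : p.Prime) (hpL : p ∣ L) (hpk : (p : k) = 0) (hau : IsUnit a)
    (ha : a ^ 2 - D.lam p * a + p = 0)
    {x : SO O L} (hx : x ∈ loc (evI O (τp D p a S')) (SO O L))
    (hq : Uz O hp (Uz O hp x.1) - sc (D.lam p) (Uz O hp x.1) + (p : ℤ) • x.1 = 0) :
    Uz O hp x.1 = sc a x.1 := by
  haveI := evI_isMaximal hOk (τp D p a S')
  obtain ⟨e, he⟩ := exists_locData (Λ := O) (evI O (τp D p a S')) (SO O L)
  let P : PS ((S'.erase p : Finset ℕ) : Set ℕ) := ⟨p, hp, fun h =>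
    Finset.notMem_erase p S' (Finset.mem_coe.1 h)⟩
  have hX : ∀ y : SO O L, ((X P : HA O ((S'.erase p : Finset ℕ) : Set ℕ)) • y).1 =
      Uz O hp y.1 := fun y => by
    rw [opr_coe]; exact opr_eq_Uz hp hpL y
  have ha0 : algebraMap O k a ≠ 0 := (hau.map (algebraMap O k)).ne_zero
  have hβ : algebraMap O k (D.lam p - a) = 0 := by
    have h1 : algebraMap O k (a * (D.lam p - a)) = 0 := by
      rw [show a * (D.lam p - a) = (p : O) by linear_combination (-1 : O) * ha, map_natCast, hpk]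
    rw [map_mul] at h1
    exact (mul_eq_zero.1 h1).resolve_left ha0
  have hs : (X P - C (D.lam p - a) : HA O ((S'.erase p : Finset ℕ) : Set ℕ)) ∉
      evI O (τp D p a S') := by
    rw [mem_evI, map_sub, aeval_X, aeval_C, hβ, sub_zero]
    show algebraMap O k (if p = p then a else D.lam p) ≠ 0
    rw [if_pos rfl]
    exact ha0
  set y : SO O L := (X P - C a : HA O ((S'.erase p : Finset ℕ) : Set ℕ)) • x with hy
  have hyl : y ∈ loc (evI O (τp D p a S')) (SO O L) := Submodule.smul_mem _ _ hx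
  have hy0 : (X P - C (D.lam p - a) : HA O ((S'.erase p : Finset ℕ) : Set ℕ)) • y = 0 := by
    apply Subtype.ext
    rw [hy, sub_smul, sub_smul, smul_sub, C_smul, C_smul]
    funext u v
    have h1 : (((X P : HA O ((S'.erase p : Finset ℕ) : Set ℕ)) • (X P : HA O _) • x : SO O L)).1 =
        Uz O hp (Uz O hp x.1) := by rw [hX, hX]
    have h2 : ((X P : HA O ((S'.erase p : Finset ℕ) : Set ℕ)) • (a • x) : SO O L) =
        a • (X P : HA O ((S'.erase p : Finset ℕ) : Set ℕ)) • x := smul_comm _ _ _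
    rw [h2]
    show (((X P : HA O ((S'.erase p : Finset ℕ) : Set ℕ)) • (X P : HA O _) • x : SO O L).1 u v -
      a * ((X P : HA O ((S'.erase p : Finset ℕ) : Set ℕ)) • x).1 u v) -
      (D.lam p - a) * (((X P : HA O ((S'.erase p : Finset ℕ) : Set ℕ)) • x).1 u v - a * x.1 u v) = 0
    rw [h1, hX]
    have h3 : Uz O hp (Uz O hp x.1) u v - D.lam p * Uz O hp x.1 u v + (p : ℤ) • x.1 u v = 0 :=
      congrFun (congrFun hq u) v
    rw [zsmul_eq_mul] at h3
    push_cast at h3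
    linear_combination h3 - x.1 u v * ha
  obtain ⟨u, hu⟩ := he.unit _ hs
  have h1 := hu y
  rw [hy0, smul_zero, he.mem_iff.1 hyl] at h1
  have h2 : (X P : HA O ((S'.erase p : Finset ℕ) : Set ℕ)) • x = a • x := by
    rw [hy, sub_smul, C_smul] at h1
    exact (sub_eq_zero.1 h1.symm)
  rw [← hX, h2]
  rfl

theorem lev0p (hOk : Function.Surjective (algebraMap O k)) (h2 : (2 : k) ≠ 0) (hp : p.Prime)
    (hpS : p ∈ D.S) : Lev0 O k (LL D D.Q * p) D.Q where
  surj := hOk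
  two := h2
  lev := fun q hq => ⟨D.prime_Q q hq, D.ne_Q q hq, LL D (D.Q.erase q) * p, by
    rw [LL_erase hq]; ring, fun h => by
    rcases ((D.prime_Q q hq).dvd_mul).1 h with h | h
    · exact not_dvd_LL (Finset.erase_subset _ _) hq (Finset.notMem_erase q D.Q) h
    · rw [(Nat.prime_dvd_prime_iff_eq (D.prime_Q q hq) hp).1 h] at hq
      exact D.disj p hq hpS⟩

theorem okLp {L : ℕ} {Q' : Finset ℕ} (hok : OkL D L Q') (hp : p.Prime) (hpS : p ∈ D.S) :
    OkL D (L * p) Q' where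
  N_dvd := hok.N_dvd.mul_right _
  primes := fun l hl h => by
    rcases (hl.dvd_mul).1 h with h | h
    · exact hok.primes l hl h
    · rw [(Nat.prime_dvd_prime_iff_eq hl hp).1 h]; exact Finset.mem_union_left _ hpS
  Q_dvd := fun q hq => (hok.Q_dvd q hq).mul_right _

/-- eigensymbols are in the module -/
theorem Egp_le_HP (hOk : Function.Surjective (algebraMap O k)) {L : ℕ} {Q' S' : Finset ℕ}
    (hp : p.Prime) (hpS : p ∈ S') (hpL : p ∣ L)
    (hS' : ∀ l : ℕ, l.Prime → l ∣ L → l ∈ S') (hQ : ∀ q ∈ Q', q ∣ L) {x : SO O L}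
    (hx : x ∈ Egp D L Q' hp a) : x ∈ HP O (k := k) (S := S') D.lam L Q' p a := by
  refine ⟨Eg_le_HQ hOk hS' hQ hx.1, mem_loc_of_X hOk
    (μ := fun l : PS ((S'.erase p : Finset ℕ) : Set ℕ) => if l.1 = p then a else D.lam l.1)
    (fun l => rfl) fun l => ?_⟩
  by_cases hl : l.1 = p
  · rw [if_pos hl]
    apply Subtype.ext
    rw [opr_coe]
    have h1 : ∀ (q : ℕ) (hq : q.Prime), q = p → (opr (one_dvd L) (1 : DirichletCharacter O 1) O hq
        x).1 = (a • x).1 := by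
      rintro q hq rfl
      rw [opr_eq_Uz hq hpL, hx.2]
      rfl
    exact h1 l.1 l.2.1 hl
  · rw [if_neg hl]
    have hlL : ¬ l.1 ∣ L := fun h => l.2.2 (Finset.mem_coe.2 (Finset.mem_erase.2
      ⟨hl, hS' l.1 l.2.1 h⟩))
    apply Subtype.ext
    rw [coe_X_smul l hlL, hx.1.1 l.1 l.2.1 hlL]
    rfl

/-- the congruence data -/
theorem exists_congp (hOk : Function.Surjective (algebraMap O k)) (h2 : (2 : k) ≠ 0)
    (hp : p.Prime) (hpN : ¬ p ∣ D.N) (hpS : p ∈ D.S) (hpk : (p : k) = 0) (hau : IsUnit a)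
    (ha : a ^ 2 - D.lam p * a + p = 0) {b : O} (hab : a * b = 1)
    [NeZero (LL D D.Q)] [NeZero (LL D D.Q * p)] {d : ℕ}
    (e : Module.Basis (Fin d) O (Eg D (LL D D.Q) D.Q)) :
    ∃ C : CongData O (HA O ((D.S ∪ D.Q : Finset ℕ) : Set ℕ)) (D.π (D.S ∪ D.Q))
      (HP O (k := k) (S := D.S ∪ D.Q) D.lam (LL D D.Q * p) D.Q p a) d,
      IsCan C.B ∧ ∀ i, (C.e i).1 = jSO O (LL D D.Q) hp b (e i).1 := by
  have hok : OkL D (LL D D.Q) D.Q := okL subset_rfl
  have hokp := okLp (p := p) hok hp hpS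
  have hpL : ¬ p ∣ LL D D.Q := by
    intro h
    rcases prime_dvd_LL subset_rfl hp h with h | h
    · exact hpN h
    · exact D.disj p h hpS
  have hpS' : p ∈ D.S ∪ D.Q := Finset.mem_union_left _ hpS
  have hlev : Lev0 O k (LL D D.Q * p) D.Q := lev0p hOk h2 hp hpS
  haveI := evI_isMaximal hOk (τp D p a (D.S ∪ D.Q))
  obtain ⟨e₁, he₁⟩ := exists_locData (Λ := O) (evI O (τp D p a (D.S ∪ D.Q)))
    (SO O (LL D D.Q * p))
  obtain ⟨B₀, hB1, hB2, hB3⟩ := exists_can_locP hlev he₁ (by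
    obtain ⟨l, h1, h2, h3, h4, h5⟩ := D.eis₁ (LL D D.Q * p) (NeZero.ne _)
    have hlS : l ∉ D.S ∪ D.Q := by rw [Finset.mem_union]; push Not; exact ⟨h2, h3⟩
    refine ⟨⟨l, h1, fun h => hlS (Finset.mem_of_mem_erase (Finset.mem_coe.1 h))⟩,
      fun h => hlS (hokp.primes l h1 h), h4, ?_⟩
    have hlp : l ≠ p := fun h => h2 (h ▸ hpS)
    show algebraMap O k (if l = p then a else D.lam l) ≠ _
    rw [if_neg hlp]
    exact h5)
  obtain ⟨B, hB1, hB2, hB3⟩ := exists_can' hlev he₁ hB1 hB2 hB3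
  let E := hpE (D := D) (a := a) hpS' (LL D D.Q * p) D.Q
  obtain ⟨f, hf⟩ := exists_equivp hOk hok hp hpS hpL hab ha
  have hS' : ∀ l : ℕ, l.Prime → l ∣ LL D D.Q * p → l ∈ D.S ∪ D.Q := hokp.primes
  let ι : Egp D (LL D D.Q * p) D.Q hp a →ₗ[O]
      HP O (k := k) (S := D.S ∪ D.Q) D.lam (LL D D.Q * p) D.Q p a :=
    { toFun := fun x => ⟨x.1, Egp_le_HP hOk hp hpS' (dvd_mul_left _ _) hS' hokp.Q_dvd x.2⟩
      map_add' := fun _ _ => rfl
      map_smul' := fun _ _ => rfl }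
  have hι : Function.Injective ι := by
    intro x y h
    apply Subtype.ext
    have h1 : (ι x).1 = (ι y).1 := by rw [h]
    exact h1
  have hspan : Submodule.span O (Set.range fun i => ι (e.map f i)) = LinearMap.range ι := by
    have h1 : (Set.range fun i => ι (e.map f i)) = ι '' Set.range (e.map f) := by
      rw [← Set.range_comp]; rfl
    rw [h1, ← Submodule.map_span, (e.map f).span_eq, Submodule.map_top]
  refine ⟨⟨B.compl₁₂ E.toLinearMap E.toLinearMap, fun g => ?_, fun r x y => ?_,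
    fun i => ι (e.map f i),
    (e.map f).linearIndependent.map' ι (LinearMap.ker_eq_bot.2 hι), fun x => ?_⟩,
    fun y x l hl => hB2 (E y) (E x) l hl, fun i => ?_⟩
  · obtain ⟨y, hy⟩ := hB1 (g ∘ₗ E.symm.toLinearMap)
    refine ⟨E.symm y, LinearMap.ext fun x => ?_⟩
    show B (E (E.symm y)) (E x) = g x
    rw [LinearEquiv.apply_symm_apply, hy]
    show g (E.symm (E x)) = g x
    rw [LinearEquiv.symm_apply_apply]
  · show B (E (r • x)) (E y) = B (E x) (E (r • y))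
    rw [hpE_smul hpS', hpE_smul hpS', hB3]
  · rw [hspan]
    constructor
    · rintro ⟨y, rfl⟩ r hr
      apply Subtype.ext
      show r • y.1 = 0
      rw [smul_Eg hS' y.2.1, hr, zero_smul]
    · intro h
      have hT : ∀ (l : ℕ) (hl : l.Prime), l ∉ D.S ∪ D.Q → Tz O hl x.1.1 = sc (D.lam l) x.1.1 := by
        intro l hl hlS
        have hlS' : l ∉ ((D.S ∪ D.Q : Finset ℕ) : Set ℕ) := fun h => hlS (Finset.mem_coe.1 h)
        have h1 := h (X ⟨l, hl, hlS'⟩ - C (D.lam l)) (by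
          rw [map_sub, OmD.π, aeval_X, aeval_C]
          exact sub_self _)
        rw [sub_smul, sub_eq_zero] at h1
        have h2 : ((X ⟨l, hl, hlS'⟩ : HA O ((D.S ∪ D.Q : Finset ℕ) : Set ℕ)) • x.1 :
            SO O (LL D D.Q * p)) = D.lam l • x.1 := by
          have := congrArg Subtype.val h1
          rw [← C_smul (S := ((D.S ∪ D.Q : Finset ℕ) : Set ℕ))]
          exact this
        rw [← coe_X_smul (L := LL D D.Q * p) ⟨l, hl, hlS'⟩ (fun h' => hlS' (hS' l hl h')), h2]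
        rfl
      refine ⟨⟨x.1, mem_Eg hokp hT (fun q hq hq' => ?_), ?_⟩, rfl⟩
      · rw [← opr_eq_Uz hq' (hokp.Q_dvd q hq)]
        exact congrArg Subtype.val (x.2.1.2 q hq hq')
      · exact Up_of_mem hOk hp (dvd_mul_left _ _) hpk hau ha x.2.2 (quadp hok hp hpS hpL hT)
  · show (e.map f i).1 = _
    rw [Module.Basis.map_apply, hf]

end

end Om

/-- **(Om-P)** -/
theorem omP : OmPSt := by
  intro O k _ _ _ _ _ _ _ hOk h2 D p hp hpN hpS hpk a hau ha
  obtain ⟨v, rfl⟩ := hau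
  have hN : LL D ∅ = D.N := by rw [LL, Finset.prod_empty, mul_one]
  haveI : NeZero (LL D ∅) := ⟨LL_ne (Finset.empty_subset _)⟩
  haveI : NeZero (LL D D.Q) := ⟨LL_ne subset_rfl⟩
  haveI : NeZero (LL D D.Q * p) := ⟨mul_ne_zero (NeZero.ne _) hp.ne_zero⟩
  have hok : OkL D (LL D ∅) ∅ := okL (Finset.empty_subset _)
  have hnt := nontrivial_Eg D hok
  have hpL : ¬ p ∣ LL D D.Q := by
    intro h
    rcases prime_dvd_LL subset_rfl hp h with h | h
    · exact hpN h
    · exact D.disj p h hpS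
  set e₀ := Module.finBasis O (Eg D (LL D ∅) ∅) with he₀
  obtain ⟨e, he⟩ := chain hOk h2 e₀ D.Q subset_rfl (LL D D.Q) rfl
  obtain ⟨C₀, hC₀, hCe₀⟩ := cong_at hOk h2 (Finset.empty_subset D.Q) e₀
  obtain ⟨C, hC, hCe⟩ := cong_at hOk h2 (subset_rfl : D.Q ⊆ D.Q) e
  obtain ⟨C₀', hC₀'⟩ := to_M0 D (D.S ∪ ∅) (Finset.union_empty _) (LL D ∅) hN C₀
  obtain ⟨C', hC', hCe'⟩ := exists_congp hOk h2 hp hpN hpS hpk v.isUnit ha
    (b := (↑v⁻¹ : O)) (Units.mul_inv v) e
  -- the unit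
  have hpu : IsUnit (1 - (p : O) * (↑v⁻¹ : O) ^ 2) := isUnit_of_image_ne_zero hOk (by
    rw [map_sub, map_mul, map_natCast, hpk, map_one, zero_mul, sub_zero]
    exact one_ne_zero)
  obtain ⟨w, hw⟩ := hpu
  have hgram : C'.gram = C.gram * ((↑v⁻¹ : O) * w * ((v : O) ^ 2 - 1)) ^
      Module.finrank O (Eg D (LL D ∅) ∅) := by
    have h : (Matrix.of fun i j => C'.B (C'.e i) (C'.e j)) =
        ((↑v⁻¹ : O) * w * ((v : O) ^ 2 - 1)) • (Matrix.of fun i j => C.B (C.e i) (C.e j)) := by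
      ext i j
      show C'.B (C'.e i) (C'.e j) = _ * C.B (C.e i) (C.e j)
      have hj := (e j).2.1 p hp hpL
      rw [can_stepp (levL (D := D) hOk h2 subset_rfl).isUnit₂ hp hpL hC hC' (↑v⁻¹ : O) (C.e i)
        (C.e j) (C'.e i) (C'.e j)
        (by rw [hCe', hCe]; rfl) (by rw [hCe', hCe]; rfl) (D.lam p) (by rw [hCe]; exact hj)]
      congr 1
      have hb : (v : O) * (↑v⁻¹ : O) = 1 := Units.mul_inv v
      have hc : D.lam p = v + p * (↑v⁻¹ : O) := by
        linear_combination (-(↑v⁻¹ : O)) * ha + ((v : O) - D.lam p) * hb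
      rw [hw, hc]
      generalize hbb : (↑v⁻¹ : O) = b at hb
      generalize (v : O) = a at hb
      linear_combination (-a + b + p * b * (a * b + 1)) * hb
    unfold CongData.gram
    rw [h, Matrix.det_smul, Fintype.card_fin, mul_comm]
  refine ⟨_, Module.finrank_pos, C₀', C', (v⁻¹ * w) ^ Module.finrank O (Eg D (LL D ∅) ∅), ?_⟩
  refine hgram.trans ?_
  rw [he C₀ hC₀ hCe₀ C hC hCe, hC₀', Units.val_pow_eq_pow_val, Units.val_mul, mul_pow]
  have h3 : cQ D D.Q = D.c := rfl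
  rw [h3]
  generalize D.c ^ _ = c₁
  generalize ((v : O) ^ 2 - 1) ^ _ = c₂
  ring

end Fermat.Agent.RT
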