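import Fermat.Agent.RT.StepG

/-!
# The non-minimal case
-/

set_option autoImplicit false
set_option maxHeartbeats 400000
set_option linter.unusedSectionVars false
set_option linter.style.haveILetI false

noncomputable section

namespace Fermat.Agent.RT

open IsLocalRing Matrix MvPolynomial Fermat.Agent.DefRing Fermat.Agent.GalRep Fermat.Agent.TWPatch
  Fermat.Agent.TWLoc Fermat.Agent.TWGal CuspForm Fermat.Agent.AnJac Fermat.Agent.HeckeQ GaloisRep
open Fermat.Agent.RT.Om (SO)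
open IsDiscreteValuationRing (addVal)
open Fermat.Agent.TWCoh hiding GQ

local notation "Qbar" => AlgebraicClosure ℚ

variable {p : ℕ} [hpf : Fact p.Prime] {O : Type} [CommRing O] [CNL O]
  [IsDomain O] [IsDiscreteValuationRing O] [CharZero O] {G : Bas p O}
  [Algebra ℤ_[p] O] [Module.Finite ℤ_[p] O] {D : GalD G} (X : StepD D)

/-- comparison of the flat and the ordinary deformation rings -/
theorem selP' {t₀ : PType} (h0 : t₀ = .fl) (hp2 : p ≠ 2) (hpO : (p : O) ∈ maximalIdeal O)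
    (ρbar : ResidualGaloisRep (ResidueField O)) (S Smin : Finset ℕ) (hpS : p ∈ S)
    (R₀ : DeformationRingData O ρbar (DD O t₀ p S Smin))
    (R₁ : DeformationRingData O ρbar (DD O .ord p S Smin)) (π₁ : R₁.R →ₐ[O] O) (a : O)
    (ha : a ^ 2 ≠ 1)
    (hfr : ∃ A : ValuationSubring (AlgebraicClosure ℚ), A.LiesOverPrime p ∧
      ∀ σ : AlgebraicClosure ℚ ≃ₐ[ℚ] AlgebraicClosure ℚ, A.IsFrobeniusAt σ p →
        a ^ 2 - π₁ (R₁.ρ.trace σ) * a + π₁ (LinearMap.det (R₁.ρ.ρ σ)) = 0) :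
    ∃ π₀ : R₀.R →ₐ[O] O, (∀ σ, π₀ (R₀.ρ.trace σ) = π₁ (R₁.ρ.trace σ)) ∧
      Module.length O (RingHom.ker π₁).Cotangent ≤
        Module.length O (RingHom.ker π₀).Cotangent + addVal O (a ^ 2 - 1) := by
  subst h0
  exact SelP.selP O p hp2 hpO ρbar S Smin hpS R₀ R₁ π₁ a ha hfr

/-- `a² ≠ 1` -/
theorem StepD.sq_ne (hpN : ¬ p ∣ G.N) {a : O} (ha : a ^ 2 - X.OD.lam p * a + p = 0) :
    a ^ 2 ≠ 1 := by
  intro h
  have hpN' : ¬ p ∣ X.OD.N := by rwa [X.hN]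
  have hpM : ¬ p ∣ X.OD.M := fun h => hpN' (h.trans X.OD.dvd)
  have h5 := qCoeff_sq_ne X.OD.newform hpf.out hpM
  rw [← X.OD.lam_eq p hpf.out hpN'] at h5
  apply h5
  have h6 : X.OD.lam p ^ 2 = ((p : O) + 1) ^ 2 := by
    have h1 : X.OD.lam p * a = (p : O) + 1 := by linear_combination -ha + h
    have h2 : (X.OD.lam p * a) ^ 2 = ((p : O) + 1) ^ 2 := by rw [h1]
    rw [mul_pow, h, mul_one] at h2
    exact h2
  have h7 := congrArg X.OD.κ h6
  rw [map_pow, map_pow, map_add, map_natCast, map_one] at h7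
  exact h7

/-- **the non-minimal case, at `p`** -/
theorem StepD.case₂ (HB : DatumB) (HR : ExistsDefRing) (HD : IsDefCondDD O p) (HOP : OmPSt)
    (h₁ : X.t₁ = .ord) (hfl : D.t = .fl)
    (hO : (GaloisRepAdic.ofResidualGaloisRep D.ρbar).IsOrdinaryAt p) {a : O} (ha : IsUnit a)
    (hroot : a ^ 2 - X.OD.lam p * a + p = 0) : StepSt X := by
  intro ρ hρ hρb
  rw [h₁] at hρ
  haveI := X.neZero_L
  haveI : NeZero (X.OD.L * p) := ⟨mul_ne_zero X.neZero_L.out hpf.out.ne_zero⟩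
  have hpN : ¬ p ∣ G.N := by
    have := D.htN
    rw [hfl] at this
    exact this
  have hpL : ¬ p ∣ X.OD.L := by
    have h1 := X.pow_dvd_L hpf.out G.hpS 1
    rw [pow_one] at h1
    rwa [h1]
  have hsq := X.sq_ne hpN hroot
  obtain ⟨D₀⟩ := HR O p G.hp2 G.hpO D.ρbar D.habs D.t D.Smin D.Smin D.hpSmin (X.hbar _ subset_rfl)
  obtain ⟨R'⟩ := HR O p G.hp2 G.hpO D.ρbar D.habs D.t (D.Smin ∪ X.OD.Q) D.Smin
      (Finset.mem_union_left _ D.hpSmin) (X.hbar _ Finset.subset_union_left)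
  have hbar1 : DD O .ord p (D.Smin ∪ X.OD.Q) D.Smin
      (GaloisRepAdic.ofResidualGaloisRep D.ρbar) := by
    have h1 := X.hbar (D.Smin ∪ X.OD.Q) Finset.subset_union_left
    rw [hfl] at h1
    exact ⟨⟨h1.1.1, hO, h1.1.2.2⟩, h1.2⟩
  obtain ⟨R₁⟩ := HR O p G.hp2 G.hpO D.ρbar D.habs .ord (D.Smin ∪ X.OD.Q) D.Smin
      (Finset.mem_union_left _ D.hpSmin) hbar1
  obtain ⟨d, hd, C₀, C, u, hgram⟩ := HOP O (ResidueField O) residue_surjective G.two_ne X.OD p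
    hpf.out (by rwa [X.hN]) ((X.mem_S_iff p).mpr G.hpS) G.pk a ha hroot
  obtain ⟨π₀, hπ₀, hfin, hval⟩ := X.base HB HR HD D₀ hd C₀
  obtain ⟨π', hπ', hb⟩ := X.exists_pi HD D₀ R' π₀ hπ₀
  have hgv : addVal O C.gram = (d : ℕ∞) * Module.length O (RingHom.ker π₀).Cotangent +
      (d : ℕ∞) * addVal O X.OD.c + (d : ℕ∞) * addVal O (a ^ 2 - 1) := by
    rw [hgram, AddValuation.map_mul, AddValuation.map_mul, AddValuation.map_mul, addVal_units,
      addVal_pow', addVal_pow', hval, zero_add]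
  have ht : LevelType .ord p (X.OD.L * p) D.ρbar := by
    refine ⟨dvd_mul_left _ _, fun h => hpL ?_, hO⟩
    rw [pow_two] at h
    exact Nat.dvd_of_mul_dvd_mul_right hpf.out.pos h
  -- the eigencharacter of the newform
  set S₁ : Set ℕ := D.SQ X.OD.Q \ {p} with hS₁
  have hpS₁ : p ∉ S₁ := fun h => h.2 rfl
  obtain ⟨θf, hθf⟩ := exists_eig X.OD.dvd X.OD.newform X.OD.κ X.OD.κ_inj X.OD.lam X.OD.lam_eq
    (S := S₁) (fun r hr hrN => by
      rw [X.hN] at hrN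
      exact ⟨D.sub_SQ X.OD.Q (G.hNS r hr hrN), fun h => hpN (h ▸ hrN)⟩)
  obtain ⟨χ, hχ⟩ := D.finish HB (X.N_dvd_L.trans (dvd_mul_right _ _)) (fun q hq h => by
      rcases hq.dvd_mul.mp h with h' | h'
      · exact X.prime_dvd_L hq h'
      · rw [(Nat.prime_dvd_prime_iff_eq hq hpf.out).mp h']
        exact D.sub_SQ X.OD.Q G.hpS)
    (fun q hq hqp h2 => (D.hSN q hq hqp).2
      ((X.pow_dvd_L (D.hSfp q hq) (StepD.mem_Sf hq) 2).mp
        (Nat.Coprime.dvd_of_dvd_mul_right (Nat.Coprime.pow_left 2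
          ((Nat.coprime_primes (D.hSfp q hq) hpf.out).mpr hqp)) h2))) ht R₁ X.OD.lam
    (fun l => X.hlam l) hd (S₂ := ((X.OD.S ∪ X.OD.Q : Finset ℕ) : Set ℕ))
    (by rw [X.hS]) (L := X.OD.L * p) rfl
    (HP O (k := ResidueField O) (S := X.OD.S ∪ X.OD.Q) X.OD.lam (X.OD.L * p) X.OD.Q p a)
    (fun x (hx : x ∈ HP O (k := ResidueField O) (S := X.OD.S ∪ X.OD.Q) X.OD.lam (X.OD.L * p)
      X.OD.Q p a) => hx.1.1) C (fun π₁ hπ₁ => by
      obtain ⟨T, hT, hTd, hTs, hTt, hTn⟩ := exists_point_model G.hp2 R₁ π₁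
      obtain ⟨A, hA, -⟩ := Frob.exists_place_frobenius hpf.out
      obtain ⟨π₀', hπ₀', hb'⟩ := selP' hfl G.hp2 G.hpO D.ρbar (D.Smin ∪ X.OD.Q) D.Smin
        (Finset.mem_union_left _ D.hpSmin) R' R₁ π₁ a hsq ⟨A, hA, fun σ hσ => by
          rw [← hTt, ← hTn]
          refine lgcp_mat (N := X.OD.N) (S := S₁) G.hp2 (by rwa [X.hN]) hpS₁
            ((Finset.finite_toSet _).subset Set.diff_subset) G.hpO θf hT hTs ?_ hTd.1.2.1 ha ?_
            hA hσ
          · intro ℓ hℓ hℓN hℓS hℓp B hB τ hτ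
            have hℓS' : ℓ ∉ D.SQ X.OD.Q := fun h => hℓS ⟨h, hℓp⟩
            rw [hθf, hTt]
            refine ⟨hπ₁ ⟨ℓ, hℓ, hℓS'⟩ B hB τ hτ, ?_⟩
            have hrefl : (matRep T hT).IsEquiv (matRep T hT) := ⟨GaloisRepAdic.Equiv.refl _⟩
            exact Sel.det_frob hrefl hTd.detCyc hpf.out hℓ hℓp.symm hB hτ
          · rw [hθf]
            exact hroot⟩
      have h1 : π₀' = π' := ext_of_frob G.hp2 R' π₀' π' (Finset.finite_toSet (D.Sf ∪ X.OD.Q))
        (fun ℓ hℓ hℓS P hP τ hτ => (hπ₀' τ).trans ((hπ₁ ⟨ℓ, hℓ, hℓS⟩ P hP τ hτ).trans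
          (hπ' ⟨ℓ, hℓ, hℓS⟩ P hP τ hτ).symm))
      subst h1
      have hb2 : Module.length O (RingHom.ker π₁).Cotangent ≤
          Module.length O (RingHom.ker π₀).Cotangent + addVal O X.OD.c +
            addVal O (a ^ 2 - 1) := hb'.trans (add_le_add_left hb _)
      constructor
      · refine ne_top_of_le_ne_top (WithTop.add_ne_top.mpr ⟨WithTop.add_ne_top.mpr
          ⟨hfin, X.addVal_c_ne⟩, ?_⟩) hb2
        intro h
        exact hsq (sub_eq_zero.mp (IsDiscreteValuationRing.addVal_eq_top_iff.mp h))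
      · refine le_trans ?_ hgv.symm.le
        rw [← mul_add, ← mul_add]
        exact mul_le_mul_right hb2 _) ρ hρ hρb
  exact ⟨X.OD.L * p, inferInstance, χ, Or.inr ⟨rfl, hpN⟩, hχ⟩

/-- **the non-minimal case** -/
theorem GalD.step (HB : DatumB) (HR : ExistsDefRing) (HD : IsDefCondDD O p) (HOP : OmPSt) :
    StepSt X := by
  rcases X.ht₁ with h | ⟨h1, h2, h3, a, ha, hroot⟩
  · exact X.case₁ HB HR HD h
  · exact X.case₂ HB HR HD HOP h1 h2 h3 ha hroot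

end Fermat.Agent.RT
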