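import Fermat.Agent.RT.Strict0
import Fermat.Agent.AtP.S33Core

/-!
# T10 (b): the relation at Frobenius when the residual representation is not flat
-/

set_option autoImplicit false
set_option linter.unusedSectionVars false
set_option linter.style.haveILetI false
set_option maxHeartbeats 400000
set_option synthInstance.maxHeartbeats 400000

noncomputable section

namespace Fermat.Agent.RT

open Fermat.Agent.HeckeQ Fermat.Agent.MazurP Fermat.Agent.AtP
open Fermat.Agent.AnJac Fermat.Agent.GalRep Fermat.Agent.GalRep.HData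
open CuspForm Matrix IsLocalRing Fermat.Agent.DefRing Fermat.Agent.TWGal

local notation "Qbar" => AlgebraicClosure ℚ
local notation "GQ" => Qbar ≃ₐ[ℚ] Qbar

/-- the old case: the reduction is flat -/
theorem old_flat {p : ℕ} [hp : Fact p.Prime] (hp2 : p ≠ 2) {M : ℕ} [NeZero M]
    [NeZero (p * M)] (hpM : ¬ p ∣ M) {S : Set ℕ} (hS : S.Finite)
    (hSN : ∀ i : JS S, ¬ i.1 ∣ p * M) (hSM : ∀ i : JS S, ¬ i.1 ∣ M)
    (hMS : ∀ r : ℕ, r.Prime → r ∣ M → r ∈ S)
    {B : Type} [CommRing B] [IsDomain B] [IsLocalRing B] [IsNoetherianRing B]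
    [IsAdicComplete (maximalIdeal B) B] [Finite (ResidueField B)] (hpB : (p : B) ∈ maximalIdeal B)
    (θ : heckeAlgebra (p * M) 2 S →+* B)
    {T : GQ →* Matrix (Fin 2) (Fin 2) B} (hT : MatCont T)
    (hspan : Submodule.span B (Set.range T) = ⊤)
    (hπ : FrobCond (D := hdata (p * M) p (esHyp (p * M) p)) (S := S)
      (θ.comp (HData.Phi S (hdata_link (esHyp (p * M) p)))) T)
    (hold : ∀ P : FreeAlgebra ℤ (JS S), lat M P = 0 → θ (hkA (p * M) hSN P) = 0) :
    Fl p (mapT (residue B) T) := by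
  obtain ⟨θM, hθM⟩ := exists_lift_theta M hSM hMS
    (θ.comp (hkA (p * M) hSN).toRingHom) hold
  have hfr : FrobCond (D := hdata M p (esHyp M p)) (S := S)
      (θM.comp (HData.Phi S (hdata_link (esHyp M p)))) T := by
    intro ℓ hℓ hℓN hℓS A hA τ hτ
    have hℓN' : ¬ ℓ ∣ (p * M) * p := by
      intro h
      rcases hℓ.dvd_mul.mp h with h | h
      · rcases hℓ.dvd_mul.mp h with h | h
        · exact hℓN (h.mul_left M)
        · exact hℓN (h.mul_right p)
      · exact hℓN (h.mul_left M)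
    obtain ⟨h1, h2⟩ := hπ ℓ hℓ hℓN' hℓS A hA τ hτ
    refine ⟨?_, h2⟩
    rw [h1, RingHom.comp_apply, HData.Phi_T S _ hℓ hℓN' hℓS, RingHom.comp_apply,
      HData.Phi_T S _ hℓ hℓN hℓS]
    have h3 := hθM (FreeAlgebra.ι ℤ ⟨ℓ, hℓ, hℓS⟩)
    rw [hkA_ι] at h3
    refine Eq.trans ?_ h3.symm
    show _ = θ (hkA (p * M) hSN (FreeAlgebra.ι ℤ ⟨ℓ, hℓ, hℓS⟩))
    rw [hkA_ι]
  exact FlatHopf.isFlatMod_of_S19 (N := M) (fun k => S19.result M p hpM k) hS hp2 hpB _ hT hfr
    hspan (residue B) ⟨1, by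
      rw [pow_one, ← map_natCast (residue B), residue_eq_zero_iff]
      exact hpB⟩

variable {p : ℕ} {M : ℕ} [NeZero (p * M)] {S : Finset ℕ}
  {𝒪 : Type} [CommRing 𝒪] [IsDomain 𝒪] [IsDiscreteValuationRing 𝒪]
  [IsAdicComplete (IsLocalRing.maximalIdeal 𝒪) 𝒪]
  {θ : CuspForm.heckeAlgebra (p * M) 2 (↑S : Set ℕ) →+* IsLocalRing.ResidueField 𝒪}
  {T : Type} [CommRing T] [IsLocalRing T] [IsNoetherianRing T]
  [IsAdicComplete (IsLocalRing.maximalIdeal T) T] [Algebra 𝒪 T] [IsLocalHom (algebraMap 𝒪 T)]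
  [Module.Finite 𝒪 T] [Module.Free 𝒪 T]

/-- the relation -/
theorem rel_strict [Finite (IsLocalRing.ResidueField 𝒪)] [CharZero 𝒪]
    (hp : p.Prime) (hp2 : p ≠ 2) (hp𝒪 : (p : 𝒪) ∈ IsLocalRing.maximalIdeal 𝒪)
    (hN2 : ¬ p ^ 2 ∣ p * M) (hNS : ∀ q : ℕ, q.Prime → q ∣ p * M → q ∈ S)
    (H : CuspForm.HeckeGaloisRepDatum (p * M) (↑S : Set ℕ) 𝒪 θ T)
    (b : Module.Basis (Fin 2) T H.ρ.V)
    (hnfl : ¬ Fl p (mapT (residue T) (repMat H.ρ b)))
    {A : ValuationSubring Qbar} (hA : A.LiesOverPrime p) {σ₀ φ₀ : GQ}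
    (hσ₀ : σ₀ ∈ A.inertiaSubgroupIn ℚ) (hφ₀ : A.IsFrobeniusAt φ₀ p) :
    (repMat H.ρ b σ₀ - (repMat H.ρ b σ₀).det • (1 : Matrix (Fin 2) (Fin 2) T)) *
      (repMat H.ρ b φ₀ * repMat H.ρ b φ₀ - 1) = 0 := by
  haveI : Fact p.Prime := ⟨hp⟩
  have hN0 : p * M ≠ 0 := NeZero.ne _
  haveI : NeZero M := ⟨fun h => hN0 (by rw [h, mul_zero])⟩
  have hpM : ¬ p ∣ M := fun h => hN2 (by rw [sq]; exact mul_dvd_mul_left p h)
  have hqM : Nat.Coprime p M := (Nat.Prime.coprime_iff_not_dvd hp).mpr hpM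
  have hpS : p ∈ S := hNS p hp (dvd_mul_right p M)
  have hSN : ∀ i : JS (↑S : Set ℕ), ¬ i.1 ∣ p * M := fun i h => i.2.2 (hNS i.1 i.2.1 h)
  have hSM : ∀ i : JS (↑S : Set ℕ), ¬ i.1 ∣ M := fun i h => hSN i (h.mul_left p)
  have hSp : ∀ i : JS (↑S : Set ℕ), ¬ i.1 ∣ (p * M) * p := fun i h => by
    rcases i.2.1.dvd_mul.mp h with h | h
    · exact hSN i h
    · exact hSN i (h.mul_right M)
  have hMS : ∀ r : ℕ, r.Prime → r ∣ M → r ∈ (↑S : Set ℕ) := fun r hr h =>
    hNS r hr (h.mul_left p)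
  have hpT : (p : T) ∈ maximalIdeal T := by
    have h1 : algebraMap 𝒪 T (p : 𝒪) ∈ maximalIdeal T := by
      have : (p : 𝒪) ∈ nonunits 𝒪 := hp𝒪
      exact fun hu => this ((isUnit_map_iff (algebraMap 𝒪 T) _).mp hu)
    rwa [map_natCast] at h1
  have hfr : FrobCond (D := hdata (p * M) p (esHyp (p * M) p)) (S := (↑S : Set ℕ))
      (H.π.comp (HData.Phi (↑S : Set ℕ) (hdata_link (esHyp (p * M) p)))) (repMat H.ρ b) :=
    FlatHopf.repMat_frobCond _ _ H b
  have hT : MatCont (repMat H.ρ b) := repMat_matCont H.ρ b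
  have hspan := repMat_span H.ρ b H.residual_absIrr
  haveI := isReduced_datum hNS H
  haveI : Finite (ResidueField T) := by
    haveI : Module.Finite (ResidueField 𝒪) (ResidueField T) := by
      haveI : Module.Finite 𝒪 (ResidueField T) :=
        Module.Finite.of_surjective ((IsScalarTower.toAlgHom 𝒪 T (ResidueField T)).toLinearMap)
          residue_surjective
      exact Module.Finite.of_restrictScalars_finite 𝒪 (ResidueField 𝒪) (ResidueField T)
    exact Module.finite_of_finite (ResidueField 𝒪)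
  by_contra hne
  obtain ⟨i, j, hij⟩ : ∃ i j, ((repMat H.ρ b σ₀ -
      (repMat H.ρ b σ₀).det • (1 : Matrix (Fin 2) (Fin 2) T)) *
      (repMat H.ρ b φ₀ * repMat H.ρ b φ₀ - 1)) i j ≠ 0 := by
    by_contra hcon
    push Not at hcon
    exact hne (Matrix.ext hcon)
  obtain ⟨P, hP, hxP, hPO⟩ := exists_prime_notMem (O := 𝒪) hij
  -- the domain `B = T / P`
  haveI : Nontrivial (T ⧸ P) := Ideal.Quotient.nontrivial_iff.mpr hP.ne_top
  haveI : IsLocalRing (T ⧸ P) :=
    IsLocalRing.of_surjective' (Ideal.Quotient.mk P) Ideal.Quotient.mk_surjective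
  have hloc : IsLocalHom (Ideal.Quotient.mk P) :=
    IsLocalHom.of_surjective _ Ideal.Quotient.mk_surjective
  haveI : IsLocalHom (algebraMap T (T ⧸ P)) := hloc
  haveI : IsAdicComplete (maximalIdeal (T ⧸ P)) (T ⧸ P) :=
    IsLocalRing.isAdicComplete_of_module_finite (𝒪 := T)
  have hinj : Function.Injective (algebraMap 𝒪 (T ⧸ P)) := by
    rw [injective_iff_map_eq_zero]
    intro a ha
    exact hPO a (Ideal.Quotient.eq_zero_iff_mem.mp ha)
  haveI : CharZero (T ⧸ P) := charZero_of_injective_algebraMap hinj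
  haveI : Finite (ResidueField (T ⧸ P)) := by
    refine Finite.of_surjective (ResidueField.map (Ideal.Quotient.mk P)) fun y => ?_
    obtain ⟨y, rfl⟩ := residue_surjective y
    obtain ⟨t, rfl⟩ := Ideal.Quotient.mk_surjective y
    exact ⟨residue T t, rfl⟩
  set φ : T →+* T ⧸ P := Ideal.Quotient.mk P with hφ
  have hφm : ∀ x ∈ maximalIdeal T, φ x ∈ maximalIdeal (T ⧸ P) := fun x hx => map_nonunit φ x hx
  have hpB : (p : T ⧸ P) ∈ maximalIdeal (T ⧸ P) := by
    rw [← map_natCast φ]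
    exact hφm _ hpT
  have hTB : MatCont (mapT φ (repMat H.ρ b)) := MatCont.map φ hloc hT
  have hspanB : Submodule.span (T ⧸ P) (Set.range (mapT φ (repMat H.ρ b))) = ⊤ :=
    span_map_eq_top φ hspan
  have hfrB : FrobCond (D := hdata (p * M) p (esHyp (p * M) p)) (S := (↑S : Set ℕ))
      ((φ.comp H.π).comp (HData.Phi (↑S : Set ℕ) (hdata_link (esHyp (p * M) p))))
      (mapT φ (repMat H.ρ b)) := by
    intro ℓ hℓ hℓN hℓS A' hA' τ' hτ'
    obtain ⟨h1, h2⟩ := hfr ℓ hℓ hℓN hℓS A' hA' τ' hτ'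
    constructor
    · have h3 := congrArg φ h1
      rw [Matrix.trace_fin_two, map_add] at h3
      rw [Matrix.trace_fin_two]
      exact h3
    · have h3 := congrArg φ h2
      rw [map_natCast] at h3
      rw [← h3]
      exact (RingHom.map_det φ _).symm
  have hmap : ∀ σ, mapT φ (repMat H.ρ b) σ = φ.mapMatrix (repMat H.ρ b σ) := fun _ => rfl
  have hmdet : ∀ σ, (mapT φ (repMat H.ρ b) σ).det = φ (repMat H.ρ b σ).det := fun σ =>
    (RingHom.map_det φ _).symm
  have hprod : ∀ σ τ, (mapT φ (repMat H.ρ b) σ - (mapT φ (repMat H.ρ b) σ).det • 1) *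
      (mapT φ (repMat H.ρ b) τ * mapT φ (repMat H.ρ b) τ - 1) = φ.mapMatrix ((repMat H.ρ b σ -
        (repMat H.ρ b σ).det • 1) * (repMat H.ρ b τ * repMat H.ρ b τ - 1)) := by
    intro σ τ
    rw [hmdet, hmap, hmap, map_mul, map_sub, map_sub, map_one, map_smul_one, map_mul]
  have key : (mapT φ (repMat H.ρ b) σ₀ - (mapT φ (repMat H.ρ b) σ₀).det • 1) *
      (mapT φ (repMat H.ρ b) φ₀ * mapT φ (repMat H.ρ b) φ₀ - 1) = 0 := by
    by_cases hold : ∀ Q : FreeAlgebra ℤ (JS (↑S : Set ℕ)), lat M Q = 0 →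
        (φ.comp H.π) (hkA (p * M) hSN Q) = 0
    · exfalso
      have h1 := old_flat hp2 hpM S.finite_toSet hSN hSM hMS hpB (φ.comp H.π) hTB hspanB hfrB hold
      apply hnfl
      haveI : Finite (ResidueField T) := inferInstance
      refine Fl.of_inj2 (ResidueField.map φ) (ResidueField.map φ)
        (fun x hx _ => (map_eq_zero _).mp hx) ?_ ?_
      · exact h1
      · exact h1
    · push Not at hold
      obtain ⟨Q, hQ, hQ'⟩ := hold
      exact rel_generic (NeZero.ne (p * M)) S.finite_toSet hpB _ hTB hspanB hfrB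
        (X := MazurP.mt (p * M) Q) hQ' (fun w hw => mt_eig hSN hSp (φ.comp H.π) hw Q)
        (new_mat hp2 hA hqM hSN hQ hφ₀ hσ₀)
  rw [hprod] at key
  have h1 := congrFun (congrFun key i) j
  exact hxP (Ideal.Quotient.eq_zero_iff_mem.mp h1)

end Fermat.Agent.RT
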