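import Fermat.Agent.RT.DatB
import Fermat.Agent.RT.Strict
import Fermat.Agent.S23
import Fermat.Agent.S31
import Fermat.Agent.S32
import Fermat.Agent.S33
import Fermat.Agent.S34

/-!
# T10 (b)
-/

set_option autoImplicit false
set_option linter.unusedSectionVars false
set_option maxHeartbeats 400000
set_option synthInstance.maxHeartbeats 400000

noncomputable section

namespace Fermat.Agent.RT

open CuspForm Matrix IsLocalRing Fermat.Agent.DefRing Fermat.Agent.TWGal Fermat.Agent.GalRep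
  Fermat.Agent.TW56 GaloisRep

local notation "Qbar" => AlgebraicClosure ℚ
local notation "GQ" => Qbar ≃ₐ[ℚ] Qbar

theorem repMat_res {k : Type} [Field k] (ρbar : ResidualGaloisRep k)
    (b : Module.Basis (Fin 2) k ρbar.V) :
    repMat (GaloisRepAdic.ofResidualGaloisRep ρbar) b = resMatHom ρbar b := rfl

theorem ord_transfer {p : ℕ} [Fact p.Prime] {k k' : Type} [Field k] [Field k'] {ρbar : ResidualGaloisRep k}
    {ρ' : ResidualGaloisRep k'} (ψ : k →+* k') (h : ρ'.IsEquiv (ρbar.baseChangeAlong ψ))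
    (ho : (GaloisRepAdic.ofResidualGaloisRep ρbar).IsOrdinaryAt p) :
    (GaloisRepAdic.ofResidualGaloisRep ρ').IsOrdinaryAt p := by
  have hψ : IsLocalHom ψ := inferInstance
  obtain ⟨e⟩ := h
  have he : ((GaloisRepAdic.ofResidualGaloisRep ρbar).baseChangeAlong ψ hψ).IsEquiv
      (GaloisRepAdic.ofResidualGaloisRep ρ') :=
    ⟨{ toLinearEquiv := e.symm.toLinearEquiv
       map_apply := e.symm.map_apply }⟩
  obtain ⟨b1, hb1⟩ := exists_basis_baseChange ψ hψ (GaloisRepAdic.ofResidualGaloisRep ρbar)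
    (bas (GaloisRepAdic.ofResidualGaloisRep ρbar))
  obtain ⟨b2, hb2⟩ := exists_basis_of_isEquiv he b1
  rw [ordN_iff _ b2, hb2, hb1]
  exact mor_map ψ ((ordN_iff _ _).mp ho)

theorem hcond (𝒪 : Type) [CommRing 𝒪] [IsDomain 𝒪] [IsDiscreteValuationRing 𝒪]
    [IsAdicComplete (maximalIdeal 𝒪) 𝒪] [Finite (ResidueField 𝒪)] [CharZero 𝒪]
    (p : ℕ) [hpp : Fact p.Prime] (hp2 : p ≠ 2) (hp𝒪 : (p : 𝒪) ∈ maximalIdeal 𝒪)
    (ρbar : ResidualGaloisRep (ResidueField 𝒪)) (_ : ρbar.IsAbsolutelyIrreducible)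
    (b : Module.Basis (Fin 2) (ResidueField 𝒪) ρbar.V) : HCond 𝒪 p ρbar b := by
  intro N _ _ S hpS hNS θ hatt T hT H hHρ hres hdet t Smin hmin hlev
  have hp := hpp.out
  set T₀ := heckeLocal N (↑S : Set ℕ) 𝒪 θ with hT₀
  haveI hloc : IsLocalHom (algebraMap 𝒪 T₀) := inferInstance
  have hpT : (p : T₀) ∈ maximalIdeal T₀ := by
    rw [← map_natCast (algebraMap 𝒪 T₀), mem_max_iff_of_local hloc]
    exact hp𝒪
  obtain ⟨b₀, hb₀⟩ : ∃ b₀ : Module.Basis (Fin 2) T₀ H.ρ.V, repMat H.ρ b₀ = T := by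
    rw [hHρ]; exact exists_basis_matRep T hT
  have hdetC : H.ρ.DetIsCyclotomic p := (detCyc_iff H.ρ b₀).mpr ⟨hpT, by rw [hb₀]; exact hdet⟩
  have hunr : ∀ q : ℕ, q.Prime → q ∉ S → H.ρ.IsUnramifiedAt q := fun q hq hqS =>
    S31.result hp hp𝒪 hpS hNS H q hq hqS
  have hresE : H.ρ.residual.IsEquiv (ρbar.baseChangeAlong (ResidueField.map (algebraMap 𝒪 T₀))) := by
    rw [hHρ]
    exact matRep_residual_isEquiv ρbar b _ T hT hres
  have hord : (GaloisRepAdic.ofResidualGaloisRep ρbar).IsOrdinaryAt p → p ∣ N → ¬ p ^ 2 ∣ N →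
      H.ρ.IsOrdinaryAt p := fun ho h1 h2 =>
    S33.result hp hp2 hp𝒪 ⟨h1, h2⟩ hNS H (ord_transfer _ hresE ho)
  refine ⟨?_, fun q hq hqp hqne => S34.result hp hp𝒪 hpS hNS H q hqp hqne (hmin q hq hqp hqne).1
    (hmin q hq hqp hqne).2⟩
  cases t with
  | fl => exact ⟨hdetC, S32.result hp hp2 hp𝒪 hlev hpS hNS H, hunr⟩
  | ord => exact ⟨hdetC, hord hlev.2.2 hlev.1 hlev.2.1, hunr⟩
  | st =>
    refine ⟨hdetC, ?_, hunr⟩
    obtain ⟨hpN, hpN2, ho, hnfl⟩ := hlev
    have ho' := hord ho hpN hpN2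
    rw [ord_iff H.ρ b₀]
    have hdet' : MDet p (repMat H.ρ b₀) := by rw [hb₀]; exact hdet
    refine ⟨hpT, (mord_iff hpT hdet').mpr ?_⟩
    refine strict_of_rel (repMat_matCont H.ρ b₀) ((ordN_iff H.ρ b₀).mp ho') fun A hA => ?_
    obtain ⟨σ₀, hσ₀, hu⟩ := AtP.exists_inertia_unit hp2 hA
    refine ⟨σ₀, hσ₀, isUnit_det_sub_one hpT hdet' hu, fun φ hφ => ?_⟩
    have hnfl' : ¬ Fl p (mapT (residue T₀) (repMat H.ρ b₀)) := by
      intro hfl
      apply hnfl
      have e : mapT (residue T₀) (repMat H.ρ b₀) =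
          mapT (ResidueField.map (algebraMap 𝒪 T₀)) (resMatHom ρbar b) := by
        rw [hb₀]
        refine MonoidHom.ext fun σ => ?_
        ext i j
        exact hres σ i j
      rw [e] at hfl
      haveI : Finite (ResidueField T₀) := finite_res hloc (H.residue_surjective)
      have hfl' : Fl p (resMatHom ρbar b) :=
        Fl.of_inj2 (ResidueField.map (algebraMap 𝒪 T₀)) (ResidueField.map (algebraMap 𝒪 T₀))
          (fun x hx _ => (map_eq_zero _).mp hx) hfl hfl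
      rw [flatAt_iff (GaloisRepAdic.ofResidualGaloisRep ρbar) b]
      refine ⟨Finite.of_surjective (residue (ResidueField 𝒪)) residue_surjective, ?_⟩
      rw [repMat_res]
      exact Fl.mflat hfl'
    obtain ⟨M, rfl⟩ := hpN
    exact rel_strict hp hp2 hp𝒪 hpN2 hNS H b₀ hnfl' hA hσ₀ hφ

/-- **T10 (b)** -/
theorem existsDatum : ExistsDatum := existsDatum_of hcond

/-- **T10 (b')** -/
theorem datumB : DatumB := datumB_of (fun N _ => S23.result N) hcond

/-- matrix form of strictness -/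
theorem mord_of_DD {𝒪 : Type} [CommRing 𝒪] {p : ℕ} [Fact p.Prime] {A : Type} [CommRing A]
    [IsLocalRing A] [IsNoetherianRing A] [Algebra 𝒪 A] {S Smin : Finset ℕ}
    {T : GQ →* Matrix (Fin 2) (Fin 2) A} (hT : MatCont T)
    (h : DD 𝒪 .st p S Smin (matRep T hT)) : MOrd p T := by
  obtain ⟨b, hb⟩ := exists_basis_matRep T hT
  have h1 := ((ord_iff (matRep T hT) b).mp h.1.2.1).2
  rwa [hb] at h1

end Fermat.Agent.RT
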