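import Fermat.Agent.RT.MkInp
import Fermat.Agent.RT.MkFin
import Fermat.Agent.RT.MkUnit
import Fermat.Agent.RT.MazG
import Fermat.Agent.RT.T10b
import Fermat.Agent.TWG.Low
import Fermat.Agent.RT.Step
import Fermat.Agent.RT.OmPF
import Fermat.Agent.RT.A2

/-!
# The modularity lifting theorem for semistable curves
-/

set_option autoImplicit false
set_option maxHeartbeats 400000
set_option linter.style.haveILetI false

noncomputable section

namespace Fermat.Agent.RT

open IsLocalRing Matrix Fermat.Agent.DefRing Fermat.Agent.GalRep Fermat.Agent.TWPatch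
  Fermat.Agent.TWLoc Fermat.Agent.TWGal CuspForm GaloisRep Fermat.Agent.TWG
  Fermat.Agent.TW56
open Fermat.Agent.TWCoh hiding GQ
open Fermat.Agent.S43Glue (FinLevel HMod chiK chiK_frob curveRep irred_of_irreducible)

/-- the non-minimal step for all data -/
def StepAll (p : ℕ) [Fact p.Prime] : Prop :=
  ∀ (O : Type) [CommRing O] [CNL O] [IsDomain O] [IsDiscreteValuationRing O] [CharZero O]
    [Algebra ℤ_[p] O] [Module.Finite ℤ_[p] O] (G : Bas p O) (D : GalD G) (X : StepD D), StepSt X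

theorem s59_of (p : ℕ) [hpf : Fact p.Prime] (hp : p = 3 ∨ p = 5) (hA2 : A2St p) (hA3 : A3St p)
    (hstep : StepAll p)
    (W : WeierstrassCurve ℤ) (hΔ : W.Δ ≠ 0) (hW : W.IsSemistableModel)
    (hirr : W.ModRepIsIrreducible p)
    (M₀ : ℕ) [NeZero M₀] (hres₀ : W.IsResiduallyModularOfLevel p M₀)
    (hM₀ : ¬ p ^ 2 ∣ M₀)
    (hM₀3 : ∀ q : ℕ, q.Prime → q ≠ p → ¬ q ^ 3 ∣ M₀) :
    Mlc1IsModularModelOfExactConductorLevel W := by
  have hp2 : p ≠ 2 := by rcases hp with rfl | rfl <;> norm_num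
  obtain ⟨B⟩ := Tate.exists_bases (W := W) (p := p) hΔ
  have hlow : LowSt p := TWG.low hp2 datumB (mazG p hp2) hA2 hA3
  obtain ⟨O, i1, i2, i3, i4, i5, i6, i7, I, hr⟩ :=
    exists_inp hlow hp B hΔ hW hirr hres₀ hM₀ hM₀3
  haveI : Finite (ResidueField O) := CNL.finRes
  obtain ⟨ρ, hρ⟩ := tate_dd B hp2 hΔ hW hirr O I.hpO
  have hloc : W.IsGoodPrimeFor p → FlatRes p (curveRep B.b) := by
    intro h
    have e : mapT (PadicInt.toZMod (p := p)) B.T = curveRep B.b :=
      MonoidHom.ext fun σ => (Tate.curve_eq B σ).symm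
    have h1 := (FlatG.mflat_T B hΔ h).flat (PadicInt.toZMod (p := p))
    rw [e] at h1
    exact h1
  have hord : ¬ W.IsGoodPrimeFor p → MOrd p (curveRep B.b) := by
    intro h
    have e : mapT (PadicInt.toZMod (p := p)) B.T = curveRep B.b :=
      MonoidHom.ext fun σ => (Tate.curve_eq B σ).symm
    have h1 := (Tate.mord_T hp2 B hΔ hW hirr h).map (f := PadicInt.toZMod (p := p))
    rwa [e] at h1
  exact mlc_of_inp B hΔ hW hirr I hr hloc hord
    (fun h1 h2 => I.exists_unit_root hirr h1 (hord h2))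
    (fun X => hstep O I.G (I.D hirr) X) ρ hρ

theorem stepAll (p : ℕ) [Fact p.Prime] (hp2 : p ≠ 2) : StepAll p := by
  intro O _ _ _ _ _ _ _ G D X
  haveI : Finite (ResidueField O) := CNL.finRes
  exact GalD.step X datumB existsDefRing
    (fun t S Smin _ => isDeformationCondition_DD hp2 t S Smin) omP

/-- **S59 from (A3)** -/
theorem s59_of_a3 (p : ℕ) [hpf : Fact p.Prime] (hp : p = 3 ∨ p = 5) (hA3 : A3St p)
    (W : WeierstrassCurve ℤ) (hΔ : W.Δ ≠ 0) (hW : W.IsSemistableModel)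
    (hirr : W.ModRepIsIrreducible p)
    (M₀ : ℕ) [NeZero M₀] (hres₀ : W.IsResiduallyModularOfLevel p M₀)
    (hM₀ : ¬ p ^ 2 ∣ M₀)
    (hM₀3 : ∀ q : ℕ, q.Prime → q ≠ p → ¬ q ^ 3 ∣ M₀) :
    Mlc1IsModularModelOfExactConductorLevel W := by
  have hp2 : p ≠ 2 := by rcases hp with rfl | rfl <;> norm_num
  exact s59_of p hp (a2 hp2) hA3 (stepAll p hp2) W hΔ hW hirr M₀ hres₀ hM₀ hM₀3

end Fermat.Agent.RT
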