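import Fermat.Agent.PicFlat.Descent
import Fermat.Agent.PicFlat.LocOrd
import Fermat.Agent.ECFrob.Qbar
import Fermat.Agent.S58X.Cmp

/-!
# Flatness of torsion of an elliptic curve at a prime of good reduction
-/

set_option autoImplicit false
set_option linter.style.haveILetI false
set_option linter.unusedSectionVars false

noncomputable section

namespace Fermat.Agent.RT.FlatG

open WeierstrassCurve WeierstrassCurve.Affine WeierstrassCurve.Affine.Point
open Fermat.Agent.ECFrob Fermat.Agent.ECRed Fermat.Agent.S58X Fermat.Agent.PicFlat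
open Fermat.Agent.FlatLoc
open scoped Pointwise

attribute [local instance] Fermat.Agent.Frob.isAlgebraic_Qbar

local notation "Qbar" => AlgebraicClosure ℚ
local notation "GQ" => (AlgebraicClosure ℚ ≃ₐ[ℚ] AlgebraicClosure ℚ)

section Coord

variable {F : Type*} [Field F] {W : Affine F}

/-- the `y`-coordinate -/
def yN : W.Point → F
  | .zero => 0
  | .some _ y _ => y

theorem yN_some {x y : F} (h : W.Nonsingular x y) : yN (Point.some x y h) = y := rfl

variable [DecidableEq F]

/-- the generic addition formula -/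
theorem add_coords {P Q : W.Point} (hP : P ≠ 0) (hQ : Q ≠ 0) (hx : xN P ≠ xN Q) {l : F}
    (hl : l * (xN P - xN Q) = yN P - yN Q) :
    xN (P + Q) = l ^ 2 + W.a₁ * l - W.a₂ - xN P - xN Q ∧
    yN (P + Q) = -(l * (xN (P + Q) - xN P) + yN P) - W.a₁ * xN (P + Q) - W.a₃ := by
  rcases P with _ | ⟨x₁, y₁, h₁⟩
  · exact absurd rfl hP
  rcases Q with _ | ⟨x₂, y₂, h₂⟩
  · exact absurd rfl hQ
  rw [xN_some, xN_some] at hx
  rw [xN_some, xN_some, yN_some, yN_some] at hl
  have h3 : W.slope x₁ x₂ y₁ y₂ = l := by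
    rw [slope_of_X_ne hx, div_eq_iff (sub_ne_zero.mpr hx)]
    exact hl.symm
  rw [add_of_X_ne hx, xN_some, yN_some, xN_some, xN_some, yN_some, h3]
  constructor
  · rw [addX]
  · rw [addY, negAddY, negY]

theorem eq_or_neg_of_xN {P Q : W.Point} (hP : P ≠ 0) (hQ : Q ≠ 0) (hx : xN P = xN Q) :
    P = Q ∨ P = -Q := by
  rcases P with _ | ⟨x₁, y₁, h₁⟩
  · exact absurd rfl hP
  rcases Q with _ | ⟨x₂, y₂, h₂⟩
  · exact absurd rfl hQ
  rw [xN_some, xN_some] at hx
  subst hx
  rcases Y_eq_of_X_eq h₁.1 h₂.1 rfl with h | h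
  · subst h; left; rfl
  · right
    rw [neg_some]
    congr 1

end Coord

variable {A : ValuationSubring Qbar} {p : ℕ} [hp : Fact p.Prime] (hA : A.LiesOverPrime p)
  {W : WeierstrassCurve ℤ} (hW : W.IsGoodPrimeFor p)

/-- reduction of points -/
abbrev rd : Pts W →+ (Wr A W).toAffine.Point := redA hA hW

theorem pi_inertia {σ : GQ} (hσ : σ ∈ A.inertiaSubgroupIn ℚ) {x : Qbar} (hx : x ∈ A)
    (hx' : σ x ∈ A) : (resData A).π ⟨σ x, hx'⟩ = (resData A).π ⟨x, hx⟩ := by
  have h1 := inertia_sub A hσ hx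
  rw [ValuationSubring.mem_nonunits_iff_exists_mem_maximalIdeal] at h1
  obtain ⟨h2, h3⟩ := h1
  have h4 := ((resData A).loc ⟨σ x - x, h2⟩).2 h3
  have h5 : (⟨σ x - x, h2⟩ : (resData A).A) = ⟨σ x, hx'⟩ - ⟨x, hx⟩ := rfl
  rw [h5, map_sub, sub_eq_zero] at h4
  exact h4

theorem mem_inertia {σ : GQ} (hσ : σ ∈ A.inertiaSubgroupIn ℚ) (x : Qbar) :
    σ x ∈ A ↔ x ∈ A := by
  have hdec : σ • A = A := by
    obtain ⟨τ, hτ, rfl⟩ := hσ
    exact τ.2
  constructor
  · intro h
    have h1 : σ • x ∈ σ • A := by rw [hdec]; exact h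
    exact (ValuationSubring.smul_mem_pointwise_smul_iff).1 h1
  · intro h
    have h1 : σ • x ∈ σ • A := (ValuationSubring.smul_mem_pointwise_smul_iff).2 h
    rw [hdec] at h1; exact h1

/-- coordinates of points with non-zero reduction -/
theorem coords {P : Pts W} (h : rd hA hW P ≠ 0) :
    P ≠ 0 ∧ ∃ (hx : xN P ∈ A) (hy : yN P ∈ A), rd hA hW P ≠ 0 ∧
      xN (rd hA hW P) = (resData A).π ⟨xN P, hx⟩ ∧
      yN (rd hA hW P) = (resData A).π ⟨yN P, hy⟩ := by
  have h0 : P ≠ 0 := by
    rintro rfl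
    exact h (map_zero _)
  refine ⟨h0, ?_⟩
  rcases P with _ | ⟨x, y, hP⟩
  · exact absurd rfl h0
  by_cases hx : x ∈ A
  · obtain ⟨h', e⟩ := (resData A).rhom_some (hΔA hA hW) (hKA A W) (hkA A W) hP hx
    have e' : rd hA hW (.some x y hP) = .some _ _ h' := e
    have hy : y ∈ A := (resData A).Y_mem' hP hx (hKA A W)
    refine ⟨by rw [xN_some]; exact hx, hy, h, ?_, ?_⟩
    · rw [e', xN_some]
      rfl
    · rw [e', yN_some]
      rfl
  · exfalso
    apply h
    change (resData A).rhom (hΔA hA hW) (hKA A W) (hkA A W) (.some x y hP) = 0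
    rw [RedData.rhom_eq_zero_iff]
    right
    rw [xN_some]
    exact hx

theorem xN_smul (σ : GQ) (P : Pts W) : xN (σ • P) = σ (xN P) := N_smul σ P

theorem yN_smul (σ : GQ) (P : Pts W) : yN (σ • P) = σ (yN P) := by
  rw [smul_eq_map]
  rcases P with _ | ⟨x, y, h⟩
  · exact (map_zero σ).symm
  · rw [map_some]; rfl

theorem ext_coords {E : Affine Qbar} {P Q : E.Point} (hP : P ≠ 0) (hQ : Q ≠ 0) (hx : xN P = xN Q)
    (hy : yN P = yN Q) : P = Q := by
  rcases P with _ | ⟨x₁, y₁, h₁⟩
  · exact absurd rfl hP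
  rcases Q with _ | ⟨x₂, y₂, h₂⟩
  · exact absurd rfl hQ
  rw [xN_some, xN_some] at hx
  rw [yN_some, yN_some] at hy
  subst hx hy
  rfl

theorem rd_some_zero {x y : Qbar} (h : ((W.map (Int.castRingHom ℚ))⁄Qbar).Nonsingular x y)
    (hx : x ∉ A) : rd hA hW (.some x y h) = 0 :=
  ((resData A).rhom_eq_zero_iff (hΔA hA hW) (hKA A W) (hkA A W)).2 (Or.inr hx)

theorem rd_some_eq {x y x' y' : Qbar} (h : ((W.map (Int.castRingHom ℚ))⁄Qbar).Nonsingular x y)
    (h' : ((W.map (Int.castRingHom ℚ))⁄Qbar).Nonsingular x' y') (hx : x ∈ A) (hx' : x' ∈ A)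
    (e : (resData A).π ⟨x, hx⟩ = (resData A).π ⟨x', hx'⟩)
    (e' : ∀ (hy : y ∈ A) (hy' : y' ∈ A), (resData A).π ⟨y, hy⟩ = (resData A).π ⟨y', hy'⟩) :
    rd hA hW (.some x y h) = rd hA hW (.some x' y' h') := by
  obtain ⟨h1, e1⟩ := (resData A).rhom_some (hΔA hA hW) (hKA A W) (hkA A W) h hx
  obtain ⟨h2, e2⟩ := (resData A).rhom_some (hΔA hA hW) (hKA A W) (hkA A W) h' hx'
  refine e1.trans (Eq.trans ?_ e2.symm)
  congr 1
  exact e' _ _

/-- inertia acts trivially on reductions -/
theorem rd_inertia {σ : GQ} (hσ : σ ∈ A.inertiaSubgroupIn ℚ) (P : Pts W) :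
    rd hA hW (σ • P) = rd hA hW P := by
  rcases P with _ | ⟨x, y, hP⟩
  · have h1 : σ • (Point.zero : Pts W) = 0 := gal_smul_zero σ
    change rd hA hW (σ • (Point.zero : Pts W)) = rd hA hW 0
    rw [h1]
  have e0 : σ • (Point.some x y hP : Pts W) = Point.map σ.toAlgHom (Point.some x y hP) := rfl
  rw [e0, map_some]
  by_cases hx : x ∈ A
  · have hx' : σ x ∈ A := (mem_inertia hσ x).2 hx
    exact rd_some_eq hA hW _ _ hx' hx (pi_inertia hσ hx hx')
      fun hy hy' => pi_inertia hσ hy' hy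
  · rw [rd_some_zero hA hW hP hx]
    exact rd_some_zero hA hW _ fun h => hx ((mem_inertia hσ x).1 h)

theorem rd_inj {m : ℕ} (hm : ¬ p ∣ m) {T : Pts W} (hT : m • T = 0) (h : rd hA hW T = 0) :
    T = 0 := redA_injective hA hW hm hT h

/-- points fixed by inertia -/
def Fx (A : ValuationSubring Qbar) (T : Pts W) : Prop := ∀ σ ∈ A.inertiaSubgroupIn ℚ, σ • T = T

theorem smul_add' (σ : GQ) (P Q : Pts W) : σ • (P + Q) = σ • P + σ • Q :=
  map_add (Point.map (W' := W.map (Int.castRingHom ℚ)) σ.toAlgHom) P Q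

theorem smul_sub' (σ : GQ) (P Q : Pts W) : σ • (P - Q) = σ • P - σ • Q :=
  map_sub (Point.map (W' := W.map (Int.castRingHom ℚ)) σ.toAlgHom) P Q

theorem Fx.sub {T T' : Pts W} (h : Fx A T) (h' : Fx A T') : Fx A (T - T') := fun σ hσ => by
  rw [smul_sub', h σ hσ, h' σ hσ]

include hA hW in
theorem fx_torsion {m : ℕ} (hm : ¬ p ∣ m) {T : Pts W} (hT : m • T = 0) : Fx A T := by
  intro σ hσ
  have h1 : rd hA hW (σ • T - T) = 0 := by
    rw [map_sub, rd_inertia hA hW hσ, sub_self]
  have h2 : m • (σ • T - T) = 0 := by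
    rw [nsmul_sub, hT, sub_zero]
    exact smul_mem_torG (W := W) (n := m) σ hT
  exact sub_eq_zero.mp (rd_inj hA hW hm h2 h1)

/-- many translations -/
theorem exists_T (hΔ : W.Δ ≠ 0) (u v c : (Wr A W).toAffine.Point) : ∃ T : Pts W, Fx A T ∧
    rd hA hW T ≠ u ∧ rd hA hW T ≠ v ∧ rd hA hW T + rd hA hW T ≠ c := by
  classical
  have hm : ¬ p ∣ 2 * p + 1 := by
    intro h
    have h1 := (Nat.dvd_add_right (Dvd.intro_left 2 rfl : p ∣ 2 * p)).mp h
    exact hp.out.one_lt.ne' (Nat.dvd_one.mp h1)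
  by_contra hcon
  push Not at hcon
  have hinj : ∀ {T T' : Pts W}, (2 * p + 1) • T = 0 → (2 * p + 1) • T' = 0 →
      rd hA hW T = rd hA hW T' → T = T' := by
    intro T T' hT hT' h
    refine sub_eq_zero.mp (rd_inj hA hW hm (T := T - T') ?_ ?_)
    · rw [nsmul_sub, hT, hT', sub_zero]
    · rw [map_sub, h, sub_self]
  let g : torG W (2 * p + 1) → Fin 3 := fun T =>
    if rd hA hW (T : Pts W) = u then 0 else if rd hA hW (T : Pts W) = v then 1 else 2
  have hg : Function.Injective g := by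
    intro T T' h
    have hT : (2 * p + 1) • (T : Pts W) = 0 := T.2
    have hT' : (2 * p + 1) • (T' : Pts W) = 0 := T'.2
    apply Subtype.ext
    by_cases h1 : rd hA hW (T : Pts W) = u
    · by_cases h2 : rd hA hW (T' : Pts W) = u
      · exact hinj hT hT' (h1.trans h2.symm)
      · exfalso
        simp only [g, if_pos h1, if_neg h2] at h
        split_ifs at h <;> exact absurd h (by decide)
    · by_cases h2 : rd hA hW (T' : Pts W) = u
      · exfalso
        simp only [g, if_pos h2, if_neg h1] at h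
        split_ifs at h <;> exact absurd h (by decide)
      · by_cases h3 : rd hA hW (T : Pts W) = v
        · by_cases h4 : rd hA hW (T' : Pts W) = v
          · exact hinj hT hT' (h3.trans h4.symm)
          · exfalso
            simp only [g, if_neg h1, if_neg h2, if_pos h3, if_neg h4] at h
            exact absurd h (by decide)
        · by_cases h4 : rd hA hW (T' : Pts W) = v
          · exfalso
            simp only [g, if_neg h1, if_neg h2, if_neg h3, if_pos h4] at h
            exact absurd h (by decide)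
          · have h5 := hcon T (fx_torsion hA hW hm hT) h1 h3
            have h6 := hcon T' (fx_torsion hA hW hm hT') h2 h4
            have h7 : (2 : ℕ) • ((T : Pts W) - T') = 0 := by
              refine rd_inj hA hW hm (T := (2 : ℕ) • ((T : Pts W) - T')) ?_ ?_
              · rw [smul_comm, nsmul_sub, hT, hT', sub_zero, nsmul_zero]
              · rw [map_nsmul, map_sub, two_nsmul]
                have h8 : rd hA hW (T : Pts W) - rd hA hW (T' : Pts W) +
                    (rd hA hW (T : Pts W) - rd hA hW (T' : Pts W)) =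
                    (rd hA hW (T : Pts W) + rd hA hW (T : Pts W)) -
                    (rd hA hW (T' : Pts W) + rd hA hW (T' : Pts W)) := by abel
                rw [h8, h5, h6, sub_self]
            have h9 : (2 * p + 1) • ((T : Pts W) - T') = 0 := by
              rw [nsmul_sub, hT, hT', sub_zero]
            rw [add_smul, mul_smul, smul_comm, h7, nsmul_zero, zero_add, one_smul] at h9
            exact sub_eq_zero.mp h9
  have h1 := Nat.card_le_card_of_injective g hg
  rw [card_torG hΔ (by omega), Nat.card_eq_fintype_card, Fintype.card_fin] at h1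
  have h2 := hp.out.two_le
  nlinarith

end Fermat.Agent.RT.FlatG
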