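import Fermat.Agent.RT.FlatG

/-!
# Flatness of torsion of an elliptic curve at a prime of good reduction: the local order
-/

set_option autoImplicit false
set_option linter.style.haveILetI false
set_option linter.unusedSectionVars false

noncomputable section

namespace Fermat.Agent.RT.FlatG

open WeierstrassCurve WeierstrassCurve.Affine WeierstrassCurve.Affine.Point
open Fermat.Agent.ECFrob Fermat.Agent.ECRed Fermat.Agent.S58X Fermat.Agent.PicFlat
open Fermat.Agent.FlatLoc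
open scoped Pointwise

attribute [local instance] Fermat.Agent.Frob.isAlgebraic_Qbar

local notation "Qbar" => AlgebraicClosure ℚ
local notation "GQ" => (AlgebraicClosure ℚ ≃ₐ[ℚ] AlgebraicClosure ℚ)

variable {A : ValuationSubring Qbar} {p : ℕ} [hp : Fact p.Prime] (hA : A.LiesOverPrime p)
  {W : WeierstrassCurve ℤ} (hW : W.IsGoodPrimeFor p)

variable {X : Type} [AddCommGroup X] (e : X →+ Pts W)

open Classical in
/-- indicator functions of residue classes -/
def idm (d : (Wr A W).toAffine.Point) (x : X) : Qbar := if rd hA hW (e x) = d then 1 else 0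

open Classical in
/-- translated coordinate functions on residue classes -/
def gf (φ : Pts W → Qbar) (d : (Wr A W).toAffine.Point) (T : Pts W) (x : X) : Qbar :=
  if rd hA hW (e x) = d then φ (e x + T) else 0

/-- the coordinate functions -/
def IsCo (φ : Pts W → Qbar) : Prop := φ = xN ∨ φ = yN

/-- generators -/
def gens : Set (X → Qbar) :=
  {f | (∃ a ∈ A, (∀ σ ∈ A.inertiaSubgroupIn ℚ, σ a = a) ∧ f = fun _ => a) ∨
    (∃ d, f = idm hA hW e d) ∨
    ∃ φ d T, IsCo φ ∧ Fx A T ∧ d + rd hA hW T ≠ 0 ∧ f = gf hA hW e φ d T}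

/-- the local ring of functions -/
def Hr : Subring (X → Qbar) := Subring.closure (gens hA hW e)

variable {e}

theorem const_mem {a : Qbar} (ha : a ∈ A) (h : ∀ σ ∈ A.inertiaSubgroupIn ℚ, σ a = a) :
    (fun _ => a) ∈ Hr hA hW e := Subring.subset_closure (Or.inl ⟨a, ha, h, rfl⟩)

theorem idm_mem (d : (Wr A W).toAffine.Point) : idm hA hW e d ∈ Hr hA hW e :=
  Subring.subset_closure (Or.inr (Or.inl ⟨d, rfl⟩))

theorem gf_mem {φ : Pts W → Qbar} (hφ : IsCo φ) {d : (Wr A W).toAffine.Point} {T : Pts W}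
    (hT : Fx A T) (h : d + rd hA hW T ≠ 0) : gf hA hW e φ d T ∈ Hr hA hW e :=
  Subring.subset_closure (Or.inr (Or.inr ⟨φ, d, T, hφ, hT, h, rfl⟩))

theorem val_co {φ : Pts W → Qbar} (hφ : IsCo φ) {P : Pts W} (h : rd hA hW P ≠ 0) : φ P ∈ A := by
  obtain ⟨-, hx, hy, -⟩ := coords hA hW h
  rcases hφ with rfl | rfl
  · exact hx
  · exact hy

theorem smul_co {φ : Pts W → Qbar} (hφ : IsCo φ) (σ : GQ) (P : Pts W) : φ (σ • P) = σ (φ P) := by
  rcases hφ with rfl | rfl
  · exact xN_smul σ P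
  · exact yN_smul σ P

theorem val_Hr {f : X → Qbar} (hf : f ∈ Hr hA hW e) (x : X) : f x ∈ A := by
  unfold Hr at hf
  induction hf using Subring.closure_induction with
  | mem f hf =>
    rcases hf with ⟨a, ha, -, rfl⟩ | ⟨d, rfl⟩ | ⟨φ, d, T, hφ, hT, h, rfl⟩
    · exact ha
    · rw [idm]
      split_ifs
      · exact A.one_mem
      · exact A.zero_mem
    · rw [gf]
      split_ifs with h1
      · refine val_co hA hW hφ ?_
        rw [map_add, h1]
        exact h
      · exact A.zero_mem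
  | zero => exact A.zero_mem
  | one => exact A.one_mem
  | add f f' _ _ ih ih' => exact A.add_mem _ _ ih ih'
  | neg f _ ih => exact A.neg_mem _ ih
  | mul f f' _ _ ih ih' => exact A.mul_mem _ _ ih ih'

variable {ρ : GQ →* AddMonoid.End X} (he : ∀ σ x, e (ρ σ x) = σ • e x)

include he in
theorem equiv_Hr {f : X → Qbar} (hf : f ∈ Hr hA hW e) {σ : GQ}
    (hσ : σ ∈ A.inertiaSubgroupIn ℚ) (x : X) : f (ρ σ x) = σ (f x) := by
  unfold Hr at hf
  induction hf using Subring.closure_induction with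
  | mem f hf =>
    rcases hf with ⟨a, ha, h, rfl⟩ | ⟨d, rfl⟩ | ⟨φ, d, T, hφ, hT, h, rfl⟩
    · exact (h σ hσ).symm
    · rw [idm, idm, he, rd_inertia hA hW hσ]
      split_ifs
      · exact (map_one σ).symm
      · exact (map_zero σ).symm
    · rw [gf, gf, he, rd_inertia hA hW hσ]
      split_ifs
      · rw [← smul_co hφ, smul_add', hT σ hσ]
      · exact (map_zero σ).symm
  | zero => exact (map_zero σ).symm
  | one => exact (map_one σ).symm
  | add f f' _ _ ih ih' => rw [Pi.add_apply, Pi.add_apply, ih, ih', map_add]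
  | neg f _ ih => rw [Pi.neg_apply, Pi.neg_apply, ih, map_neg]
  | mul f f' _ _ ih ih' => rw [Pi.mul_apply, Pi.mul_apply, ih, ih', map_mul]

theorem sep_Hr (hΔ : W.Δ ≠ 0) (hinj : Function.Injective e) {x y : X}
    (h : ∀ f ∈ Hr hA hW e, f x = f y) : x = y := by
  have h1 : rd hA hW (e x) = rd hA hW (e y) := by
    have := h _ (idm_mem hA hW (rd hA hW (e x)))
    rw [idm, idm, if_pos rfl] at this
    by_contra hne
    rw [if_neg (Ne.symm hne)] at this
    exact one_ne_zero this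
  obtain ⟨T, hT, hT1, -⟩ := exists_T hA hW hΔ (-rd hA hW (e x)) 0 0
  have hT2 : rd hA hW (e x) + rd hA hW T ≠ 0 := fun h0 =>
    hT1 (by rw [add_comm, add_eq_zero_iff_eq_neg] at h0; exact h0)
  have h2 : ∀ φ : Pts W → Qbar, IsCo φ → φ (e x + T) = φ (e y + T) := by
    intro φ hφ
    have := h _ (gf_mem hA hW hφ hT hT2)
    rwa [gf, gf, if_pos rfl, if_pos h1.symm] at this
  have h3 : rd hA hW (e x + T) ≠ 0 := by rw [map_add]; exact hT2
  have h4 : rd hA hW (e y + T) ≠ 0 := by rw [map_add, ← h1]; exact hT2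
  have h5 := ext_coords (coords hA hW h3).1 (coords hA hW h4).1 (h2 xN (Or.inl rfl))
    (h2 yN (Or.inr rfl))
  exact hinj (add_right_cancel h5)

theorem val2 {f : X × X → Qbar} (hf : f ∈ PicFlat.sq (Hr hA hW e)) (q : X × X) : f q ∈ A := by
  unfold PicFlat.sq at hf
  induction hf using Subring.closure_induction with
  | mem f hf =>
    rcases hf with ⟨h, hh, rfl⟩ | ⟨h, hh, rfl⟩
    · exact val_Hr hA hW hh q.1
    · exact val_Hr hA hW hh q.2
  | zero => exact A.zero_mem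
  | one => exact A.one_mem
  | add f f' _ _ ih ih' => exact A.add_mem _ _ ih ih'
  | neg f _ ih => exact A.neg_mem _ ih
  | mul f f' _ _ ih ih' => exact A.mul_mem _ _ ih ih'

include he in
theorem equiv2 {f : X × X → Qbar} (hf : f ∈ PicFlat.sq (Hr hA hW e)) {σ : GQ}
    (hσ : σ ∈ A.inertiaSubgroupIn ℚ) (q : X × X) : f (ρ σ q.1, ρ σ q.2) = σ (f q) := by
  unfold PicFlat.sq at hf
  induction hf using Subring.closure_induction with
  | mem f hf =>
    rcases hf with ⟨h, hh, rfl⟩ | ⟨h, hh, rfl⟩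
    · exact equiv_Hr hA hW he hh hσ q.1
    · exact equiv_Hr hA hW he hh hσ q.2
  | zero => exact (map_zero σ).symm
  | one => exact (map_one σ).symm
  | add f f' _ _ ih ih' => rw [Pi.add_apply, Pi.add_apply, ih, ih', map_add]
  | neg f _ ih => rw [Pi.neg_apply, Pi.neg_apply, ih, map_neg]
  | mul f f' _ _ ih ih' => rw [Pi.mul_apply, Pi.mul_apply, ih, ih', map_mul]

include he in
/-- inverses -/
theorem unit2 [Finite X] {f : X × X → Qbar} (hf : f ∈ PicFlat.sq (Hr hA hW e))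
    (hu : ∀ q, ∃ h : f q ∈ A, (resData A).π ⟨f q, h⟩ ≠ 0) :
    ∃ r ∈ PicFlat.sq (Hr hA hW e), f * r = 1 := by
  haveI : IsLocalHom (resData A).π := ⟨fun a ha => (RedData.isUnit_iff _).2 ha.ne_zero⟩
  haveI : IsLocalHom (show A →+* kA A from (resData A).π) := this
  have hcan : ∀ (σ : GQ) (x : X), ρ σ (ρ σ⁻¹ x) = x := rho_cancel ρ
  have hcan' : ∀ (σ : GQ) (x : X), ρ σ⁻¹ (ρ σ x) = x := rho_cancel' ρ
  let a : A.inertiaSubgroupIn ℚ → Qbar ≃+* Qbar := fun γ => (γ : GQ).toRingEquiv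
  let eq : A.inertiaSubgroupIn ℚ → (X × X) ≃ (X × X) := fun γ =>
    { toFun := fun q => (ρ γ q.1, ρ γ q.2)
      invFun := fun q => (ρ (γ : GQ)⁻¹ q.1, ρ (γ : GQ)⁻¹ q.2)
      left_inv := fun q => Prod.ext (hcan' _ _) (hcan' _ _)
      right_inv := fun q => Prod.ext (hcan _ _) (hcan _ _) }
  refine unit_of_equivariant (A := A) (π := (resData A).π) a eq _ ?_ hf (val2 hA hW hf)
    (fun γ q => equiv2 hA hW he hf γ.2 q) ?_
  · intro c hc hfix
    exact fst_mem_sq (const_mem hA hW hc fun σ hσ => hfix ⟨σ, hσ⟩)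
  · intro q x hx h0
    obtain ⟨h, hne⟩ := hu q
    apply hne
    rw [← h0]
    congr 1
    exact Subtype.ext hx.symm

/-- local nature of the functions on the square -/
theorem mem_of_local [Finite X] {F : X × X → Qbar}
    (h : ∀ d d', ∃ θ ∈ PicFlat.sq (Hr hA hW e), ∀ q : X × X, rd hA hW (e q.1) = d →
      rd hA hW (e q.2) = d' → θ q = F q) : F ∈ PicFlat.sq (Hr hA hW e) := by
  classical
  haveI := Fintype.ofFinite X
  choose θ hθ hθf using h
  set D := Finset.univ.image (fun x : X => rd hA hW (e x)) with hD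
  have h1 : F = ∑ d ∈ D, ∑ d' ∈ D, (fun q : X × X => idm hA hW e d q.1) *
        (fun q : X × X => idm hA hW e d' q.2) * θ d d' := by
    funext q
    rw [Finset.sum_apply, Finset.sum_eq_single (rd hA hW (e q.1))]
    · rw [Finset.sum_apply, Finset.sum_eq_single (rd hA hW (e q.2))]
      · simp only [Pi.mul_apply, idm, if_true, one_mul]
        exact (hθf _ _ q rfl rfl).symm
      · intro b _ hb
        simp only [Pi.mul_apply, idm, if_neg (Ne.symm hb), mul_zero, zero_mul]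
      · intro h
        exact absurd (Finset.mem_image_of_mem _ (Finset.mem_univ _)) h
    · intro b _ hb
      rw [Finset.sum_apply]
      refine Finset.sum_eq_zero fun d' _ => ?_
      simp only [Pi.mul_apply, idm, if_neg (Ne.symm hb), zero_mul]
    · intro h
      exact absurd (Finset.mem_image_of_mem _ (Finset.mem_univ _)) h
  rw [h1]
  exact sum_mem fun d _ => sum_mem fun d' _ => mul_mem (mul_mem (fst_mem_sq (idm_mem hA hW d))
    (snd_mem_sq (idm_mem hA hW d'))) (hθ d d')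

theorem coeff_mem (c : ℤ) : (fun _ => (c : Qbar)) ∈ PicFlat.sq (Hr hA hW e) :=
  fst_mem_sq (const_mem hA hW (intCast_mem A c) fun σ _ => map_intCast σ c)

include he in
/-- the addition of translated coordinates -/
theorem comul_co [Finite X] (hΔ : W.Δ ≠ 0) {T : Pts W} (hT : Fx A T)
    {d d' : (Wr A W).toAffine.Point} (hd : d + d' + rd hA hW T ≠ 0) :
    ∃ θx ∈ PicFlat.sq (Hr hA hW e), ∃ θy ∈ PicFlat.sq (Hr hA hW e), ∀ q : X × X, rd hA hW (e q.1) = d →
      rd hA hW (e q.2) = d' → θx q = xN (e q.1 + e q.2 + T) ∧ θy q = yN (e q.1 + e q.2 + T) := by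
  classical
  obtain ⟨T₁, hT₁, h1, h2, h3⟩ := exists_T hA hW hΔ (-d) (d' + rd hA hW T)
    (d' + rd hA hW T - d)
  set T₂ := T - T₁ with hT₂d
  have hT₂ : Fx A T₂ := hT.sub hT₁
  have h12 : T₁ + T₂ = T := by rw [hT₂d]; abel
  have hrT₂ : rd hA hW T₂ = rd hA hW T - rd hA hW T₁ := by rw [hT₂d, map_sub]
  have ha : d + rd hA hW T₁ ≠ 0 := fun h0 =>
    h1 (by rw [add_comm, add_eq_zero_iff_eq_neg] at h0; exact h0)
  have hb : d' + rd hA hW T₂ ≠ 0 := by
    intro h0
    apply h2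
    rw [hrT₂] at h0
    rw [← sub_eq_zero, ← neg_eq_zero, ← h0]
    abel
  have hab : d + rd hA hW T₁ ≠ d' + rd hA hW T₂ := by
    intro h0
    apply h3
    rw [hrT₂] at h0
    rw [← sub_eq_zero] at h0 ⊢
    rw [← h0]
    abel
  have hab' : d + rd hA hW T₁ ≠ -(d' + rd hA hW T₂) := by
    intro h0
    apply hd
    rw [hrT₂, ← sub_eq_zero] at h0
    rw [← h0]
    abel
  -- the functions
  set x₁ : X × X → Qbar := fun q => gf hA hW e xN d T₁ q.1 with hx₁
  set y₁ : X × X → Qbar := fun q => gf hA hW e yN d T₁ q.1 with hy₁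
  set x₂ : X × X → Qbar := fun q => gf hA hW e xN d' T₂ q.2 with hx₂
  set y₂ : X × X → Qbar := fun q => gf hA hW e yN d' T₂ q.2 with hy₂
  set ε : X × X → Qbar := (fun q => idm hA hW e d q.1) * fun q => idm hA hW e d' q.2 with hε
  have hx₁m : x₁ ∈ PicFlat.sq (Hr hA hW e) := fst_mem_sq (gf_mem hA hW (Or.inl rfl) hT₁ ha)
  have hy₁m : y₁ ∈ PicFlat.sq (Hr hA hW e) := fst_mem_sq (gf_mem hA hW (Or.inr rfl) hT₁ ha)
  have hx₂m : x₂ ∈ PicFlat.sq (Hr hA hW e) := snd_mem_sq (gf_mem hA hW (Or.inl rfl) hT₂ hb)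
  have hy₂m : y₂ ∈ PicFlat.sq (Hr hA hW e) := snd_mem_sq (gf_mem hA hW (Or.inr rfl) hT₂ hb)
  have hεm : ε ∈ PicFlat.sq (Hr hA hW e) := mul_mem (fst_mem_sq (idm_mem hA hW d))
    (snd_mem_sq (idm_mem hA hW d'))
  -- values on the class
  have hval : ∀ q : X × X, rd hA hW (e q.1) = d → rd hA hW (e q.2) = d' →
      x₁ q = xN (e q.1 + T₁) ∧ y₁ q = yN (e q.1 + T₁) ∧ x₂ q = xN (e q.2 + T₂) ∧
        y₂ q = yN (e q.2 + T₂) ∧ ε q = 1 := by
    intro q hq hq'
    refine ⟨?_, ?_, ?_, ?_, ?_⟩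
    · rw [hx₁]; exact if_pos hq
    · rw [hy₁]; exact if_pos hq
    · rw [hx₂]; exact if_pos hq'
    · rw [hy₂]; exact if_pos hq'
    · rw [hε, Pi.mul_apply, idm, idm, if_pos hq, if_pos hq', one_mul]
  have hoff : ∀ q : X × X, ¬ (rd hA hW (e q.1) = d ∧ rd hA hW (e q.2) = d') → ε q = 0 := by
    intro q hq
    rw [hε, Pi.mul_apply, idm, idm]
    by_cases h : rd hA hW (e q.1) = d
    · rw [if_neg fun h' => hq ⟨h, h'⟩, mul_zero]
    · rw [if_neg h, zero_mul]
  -- the unit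
  have hu : ∀ q, ∃ h : ((x₁ - x₂) * ε + (1 - ε)) q ∈ A,
      (resData A).π ⟨((x₁ - x₂) * ε + (1 - ε)) q, h⟩ ≠ 0 := by
    intro q
    by_cases hq : rd hA hW (e q.1) = d ∧ rd hA hW (e q.2) = d'
    · obtain ⟨e1, -, e3, -, e5⟩ := hval q hq.1 hq.2
      have e0 : ((x₁ - x₂) * ε + (1 - ε)) q = xN (e q.1 + T₁) - xN (e q.2 + T₂) := by
        rw [Pi.add_apply, Pi.mul_apply, Pi.sub_apply, Pi.sub_apply, e1, e3, e5, Pi.one_apply]
        ring
      have r1 : rd hA hW (e q.1 + T₁) ≠ 0 := by rw [map_add, hq.1]; exact ha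
      have r2 : rd hA hW (e q.2 + T₂) ≠ 0 := by rw [map_add, hq.2]; exact hb
      obtain ⟨-, hxA, -, -, hxr, -⟩ := coords hA hW r1
      obtain ⟨-, hxA', -, -, hxr', -⟩ := coords hA hW r2
      rw [e0]
      refine ⟨sub_mem hxA hxA', ?_⟩
      have e6 : (⟨xN (e q.1 + T₁) - xN (e q.2 + T₂), sub_mem hxA hxA'⟩ :
          (resData A).A) = ⟨_, hxA⟩ - ⟨_, hxA'⟩ := rfl
      rw [e6, map_sub, ← hxr, ← hxr', sub_ne_zero]
      intro h0
      rcases eq_or_neg_of_xN r1 r2 h0 with h4 | h4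
      · rw [map_add, map_add, hq.1, hq.2] at h4
        exact hab h4
      · rw [map_add, map_add, hq.1, hq.2] at h4
        exact hab' h4
    · have e0 : ((x₁ - x₂) * ε + (1 - ε)) q = 1 := by
        rw [Pi.add_apply, Pi.mul_apply, Pi.sub_apply 1 ε, hoff q hq, Pi.one_apply]
        ring
      rw [e0]
      refine ⟨A.one_mem, ?_⟩
      have e6 : (⟨(1 : Qbar), A.one_mem⟩ : (resData A).A) = 1 := rfl
      rw [e6, map_one]
      exact one_ne_zero
  obtain ⟨r, hr, hur⟩ := unit2 hA hW he (add_mem (mul_mem (sub_mem hx₁m hx₂m) hεm)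
    (sub_mem (one_mem _) hεm)) hu
  set l := (y₁ - y₂) * r with hl
  have hlm : l ∈ PicFlat.sq (Hr hA hW e) := mul_mem (sub_mem hy₁m hy₂m) hr
  set c₁ : X × X → Qbar := fun _ => ((W.a₁ : ℤ) : Qbar) with hc₁
  set c₂ : X × X → Qbar := fun _ => ((W.a₂ : ℤ) : Qbar) with hc₂
  set c₃ : X × X → Qbar := fun _ => ((W.a₃ : ℤ) : Qbar) with hc₃
  set x₃ := l ^ 2 + c₁ * l - c₂ - x₁ - x₂ with hx₃
  have hx₃m : x₃ ∈ PicFlat.sq (Hr hA hW e) := sub_mem (sub_mem (sub_mem (add_mem (pow_mem hlm 2)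
    (mul_mem (coeff_mem hA hW _) hlm)) (coeff_mem hA hW _)) hx₁m) hx₂m
  refine ⟨x₃, hx₃m, -(l * (x₃ - x₁) + y₁) - c₁ * x₃ - c₃, sub_mem (sub_mem (neg_mem (add_mem
    (mul_mem hlm (sub_mem hx₃m hx₁m)) hy₁m)) (mul_mem (coeff_mem hA hW _) hx₃m))
    (coeff_mem hA hW _), fun q hq hq' => ?_⟩
  obtain ⟨e1, e2, e3, e4, e5⟩ := hval q hq hq'
  have r1 : rd hA hW (e q.1 + T₁) ≠ 0 := by rw [map_add, hq]; exact ha
  have r2 : rd hA hW (e q.2 + T₂) ≠ 0 := by rw [map_add, hq']; exact hb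
  have hur' : (x₁ q - x₂ q) * r q = 1 := by
    have := congrFun hur q
    rw [Pi.mul_apply, Pi.add_apply, Pi.mul_apply, Pi.sub_apply x₁ x₂, e5, Pi.sub_apply 1 ε, e5,
      Pi.one_apply] at this
    rw [← this]
    ring
  have hne : xN (e q.1 + T₁) ≠ xN (e q.2 + T₂) := by
    intro h0
    rw [e1, e3, h0, sub_self, zero_mul] at hur'
    exact zero_ne_one hur'
  have hlq : l q * (xN (e q.1 + T₁) - xN (e q.2 + T₂)) =
      yN (e q.1 + T₁) - yN (e q.2 + T₂) := by
    rw [hl, Pi.mul_apply, Pi.sub_apply, e2, e4, mul_assoc, mul_comm (r q), ← e1, ← e3, hur',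
      mul_one]
  have hadd := add_coords (coords hA hW r1).1 (coords hA hW r2).1 hne hlq
  have hsum : e q.1 + T₁ + (e q.2 + T₂) = e q.1 + e q.2 + T := by rw [← h12]; abel
  rw [hsum] at hadd
  have ea₁ : ((W.map (Int.castRingHom ℚ))⁄Qbar).a₁ = ((W.a₁ : ℤ) : Qbar) := by
    change algebraMap ℚ Qbar (Int.castRingHom ℚ W.a₁) = _
    simp
  have ea₂ : ((W.map (Int.castRingHom ℚ))⁄Qbar).a₂ = ((W.a₂ : ℤ) : Qbar) := by
    change algebraMap ℚ Qbar (Int.castRingHom ℚ W.a₂) = _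
    simp
  have ea₃ : ((W.map (Int.castRingHom ℚ))⁄Qbar).a₃ = ((W.a₃ : ℤ) : Qbar) := by
    change algebraMap ℚ Qbar (Int.castRingHom ℚ W.a₃) = _
    simp
  rw [ea₁, ea₂, ea₃] at hadd
  have e8 : x₃ q = xN (e q.1 + e q.2 + T) := by
    rw [hadd.1, hx₃, Pi.sub_apply, Pi.sub_apply, Pi.sub_apply, Pi.add_apply, Pi.pow_apply,
      Pi.mul_apply, e1, e3]
  refine ⟨e8, ?_⟩
  rw [hadd.2, ← e8, ← e1, ← e2]
  rfl

include he in
/-- **the local Hopf order** -/
theorem locData [Finite X] (hΔ : W.Δ ≠ 0) (hinj : Function.Injective e) :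
    LocData A ρ (Hr hA hW e) where
  val := fun f hf x => val_Hr hA hW hf x
  equiv := fun f hf σ hσ x => equiv_Hr hA hW he hf hσ x
  sep := fun x y h => sep_Hr hA hW hΔ hinj h
  comul := by
    classical
    intro f hf
    unfold Hr at hf
    induction hf using Subring.closure_induction with
    | mem f hf =>
      rcases hf with ⟨a, ha, h, rfl⟩ | ⟨d, rfl⟩ | ⟨φ, d, T, hφ, hT, h, rfl⟩
      · exact fst_mem_sq (const_mem hA hW ha h)
      · refine mem_of_local hA hW fun d₁ d₂ => ?_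
        by_cases h12 : d₁ + d₂ = d
        · refine ⟨1, one_mem _, fun q hq hq' => ?_⟩
          change 1 = idm hA hW e d (q.1 + q.2)
          rw [idm, map_add, map_add, hq, hq', if_pos h12]
        · refine ⟨0, zero_mem _, fun q hq hq' => ?_⟩
          change 0 = idm hA hW e d (q.1 + q.2)
          rw [idm, map_add, map_add, hq, hq', if_neg h12]
      · refine mem_of_local hA hW fun d₁ d₂ => ?_
        by_cases h12 : d₁ + d₂ = d
        · obtain ⟨θx, hθx, θy, hθy, hq⟩ := comul_co (e := e) hA hW he hΔ hT (d := d₁) (d' := d₂)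
            (by rw [h12]; exact h)
          rcases hφ with rfl | rfl
          · refine ⟨θx, hθx, fun q h1 h2 => ?_⟩
            rw [(hq q h1 h2).1]
            change _ = gf hA hW e xN d T (q.1 + q.2)
            rw [gf, map_add, map_add, h1, h2, if_pos h12]
          · refine ⟨θy, hθy, fun q h1 h2 => ?_⟩
            rw [(hq q h1 h2).2]
            change _ = gf hA hW e yN d T (q.1 + q.2)
            rw [gf, map_add, map_add, h1, h2, if_pos h12]
        · refine ⟨0, zero_mem _, fun q hq hq' => ?_⟩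
          change 0 = gf hA hW e φ d T (q.1 + q.2)
          rw [gf, map_add, map_add, hq, hq', if_neg h12]
    | zero => exact zero_mem _
    | one => exact one_mem _
    | add f f' _ _ ih ih' => exact add_mem ih ih'
    | neg f _ ih => exact neg_mem ih
    | mul f f' _ _ ih ih' => exact mul_mem ih ih'

end Fermat.Agent.RT.FlatG
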