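import Fermat.Agent.RT.FlatG2
import Fermat.Agent.RT.Tate4

/-!
# Flatness of the Tate module of an elliptic curve at a prime of good reduction
-/

set_option autoImplicit false
set_option linter.style.haveILetI false
set_option linter.unusedSectionVars false

noncomputable section

namespace Fermat.Agent.RT.FlatG

open WeierstrassCurve WeierstrassCurve.Affine WeierstrassCurve.Affine.Point
open Fermat.Agent.ECFrob Fermat.Agent.ECRed Fermat.Agent.S58X Fermat.Agent.PicFlat
open Fermat.Agent.FlatLoc Fermat.Agent.TWGal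
open scoped Pointwise

local notation "Qbar" => AlgebraicClosure ℚ
local notation "GQ" => (AlgebraicClosure ℚ ≃ₐ[ℚ] AlgebraicClosure ℚ)

variable {p : ℕ} [hp : Fact p.Prime] {W : WeierstrassCurve ℤ}

/-- **flatness at a prime of good reduction** -/
theorem isFlatMod_of_good (hΔ : W.Δ ≠ 0) (hW : W.IsGoodPrimeFor p) {X : Type} [AddCommGroup X]
    [Finite X] {e : X →+ Pts W} (hinj : Function.Injective e) {ρ : GQ →* AddMonoid.End X}
    (he : ∀ σ x, e (ρ σ x) = σ • e x) {n : ℕ} (hn : n ≠ 0) (hX : ∀ x, n • e x = 0) :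
    IsFlatMod (Zloc p) ρ := by
  obtain ⟨A, hA⟩ := Fermat.Agent.Frob.exists_liesOverPrime Qbar hp.out
  obtain ⟨L, hL, h⟩ := finite_level hΔ hn
  have hker : ∀ u ∈ ρ.ker, ∀ x, ρ u x = x := by
    intro u hu x
    rw [MonoidHom.mem_ker] at hu
    rw [hu]
    rfl
  have hopen : IsOpen (ρ.ker : Set GQ) := by
    refine Subgroup.isOpen_mono (H₁ := L.fixingSubgroup) ?_ L.fixingSubgroup_isOpen
    intro σ hσ
    rw [MonoidHom.mem_ker]
    ext x
    apply hinj
    rw [he]
    exact h σ (fun y hy => (IntermediateField.mem_fixingSubgroup_iff L σ).mp hσ y hy) _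
      (mem_torG.mpr (hX x))
  exact (locData hA hW he hΔ hinj).isFlatMod hp.out hA hopen hker

/-- the levels of the Tate module are flat at good `p` -/
theorem flat_Mn (B : Tate.Bases W p) (hΔ : W.Δ ≠ 0) (hW : W.IsGoodPrimeFor p) (n : ℕ) :
    IsFlatMod (Zloc p) (vecRep (B.Mn n)) := by
  haveI : NeZero (p ^ n) := ⟨pow_ne_zero n hp.out.ne_zero⟩
  refine isFlatMod_of_good hΔ hW (n := p ^ n)
    (e := (torG W (p ^ n)).subtype.comp (B.E n).toAddMonoidHom) ?_ ?_
    (pow_ne_zero n hp.out.ne_zero) ?_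
  · exact (Subtype.coe_injective).comp (B.E n).injective
  · intro σ v
    exact B.Mn_mulVec n σ v
  · intro v
    exact (B.E n v).2

/-- the Tate module is flat at good `p` -/
theorem mflat_T (B : Tate.Bases W p) (hΔ : W.Δ ≠ 0) (hW : W.IsGoodPrimeFor p) :
    TW56.MFlat p B.T := Tate.mflat_of_levels B fun n => flat_Mn B hΔ hW n

end Fermat.Agent.RT.FlatG
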