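import Fermat.Agent.RT.Quad
import Fermat.Agent.LR.Chb

/-!
# Semistable representations are irreducible over quadratic fields
-/

set_option autoImplicit false
set_option maxHeartbeats 400000

noncomputable section

namespace Fermat.Agent.RT

open Fermat.Agent.Frob Fermat.Agent.S43Glue
open scoped Pointwise

local notation "Qbar" => AlgebraicClosure ℚ
local notation "GQ" => Qbar ≃ₐ[ℚ] Qbar

theorem open_of_level {N : Subgroup GQ} {K : IntermediateField ℚ Qbar} [FiniteDimensional ℚ K]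
    (h : ∀ σ : GQ, (∀ x ∈ K, σ x = x) → σ ∈ N) : IsOpen (N : Set GQ) := by
  have h1 : K.fixingSubgroup ≤ N := by
    intro σ hσ
    apply h
    intro x hx
    exact (IntermediateField.mem_fixingSubgroup_iff K σ).mp hσ x hx
  exact Subgroup.isOpen_mono h1 (IntermediateField.fixingSubgroup_isOpen K)

theorem finite_range_of_level {M : Type*} [MulOneClass M] {ρ : GQ →* M}
    (h : ∃ L : IntermediateField ℚ Qbar, FiniteDimensional ℚ L ∧
      ∀ σ : GQ, (∀ x ∈ L, σ x = x) → ρ σ = 1) : (Set.range ρ).Finite := by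
  obtain ⟨L, hL, h⟩ := h
  let N : Subgroup GQ :=
    { carrier := {σ | ρ σ = 1}
      one_mem' := map_one ρ
      mul_mem' := fun {a b} ha hb => by
        change ρ (a * b) = 1
        rw [map_mul, show ρ a = 1 from ha, show ρ b = 1 from hb, one_mul]
      inv_mem' := fun {a} ha => by
        change ρ a⁻¹ = 1
        have h1 : ρ a⁻¹ * ρ a = 1 := by rw [← map_mul, inv_mul_cancel, map_one]
        rwa [show ρ a = 1 from ha, mul_one] at h1 }
  have hN : IsOpen (N : Set GQ) := open_of_level (K := L) h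
  haveI : Finite (GQ ⧸ N) := Subgroup.quotient_finite_of_isOpen N hN
  have h2 : Set.range ρ ⊆ Set.range (fun y : GQ ⧸ N => ρ y.out) := by
    rintro _ ⟨σ, rfl⟩
    refine ⟨(σ : GQ ⧸ N), ?_⟩
    have h3 : (σ)⁻¹ * ((σ : GQ ⧸ N).out) ∈ N := by
      rw [← QuotientGroup.eq]
      simp
    have h4 : ρ (σ⁻¹ * ((σ : GQ ⧸ N).out)) = 1 := h3
    change ρ ((σ : GQ ⧸ N).out) = ρ σ
    have h5 : (σ : GQ ⧸ N).out = σ * (σ⁻¹ * ((σ : GQ ⧸ N).out)) := by group
    rw [h5, map_mul, h4, mul_one]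
  exact (Set.finite_range _).subset h2

lemma zmod5_aux : ∀ y : ZMod 5, y ≠ 0 → (y * y) ^ 2 = 1 := by decide

lemma zmod5_aux2 : ((2 : ℕ) : ZMod 5) ^ 2 ≠ 1 := by decide

section Main

variable {p : ℕ} [hp : Fact p.Prime] {K V : Type*} [Field K] [AddCommGroup V] [Module K V]

theorem stable_line (hp35 : p = 3 ∨ p = 5) (hV : Module.finrank K V = 2) (ι : ZMod p →+* K)
    (ρ : GQ →* Module.End K V)
    (hlev : ∃ L : IntermediateField ℚ Qbar, FiniteDimensional ℚ L ∧
      ∀ σ : GQ, (∀ x ∈ L, σ x = x) → ρ σ = 1)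
    (hirr : ∀ W : Submodule K V, (∀ σ, ∀ x ∈ W, ρ σ x ∈ W) → W = ⊥ ∨ W = ⊤)
    (hdet : ∀ σ, LinearMap.det (ρ σ) = ι (chiK p (ZMod p) σ))
    (hun : ∀ q : ℕ, q.Prime → q ≠ p → ∀ A : ValuationSubring Qbar, A.LiesOverPrime q →
      ∀ σ ∈ A.inertiaSubgroupIn ℚ, (ρ σ - 1) * (ρ σ - 1) = 0)
    (hroot : p = 3 → ∀ (σ : GQ) (x : K) (v : V), v ≠ 0 → ρ σ v = x • v → x ^ 9 = x)
    (G : Subgroup GQ) (hG : G.index = 2) (W : Submodule K V)
    (hW : ∀ σ ∈ G, ∀ x ∈ W, ρ σ x ∈ W) : W = ⊥ ∨ W = ⊤ := by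
  classical
  have hp2 : p ≠ 2 := by rcases hp35 with rfl | rfl <;> norm_num
  haveI : Module.Finite K V := Module.finite_of_finrank_eq_succ hV
  haveI hGn : G.Normal := Subgroup.normal_of_index_eq_two hG
  haveI : CharP K p := charP_of_injective_ringHom ι.injective p
  have h2K : (2 : K) ≠ 0 := by
    intro h
    have h4 : ((2 : ℕ) : K) = 0 := by exact_mod_cast h
    have h5 := (CharP.cast_eq_zero_iff K p 2).mp h4
    exact hp2 ((Nat.prime_dvd_prime_iff_eq hp.out Nat.prime_two).mp h5)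
  have hinv : ∀ σ v, ρ σ⁻¹ (ρ σ v) = v := fun σ v => by
    rw [← Module.End.mul_apply, ← map_mul, inv_mul_cancel, map_one, Module.End.one_apply]
  have hinj : ∀ σ v, ρ σ v = 0 → v = 0 := fun σ v h => by
    have := hinv σ v
    rw [h, map_zero] at this
    exact this.symm
  by_contra hcon
  push Not at hcon
  obtain ⟨hW0, hW1⟩ := hcon
  obtain ⟨v1, hv1W, hv1⟩ := Submodule.exists_mem_ne_zero_of_ne_bot hW0
  have hWspan : W = Submodule.span K {v1} := by
    symm
    apply Submodule.eq_of_le_of_finrank_le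
    · rwa [Submodule.span_singleton_le_iff_mem]
    · rw [finrank_span_singleton hv1]
      have h1 : Module.finrank K W < Module.finrank K V := Submodule.finrank_lt hW1
      omega
  obtain ⟨g, hgW⟩ : ∃ g, ρ g v1 ∉ W := by
    by_contra hc
    push Not at hc
    rcases hirr W (fun σ x hx => by
      rw [hWspan] at hx
      obtain ⟨s, rfl⟩ := Submodule.mem_span_singleton.mp hx
      rw [map_smul]
      exact W.smul_mem _ (hc σ)) with h | h
    · exact hW0 h
    · exact hW1 h
  have hgG : g ∉ G := fun h => hgW (hW g h v1 hv1W)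
  set v2 := ρ g v1 with hv2
  have hli : LinearIndependent K ![v1, v2] := by
    rw [LinearIndependent.pair_iff' hv1]
    intro a ha
    apply hgW
    rw [← ha]
    exact W.smul_mem _ hv1W
  let b : Module.Basis (Fin 2) K V := basisOfLinearIndependentOfCardEqFinrank hli (by simp [hV])
  have hb0 : b 0 = v1 := by simp [b]
  have hb1 : b 1 = v2 := by simp [b]
  -- independence
  have hind : ∀ s t : K, s • v1 + t • v2 = 0 → s = 0 ∧ t = 0 :=
    LinearIndependent.pair_iff.mp hli
  let α : GQ → K := fun σ => b.repr (ρ σ v1) 0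
  let β : GQ → K := fun σ => b.repr (ρ σ v2) 1
  have hr10 : b.repr v1 = Finsupp.single 0 1 := by rw [← hb0, b.repr_self]
  have hr21 : b.repr v2 = Finsupp.single 1 1 := by rw [← hb1, b.repr_self]
  -- diagonal action
  have hG1 : ∀ σ ∈ G, ρ σ v1 = α σ • v1 := by
    intro σ hσ
    have h1 := hW σ hσ v1 hv1W
    rw [hWspan] at h1
    obtain ⟨s, hs⟩ := Submodule.mem_span_singleton.mp h1
    have : α σ = s := by
      change b.repr (ρ σ v1) 0 = s
      rw [← hs, map_smul, hr10]
      simp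
    rw [this, hs]
  have hG2 : ∀ σ ∈ G, ρ σ v2 = β σ • v2 := by
    intro σ hσ
    have h1 : g⁻¹ * σ * g ∈ G := by
      have := hGn.conj_mem σ hσ g⁻¹
      rwa [inv_inv] at this
    have h2 : ρ σ v2 = ρ g (ρ (g⁻¹ * σ * g) v1) := by
      rw [hv2, ← Module.End.mul_apply, ← Module.End.mul_apply, ← map_mul, ← map_mul]
      congr 2
      group
    have h3 : ρ σ v2 = α (g⁻¹ * σ * g) • v2 := by rw [h2, hG1 _ h1, map_smul]
    have : β σ = α (g⁻¹ * σ * g) := by
      change b.repr (ρ σ v2) 1 = _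
      rw [h3, map_smul, hr21]
      simp
    rw [this, h3]
  have hconj : ∀ σ ∈ G, β σ = α (g⁻¹ * σ * g) := by
    intro σ hσ
    have h1 : g⁻¹ * σ * g ∈ G := by
      have := hGn.conj_mem σ hσ g⁻¹
      rwa [inv_inv] at this
    have h2 : ρ σ v2 = ρ g (ρ (g⁻¹ * σ * g) v1) := by
      rw [hv2, ← Module.End.mul_apply, ← Module.End.mul_apply, ← map_mul, ← map_mul]
      congr 2
      group
    have h3 : ρ σ v2 = α (g⁻¹ * σ * g) • v2 := by rw [h2, hG1 _ h1, map_smul]
    change b.repr (ρ σ v2) 1 = _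
    rw [h3, map_smul, hr21]
    simp
  have hext : ∀ S T : Module.End K V, S v1 = T v1 → S v2 = T v2 → S = T := by
    intro S T h1 h2
    apply b.ext
    intro i
    fin_cases i
    · change S (b 0) = T (b 0); rw [hb0, h1]
    · change S (b 1) = T (b 1); rw [hb1, h2]
  have hα0 : ∀ σ ∈ G, α σ ≠ 0 := fun σ hσ h => hv1 (hinj σ v1 (by rw [hG1 σ hσ, h, zero_smul]))
  have hv20 : v2 ≠ 0 := fun h => hv1 (hinj g v1 h)
  have hβ0 : ∀ σ ∈ G, β σ ≠ 0 := fun σ hσ h => hv20 (hinj σ v2 (by rw [hG2 σ hσ, h, zero_smul]))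
  have hαmul : ∀ σ ∈ G, ∀ τ ∈ G, α (σ * τ) = α σ * α τ := by
    intro σ hσ τ hτ
    have h1 := hG1 (σ * τ) (G.mul_mem hσ hτ)
    rw [map_mul, Module.End.mul_apply, hG1 τ hτ, map_smul, hG1 σ hσ, smul_smul] at h1
    have h2 : (α τ * α σ - α (σ * τ)) • v1 = 0 := by rw [sub_smul, h1, sub_self]
    rcases smul_eq_zero.mp h2 with h3 | h3
    · rw [mul_comm]; exact (sub_eq_zero.mp h3).symm
    · exact absurd h3 hv1
  have hβmul : ∀ σ ∈ G, ∀ τ ∈ G, β (σ * τ) = β σ * β τ := by
    intro σ hσ τ hτ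
    have h1 := hG2 (σ * τ) (G.mul_mem hσ hτ)
    rw [map_mul, Module.End.mul_apply, hG2 τ hτ, map_smul, hG2 σ hσ, smul_smul] at h1
    have h2 : (β τ * β σ - β (σ * τ)) • v2 = 0 := by rw [sub_smul, h1, sub_self]
    rcases smul_eq_zero.mp h2 with h3 | h3
    · rw [mul_comm]; exact (sub_eq_zero.mp h3).symm
    · exact absurd h3 hv20
  -- the other coset
  have hoff : ∀ σ, σ ∉ G → ∃ x y : K, x ≠ 0 ∧ ρ σ v1 = x • v2 ∧ ρ σ v2 = y • v1 := by
    intro σ hσ
    have h1 : g⁻¹ * σ ∈ G := by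
      have := (Subgroup.mul_mem_iff_of_index_two hG (a := g⁻¹) (b := σ))
      rw [this]
      simp [hgG, hσ]
    have h2 : g * g ∈ G := Subgroup.mul_self_mem_of_index_two hG g
    have e : ρ σ = ρ g * ρ (g⁻¹ * σ) := by rw [← map_mul]; congr 1; group
    refine ⟨α (g⁻¹ * σ), β (g⁻¹ * σ) * α (g * g), hα0 _ h1, ?_, ?_⟩
    · rw [e, Module.End.mul_apply, hG1 _ h1, map_smul]
    · rw [e, Module.End.mul_apply, hG2 _ h1, map_smul, hv2, ← Module.End.mul_apply, ← map_mul,
        hG1 _ h2, smul_smul]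
  -- ramification
  have hunG : ∀ q : ℕ, q.Prime → q ≠ p → ∀ A : ValuationSubring Qbar, A.LiesOverPrime q →
      ∀ σ ∈ A.inertiaSubgroupIn ℚ, σ ∈ G ∧ ρ σ = 1 := by
    intro q hq hqp A hA σ hσ
    have h1 := hun q hq hqp A hA σ hσ
    have hσG : σ ∈ G := by
      by_contra hc
      obtain ⟨x, y, hx, e1, e2⟩ := hoff σ hc
      have h2 := congrArg (fun T : Module.End K V => T v1) h1
      simp only [Module.End.mul_apply, LinearMap.sub_apply, Module.End.one_apply, e1, map_sub,
        map_smul, e2, LinearMap.zero_apply] at h2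
      have h3 : (x * y + 1) • v1 + (-(2 * x)) • v2 = 0 := by
        rw [← h2]
        module
      obtain ⟨-, h4⟩ := hind _ _ h3
      rw [neg_eq_zero, mul_eq_zero] at h4
      rcases h4 with h4 | h4
      · exact h2K h4
      · exact hx h4
    refine ⟨hσG, hext _ _ ?_ ?_⟩
    · have h2 := congrArg (fun T : Module.End K V => T v1) h1
      simp only [Module.End.mul_apply, LinearMap.sub_apply, Module.End.one_apply, hG1 σ hσG, map_sub,
        map_smul, LinearMap.zero_apply] at h2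
      have h3 : ((α σ - 1) ^ 2) • v1 = 0 := by
        rw [← h2]
        module
      rcases smul_eq_zero.mp h3 with h4 | h4
      · rw [hG1 σ hσG, sub_eq_zero.mp (pow_eq_zero_iff two_ne_zero |>.mp h4), one_smul]
        rfl
      · exact absurd h4 hv1
    · have h2 := congrArg (fun T : Module.End K V => T v2) h1
      simp only [Module.End.mul_apply, LinearMap.sub_apply, Module.End.one_apply, hG2 σ hσG, map_sub,
        map_smul, LinearMap.zero_apply] at h2
      have h3 : ((β σ - 1) ^ 2) • v2 = 0 := by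
        rw [← h2]
        module
      rcases smul_eq_zero.mp h3 with h4 | h4
      · rw [hG2 σ hσG, sub_eq_zero.mp (pow_eq_zero_iff two_ne_zero |>.mp h4), one_smul]
        rfl
      · exact absurd h4 hv20
  have hker : ∀ σ, ρ σ = 1 → σ ∈ G := by
    intro σ hσ
    by_contra hc
    obtain ⟨x, y, hx, e1, e2⟩ := hoff σ hc
    rw [hσ, Module.End.one_apply] at e1
    have h3 : (1 : K) • v1 + (-x) • v2 = 0 := by rw [one_smul, neg_smul, ← e1, add_neg_cancel]
    exact one_ne_zero (hind _ _ h3).1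
  -- the ratio
  let r : GQ → K := fun σ => α σ / β σ
  have hrmul : ∀ σ ∈ G, ∀ τ ∈ G, r (σ * τ) = r σ * r τ := by
    intro σ hσ τ hτ
    change α (σ * τ) / β (σ * τ) = α σ / β σ * (α τ / β τ)
    rw [hαmul σ hσ τ hτ, hβmul σ hσ τ hτ, mul_div_mul_comm]
  have hr0 : ∀ σ ∈ G, r σ ≠ 0 := fun σ hσ => div_ne_zero (hα0 σ hσ) (hβ0 σ hσ)
  have hr1 : r 1 = 1 := by
    have h := hrmul 1 G.one_mem 1 G.one_mem
    rw [mul_one] at h
    have h2 := hr0 1 G.one_mem
    field_simp at h
    exact h.symm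
  have hrinv : ∀ σ ∈ G, r σ⁻¹ = (r σ)⁻¹ := by
    intro σ hσ
    have h := hrmul σ hσ σ⁻¹ (G.inv_mem hσ)
    rw [mul_inv_cancel, hr1] at h
    exact (inv_eq_of_mul_eq_one_right h.symm).symm
  have hrone : ∀ σ, ρ σ = 1 → r σ = 1 := by
    intro σ hσ
    change b.repr (ρ σ v1) 0 / b.repr (ρ σ v2) 1 = 1
    rw [hσ, Module.End.one_apply, Module.End.one_apply, hr10, hr21]
    simp
  have hgg : g * g ∈ G := Subgroup.mul_self_mem_of_index_two hG g
  have hrg : ∀ σ ∈ G, r (g⁻¹ * σ * g) = (r σ)⁻¹ := by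
    intro σ hσ
    have h1 : g⁻¹ * σ * g ∈ G := by
      have := hGn.conj_mem σ hσ g⁻¹
      rwa [inv_inv] at this
    have h2 : β (g⁻¹ * σ * g) = α σ := by
      rw [hconj _ h1]
      have e : g⁻¹ * (g⁻¹ * σ * g) * g = (g * g)⁻¹ * (σ * (g * g)) := by group
      rw [e, hαmul _ (G.inv_mem hgg) _ (G.mul_mem hσ hgg), hαmul _ hσ _ hgg]
      have h3 : α ((g * g)⁻¹) * α (g * g) = 1 := by
        rw [← hαmul _ (G.inv_mem hgg) _ hgg, inv_mul_cancel]
        change b.repr (ρ 1 v1) 0 = 1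
        rw [map_one, Module.End.one_apply, hr10]
        simp
      calc α (g * g)⁻¹ * (α σ * α (g * g)) = α σ * (α (g * g)⁻¹ * α (g * g)) := by ring
        _ = α σ := by rw [h3, mul_one]
    change α (g⁻¹ * σ * g) / β (g⁻¹ * σ * g) = (α σ / β σ)⁻¹
    rw [h2, ← hconj σ hσ, inv_div]
  have hrconjG : ∀ γ ∈ G, ∀ σ ∈ G, r (γ * σ * γ⁻¹) = r σ := by
    intro γ hγ σ hσ
    rw [hrmul _ (G.mul_mem hγ hσ) _ (G.inv_mem hγ), hrmul _ hγ _ hσ, hrinv _ hγ]
    have := hr0 γ hγ
    field_simp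
  have hsqoff : ∀ σ, σ ∉ G → r (σ * σ) = 1 := by
    intro σ hσ
    obtain ⟨x, y, hx, e1, e2⟩ := hoff σ hσ
    have h1 : α (σ * σ) = x * y := by
      change b.repr (ρ (σ * σ) v1) 0 = _
      rw [map_mul, Module.End.mul_apply, e1, map_smul, e2, smul_smul, map_smul, hr10]
      simp
    have h2 : β (σ * σ) = x * y := by
      change b.repr (ρ (σ * σ) v2) 1 = _
      rw [map_mul, Module.End.mul_apply, e2, map_smul, e1, smul_smul, map_smul, hr21]
      simp [mul_comm]
    have h3 : σ * σ ∈ G := Subgroup.mul_self_mem_of_index_two hG σ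
    change α (σ * σ) / β (σ * σ) = 1
    rw [h1, h2, div_self]
    rw [← h1]
    exact hα0 _ h3
  -- reduction: normal subgroups of the required type which lie in `G` are equal to `G`
  have key : ∀ N : Subgroup GQ, N.Normal → N ≤ G → (∀ σ, ρ σ = 1 → σ ∈ N) → (∀ x, x * x ∈ N) →
      G ≤ N := by
    intro N hNn hNG hker' hsq
    obtain ⟨L, hL, hlevL⟩ := hlev
    have hNo : IsOpen (N : Set GQ) := open_of_level (K := L) (fun σ hσ => hker' σ (hlevL σ hσ))
    obtain ⟨z, hz⟩ := index_le_two hp.out hp2 N hNo hsq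
      (fun q hq hqp A hA σ hσ => hker' σ (hunG q hq hqp A hA σ hσ).2)
    have hzG : z ∉ G := by
      intro h
      rcases hz g with h1 | h1
      · exact hgG (hNG h1)
      · apply hgG
        have := G.mul_mem h (hNG h1)
        rwa [← mul_assoc, mul_inv_cancel, one_mul] at this
    intro x hx
    rcases hz x with h1 | h1
    · exact h1
    · exfalso
      apply hzG
      have h2 := G.mul_mem hx (G.inv_mem (hNG h1))
      have e : x * (z⁻¹ * x)⁻¹ = z := by group
      rwa [e] at h2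
  -- the subgroup of squares of ratios
  let N : Subgroup GQ :=
    { carrier := {σ | σ ∈ G ∧ ∃ τ ∈ G, r σ = r τ ^ 2}
      one_mem' := ⟨G.one_mem, 1, G.one_mem, by rw [hr1]; simp⟩
      mul_mem' := by
        rintro a c ⟨ha, τ, hτ, e⟩ ⟨hc, τ', hτ', e'⟩
        exact ⟨G.mul_mem ha hc, τ * τ', G.mul_mem hτ hτ', by
          rw [hrmul a ha c hc, e, e', hrmul τ hτ τ' hτ']; ring⟩
      inv_mem' := by
        rintro a ⟨ha, τ, hτ, e⟩
        exact ⟨G.inv_mem ha, τ⁻¹, G.inv_mem hτ, by rw [hrinv a ha, hrinv τ hτ, e]; ring⟩ }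
  have hNmem : ∀ σ, σ ∈ N ↔ (σ ∈ G ∧ ∃ τ ∈ G, r σ = r τ ^ 2) := fun σ => Iff.rfl
  have hGN : G ≤ N := by
    apply key N
    · constructor
      intro n hn γ
      rw [hNmem] at hn ⊢
      obtain ⟨hnG, τ, hτ, e⟩ := hn
      refine ⟨hGn.conj_mem n hnG γ, ?_⟩
      by_cases hγ : γ ∈ G
      · exact ⟨τ, hτ, by rw [hrconjG γ hγ n hnG, e]⟩
      · -- γ = h * g⁻¹
        have h1 : γ * g ∈ G := by
          have := (Subgroup.mul_mem_iff_of_index_two hG (a := γ) (b := g))
          rw [this]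
          simp [hgG, hγ]
        have h2 : g⁻¹ * n * g ∈ G := by
          have := hGn.conj_mem n hnG g⁻¹
          rwa [inv_inv] at this
        refine ⟨τ⁻¹, G.inv_mem hτ, ?_⟩
        have e2 : γ * n * γ⁻¹ = (γ * g) * (g⁻¹ * n * g) * (γ * g)⁻¹ := by group
        rw [e2, hrconjG _ h1 _ h2, hrg n hnG, hrinv τ hτ, e]
        ring
    · intro σ hσ
      exact hσ.1
    · intro σ hσ
      exact ⟨hker σ hσ, 1, G.one_mem, by rw [hr1, hrone σ hσ]; simp⟩
    · intro x
      refine ⟨Subgroup.mul_self_mem_of_index_two hG x, ?_⟩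
      by_cases hx : x ∈ G
      · exact ⟨x, hx, by rw [hrmul x hx x hx]; ring⟩
      · exact ⟨1, G.one_mem, by rw [hsqoff x hx, hr1]; simp⟩
  -- injectivity of squaring
  have hfin : (r '' (G : Set GQ)).Finite := by
    have h1 : (Set.range ρ).Finite := finite_range_of_level hlev
    apply (h1.image (fun T : Module.End K V => b.repr (T v1) 0 / b.repr (T v2) 1)).subset
    rintro _ ⟨σ, -, rfl⟩
    exact ⟨ρ σ, ⟨σ, rfl⟩, rfl⟩
  have hinjsq : ∀ σ ∈ G, ∀ τ ∈ G, r σ ^ 2 = r τ ^ 2 → r σ = r τ := by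
    intro σ hσ τ hτ h
    haveI := hfin.to_subtype
    let f : (r '' (G : Set GQ)) → (r '' (G : Set GQ)) := fun y => ⟨(y : K) ^ 2, by
      obtain ⟨τ, hτ, e⟩ := y.2
      exact ⟨τ * τ, G.mul_mem hτ hτ, by rw [hrmul τ hτ τ hτ, e, pow_two]⟩⟩
    have hs : Function.Surjective f := by
      rintro ⟨y, σ, hσ, rfl⟩
      obtain ⟨-, τ, hτ, e⟩ := (hNmem σ).mp (hGN hσ)
      exact ⟨⟨r τ, τ, hτ, rfl⟩, Subtype.ext e.symm⟩
    have hi : Function.Injective f := Finite.injective_iff_surjective.mpr hs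
    have := @hi ⟨r σ, σ, hσ, rfl⟩ ⟨r τ, τ, hτ, rfl⟩ (Subtype.ext h)
    exact congrArg Subtype.val this
  have hm1 : ∀ σ ∈ G, r σ ≠ -1 := by
    intro σ hσ h
    have h3 := hinjsq σ hσ 1 G.one_mem (by rw [h, hr1]; ring)
    rw [h, hr1] at h3
    apply h2K
    have h4 : (1 : K) + 1 = 0 := by
      nth_rewrite 1 [← h3]
      ring
    rw [← h4]
    norm_num
  -- complex conjugation
  set c : GQ := complexConjugation with hc
  have hcc : c * c = 1 := complexConjugation_mul_self
  have hdetc : LinearMap.det (ρ c) = -1 := by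
    rw [hdet, LR.chi_conj, map_neg, map_one]
  have hdetG : ∀ σ ∈ G, LinearMap.det (ρ σ) = α σ * β σ := by
    intro σ hσ
    rw [← LinearMap.det_toMatrix b]
    rw [Matrix.det_fin_two]
    simp only [LinearMap.toMatrix_apply, hb0, hb1]
    rw [hG1 σ hσ, hG2 σ hσ, map_smul, map_smul, hr10, hr21]
    simp
  have hcG : c ∉ G := by
    intro h
    apply hm1 c h
    have h1 : α c * α c = 1 := by
      rw [← hαmul c h c h, hcc]
      change b.repr (ρ 1 v1) 0 = 1
      rw [map_one, Module.End.one_apply, hr10]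
      simp
    have h2 : α c * β c = -1 := by rw [← hdetG c h, hdetc]
    have h3 : β c = - α c := by
      have h4 : α c * β c = α c * (- α c) := by rw [h2, mul_neg, h1]
      exact mul_left_cancel₀ (hα0 c h) h4
    change α c / β c = -1
    rw [h3, div_neg, div_self (hα0 c h)]
  have hcoset : ∀ σ, σ ∉ G → c * σ ∈ G := by
    intro σ hσ
    rw [Subgroup.mul_mem_iff_of_index_two hG (a := c) (b := σ)]
    simp [hcG, hσ]
  rcases hp35 with hp3 | hp5
  · -- p = 3
    have hr8 : ∀ σ ∈ G, r σ = 1 := by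
      intro σ hσ
      have ha := hroot hp3 σ (α σ) v1 hv1 (hG1 σ hσ)
      have hb := hroot hp3 σ (β σ) v2 hv20 (hG2 σ hσ)
      have ha8 : α σ ^ 8 = 1 := by
        have h1 : α σ * α σ ^ 8 = α σ * 1 := by rw [mul_one, ← pow_succ', ha]
        exact mul_left_cancel₀ (hα0 σ hσ) h1
      have hb8 : β σ ^ 8 = 1 := by
        have h1 : β σ * β σ ^ 8 = β σ * 1 := by rw [mul_one, ← pow_succ', hb]
        exact mul_left_cancel₀ (hβ0 σ hσ) h1
      have h8 : r σ ^ 8 = 1 := by
        change (α σ / β σ) ^ 8 = 1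
        rw [div_pow, ha8, hb8, div_one]
      have h2 : r (σ * σ) = r σ ^ 2 := by rw [hrmul σ hσ σ hσ, pow_two]
      have hσ2 := G.mul_mem hσ hσ
      have h4 : r (σ * σ * (σ * σ)) = r σ ^ 4 := by rw [hrmul _ hσ2 _ hσ2, h2]; ring
      have hσ4 := G.mul_mem hσ2 hσ2
      have e4 : r (σ * σ * (σ * σ)) = r 1 := hinjsq _ hσ4 _ G.one_mem (by
        rw [h4, hr1, ← pow_mul, h8, one_pow])
      have e2 : r (σ * σ) = r 1 := hinjsq _ hσ2 _ G.one_mem (by
        rw [h2, ← pow_mul, hr1, one_pow]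
        rw [h4, hr1] at e4
        exact e4)
      have e1 : r σ = r 1 := hinjsq _ hσ _ G.one_mem (by rw [← h2, e2, hr1, one_pow])
      rw [e1, hr1]
    have hscal : ∀ σ ∈ G, ρ σ = α σ • (1 : Module.End K V) := by
      intro σ hσ
      have h1 : α σ = β σ := by
        have h2 := hr8 σ hσ
        change α σ / β σ = 1 at h2
        exact (div_eq_one_iff_eq (hβ0 σ hσ)).mp h2
      apply hext
      · rw [hG1 σ hσ]; rfl
      · rw [hG2 σ hσ, ← h1]; rfl
    have hcsq : ∀ v, ρ c (ρ c v) = v := by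
      intro v
      rw [← Module.End.mul_apply, ← map_mul, hcc, map_one, Module.End.one_apply]
    by_cases hfix : ∃ v, v ≠ 0 ∧ ρ c v = v
    · obtain ⟨v, hv0, hvc⟩ := hfix
      have hstab : ∀ σ, ∀ x ∈ Submodule.span K {v}, ρ σ x ∈ Submodule.span K {v} := by
        intro σ x hx
        obtain ⟨s, rfl⟩ := Submodule.mem_span_singleton.mp hx
        rw [map_smul]
        apply Submodule.smul_mem
        by_cases hσ : σ ∈ G
        · rw [hscal σ hσ]
          exact Submodule.smul_mem _ _ (Submodule.mem_span_singleton_self v)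
        · have e : σ = c * (c * σ) := by rw [← mul_assoc, hcc, one_mul]
          rw [e, map_mul, Module.End.mul_apply, hscal _ (hcoset σ hσ), LinearMap.smul_apply,
            Module.End.one_apply, map_smul, hvc]
          exact Submodule.smul_mem _ _ (Submodule.mem_span_singleton_self v)
      rcases hirr _ hstab with h | h
      · exact hv0 (by simpa using h)
      · have h1 := finrank_span_singleton (K := K) hv0
        rw [h, finrank_top, hV] at h1
        omega
    · push Not at hfix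
      have h1 : ρ c = -1 := by
        apply LinearMap.ext
        intro v
        have h2 : ρ c (ρ c v + v) = ρ c v + v := by rw [map_add, hcsq, add_comm]
        have h3 : ρ c v + v = 0 := by
          by_contra h4
          exact hfix _ h4 h2
        rw [LinearMap.neg_apply, Module.End.one_apply]
        exact eq_neg_of_add_eq_zero_left h3
      have h2 : LinearMap.det (ρ c) = 1 := by
        rw [h1, ← neg_one_smul K (1 : Module.End K V), LinearMap.det_smul, hV]
        simp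
      rw [hdetc] at h2
      apply h2K
      have h4 : (1 : K) + 1 = 0 := by
        nth_rewrite 1 [← h2]
        ring
      rw [← h4]
      norm_num
  · -- p = 5
    let N' : Subgroup GQ :=
      { carrier := {σ | σ ∈ G ∧ chiK p (ZMod p) σ ^ 2 = 1}
        one_mem' := ⟨G.one_mem, by rw [map_one, one_pow]⟩
        mul_mem' := by
          rintro a d ⟨ha, ha'⟩ ⟨hd, hd'⟩
          exact ⟨G.mul_mem ha hd, by rw [map_mul, mul_pow, ha', hd', one_mul]⟩
        inv_mem' := by
          rintro a ⟨ha, ha'⟩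
          refine ⟨G.inv_mem ha, ?_⟩
          have h1 : chiK p (ZMod p) a * chiK p (ZMod p) a⁻¹ = 1 := chiK_mul_inv p (ZMod p) a
          have h2 : chiK p (ZMod p) a ^ 2 * chiK p (ZMod p) a⁻¹ ^ 2 = 1 := by
            rw [← mul_pow, h1, one_pow]
          rwa [ha', one_mul] at h2 }
    have hGN' : G ≤ N' := by
      apply key N'
      · constructor
        rintro n ⟨hn, hn'⟩ γ
        refine ⟨hGn.conj_mem n hn γ, ?_⟩
        rw [map_mul, map_mul, mul_right_comm, chiK_mul_inv, one_mul, hn']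
      · intro σ hσ
        exact hσ.1
      · intro σ hσ
        refine ⟨hker σ hσ, ?_⟩
        have h1 : ι (chiK p (ZMod p) σ) = ι 1 := by rw [← hdet, hσ, map_one, map_one]
        rw [ι.injective h1, one_pow]
      · intro x
        refine ⟨Subgroup.mul_self_mem_of_index_two hG x, ?_⟩
        subst hp5
        rw [map_mul]
        have h1 : chiK 5 (ZMod 5) x ≠ 0 := by
          intro h
          have := chiK_mul_inv 5 (ZMod 5) x
          rw [h, zero_mul] at this
          exact zero_ne_one this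
        exact zmod5_aux _ h1
    -- everything has `χ² = 1`
    have hall : ∀ σ : GQ, chiK p (ZMod p) σ ^ 2 = 1 := by
      intro σ
      by_cases hσ : σ ∈ G
      · exact (hGN' hσ).2
      · have e : σ = c * (c * σ) := by rw [← mul_assoc, hcc, one_mul]
        rw [e, map_mul, mul_pow, LR.chi_conj, (hGN' (hcoset σ hσ)).2]
        ring
    obtain ⟨A, hA, φ, hφ⟩ := exists_place_frobenius Nat.prime_two
    have h1 := hall φ
    rw [chiK_frob p (ZMod p) Nat.prime_two hA (by rw [hp5]; norm_num) hφ] at h1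
    subst hp5
    exact zmod5_aux2 h1

end Main

end Fermat.Agent.RT
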