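import Mathlib
import Fermat.Prelude.Def_CuspForm_HeckeGaloisRepDatum
import Fermat.Prelude.Def_GaloisRep_LocalConditions

/-!
# Local-global compatibility at `p` in the good ordinary case: statement
-/

set_option autoImplicit false

namespace Fermat.Agent.RT

open Polynomial

/-- **(LGCp)**: an ordinary representation attached to an eigensystem `θ` of level `N` prime to
`p`, with `θ(T_p)` a unit: the unit root `a` of `X² - θ(T_p) X + p` is an eigenvalue of every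
Frobenius element at `p`. -/
def LgcpSt : Prop := ∀ (p : ℕ) (_ : Fact p.Prime) (N : ℕ) (_ : NeZero N) (S : Set ℕ)
  (hpN : ¬ p ∣ N) (hpS : p ∉ S), p ≠ 2 → S.Finite →
  ∀ (O : Type) [CommRing O] [IsDomain O] [IsDiscreteValuationRing O]
    [IsAdicComplete (IsLocalRing.maximalIdeal O) O] [CharZero O]
    [Algebra ℤ_[p] O] [Module.Finite ℤ_[p] O],
  (p : O) ∈ IsLocalRing.maximalIdeal O →
  ∀ (θ : CuspForm.heckeAlgebra N 2 S →+* O) (ρ : GaloisRepAdic O),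
  ρ.residual.IsAbsolutelyIrreducible →
  (∀ (ℓ : ℕ) (hℓ : ℓ.Prime) (hℓN : ¬ ℓ ∣ N) (hℓS : ℓ ∉ S), ℓ ≠ p →
    ∀ A : ValuationSubring (AlgebraicClosure ℚ), A.LiesOverPrime ℓ →
      ∀ σ : AlgebraicClosure ℚ ≃ₐ[ℚ] AlgebraicClosure ℚ, A.IsFrobeniusAt σ ℓ →
        LinearMap.charpoly (ρ.ρ σ) =
          X ^ 2 - C (θ (CuspForm.heckeAlgebra.T hℓ hℓN hℓS)) * X + C ((ℓ : O))) →
  ρ.IsOrdinaryAt p →
  ∀ a : O, IsUnit a →
    a ^ 2 - θ (CuspForm.heckeAlgebra.T (Fact.out : p.Prime) hpN hpS) * a + p = 0 →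
  ∀ A : ValuationSubring (AlgebraicClosure ℚ), A.LiesOverPrime p →
    ∀ σ : AlgebraicClosure ℚ ≃ₐ[ℚ] AlgebraicClosure ℚ, A.IsFrobeniusAt σ p →
      a ^ 2 - LinearMap.trace O ρ.V (ρ.ρ σ) * a + LinearMap.det (ρ.ρ σ) = 0

end Fermat.Agent.RT
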