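import Fermat.Agent.RT.LgcpH
import Fermat.Agent.RT.LgcpSt

/-!
# Local-global compatibility at `p` in the good ordinary case
-/

set_option autoImplicit false
set_option linter.unusedSectionVars false

namespace Fermat.Agent.RT

open Fermat.Agent.GalRep Fermat.Agent.GalRep.HData Fermat.Agent.DefRing Fermat.Agent.AnJac
  Fermat.Agent.HeckeQ Matrix Polynomial CuspForm

/-- **(LGCp)** -/
theorem lgcp : LgcpSt := by
  intro p hp N hN S hpN hpS hp2 hS O _ _ _ _ _ _ _ hpO θ ρ habs hfr hord a ha hroot A hA φ hφ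
  obtain ⟨L, ⟨b, rfl⟩, hst, hin⟩ := hord A hA
  set T := repMat ρ b with hT
  -- the Frobenius condition
  have hπ : HData.FrobCond (D := Lgcp.DN N p) (S := S)
      (θ.comp (HData.Phi S (hdata_link (esHyp N p)))) T := by
    intro ℓ hℓ hℓN hℓS A hA τ hτ
    have hℓN' : ¬ ℓ ∣ N := fun h => hℓN (h.mul_right p)
    have hℓp : ℓ ≠ p := fun h => hℓN (h ▸ dvd_mul_left ℓ N)
    have h1 := hfr ℓ hℓ hℓN' hℓS hℓp A hA τ hτ
    have h2 : (repMat ρ b τ).charpoly =
        X ^ 2 - C (θ (heckeAlgebra.T hℓ hℓN' hℓS)) * X + C ((ℓ : O)) := by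
      rw [repMat_apply, LinearMap.charpoly_toMatrix, h1]
    rw [Matrix.charpoly_fin_two] at h2
    rw [RingHom.comp_apply, HData.Phi_T _ (hdata_link (esHyp N p)) hℓ hℓN hℓS]
    constructor
    · have h3 := congrArg (fun P => P.coeff 1) h2
      simp only [coeff_add, coeff_sub, coeff_X_pow, coeff_C_mul, coeff_X_one, mul_one,
        coeff_C_succ, add_zero, if_neg (by norm_num : ¬ (1 : ℕ) = 2), zero_sub, neg_inj] at h3
      exact h3
    · have h3 := congrArg (fun P => P.coeff 0) h2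
      simp only [coeff_add, coeff_sub, coeff_X_pow, coeff_C_mul, coeff_X_zero, mul_zero,
        coeff_C_zero, sub_zero, zero_add] at h3
      simpa using h3
  -- the shape of the matrices
  have hL : ∀ v ∈ Submodule.span O {b 0}, b.repr v 1 = 0 := by
    intro v hv
    obtain ⟨c, rfl⟩ := Submodule.mem_span_singleton.1 hv
    rw [map_smul, b.repr_self, Finsupp.smul_apply, Finsupp.single_apply, if_neg (by decide),
      smul_zero]
  have hT0 : ∀ g, T g 1 0 = b.repr (ρ.ρ g (b 0)) 1 := fun g => by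
    rw [hT, repMat_apply, LinearMap.toMatrix_apply]
  have hT1 : ∀ g, T g 1 1 = b.repr (ρ.ρ g (b 1)) 1 := fun g => by
    rw [hT, repMat_apply, LinearMap.toMatrix_apply]
  have hD : T φ 1 0 = 0 := by
    rw [hT0]
    exact hL _ (hst φ hφ.mem_decompositionSubgroup _ (Submodule.mem_span_singleton_self _))
  have hI0 : ∀ σ ∈ A.inertiaSubgroupIn ℚ, T σ 1 0 = 0 := by
    intro σ hσ
    have h1 := hL _ (hin σ hσ (b 0))
    rw [map_sub, Finsupp.sub_apply, b.repr_self, Finsupp.single_apply, if_neg (by decide),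
      sub_zero] at h1
    rw [hT0]
    exact h1
  have hI1 : ∀ σ ∈ A.inertiaSubgroupIn ℚ, T σ 1 1 = 1 := by
    intro σ hσ
    have h1 := hL _ (hin σ hσ (b 1))
    rw [map_sub, Finsupp.sub_apply, b.repr_self, Finsupp.single_apply, if_pos rfl,
      sub_eq_zero] at h1
    rw [hT1]
    exact h1
  have key := Lgcp.lgcp_core hp2 hpN hpS hS hA hpO θ (repMat_matCont ρ b)
    (repMat_span ρ b habs) hπ hφ hD hI0 hI1 ha hroot
  have h1 : LinearMap.trace O ρ.V (ρ.ρ φ) = T φ 0 0 + T φ 1 1 := by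
    rw [LinearMap.trace_eq_matrix_trace O b, ← repMat_apply, Matrix.trace_fin_two]
  have h2 : LinearMap.det (ρ.ρ φ) = T φ 0 0 * T φ 1 1 := by
    rw [← LinearMap.det_toMatrix b, ← repMat_apply, ← hT, Matrix.det_fin_two, hD, mul_zero,
      sub_zero]
  rw [h1, h2, key]
  ring

end Fermat.Agent.RT
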