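import Fermat.Agent.RT.LgcpA
import Fermat.Agent.AtP.FlatAdic

/-!
# The connected part of `J₀(N)[n]` contains the kernel of reduction
-/

set_option autoImplicit false
set_option linter.unusedSectionVars false
set_option linter.unusedDecidableInType false
set_option linter.style.haveILetI false
set_option synthInstance.maxHeartbeats 400000

noncomputable section

namespace Fermat.Agent.RT.Lgcp

open AlgebraicCurve Fermat.Agent.Curves Module IntermediateField ModularCurve IsLocalRing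
open Fermat.Agent.GoodRed Fermat.Agent.FlatLoc Fermat.Agent.PicFlat Fermat.Agent.AnJac
  Fermat.Agent.ModFun
open Fermat.Agent.GenusX0 (je transcendental_je)
open scoped Pointwise

local notation "Qbar" => AlgebraicClosure ℚ
local notation "GQ" => (AlgebraicClosure ℚ ≃ₐ[ℚ] AlgebraicClosure ℚ)

/-- the reduction of `u` is an `n`-th power, up to constants -/
def Tr (A : ValuationSubring Qbar) (M n : ℕ) (u : LaurentSeries Qbar) : Prop :=
  ∃ c : Qbar, c ≠ 0 ∧ ∃ gb : modularFunctionFieldFullC (ResidueField A) M,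
    (gb : LaurentSeries (ResidueField A)) ≠ 0 ∧
    HeckeQ.Rd A (HahnSeries.C c * u) ((gb : LaurentSeries (ResidueField A)) ^ n)

variable {A : ValuationSubring Qbar} {ℓ : ℕ}

theorem Tr.level {M n q : ℕ} [NeZero M] [NeZero (M * q)] {u : LaurentSeries Qbar}
    (h : Tr A M n u) : Tr A (M * q) n u := by
  obtain ⟨c, hc, gb, hgb, h⟩ := h
  exact ⟨c, hc, ⟨gb, full_degeneracyC_le (K := ResidueField A) (Dvd.intro q rfl : M ∣ M * q) gb.2⟩,
    hgb, h⟩

section LD

variable {X : Type*} [AddCommGroup X] {ρ : GQ →* AddMonoid.End X}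

theorem exists_locData_res (hℓ : ℓ.Prime) (hA : A.LiesOverPrime ℓ) {M : ℕ} [NeZero M]
    (hMℓ : ¬ ℓ ∣ M) (h2 : ℓ = 2 → 3 ∣ M) (h3 : ℓ = 3 → 2 ∣ M) {n : ℕ} (hn : n ≠ 0) [Finite X]
    (c : KumGrp M n ρ) :
    ∃ H : Subring (X → Qbar), LocData A ρ H ∧
      ∀ x, Tr A M n (c.u x) → ∀ f ∈ H, A.valuation (f x - f 0) < 1 := by
  haveI hff := isFunctionField_fullC Qbar M (by exact_mod_cast NeZero.ne M)
  have hM0 : M ≠ 0 := NeZero.ne M
  have hNK : (M : Qbar) ≠ 0 := by exact_mod_cast hM0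
  have hNκ : (M : ResidueField A) ≠ 0 := residue_ne_zero hℓ hA hMℓ
  haveI := isFunctionField_fullC (ResidueField A) M hNκ
  set g := gFull M with hg
  have hgc : CoeffAct g := coeffAct_gFull M
  letI act : MulAction ↥(A.inertiaSubgroupIn ℚ) X :=
    { smul := fun γ x => ρ γ x
      one_smul := fun x => rho_one ρ x
      mul_smul := fun γ δ x => rho_mul ρ γ δ x }
  obtain ⟨hc1, hc2⟩ := exists_jGood hℓ hA M h2 h3 hNK hNκ
  let cc : ClassGrp g ρ := c.toClass hn
  obtain ⟨H, hv, he, hs, hcm, hr⟩ := exists_order' hc1 hc2 (rankOne_Qbar hℓ hA)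
    (galAct M hNK hNκ g hgc) (fun γ => smul_je M g hgc γ) (fun c => by
      obtain ⟨a, ha, hac⟩ := exists_fix hℓ hA c
      exact ⟨a, ⟨a.2, fun σ => (hgc.base σ a).trans (ha σ σ.2)⟩, hac⟩)
    (X := X) ⟨cc.rep, cc.deg, cc.add, cc.inj, fun γ x => cc.act γ x⟩
  refine ⟨H, ⟨hv, fun f hf σ hσ x => (he f hf ⟨σ, hσ⟩ x).trans (hgc.base σ (f x)), hs, hcm⟩, ?_⟩
  set C := ofCharts hc1 hc2 with hC
  have h0 : Lin (C.red (cc.rep 0)) 0 := by
    have h1 := cc.add 0 0
    rw [add_zero] at h1
    have h4 := (h1.red C).sub (Lin.refl (C.red (cc.rep 0)))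
    rw [map_add, sub_self, add_sub_cancel_right] at h4
    exact h4.symm
  intro x hx f hf
  obtain ⟨d, hd, gb, hgb, hR⟩ := hx
  have hgb' : gb ≠ 0 := fun h => hgb (congrArg Subtype.val h)
  have hlin : Lin (C.red (cc.rep x)) 0 := by
    refine ⟨gb, hgb', ?_⟩
    rw [add_zero]
    refine nsmul_inj hn ?_
    have e1 : n • C.red (cc.rep x) = C.red (divisorOf (k := Qbar) (c.fn x)) := by
      rw [← map_nsmul]
      congr 1
      exact nsmul_kdiv (c.fn_dvd x)
    have e2 : divisorOf (k := Qbar) (c.fn x) =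
        divisorOf (k := Qbar) (algebraMap Qbar (modularFunctionFieldFullC Qbar M) d * c.fn x) := by
      ext v
      rw [divisorOf_apply, divisorOf_apply, v.ord_mul (by simpa using hd) (c.fn_ne x),
        ord_algebraMap, zero_add]
    have hR' : (modGauss (residue A) M residue_surjective hNK hNκ).R
        (algebraMap Qbar (modularFunctionFieldFullC Qbar M) d * c.fn x) (gb ^ n) := by
      rw [modGauss_R]
      have e3 : ((algebraMap Qbar (modularFunctionFieldFullC Qbar M) d * c.fn x :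
          modularFunctionFieldFullC Qbar M) : LaurentSeries Qbar) = HahnSeries.C d * c.u x := by
        rw [C_eq_algebraMap]; rfl
      rw [e3]
      exact hR
    rw [e1, e2, C.red_div hR' (pow_ne_zero n hgb')]
    ext v
    rw [divisorOf_apply, Finsupp.smul_apply, divisorOf_apply, ord_pow]
    simp
  obtain ⟨a, b, ha, hb, hab⟩ := hr x 0 (hlin.trans h0.symm) f hf
  rw [← ha, ← hb]
  have h1 : residue A (a - b) = 0 := by rw [map_sub, hab, sub_self]
  exact (A.valuation_lt_one_iff _).1 ((residue_eq_zero_iff _).1 h1)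

/-- automorphisms in the decomposition group preserve the maximal ideal -/
theorem val_lt_decomp {d : GQ} (hd : d ∈ A.decompositionSubgroup ℚ) {z : Qbar}
    (hz : A.valuation z < 1) : A.valuation (d z) < 1 := by
  by_cases hz0 : z = 0
  · rw [hz0, map_zero, map_zero]; exact zero_lt_one
  by_contra hcon
  rw [not_lt] at hcon
  have h1 : A.valuation (d z)⁻¹ ≤ 1 := by
    rw [map_inv₀]
    exact inv_le_one_of_one_le₀ hcon
  have h2 : (d z)⁻¹ ∈ A := (A.valuation_le_one_iff _).1 h1
  have hd' : d⁻¹ ∈ A.decompositionSubgroup ℚ := Subgroup.inv_mem _ hd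
  have h3 := LocData.mem_of_decomp hd' h2
  have h4 : d⁻¹ ((d z)⁻¹) = z⁻¹ := by
    rw [map_inv₀]
    congr 1
    exact inv_smul_smul d z
  rw [h4] at h3
  have h5 := (A.valuation_le_one_iff _).2 h3
  rw [map_inv₀] at h5
  have h6 : 0 < A.valuation z := by
    rw [pos_iff_ne_zero]
    exact (Valuation.ne_zero_iff _).2 hz0
  exact absurd ((inv_le_one₀ h6).1 h5) (not_le.2 hz)

/-- residues of the algebra generated by conjugates -/
theorem MA_res {H : Subring (X → Qbar)} (h : LocData A ρ H) {Kx : Set X}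
    (hK : ∀ d ∈ A.decompositionSubgroup ℚ, ∀ x ∈ Kx, ρ d x ∈ Kx)
    (hr : ∀ x ∈ Kx, ∀ f ∈ H, A.valuation (f x - f 0) < 1) {f : X → Qbar}
    (hf : f ∈ LocData.MA A ρ H) : ∀ x ∈ Kx, A.valuation (f x - f 0) < 1 := by
  unfold LocData.MA at hf
  induction hf using Algebra.adjoin_induction with
  | mem f hf =>
    obtain ⟨d, hd, g, hg, rfl⟩ := hf
    intro x hx
    rw [actF_apply, actF_apply, map_zero, ← map_sub]
    exact val_lt_decomp hd (hr _ (hK _ (Subgroup.inv_mem _ hd) x hx) g hg)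
  | algebraMap r =>
    intro x _
    have : (algebraMap A.toSubring (X → Qbar) r) x - (algebraMap A.toSubring (X → Qbar) r) 0 = 0 :=
      sub_self _
    rw [this, map_zero]
    exact zero_lt_one
  | add f g _ _ ihf ihg =>
    intro x hx
    have : (f + g) x - (f + g) 0 = (f x - f 0) + (g x - g 0) := by
      rw [Pi.add_apply, Pi.add_apply]; ring
    rw [this]
    exact lt_of_le_of_lt (A.valuation.map_add _ _) (max_lt (ihf x hx) (ihg x hx))
  | mul f g hf hg ihf ihg =>
    intro x hx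
    have : (f * g) x - (f * g) 0 = (f x - f 0) * g x + f 0 * (g x - g 0) := by
      rw [Pi.mul_apply, Pi.mul_apply]; ring
    rw [this]
    refine lt_of_le_of_lt (A.valuation.map_add _ _) (max_lt ?_ ?_)
    · rw [map_mul]
      have hg1 := (A.valuation_le_one_iff _).2 (h.val_mem hg x)
      exact lt_of_le_of_lt (mul_le_of_le_one_right' hg1) (ihf x hx)
    · rw [map_mul]
      have hf1 := (A.valuation_le_one_iff _).2 (h.val_mem hf 0)
      exact lt_of_le_of_lt (mul_le_of_le_one_left' hf1) (ihg x hx)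

end LD

section Final

variable {p : ℕ} [hp : Fact p.Prime]

/-- the embedding of inertia -/
def jI (A : ValuationSubring Qbar) : II A →* GQ :=
  (A.decompositionSubgroup ℚ).subtype.comp (II A).subtype

/-- **The connected part contains the kernel of reduction.** -/
theorem exists_order_res (hp2 : p ≠ 2) (hA : A.LiesOverPrime p) {X : Type*} [AddCommGroup X]
    [Finite X] {ρ : GQ →* AddMonoid.End X} {H : Subring (X → Qbar)} (h : LocData A ρ H)
    {U₀ : Subgroup GQ} [U₀.Normal] (hU₀ : IsOpen (U₀ : Set GQ)) (hρ : ∀ u ∈ U₀, ∀ x, ρ u x = x)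
    {Kx : Set X} (hK : ∀ d ∈ A.decompositionSubgroup ℚ, ∀ x ∈ Kx, ρ d x ∈ Kx)
    (hr : ∀ x ∈ Kx, ∀ f ∈ H, A.valuation (f x - f 0) < 1) :
    ∃ H' : Subalgebra (ctx hp2 hA).R (X → Qbar), IsOrder (ctx hp2 hA).R (ρ.comp (jI A)) H' ∧
      ∀ x ∈ Kx, RGt (ctx hp2 hA).v H' 0 x := by
  set C := ctx hp2 hA with hC
  have hO := h.isOrder hp.out hA hU₀ hρ
  have hR' : ∀ r ∈ RR hA, ∀ σ : II A, σ • r = r := fun r hr => ((C.mem_R r).mp hr).1
  refine ⟨bc C.R (LocData.Mglob A ρ H hp.out hA),
    hO.baseChange (Zloc_le_RR hA) (jI A) (fun σ z => rfl) hR', fun x hx f hf => ?_⟩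
  rw [mem_bc] at hf
  induction hf using Submodule.span_induction with
  | mem f hf => exact (gt_vA hA).2 (MA_res h hK hr hf.1 x hx)
  | zero =>
    rw [Pi.zero_apply, Pi.zero_apply, sub_self]
    exact ECRed.OrdFn.Gt.zero
  | add f g _ _ ihf ihg =>
    have : (f + g) x - (f + g) 0 = (f x - f 0) + (g x - g 0) := by
      rw [Pi.add_apply, Pi.add_apply]; ring
    rw [this]
    exact ihf.add ihg
  | smul r f _ ih =>
    have : (r • f) x - (r • f) 0 = (r : Qbar) * (f x - f 0) := by
      rw [Pi.smul_apply, Pi.smul_apply, Subring.smul_def, Subring.smul_def, smul_eq_mul,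
        smul_eq_mul]; ring
    rw [this]
    have h1 : C.v.Ge 0 (r : Qbar) := C.hRv r r.2
    have h2 := h1.mul_gt ih
    simpa using h2

end Final

end Fermat.Agent.RT.Lgcp
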