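import Fermat.Agent.RT.LgcpB
import Fermat.Agent.HeckeQ.Inst

/-!
# Eichler-Shimura at `p` for `J₀(N)[pⁿ]`
-/

set_option autoImplicit false
set_option linter.unusedSectionVars false
set_option linter.unusedDecidableInType false
set_option linter.style.haveILetI false
set_option maxHeartbeats 400000

noncomputable section

namespace Fermat.Agent.RT.Lgcp

open AlgebraicCurve Fermat.Agent.Curves Module IntermediateField ModularCurve IsLocalRing
open Fermat.Agent.GoodRed Fermat.Agent.FlatLoc Fermat.Agent.PicFlat Fermat.Agent.AnJac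
  Fermat.Agent.ModFun Fermat.Agent.HeckeQ
open scoped Pointwise

local notation "Qbar" => AlgebraicClosure ℚ
local notation "GQ" => (AlgebraicClosure ℚ ≃ₐ[ℚ] AlgebraicClosure ℚ)

variable {A : ValuationSubring Qbar} {ℓ : ℕ} {N n : ℕ}

theorem Tr.mul {u v : LaurentSeries Qbar} (hu : Tr A N n u) (hv : Tr A N n v) :
    Tr A N n (u * v) := by
  obtain ⟨c, hc, gb, hgb, h⟩ := hu
  obtain ⟨c', hc', gb', hgb', h'⟩ := hv
  refine ⟨c * c', mul_ne_zero hc hc', gb * gb', mul_ne_zero hgb hgb', ?_⟩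
  have h1 := h.mul h'
  have e1 : HahnSeries.C (c * c') * (u * v) = HahnSeries.C c * u * (HahnSeries.C c' * v) := by
    rw [map_mul]; ring
  have e2 : ((gb * gb' : modularFunctionFieldFullC (ResidueField A) N) :
      LaurentSeries (ResidueField A)) ^ n = (gb : LaurentSeries (ResidueField A)) ^ n *
        (gb' : LaurentSeries (ResidueField A)) ^ n := by
    rw [← mul_pow]; rfl
  rw [e1, e2]
  exact h1

theorem Tr.npow (hℓ : ℓ.Prime) (hA : A.LiesOverPrime ℓ) (hN : ¬ ℓ ∣ N)
    {z : modularFunctionFieldFullC Qbar N} (hz : z ≠ 0) :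
    Tr A N n ((z : LaurentSeries Qbar) ^ n) := by
  obtain ⟨c, hc, ub, hub, h⟩ := (redHyp_all hℓ hA hN (m := 1) (fun h =>
    hℓ.one_lt.ne' (Nat.dvd_one.1 h))).scale z hz
  refine ⟨c ^ n, pow_ne_zero n hc, ub, fun h => hub (Subtype.ext h), ?_⟩
  have e1 : HahnSeries.C (c ^ n) * (z : LaurentSeries Qbar) ^ n =
      ((algebraMap Qbar (modularFunctionFieldFullC Qbar N) c * z :
        modularFunctionFieldFullC Qbar N) : LaurentSeries Qbar) ^ n := by
    have : ((algebraMap Qbar (modularFunctionFieldFullC Qbar N) c * z :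
        modularFunctionFieldFullC Qbar N) : LaurentSeries Qbar) =
          HahnSeries.C c * (z : LaurentSeries Qbar) := by
      rw [C_eq_algebraMap]; rfl
    rw [this, mul_pow, map_pow]
  rw [e1]
  exact h.pow n

theorem Tr.act {u : LaurentSeries Qbar} (hu : Tr A N n u) {d : GQ}
    (hd : d ∈ A.decompositionSubgroup ℚ) : Tr A N n (coeffMap (d : Qbar →+* Qbar) u) := by
  obtain ⟨c, hc, gb, hgb, h⟩ := hu
  have hd' : d • A = A := hd
  have h1 := h.gal d hd'
  refine ⟨d c, (map_ne_zero _).2 hc, coeffF N (actK d hd' : _ →+* ResidueField A) gb, ?_, ?_⟩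
  · intro h0
    apply hgb
    exact (map_eq_zero (coeffMap ((actK d hd' : ResidueField A ≃+* ResidueField A) :
      ResidueField A →+* ResidueField A))).1 h0
  · rw [map_mul, map_pow] at h1
    have e1 : coeffMap (d : Qbar →+* Qbar) (HahnSeries.C c) = HahnSeries.C (d c) := by
      rw [C_eq_algebraMap, C_eq_algebraMap, coeffMap_algebraMap]; rfl
    rw [e1] at h1
    exact h1

/-- the quotient of two functions with the same reduction -/
theorem Tr.of_div {u v : LaurentSeries Qbar} {w : LaurentSeries (ResidueField A)} (hw : w ≠ 0)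
    {c d : Qbar} (hc : c ≠ 0) (hd : d ≠ 0) (hu : Rd A (HahnSeries.C c * u) w)
    (hv : Rd A (HahnSeries.C d * v) w) : Tr A N n (u / v) := by
  refine ⟨c / d, div_ne_zero hc hd, 1, one_ne_zero, ?_⟩
  have h1 : Rd A (HahnSeries.C c * u * (HahnSeries.C d * v)⁻¹) (w * w⁻¹) :=
    hu.mul (GoodRed.LR.inv hv hw)
  rw [mul_inv_cancel₀ hw] at h1
  have e1 : HahnSeries.C (c / d) * (u / v) = HahnSeries.C c * u * (HahnSeries.C d * v)⁻¹ := by
    rw [map_div₀, mul_inv]; field_simp
  have e2 : ((1 : modularFunctionFieldFullC (ResidueField A) N) :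
      LaurentSeries (ResidueField A)) ^ n = 1 := by
    rw [OneMemClass.coe_one, one_pow]
  rw [e1, e2]
  exact h1

/-- **Eichler-Shimura at `ℓ`**, on functions -/
theorem es_fun [NeZero ℓ] (hℓ : ℓ.Prime) (hA : A.LiesOverPrime ℓ) (hN : ¬ ℓ ∣ N) {τ : GQ}
    (hτ : A.IsFrobeniusAt τ ℓ) {f : modularFunctionFieldFullC Qbar N} (hf : f ≠ 0) :
    Tr A N n (coeffMap (τ : Qbar →+* Qbar) (coeffMap (τ : Qbar →+* Qbar) f) *
      (f : LaurentSeries Qbar) ^ ℓ / hM ℓ (coeffMap (τ : Qbar →+* Qbar) f)) := by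
  haveI : Fact ℓ.Prime := ⟨hℓ⟩
  haveI : CharP (ResidueField A) ℓ := FrobDens.charP_residueField A hℓ hA
  set u : modularFunctionFieldFullC Qbar N := HeckeQ.gal N τ f with hu
  have hu0 : u ≠ 0 := (map_ne_zero _).2 hf
  have hcu : (u : LaurentSeries Qbar) = coeffMap (τ : Qbar →+* Qbar) f := rfl
  obtain ⟨c, hc, ub, hub, hR⟩ := (redHyp_all hℓ hA hN (m := 1) (fun h =>
    hℓ.one_lt.ne' (Nat.dvd_one.1 h))).scale u hu0
  have hub' : (ub : LaurentSeries (ResidueField A)) ≠ 0 := fun h => hub (Subtype.ext h)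
  have hcoe : ((algebraMap Qbar (modularFunctionFieldFullC Qbar N) c * u :
      modularFunctionFieldFullC Qbar N) : LaurentSeries Qbar) =
        HahnSeries.C c * (u : LaurentSeries Qbar) := by
    rw [C_eq_algebraMap]; rfl
  rw [hcoe] at hR
  have hL := hR.hM (ℓ := ℓ)
  rw [hM_const] at hL
  set hdec := hτ.mem_decompositionSubgroup with hhdec
  have hR1 := hR.gal τ hdec
  have hR2 := (hR.gal τ⁻¹ (inv_smul_eq hdec)).pow ℓ
  have hRR := hR1.mul hR2
  have e1 : coeffMap (actK τ hdec : _ →+* ResidueField A) (ub : LaurentSeries (ResidueField A)) =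
      coeffMap (frobenius _ ℓ) (ub : LaurentSeries (ResidueField A)) := by
    ext n
    simp only [coeffMap_coeff]
    exact actK_frob hτ _
  have e2 : (coeffMap (actK τ⁻¹ (inv_smul_eq hdec) : _ →+* ResidueField A)
      (ub : LaurentSeries (ResidueField A))) ^ ℓ =
        qExpand _ ℓ (ub : LaurentSeries (ResidueField A)) := by
    rw [laurent_pow_char]
    congr 1
    ext n
    simp only [coeffMap_coeff]
    exact actK_inv_frob hτ _
  rw [e1, e2, mul_comm (coeffMap (frobenius _ ℓ) _)] at hRR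
  have hw0 : qExpand _ ℓ (ub : LaurentSeries (ResidueField A)) *
      coeffMap (frobenius _ ℓ) (ub : LaurentSeries (ResidueField A)) ≠ 0 := by
    rw [← e1, ← e2]
    exact mul_ne_zero (pow_ne_zero _ ((map_ne_zero _).2 hub')) ((map_ne_zero _).2 hub')
  have hC : ∀ (g : GQ) (c : Qbar), coeffMap (g : Qbar →+* Qbar) (HahnSeries.C c) =
      HahnSeries.C (g c) := by
    intro g c
    rw [C_eq_algebraMap, C_eq_algebraMap, coeffMap_algebraMap]; rfl
  have hinv : coeffMap ((τ⁻¹ : GQ) : Qbar →+* Qbar) (coeffMap (τ : Qbar →+* Qbar)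
      (f : LaurentSeries Qbar)) = f := by
    ext n
    simp only [coeffMap_coeff]
    exact inv_smul_smul τ _
  have e3 : coeffMap (τ : Qbar →+* Qbar) (HahnSeries.C c * (u : LaurentSeries Qbar)) *
      (coeffMap ((τ⁻¹ : GQ) : Qbar →+* Qbar) (HahnSeries.C c * (u : LaurentSeries Qbar))) ^ ℓ =
      HahnSeries.C (τ c * (τ⁻¹ c) ^ ℓ) * (coeffMap (τ : Qbar →+* Qbar) (u : LaurentSeries Qbar) *
        (f : LaurentSeries Qbar) ^ ℓ) := by
    rw [map_mul, map_mul, hC, hC, hcu, hinv, mul_pow, map_mul, map_pow]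
    ring
  rw [e3] at hRR
  have h1 : τ c * (τ⁻¹ c) ^ ℓ ≠ 0 :=
    mul_ne_zero ((map_ne_zero _).2 hc) (pow_ne_zero _ ((map_ne_zero _).2 hc))
  exact Tr.of_div hw0 h1 (pow_ne_zero (ℓ + 1) hc) hRR hL

end Fermat.Agent.RT.Lgcp
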