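import Fermat.Agent.RT.LgcpC
import Fermat.Agent.AtP.FlatConn

/-!
# The connected part of `J₀(N)[pⁿ]`
-/

set_option autoImplicit false
set_option linter.unusedSectionVars false
set_option linter.unusedDecidableInType false
set_option linter.style.haveILetI false

noncomputable section

namespace Fermat.Agent.RT.Lgcp

open AlgebraicCurve Fermat.Agent.Curves Module IntermediateField ModularCurve IsLocalRing
open Fermat.Agent.GoodRed Fermat.Agent.FlatLoc Fermat.Agent.PicFlat Fermat.Agent.AnJac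
  Fermat.Agent.ModFun Fermat.Agent.ECRed
open scoped Pointwise

local notation "Qbar" => AlgebraicClosure ℚ
local notation "GQ" => (AlgebraicClosure ℚ ≃ₐ[ℚ] AlgebraicClosure ℚ)

variable {A : ValuationSubring Qbar} {p : ℕ} {M n : ℕ}
variable {X : Type*} [AddCommGroup X] {ρ : GQ →* AddMonoid.End X}

theorem tr_stab (hp : p.Prime) (hA : A.LiesOverPrime p) (hM : ¬ p ∣ M) (c : KumGrp M n ρ) :
    ∀ d ∈ A.decompositionSubgroup ℚ, ∀ x ∈ {x | Tr A M n (c.u x)}, ρ d x ∈
      {x | Tr A M n (c.u x)} := by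
  intro d hd x hx
  obtain ⟨z, hz, hz0, h⟩ := c.act d x
  show Tr A M n (c.u (ρ d x))
  rw [h]
  exact (Tr.act hx hd).mul (Tr.npow hp hA hM (z := ⟨z, hz⟩) (fun h0 => hz0 (congrArg Subtype.val h0)))

variable [hp : Fact p.Prime]

theorem exists_conn_aux [NeZero M] (hp2 : p ≠ 2) (hn : n ≠ 0) (hA : A.LiesOverPrime p)
    (hM : ¬ p ∣ M) (h3 : p = 3 → 2 ∣ M) (c : KumGrp M n ρ) :
    ∃ H' : Subalgebra (ctx hp2 hA).R (X → Qbar), IsOrder (ctx hp2 hA).R (ρ.comp (jI A)) H' ∧
      ∀ x, Tr A M n (c.u x) → RGt (ctx hp2 hA).v H' 0 x := by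
  haveI := c.finite hn
  obtain ⟨U, hUn, hU, hUρ⟩ := c.smooth hn
  obtain ⟨H, hH, hr⟩ := exists_locData_res hp.out hA hM (fun h => absurd h hp2) h3 hn c
  obtain ⟨H', hH', h⟩ := exists_order_res hp2 hA hH hU hUρ (tr_stab hp.out hA hM c)
    (fun x hx => hr x hx)
  exact ⟨H', hH', fun x hx => h x hx⟩

/-- **the connected part of a Kummer group contains the kernel of reduction** -/
theorem exists_conn [NeZero M] (hp2 : p ≠ 2) (hn : n ≠ 0) (hA : A.LiesOverPrime p)
    (hM : ¬ p ∣ M) (c : KumGrp M n ρ) :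
    ∃ H' : Subalgebra (ctx hp2 hA).R (X → Qbar), IsOrder (ctx hp2 hA).R (ρ.comp (jI A)) H' ∧
      ∀ x, Tr A M n (c.u x) → RGt (ctx hp2 hA).v H' 0 x := by
  by_cases hp3 : p = 3
  · haveI : NeZero (M * 2) := ⟨Nat.mul_ne_zero (NeZero.ne M) (by norm_num)⟩
    obtain ⟨H', hH', h⟩ := exists_conn_aux hp2 hn hA (M := M * 2) (fun h => by
      rcases (Nat.Prime.dvd_mul hp.out).1 h with h | h
      · exact hM h
      · rw [hp3] at h; norm_num at h) (fun _ => Dvd.intro_left M rfl)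
      (c.raise Nat.prime_two hn)
    exact ⟨H', hH', fun x hx => h x hx.level⟩
  exact exists_conn_aux hp2 hn hA hM (fun h => absurd h hp3) c

end Fermat.Agent.RT.Lgcp
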