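import Fermat.Agent.RT.LgcpD
import Fermat.Agent.AnJacH.ClsOp

/-!
# Eichler-Shimura at `p` on the lattice
-/

set_option autoImplicit false
set_option linter.unusedSectionVars false
set_option linter.unusedDecidableInType false
set_option linter.style.haveILetI false
set_option maxHeartbeats 2000000

noncomputable section

namespace Fermat.Agent.RT.Lgcp

open AlgebraicCurve Fermat.Agent.Curves Module IntermediateField ModularCurve IsLocalRing
open Fermat.Agent.GoodRed Fermat.Agent.FlatLoc Fermat.Agent.PicFlat Fermat.Agent.AnJac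
  Fermat.Agent.ModFun Fermat.Agent.ECRed Fermat.Agent.HeckeQ
open scoped Pointwise Matrix

local notation "Qbar" => AlgebraicClosure ℚ
local notation "GQ" => (AlgebraicClosure ℚ ≃ₐ[ℚ] AlgebraicClosure ℚ)

variable {A : ValuationSubring Qbar} {p : ℕ} {N n : ℕ}

theorem cls_lu (N : ℕ) [NeZero N] (hn : n ≠ 0) (x : Fin (Module.finrank ℤ (Lat N)) → ZMod n) :
    (KQ N).Cls (bL N) n (lu N hn x) x := ⟨lφ N x, cl_lu N hn x, red_lφ N x⟩

/-- **Eichler-Shimura at `p` on the lattice** -/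
theorem es_lat [NeZero N] [hp : Fact p.Prime] (hA : A.LiesOverPrime p) (hN : ¬ p ∣ N) {τ : GQ}
    (hτ : A.IsFrobeniusAt τ p) (hn : n ≠ 0) (x : Fin (Module.finrank ℤ (Lat N)) → ZMod n) :
    Tr A N n ((latKum N hn).u (latRep N hn τ (latRep N hn τ x) -
      (Int.castRingHom (ZMod n)).mapMatrix (KSys.tm (bL N) (LTot N p)) *ᵥ (latRep N hn τ x) +
        p • x)) := by
  haveI : NeZero p := ⟨hp.out.ne_zero⟩
  obtain ⟨ζ, hζ⟩ := exists_zeta p
  set f := lu N hn x with hf
  have hf0 : f ≠ 0 := lu_ne N hn x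
  have h0 : (KQ N).Cls (bL N) n f x := cls_lu N hn x
  have h1 : (KQ N).Cls (bL N) n ((KQ N).act τ f) (latRep N hn τ x) := h0.act hn τ
  have h2 : (KQ N).Cls (bL N) n ((KQ N).act τ ((KQ N).act τ f)) (latRep N hn τ (latRep N hn τ x)) :=
    h1.act hn τ
  have h3 := h1.compat (compat_LT ιQ fQ hN hζ)
  rw [← LTot_of_not_dvd N p hN] at h3
  have h4 := (KSys.Cls.div hn h2 h3).mul (KSys.Cls.npow hn h0 p)
  obtain ⟨g, hg, h5⟩ := KSys.Cls.exists_pow hn (cls_lu N hn _) h4
  have h6 := es_fun (n := n) hp.out hA hN hτ hf0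
  have h7 : ((latKum N hn).u (latRep N hn τ (latRep N hn τ x) -
      (Int.castRingHom (ZMod n)).mapMatrix (KSys.tm (bL N) (LTot N p)) *ᵥ (latRep N hn τ x) +
        p • x)) = coeffMap (τ : Qbar →+* Qbar) (coeffMap (τ : Qbar →+* Qbar) f) *
      (f : LaurentSeries Qbar) ^ p / hM p (coeffMap (τ : Qbar →+* Qbar) f) *
      (g : LaurentSeries Qbar) ^ n := by
    have e1 := congrArg (Subtype.val) h5
    refine e1.trans ?_
    have e2 : ((FT ιQ hN hζ ((KQ N).act τ f) : modularFunctionFieldFullC Qbar N) :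
        LaurentSeries Qbar) = hM p (coeffMap (τ : Qbar →+* Qbar) f) := heckeMul_eq_hM hζ _
    have e3 : (((KQ N).act τ ((KQ N).act τ f) : modularFunctionFieldFullC Qbar N) :
        LaurentSeries Qbar) = coeffMap (τ : Qbar →+* Qbar) (coeffMap (τ : Qbar →+* Qbar) f) := rfl
    have e4 : (((KQ N).act τ ((KQ N).act τ f) / FT ιQ hN hζ ((KQ N).act τ f) * f ^ p * g ^ n :
        modularFunctionFieldFullC Qbar N) : LaurentSeries Qbar) =
        (((KQ N).act τ ((KQ N).act τ f) : modularFunctionFieldFullC Qbar N) :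
        LaurentSeries Qbar) / ((FT ιQ hN hζ ((KQ N).act τ f) : modularFunctionFieldFullC Qbar N) :
        LaurentSeries Qbar) * (f : LaurentSeries Qbar) ^ p * (g : LaurentSeries Qbar) ^ n := rfl
    refine e4.trans ?_
    rw [e2, e3, mul_div_right_comm]
  rw [h7]
  exact h6.mul (Tr.npow hp.out hA hN hg)

end Fermat.Agent.RT.Lgcp
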