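import Fermat.Agent.AtP.NewCase

/-!
# Embedding the representation attached to an eigensystem in the Tate module
-/

set_option autoImplicit false
set_option linter.unusedSectionVars false
set_option linter.style.haveILetI false
set_option maxHeartbeats 1000000
set_option synthInstance.maxHeartbeats 200000

noncomputable section

namespace Fermat.Agent.RT.Lgcp

open Fermat.Agent.DefRing IsLocalRing Matrix Fermat.Agent.GalRep Fermat.Agent.GalRep.HData
open CuspForm Fermat.Agent.AnJac Fermat.Agent.HeckeQ Fermat.Agent.SSMod MulOpposite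
open ModularCurve Fermat.Agent.ModFun

local notation "Qbar" => AlgebraicClosure ℚ
local notation "GQ" => (AlgebraicClosure ℚ ≃ₐ[ℚ] AlgebraicClosure ℚ)

section Abs

variable {G : Type*} [Group G] {B : Type*} [CommRing B] [IsDomain B] [CharZero B]
  {W : Type*} [AddCommGroup W] [Module B W] [Module.IsTorsionFree B W] [Nontrivial W]
  {T : G →* Matrix (Fin 2) (Fin 2) B} {ρ : G →* Module.End B W} {χ : G →* B}

/-- the standard representation embeds, with inverses up to constants -/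
theorem exists_std (hT : Submodule.span B (Set.range T) = ⊤)
    (h1 : ∀ g, ρ g + χ g • ρ g⁻¹ = (T g).trace • (1 : Module.End B W)) :
    ∃ (u₀ u₁ : W) (e : Module.End B W), u₀ ≠ 0 ∧
      (∀ g, ρ g u₀ = T g 0 0 • u₀ + T g 1 0 • u₁) ∧
      (∀ g, ρ g u₁ = T g 0 1 • u₀ + T g 1 1 • u₁) ∧ e u₀ = 0 ∧ e u₁ = u₀ := by
  have hs := Tt_surj hT
  choose E hE using fun ij : Fin 2 × Fin 2 => hs (Matrix.single ij.1 ij.2 (1 : B))
  have hE0 : Rt ρ (E (0, 0)) ≠ 0 := by
    intro h
    have h2 := ker_of_acts hT h1 h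
    rw [hE] at h2
    have h3 := congrFun (congrFun h2 0) 0
    simp at h3
  obtain ⟨w, hw⟩ : ∃ w, Rt ρ (E (0, 0)) w ≠ 0 := by
    by_contra hcon
    push Not at hcon
    exact hE0 (LinearMap.ext hcon)
  have hmul : ∀ z z' m : MonoidAlgebra B G, Tt T z * Tt T z' = Tt T m →
      Rt ρ z (Rt ρ z' w) = Rt ρ m w := by
    intro z z' m h
    have h2 : Tt T (z * z' - m) = 0 := by rw [map_sub, map_mul, h, sub_self]
    have h3 := ker_acts hT h1 h2
    rw [map_sub, map_mul, sub_eq_zero] at h3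
    have h4 := LinearMap.congr_fun h3 w
    exact h4
  refine ⟨Rt ρ (E (0, 0)) w, Rt ρ (E (1, 0)) w, Rt ρ (E (0, 1)), hw, fun g => ?_, fun g => ?_,
    ?_, ?_⟩
  · have h2 := hmul (MonoidAlgebra.of B G g) (E (0, 0)) (T g 0 0 • E (0, 0) + T g 1 0 • E (1, 0))
      (by
        rw [Tt_of, hE, map_add, map_smul, map_smul, hE, hE]
        ext a b
        fin_cases a <;> fin_cases b <;> simp [Matrix.mul_apply,
          Matrix.single_apply])
    rw [Rt_of, map_add, map_smul, map_smul] at h2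
    exact h2
  · have h2 := hmul (MonoidAlgebra.of B G g) (E (1, 0)) (T g 0 1 • E (0, 0) + T g 1 1 • E (1, 0))
      (by
        rw [Tt_of, hE, map_add, map_smul, map_smul, hE, hE]
        ext a b
        fin_cases a <;> fin_cases b <;> simp [Matrix.mul_apply,
          Matrix.single_apply])
    rw [Rt_of, map_add, map_smul, map_smul] at h2
    exact h2
  · have h2 := hmul (E (0, 1)) (E (0, 0)) 0 (by
        rw [hE, hE, map_zero]
        ext a b
        fin_cases a <;> fin_cases b <;> simp [Matrix.mul_apply,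
          Matrix.single_apply])
    rw [map_zero] at h2
    exact h2
  · exact hmul (E (0, 1)) (E (1, 0)) (E (0, 0)) (by
        rw [hE, hE, hE]
        ext a b
        fin_cases a <;> fin_cases b <;> simp [Matrix.mul_apply,
          Matrix.single_apply])

end Abs

section Eig

variable {N : ℕ} [NeZero N] {S : Set ℕ}

/-- eigenvectors for the Hecke algebra in the lattice, at all primes not dividing the level -/
theorem exists_eigvec_hecke {B : Type} [CommRing B] [IsDomain B] [CharZero B]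
    (θ : heckeAlgebra N 2 S →+* B) :
    ∃ w : Fin (Module.finrank ℤ (Lat N)) → B, w ≠ 0 ∧
      ∀ (ℓ : ℕ) (hℓ : ℓ.Prime) (hℓN : ¬ ℓ ∣ N) (hℓS : ℓ ∉ S),
        castHom _ B (KSys.tm (bL N) (LTot N ℓ)) *ᵥ w = θ (heckeAlgebra.T hℓ hℓN hℓS) • w := by
  let J := {ℓ : ℕ // ℓ.Prime ∧ ¬ ℓ ∣ N ∧ ℓ ∉ S}
  let t : J → PrimeT := fun i => ⟨i.1, i.2.1⟩
  let e : J → heckeAlgebra N 2 S := fun i => heckeAlgebra.T i.2.1 i.2.2.1 i.2.2.2
  set F : FreeAlgebra ℤ J →ₐ[ℤ] Matrix (Fin (Module.finrank ℤ (Lat N)))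
      (Fin (Module.finrank ℤ (Lat N))) ℤ :=
    FreeAlgebra.lift ℤ (fun i => KSys.tm (bL N) (LTot N (t i).1)) with hF
  have hFι : ∀ i, F (FreeAlgebra.ι ℤ i) = KSys.tm (bL N) (LTot N (t i).1) :=
    fun i => FreeAlgebra.lift_ι_apply _ _
  set R := F.range with hR
  -- commutativity
  have hcomm : ∀ i j : J, KSys.tm (bL N) (LTot N (t i).1) * KSys.tm (bL N) (LTot N (t j).1) =
      KSys.tm (bL N) (LTot N (t j).1) * KSys.tm (bL N) (LTot N (t i).1) := by
    intro i j
    have h1 := actL_eq_zero (N := N) (P := FreeAlgebra.ι ℤ (t i) * FreeAlgebra.ι ℤ (t j) -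
      FreeAlgebra.ι ℤ (t j) * FreeAlgebra.ι ℤ (t i)) (by
        rw [map_sub, map_mul, map_mul, actS_ι, actS_ι, heckeOp_comm', sub_self])
    have h2 : ∀ i : J, tmA (bL N) (actL N (FreeAlgebra.ι ℤ (t i))) =
        KSys.tm (bL N) (LTot N (t i).1) := by
      intro i
      have : actL N (FreeAlgebra.ι ℤ (t i)) = LTot N (t i).1 :=
        AddMonoidHom.ext fun φ => actL_ι _ φ
      rw [this]
      rfl
    rw [map_sub, sub_eq_zero] at h1
    have h3 := congrArg (tmA (bL N)) h1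
    rw [map_mul, map_mul, map_mul, map_mul] at h3
    rw [← h2, ← h2]
    exact h3
  have hRadj : R = Algebra.adjoin ℤ (Set.range fun i => KSys.tm (bL N) (LTot N (t i).1)) := by
    rw [hR, ← Algebra.map_top, ← FreeAlgebra.adjoin_range_ι, AlgHom.map_adjoin, ← Set.range_comp]
    congr 1
    ext x
    simp only [Set.mem_range, Function.comp_apply, hFι]
  haveI : IsMulCommutative R := by
    rw [hRadj]
    exact Algebra.isMulCommutative_adjoin ℤ (by
      rintro _ ⟨i, rfl⟩ _ ⟨j, rfl⟩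
      exact hcomm i j)
  -- the character
  have hker : ∀ P, F P = 0 →
      (FreeAlgebra.lift ℤ e : FreeAlgebra ℤ J →ₐ[ℤ] heckeAlgebra N 2 S).toRingHom P = 0 := by
    intro P hP'
    have h1 := lift_tm (bL N) t P
    have h2 : tmA (bL N) (actL N (FreeAlgebra.lift ℤ (fun i => FreeAlgebra.ι ℤ (t i)) P)) = 0 :=
      h1.symm.trans hP'
    have h3 := tmA_injective (bL N) (h2.trans (map_zero (tmA (bL N))).symm)
    have h4 := actS_eq_zero h3
    apply Subtype.ext
    have h5 : ((heckeAlgebra N 2 S).val.comp (FreeAlgebra.lift ℤ e)) =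
        (actS N).comp (FreeAlgebra.lift ℤ (fun i => FreeAlgebra.ι ℤ (t i))) := by
      apply FreeAlgebra.hom_ext
      funext i
      simp only [Function.comp_apply, AlgHom.comp_apply, FreeAlgebra.lift_ι_apply]
      rw [actS_ι, DSLift.heckeOp_of_not_dvd (h := i.2.2.1)]
      rfl
    have h6 := DFunLike.congr_fun h5 P
    exact h6.trans h4
  obtain ⟨ψ, hψ'⟩ := exists_lift_range F _ hker
  have hψ : ∀ i, ψ ⟨KSys.tm (bL N) (LTot N (t i).1), ⟨FreeAlgebra.ι ℤ i, hFι i⟩⟩ = e i := by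
    intro i
    refine (hψ' (FreeAlgebra.ι ℤ i) _ (hFι i)).trans ?_
    show FreeAlgebra.lift ℤ e (FreeAlgebra.ι ℤ i) = e i
    exact FreeAlgebra.lift_ι_apply _ _
  let K := FractionRing B
  haveI : CharZero K := IsFractionRing.charZero_of_isFractionRing B
  obtain ⟨v, hv, hv'⟩ := exists_eigvec R (((algebraMap B K).comp θ).comp ψ)
  obtain ⟨w, hw, hwe⟩ := exists_int_vec (K := K) (fun i : J => KSys.tm (bL N) (LTot N (t i).1))
    (fun i => θ (e i)) hv (fun i => by
      have h := hv' ⟨KSys.tm (bL N) (LTot N (t i).1), ⟨FreeAlgebra.ι ℤ i, hFι i⟩⟩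
      rw [RingHom.comp_apply, hψ] at h
      exact h)
  exact ⟨w, hw, fun ℓ hℓ hℓN hℓS => hwe ⟨ℓ, hℓ, hℓN, hℓS⟩⟩

end Eig

section Emb

variable {N p : ℕ} [NeZero N] [Fact p.Prime] {S : Set ℕ} {B : Type} [CommRing B]

/-- the Hecke-Galois data -/
abbrev DN (N p : ℕ) [NeZero N] [Fact p.Prime] : HData N p := hdata N p (esHyp N p)

/-- the eigenspace, including the operator `T_p` -/
def Wp (π : (DN N p).TT S →+* B) (a : B) : Submodule B (Fin (DN N p).r → B) where
  carrier := {v | (∀ x : (DN N p).TT S, castHom (DN N p).r B (x : Matrix _ _ ℤ) *ᵥ v = π x • v) ∧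
    castHom (DN N p).r B ((DN N p).T p) *ᵥ v = a • v}
  zero_mem' := ⟨fun x => by rw [Matrix.mulVec_zero, smul_zero], by
    rw [Matrix.mulVec_zero, smul_zero]⟩
  add_mem' := by
    rintro v w ⟨h1, h2⟩ ⟨h3, h4⟩
    exact ⟨fun x => by rw [Matrix.mulVec_add, h1, h3, smul_add], by
      rw [Matrix.mulVec_add, h2, h4, smul_add]⟩
  smul_mem' := by
    rintro c v ⟨h1, h2⟩
    exact ⟨fun x => by rw [Matrix.mulVec_smul, h1, smul_comm], by
      rw [Matrix.mulVec_smul, h2, smul_comm]⟩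

variable {π : (DN N p).TT S →+* B} {a : B} (f : ℤ_[p] →+* B)

theorem rho_mem_Wp (g : GQ) {v : Fin (DN N p).r → B} (hv : v ∈ Wp π a) :
    f.mapMatrix ((DN N p).ρ g) *ᵥ v ∈ Wp π a := by
  refine ⟨fun x => ?_, ?_⟩
  · have h1 := congrArg f.mapMatrix (rho_comm_mem (D := DN N p) g x.2)
    rw [map_mul, map_mul, map_castHom'] at h1
    rw [Matrix.mulVec_mulVec, ← h1, ← Matrix.mulVec_mulVec, hv.1, Matrix.mulVec_smul]
  · have h1 := congrArg f.mapMatrix (rho_comm_LTot N p g p)
    rw [map_mul, map_mul, map_castHom'] at h1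
    have h2 : castHom (DN N p).r B ((DN N p).T p) * f.mapMatrix ((DN N p).ρ g) =
      f.mapMatrix ((DN N p).ρ g) * castHom (DN N p).r B ((DN N p).T p) := h1.symm
    rw [Matrix.mulVec_mulVec, h2, ← Matrix.mulVec_mulVec, hv.2, Matrix.mulVec_smul]

/-- the representation on the eigenspace -/
def rhoWp (π : (DN N p).TT S →+* B) (a : B) (f : ℤ_[p] →+* B) : GQ →* Module.End B (Wp π a) where
  toFun g := (Matrix.mulVecLin (f.mapMatrix ((DN N p).ρ g))).restrict
    fun _ hv => rho_mem_Wp f g hv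
  map_one' := by
    ext v : 1
    apply Subtype.ext
    show f.mapMatrix ((DN N p).ρ 1) *ᵥ (v : Fin (DN N p).r → B) = v
    rw [map_one, map_one, Matrix.one_mulVec]
  map_mul' g h := by
    ext v : 1
    apply Subtype.ext
    show f.mapMatrix ((DN N p).ρ (g * h)) *ᵥ (v : Fin (DN N p).r → B) =
      f.mapMatrix ((DN N p).ρ g) *ᵥ (f.mapMatrix ((DN N p).ρ h) *ᵥ (v : Fin (DN N p).r → B))
    rw [map_mul, map_mul, Matrix.mulVec_mulVec]

theorem coe_rhoWp (g : GQ) (v : Wp π a) : ((rhoWp π a f g v : Wp π a) : Fin (DN N p).r → B) =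
    f.mapMatrix ((DN N p).ρ g) *ᵥ (v : Fin (DN N p).r → B) := rfl

/-- **the embedding of the representation attached to an eigensystem** -/
theorem exists_emb (hpN : ¬ p ∣ N) (hpS : p ∉ S) (hS : S.Finite)
    [IsDomain B] [IsLocalRing B] [CharZero B] [IsAdicComplete (maximalIdeal B) B]
    (hpB : (p : B) ∈ maximalIdeal B) (θ : heckeAlgebra N 2 S →+* B)
    {T : GQ →* Matrix (Fin 2) (Fin 2) B} (hT : MatCont T)
    (hspan : Submodule.span B (Set.range T) = ⊤)
    (hπ : FrobCond (D := DN N p) (S := S) (θ.comp (HData.Phi S (hdata_link (esHyp N p)))) T) :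
    ∃ (j : (Fin 2 → B) →ₗ[B] (Fin (DN N p).r → B)) (d : B), d ≠ 0 ∧
      (∀ g y, (padicTo p (maximalIdeal B) hpB).mapMatrix ((DN N p).ρ g) *ᵥ j y = j (T g *ᵥ y)) ∧
      (∀ y, castHom (DN N p).r B ((DN N p).T p) *ᵥ j y =
        j (θ (heckeAlgebra.T (Fact.out : p.Prime) hpN hpS) • y)) ∧
      (∀ (c : B) y, c ≠ 0 → (∀ l, c ∣ j y l) → c ∣ d * y 1) := by
  set f := padicTo p (maximalIdeal B) hpB with hf
  set π := θ.comp (HData.Phi S (hdata_link (esHyp N p))) with hπdef
  set a := θ (heckeAlgebra.T (Fact.out : p.Prime) hpN hpS) with ha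
  obtain ⟨w, hw0, hw⟩ : ∃ w : Fin (DN N p).r → B, w ≠ 0 ∧
      ∀ (ℓ : ℕ) (hℓ : ℓ.Prime) (hℓN : ¬ ℓ ∣ N) (hℓS : ℓ ∉ S),
        castHom (DN N p).r B ((DN N p).T ℓ) *ᵥ w = θ (heckeAlgebra.T hℓ hℓN hℓS) • w :=
    exists_eigvec_hecke (N := N) (S := S) θ
  have hwW : w ∈ Wp (N := N) (p := p) π a := by
    refine ⟨fun x => ?_, hw p Fact.out hpN hpS⟩
    obtain ⟨x, hx⟩ := x
    show castHom (DN N p).r B x *ᵥ w = π ⟨x, hx⟩ • w
    induction hx using Algebra.adjoin_induction with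
    | mem x hx =>
      obtain ⟨ℓ, hℓ, hℓN, hℓS, rfl⟩ := hx
      refine (hw ℓ hℓ (fun h => hℓN (h.mul_right p)) hℓS).trans ?_
      rw [hπdef, RingHom.comp_apply]
      erw [HData.Phi_T S (hdata_link (esHyp N p)) hℓ hℓN hℓS]
    | algebraMap c =>
      have e1 : castHom (DN N p).r B (algebraMap ℤ _ c) = algebraMap ℤ _ c := by
        simp
      have e2 : π ⟨algebraMap ℤ (Matrix (Fin (DN N p).r) (Fin (DN N p).r) ℤ) c,
          Subalgebra.algebraMap_mem _ c⟩ = (c : B) := by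
        have : (⟨algebraMap ℤ (Matrix (Fin (DN N p).r) (Fin (DN N p).r) ℤ) c,
          Subalgebra.algebraMap_mem _ c⟩ : (DN N p).TT S) = (c : (DN N p).TT S) := rfl
        rw [this, map_intCast]
      rw [e1, e2, Algebra.algebraMap_eq_smul_one, Matrix.smul_mulVec, Matrix.one_mulVec,
        Int.cast_smul_eq_zsmul]
    | add x y hx hy ihx ihy =>
      rw [map_add, Matrix.add_mulVec, ihx, ihy, ← add_smul, ← map_add]
      rfl
    | mul x y hx hy ihx ihy =>
      rw [map_mul, ← Matrix.mulVec_mulVec, ihy, Matrix.mulVec_smul, ihx, smul_smul, mul_comm,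
        ← map_mul]
      rfl
  haveI : Nontrivial (Wp (N := N) (p := p) π a) :=
    ⟨⟨⟨w, hwW⟩, 0, fun h => hw0 (congrArg Subtype.val h)⟩⟩
  have h1 : ∀ g, rhoWp π a f g + ((f : ℤ_[p] →* B).comp (cycP p)) g • rhoWp π a f g⁻¹ =
      (T g).trace • (1 : Module.End B (Wp π a)) := by
    intro g
    ext w : 1
    apply Subtype.ext
    have h3 := trace_smul_eig hS (NeZero.ne N) hpB hT hπ w.2.1 g
    rw [← hf, th, map_add] at h3
    show f.mapMatrix ((DN N p).ρ g) *ᵥ (w : Fin (DN N p).r → B) +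
      f (cycP p g) • (f.mapMatrix ((DN N p).ρ g⁻¹) *ᵥ (w : Fin (DN N p).r → B)) =
        (T g).trace • (w : Fin (DN N p).r → B)
    have h4 : f.mapMatrix (cycP p g • (DN N p).ρ g⁻¹) =
        f (cycP p g) • f.mapMatrix ((DN N p).ρ g⁻¹) := by
      ext a b
      exact map_mul f _ _
    rw [← h3, Matrix.add_mulVec, h4, Matrix.smul_mulVec]
  obtain ⟨u₀, u₁, e, hu₀, hg₀, hg₁, he₀, he₁⟩ := exists_std hspan h1
  obtain ⟨l, hl⟩ : ∃ l, (u₀ : Fin (DN N p).r → B) l ≠ 0 := by
    by_contra hcon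
    push Not at hcon
    exact hu₀ (Subtype.ext (funext hcon))
  let jW : (Fin 2 → B) →ₗ[B] Wp (N := N) (p := p) π a :=
    (LinearMap.proj 0).smulRight u₀ + (LinearMap.proj 1).smulRight u₁
  have hjW : ∀ y, jW y = y 0 • u₀ + y 1 • u₁ := fun y => rfl
  have hje : ∀ y, e (jW y) = y 1 • u₀ := by
    intro y
    rw [hjW, map_add, map_smul, map_smul, he₀, he₁, smul_zero, zero_add]
  refine ⟨(Submodule.subtype _).comp jW, (u₀ : Fin (DN N p).r → B) l, hl, fun g y => ?_,
    fun y => ?_, fun c y hc hy => ?_⟩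
  · have h2 : rhoWp π a f g (jW y) = jW (T g *ᵥ y) := by
      rw [hjW, hjW, map_add, map_smul, map_smul, hg₀, hg₁, Matrix.mulVec, Matrix.mulVec,
        dotProduct, dotProduct, Fin.sum_univ_two, Fin.sum_univ_two]
      simp only [smul_add, add_smul, smul_smul]
      rw [mul_comm (y 0), mul_comm (y 0), mul_comm (y 1), mul_comm (y 1)]
      abel
    exact congrArg Subtype.val h2
  · refine (jW y).2.2.trans ?_
    rw [map_smul]
    rfl
  · choose v' hv' using hy
    have hv'W : v' ∈ Wp (N := N) (p := p) π a := by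
      have e1 : c • v' = ((jW y : Wp π a) : Fin (DN N p).r → B) := by
        ext l
        exact (hv' l).symm
      refine ⟨fun x => ?_, ?_⟩
      · have h2 := (jW y).2.1 x
        rw [← e1, Matrix.mulVec_smul, smul_comm] at h2
        exact smul_right_injective _ hc h2
      · have h2 := (jW y).2.2
        rw [← e1, Matrix.mulVec_smul, smul_comm] at h2
        exact smul_right_injective _ hc h2
    have e2 : jW y = c • (⟨v', hv'W⟩ : Wp (N := N) (p := p) π a) := by
      apply Subtype.ext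
      ext l
      exact hv' l
    have h3 := hje y
    rw [e2, map_smul] at h3
    have h4 := congrFun (congrArg Subtype.val h3) l
    refine ⟨((e ⟨v', hv'W⟩ : Wp π a) : Fin (DN N p).r → B) l, ?_⟩
    rw [mul_comm]
    exact h4.symm

end Emb

end Fermat.Agent.RT.Lgcp
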