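import Fermat.Agent.RT.LgcpE

/-!
# The connected part: dévissage
-/

set_option autoImplicit false
set_option linter.unusedSectionVars false
set_option linter.unusedDecidableInType false
set_option linter.style.haveILetI false

noncomputable section

namespace Fermat.Agent.RT.Lgcp

open AlgebraicCurve Fermat.Agent.Curves Module IntermediateField ModularCurve IsLocalRing
open Fermat.Agent.GoodRed Fermat.Agent.FlatLoc Fermat.Agent.PicFlat Fermat.Agent.AnJac
  Fermat.Agent.ModFun Fermat.Agent.ECRed Fermat.Agent.HeckeQ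
open scoped Pointwise Matrix

local notation "Qbar" => AlgebraicClosure ℚ
local notation "GQ" => (AlgebraicClosure ℚ ≃ₐ[ℚ] AlgebraicClosure ℚ)

/-- a subgroup such that stable subgroups of it have no unramified subquotients killed by `p` -/
def Conn {X : Type*} [AddCommGroup X] (p : ℕ) (I : Set GQ) (ρ : GQ →* AddMonoid.End X)
    (K : AddSubgroup X) : Prop :=
  ∀ M M₁ : AddSubgroup X, (∀ σ ∈ I, ∀ x ∈ M, ρ σ x ∈ M) → M ≤ K → (∀ x ∈ M, p • x ∈ M₁) →
    (∀ σ ∈ I, ∀ x ∈ M, ρ σ x - x ∈ M₁) → M ≤ M₁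

/-- the connected part of a Kummer group -/
theorem exists_K {A : ValuationSubring Qbar} {p : ℕ} [hp : Fact p.Prime] {M n : ℕ} {X : Type*}
    [AddCommGroup X] {ρ : GQ →* AddMonoid.End X} [NeZero M] (hp2 : p ≠ 2) (hn : n ≠ 0)
    (hA : A.LiesOverPrime p) (hM : ¬ p ∣ M) (c : KumGrp M n ρ) :
    ∃ K : AddSubgroup X, (∀ x, Tr A M n (c.u x) → x ∈ K) ∧
      (∀ σ ∈ A.inertiaSubgroupIn ℚ, ∀ x, ρ σ x - x ∈ K) ∧
      Conn p (A.inertiaSubgroupIn ℚ : Set GQ) ρ K := by
  haveI := c.finite hn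
  obtain ⟨H, hH, hr⟩ := exists_conn hp2 hn hA hM c
  set C := ctx hp2 hA with hC
  refine ⟨hH.gtSub C.hRv 0, fun x hx => ?_, fun σ hσ x => ?_, fun M M₁ hst hR hpM hI => ?_⟩
  · rw [hH.mem_gtSub C.hRv]
    exact hr x hx
  · obtain ⟨s₀, hs₀, rfl⟩ := hσ
    rw [hH.mem_gtSub C.hRv]
    exact hH.scalar_zero C.hv C.hRv (C.inert (⟨s₀, hs₀⟩ : II A)) x
  · refine AtP.conn C hH (fun σ x hx => hst _ (II_mem σ) x hx) (fun x hx => ?_) hpM
      (fun σ x hx => hI _ (II_mem σ) x hx)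
    have h1 := hR hx
    rw [hH.mem_gtSub C.hRv] at h1
    exact h1

/-- dévissage to products -/
theorem conn_pi {ι : Type*} [Fintype ι] {X : Type*} [AddCommGroup X] {p : ℕ} {I : Set GQ}
    {ρ : GQ →* AddMonoid.End X} {K : AddSubgroup X} (hK : Conn p I ρ K)
    {M M₁ : AddSubgroup (ι → X)} (hst : ∀ σ ∈ I, ∀ x ∈ M, (fun i => ρ σ (x i)) ∈ M)
    (hMK : ∀ x ∈ M, ∀ i, x i ∈ K) (hpM : ∀ x ∈ M, p • x ∈ M₁)
    (hI : ∀ σ ∈ I, ∀ x ∈ M, (fun i => ρ σ (x i) - x i) ∈ M₁) : M ≤ M₁ := by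
  classical
  have key : ∀ s : Finset ι, ∀ x ∈ M, (∀ i ∉ s, x i = 0) → x ∈ M₁ := by
    intro s
    induction s using Finset.induction_on with
    | empty =>
      intro x _ hx
      have : x = 0 := funext fun i => hx i (Finset.notMem_empty i)
      rw [this]
      exact M₁.zero_mem
    | insert i s his ih =>
      intro x hx hxs
      let M' : AddSubgroup (ι → X) :=
        { carrier := {x | x ∈ M ∧ ∀ k ∉ insert i s, x k = 0}
          zero_mem' := ⟨M.zero_mem, fun _ _ => rfl⟩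
          add_mem' := fun {a b} ha hb => ⟨M.add_mem ha.1 hb.1, fun k hk => by
            rw [Pi.add_apply, ha.2 k hk, hb.2 k hk, add_zero]⟩
          neg_mem' := fun {a} ha => ⟨M.neg_mem ha.1, fun k hk => by
            rw [Pi.neg_apply, ha.2 k hk, neg_zero]⟩ }
      let π : (ι → X) →+ X := Pi.evalAddMonoidHom (fun _ => X) i
      have h1 : M'.map π ≤ (M' ⊓ M₁).map π := by
        refine hK _ _ ?_ ?_ ?_ ?_
        · rintro σ hσ _ ⟨y, hy, rfl⟩
          exact ⟨_, ⟨hst σ hσ y hy.1, fun k hk => by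
            show ρ σ (y k) = 0
            rw [hy.2 k hk, map_zero]⟩, rfl⟩
        · rintro _ ⟨y, hy, rfl⟩
          exact hMK y hy.1 i
        · rintro _ ⟨y, hy, rfl⟩
          refine ⟨p • y, ⟨M'.nsmul_mem hy p, hpM y hy.1⟩, ?_⟩
          rw [map_nsmul]
        · rintro σ hσ _ ⟨y, hy, rfl⟩
          refine ⟨fun i => ρ σ (y i) - y i, ⟨?_, hI σ hσ y hy.1⟩, rfl⟩
          have h2 : (fun i => ρ σ (y i)) ∈ M' := ⟨hst σ hσ y hy.1, fun k hk => by
            show ρ σ (y k) = 0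
            rw [hy.2 k hk, map_zero]⟩
          exact M'.sub_mem h2 hy
      obtain ⟨y, hy, hyx⟩ := h1 ⟨x, ⟨hx, hxs⟩, rfl⟩
      have h3 : x - y ∈ M₁ := by
        refine ih (x - y) (M.sub_mem hx hy.1.1) fun k hk => ?_
        by_cases hki : k = i
        · subst hki
          rw [Pi.sub_apply, sub_eq_zero]
          exact hyx.symm
        · have hk' : k ∉ insert i s := by
            rw [Finset.mem_insert]
            tauto
          rw [Pi.sub_apply, hxs k hk', hy.1.2 k hk', sub_zero]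
      have := M₁.add_mem h3 hy.2
      rwa [sub_add_cancel] at this
  intro x hx
  exact key Finset.univ x hx fun i hi => absurd (Finset.mem_univ i) hi

end Fermat.Agent.RT.Lgcp
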