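import Fermat.Agent.RT.LgcpF
import Fermat.Agent.RT.LgcpG

/-!
# The unit root is an eigenvalue of Frobenius
-/

set_option autoImplicit false
set_option linter.unusedSectionVars false
set_option linter.unusedDecidableInType false
set_option linter.style.haveILetI false
set_option maxHeartbeats 2000000

noncomputable section

namespace Fermat.Agent.RT.Lgcp

open Fermat.Agent.DefRing IsLocalRing Matrix Fermat.Agent.GalRep Fermat.Agent.GalRep.HData
open CuspForm Fermat.Agent.AnJac Fermat.Agent.HeckeQ Fermat.Agent.SSMod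
open ModularCurve Fermat.Agent.ModFun Fermat.Agent.PicFlat

local notation "Qbar" => AlgebraicClosure ℚ
local notation "GQ" => (AlgebraicClosure ℚ ≃ₐ[ℚ] AlgebraicClosure ℚ)

section Coord

variable {p : ℕ} [hp : Fact p.Prime] {B : Type} [CommRing B] [Algebra ℤ_[p] B]

/-- the two maps from the `p`-adic integers agree -/
theorem padicTo_eq [IsLocalRing B] [IsAdicComplete (maximalIdeal B) B]
    (hpB : (p : B) ∈ maximalIdeal B) (x : ℤ_[p]) :
    padicTo p (maximalIdeal B) hpB x = algebraMap ℤ_[p] B x := by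
  rw [← sub_eq_zero]
  refine IsHausdorff.haus (inferInstance : IsHausdorff (maximalIdeal B) B) _ fun n => ?_
  rw [SModEq.zero, smul_eq_mul, Ideal.mul_top]
  obtain ⟨y, hy⟩ := Ideal.mem_span_singleton.1 (PadicInt.appr_spec n x)
  have hx : x = (x.appr n : ℤ_[p]) + (p : ℤ_[p]) ^ n * y := by
    rw [← hy]; ring
  rw [hx, map_add, map_add, map_natCast, map_natCast, map_mul, map_mul, map_pow, map_pow,
    map_natCast, map_natCast, add_sub_add_left_eq_sub, ← mul_sub]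
  exact Ideal.mul_mem_right _ _ (Ideal.pow_mem_pow hpB n)

variable {ι : Type} [Fintype ι] (b : Module.Basis ι ℤ_[p] B) {r : ℕ}

/-- reduced coordinates -/
def Cn (n : ℕ) : (Fin r → B) →+ (ι → Fin r → ZMod (p ^ n)) where
  toFun v i l := PadicInt.toZModPow n (b.repr (v l) i)
  map_zero' := by
    ext i l
    simp
  map_add' v w := by
    ext i l
    simp

theorem Cn_apply (n : ℕ) (v : Fin r → B) (i : ι) (l : Fin r) :
    Cn b n v i l = PadicInt.toZModPow n (b.repr (v l) i) := rfl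

theorem Cn_mulVec (n : ℕ) (X : Matrix (Fin r) (Fin r) ℤ_[p]) (v : Fin r → B) (i : ι) :
    Cn b n ((algebraMap ℤ_[p] B).mapMatrix X *ᵥ v) i =
      (PadicInt.toZModPow n).mapMatrix X *ᵥ Cn b n v i := by
  ext l
  rw [Cn_apply, Matrix.mulVec, dotProduct, Matrix.mulVec, dotProduct, map_sum,
    Finsupp.finsetSum_apply, map_sum]
  refine Finset.sum_congr rfl fun m _ => ?_
  rw [RingHom.mapMatrix_apply, RingHom.mapMatrix_apply, Matrix.map_apply, Matrix.map_apply,
    Cn_apply, ← Algebra.smul_def, map_smul, Finsupp.smul_apply, smul_eq_mul, map_mul]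

theorem dvd_of_Cn (n : ℕ) {v : Fin r → B} (hv : Cn b n v = 0) (l : Fin r) :
    (p : B) ^ n ∣ v l := by
  have h1 : ∀ i, ∃ c : ℤ_[p], b.repr (v l) i = (p : ℤ_[p]) ^ n * c := by
    intro i
    have h2 : PadicInt.toZModPow n (b.repr (v l) i) = 0 := congrFun (congrFun hv i) l
    have h3 : b.repr (v l) i ∈ RingHom.ker (PadicInt.toZModPow (p := p) n) := h2
    rw [PadicInt.ker_toZModPow] at h3
    exact Ideal.mem_span_singleton.1 h3
  choose c hc using h1
  refine ⟨∑ i, c i • b i, ?_⟩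
  rw [← b.sum_repr (v l), Finset.mul_sum]
  refine Finset.sum_congr rfl fun i _ => ?_
  rw [hc, Algebra.smul_def, Algebra.smul_def, map_mul, map_pow, map_natCast, mul_assoc]

end Coord

section Core

variable {N p : ℕ} [NeZero N] [hp : Fact p.Prime] {S : Set ℕ} {B : Type} [CommRing B]
  [IsDomain B] [IsLocalRing B] [CharZero B] [IsAdicComplete (maximalIdeal B) B]
  [Algebra ℤ_[p] B] [Module.Finite ℤ_[p] B] {A : ValuationSubring Qbar}

/-- freeness of the coefficient ring -/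
theorem free_B (hpB : (p : B) ∈ maximalIdeal B) : Module.Free ℤ_[p] B := by
  have hinj : Function.Injective (algebraMap ℤ_[p] B) := by
    intro x y h
    rw [← padicTo_eq hpB, ← padicTo_eq hpB] at h
    exact padicTo_injective hpB h
  haveI : Module.IsTorsionFree ℤ_[p] B := by
    refine ⟨fun r hr x y h => ?_⟩
    have h2 : r • x = r • y := h
    rw [Algebra.smul_def, Algebra.smul_def] at h2
    have h3 : algebraMap ℤ_[p] B r ≠ 0 := fun h0 => by
      have h4 : r = 0 := hinj (h0.trans (map_zero _).symm)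
      rw [h4] at hr
      exact not_isRegular_zero hr
    exact mul_left_cancel₀ h3 h2
  infer_instance

/-- the finite level argument -/
theorem lgcp_fin (hp2 : p ≠ 2) (hpN : ¬ p ∣ N) (hA : A.LiesOverPrime p)
    (hpB : (p : B) ∈ maximalIdeal B) {T : GQ →* Matrix (Fin 2) (Fin 2) B}
    {j : (Fin 2 → B) →ₗ[B] (Fin (DN N p).r → B)}
    (hj : ∀ g y, (padicTo p (maximalIdeal B) hpB).mapMatrix ((DN N p).ρ g) *ᵥ j y =
      j (T g *ᵥ y)) {t : B}
    (ht : ∀ y, castHom (DN N p).r B ((DN N p).T p) *ᵥ j y = j (t • y))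
    {φ : GQ} (hφ : A.IsFrobeniusAt φ p) (hI0 : ∀ σ ∈ A.inertiaSubgroupIn ℚ, T σ 1 0 = 0)
    (hI1 : ∀ σ ∈ A.inertiaSubgroupIn ℚ, T σ 1 1 = 1) {c : B} {y : Fin 2 → B}
    (hc : c ∣ (T φ *ᵥ (T φ *ᵥ y) - t • (T φ *ᵥ y) + p • y) 1) (n : ℕ) :
    ∃ y' : Fin 2 → B, (∃ m ∈ maximalIdeal B, y' 1 = c * m) ∧
      ∀ l, (p : B) ^ n ∣ j ((T φ *ᵥ (T φ *ᵥ y) - t • (T φ *ᵥ y) + p • y) - y') l := by
  haveI := free_B (p := p) hpB
  let b := Module.Free.chooseBasis ℤ_[p] B
  haveI : Fintype (Module.Free.ChooseBasisIndex ℤ_[p] B) :=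
    Module.Free.ChooseBasisIndex.fintype ℤ_[p] B
  have hpn : p ^ n ≠ 0 := pow_ne_zero n hp.out.ne_zero
  obtain ⟨K, hK1, hK2, hK3⟩ := exists_K hp2 hpn hA hpN (latKum N hpn)
  have hf : (padicTo p (maximalIdeal B) hpB) = algebraMap ℤ_[p] B :=
    RingHom.ext (padicTo_eq hpB)
  let J : (Fin 2 → B) →+ (Module.Free.ChooseBasisIndex ℤ_[p] B →
      Fin (Module.finrank ℤ (Lat N)) → ZMod (p ^ n)) := (Cn b n).comp j.toAddMonoidHom
  have hJ : ∀ v, J v = Cn b n (j v) := fun v => rfl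
  have hJρ : ∀ g v i, J (T g *ᵥ v) i = latRep N hpn g (J v i) := by
    intro g v i
    have h2 : Cn b n (j (T g *ᵥ v)) i =
        (PadicInt.toZModPow n).mapMatrix ((DN N p).ρ g) *ᵥ Cn b n (j v) i := by
      rw [← hj, hf, Cn_mulVec]
    have h1 : (PadicInt.toZModPow n).mapMatrix ((DN N p).ρ g) = (KQ N).M (bL N) hpn g :=
      (KQ N).rho_spec (bL N) p g n
    rw [h1] at h2
    exact h2
  have hJt : ∀ v i, J (t • v) i =
      (Int.castRingHom (ZMod (p ^ n))).mapMatrix (KSys.tm (bL N) (LTot N p)) *ᵥ (J v i) := by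
    intro v i
    have h2 : Cn b n (j (t • v)) i =
        (PadicInt.toZModPow n).mapMatrix (castHom (DN N p).r ℤ_[p] ((DN N p).T p)) *ᵥ
          Cn b n (j v) i := by
      rw [← ht, ← map_castHom' (algebraMap ℤ_[p] B), Cn_mulVec]
    have h1 : (PadicInt.toZModPow n).mapMatrix (castHom (DN N p).r ℤ_[p] ((DN N p).T p)) =
        (Int.castRingHom (ZMod (p ^ n))).mapMatrix (KSys.tm (bL N) (LTot N p)) := by
      exact KSys.map_castHom n (KSys.tm (bL N) (LTot N p))
    rw [h1] at h2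
    exact h2
  let M₀ : AddSubgroup (Fin 2 → B) :=
    { carrier := {y | (∀ i, J y i ∈ K) ∧ c ∣ y 1}
      zero_mem' := ⟨fun i => by rw [map_zero]; exact K.zero_mem, dvd_zero c⟩
      add_mem' := fun {a b} ha hb => ⟨fun i => by
        rw [map_add]; exact K.add_mem (ha.1 i) (hb.1 i), dvd_add ha.2 hb.2⟩
      neg_mem' := fun {a} ha => ⟨fun i => by
        rw [map_neg]; exact K.neg_mem (ha.1 i), (dvd_neg).2 ha.2⟩ }
  let M₁ : AddSubgroup (Fin 2 → B) :=
    { carrier := {y | ∃ m ∈ maximalIdeal B, y 1 = c * m}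
      zero_mem' := ⟨0, Submodule.zero_mem _, by rw [mul_zero]; rfl⟩
      add_mem' := by
        rintro a b ⟨m, hm, ha⟩ ⟨m', hm', hb⟩
        exact ⟨m + m', Submodule.add_mem _ hm hm', by rw [Pi.add_apply, ha, hb, mul_add]⟩
      neg_mem' := by
        rintro a ⟨m, hm, ha⟩
        exact ⟨-m, Submodule.neg_mem _ hm, by rw [Pi.neg_apply, ha, mul_neg]⟩ }
  have hT1 : ∀ σ ∈ A.inertiaSubgroupIn ℚ, ∀ y : Fin 2 → B, (T σ *ᵥ y) 1 = y 1 := by
    intro σ hσ y
    rw [Matrix.mulVec, dotProduct, Fin.sum_univ_two, hI0 σ hσ, hI1 σ hσ, zero_mul, zero_add,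
      one_mul]
  have key : M₀.map J ≤ M₁.map J := by
    refine conn_pi hK3 (I := (A.inertiaSubgroupIn ℚ : Set GQ)) ?_ ?_ ?_ ?_
    · rintro σ hσ _ ⟨y, hy, rfl⟩
      refine ⟨T σ *ᵥ y, ⟨fun i => ?_, ?_⟩, ?_⟩
      · rw [hJρ]
        have h1 := K.add_mem (hK2 σ hσ (J y i)) (hy.1 i)
        rwa [sub_add_cancel] at h1
      · rw [hT1 σ hσ]
        exact hy.2
      · funext i
        exact hJρ σ y i
    · rintro _ ⟨y, hy, rfl⟩ i
      exact hy.1 i
    · rintro _ ⟨y, hy, rfl⟩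
      obtain ⟨m, hm⟩ := hy.2
      refine ⟨p • y, ⟨p * m, Ideal.mul_mem_right _ _ hpB, ?_⟩, by rw [map_nsmul]⟩
      rw [Pi.smul_apply, hm, nsmul_eq_mul]
      ring
    · rintro σ hσ _ ⟨y, hy, rfl⟩
      refine ⟨T σ *ᵥ y - y, ⟨0, Submodule.zero_mem _, ?_⟩, ?_⟩
      · rw [Pi.sub_apply, hT1 σ hσ, sub_self, mul_zero]
      · rw [map_sub]
        funext i
        rw [Pi.sub_apply, hJρ]
  have hy₀ : (T φ *ᵥ (T φ *ᵥ y) - t • (T φ *ᵥ y) + p • y) ∈ M₀ := by
    refine ⟨fun i => ?_, hc⟩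
    have h1 := hK1 _ (es_lat hA hpN hφ hpn (J y i))
    have h2 : J (T φ *ᵥ (T φ *ᵥ y) - t • (T φ *ᵥ y) + p • y) i =
        (latRep N hpn φ (latRep N hpn φ (J y i)) -
          (Int.castRingHom (ZMod (p ^ n))).mapMatrix (KSys.tm (bL N) (LTot N p)) *ᵥ
            (latRep N hpn φ (J y i)) + p • (J y i)) := by
      rw [map_add, map_sub, map_nsmul, Pi.add_apply, Pi.sub_apply, Pi.smul_apply, hJρ, hJt, hJρ]
    rw [h2]
    exact h1
  obtain ⟨y', hy', he⟩ := key ⟨_, hy₀, rfl⟩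
  refine ⟨y', hy', fun l => dvd_of_Cn b n ?_ l⟩
  rw [map_sub, map_sub, sub_eq_zero]
  exact he.symm

/-- **the unit root is an eigenvalue of Frobenius**, in matrix form -/
theorem lgcp_core (hp2 : p ≠ 2) (hpN : ¬ p ∣ N) (hpS : p ∉ S) (hS : S.Finite)
    (hA : A.LiesOverPrime p) (hpB : (p : B) ∈ maximalIdeal B) (θ : heckeAlgebra N 2 S →+* B)
    {T : GQ →* Matrix (Fin 2) (Fin 2) B} (hT : MatCont T)
    (hspan : Submodule.span B (Set.range T) = ⊤)
    (hπ : FrobCond (D := DN N p) (S := S) (θ.comp (HData.Phi S (hdata_link (esHyp N p)))) T)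
    {φ : GQ} (hφ : A.IsFrobeniusAt φ p) (hD : T φ 1 0 = 0)
    (hI0 : ∀ σ ∈ A.inertiaSubgroupIn ℚ, T σ 1 0 = 0)
    (hI1 : ∀ σ ∈ A.inertiaSubgroupIn ℚ, T σ 1 1 = 1) {a : B} (ha : IsUnit a)
    (hroot : a ^ 2 - θ (heckeAlgebra.T (Fact.out : p.Prime) hpN hpS) * a + p = 0) :
    T φ 1 1 = a := by
  obtain ⟨j, d, hd, hj, ht, hdiv⟩ := exists_emb hpN hpS hS hpB θ hT hspan hπ
  set t := θ (heckeAlgebra.T (Fact.out : p.Prime) hpN hpS) with htdef
  set x := T φ 1 1 with hx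
  have hTy : ∀ y : Fin 2 → B, (T φ *ᵥ y) 1 = x * y 1 := by
    intro y
    rw [Matrix.mulVec, dotProduct, Fin.sum_univ_two, hD, zero_mul, zero_add]
  -- units
  have hxu : IsUnit x := by
    have h1 : T φ * T φ⁻¹ = 1 := by rw [← map_mul, mul_inv_cancel, map_one]
    have h2 : (T φ).det * (T φ⁻¹).det = 1 := by rw [← Matrix.det_mul, h1, Matrix.det_one]
    have h3 : (T φ).det = T φ 0 0 * x := by
      rw [Matrix.det_fin_two, hD, mul_zero, sub_zero]
    rw [h3] at h2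
    exact IsUnit.of_mul_eq_one (T φ 0 0 * (T φ⁻¹).det) (by rw [← h2]; ring)
  have hb : t - a ∈ maximalIdeal B := by
    have h1 : a * (t - a) = p := by linear_combination -hroot
    have h2 : a * (t - a) ∈ maximalIdeal B := by rw [h1]; exact hpB
    exact (Ideal.unit_mul_mem_iff_mem _ ha).1 h2
  let y : Fin 2 → B := Pi.single 1 1
  have hy1 : y 1 = 1 := Pi.single_eq_same _ _
  have hy0 : (T φ *ᵥ (T φ *ᵥ y) - t • (T φ *ᵥ y) + p • y) 1 = (x - a) * (x - (t - a)) := by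
    rw [Pi.add_apply, Pi.sub_apply, Pi.smul_apply, Pi.smul_apply, hTy, hTy, hy1, smul_eq_mul,
      nsmul_eq_mul]
    linear_combination hroot
  have key : ∀ n : ℕ, (p : B) ^ n ∣ d * (x - a) := by
    intro n
    obtain ⟨y', ⟨m, hm, hy'⟩, hdv⟩ := lgcp_fin hp2 hpN hA hpB hj ht hφ hI0 hI1 (c := x - a)
      (y := y) (by rw [hy0]; exact dvd_mul_right _ _) n
    have h1 := hdiv ((p : B) ^ n) _ (pow_ne_zero n (Nat.cast_ne_zero.2 hp.out.ne_zero)) hdv
    rw [Pi.sub_apply, hy0, hy'] at h1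
    have hu : IsUnit (x - (t - a) - m) := by
      have h2 : x - (t - a) - m = x - ((t - a) + m) := by ring
      rw [h2]
      by_contra hcon
      have h3 : x - ((t - a) + m) ∈ maximalIdeal B := (mem_maximalIdeal _).2 hcon
      have h4 : x ∈ maximalIdeal B := by
        have := Submodule.add_mem _ h3 (Submodule.add_mem _ hb hm)
        rwa [sub_add_cancel] at this
      exact (mem_maximalIdeal _).1 h4 hxu
    have h2 : d * ((x - a) * (x - (t - a)) - (x - a) * m) =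
        d * (x - a) * (x - (t - a) - m) := by ring
    rw [h2] at h1
    exact (hu.dvd_mul_right).1 h1
  have h0 : d * (x - a) = 0 := by
    refine IsHausdorff.haus (inferInstance : IsHausdorff (maximalIdeal B) B) _ fun n => ?_
    rw [SModEq.zero, smul_eq_mul, Ideal.mul_top]
    obtain ⟨z, hz⟩ := key n
    rw [hz]
    exact Ideal.mul_mem_right _ _ (Ideal.pow_mem_pow hpB n)
  exact sub_eq_zero.1 ((mul_eq_zero.1 h0).resolve_left hd)

end Core

end Fermat.Agent.RT.Lgcp
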