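import Fermat.Agent.TW56.Tan
import Fermat.Agent.AtP.CycIn
import Fermat.Agent.DefRing.Assembly
import Fermat.Agent.RT.T10St

/-!
# T10 (a): matrix conditions and families of ring homomorphisms
-/

set_option autoImplicit false
set_option maxHeartbeats 400000
set_option linter.unusedSectionVars false

noncomputable section

namespace Fermat.Agent.RT

open IsLocalRing Matrix Fermat.Agent.DefRing Fermat.Agent.GalRep Fermat.Agent.TWGal
  Fermat.Agent.TWPatch Fermat.Agent.TW56 GaloisRep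

local notation "Qbar" => AlgebraicClosure ℚ

section Cyc

variable {p : ℕ} [hp : Fact p.Prime]

/-- the exponent of the cyclotomic character mod `p ^ n` -/
def cexp (p : ℕ) [Fact p.Prime] (n : ℕ) (σ : GQ) : ℕ := (PadicInt.toZModPow n (cycP p σ)).val

theorem cexp_spec (n : ℕ) (σ : GQ) (μ : Qbar) (hμ : μ ^ p ^ n = 1) : σ μ = μ ^ cexp p n σ :=
  cycP_spec p σ hμ

theorem dvd_cexp {n m a : ℕ} (hmn : m ≤ n) {σ : GQ}
    (h : ∀ μ : Qbar, μ ^ p ^ n = 1 → σ μ = μ ^ a) :
    ((p ^ m : ℕ) : ℤ) ∣ (a : ℤ) - cexp p m σ := by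
  obtain ⟨ζ, hζ⟩ := HasEnoughRootsOfUnity.exists_primitiveRoot Qbar (p ^ m)
  have h1 : ζ ^ p ^ n = 1 := by
    obtain ⟨k, rfl⟩ := Nat.exists_eq_add_of_le hmn
    rw [pow_add, pow_mul, hζ.pow_eq_one, one_pow]
  have h2 := toZModPow_cycP_eq p σ hζ (h ζ h1)
  rw [cexp, h2, ZMod.val_natCast]
  refine ⟨((a / p ^ m : ℕ) : ℤ), ?_⟩
  have h3 := Nat.div_add_mod a (p ^ m)
  rw [sub_eq_iff_eq_add]
  exact_mod_cast h3.symm

theorem sub_cexp_mem {A : Type} [CommRing A] {n m a : ℕ} (hmn : m ≤ n) {σ : GQ}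
    (h : ∀ μ : Qbar, μ ^ p ^ n = 1 → σ μ = μ ^ a) :
    (a : A) - (cexp p m σ : A) ∈ Ideal.span {((p ^ m : ℕ) : A)} := by
  obtain ⟨k, hk⟩ := dvd_cexp hmn h
  rw [Ideal.mem_span_singleton]
  refine ⟨(k : A), ?_⟩
  have := congrArg (Int.cast : ℤ → A) hk
  push_cast at this ⊢
  exact this

theorem mdet_iff {A : Type} [CommRing A] [IsLocalRing A] {N : ℕ} (hN : ((p ^ N : ℕ) : A) = 0)
    {T : GQ →* Matrix (Fin 2) (Fin 2) A} :
    MDet p T ↔ ∀ σ, (T σ).det = (cexp p N σ : A) := by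
  have hbot : Ideal.span {((p ^ N : ℕ) : A)} = ⊥ := by
    rw [hN]; exact Ideal.span_singleton_eq_bot.mpr rfl
  constructor
  · intro h σ
    have h1 := h N σ (cexp p N σ) (cexp_spec N σ)
    rw [hbot, Ideal.mem_bot, sub_eq_zero] at h1
    exact h1
  · intro h n σ a ha
    rw [h σ]
    rcases le_total n N with hn | hn
    · have h1 := sub_cexp_mem (A := A) le_rfl ha
      have h2 := sub_cexp_mem (A := A) hn (cexp_spec (p := p) N σ)
      have h3 := Ideal.sub_mem _ h2 h1
      have e : (cexp p N σ : A) - a = (cexp p N σ : A) - cexp p n σ - (a - cexp p n σ) := by ring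
      rw [e]
      exact h3
    · have h1 := sub_cexp_mem (A := A) hn ha
      rw [hbot, Ideal.mem_bot] at h1
      have e : (cexp p N σ : A) - a = 0 := by rw [← neg_sub, h1, neg_zero]
      rw [e]
      exact Ideal.zero_mem _

theorem mdet_of_family {A : Type} [CommRing A] [IsLocalRing A] {N : ℕ}
    (hN : ((p ^ N : ℕ) : A) = 0) {T : GQ →* Matrix (Fin 2) (Fin 2) A} {ι : Type} {B : ι → Type}
    [∀ i, CommRing (B i)] [∀ i, IsLocalRing (B i)] (f : ∀ i, A →+* B i)
    (hinj : ∀ x, (∀ i, f i x = 0) → x = 0) (h : ∀ i, MDet p (mapT (f i) T)) : MDet p T := by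
  rw [mdet_iff hN]
  intro σ
  rw [← sub_eq_zero]
  apply hinj
  intro i
  have hNi : ((p ^ N : ℕ) : B i) = 0 := by rw [← map_natCast (f i), hN, map_zero]
  have h1 := (mdet_iff hNi).mp (h i) σ
  rw [det_mapT] at h1
  rw [map_sub, h1, map_natCast, sub_self]

theorem isUnit_cexp_sub_one {A : Type} [CommRing A] [IsLocalRing A] (hpA : (p : A) ∈ maximalIdeal A)
    {σ : GQ} (hσ : IsUnit (cycP p σ - 1)) : ((cexp p 1 σ : A) - 1) ∉ maximalIdeal A := by
  intro hmem
  have h1 : ¬ ((p : ℕ) : ℤ) ∣ (cexp p 1 σ : ℤ) - 1 := by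
    intro hd
    have h2 : ((cexp p 1 σ : ℕ) : ZMod (p ^ 1)) = 1 := by
      have h3 : (((cexp p 1 σ : ℤ) - 1 : ℤ) : ZMod (p ^ 1)) = 0 := by
        rw [ZMod.intCast_zmod_eq_zero_iff_dvd, pow_one]; exact hd
      push_cast at h3
      exact sub_eq_zero.mp h3
    haveI : NeZero (p ^ 1) := ⟨pow_ne_zero 1 hp.out.ne_zero⟩
    rw [cexp, ZMod.natCast_val, ZMod.cast_id] at h2
    have h4 : IsUnit (PadicInt.toZModPow 1 (cycP p σ - 1)) := hσ.map _
    rw [map_sub, map_one, h2, sub_self, isUnit_zero_iff] at h4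
    haveI : Nontrivial (ZMod (p ^ 1)) := by rw [pow_one]; infer_instance
    exact zero_ne_one h4
  have h5 : IsCoprime ((p : ℕ) : ℤ) ((cexp p 1 σ : ℤ) - 1) :=
    (Nat.prime_iff_prime_int.mp hp.out).irreducible.coprime_iff_not_dvd.mpr h1
  obtain ⟨x, y, hxy⟩ := h5
  have h6 := congrArg (Int.cast : ℤ → A) hxy
  push_cast at h6
  have h7 : (1 : A) ∈ maximalIdeal A := by
    rw [← h6]
    exact Ideal.add_mem _ (Ideal.mul_mem_left _ _ hpA) (Ideal.mul_mem_left _ _ hmem)
  exact (maximalIdeal.isMaximal A).ne_top ((Ideal.eq_top_iff_one _).mpr h7)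

theorem isUnit_det_sub_one {A : Type} [CommRing A] [IsLocalRing A]
    (hpA : (p : A) ∈ maximalIdeal A) {T : GQ →* Matrix (Fin 2) (Fin 2) A} (hdet : MDet p T)
    {σ : GQ} (hσ : IsUnit (cycP p σ - 1)) : IsUnit ((T σ).det - 1) := by
  by_contra hcon
  have h1 : (T σ).det - 1 ∈ maximalIdeal A := hcon
  have h2 := hdet 1 σ (cexp p 1 σ) (cexp_spec 1 σ)
  have h3 : (T σ).det - (cexp p 1 σ : A) ∈ maximalIdeal A := by
    refine (Ideal.span_le.mpr ?_ : Ideal.span {((p ^ 1 : ℕ) : A)} ≤ maximalIdeal A) h2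
    rw [Set.singleton_subset_iff, pow_one]
    exact hpA
  refine isUnit_cexp_sub_one hpA hσ ?_
  have e : (cexp p 1 σ : A) - 1 = ((T σ).det - 1) - ((T σ).det - cexp p 1 σ) := by ring
  rw [e]
  exact Ideal.sub_mem _ h1 h3

end Cyc

/-! ### ordinary representations -/

section Ord

variable {p : ℕ} [hp : Fact p.Prime]

/-- ordinary, matrix form (`s`: strict) -/
def MOr (s : Prop) (p : ℕ) {A : Type} [CommRing A] (T : GQ →* Matrix (Fin 2) (Fin 2) A) : Prop :=
  ∀ P : ValuationSubring Qbar, P.LiesOverPrime p → ∃ B B' : Matrix (Fin 2) (Fin 2) A,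
    B * B' = 1 ∧ B' * B = 1 ∧ (∀ σ ∈ P.decompositionSubgroup ℚ, (B' * T σ * B) 1 0 = 0) ∧
    (∀ σ ∈ P.inertiaSubgroupIn ℚ, (B' * T σ * B) 1 1 = 1) ∧
    (s → ∀ σ ∈ P.decompositionSubgroup ℚ,
      (B' * T σ * B) 0 0 = (T σ).det * (B' * T σ * B) 1 1)

theorem eq_of_forall_span {A : Type} [CommRing A] [IsLocalRing A] [IsNoetherianRing A]
    (hpA : (p : A) ∈ maximalIdeal A) {x : A}
    (h : ∀ n : ℕ, x ∈ Ideal.span {((p ^ n : ℕ) : A)}) : x = 0 := by
  have h1 : x ∈ (⨅ n : ℕ, maximalIdeal A ^ n : Ideal A) := by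
    rw [Ideal.mem_iInf]
    intro n
    refine (Ideal.span_le.mpr ?_ : Ideal.span {((p ^ n : ℕ) : A)} ≤ maximalIdeal A ^ n) (h n)
    rw [Set.singleton_subset_iff, Nat.cast_pow]
    exact Ideal.pow_mem_pow hpA n
  rw [Ideal.iInf_pow_eq_bot_of_isLocalRing _ (maximalIdeal.isMaximal A).ne_top] at h1
  exact h1

theorem det_conj {A : Type} [CommRing A] {B B' M : Matrix (Fin 2) (Fin 2) A}
    (h : B' * B = 1) : (B' * M * B).det = M.det := by
  rw [Matrix.det_mul, Matrix.det_mul, mul_right_comm, ← Matrix.det_mul, h, Matrix.det_one, one_mul]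

theorem mord_iff {A : Type} [CommRing A] [IsLocalRing A] [IsNoetherianRing A]
    (hpA : (p : A) ∈ maximalIdeal A) {T : GQ →* Matrix (Fin 2) (Fin 2) A} (hdet : MDet p T) :
    MOrd p T ↔ MOr True p T := by
  unfold MOrd MOr
  refine forall_congr' fun P => imp_congr_right fun hP => ?_
  refine exists_congr fun B => exists_congr fun B' => and_congr_right fun h1 =>
    and_congr_right fun h2 => and_congr_right fun h3 => and_congr_right fun h4 => ?_
  constructor
  · intro h _ σ hσ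
    rw [← sub_eq_zero]
    refine eq_of_forall_span hpA fun n => ?_
    have h5 := h σ hσ n (cexp p n σ) (cexp_spec n σ)
    have h6 := hdet n σ (cexp p n σ) (cexp_spec n σ)
    have h7 := Ideal.sub_mem _ h5 (Ideal.mul_mem_right ((B' * T σ * B) 1 1) _ h6)
    convert h7 using 1
    ring
  · intro h σ hσ n a ha
    rw [h trivial σ hσ, ← sub_mul]
    exact Ideal.mul_mem_right _ _ (hdet n σ a ha)

theorem exists_frame {A : Type} [CommRing A] [IsLocalRing A] {M : Matrix (Fin 2) (Fin 2) A}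
    (hu : IsUnit (M.det - 1)) (htr : M.trace = 1 + M.det) :
    ∃ B B' : Matrix (Fin 2) (Fin 2) A, B * B' = 1 ∧ B' * B = 1 ∧
      B' * M * B = !![M.det, 0; 0, 1] := by
  obtain ⟨v, hv⟩ := hu.exists_right_inv
  set u : A := M.det with hudef
  set a : A := (M 0 0 - 1) * v with ha
  set b : A := M 0 1 * v with hb
  set c : A := M 1 0 * v with hc
  set d : A := (M 1 1 - 1) * v with hd
  have htr' : M 0 0 + M 1 1 = 1 + u := by rw [← htr, Matrix.trace_fin_two]
  have hdet' : M 0 0 * M 1 1 - M 0 1 * M 1 0 = u := by rw [hudef, Matrix.det_fin_two]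
  have had : a + d = 1 := by
    rw [ha, hd]
    linear_combination v * htr' + hv
  have hbc : a * d - b * c = 0 := by
    rw [ha, hb, hc, hd]
    linear_combination v ^ 2 * (hdet' - htr')
  have e00 : M 0 0 = 1 + (u - 1) * a := by rw [ha]; linear_combination (-(M 0 0 - 1)) * hv
  have e01 : M 0 1 = (u - 1) * b := by rw [hb]; linear_combination (-(M 0 1)) * hv
  have e10 : M 1 0 = (u - 1) * c := by rw [hc]; linear_combination (-(M 1 0)) * hv
  have e11 : M 1 1 = 1 + (u - 1) * d := by rw [hd]; linear_combination (-(M 1 1 - 1)) * hv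
  have key : ∀ B B' : Matrix (Fin 2) (Fin 2) A, B * B' = 1 → M * B = B * !![u, 0; 0, 1] →
      ∃ B B' : Matrix (Fin 2) (Fin 2) A, B * B' = 1 ∧ B' * B = 1 ∧
      B' * M * B = !![u, 0; 0, 1] := by
    intro B B' h1 h2
    have h3 : B' * B = 1 := mul_eq_one_comm.mp h1
    refine ⟨B, B', h1, h3, ?_⟩
    rw [Matrix.mul_assoc, h2, ← Matrix.mul_assoc, h3, Matrix.one_mul]
  have hunit : IsUnit a ∨ IsUnit d := by
    refine IsLocalRing.isUnit_or_isUnit_of_isUnit_add ?_
    rw [had]; exact isUnit_one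
  rcases hunit with h | h
  · obtain ⟨w, hw⟩ := h.exists_right_inv
    refine key !![a, -b; c, a] !![a * w, b * w; -c * w, a * w] ?_ ?_
    · ext i j
      fin_cases i <;> fin_cases j <;>
        simp [Matrix.mul_apply, Fin.sum_univ_two]
      · linear_combination a * w * had + hw - w * hbc
      · ring
      · ring
      · linear_combination a * w * had + hw - w * hbc
    · ext i j
      fin_cases i <;> fin_cases j <;>
        simp [Matrix.mul_apply, Fin.sum_univ_two]
      · rw [e00, e01]; linear_combination (u - 1) * a * had - (u - 1) * hbc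
      · rw [e00, e01]; ring
      · rw [e10, e11]; linear_combination (u - 1) * c * had
      · rw [e10, e11]; linear_combination (u - 1) * hbc
  · obtain ⟨w, hw⟩ := h.exists_right_inv
    refine key !![b, d; d, -c] !![c * w, d * w; d * w, -b * w] ?_ ?_
    · ext i j
      fin_cases i <;> fin_cases j <;>
        simp [Matrix.mul_apply, Fin.sum_univ_two]
      · linear_combination d * w * had + hw - w * hbc
      · ring
      · ring
      · linear_combination d * w * had + hw - w * hbc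
    · ext i j
      fin_cases i <;> fin_cases j <;>
        simp [Matrix.mul_apply, Fin.sum_univ_two]
      · rw [e00, e01]; linear_combination (u - 1) * b * had
      · rw [e00, e01]; linear_combination (u - 1) * hbc
      · rw [e10, e11]; linear_combination (u - 1) * d * had - (u - 1) * hbc
      · rw [e10, e11]; ring

theorem tri_transfer {K : Type} [CommRing K] {M B B' B₀ B₀' : Matrix (Fin 2) (Fin 2) K} {u : K}
    (hu : IsUnit (u - 1)) (h1 : B * B' = 1) (h3 : B₀ * B₀' = 1)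
    (hM10 : (B' * M * B) 1 0 = 0) (hM11 : (B' * M * B) 1 1 = 1)
    (h0 : B₀' * M * B₀ = !![u, 0; 0, 1]) :
    (B' * B₀) 1 0 = 0 ∧ (B₀' * B) 1 0 = 0 := by
  have hc : ∀ x : K, x * u = x → x = 0 := fun x hx => by
    refine hu.mul_left_eq_zero.mp ?_
    rw [mul_sub, hx, mul_one, sub_self]
  have e1 : (B' * M * B) * (B' * B₀) = (B' * B₀) * !![u, 0; 0, 1] := by
    rw [← h0]
    calc (B' * M * B) * (B' * B₀) = B' * M * (B * B') * B₀ := by simp only [Matrix.mul_assoc]
      _ = B' * (B₀ * B₀') * M * B₀ := by rw [h1, h3, Matrix.mul_one, Matrix.mul_one]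
      _ = _ := by simp only [Matrix.mul_assoc]
  have e2 : (B₀' * B) * (B' * M * B) = !![u, 0; 0, 1] * (B₀' * B) := by
    rw [← h0]
    calc (B₀' * B) * (B' * M * B) = B₀' * (B * B') * M * B := by simp only [Matrix.mul_assoc]
      _ = B₀' * M * (B₀ * B₀') * B := by rw [h1, h3, Matrix.mul_one, Matrix.mul_one]
      _ = _ := by simp only [Matrix.mul_assoc]
  constructor
  · have h := congrFun (congrFun e1 1) 0
    rw [Matrix.mul_apply, Matrix.mul_apply, Fin.sum_univ_two, Fin.sum_univ_two, hM10, hM11] at h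
    simp only [Matrix.of_apply, Matrix.cons_val', Matrix.cons_val_zero, Matrix.cons_val_one,
      Matrix.cons_val_fin_one, zero_mul, zero_add, one_mul, mul_zero, add_zero] at h
    exact hc _ h.symm
  · have h := congrFun (congrFun e2 1) 0
    rw [Matrix.mul_apply, Matrix.mul_apply, Fin.sum_univ_two, Fin.sum_univ_two, hM10] at h
    simp only [Matrix.of_apply, Matrix.cons_val', Matrix.cons_val_zero, Matrix.cons_val_one,
      Matrix.cons_val_fin_one, zero_mul, zero_add, one_mul, mul_zero, add_zero] at h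
    have e3 := congrFun (congrFun (show B' * M * B = B' * M * B from rfl) 0) 0
    -- `(B' M B) 0 0 = u`
    have hd : (B' * M * B).det = u := by
      have := congrArg Matrix.det h0
      rw [det_conj (mul_eq_one_comm.mp h3), Matrix.det_fin_two_of] at this
      rw [det_conj (mul_eq_one_comm.mp h1), this]; ring
    rw [Matrix.det_fin_two, hM10, hM11, mul_zero, sub_zero, mul_one] at hd
    rw [hd] at h
    exact hc _ h

theorem tri_entries {K : Type} [CommRing K] {N B B' B₀ B₀' : Matrix (Fin 2) (Fin 2) K}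
    (h1 : B * B' = 1) (h3 : B₀ * B₀' = 1)
    (hC : (B' * B₀) 1 0 = 0) (hC' : (B₀' * B) 1 0 = 0) (hN : (B' * N * B) 1 0 = 0) :
    (B₀' * N * B₀) 1 0 = 0 ∧ (B₀' * N * B₀) 1 1 = (B' * N * B) 1 1 ∧
      (B₀' * N * B₀) 0 0 = (B' * N * B) 0 0 := by
  have e : B₀' * N * B₀ = (B₀' * B) * (B' * N * B) * (B' * B₀) := by
    calc B₀' * N * B₀ = B₀' * (B * B') * N * (B * B') * B₀ := by
          rw [h1, Matrix.mul_one, Matrix.mul_one]
      _ = _ := by simp only [Matrix.mul_assoc]
  have h13 : (B₀' * B) * (B' * B₀) = 1 := by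
    calc (B₀' * B) * (B' * B₀) = B₀' * (B * B') * B₀ := by simp only [Matrix.mul_assoc]
      _ = 1 := by rw [h1, Matrix.mul_one]; exact mul_eq_one_comm.mp h3
  have e00 := congrFun (congrFun h13 0) 0
  have e11 := congrFun (congrFun h13 1) 1
  rw [Matrix.mul_apply, Fin.sum_univ_two, hC, mul_zero, add_zero, Matrix.one_apply_eq] at e00
  rw [Matrix.mul_apply, Fin.sum_univ_two, hC', zero_mul, zero_add, Matrix.one_apply_eq] at e11
  set Y := B' * N * B
  set C := B' * B₀
  set C' := B₀' * B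
  rw [e]
  refine ⟨?_, ?_, ?_⟩
  · rw [Matrix.mul_apply, Fin.sum_univ_two, Matrix.mul_apply, Fin.sum_univ_two, Matrix.mul_apply,
      Fin.sum_univ_two, hC, hC', hN]
    ring
  · rw [Matrix.mul_apply, Fin.sum_univ_two, Matrix.mul_apply, Fin.sum_univ_two, Matrix.mul_apply,
      Fin.sum_univ_two, hC', hN]
    linear_combination Y 1 1 * e11
  · rw [Matrix.mul_apply, Fin.sum_univ_two, Matrix.mul_apply, Fin.sum_univ_two, Matrix.mul_apply,
      Fin.sum_univ_two, hC, hN]
    linear_combination Y 0 0 * e00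

theorem map_conj {A K : Type} [CommRing A] [CommRing K] (f : A →+* K)
    (T : GQ →* Matrix (Fin 2) (Fin 2) A) (B B' : Matrix (Fin 2) (Fin 2) A) (σ : GQ) (i j : Fin 2) :
    (B'.map f * mapT f T σ * B.map f) i j = f ((B' * T σ * B) i j) := by
  have : B'.map f * mapT f T σ * B.map f = (B' * T σ * B).map f := by
    rw [Matrix.map_mul, Matrix.map_mul]; rfl
  rw [this, Matrix.map_apply]

theorem mor_map {s : Prop} {A K : Type} [CommRing A] [CommRing K] (f : A →+* K)
    {T : GQ →* Matrix (Fin 2) (Fin 2) A} (h : MOr s p T) : MOr s p (mapT f T) := by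
  intro P hP
  obtain ⟨B, B', h1, h2, h3, h4, h5⟩ := h P hP
  refine ⟨B.map f, B'.map f, ?_, ?_, ?_, ?_, ?_⟩
  · rw [← Matrix.map_mul, h1, Matrix.map_one _ (map_zero f) (map_one f)]
  · rw [← Matrix.map_mul, h2, Matrix.map_one _ (map_zero f) (map_one f)]
  · intro σ hσ
    rw [map_conj, h3 σ hσ, map_zero]
  · intro σ hσ
    rw [map_conj, h4 σ hσ, map_one]
  · intro hs σ hσ
    rw [map_conj, map_conj, det_mapT, h5 hs σ hσ, map_mul]

/-- descent of ordinarity along jointly injective families -/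
theorem mor_of_family {s : Prop} (hp2 : p ≠ 2) {A : Type} [CommRing A] [IsLocalRing A]
    (hpA : (p : A) ∈ maximalIdeal A) {T : GQ →* Matrix (Fin 2) (Fin 2) A} (hdet : MDet p T)
    {ι : Type} {K : ι → Type} [∀ i, CommRing (K i)] (f : ∀ i, A →+* K i)
    (hinj : ∀ x, (∀ i, f i x = 0) → x = 0) (h : ∀ i, MOr s p (mapT (f i) T)) : MOr s p T := by
  intro P hP
  obtain ⟨σ₀, hσ₀, hu⟩ := AtP.exists_inertia_unit hp2 hP
  have hu0 := isUnit_det_sub_one hpA hdet hu
  have hinj' : ∀ x y : A, (∀ i, f i x = f i y) → x = y := fun x y hxy => by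
    rw [← sub_eq_zero]
    exact hinj _ fun i => by rw [map_sub, hxy, sub_self]
  choose B B' h1 h2 h3 h4 h5 using fun i => h i P hP
  have hσ₀D : σ₀ ∈ P.decompositionSubgroup ℚ := by
    obtain ⟨τ, -, rfl⟩ := hσ₀
    exact τ.2
  have htr : (T σ₀).trace = 1 + (T σ₀).det := by
    refine hinj' _ _ fun i => ?_
    have e1 : (B' i * mapT (f i) T σ₀ * B i).det = (mapT (f i) T σ₀).det := det_conj (h2 i)
    have e2 : (B' i * mapT (f i) T σ₀ * B i).trace = (mapT (f i) T σ₀).trace := by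
      rw [Matrix.trace_mul_comm, ← Matrix.mul_assoc, h1 i, Matrix.one_mul]
    rw [Matrix.det_fin_two, h3 i σ₀ hσ₀D, h4 i σ₀ hσ₀, mul_zero, sub_zero, mul_one] at e1
    rw [Matrix.trace_fin_two, h4 i σ₀ hσ₀, e1] at e2
    rw [← trace_mapT, ← e2, map_add, map_one, det_mapT]
    ring
  obtain ⟨B₀, B₀', g1, g2, g3⟩ := exists_frame hu0 htr
  have g1' : ∀ i, B₀.map (f i) * B₀'.map (f i) = 1 := fun i => by
    rw [← Matrix.map_mul, g1, Matrix.map_one _ (map_zero (f i)) (map_one (f i))]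
  have g3' : ∀ i, B₀'.map (f i) * mapT (f i) T σ₀ * B₀.map (f i) =
      !![f i (T σ₀).det, 0; 0, 1] := fun i => by
    ext a b
    rw [map_conj, g3]
    fin_cases a <;> fin_cases b <;> simp
  have hC : ∀ i, (B' i * B₀.map (f i)) 1 0 = 0 ∧ (B₀'.map (f i) * B i) 1 0 = 0 := fun i =>
    tri_transfer (M := mapT (f i) T σ₀) (by
      have := hu0.map (f i)
      rwa [map_sub, map_one] at this) (h1 i) (g1' i) (h3 i σ₀ hσ₀D) (h4 i σ₀ hσ₀) (g3' i)
  refine ⟨B₀, B₀', g1, g2, ?_, ?_, ?_⟩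
  · intro σ hσ
    refine hinj _ fun i => ?_
    rw [← map_conj]
    exact (tri_entries (h1 i) (g1' i) (hC i).1 (hC i).2 (h3 i σ hσ)).1
  · intro σ hσ
    have hσD : σ ∈ P.decompositionSubgroup ℚ := by
      obtain ⟨τ, -, rfl⟩ := hσ
      exact τ.2
    refine hinj' _ _ fun i => ?_
    rw [← map_conj, (tri_entries (h1 i) (g1' i) (hC i).1 (hC i).2 (h3 i σ hσD)).2.1, h4 i σ hσ,
      map_one]
  · intro hs σ hσ
    refine hinj' _ _ fun i => ?_
    obtain ⟨-, e1, e2⟩ := tri_entries (h1 i) (g1' i) (hC i).1 (hC i).2 (h3 i σ hσ)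
    rw [map_mul, ← map_conj, ← map_conj, e1, e2, h5 i hs σ hσ, det_mapT]

end Ord

/-! ### flat representations -/

section Flat

variable {p : ℕ} [hp : Fact p.Prime]

/-- flatness of the vector representation -/
def Fl (p : ℕ) {M : Type} [CommRing M] (T : GQ →* Matrix (Fin 2) (Fin 2) M) : Prop :=
  FlatLoc.IsFlatMod (FlatLoc.Zloc p) (vecRep T)

theorem Fl.quot {A K : Type} [CommRing A] [CommRing K] [Finite A] {f : A →+* K}
    (hf : Function.Surjective f) {T : GQ →* Matrix (Fin 2) (Fin 2) A} (h : Fl p T) :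
    Fl p (mapT f T) := by
  refine FlatLoc.IsFlatMod.quotient (FlatLoc.isBase_Zloc hp.out) h
    (AddMonoidHom.mk' (fun x i => f (x i)) fun x y => by
      funext i; simp only [Pi.add_apply, map_add]) ?_ ?_
  · intro y
    choose x hx using fun i => hf (y i)
    exact ⟨x, funext hx⟩
  · intro σ x
    change (fun i => f ((T σ *ᵥ x) i)) = mapT f T σ *ᵥ (fun i => f (x i))
    funext i
    simp only [Matrix.mulVec, dotProduct, map_sum, map_mul]
    rfl

theorem Fl.mflat {A : Type} [CommRing A] [Finite A] {T : GQ →* Matrix (Fin 2) (Fin 2) A}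
    (h : Fl p T) : MFlat p T := fun _ _ _ => h.quot Ideal.Quotient.mk_surjective

theorem MFlat.fl {A : Type} [CommRing A] [Finite A] [Nontrivial A]
    {T : GQ →* Matrix (Fin 2) (Fin 2) A} (h : MFlat p T) : Fl p T :=
  h.flat (RingHom.id A)

theorem Fl.of_inj2 {R A K : Type} [CommRing R] [CommRing A] [CommRing K] [Finite A] [Finite K]
    (f : R →+* A) (g : R →+* K) (hinj : ∀ x, f x = 0 → g x = 0 → x = 0)
    {T : GQ →* Matrix (Fin 2) (Fin 2) R} (h : Fl p (mapT f T)) (h' : Fl p (mapT g T)) :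
    Fl p T := by
  refine FlatLoc.IsFlatMod.sub (FlatLoc.IsFlatMod.prod (FlatLoc.isBase_Zloc hp.out) h h')
    (AddMonoidHom.mk' (fun x => ((fun i => f (x i) : Fin 2 → A), (fun i => g (x i) : Fin 2 → K)))
      fun x y => by
        refine Prod.ext (funext fun i => ?_) (funext fun i => ?_) <;>
        simp only [Pi.add_apply, map_add, Prod.fst_add, Prod.snd_add]) ?_ ?_
  · rw [injective_iff_map_eq_zero]
    intro x hx
    funext i
    exact hinj _ (congrFun (congrArg Prod.fst hx) i) (congrFun (congrArg Prod.snd hx) i)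
  · intro σ x
    refine Prod.ext (funext fun i => ?_) (funext fun i => ?_)
    · change f ((T σ *ᵥ x) i) = (mapT f T σ *ᵥ (fun i => f (x i))) i
      simp only [Matrix.mulVec, dotProduct, map_sum, map_mul]
      rfl
    · change g ((T σ *ᵥ x) i) = (mapT g T σ *ᵥ (fun i => g (x i))) i
      simp only [Matrix.mulVec, dotProduct, map_sum, map_mul]
      rfl

end Flat

end Fermat.Agent.RT
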