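import Fermat.Agent.RT.OmI

/-!
# The growth of the congruence module: final statements
-/

set_option autoImplicit false
set_option linter.style.haveILetI false

noncomputable section

namespace Fermat.Agent.RT

open Matrix CongruenceSubgroup MvPolynomial Fermat.Agent.TWCoh Fermat.Agent.RT.Om
open scoped MatrixGroups

/-- the operators commute with the action -/
theorem opr_smul_comm {O : Type} [CommRing O] {L : ℕ} {S : Set ℕ} {q : ℕ} (hq : q.Prime)
    (r : HA O S) (x : SO O L) :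
    opr (one_dvd L) (1 : DirichletCharacter O 1) O hq (r • x) =
      r • opr (one_dvd L) (1 : DirichletCharacter O 1) O hq x := by
  induction r using MvPolynomial.induction_on generalizing x with
  | C a => rw [C_smul, C_smul, map_smul]
  | add a b ha hb => rw [add_smul, add_smul, map_add, ha, hb]
  | mul_X a l ha =>
    rw [mul_smul, ha, mul_smul, X_smul, X_smul]
    congr 1
    exact LinearMap.congr_fun (opr_comm (one_dvd L) (1 : DirichletCharacter O 1) O hq l.2.1) x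

variable (O : Type) [CommRing O] {k : Type} [Field k] [Algebra O k]

/-- the part of the localised symbols killed by `U_q`, `q ∈ Q` (here `q ∣ L` for `q ∈ Q`) -/
def HQ {S : Set ℕ} (τ : PS S → k) (L : ℕ) (Q : Finset ℕ) : Submodule (HA O S) (SO O L) where
  carrier := {x | x ∈ loc (evI O τ) (SO O L) ∧ ∀ q ∈ Q, ∀ hq : q.Prime,
    opr (one_dvd L) (1 : DirichletCharacter O 1) O hq x = 0}
  add_mem' := fun {a b} ha hb => ⟨add_mem ha.1 hb.1, fun q hq hq' => by
    rw [map_add, ha.2 q hq hq', hb.2 q hq hq', add_zero]⟩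
  zero_mem' := ⟨zero_mem _, fun q hq hq' => map_zero _⟩
  smul_mem' := fun c x hx => ⟨Submodule.smul_mem _ _ hx.1, fun q hq hq' => by
    rw [opr_smul_comm, hx.2 q hq hq', smul_zero]⟩

/-- moreover the part where `U_p` is residually `a` (here `p ∣ L`, `p ∈ S`) -/
def HP {S : Finset ℕ} (lam : ℕ → O) (L : ℕ) (Q : Finset ℕ) (p : ℕ) (a : O) :
    Submodule (HA O (S : Set ℕ)) (SO O L) where
  carrier := {x | x ∈ HQ O (fun l : PS (S : Set ℕ) => algebraMap O k (lam l.1)) L Q ∧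
    x ∈ loc (evI O (fun l : PS ((S.erase p : Finset ℕ) : Set ℕ) =>
      algebraMap O k (if l.1 = p then a else lam l.1))) (SO O L)}
  add_mem' := fun {a b} ha hb => ⟨add_mem ha.1 hb.1, add_mem ha.2 hb.2⟩
  zero_mem' := ⟨zero_mem _, zero_mem _⟩
  smul_mem' := fun c x hx => ⟨Submodule.smul_mem _ _ hx.1, by
    have h : ∀ (r : HA O (S : Set ℕ)), ∃ r' : HA O ((S.erase p : Finset ℕ) : Set ℕ),
        ∀ y : SO O L, r • y = r' • y := by
      intro r
      induction r using MvPolynomial.induction_on with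
      | C b => exact ⟨C b, fun y => by rw [C_smul, C_smul]⟩
      | add u v hu hv =>
        obtain ⟨u', hu'⟩ := hu
        obtain ⟨v', hv'⟩ := hv
        exact ⟨u' + v', fun y => by rw [add_smul, add_smul, hu', hv']⟩
      | mul_X u l hu =>
        obtain ⟨u', hu'⟩ := hu
        refine ⟨u' * X ⟨l.1, l.2.1, fun h => l.2.2 (Finset.coe_subset.2 (Finset.erase_subset p S) h)⟩,
          fun y => ?_⟩
        rw [mul_smul, mul_smul, hu', X_smul, X_smul]
    obtain ⟨r', hr'⟩ := h c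
    rw [hr']
    exact Submodule.smul_mem _ _ hx.2⟩

/-- the ambient data: an eigensystem `lam` of a newform `f` of level dividing `N`, with values in
`O`; `S ⊇` the primes dividing `N`; `Q` = the primes where the level is raised to `q²` -/
structure OmD (O : Type) [CommRing O] (k : Type) [Field k] [Algebra O k] where
  κ : O →+* ℂ
  κ_inj : Function.Injective κ
  M : ℕ
  [neM : NeZero M]
  f : Newform.S2 M
  newform : f.IsNewform
  N : ℕ
  [neN : NeZero N]
  dvd : M ∣ N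
  lam : ℕ → O
  lam_eq : ∀ l : ℕ, l.Prime → ¬ l ∣ N → κ (lam l) = ModularFormClass.qCoeff f l
  S : Finset ℕ
  mem_S : ∀ l : ℕ, l.Prime → l ∣ N → l ∈ S
  Q : Finset ℕ
  prime_Q : ∀ q ∈ Q, q.Prime
  disj : ∀ q ∈ Q, q ∉ S
  ne_Q : ∀ q ∈ Q, (q : k) ≠ 0
  eis₁ : ∀ n : ℕ, n ≠ 0 → ∃ l : ℕ, l.Prime ∧ l ∉ S ∧ l ∉ Q ∧ l ≡ 1 [MOD n] ∧
    algebraMap O k (lam l) ≠ 1 + l
  eis₂ : ∃ l : ℕ, l.Prime ∧ l ∉ S ∧ l ∉ Q ∧ (algebraMap O k (lam l)) ^ 2 ≠ (1 + l) ^ 2

attribute [instance] OmD.neM OmD.neN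

variable {O}

/-- the residual eigensystem outside `S'` -/
def OmD.τ (D : OmD O k) (S' : Finset ℕ) : PS (S' : Set ℕ) → k := fun l => algebraMap O k (D.lam l.1)

/-- the eigensystem outside `S'` -/
def OmD.π (D : OmD O k) (S' : Finset ℕ) : HA O (S' : Set ℕ) →ₐ[O] O :=
  aeval fun l : PS (S' : Set ℕ) => D.lam l.1

/-- the top level -/
def OmD.L (D : OmD O k) : ℕ := D.N * ∏ q ∈ D.Q, q ^ 2

/-- the change of the congruence ideal -/
def OmD.c (D : OmD O k) : O := ∏ q ∈ D.Q, (((q : O) - 1) * (((q : O) + 1) ^ 2 - D.lam q ^ 2))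

/-- **(Om-Q)** the passage to non-minimal level -/
def OmQSt : Prop := ∀ (O k : Type) [CommRing O] [IsDomain O] [IsDiscreteValuationRing O]
  [IsAdicComplete (IsLocalRing.maximalIdeal O) O] [CharZero O] [Field k] [Algebra O k],
  Function.Surjective (algebraMap O k) → (2 : k) ≠ 0 → ∀ D : OmD O k,
  ∃ (d : ℕ) (_ : 0 < d) (C₀ : CongData O (HA O (D.S : Set ℕ)) (D.π D.S) (M0 O D.N (D.τ D.S)) d)
    (C : CongData O (HA O ((D.S ∪ D.Q : Finset ℕ) : Set ℕ)) (D.π (D.S ∪ D.Q))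
      (HQ O (D.τ (D.S ∪ D.Q)) D.L D.Q) d) (u : Oˣ), C.gram = u * C₀.gram * D.c ^ d

/-- **(Om-P)** the passage to non-minimal level including level `p` (`p ∤ N`, `p ∈ S`) -/
def OmPSt : Prop := ∀ (O k : Type) [CommRing O] [IsDomain O] [IsDiscreteValuationRing O]
  [IsAdicComplete (IsLocalRing.maximalIdeal O) O] [CharZero O] [Field k] [Algebra O k],
  Function.Surjective (algebraMap O k) → (2 : k) ≠ 0 → ∀ (D : OmD O k) (p : ℕ), p.Prime →
  ¬ p ∣ D.N → p ∈ D.S → (p : k) = 0 → ∀ a : O, IsUnit a → a ^ 2 - D.lam p * a + p = 0 →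
  ∃ (d : ℕ) (_ : 0 < d) (C₀ : CongData O (HA O (D.S : Set ℕ)) (D.π D.S) (M0 O D.N (D.τ D.S)) d)
    (C : CongData O (HA O ((D.S ∪ D.Q : Finset ℕ) : Set ℕ)) (D.π (D.S ∪ D.Q))
      (HP O (k := k) (S := D.S ∪ D.Q) D.lam (D.L * p) D.Q p a) d) (u : Oˣ),
    C.gram = u * C₀.gram * D.c ^ d * (a ^ 2 - 1) ^ d

end Fermat.Agent.RT
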