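import Fermat.Agent.RT.T11d
import Fermat.Agent.RT.OmFinSt

/-!
# The non-minimal case: statement
-/

set_option autoImplicit false

noncomputable section

namespace Fermat.Agent.RT

open IsLocalRing Matrix Fermat.Agent.DefRing Fermat.Agent.GalRep Fermat.Agent.TWPatch
  Fermat.Agent.TWLoc Fermat.Agent.TWGal CuspForm GaloisRep
open Fermat.Agent.TWCoh hiding GQ

local notation "Qbar" => AlgebraicClosure ℚ

variable {p : ℕ} [hpf : Fact p.Prime] {O : Type} [CommRing O] [CNL O]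
  [IsDomain O] [IsDiscreteValuationRing O] [CharZero O] {G : Bas p O}

/-- the data for the non-minimal case. `D` is the minimal data (level `G.N`, type `D.t ∈ {fl, st}`),
`OD.Q` the set of primes (outside `G.S`) where ramification is allowed, `t₁` the new type at `p`. -/
structure StepD (D : GalD G) where
  ht : D.t ≠ .ord
  hdet : (GaloisRepAdic.ofResidualGaloisRep D.ρbar).DetIsCyclotomic p
  hsplit : ∀ σ : AlgebraicClosure ℚ ≃ₐ[ℚ] AlgebraicClosure ℚ,
      ∃ α β : ResidueField O, LinearMap.charpoly (D.ρbar.ρ σ) =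
        (Polynomial.X - Polynomial.C α) * (Polynomial.X - Polynomial.C β)
  hTW : ∀ (K : Type) [Field K] [Algebra (ResidueField O) K]
      (G : Subgroup (AlgebraicClosure ℚ ≃ₐ[ℚ] AlgebraicClosure ℚ)), G.index = 2 →
      ∀ V : Submodule K (D.ρbar.baseChange K).V,
        (∀ σ ∈ G, ∀ x ∈ V, (D.ρbar.baseChange K).ρ σ x ∈ V) → V = ⊥ ∨ V = ⊤
  hbar : ∀ S : Finset ℕ, D.Smin ⊆ S →
      DD O D.t p S D.Smin (GaloisRepAdic.ofResidualGaloisRep D.ρbar)
  /-- a newform of level dividing `G.N` lifting `G.f` -/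
  OD : OmD O (ResidueField O)
  hN : OD.N = G.N
  hS : OD.S = D.Sf
  hlam : ∀ l : PS G.S, G.τ l = residue O (OD.lam l.1)
  t₁ : PType
  ht₁ : t₁ = D.t ∨ (t₁ = .ord ∧ D.t = .fl ∧
    (GaloisRepAdic.ofResidualGaloisRep D.ρbar).IsOrdinaryAt p ∧
    ∃ a : O, IsUnit a ∧ a ^ 2 - OD.lam p * a + p = 0)

/-- **the non-minimal case**: representations of type `t₁` are modular -/
def StepSt {D : GalD G} (X : StepD D) : Prop :=
  ∀ ρ : GaloisRepAdic O, DD O X.t₁ p (D.Smin ∪ X.OD.Q) D.Smin ρ →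
    ρ.residual.IsEquiv (D.ρbar.baseChangeAlong (ResidueField.map (algebraMap O O))) →
    ∃ (L : ℕ) (_ : NeZero L) (χ : heckeAlgebra L 2 ((D.Sf ∪ X.OD.Q : Finset ℕ) : Set ℕ) →+* O),
      (L = X.OD.L ∨ (L = X.OD.L * p ∧ ¬ p ∣ G.N)) ∧
      ∀ (l : ℕ) (hl : l.Prime) (hlL : ¬ l ∣ L)
        (hlS : l ∉ ((D.Sf ∪ X.OD.Q : Finset ℕ) : Set ℕ)),
        ∀ A : ValuationSubring Qbar, A.LiesOverPrime l → ∀ σ : GQ, A.IsFrobeniusAt σ l →
          χ (heckeAlgebra.T hl hlL hlS) = ρ.trace σ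

end Fermat.Agent.RT
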