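import Fermat.Agent.S43Glue.Curve
import Fermat.Prelude.Def_FLTPrelim_ModularRep
import Fermat.Prelude.Def_GaloisRep_Flat
import Fermat.Prelude.Def_GaloisRep_StrictOrdinary

/-!
# T10(c): the Tate module of a semistable curve as a Galois representation over `𝒪` (statement)
-/

set_option autoImplicit false

noncomputable section

namespace Fermat.Agent.RT

open IsLocalRing Polynomial Fermat.Agent.S43Glue

/-- **T10(c)** -/
def TateSt : Prop :=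
  ∀ (p : ℕ) [Fact p.Prime] (_ : p ≠ 2) (W : WeierstrassCurve ℤ) (_ : W.Δ ≠ 0)
    (_ : W.IsSemistableModel) (_ : W.ModRepIsIrreducible p)
    (𝒪 : Type) [CommRing 𝒪] [IsDomain 𝒪] [IsDiscreteValuationRing 𝒪]
    [IsAdicComplete (maximalIdeal 𝒪) 𝒪] [Finite (ResidueField 𝒪)] [CharZero 𝒪]
    (_ : (p : 𝒪) ∈ maximalIdeal 𝒪),
    ∃ ρ : GaloisRepAdic 𝒪,
      (∀ ℓ : ℕ, ℓ.Prime → W.IsGoodPrimeFor ℓ → ℓ ≠ p →
        ∀ A : ValuationSubring (AlgebraicClosure ℚ), A.LiesOverPrime ℓ →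
          ∀ σ : AlgebraicClosure ℚ ≃ₐ[ℚ] AlgebraicClosure ℚ, A.IsFrobeniusAt σ ℓ →
            LinearMap.charpoly (ρ.ρ σ) =
              X ^ 2 - C ((W.apOfModel ℓ : ℤ) : 𝒪) * X + C ((ℓ : 𝒪))) ∧
      ρ.DetIsCyclotomic p ∧
      (∀ q : ℕ, q.Prime → q ≠ p → W.IsGoodPrimeFor q → ρ.IsUnramifiedAt q) ∧
      (∀ q : ℕ, q.Prime → q ≠ p → ρ.IsUnipotentOnInertiaAt q) ∧
      (W.IsGoodPrimeFor p → ρ.IsFlatAt p) ∧
      (¬ W.IsGoodPrimeFor p → ρ.IsStrictOrdinaryAt p) ∧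
      ∃ (b : Module.Basis (Fin 2) (ZMod p) (Tor (W.map (Int.castRingHom ℚ)) p))
        (c : Module.Basis (Fin 2) 𝒪 ρ.V) (f : ZMod p →+* ResidueField 𝒪),
        ∀ (σ : AlgebraicClosure ℚ ≃ₐ[ℚ] AlgebraicClosure ℚ) (i j : Fin 2),
          residue 𝒪 (LinearMap.toMatrix c c (ρ.ρ σ) i j) = f (curveRep b σ i j)

end Fermat.Agent.RT
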