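import Fermat.Agent.RT.Ord6
import Fermat.Agent.RT.Tate4
import Fermat.Agent.RT.FlatG3
import Fermat.Agent.RT.TateSt

/-!
# T10(c): the Tate module of a semistable curve, final statement
-/

set_option autoImplicit false
set_option linter.style.haveILetI false

noncomputable section

namespace Fermat.Agent.RT.Tate

open IsLocalRing Polynomial Fermat.Agent.S43Glue Fermat.Agent.S58X Fermat.Agent.GalRep
  Fermat.Agent.DefRing Fermat.Agent.TWGal Fermat.Agent.TW56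
open WeierstrassCurve WeierstrassCurve.Affine WeierstrassCurve.Affine.Point

local notation "Qbar" => AlgebraicClosure ℚ
local notation "GQ" => Qbar ≃ₐ[ℚ] Qbar

variable {W : WeierstrassCurve ℤ} {p : ℕ} [hp : Fact p.Prime]

/-- **the Tate module over `𝒪`**, for fixed bases -/
theorem tateB (B : Bases W p) (hp2 : p ≠ 2) (hΔ : W.Δ ≠ 0) (hss : W.IsSemistableModel)
    (hirr : W.ModRepIsIrreducible p)
    (𝒪 : Type) [CommRing 𝒪] [IsDomain 𝒪] [IsDiscreteValuationRing 𝒪]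
    [IsAdicComplete (maximalIdeal 𝒪) 𝒪] [Finite (ResidueField 𝒪)] [CharZero 𝒪]
    (hp𝒪 : (p : 𝒪) ∈ maximalIdeal 𝒪) :
    ∃ ρ : GaloisRepAdic 𝒪,
      (∀ ℓ : ℕ, ℓ.Prime → W.IsGoodPrimeFor ℓ → ℓ ≠ p →
        ∀ A : ValuationSubring (AlgebraicClosure ℚ), A.LiesOverPrime ℓ →
          ∀ σ : AlgebraicClosure ℚ ≃ₐ[ℚ] AlgebraicClosure ℚ, A.IsFrobeniusAt σ ℓ →
            LinearMap.charpoly (ρ.ρ σ) =
              X ^ 2 - C ((W.apOfModel ℓ : ℤ) : 𝒪) * X + C ((ℓ : 𝒪))) ∧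
      ρ.DetIsCyclotomic p ∧
      (∀ q : ℕ, q.Prime → q ≠ p → W.IsGoodPrimeFor q → ρ.IsUnramifiedAt q) ∧
      (∀ q : ℕ, q.Prime → q ≠ p → ρ.IsUnipotentOnInertiaAt q) ∧
      (W.IsGoodPrimeFor p → ρ.IsFlatAt p) ∧
      (¬ W.IsGoodPrimeFor p → ρ.IsStrictOrdinaryAt p) ∧
      ∃ (c : Module.Basis (Fin 2) 𝒪 ρ.V) (f : ZMod p →+* ResidueField 𝒪),
        ∀ (σ : AlgebraicClosure ℚ ≃ₐ[ℚ] AlgebraicClosure ℚ) (i j : Fin 2),
          residue 𝒪 (LinearMap.toMatrix c c (ρ.ρ σ) i j) = f (curveRep B.b σ i j) := by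
  set φ := padicTo p (maximalIdeal 𝒪) hp𝒪 with hφ
  have hcont := cont_T B hΔ hp𝒪
  obtain ⟨c, hc⟩ := exists_basis_matRep (mapT φ B.T) hcont
  have htr : ∀ σ, (mapT φ B.T σ).trace = φ (B.T σ).trace := fun σ =>
    (AddMonoidHom.map_trace φ.toAddMonoidHom _).symm
  have hdt : ∀ σ, (mapT φ B.T σ).det = φ (B.T σ).det := fun σ => (φ.map_det _).symm
  refine ⟨matRep (mapT φ B.T) hcont, ?_, ?_, ?_, ?_, ?_, ?_, c, ?_⟩
  · intro ℓ hℓ hW hℓp A hA σ hσ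
    obtain ⟨h1, h2⟩ := trace_frob B hΔ hirr hℓ hW hℓp hA hσ
    rw [charpoly_matRep, htr, hdt, h1, h2, map_intCast, map_natCast]
  · exact (detCyc_iff _ c).mpr ⟨hp𝒪, by rw [hc]; exact (mdet_T B hΔ hirr).map φ⟩
  · intro q hq hqp hW
    refine (unr_iff _ c).mpr fun A hA σ hσ => ?_
    rw [hc]
    change φ.mapMatrix (B.T σ) = 1
    rw [T_inertia B hq hqp hW hA hσ, map_one]
  · intro q hq hqp
    refine (uni_iff _ c).mpr fun A hA σ hσ => ?_
    obtain ⟨h1, h2⟩ := trace_inertia hp2 B hΔ hss hirr hq hqp hA hσ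
    rw [hc, htr, hdt, h1, h2, map_ofNat, map_one]
    exact ⟨rfl, rfl⟩
  · intro hW
    refine (flatAt_iff _ c).mpr ⟨inferInstance, ?_⟩
    rw [hc]
    intro I hI hI'
    haveI : Nontrivial (𝒪 ⧸ I) := Ideal.Quotient.nontrivial_iff.mpr hI'
    exact (FlatG.mflat_T B hΔ hW).flat ((Ideal.Quotient.mk I).comp φ)
  · intro hW
    exact (ord_iff _ c).mpr ⟨hp𝒪, by rw [hc]; exact (mord_T hp2 B hΔ hss hirr hW).map φ⟩
  · have hpk : ((p : ℕ) : ResidueField 𝒪) = 0 := by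
      rw [← map_natCast (residue 𝒪), residue_eq_zero_iff]
      exact hp𝒪
    haveI : CharP (ResidueField 𝒪) p :=
      (CharP.charP_iff_prime_eq_zero hp.out).mpr hpk
    refine ⟨ZMod.castHom dvd_rfl (ResidueField 𝒪), fun σ i j => ?_⟩
    have h1 : LinearMap.toMatrix c c ((matRep (mapT φ B.T) hcont).ρ σ) i j = φ (B.T σ i j) := by
      have := congrFun (congrFun (DFunLike.congr_fun hc σ) i) j
      exact this
    rw [h1, ← toZMod_T]
    obtain ⟨a, ha⟩ := ZMod.intCast_surjective (PadicInt.toZMod (B.T σ i j))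
    have h2 : PadicInt.toZModPow 1 (B.T σ i j) = (a : ZMod (p ^ 1)) := by
      have h3 : B.T σ i j - (a : ℤ_[p]) ∈ RingHom.ker (PadicInt.toZMod (p := p)) := by
        rw [RingHom.mem_ker, map_sub, map_intCast, ha, sub_self]
      rw [PadicInt.ker_toZMod, PadicInt.maximalIdeal_eq_span_p, ← pow_one (p : ℤ_[p]),
        ← PadicInt.ker_toZModPow, RingHom.mem_ker, map_sub, sub_eq_zero, map_intCast] at h3
      exact h3
    have h4 := padicTo_int hp𝒪 (B.T σ i j) 1 a h2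
    rw [pow_one, ← residue_eq_zero_iff, map_sub, sub_eq_zero, map_intCast] at h4
    rw [h4, ← ha, map_intCast]


end Fermat.Agent.RT.Tate

namespace Fermat.Agent.RT

/-- **T10(c)** -/
theorem tate : TateSt := by
  intro p _ hp2 W hΔ hss hirr 𝒪 _ _ _ _ _ _ hp𝒪
  obtain ⟨B⟩ := Tate.exists_bases (W := W) (p := p) hΔ
  obtain ⟨ρ, h1, h2, h3, h4, h5, h6, c, f, h7⟩ := Tate.tateB B hp2 hΔ hss hirr 𝒪 hp𝒪
  exact ⟨ρ, h1, h2, h3, h4, h5, h6, B.b, c, f, h7⟩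

end Fermat.Agent.RT
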