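import Fermat.Agent.RT.WRes
import Fermat.Agent.RT.Choose2
import Fermat.Agent.RT.StepSt
import Fermat.Agent.RT.TateFin
import Fermat.Agent.RT.Dat
import Fermat.Agent.TWG.Comm
import Fermat.Agent.TWG.Res


/-!
# The base data attached to a residual representation
-/

set_option autoImplicit false
set_option maxHeartbeats 400000
set_option linter.style.haveILetI false

noncomputable section

namespace Fermat.Agent.RT

open IsLocalRing Matrix Fermat.Agent.DefRing Fermat.Agent.GalRep Fermat.Agent.TWPatch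
  Fermat.Agent.TWLoc Fermat.Agent.TWGal CuspForm GaloisRep Fermat.Agent.TWG
  Fermat.Agent.TW56
open Fermat.Agent.TWCoh hiding GQ
open Fermat.Agent.S43Glue (FinLevel HMod chiK chiK_frob curveRep inclusion_isIntegral)

local notation "Qbar" => AlgebraicClosure ℚ

section Iot

variable {p : ℕ} [hp : Fact p.Prime] {O : Type} [CommRing O] [IsLocalRing O]

theorem charP_res (hpO : (p : O) ∈ maximalIdeal O) : CharP (ResidueField O) p := by
  have h1 : ((p : ℕ) : ResidueField O) = 0 := by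
    rw [← map_natCast (residue O), residue_eq_zero_iff]
    exact hpO
  exact (CharP.charP_iff_prime_eq_zero hp.out).mpr h1

/-- the map from the prime field -/
def iot (hpO : (p : O) ∈ maximalIdeal O) : ZMod p →+* ResidueField O :=
  haveI : CharP (ResidueField O) p := charP_res hpO
  ZMod.castHom dvd_rfl (ResidueField O)

end Iot

/-- coefficient rings for modular representations -/
theorem exists_coeff_mod {p : ℕ} [hp : Fact p.Prime] {ρ : GQ →* Matrix (Fin 2) (Fin 2) (ZMod p)}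
    {N : ℕ} [NeZero N] {S : Set ℕ} (h : HMod ρ N S) :
    ∃ (O : Type) (_ : CommRing O) (_ : IsDomain O) (_ : IsDiscreteValuationRing O)
      (_ : CNL O) (_ : CharZero O) (_ : Algebra ℤ_[p] O) (_ : Module.Finite ℤ_[p] O)
      (hpO : (p : O) ∈ maximalIdeal O), Splits2 p O ∧
      ∃ χ : heckeAlgebra N 2 ∅ →+* O, ∀ (ℓ : ℕ) (hℓ : ℓ.Prime)
        (hℓN : ¬ ℓ ∣ N), ℓ ∉ S → ∀ A : ValuationSubring Qbar, A.LiesOverPrime ℓ → ∀ τ : GQ,
          A.IsFrobeniusAt τ ℓ →
          residue O (χ (heckeAlgebra.T hℓ hℓN (Set.notMem_empty ℓ))) = iot hpO (ρ τ).trace := by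
  obtain ⟨θ, hθ⟩ := h
  haveI : Module.Finite ℤ (heckeAlgebra N 2 ∅) := Fermat.Agent.S22.result N 2 ∅
  have hsurj : Function.Surjective θ := by
    intro x
    exact ⟨((x.val : ℕ) : heckeAlgebra N 2 S), by rw [map_natCast, ZMod.natCast_val, ZMod.cast_id]⟩
  let ι := (Subalgebra.inclusion (heckeAlgebra_mono (N := N) (k := 2) (Set.empty_subset S))).toRingHom
  letI : Algebra (heckeAlgebra N 2 S) (heckeAlgebra N 2 ∅) := ι.toAlgebra
  haveI : Algebra.IsIntegral (heckeAlgebra N 2 S) (heckeAlgebra N 2 ∅) :=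
    ⟨inclusion_isIntegral (Set.empty_subset S)⟩
  haveI : (RingHom.ker θ).IsMaximal := RingHom.ker_isMaximal_of_surjective θ hsurj
  obtain ⟨𝔐, h𝔐, hcomap⟩ := Ideal.exists_ideal_over_maximal_of_isIntegral
    (S := heckeAlgebra N 2 ∅) (RingHom.ker θ) (by
      intro x hx
      have hx' : ι x = 0 := hx
      have h0 : x = 0 := Subalgebra.inclusion_injective _ (by
        change ι x = ι 0
        rw [hx', map_zero])
      rw [h0]
      exact zero_mem _)
  haveI := h𝔐
  have hmem : ∀ x : heckeAlgebra N 2 S, θ x = 0 → ι x ∈ 𝔐 := by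
    intro x hx
    have h2 : x ∈ RingHom.ker θ := hx
    rw [← hcomap] at h2
    exact h2
  have hpM : (p : heckeAlgebra N 2 ∅) ∈ 𝔐 := by
    have h1 := hmem (p : heckeAlgebra N 2 S) (by rw [map_natCast, ZMod.natCast_self])
    rwa [map_natCast] at h1
  haveI : Module.Free ℤ (heckeAlgebra N 2 ∅) := inferInstance
  obtain ⟨O, i1, i2, i3, i4, i5, i6, i7, hpO, hspl, χ, hχ⟩ := exists_coeff_max p 𝔐 hpM
  refine ⟨O, i1, i2, i3, i4, i5, i6, i7, hpO, hspl, χ, ?_⟩
  intro ℓ hℓ hℓN hℓS A hA τ hτ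
  have h1 := hχ _ (hmem (heckeAlgebra.T hℓ hℓN hℓS -
    (((ρ τ).trace.val : ℤ) : heckeAlgebra N 2 S)) (by
      rw [map_sub, ← hθ ℓ hℓ hℓN hℓS A hA τ hτ, map_intCast, Int.cast_natCast,
        ZMod.natCast_val, ZMod.cast_id, sub_self]))
  rw [map_sub, map_sub, map_intCast, map_intCast, ← residue_eq_zero_iff, map_sub, sub_eq_zero,
    map_intCast] at h1
  have h2 : χ (ι (heckeAlgebra.T hℓ hℓN hℓS)) =
      χ (heckeAlgebra.T hℓ hℓN (Set.notMem_empty ℓ)) := rfl
  rw [← h2, h1, ← map_intCast (iot hpO), Int.cast_natCast, ZMod.natCast_val, ZMod.cast_id]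

/-- the input data -/
structure Inp {W : WeierstrassCurve ℤ} {p : ℕ} [Fact p.Prime] (B : Tate.Bases W p) (hΔ : W.Δ ≠ 0)
    (O : Type) [CommRing O] [CNL O] where
  hp35 : p = 3 ∨ p = 5
  hpO : (p : O) ∈ maximalIdeal O
  spl : Splits2 p O
  hρ : SSRep p (curveRep B.b)
  h₀ : GoodRes p (Tate.resW B hΔ)
  loc : FlatRes p (curveRep B.b) ∨ MOrd p (curveRep B.b)
  N : ℕ
  [nz : NeZero N]
  sqf : Squarefree N
  r : ℕ
  hr : (p ≠ 3 ∧ r = 1) ∨ (p = 3 ∧ r.Prime ∧ r % 3 = 2 ∧ UnrAt (curveRep B.b) r ∧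
    (r : ZMod p) ≠ 1 ∧ ∀ A : ValuationSubring Qbar, A.LiesOverPrime r → ∀ τ : GQ,
      A.IsFrobeniusAt τ r → (curveRep B.b τ).trace ^ 2 ≠ ((r : ZMod p) + 1) ^ 2)
  ram : ∀ q : ℕ, q.Prime → q ≠ p → (q ∣ N ↔ (¬ UnrAt (curveRep B.b) q ∨ q = r))
  atp : p ∣ N ↔ ¬ FlatRes p (curveRep B.b)
  χ : heckeAlgebra N 2 ∅ →+* O
  hχ : ∀ (ℓ : ℕ) (hℓ : ℓ.Prime) (hℓN : ¬ ℓ ∣ N), ℓ ≠ p → ∀ A : ValuationSubring Qbar,
    A.LiesOverPrime ℓ → ∀ τ : GQ, A.IsFrobeniusAt τ ℓ →
      residue O (χ (heckeAlgebra.T hℓ hℓN (Set.notMem_empty ℓ))) = iot hpO (curveRep B.b τ).trace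

attribute [instance] Inp.nz

namespace Inp

variable {W : WeierstrassCurve ℤ} {p : ℕ} [hp : Fact p.Prime] {B : Tate.Bases W p} {hΔ : W.Δ ≠ 0}
    {O : Type} [CommRing O] [CNL O] (I : Inp B hΔ O)

include I in
theorem hp2 : p ≠ 2 := by rcases I.hp35 with rfl | rfl <;> norm_num

theorem hrp : I.r ≠ p := by
  rcases I.hr with h | h
  · rw [h.2]; exact hp.out.one_lt.ne
  · intro h1
    have := h.2.2.1
    rw [h1, h.1] at this
    norm_num at this

/-- the bad primes -/
def Sf : Finset ℕ := insert p I.N.primeFactors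

/-- the ramified primes -/
def Smin : Finset ℕ := insert p (I.N.primeFactors.erase I.r)

theorem mem_Sf {q : ℕ} : q ∈ I.Sf ↔ q = p ∨ (q.Prime ∧ q ∣ I.N) := by
  rw [Sf, Finset.mem_insert, Nat.mem_primeFactors]
  have := NeZero.ne I.N
  tauto

theorem mem_Smin {q : ℕ} : q ∈ I.Smin ↔ q = p ∨ (q ≠ I.r ∧ q.Prime ∧ q ∣ I.N) := by
  rw [Smin, Finset.mem_insert, Finset.mem_erase, Nat.mem_primeFactors]
  have := NeZero.ne I.N
  tauto

theorem sub : I.Smin ⊆ I.Sf := fun q hq => by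
  rw [mem_Smin] at hq
  rw [mem_Sf]
  tauto

theorem prime_Sf {q : ℕ} (h : q ∈ I.Sf) : q.Prime := by
  rcases I.mem_Sf.mp h with rfl | h
  · exact hp.out
  · exact h.1

/-- the residual representation, matrix form -/
def ρb : GQ →* Matrix (Fin 2) (Fin 2) (ResidueField O) := mapT (iot I.hpO) (curveRep B.b)

theorem trace_ρb (g : GQ) : (I.ρb g).trace = iot I.hpO (curveRep B.b g).trace :=
  (AddMonoidHom.map_trace (iot I.hpO).toAddMonoidHom _).symm

theorem det_ρb (g : GQ) : (I.ρb g).det = iot I.hpO (chiK p (ZMod p) g) := by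
  rw [← I.hρ.det]
  exact ((iot I.hpO).map_det _).symm

theorem split (g : GQ) : ∃ α β : ResidueField O, (I.ρb g).trace = α + β ∧
    (I.ρb g).det = α * β := by
  obtain ⟨α, β, h⟩ := I.spl (iot I.hpO) (curveRep B.b g).trace (curveRep B.b g).det
  refine ⟨α, β, ?_⟩
  have hd : (I.ρb g).det = iot I.hpO (curveRep B.b g).det := ((iot I.hpO).map_det _).symm
  rw [I.trace_ρb, hd]
  have e : (Polynomial.X - Polynomial.C α) * (Polynomial.X - Polynomial.C β) =
      Polynomial.X ^ 2 - Polynomial.C (α + β) * Polynomial.X + Polynomial.C (α * β) := by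
    rw [map_add, map_mul]; ring
  rw [e] at h
  exact coeffs_eq h

theorem cont_ρb : ∃ L : IntermediateField ℚ Qbar, FiniteDimensional ℚ L ∧
    ∀ σ : GQ, (∀ x ∈ L, σ x = x) → I.ρb σ = 1 := by
  obtain ⟨L, hL, h1⟩ := I.hρ.level
  refine ⟨L, hL, fun σ hσ => ?_⟩
  change (iot I.hpO).mapMatrix (curveRep B.b σ) = 1
  rw [h1 σ hσ, map_one]

theorem span_ρb : Submodule.span (ResidueField O) (Set.range I.ρb) = ⊤ :=
  span_map_eq_top (iot I.hpO) I.hρ.span_top

/-- the base data -/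
def G : Bas p O where
  N := I.N
  aux := by
    rcases I.hr with h | h
    · exact Or.inl h.1
    · refine Or.inr ⟨I.r, h.2.1, h.2.2.1, ?_⟩
      exact (I.ram I.r h.2.1 I.hrp).mpr (Or.inr rfl)
  hp2 := I.hp2
  hpO := I.hpO
  S := (I.Sf : Set ℕ)
  hS := I.Sf.finite_toSet
  hpS := Finset.mem_coe.mpr (I.mem_Sf.mpr (Or.inl rfl))
  hNS := fun q hq hqN => Finset.mem_coe.mpr (I.mem_Sf.mpr (Or.inr ⟨hq, hqN⟩))
  ρb := I.ρb
  cont := I.cont_ρb
  span := I.span_ρb
  f := (residue O).comp (I.χ.comp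
    (Subalgebra.inclusion (heckeAlgebra_mono (N := I.N) (k := 2)
      (Set.empty_subset (I.Sf : Set ℕ)))).toRingHom)
  frob := fun ℓ hℓ hℓN hℓS A hA τ hτ => by
    have hℓp : ℓ ≠ p := fun h => hℓS (Finset.mem_coe.mpr (I.mem_Sf.mpr (Or.inl h)))
    refine ⟨?_, ?_⟩
    · rw [I.trace_ρb, ← I.hχ ℓ hℓ hℓN hℓp A hA τ hτ]
      rfl
    · rw [I.det_ρb, chiK_frob p _ hℓ hA hℓp hτ, map_natCast]
  comm := exists_comm_ne I.ρb I.span_ρb I.split

theorem G_τ (l : PS I.G.S) : I.G.τ l = residue O (I.χ (heckeAlgebra.T l.2.1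
    (I.G.not_dvd_N l) (Set.notMem_empty l.1))) := rfl

/-- the residual representation -/
def ρbar : ResidualGaloisRep (ResidueField O) := (Tate.resW B hΔ).baseChangeAlong (iot I.hpO)

theorem exists_basis : ∃ b : Module.Basis (Fin 2) (ResidueField O) I.ρbar.V,
    ∀ g, resMat I.ρbar b g = I.ρb g := by
  letI : Algebra (ZMod p) (ResidueField O) := (iot I.hpO).toAlgebra
  let b : Module.Basis (Fin 2) (ZMod p) (Tate.resW B hΔ).V := Pi.basisFun (ZMod p) (Fin 2)
  refine ⟨Algebra.TensorProduct.basis (ResidueField O) b, fun σ => ?_⟩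
  have h1 : LinearMap.toMatrix b b ((Tate.resW B hΔ).ρ σ) = curveRep B.b σ :=
    LinearMap.toMatrix'_toLin' (curveRep B.b σ)
  refine (LinearMap.toMatrix_baseChange (ResidueField O) ((Tate.resW B hΔ).ρ σ) b b).trans ?_
  rw [h1]
  rfl

/-- a basis -/
def b : Module.Basis (Fin 2) (ResidueField O) I.ρbar.V := I.exists_basis.choose

theorem hb (g : GQ) : resMat I.ρbar I.b g = I.ρb g := I.exists_basis.choose_spec g

theorem resMatHom_eq : resMatHom I.ρbar I.b = I.ρb := MonoidHom.ext I.hb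

theorem repMat_eq : repMat (GaloisRepAdic.ofResidualGaloisRep I.ρbar) I.b = I.ρb :=
  MonoidHom.ext I.hb

theorem mdet_ρb (hirr : W.ModRepIsIrreducible p) : MDet p I.ρb := by
  have e : mapT (PadicInt.toZMod (p := p)) B.T = curveRep B.b :=
    MonoidHom.ext fun σ => (Tate.curve_eq B σ).symm
  have h1 := (Tate.mdet_T B hΔ hirr).map (PadicInt.toZMod (p := p))
  rw [e] at h1
  exact h1.map (iot I.hpO)

theorem mord_ρb (h : MOrd p (curveRep B.b)) : MOrd p I.ρb := h.map (f := iot I.hpO)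

theorem flat_iff : FlatLoc.IsFlatMod (FlatLoc.Zloc p) (FlatLoc.vk I.ρb) ↔
    FlatRes p (curveRep B.b) := by
  letI : Algebra (ZMod p) (ResidueField O) := (iot I.hpO).toAlgebra
  haveI : Finite (ResidueField O) := CNL.finRes
  exact ⟨fun h => flatRes_of_ext (k := ResidueField O) h,
    fun h => FlatLoc.flat_rk (k := ResidueField O) h⟩

theorem flatAt_iff' : (GaloisRepAdic.ofResidualGaloisRep I.ρbar).IsFlatAt p ↔
    FlatRes p (curveRep B.b) := by
  haveI : Finite (ResidueField O) := CNL.finRes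
  rw [flatAt_iff _ I.b, I.repMat_eq, ← I.flat_iff]
  constructor
  · rintro ⟨-, h1⟩
    have h2 := h1.flat (RingHom.id (ResidueField O))
    have h3 : mapT (RingHom.id (ResidueField O)) I.ρb = I.ρb := MonoidHom.ext fun g => rfl
    rw [h3] at h2
    exact h2
  · intro h
    haveI : Finite (ResidueField (ResidueField O)) :=
      Finite.of_surjective _ (residue_surjective (R := ResidueField O))
    refine ⟨inferInstance, ?_⟩
    exact Fl.mflat h

theorem unr_iff' {q : ℕ} : I.ρbar.IsUnramifiedAt q ↔ UnrAt (curveRep B.b) q := by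
  have h1 : I.ρbar.IsUnramifiedAt q ↔
      (GaloisRepAdic.ofResidualGaloisRep I.ρbar).IsUnramifiedAt q := Iff.rfl
  rw [h1, unr_iff _ I.b, I.repMat_eq]
  constructor
  · intro h A hA σ hσ
    have h2 := h A hA σ hσ
    ext i j
    apply (iot I.hpO).injective
    have h3 := congrFun (congrFun h2 i) j
    change iot I.hpO (curveRep B.b σ i j) = _ at h3
    rw [h3, Matrix.one_apply, Matrix.one_apply]
    split_ifs <;> simp
  · intro h A hA σ hσ
    change (iot I.hpO).mapMatrix (curveRep B.b σ) = 1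
    rw [h A hA σ hσ, map_one]

theorem cdet_ρb (hirr : W.ModRepIsIrreducible p) : CDet p I.ρb := by
  refine ⟨?_, I.mdet_ρb hirr⟩
  have h1 : ((p : ℕ) : ResidueField O) = 0 := by
    rw [← map_natCast (residue O), residue_eq_zero_iff]
    exact I.hpO
  rw [h1]
  exact zero_mem _

theorem ord_res' (hirr : W.ModRepIsIrreducible p) (h : MOrd p (curveRep B.b)) :
    (GaloisRepAdic.ofResidualGaloisRep I.ρbar).IsOrdinaryAt p :=
  ((ord_iff _ I.b).mpr ⟨(I.cdet_ρb hirr).1, by
    rw [I.repMat_eq]; exact I.mord_ρb h⟩).isOrdinaryAt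

open Classical in
/-- the type at `p` -/
def t (_ : Inp B hΔ O) : PType := if FlatRes p (curveRep B.b) then .fl else .st

theorem t_ne : I.t ≠ .ord := by
  unfold t
  split_ifs <;> simp

theorem levelType (hirr : W.ModRepIsIrreducible p) : LevelType I.t p I.N I.ρbar := by
  unfold t
  split_ifs with h
  · exact fun hN => I.atp.mp hN h
  · refine ⟨I.atp.mpr h, ?_, I.ord_res' hirr (I.loc.resolve_left h), fun h' => h (I.flatAt_iff'.mp h')⟩
    intro h2
    rw [pow_two] at h2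
    have := I.sqf p h2
    exact hp.out.one_lt.ne' (Nat.isUnit_iff.mp this)

theorem not_sq {q : ℕ} (hq : q.Prime) : ¬ q ^ 2 ∣ I.N := by
  intro h2
  rw [pow_two] at h2
  exact hq.one_lt.ne' (Nat.isUnit_iff.mp (I.sqf q h2))

/-- the minimal data -/
def D (hirr : W.ModRepIsIrreducible p) : GalD I.G where
  ρbar := I.ρbar
  b := I.b
  hb := I.hb
  habs := absIrr_along I.h₀ (iot I.hpO) I.hp2
  t := I.t
  htN := I.levelType hirr
  Smin := I.Smin
  hpSmin := I.mem_Smin.mpr (Or.inl rfl)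
  Sf := I.Sf
  hSf := rfl
  hsub := I.sub
  hSfp := fun q => I.prime_Sf
  hSN := fun q hq hqp => by
    rcases I.mem_Sf.mp hq with h | h
    · exact absurd h hqp
    · exact ⟨h.2, I.not_sq h.1⟩
  hmin := fun q hq hqp => by
    rw [I.unr_iff', I.mem_Smin, I.ram q hq hqp]
    constructor
    · rintro (h | ⟨h1, -, h2 | h2⟩)
      · exact absurd h hqp
      · exact h2
      · exact absurd h2 h1
    · intro h
      refine Or.inr ⟨fun h' => ?_, hq, Or.inl h⟩
      rcases I.hr with h1 | h1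
      · rw [h', h1.2] at hq
        exact Nat.not_prime_one hq
      · exact h (h' ▸ h1.2.2.2.1)
  haux := fun q hq hqS => by
    have hqr : q = I.r := by
      by_contra hne
      rcases I.mem_Sf.mp hq with h | h
      · exact hqS (I.mem_Smin.mpr (Or.inl h))
      · exact hqS (I.mem_Smin.mpr (Or.inr ⟨hne, h⟩))
    rcases I.hr with h1 | h1
    · have h2 := I.prime_Sf hq
      rw [hqr, h1.2] at h2
      exact absurd h2 Nat.not_prime_one
    · obtain ⟨-, -, -, -, h3, h4⟩ := h1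
      subst hqr
      refine ⟨fun h => h3 ?_, fun A hA Φ hΦ h => h4 A hA Φ hΦ ?_⟩
      · apply (iot I.hpO).injective
        rw [map_natCast, map_one, h]
      · apply (iot I.hpO).injective
        have h5 : (I.ρb Φ).trace ^ 2 = ((I.r : ResidueField O) + 1) ^ 2 := h.symm
        rw [map_pow, map_pow, ← I.trace_ρb, h5, map_add, map_natCast, map_one]

end Inp

end Fermat.Agent.RT
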