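import Fermat.Agent.RT.MkStep
import Fermat.Agent.RT.TateFin
import Fermat.Agent.TWG.Raise
import Fermat.Agent.TWG.AuxP

/-!
# Existence of the base data for a semistable curve
-/

set_option autoImplicit false
set_option maxHeartbeats 400000
set_option linter.style.haveILetI false

noncomputable section

namespace Fermat.Agent.RT

open IsLocalRing Matrix Fermat.Agent.DefRing Fermat.Agent.GalRep Fermat.Agent.TWPatch
  Fermat.Agent.TWLoc Fermat.Agent.TWGal CuspForm GaloisRep Fermat.Agent.TWG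
  Fermat.Agent.TW56
open Fermat.Agent.TWCoh hiding GQ
open Fermat.Agent.S43Glue (FinLevel HMod chiK chiK_frob curveRep irred_of_irreducible)

local notation "Qbar" => AlgebraicClosure ℚ

variable {W : WeierstrassCurve ℤ} {p : ℕ} [hp : Fact p.Prime]

/-- existence of the input data -/
theorem exists_inp (hlow : LowSt p) (hp35 : p = 3 ∨ p = 5) (B : Tate.Bases W p) (hΔ : W.Δ ≠ 0)
    (hss : W.IsSemistableModel) (hirr : W.ModRepIsIrreducible p)
    {M₀ : ℕ} [NeZero M₀] (hres : W.IsResiduallyModularOfLevel p M₀)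
    (hM₀ : ¬ p ^ 2 ∣ M₀) (hM₀3 : ∀ q : ℕ, q.Prime → q ≠ p → ¬ q ^ 3 ∣ M₀) :
    ∃ (O : Type) (_ : CommRing O) (_ : IsDomain O) (_ : IsDiscreteValuationRing O)
      (_ : CNL O) (_ : CharZero O) (_ : Algebra ℤ_[p] O) (_ : Module.Finite ℤ_[p] O)
      (I : Inp B hΔ O), p = 3 → W.IsGoodPrimeFor I.r := by
  have hp2 : p ≠ 2 := by rcases hp35 with rfl | rfl <;> norm_num
  have hflat : W.IsGoodPrimeFor p → MFlat p B.T := fun h => FlatG.mflat_T B hΔ h
  have hord : ¬ W.IsGoodPrimeFor p → MOrd p B.T := Tate.mord_T hp2 B hΔ hss hirr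
  have hρ := Tate.ssRep hp35 B hΔ hss hirr
  have h₀ := Tate.goodRes hp2 B hΔ hss hirr
  have hloc := Tate.atp_curve B hflat hord
  obtain ⟨N₀, hN₀, hN₀M, hmin, hmod⟩ := Tate.low_W hlow hp35 B hΔ hss hirr hflat hord hres hM₀ hM₀3
  have hbf : (Tate.badW W p M₀).Finite := Tate.badW_finite hΔ M₀
  have hunr : ∀ q : ℕ, q.Prime → q ∉ Tate.badW W p M₀ → UnrAt (curveRep B.b) q := by
    intro q hq hqS
    by_contra h
    have hqp : q ≠ p := fun h => hqS (Or.inl (Or.inl h))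
    exact hqS (Or.inl (Or.inr (((hmin.ram q hq hqp).mpr h).trans hN₀M)))
  obtain ⟨r, hr⟩ : ∃ r : ℕ, (p ≠ 3 ∧ r = 1) ∨ (p = 3 ∧ r.Prime ∧ r % 3 = 2 ∧
      UnrAt (curveRep B.b) r ∧ (r : ZMod p) ≠ 1 ∧ (∀ A : ValuationSubring Qbar,
      A.LiesOverPrime r → ∀ τ : GQ, A.IsFrobeniusAt τ r →
        (curveRep B.b τ).trace ^ 2 ≠ ((r : ZMod p) + 1) ^ 2) ∧ r ∉ Tate.badW W p M₀) := by
    by_cases hp3 : p = 3
    · obtain ⟨r, h1, h2, h3, h4, h5⟩ := auxPrime p (curveRep B.b) hρ hp3 _ hbf hunr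
      exact ⟨r, Or.inr ⟨hp3, h1, h3, hunr r h1 h2, h4, h5, h2⟩⟩
    · exact ⟨1, Or.inl ⟨hp3, rfl⟩⟩
  have hr0 : r ≠ 0 := by
    rcases hr with h | h
    · rw [h.2]; exact one_ne_zero
    · exact h.2.1.ne_zero
  have hdr : ∀ q : ℕ, q.Prime → q ∣ r → q = r ∧ q ∉ Tate.badW W p M₀ := by
    intro q hq hqr
    rcases hr with h | h
    · rw [h.2] at hqr
      exact absurd (Nat.dvd_one.mp hqr) hq.one_lt.ne'
    · have e := (Nat.prime_dvd_prime_iff_eq hq h.2.1).mp hqr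
      subst e
      exact ⟨rfl, h.2.2.2.2.2.2⟩
  have hpr : ¬ p ∣ r := fun h => (hdr p hp.out h).2 (Or.inl (Or.inl rfl))
  haveI : NeZero (N₀ * r) := ⟨mul_ne_zero (NeZero.ne N₀) hr0⟩
  set S' : Set ℕ := Tate.badW W p M₀ ∪ {r} with hS'
  have hS'f : S'.Finite := hbf.union (Set.finite_singleton r)
  have hNS' : ∀ q : ℕ, q.Prime → q ∣ N₀ * r → q ∈ S' := by
    intro q hq h
    rcases hq.dvd_mul.mp h with h | h
    · exact Or.inl (Or.inl (Or.inr (h.trans hN₀M)))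
    · exact Or.inr (hdr q hq h).1
  have hmod' : HMod (curveRep B.b) (N₀ * r) S' :=
    raise p (curveRep B.b) N₀ (N₀ * r) S' (dvd_mul_right _ _) hNS'
      (hmod.mono Set.subset_union_left)
  set S'' : Set ℕ := {p} ∪ {q | q.Prime ∧ q ∣ N₀ * r} with hS''
  have hS''S : S'' ⊆ S' := by
    rintro q (h | h)
    · exact Or.inl (Or.inl (Or.inl h))
    · exact hNS' q h.1 h.2
  have hmod'' : HMod (curveRep B.b) (N₀ * r) S'' :=
    hmod'.shrink hρ.level hρ.det hS'f hS''S (Or.inl rfl) (fun q hq h => Or.inr ⟨hq, h⟩)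
  obtain ⟨O, i1, i2, i3, i4, i5, i6, i7, hpO, hspl, χ, hχ⟩ := exists_coeff_mod hmod''
  refine ⟨O, i1, i2, i3, i4, i5, i6, i7,
    { hp35 := hp35
      hpO := hpO
      spl := hspl
      hρ := hρ
      h₀ := h₀
      loc := hloc
      N := N₀ * r
      sqf := ?_
      r := r
      hr := ?_
      ram := ?_
      atp := ?_
      χ := χ
      hχ := ?_ }, ?_⟩
  · rw [Nat.squarefree_mul_iff]
    refine ⟨?_, hmin.sqf, ?_⟩
    · rcases hr with h | h
      · rw [h.2]; exact Nat.coprime_one_right _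
      · rw [Nat.coprime_comm, Nat.Prime.coprime_iff_not_dvd h.2.1]
        exact fun h' => h.2.2.2.2.2.2 (Or.inl (Or.inr (h'.trans hN₀M)))
    · rcases hr with h | h
      · rw [h.2]; exact squarefree_one
      · exact h.2.1.prime.squarefree
  · rcases hr with h | h
    · exact Or.inl h
    · exact Or.inr ⟨h.1, h.2.1, h.2.2.1, h.2.2.2.1, h.2.2.2.2.1, h.2.2.2.2.2.1⟩
  · intro q hq hqp
    rw [hq.dvd_mul, hmin.ram q hq hqp]
    constructor
    · rintro (h | h)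
      · exact Or.inl h
      · exact Or.inr (hdr q hq h).1
    · rintro (h | h)
      · exact Or.inl h
      · exact Or.inr (h ▸ dvd_rfl)
  · rw [← hmin.atp, hp.out.dvd_mul]
    exact ⟨fun h => h.resolve_right hpr, Or.inl⟩
  · intro ℓ hℓ hℓN hℓp A hA τ hτ
    refine hχ ℓ hℓ hℓN ?_ A hA τ hτ
    rintro (h | h)
    · exact hℓp h
    · exact hℓN h.2
  · intro hp3
    rcases hr with h | h
    · exact absurd hp3 h.1
    · intro h'
      exact h.2.2.2.2.2.2 (Or.inr (Int.natCast_dvd.mp h'))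

end Fermat.Agent.RT
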