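import Fermat.Agent.RT.MkBas
import Fermat.Agent.LR.F11

/-!
# The non-minimal data attached to a semistable curve
-/

set_option autoImplicit false
set_option maxHeartbeats 400000
set_option linter.style.haveILetI false

noncomputable section

namespace Fermat.Agent.RT

open IsLocalRing Matrix Fermat.Agent.DefRing Fermat.Agent.GalRep Fermat.Agent.TWPatch
  Fermat.Agent.TWLoc Fermat.Agent.TWGal CuspForm GaloisRep Fermat.Agent.TWG
  Fermat.Agent.TW56
open Fermat.Agent.TWCoh hiding GQ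
open Fermat.Agent.S43Glue (FinLevel HMod chiK chiK_frob curveRep irred_of_irreducible)

local notation "Qbar" => AlgebraicClosure ℚ

namespace Inp

variable {W : WeierstrassCurve ℤ} {p : ℕ} [hp : Fact p.Prime] {B : Tate.Bases W p} {hΔ : W.Δ ≠ 0}
    {O : Type} [CommRing O] [CNL O] (I : Inp B hΔ O)

theorem detCyc (hirr : W.ModRepIsIrreducible p) :
    (GaloisRepAdic.ofResidualGaloisRep I.ρbar).DetIsCyclotomic p :=
  (detCyc_iff _ I.b).mpr (by rw [I.repMat_eq]; exact I.cdet_ρb hirr)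

theorem hsplit (σ : AlgebraicClosure ℚ ≃ₐ[ℚ] AlgebraicClosure ℚ) :
    ∃ α β : ResidueField O, LinearMap.charpoly (I.ρbar.ρ σ) =
        (Polynomial.X - Polynomial.C α) * (Polynomial.X - Polynomial.C β) := by
  obtain ⟨α, β, h1, h2⟩ := I.split σ
  refine ⟨α, β, ?_⟩
  have h3 : LinearMap.charpoly (I.ρbar.ρ σ) =
      Polynomial.X ^ 2 - Polynomial.C (resMatHom I.ρbar I.b σ).trace * Polynomial.X +
        Polynomial.C (resMatHom I.ρbar I.b σ).det := by
    rw [← LinearMap.charpoly_toMatrix (I.ρbar.ρ σ) I.b, Matrix.charpoly_fin_two]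
    rfl
  rw [h3, I.resMatHom_eq, h1, h2, map_add, map_mul]
  ring

theorem curve_tr (hss : W.IsSemistableModel) (hirr : W.ModRepIsIrreducible p) {q : ℕ}
    (hq : q.Prime) (hqp : q ≠ p) {A : ValuationSubring Qbar} (hA : A.LiesOverPrime q) {σ : GQ}
    (hσ : σ ∈ A.inertiaSubgroupIn ℚ) : (I.ρb σ).trace = 2 ∧ (I.ρb σ).det = 1 := by
  obtain ⟨h1, h2⟩ := Tate.trace_inertia I.hp2 B hΔ hss hirr hq hqp hA hσ
  constructor
  · rw [I.trace_ρb, Tate.curve_trace, h1, map_ofNat, map_ofNat]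
  · have h3 : (I.ρb σ).det = iot I.hpO (curveRep B.b σ).det := ((iot I.hpO).map_det _).symm
    rw [h3, Tate.curve_det, h2, map_one, map_one]

theorem dd_bar (hss : W.IsSemistableModel) (hirr : W.ModRepIsIrreducible p) (S : Finset ℕ)
    (hS : I.Smin ⊆ S) :
    DD O I.t p S I.Smin (GaloisRepAdic.ofResidualGaloisRep I.ρbar) := by
  haveI : Finite (ResidueField O) := CNL.finRes
  rw [DD_iff_CC _ I.b, I.repMat_eq]
  refine ⟨?_, ?_, ?_⟩
  · unfold t
    split_ifs with h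
    · refine ⟨I.cdet_ρb hirr, ?_, ?_⟩
      · exact Finite.of_surjective _ (residue_surjective (R := ResidueField O))
      · exact Fl.mflat (I.flat_iff.mpr h)
    · exact ⟨I.cdet_ρb hirr, (mord_iff (I.cdet_ρb hirr).1 (I.cdet_ρb hirr).2).mp
        (I.mord_ρb (I.loc.resolve_left h))⟩
  · rintro σ ⟨q, hq, hqS, P, hP, hσ⟩
    have hqp : q ≠ p := fun h => hqS (hS (I.mem_Smin.mpr (Or.inl h)))
    have h1 : I.ρbar.IsUnramifiedAt q := by
      by_contra h
      exact hqS (hS (((I.D hirr).hmin q hq hqp).mpr h))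
    have h2 : (GaloisRepAdic.ofResidualGaloisRep I.ρbar).IsUnramifiedAt q := h1
    rw [unr_iff _ I.b, I.repMat_eq] at h2
    exact h2 P hP σ hσ
  · rintro σ ⟨q, hqS, hq, hqp, P, hP, hσ⟩
    exact I.curve_tr hss hirr hq hqp hP hσ

/-- the primes where the level is raised -/
def Q : Finset ℕ := W.Δ.natAbs.primeFactors \ I.Sf

theorem mem_Q {q : ℕ} : q ∈ I.Q ↔ q.Prime ∧ (q : ℤ) ∣ W.Δ ∧ q ∉ I.Sf := by
  rw [Q, Finset.mem_sdiff, Nat.mem_primeFactors, ← Int.natCast_dvd]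
  have := Int.natAbs_ne_zero.mpr hΔ
  tauto

theorem bad_sub (hr : p = 3 → W.IsGoodPrimeFor I.r) {q : ℕ} (hq : q.Prime)
    (h : ¬ W.IsGoodPrimeFor q) : q ∈ I.Smin ∪ I.Q := by
  rw [WeierstrassCurve.IsGoodPrimeFor, not_not] at h
  rw [Finset.mem_union]
  by_cases hS : q ∈ I.Sf
  · left
    rw [I.mem_Smin]
    rcases I.mem_Sf.mp hS with h1 | h1
    · exact Or.inl h1
    · refine Or.inr ⟨fun h2 => ?_, h1⟩
      rcases I.hr with h3 | h3
      · rw [h2, h3.2] at hq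
        exact Nat.not_prime_one hq
      · exact hr h3.1 (h2 ▸ h)
  · right
    exact I.mem_Q.mpr ⟨hq, h, hS⟩

/-- the eigenvalues -/
def lam (l : ℕ) : O := by
  classical
  exact if h : l.Prime ∧ ¬ l ∣ I.N then
    I.χ (heckeAlgebra.T h.1 h.2 (Set.notMem_empty l)) else 0

theorem lam_eq {l : ℕ} (hl : l.Prime) (hlN : ¬ l ∣ I.N) :
    I.lam l = I.χ (heckeAlgebra.T hl hlN (Set.notMem_empty l)) := by
  rw [lam, dif_pos ⟨hl, hlN⟩]

theorem lam_res (hirr : W.ModRepIsIrreducible p) {l : ℕ} (hl : l.Prime) (hlN : ¬ l ∣ I.N)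
    (hlp : l ≠ p) (hW : W.IsGoodPrimeFor l) :
    residue O (I.lam l) = iot I.hpO ((W.apOfModel l : ℤ) : ZMod p) := by
  obtain ⟨A, hA, τ, hτ⟩ := Frob.exists_place_frobenius hl
  rw [I.lam_eq hl hlN, I.hχ l hl hlN hlp A hA τ hτ, Tate.curve_frob B hΔ hirr hl hW hlp hA hτ]

theorem exists_OD [IsDomain O] [CharZero O] [Algebra ℤ_[p] O] [Module.Finite ℤ_[p] O]
    (hirr : W.ModRepIsIrreducible p) :
    ∃ OD : OmD O (ResidueField O), OD.N = I.N ∧ OD.S = I.Sf ∧ OD.lam = I.lam ∧ OD.Q = I.Q := by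
  obtain ⟨κ, κi, M, hM, hMN, f, hf, hfe⟩ := exists_lam (p := p) I.χ
  haveI := charP_res I.hpO
  have hbadfin : ((I.Sf : Set ℕ) ∪ (I.Q : Set ℕ) ∪ {l | l ∣ W.Δ.natAbs}).Finite :=
    (I.Sf.finite_toSet.union I.Q.finite_toSet).union ((Set.finite_le_nat W.Δ.natAbs).subset
      fun l hl => Nat.le_of_dvd (Nat.pos_of_ne_zero (Int.natAbs_ne_zero.mpr hΔ)) hl)
  have hgood : ∀ l : ℕ, l ∉ ((I.Sf : Set ℕ) ∪ (I.Q : Set ℕ) ∪ {l | l ∣ W.Δ.natAbs}) →
      W.IsGoodPrimeFor l := fun l hl h => hl (Or.inr (Int.natCast_dvd.mp h))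
  have hfr : ∀ ℓ : ℕ, ℓ.Prime → ℓ ∉ ((I.Sf : Set ℕ) ∪ (I.Q : Set ℕ) ∪ {l | l ∣ W.Δ.natAbs}) →
      ∀ A : ValuationSubring Qbar, A.LiesOverPrime ℓ →
      ∀ τ : GQ, A.IsFrobeniusAt τ ℓ → (curveRep B.b τ).trace = ((W.apOfModel ℓ : ℤ) : ZMod p) ∧
        (curveRep B.b τ).det = (ℓ : ZMod p) := by
    intro ℓ hℓ hℓS A hA τ hτ
    have hℓp : ℓ ≠ p := fun h => hℓS (Or.inl (Or.inl (Finset.mem_coe.mpr
      (I.mem_Sf.mpr (Or.inl h)))))
    exact ⟨Tate.curve_frob B hΔ hirr hℓ (hgood ℓ hℓS) hℓp hA hτ, by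
      rw [I.hρ.det, chiK_frob p _ hℓ hA hℓp hτ]⟩
  have hnl := LR.noLine_of_irred (ρ := curveRep B.b) (fun V hV => irred_of_irreducible B.b hirr V hV)
  have hnot : ∀ l : ℕ, l.Prime → l ∉ ((I.Sf : Set ℕ) ∪ (I.Q : Set ℕ) ∪ {l | l ∣ W.Δ.natAbs}) →
      ¬ l ∣ I.N ∧ l ≠ p := fun l hl hlS =>
    ⟨fun h => hlS (Or.inl (Or.inl (Finset.mem_coe.mpr (I.mem_Sf.mpr (Or.inr ⟨hl, h⟩))))),
      fun h => hlS (Or.inl (Or.inl (Finset.mem_coe.mpr (I.mem_Sf.mpr (Or.inl h)))))⟩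
  refine ⟨{ κ := κ
            κ_inj := κi
            M := M
            f := f
            newform := hf
            N := I.N
            dvd := hMN
            lam := I.lam
            lam_eq := fun l hl hlN => by rw [I.lam_eq hl hlN]; exact hfe l hl hlN
            S := I.Sf
            mem_S := fun l hl hlN => I.mem_Sf.mpr (Or.inr ⟨hl, hlN⟩)
            Q := I.Q
            prime_Q := fun q hq => (I.mem_Q.mp hq).1
            disj := fun q hq => (I.mem_Q.mp hq).2.2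
            ne_Q := fun q hq h => ?_
            eis₁ := fun n hn => ?_
            eis₂ := ?_ }, rfl, rfl, rfl, rfl⟩
  · obtain ⟨h1, -, h3⟩ := I.mem_Q.mp hq
    have h2 := (CharP.cast_eq_zero_iff (ResidueField O) p q).mp h
    exact h3 (I.mem_Sf.mpr (Or.inl ((Nat.prime_dvd_prime_iff_eq hp.out h1).mp h2).symm))
  · obtain ⟨l, hl, hlS, h1, h2⟩ := LR.exists_prime_one I.hρ.level hnl I.hp2 I.hρ.det
      (fun ℓ => ((W.apOfModel ℓ : ℤ) : ZMod p)) hbadfin hfr hn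
    obtain ⟨g1, g2⟩ := hnot l hl hlS
    refine ⟨l, hl, fun h => hlS (Or.inl (Or.inl (Finset.mem_coe.mpr h))),
      fun h => hlS (Or.inl (Or.inr (Finset.mem_coe.mpr h))), h1, fun h => h2 ?_⟩
    apply (iot I.hpO).injective
    have h3 := I.lam_res hirr hl g1 g2 (hgood l hlS)
    have h4 : residue O (I.lam l) = 1 + (l : ResidueField O) := h
    rw [map_add, map_natCast, map_one, ← h3, h4, add_comm]
  · obtain ⟨l, hl, hlS, h2⟩ := LR.exists_prime_two I.hρ.level hnl I.hp2 I.hρ.det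
      (fun ℓ => ((W.apOfModel ℓ : ℤ) : ZMod p)) hbadfin hfr
    obtain ⟨g1, g2⟩ := hnot l hl hlS
    refine ⟨l, hl, fun h => hlS (Or.inl (Or.inl (Finset.mem_coe.mpr h))),
      fun h => hlS (Or.inl (Or.inr (Finset.mem_coe.mpr h))), fun h => h2 ?_⟩
    apply (iot I.hpO).injective
    have h3 := I.lam_res hirr hl g1 g2 (hgood l hlS)
    have h4 : (residue O (I.lam l)) ^ 2 = (1 + (l : ResidueField O)) ^ 2 := h
    rw [map_pow, map_pow, map_add, map_natCast, map_one, ← h3, h4, add_comm]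

end Inp

end Fermat.Agent.RT
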