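import Mathlib

/-!
# The numerical criterion: statements
-/

set_option autoImplicit false

namespace Fermat.Agent.RT

open IsDiscreteValuationRing

/-- the congruence condition: `e` is a basis of `H[ker π]`, `B` a perfect self-adjoint pairing -/
structure CongData (O : Type) [CommRing O] [IsDomain O] (R : Type) [CommRing R] [Algebra O R]
    (π : R →ₐ[O] O) (H : Type) [AddCommGroup H] [Module O H] [Module R H] (d : ℕ) where
  /-- the pairing -/
  B : H →ₗ[O] H →ₗ[O] O
  perfect : Function.Surjective B
  adj : ∀ (r : R) (x y : H), B (r • x) y = B x (r • y)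
  /-- the basis of the `π`-part -/
  e : Fin d → H
  indep : LinearIndependent O e
  mem_span : ∀ x : H, x ∈ Submodule.span O (Set.range e) ↔ ∀ r : R, π r = 0 → r • x = 0

/-- the Gram determinant -/
def CongData.gram {O : Type} [CommRing O] [IsDomain O] {R : Type} [CommRing R] [Algebra O R]
    {π : R →ₐ[O] O} {H : Type} [AddCommGroup H] [Module O H] [Module R H] {d : ℕ}
    (C : CongData O R π H d) : O := (Matrix.of fun i j => C.B (C.e i) (C.e j)).det

/-- **(N1)** the numerical criterion -/
def N1St : Prop := ∀ (O : Type) [CommRing O] [IsDomain O] [IsDiscreteValuationRing O]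
  (R : Type) [CommRing R] [IsLocalRing R] [IsNoetherianRing R] [Algebra O R] (π : R →ₐ[O] O)
  (H : Type) [AddCommGroup H] [Module O H] [Module.Finite O H] [Module.Free O H]
  [Module R H] [IsScalarTower O R H] (d : ℕ) (_ : 0 < d) (C : CongData O R π H d),
  Module.length O (RingHom.ker π).Cotangent ≠ ⊤ →
  (d : ℕ∞) * Module.length O (RingHom.ker π).Cotangent ≤ addVal O C.gram →
  Module.annihilator R H = ⊥

/-- **(N2)** the minimal level -/
def N2St : Prop := ∀ (O : Type) [CommRing O] [IsDomain O] [IsDiscreteValuationRing O]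
  [IsAdicComplete (IsLocalRing.maximalIdeal O) O] [Finite (IsLocalRing.ResidueField O)]
  (T : Type) [CommRing T] [IsLocalRing T] [Algebra O T] [Module.Finite O T] [Module.Free O T]
  (r : ℕ) (ψ : MvPowerSeries (Fin r) O →ₐ[O] T) (g : Fin r → MvPowerSeries (Fin r) O),
  Function.Surjective ψ → RingHom.ker ψ = Ideal.span (Set.range g) →
  ∀ (π : T →ₐ[O] O) (H : Type) [AddCommGroup H] [Module O H] [Module.Finite O H]
  [Module.Free O H] [Module T H] [IsScalarTower O T H] [Module.Free T H]
  (d : ℕ) (C : CongData O T π H d),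
  Module.length O (RingHom.ker π).Cotangent ≠ ⊤ →
  addVal O C.gram = (d : ℕ∞) * Module.length O (RingHom.ker π).Cotangent

end Fermat.Agent.RT
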