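import Mathlib
import Fermat.Agent.TWCoh.Loc

/-!
# The intersection pairing: algebra
-/

set_option autoImplicit false

noncomputable section

namespace Fermat.Agent.RT.OmA

open Fermat.Agent.TWCoh (loc LocData mem_loc)

/-- precomposition with an operator -/
def pre {O R S : Type} [CommRing O] [CommRing R] [Algebra O R] [AddCommGroup S] [Module O S]
    [Module R S] [IsScalarTower O R S] (r : R) (l : S →ₗ[O] O) : S →ₗ[O] O :=
  l ∘ₗ (Algebra.lsmul O O S r : S →ₗ[O] S)

/-- symbols, intersection symbols, values on the group -/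
structure IPD (O R S G : Type) [CommRing O] [CommRing R] [Algebra O R] [AddCommGroup S]
    [Module O S] [Module R S] [IsScalarTower O R S] where
  /-- the intersection symbols -/
  iot : G → S
  /-- the values on the group -/
  hv : S →ₗ[O] (G → O)
  act : ∀ (r : R) (l : S →ₗ[O] O) (y : S), (∀ g, l (iot g) = hv y g) →
    ∀ g, l (r • iot g) = hv (r • y) g
  ex : ∀ y : S, ∃ l : S →ₗ[O] O, ∀ g, l (iot g) = hv y g
  /-- the Fricke involution -/
  fr : S →ₗ[O] S
  fr_fr : ∀ y, fr (fr y) = y
  fr_smul : ∀ (r : R) (y : S), fr (r • y) = r • fr y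

section

variable {O R S G : Type} [CommRing O] [CommRing R] [Algebra O R] [AddCommGroup S]
    [Module O S] [Module R S] [IsScalarTower O R S]

theorem pre_apply (r : R) (l : S →ₗ[O] O) (x : S) : pre r l x = l (r • x) := rfl

variable (D : IPD O R S G)

/-- `l` represents `y` -/
def IPD.Rel (l : S →ₗ[O] O) (y : S) : Prop := ∀ g, l (D.iot g) = D.hv y g

variable {D}

theorem IPD.Rel.add {l l' : S →ₗ[O] O} {y y' : S} (h : D.Rel l y) (h' : D.Rel l' y') :
    D.Rel (l + l') (y + y') := fun g => by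
  rw [map_add, LinearMap.add_apply, h g, h' g]; rfl

theorem IPD.Rel.sub {l l' : S →ₗ[O] O} {y y' : S} (h : D.Rel l y) (h' : D.Rel l' y') :
    D.Rel (l - l') (y - y') := fun g => by
  rw [map_sub, LinearMap.sub_apply, h g, h' g]; rfl

theorem IPD.Rel.smul {l : S →ₗ[O] O} {y : S} (a : O) (h : D.Rel l y) :
    D.Rel (a • l) (a • y) := fun g => by
  rw [map_smul, LinearMap.smul_apply, h g]; rfl

theorem IPD.Rel.act {l : S →ₗ[O] O} {y : S} (r : R) (h : D.Rel l y) :
    D.Rel (pre r l) (r • y) := D.act r l y h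

theorem IPD.Rel.zero : D.Rel 0 (0 : S) := fun g => by
  rw [map_zero, LinearMap.zero_apply]; rfl

variable (D) in
/-- the saturated span of the intersection symbols -/
def IPD.W : Submodule O S where
  carrier := {x | ∀ l, D.Rel l 0 → l x = 0}
  add_mem' := fun {a b} ha hb l hl => by rw [map_add, ha l hl, hb l hl, add_zero]
  zero_mem' := fun l _ => map_zero l
  smul_mem' := fun c x hx l hl => by rw [map_smul, hx l hl, smul_zero]

theorem IPD.iot_mem_W (g : G) : D.iot g ∈ D.W := fun l hl => by
  rw [hl g, map_zero]; rfl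

theorem IPD.smul_mem_W (r : R) {x : S} (hx : x ∈ D.W) : r • x ∈ D.W := fun l hl => by
  have := hx (pre r l) (by simpa using hl.act r)
  rwa [pre_apply] at this

theorem IPD.eq_on_W {l l' : S →ₗ[O] O} {y : S} (h : D.Rel l y) (h' : D.Rel l' y) {x : S}
    (hx : x ∈ D.W) : l x = l' x := by
  have := hx (l - l') (by simpa using h.sub h')
  rwa [LinearMap.sub_apply, sub_eq_zero] at this

variable [IsDomain O] [IsPrincipalIdealRing O] [Module.Finite O S] [Module.Free O S]
  {m : Ideal R} {e : R} (he : LocData m S e)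
  (h1 : ∃ s : R, s ∉ m ∧ ∀ y : S, D.Rel 0 y → s • y = 0)

include he h1 in
/-- **the key** -/
theorem IPD.star {l : S →ₗ[O] O} (hl : D.Rel l 0) {x : S} (hx : x ∈ loc m S) : l x = 0 := by
  choose lam hlam0 using D.ex
  have hlam : ∀ y, D.Rel (lam y) y := hlam0
  set V : Submodule O S := (loc m S).restrictScalars O with hV
  set K : Submodule O V := D.W.comap V.subtype with hK
  let f : V →ₗ[O] (K →ₗ[O] O) :=
    { toFun := fun y => (lam y.1) ∘ₗ V.subtype ∘ₗ K.subtype
      map_add' := fun y y' => by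
        ext k
        exact D.eq_on_W (hlam _) ((hlam y.1).add (hlam y'.1)) k.2
      map_smul' := fun a y => by
        ext k
        exact D.eq_on_W (hlam _) ((hlam y.1).smul a) k.2 }
  have hinj : Function.Injective f := by
    rw [injective_iff_map_eq_zero]
    intro y hy
    have h2 : D.Rel (pre e (lam y.1)) (e • y.1) := (hlam y.1).act e
    have h3 : e • y.1 = y.1 := he.mem_iff.1 y.2
    rw [h3] at h2
    have h4 : D.Rel 0 y.1 := fun g => by
      rw [← h2 g, pre_apply, LinearMap.zero_apply]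
      have h5 : e • D.iot g ∈ loc m S := he.smul_mem _
      exact (LinearMap.congr_fun hy ⟨⟨e • D.iot g, h5⟩, D.smul_mem_W e (D.iot_mem_W g)⟩).symm
    obtain ⟨s, hs, hs'⟩ := h1
    obtain ⟨u, hu⟩ := he.unit s hs
    apply Subtype.ext
    rw [← h3, ← hu, hs' _ h4, smul_zero]
    rfl
  have hr : Module.finrank O V ≤ Module.finrank O K := by
    have h2 := LinearMap.finrank_le_finrank_of_injective hinj
    rwa [Module.finrank_linearMap_self] at h2
  have hq : Module.finrank O (V ⧸ K) = 0 := by
    have := K.finrank_quotient_add_finrank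
    omega
  rw [Module.finrank_eq_zero_iff] at hq
  obtain ⟨a, ha, hax⟩ := hq (K.mkQ ⟨x, hx⟩)
  have h5 : a • (⟨x, hx⟩ : V) ∈ K := by
    rw [← Submodule.Quotient.mk_eq_zero, Submodule.Quotient.mk_smul]
    exact hax
  have h6 : l (a • x) = 0 := h5 l hl
  rw [map_smul, smul_eq_mul] at h6
  exact (mul_eq_zero.1 h6).resolve_left ha

include he h1 in
/-- **The pairing.** -/
theorem IPD.exists_pairing (h2 : ∃ s : R, s ∉ m ∧ ∀ l : S →ₗ[O] O, ∃ y, D.Rel (pre s l) y) :
    ∃ B : loc m S →ₗ[O] loc m S →ₗ[O] O, Function.Surjective B ∧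
      (∀ (y x : loc m S) (l : S →ₗ[O] O), D.Rel l (D.fr y.1) → B y x = l x.1) ∧
      (∀ (r : R) (y x : loc m S), B (r • y) x = B y (r • x)) := by
  choose lam hlam0 using D.ex
  have hlam : ∀ y, D.Rel (lam y) y := hlam0
  have heq : ∀ {l l' : S →ₗ[O] O} {y : S}, D.Rel l y → D.Rel l' y → ∀ x : loc m S,
      l x.1 = l' x.1 := by
    intro l l' y h h' x
    have := D.star he h1 (l := l - l') (by simpa using h.sub h') x.2
    rwa [LinearMap.sub_apply, sub_eq_zero] at this
  let V' : Submodule O S := (loc m S).restrictScalars O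
  let ι : loc m S →ₗ[O] S := V'.subtype
  let B : loc m S →ₗ[O] loc m S →ₗ[O] O :=
    { toFun := fun y => (lam (D.fr y.1)) ∘ₗ ι
      map_add' := fun y y' => by
        ext x
        have := (hlam (D.fr y.1)).add (hlam (D.fr y'.1))
        rw [← map_add] at this
        exact heq (hlam _) this x
      map_smul' := fun a y => by
        ext x
        have := (hlam (D.fr y.1)).smul a
        rw [← map_smul] at this
        exact heq (hlam _) this x }
  have hB : ∀ (y x : loc m S) (l : S →ₗ[O] O), D.Rel l (D.fr y.1) → B y x = l x.1 :=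
    fun y x l hl => heq (hlam _) hl x
  refine ⟨B, fun f => ?_, hB, fun r y x => ?_⟩
  · obtain ⟨s, hs, hs'⟩ := h2
    obtain ⟨u, hu⟩ := he.unit s hs
    let pe : S →ₗ[O] loc m S :=
      { toFun := fun x => ⟨e • x, he.smul_mem x⟩
        map_add' := fun x y => Subtype.ext (smul_add _ _ _)
        map_smul' := fun a x => Subtype.ext (smul_comm _ _ _) }
    obtain ⟨φ, hφ⟩ := hs' (pre u (f ∘ₗ pe))
    refine ⟨⟨e • D.fr φ, he.smul_mem _⟩, LinearMap.ext fun x => ?_⟩
    rw [hB _ x (pre e (pre s (pre u (f ∘ₗ pe))))]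
    · rw [pre_apply, pre_apply, pre_apply]
      show f ⟨e • u • s • e • x.1, _⟩ = f x
      congr 1
      apply Subtype.ext
      show e • u • s • e • x.1 = x.1
      rw [hu, he.mem_iff.1 x.2, he.mem_iff.1 x.2, he.mem_iff.1 x.2]
    · show D.Rel _ (D.fr (e • D.fr φ))
      rw [D.fr_smul, D.fr_fr]
      exact hφ.act e
  · rw [hB (r • y) x (pre r (lam (D.fr y.1)))]
    · rfl
    · show D.Rel _ (D.fr (r • y.1))
      rw [D.fr_smul]
      exact (hlam _).act r

end

end Fermat.Agent.RT.OmA
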