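import Fermat.Agent.RT.OmF
import Fermat.Agent.IharaL.Main

/-!
# Ihara's lemma for the stabilisation
-/

set_option autoImplicit false
set_option linter.unusedSectionVars false
set_option linter.style.haveILetI false

noncomputable section

namespace Fermat.Agent.RT.Om

open Matrix CongruenceSubgroup Fermat.Agent.TWCoh
open Fermat.Agent.Ihara (InSym IsMS TS ES FS tr um)
open scoped MatrixGroups OnePoint

section

variable {A : Type*} [AddCommGroup A] {N : ℕ}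

theorem inSym_of_SZ {x : P1 → P1 → A} (hx : x ∈ SZ A N) : InSym N x :=
  ⟨fun a b c => hx.1 a b c, fun γ hγ => by
    funext a b
    have := hx.2 γ hγ a b
    rw [one_dir_apply, one_smul] at this
    exact this⟩

theorem SZ_of_inSym {x : P1 → P1 → A} (hx : InSym N x) : x ∈ SZ A N :=
  ⟨fun a b c => hx.ms a b c, fun γ hγ a b => by
    rw [one_dir_apply, one_smul]
    exact congrFun (congrFun (hx.inv γ hγ) a) b⟩

theorem SZ_inv {x : P1 → P1 → A} (hx : x ∈ SZ A N) {γ : SL(2, ℤ)} (hγ : γ ∈ Gamma0 N) (a b : P1) :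
    x (io γ • a) (io γ • b) = x a b := congrFun (congrFun ((inSym_of_SZ hx).inv γ hγ) a) b

theorem SZ_mono {M : ℕ} (h : N ∣ M) {x : P1 → P1 → A} (hx : x ∈ SZ A N) : x ∈ SZ A M :=
  ⟨hx.1, fun γ hγ a b => hx.2 γ (mem_Gamma0.2 ((Int.natCast_dvd_natCast.2 h).trans
    (mem_Gamma0.1 hγ))) a b⟩

theorem ES_eq {l : ℕ} (hl : l.Prime) (x : P1 → P1 → A) :
    ES l x = (Tz A hl - ((l : ℤ) + 1) • (LinearMap.id : (P1 → P1 → A) →ₗ[ℤ] (P1 → P1 → A))) x := by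
  rw [ES, LinearMap.sub_apply, Tz_eq_TS, LinearMap.smul_apply, LinearMap.id_apply]
  congr 1
  have : ((l : ℤ) + 1) • x = (((l + 1 : ℕ) : ℤ)) • x := by push_cast; rfl
  rw [this, natCast_zsmul]

theorem FS_eq {l : ℕ} (hl : l.Prime) (x : P1 → P1 → A) :
    FS l x = (Tz A hl ∘ₗ Tz A hl - (((l : ℤ) + 1) ^ 2) •
      (LinearMap.id : (P1 → P1 → A) →ₗ[ℤ] (P1 → P1 → A))) x := by
  rw [FS, LinearMap.sub_apply, LinearMap.comp_apply, Tz_eq_TS, Tz_eq_TS, LinearMap.smul_apply,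
    LinearMap.id_apply]
  congr 1
  have : (((l : ℤ) + 1) ^ 2) • x = ((((l + 1) ^ 2 : ℕ) : ℤ)) • x := by push_cast; rfl
  rw [this, natCast_zsmul]

theorem Bz_eq_tr {q : ℕ} (hq : q.Prime) (x : P1 → P1 → A) : Bz A hq x = tr (um q 0 1) x := by
  funext a b
  show x (Di q _ • a) (Di q _ • b) = x (um q 0 1 • a) (um q 0 1 • b)
  rw [Di_eq]

end

theorem omTwo : OmTwoSt := by
  intro N q hN hq hqN A _ x hx y hy h l hl hlN
  obtain ⟨M', hM', H⟩ := IharaL.iharaStatement N q hN hq hqN A x y (inSym_of_SZ hx)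
    (inSym_of_SZ hy) (by rw [← Bz_eq_tr hq]; exact eq_neg_of_add_eq_zero_left h) l hl hlN
  refine ⟨M', hM', fun l' hl' h1 => ?_⟩
  have := H l' hl' h1
  rw [FS_eq hl, ES_eq hl', ES_eq hl'] at this
  exact this

section

variable {A : Type} [AddCommGroup A] {N q : ℕ}

/-- lowering the level -/
theorem SZ_lower (hq : q.Prime) (hqN : ¬ q ∣ N) {z : P1 → P1 → A} (hz : z ∈ SZ A (N * q))
    {γ₁ : SL(2, ℤ)} (h1 : γ₁ 0 0 = 1 ∧ γ₁ 0 1 = 0 ∧ γ₁ 1 0 = N ∧ γ₁ 1 1 = 1)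
    (hinv : ∀ a b, z (io γ₁ • a) (io γ₁ • b) = z a b) : z ∈ SZ A N := by
  -- the stabilizer
  let K : Subgroup SL(2, ℤ) :=
    { carrier := {γ | ∀ a b, z (io γ • a) (io γ • b) = z a b}
      one_mem' := fun a b => by rw [map_one, one_smul, one_smul]
      mul_mem' := fun {γ δ} hγ hδ a b => by
        rw [map_mul, mul_smul, mul_smul, hγ, hδ]
      inv_mem' := fun {γ} hγ a b => by
        rw [← hγ, map_inv, smul_inv_smul, smul_inv_smul] }
  have hK0 : ∀ γ ∈ Gamma0 (N * q), γ ∈ K := fun γ hγ a b => SZ_inv hz hγ a b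
  have hpow : ∀ t : ℤ, (γ₁ ^ t) 0 0 = 1 ∧ (γ₁ ^ t) 0 1 = 0 ∧ (γ₁ ^ t) 1 0 = N * t ∧
      (γ₁ ^ t) 1 1 = 1 := by
    have hs : ∀ (γ δ : SL(2, ℤ)) (s t : ℤ), (γ 0 0 = 1 ∧ γ 0 1 = 0 ∧ γ 1 0 = N * s ∧ γ 1 1 = 1) →
        (δ 0 0 = 1 ∧ δ 0 1 = 0 ∧ δ 1 0 = N * t ∧ δ 1 1 = 1) →
        ((γ * δ) 0 0 = 1 ∧ (γ * δ) 0 1 = 0 ∧ (γ * δ) 1 0 = N * (s + t) ∧ (γ * δ) 1 1 = 1) := by
      rintro γ δ s t ⟨a1, a2, a3, a4⟩ ⟨b1, b2, b3, b4⟩
      simp only [Matrix.SpecialLinearGroup.coe_mul, Matrix.mul_apply, Fin.sum_univ_two, a1, a2, a3,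
        a4, b1, b2, b3, b4]
      refine ⟨by ring, by ring, by ring, by ring⟩
    have hi : γ₁⁻¹ 0 0 = 1 ∧ γ₁⁻¹ 0 1 = 0 ∧ γ₁⁻¹ 1 0 = N * (-1) ∧ γ₁⁻¹ 1 1 = 1 := by
      obtain ⟨a1, a2, a3, a4⟩ := h1
      rw [Matrix.SpecialLinearGroup.SL2_inv_expl]
      refine ⟨?_, ?_, ?_, ?_⟩ <;> simp [a1, a2, a3, a4]
    intro t
    induction t using Int.induction_on with
    | zero => rw [zpow_zero]; refine ⟨?_, ?_, ?_, ?_⟩ <;> simp
    | succ n ih =>
      rw [_root_.zpow_add_one]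
      exact hs _ _ _ _ ih (by simpa using h1)
    | pred n ih =>
      rw [sub_eq_add_neg, _root_.zpow_add, _root_.zpow_neg_one]
      exact hs _ _ _ _ ih hi
  have hcase : ∀ γ ∈ Gamma0 N, ¬ (q : ℤ) ∣ γ 1 1 → γ ∈ K := by
    intro γ hγ hd
    obtain ⟨c, hc⟩ := mem_Gamma0.1 hγ
    have hqp : Prime (q : ℤ) := Nat.prime_iff_prime_int.1 hq
    obtain ⟨t, ht⟩ : ∃ t : ℤ, (q : ℤ) ∣ c + γ 1 1 * t := by
      have hco : IsCoprime (γ 1 1) (q : ℤ) := ((hqp.coprime_iff_not_dvd).2 hd).symm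
      obtain ⟨u, v, huv⟩ := hco
      refine ⟨-(c * u), ⟨c * v, ?_⟩⟩
      linear_combination (-c) * huv
    have h2 : γ * γ₁ ^ t ∈ Gamma0 (N * q) := by
      obtain ⟨w, hw⟩ := ht
      obtain ⟨a1, a2, a3, a4⟩ := hpow t
      rw [mem_Gamma0]
      have : (γ * γ₁ ^ t) 1 0 = N * (c + γ 1 1 * t) := by
        rw [Matrix.SpecialLinearGroup.coe_mul, Matrix.mul_apply, Fin.sum_univ_two, a1, a3, hc]
        ring
      rw [this, hw]
      exact ⟨w, by push_cast; ring⟩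
    have h3 : γ = (γ * γ₁ ^ t) * (γ₁ ^ t)⁻¹ := by group
    rw [h3]
    exact K.mul_mem (hK0 _ h2) (K.inv_mem (K.zpow_mem hinv t))
  have hall : ∀ γ ∈ Gamma0 N, γ ∈ K := by
    intro γ hγ
    by_cases hd : (q : ℤ) ∣ γ 1 1
    swap
    · exact hcase γ hγ hd
    have hT : ModularGroup.T ∈ Gamma0 (N * q) := by
      rw [mem_Gamma0, ModularGroup.coe_T]; simp
    have hT' : ModularGroup.T ∈ Gamma0 N := by
      rw [mem_Gamma0, ModularGroup.coe_T]; simp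
    have h4 : ¬ (q : ℤ) ∣ (γ * ModularGroup.T) 1 1 := by
      have : (γ * ModularGroup.T) 1 1 = γ 1 0 + γ 1 1 := by
        rw [Matrix.SpecialLinearGroup.coe_mul, Matrix.mul_apply, Fin.sum_univ_two,
          ModularGroup.coe_T]
        simp
      rw [this]
      intro h5
      have h6 : (q : ℤ) ∣ γ 1 0 := (dvd_add_left hd).1 h5
      have h7 : (q : ℤ) ∣ 1 := by
        rw [← det_SL γ]
        exact dvd_sub (Dvd.dvd.mul_left hd _) (Dvd.dvd.mul_left h6 _)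
      have := Int.natAbs_dvd_natAbs.2 h7
      simp at this
      exact hq.one_lt.ne' this
    have h5 := hcase _ (mul_mem hγ hT') h4
    have h6 : γ = (γ * ModularGroup.T) * ModularGroup.T⁻¹ := by group
    rw [h6]
    exact K.mul_mem h5 (K.inv_mem (hK0 _ hT))
  exact SZ_of_inSym ⟨fun a b c => hz.1 a b c, fun γ hγ => by
    funext a b
    exact hall γ hγ a b⟩

theorem Uz_mem (hq : q.Prime) {x : P1 → P1 → A} (hx : x ∈ SZ A N) (hqN : q ∣ N) :
    Uz A hq x ∈ SZ A N := Sy.uop (one_dvd _) hq hqN hx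

end

theorem omSat : OmSatSt := by
  intro N q hN hq hqN A _ hqA x hx h l hl hlN
  set z := Uz A hq x with hz
  have hzm : z ∈ SZ A (N * q) := Uz_mem hq (SZ_mono (dvd_mul_right _ _) hx) (dvd_mul_left _ _)
  have h1 : (q : ℤ) • x = Bz A hq z := by
    have h2 : iz A hq x = (q : ℤ) • x - Bz A hq z := by
      rw [iz, LinearMap.add_apply, LinearMap.sub_apply, LinearMap.smul_apply, LinearMap.id_apply,
        LinearMap.comp_apply, LinearMap.comp_apply, Tz, LinearMap.add_apply, map_add]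
      abel
    rw [h2, sub_eq_zero] at h
    exact h
  have hBz : ∀ a b, z (Di q hq.ne_zero • a) (Di q hq.ne_zero • b) = (q : ℤ) • x a b := fun a b => by
    have := congrFun (congrFun h1 a) b
    exact this.symm
  obtain ⟨γ₁, e1, e2, e3, e4⟩ := exists_SL 1 0 N 1 (by ring)
  obtain ⟨γ₂, f1, f2, f3, f4⟩ := exists_SL 1 0 (q * N) 1 (by ring)
  have hconj : io γ₁ * Di q hq.ne_zero = Di q hq.ne_zero * io γ₂ := by
    refine ((ent_io γ₁).mul (ent_Di q hq.ne_zero)).ext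
      (((ent_Di q hq.ne_zero).mul (ent_io γ₂)).congr ?_ ?_ ?_ ?_)
    · rw [e1, e2, f1, f3]; push_cast; ring
    · rw [e1, e2, f2, f4]; push_cast; ring
    · rw [e3, e4, f1, f3]; push_cast; ring
    · rw [e3, e4, f2, f4]; push_cast; ring
  have hγ₂ : γ₂ ∈ Gamma0 N := mem_Gamma0.2 (by rw [f3]; exact dvd_mul_left _ _)
  have hinv : ∀ a b, z (io γ₁ • a) (io γ₁ • b) = z a b := by
    intro a b
    have ha : a = Di q hq.ne_zero • (Di q hq.ne_zero)⁻¹ • a := (smul_inv_smul _ _).symm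
    have hb : b = Di q hq.ne_zero • (Di q hq.ne_zero)⁻¹ • b := (smul_inv_smul _ _).symm
    rw [ha, hb, ← mul_smul (io γ₁), ← mul_smul (io γ₁), hconj, mul_smul, mul_smul (Di q _) (io γ₂),
      hBz, hBz, SZ_inv hx hγ₂]
  have hz0 : z ∈ SZ A N := SZ_lower hq hqN hzm ⟨e1, e2, e3, e4⟩ hinv
  obtain ⟨M', hM', H⟩ := omTwo N q hN hq hqN A ((q : ℤ) • x) (Submodule.smul_mem _ _ hx) (-z)
    (Submodule.neg_mem _ hz0) (by rw [h1, map_neg, add_neg_cancel]) l hl hlN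
  refine ⟨M', hM', fun l' hl' h2 => ?_⟩
  have h3 := H l' hl' h2
  rw [map_smul] at h3
  funext a b
  have h4 := congrFun (congrFun h3 a) b
  apply hqA.1
  show q • _ = q • (0 : A)
  rw [smul_zero, ← natCast_zsmul]
  exact h4

end Fermat.Agent.RT.Om
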