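import Fermat.Agent.RT.OmT
import Fermat.Agent.RT.OmSat
import Fermat.Agent.RT.OmFinSt

/-!
# The stabilisation: basic identities
-/

set_option autoImplicit false
set_option linter.unusedSectionVars false
set_option linter.style.haveILetI false

noncomputable section

namespace Fermat.Agent.RT.Om

open Matrix CongruenceSubgroup MvPolynomial Fermat.Agent.TWCoh
open scoped MatrixGroups OnePoint

section

variable {A : Type*} [AddCommGroup A] {N q : ℕ}

theorem SZ_trInv {x : P1 → P1 → A} (hx : x ∈ SZ A N) : TrInv x := Sy.trInv hx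

theorem Uz_Bz (hq : q.Prime) {x : P1 → P1 → A} (hx : TrInv x) :
    Uz A hq (Bz A hq x) = (q : ℤ) • x := by
  funext a b
  have h : ∀ (j : ℕ) (c : P1), Di q hq.ne_zero • Up q hq.ne_zero (j : ℤ) • c = Tr (j : ℤ) • c := by
    intro j c
    rw [← mul_smul, Di_mul_Up_self, mul_smul]
    refine scalar_smul (a := (q : ℚ)) (by exact_mod_cast hq.ne_zero) (ent_mk _ _ _ _ _) _
  show Uop ℤ A P1 q hq.ne_zero (Bop ℤ A P1 q hq.ne_zero x) a b = (q : ℤ) • x a b
  rw [Uop_apply]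
  have h2 : ∀ j ∈ Finset.range q, Bop ℤ A P1 q hq.ne_zero x (Up q hq.ne_zero (j : ℤ) • a)
      (Up q hq.ne_zero (j : ℤ) • b) = x a b := fun j _ => by
    rw [Bop_apply, h, h]
    exact hx j a b
  rw [Finset.sum_congr rfl h2, Finset.sum_const, Finset.card_range, natCast_zsmul]

theorem iz_eq (hq : q.Prime) (x : P1 → P1 → A) : iz A hq x = (q : ℤ) • x - Bz A hq (Uz A hq x) := by
  rw [iz, LinearMap.add_apply, LinearMap.sub_apply, LinearMap.smul_apply, LinearMap.id_apply,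
    LinearMap.comp_apply, LinearMap.comp_apply, Tz, LinearMap.add_apply, map_add]
  abel

theorem Uz_iz (hq : q.Prime) {x : P1 → P1 → A} (hx : TrInv x) : Uz A hq (iz A hq x) = 0 := by
  rw [iz_eq, map_sub, map_smul, Uz_Bz hq (hx.uop hq.ne_zero), sub_self]

theorem Uz_comm {l : ℕ} (hl : l.Prime) (hq : q.Prime) (x : P1 → P1 → A) :
    Uz A hl (Uz A hq x) = Uz A hq (Uz A hl x) := Uop_comm _ _ x

theorem Bz_comm {l : ℕ} (hl : l.Prime) (hq : q.Prime) (x : P1 → P1 → A) :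
    Bz A hl (Bz A hq x) = Bz A hq (Bz A hl x) := Bop_comm _ _ x

theorem Uz_Bz_comm {l : ℕ} (hl : l.Prime) (hq : q.Prime) (h : l ≠ q) {x : P1 → P1 → A}
    (hx : TrInv x) : Uz A hl (Bz A hq x) = Bz A hq (Uz A hl x) :=
  hx.uop_bop _ _ ((Nat.coprime_primes hl hq).2 h)

theorem Uz_iz_comm {l : ℕ} (hl : l.Prime) (hq : q.Prime) (h : l ≠ q) {x : P1 → P1 → A}
    (hx : TrInv x) : Uz A hl (iz A hq x) = iz A hq (Uz A hl x) := by
  rw [iz_eq, iz_eq, map_sub, map_smul, Uz_Bz_comm hl hq h (hx.uop _), Uz_comm hl hq]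

theorem Bz_iz_comm {l : ℕ} (hl : l.Prime) (hq : q.Prime) (h : l ≠ q) {x : P1 → P1 → A}
    (hx : TrInv x) : Bz A hl (iz A hq x) = iz A hq (Bz A hl x) := by
  rw [iz_eq, iz_eq, map_sub, map_smul, Uz_Bz_comm hq hl h.symm hx, Bz_comm hl hq]

theorem Tz_iz {l : ℕ} (hl : l.Prime) (hq : q.Prime) (h : l ≠ q) {x : P1 → P1 → A}
    (hx : TrInv x) : Tz A hl (iz A hq x) = iz A hq (Tz A hl x) := by
  rw [Tz, LinearMap.add_apply, LinearMap.add_apply, map_add, Uz_iz_comm hl hq h hx,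
    Bz_iz_comm hl hq h hx]

theorem Tz_Uz {l : ℕ} (hl : l.Prime) (hq : q.Prime) (h : l ≠ q) {x : P1 → P1 → A}
    (hx : TrInv x) : Tz A hl (Uz A hq x) = Uz A hq (Tz A hl x) := by
  rw [Tz, LinearMap.add_apply, LinearMap.add_apply, map_add, Uz_comm hl hq,
    Uz_Bz_comm hq hl h.symm hx]

theorem Tz_Bz {l : ℕ} (hl : l.Prime) (hq : q.Prime) (h : l ≠ q) {x : P1 → P1 → A}
    (hx : TrInv x) : Tz A hl (Bz A hq x) = Bz A hq (Tz A hl x) := by
  rw [Tz, LinearMap.add_apply, LinearMap.add_apply, map_add, Bz_comm hl hq,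
    Uz_Bz_comm hl hq h hx]

/-- change of coefficients -/
def cm {A' : Type*} [AddCommGroup A'] (g : A →+ A') (x : P1 → P1 → A) : P1 → P1 → A' :=
  fun a b => g (x a b)

variable {A' : Type*} [AddCommGroup A'] (g : A →+ A')

theorem cm_mem {x : P1 → P1 → A} (hx : x ∈ SZ A N) : cm g x ∈ SZ A' N :=
  mem_SZ.2 ⟨fun a b c => by rw [cm, cm, cm, ← map_add, hx.1], fun γ hγ a b => by
    rw [cm, cm, SZ_inv hx hγ]⟩

theorem cm_Uz (hq : q.Prime) (x : P1 → P1 → A) : cm g (Uz A hq x) = Uz A' hq (cm g x) := by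
  funext a b
  show g (Uop ℤ A P1 q hq.ne_zero x a b) = Uop ℤ A' P1 q hq.ne_zero (cm g x) a b
  rw [Uop_apply, Uop_apply, map_sum]
  rfl

theorem cm_Bz (hq : q.Prime) (x : P1 → P1 → A) : cm g (Bz A hq x) = Bz A' hq (cm g x) := rfl

theorem cm_add (x y : P1 → P1 → A) : cm g (x + y) = cm g x + cm g y := by
  funext a b
  exact map_add g _ _

theorem cm_sub (x y : P1 → P1 → A) : cm g (x - y) = cm g x - cm g y := by
  funext a b
  exact map_sub g _ _

theorem cm_zsmul (n : ℤ) (x : P1 → P1 → A) : cm g (n • x) = n • cm g x := by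
  funext a b
  exact map_zsmul g n _

theorem cm_Tz (hq : q.Prime) (x : P1 → P1 → A) : cm g (Tz A hq x) = Tz A' hq (cm g x) := by
  rw [Tz, Tz, LinearMap.add_apply, LinearMap.add_apply, cm_add, cm_Uz, cm_Bz]

theorem cm_iz (hq : q.Prime) (x : P1 → P1 → A) : cm g (iz A hq x) = iz A' hq (cm g x) := by
  rw [iz_eq, iz_eq, cm_sub, cm_zsmul, cm_Bz, cm_Uz]

/-! ### Fricke -/

theorem frz_mul (hN : N ≠ 0) (hq : q.Prime) (h : N * q ≠ 0) (x : P1 → P1 → A) :
    frz h x = Bz A hq (frz hN x) := by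
  have h1 : Wf (N * q) h = Wf N hN * Di q hq.ne_zero :=
    ((ent_Wf _ h).congr (by ring) (by ring) (by push_cast; ring) (by ring)).ext
      ((ent_Wf N hN).mul (ent_Di q hq.ne_zero))
  funext a b
  show x (Wf (N * q) h • a) (Wf (N * q) h • b) =
    x (Wf N hN • Di q hq.ne_zero • a) (Wf N hN • Di q hq.ne_zero • b)
  rw [h1, mul_smul, mul_smul]

theorem frz_Bz (hN : N ≠ 0) (hq : q.Prime) (h : N * q ≠ 0) (x : P1 → P1 → A) :
    frz h (Bz A hq x) = frz hN x := by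
  have h1 : Di q hq.ne_zero * Wf (N * q) h = mk q 0 0 q (by simpa using hq.ne_zero) * Wf N hN :=
    (((ent_Di q hq.ne_zero).mul (ent_Wf _ h)).congr (by ring) (by ring) (by push_cast; ring)
      (by ring)).ext ((ent_mk _ _ _ _ _).mul (ent_Wf N hN))
  have h2 : ∀ c : P1, Di q hq.ne_zero • Wf (N * q) h • c = Wf N hN • c := fun c => by
    rw [← mul_smul, h1, mul_smul]
    exact scalar_smul (a := (q : ℚ)) (by exact_mod_cast hq.ne_zero) (ent_mk _ _ _ _ _) _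
  funext a b
  show x (Di q hq.ne_zero • Wf (N * q) h • a) (Di q hq.ne_zero • Wf (N * q) h • b) = _
  rw [h2, h2]
  rfl

theorem SZ_frz (hN : N ≠ 0) {x : P1 → P1 → A} (hx : x ∈ SZ A N) : frz hN x ∈ SZ A N :=
  SZ_of_inSym (inSym_frz hN (inSym_of_SZ hx))

theorem SZ_Bz (hq : q.Prime) {x : P1 → P1 → A} (hx : x ∈ SZ A N) : Bz A hq x ∈ SZ A (N * q) := by
  refine mem_SZ.2 ⟨fun a b c => hx.1 _ _ _, fun γ hγ a b => ?_⟩
  obtain ⟨c, hc⟩ := mem_Gamma0.1 hγ
  have hdet := det_SL γ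
  obtain ⟨δ, h1, h2, h3, h4⟩ := exists_SL (γ 0 0) (q * γ 0 1) (N * c) (γ 1 1) (by
    rw [hc] at hdet
    push_cast at hdet
    linear_combination hdet)
  have h5 : Di q hq.ne_zero * io γ = io δ * Di q hq.ne_zero := by
    refine ((ent_Di q hq.ne_zero).mul (ent_io γ)).ext
      (((ent_io δ).mul (ent_Di q hq.ne_zero)).congr ?_ ?_ ?_ ?_)
    · rw [h1, h2]; ring
    · rw [h1, h2]; push_cast; ring
    · rw [h3, h4, hc]; push_cast; ring
    · rw [h3, h4]; push_cast; ring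
  show x (Di q hq.ne_zero • io γ • a) (Di q hq.ne_zero • io γ • b) = _
  rw [← mul_smul, ← mul_smul, h5, mul_smul, mul_smul,
    SZ_inv hx (mem_Gamma0.2 (by rw [h3]; exact dvd_mul_right _ _))]
  rfl

theorem SZ_Tz {l : ℕ} (hl : l.Prime) (hlN : ¬ l ∣ N) {x : P1 → P1 → A} (hx : x ∈ SZ A N) :
    Tz A hl x ∈ SZ A N := by
  have h1 := Sy.hk (one_dvd _) hl hx
  rwa [hk_of_not_dvd hl.ne_zero hlN, inv_one, one_dir_apply, one_smul] at h1

theorem SZ_Uz {q : ℕ} (hq : q.Prime) {x : P1 → P1 → A} (hx : x ∈ SZ A N) :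
    Uz A hq x ∈ SZ A (N * q) :=
  Sy.uop (one_dvd _) hq (dvd_mul_left _ _) (SZ_mono (dvd_mul_right _ _) hx)

theorem SZ_iz (hq : q.Prime) {x : P1 → P1 → A} (hx : x ∈ SZ A N) :
    iz A hq x ∈ SZ A (N * q * q) := by
  rw [iz_eq]
  refine Submodule.sub_mem _ (Submodule.smul_mem _ _ (SZ_mono ⟨q * q, by ring⟩ hx)) ?_
  exact SZ_Bz hq (SZ_Uz hq hx)

/-- the Fricke involution of the stabilisation -/
theorem frz_iz (hN : N ≠ 0) (hq : q.Prime) (hqN : ¬ q ∣ N) (h1 : N * q ≠ 0) (h2 : N * q * q ≠ 0)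
    {x : P1 → P1 → A} (hx : x ∈ SZ A N) :
    frz h2 (iz A hq x) = frz hN x -
      Bz A hq (Tz A hq (frz hN x) - (q : ℤ) • Bz A hq (frz hN x)) := by
  have e0 : ∀ u v : P1 → P1 → A, frz h2 (u + v) = frz h2 u + frz h2 v := fun _ _ => rfl
  have e1 : ∀ u v : P1 → P1 → A, frz h2 (u - v) = frz h2 u - frz h2 v := fun _ _ => rfl
  have e2 : ∀ (n : ℤ) (u : P1 → P1 → A), frz h2 (n • u) = n • frz h2 u := fun _ _ => rfl
  rw [iz, LinearMap.add_apply, LinearMap.sub_apply, LinearMap.smul_apply, LinearMap.id_apply,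
    LinearMap.comp_apply, LinearMap.comp_apply, e0, e1, e2, frz_mul h1 hq h2, frz_mul hN hq h1,
    frz_Bz h1 hq h2, frz_mul hN hq h1, frz_Bz h1 hq h2, frz_Bz hN hq h1,
    ← Tz_frz hN hq hqN (inSym_of_SZ hx), map_sub, map_smul]
  abel

end

end Fermat.Agent.RT.Om
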