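import Fermat.Agent.RT.OmB

/-!
# Perfectness on the part killed by `U_q`
-/

set_option autoImplicit false
set_option linter.unusedSectionVars false
set_option linter.style.haveILetI false

noncomputable section

namespace Fermat.Agent.RT.Om

open Matrix CongruenceSubgroup MvPolynomial Fermat.Agent.TWCoh
open scoped MatrixGroups OnePoint

/-- `U_q` lowers the level -/
theorem SZ_Ulow {A : Type*} [AddCommGroup A] {N q : ℕ} (hq : q.Prime) (hqN : q ∣ N)
    {x : P1 → P1 → A} (hx : x ∈ SZ A (N * q)) : Uz A hq x ∈ SZ A N := by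
  refine mem_SZ.2 ⟨fun a b c => ?_, fun γ hγ a b => ?_⟩
  · show Uop ℤ A P1 q hq.ne_zero x a b + Uop ℤ A P1 q hq.ne_zero x b c =
      Uop ℤ A P1 q hq.ne_zero x a c
    rw [Uop_apply, Uop_apply, Uop_apply, ← Finset.sum_add_distrib]
    exact Finset.sum_congr rfl fun j _ => hx.1 _ _ _
  · obtain ⟨σ, δ, hδ, h1, h2⟩ := exists_perm_U hq hqN hγ
    show Uop ℤ A P1 q hq.ne_zero x (io γ • a) (io γ • b) = Uop ℤ A P1 q hq.ne_zero x a b
    simp only [Uop_apply]
    rw [Finset.sum_range, Finset.sum_range]
    conv_rhs => rw [← Equiv.sum_comp σ]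
    refine Finset.sum_congr rfl fun i _ => ?_
    have h3 : δ i ∈ Gamma0 (N * q) := by
      obtain ⟨-, -, h4, -⟩ := ((ent_Up q hq.ne_zero (i : ℕ)).mul (ent_io γ)).inj
        (by rw [h1 i]; exact (ent_io (δ i)).mul (ent_Up q hq.ne_zero (σ i : ℕ)))
      have h5 : (q : ℤ) * γ 1 0 = δ i 1 0 := by
        have : (((q : ℤ) * γ 1 0 : ℤ) : ℚ) = ((δ i 1 0 : ℤ) : ℚ) := by push_cast; linarith
        exact_mod_cast this
      rw [mem_Gamma0, ← h5]
      push_cast
      rw [mul_comm]
      exact mul_dvd_mul_left _ (mem_Gamma0.1 hγ)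
    rw [← mul_smul, ← mul_smul, h1 i, mul_smul, mul_smul, SZ_inv hx h3]

/-- a lemma on determinants -/
theorem surj_of_inj_mod {O : Type} [CommRing O] [IsDomain O] [IsDiscreteValuationRing O] {ϖ : O}
    (hϖ : Irreducible ϖ) {M : Type*} [AddCommGroup M] [Module O M] [Module.Finite O M]
    [Module.Free O M] (U : M →ₗ[O] M) (h : ∀ x, (∃ y, U x = ϖ • y) → ∃ y, x = ϖ • y) :
    Function.Bijective U := by
  classical
  set b := Module.finBasis O M with hb
  set A := LinearMap.toMatrix b b U with hA
  have hmax : ∀ a : O, IsLocalRing.residue O a = 0 ↔ ∃ c, a = ϖ * c := by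
    intro a
    rw [IsLocalRing.residue_eq_zero_iff, hϖ.maximalIdeal_eq, Ideal.mem_span_singleton']
    constructor
    · rintro ⟨c, rfl⟩; exact ⟨c, mul_comm _ _⟩
    · rintro ⟨c, rfl⟩; exact ⟨c, mul_comm _ _⟩
  have hdet : IsUnit A.det := by
    by_contra hcon
    have h1 : IsLocalRing.residue O A.det = 0 := by
      rw [IsLocalRing.residue_eq_zero_iff]; exact hcon
    rw [RingHom.map_det] at h1
    obtain ⟨v, hv, hv'⟩ := Matrix.exists_mulVec_eq_zero_iff.2 h1
    choose w hw using fun i => IsLocalRing.residue_surjective (R := O) (v i)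
    have h2 : ∀ i, IsLocalRing.residue O ((A.mulVec w) i) = 0 := by
      intro i
      have h3 := congrFun hv' i
      rw [Matrix.mulVec, dotProduct] at h3 ⊢
      rw [map_sum]
      refine Eq.trans ?_ h3
      refine Finset.sum_congr rfl fun j _ => ?_
      rw [map_mul, hw]
      rfl
    choose y hy using fun i => (hmax _).1 (h2 i)
    obtain ⟨z, hz⟩ := h (∑ i, w i • b i) ⟨∑ i, y i • b i, by
      have h4 : U (∑ i, w i • b i) = ∑ i, (A.mulVec w) i • b i := by
        have h5 := LinearMap.toMatrix_mulVec_repr b b U (∑ i, w i • b i)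
        have h6 : (b.repr (∑ i, w i • b i) : Fin _ → O) = w := by
          funext i
          simp [Finsupp.single_apply]
        rw [h6] at h5
        rw [← hA] at h5
        rw [h5]
        exact (b.sum_repr _).symm
      rw [h4, Finset.smul_sum]
      refine Finset.sum_congr rfl fun i _ => ?_
      rw [hy, mul_smul]⟩
    apply hv
    funext i
    rw [← hw]
    have h7 := congrArg (fun t => b.repr t i) hz
    have h8 : b.repr (∑ i, w i • b i) i = w i := by simp [Finsupp.single_apply]
    simp only [map_smul, Finsupp.smul_apply, smul_eq_mul] at h7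
    rw [h8] at h7
    exact (hmax _).2 ⟨_, h7⟩
  have h1 : IsUnit U := by
    rw [LinearMap.isUnit_iff_isUnit_det, ← LinearMap.det_toMatrix b]
    exact hdet
  exact (Module.End.isUnit_iff U).1 h1

section

variable {O k : Type} [CommRing O] [Field k] [Algebra O k] {S : Set ℕ} {τ : PS S → k} {L : ℕ}

/-- from `SZ` to the module -/
def ofSZ {x : P1 → P1 → O} (hx : x ∈ SZ O L) : SO O L := ofSym (inSym_of_SZ hx)

theorem coe_ofSZ {x : P1 → P1 → O} (hx : x ∈ SZ O L) : (ofSZ hx).1 = x := rfl

theorem SO.mem (x : SO O L) : x.1 ∈ SZ O L := SZ_of_inSym (SO.inSym x)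

theorem SO.coe_smul (c : O) (x : SO O L) : (c • x).1 = fun a b => c * x.1 a b := rfl

theorem SO.coe_add (x y : SO O L) : (x + y).1 = x.1 + y.1 := rfl

theorem SO.coe_sub (x y : SO O L) : (x - y).1 = x.1 - y.1 := rfl

/-- multiplication by a scalar as a change of coefficients -/
theorem coe_smul_cm (c : O) (x : SO O L) : (c • x).1 = cm (AddMonoidHom.mulLeft c) x.1 := rfl

/-- the operator `U_q` on the module (`q ∣ L`) -/
theorem opr_eq_Uz {q : ℕ} (hq : q.Prime) (hqL : q ∣ L) (x : SO O L) :
    (opr (one_dvd L) (1 : DirichletCharacter O 1) O hq x).1 = Uz O hq x.1 := by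
  show hk (1 : DirichletCharacter O 1) O P1 L q hq.ne_zero x.1 = _
  rw [hk_of_dvd _ hqL]
  rfl

instance [IsDomain O] [IsPrincipalIdealRing O] [NeZero L] : Module.Finite O (SO O L) :=
  inferInstance

instance SO.isTorsionFree [IsDomain O] : Module.IsTorsionFree O (SO O L) := by
  refine Module.IsTorsionFree.of_smul_eq_zero fun c x h => ?_
  by_cases hc : c = 0
  · exact Or.inl hc
  · right
    apply Subtype.ext
    funext a b
    have h1 : c * x.1 a b = 0 := congrFun (congrFun (congrArg Subtype.val h) a) b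
    exact (mul_eq_zero.1 h1).resolve_left hc

instance SO.free [IsDomain O] [IsPrincipalIdealRing O] [NeZero L] : Module.Free O (SO O L) :=
  inferInstance

end

end Fermat.Agent.RT.Om
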