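import Fermat.Agent.TWCoh.Package2
import Fermat.Agent.LR.Isec
import Fermat.Agent.Newform.Basis
import Fermat.Agent.RT.NumSt

/-!
# The growth of the congruence module: definitions and statements
-/

set_option autoImplicit false

noncomputable section

namespace Fermat.Agent.RT

open Matrix CongruenceSubgroup Fermat.Agent.TWCoh
open scoped MatrixGroups

section Defs

variable (A : Type*) [AddCommGroup A]

/-- modular symbols of level `N` with values in an abelian group -/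
abbrev SZ (N : ℕ) : Submodule ℤ (P1 → P1 → A) := Sy (1 : DirichletCharacter ℤ 1) N A P1

/-- `U_q` -/
abbrev Uz {q : ℕ} (hq : q.Prime) : (P1 → P1 → A) →ₗ[ℤ] (P1 → P1 → A) := Uop ℤ A P1 q hq.ne_zero

/-- `B_q` -/
abbrev Bz {q : ℕ} (hq : q.Prime) : (P1 → P1 → A) →ₗ[ℤ] (P1 → P1 → A) := Bop ℤ A P1 q hq.ne_zero

/-- `T_q` -/
def Tz {q : ℕ} (hq : q.Prime) : (P1 → P1 → A) →ₗ[ℤ] (P1 → P1 → A) := Uz A hq + Bz A hq

/-- the stabilisation with `U_q = 0` -/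
def iz {q : ℕ} (hq : q.Prime) : (P1 → P1 → A) →ₗ[ℤ] (P1 → P1 → A) :=
  (q : ℤ) • LinearMap.id - Bz A hq ∘ₗ Tz A hq + Bz A hq ∘ₗ Bz A hq

/-- transport by any `d` -/
def Bdz {A : Type*} [AddCommGroup A] (d : ℕ) (φ : P1 → P1 → A) : P1 → P1 → A :=
  if h : d ≠ 0 then Bop ℤ A P1 d h φ else 0

end Defs

open Newform ModularFormClass in
/-- **(Om-Dec)** the structure of the eigenspaces in the complex modular symbols -/
def OmDecSt : Prop := ∀ (M : ℕ) [NeZero M] (f : S2 M), f.IsNewform → ∀ (L : ℕ) [NeZero L],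
  M ∣ L → ∀ D : ℕ, D ≠ 0 → L ∣ D → ∀ x ∈ SZ ℂ L,
  (∀ (l : ℕ) (hl : l.Prime), ¬ l ∣ D → Tz ℂ hl x = (fun a b => qCoeff f l * x a b)) →
  ∃ y : ℕ → (P1 → P1 → ℂ), (∀ d, y d ∈ SZ ℂ M) ∧
    (∀ d (l : ℕ) (hl : l.Prime), ¬ l ∣ M → Tz ℂ hl (y d) = (fun a b => qCoeff f l * y d a b)) ∧
    x = ∑ d ∈ (L / M).divisors, Bdz d (y d)

/-- **(Om-Sat)** Ihara's lemma for the stabilisation -/
def OmSatSt : Prop := ∀ (N q : ℕ), N ≠ 0 → ∀ (hq : q.Prime), ¬ q ∣ N → ∀ (A : Type) [AddCommGroup A],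
  Function.Bijective (fun a : A => q • a) → ∀ x ∈ SZ A N, iz A hq x = 0 →
  ∀ (l : ℕ) (hl : l.Prime), ¬ l ∣ N → ∃ M' : ℕ, M' ≠ 0 ∧ ∀ (l' : ℕ) (hl' : l'.Prime),
    l' ≡ 1 [MOD M'] →
    ((Tz A hl' - ((l' : ℤ) + 1) • LinearMap.id) ∘ₗ (Tz A hl' - ((l' : ℤ) + 1) • LinearMap.id) ∘ₗ
      (Tz A hl ∘ₗ Tz A hl - (((l : ℤ) + 1) ^ 2) • LinearMap.id)) x = 0

/-- **(Om-2)** independence of `x` and `B_q y` -/
def OmTwoSt : Prop := ∀ (N q : ℕ), N ≠ 0 → ∀ (hq : q.Prime), ¬ q ∣ N → ∀ (A : Type) [AddCommGroup A],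
  ∀ x ∈ SZ A N, ∀ y ∈ SZ A N, x + Bz A hq y = 0 →
  ∀ (l : ℕ) (hl : l.Prime), ¬ l ∣ N → ∃ M' : ℕ, M' ≠ 0 ∧ ∀ (l' : ℕ) (hl' : l'.Prime),
    l' ≡ 1 [MOD M'] →
    ((Tz A hl' - ((l' : ℤ) + 1) • LinearMap.id) ∘ₗ (Tz A hl' - ((l' : ℤ) + 1) • LinearMap.id) ∘ₗ
      (Tz A hl ∘ₗ Tz A hl - (((l : ℤ) + 1) ^ 2) • LinearMap.id)) x = 0

/-- **(Om-U)** `U_q` is injective at level `N q` -/
def OmUSt : Prop := ∀ (N q : ℕ), N ≠ 0 → ∀ (hq : q.Prime), ¬ q ∣ N → ∀ (A : Type) [AddCommGroup A],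
  Function.Injective (fun a : A => q • a) → ∀ x ∈ SZ A (N * q), Uz A hq x = 0 → x = 0

/-- **(Om-Tr)** the trace from level `N q²` to level `N` of `i x`, and of the intersection
symbols -/
def OmTrSt : Prop := ∀ (N q : ℕ), N ≠ 0 → ∀ (hq : q.Prime), ¬ q ∣ N →
  ∃ (ι : Type) (_ : Fintype ι) (g : ι → SL(2, ℤ)),
    (∀ (A : Type) [AddCommGroup A], ∀ x ∈ SZ A (N * q ^ 2),
      (fun a b => ∑ i, x (io (g i) • a) (io (g i) • b)) ∈ SZ A N) ∧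
    (∀ (A : Type) [AddCommGroup A], ∀ x ∈ SZ A N,
      (fun a b => ∑ i, iz A hq x (io (g i) • a) (io (g i) • b)) =
        ((q : ℤ) - 1) • (((q : ℤ) + 1) ^ 2 • x - Tz A hq (Tz A hq x))) ∧
    (∀ γ ∈ Gamma0 (N * q ^ 2), ∀ a b : P1,
      ∑ i, LR.iota (Gamma0 (N * q ^ 2)) γ (io (g i) • a) (io (g i) • b) =
        LR.iota (Gamma0 N) γ a b)

/-- **(Om-UI)** `U_q` of an intersection symbol -/
def OmUISt : Prop := ∀ (L q : ℕ), L ≠ 0 → ∀ (hq : q.Prime), q ∣ L → ∀ γ ∈ Gamma0 (L * q),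
  ∃ γ' ∈ Gamma0 L, (Di q hq.ne_zero * io γ = io γ' * Di q hq.ne_zero) ∧
    Uz ℤ hq (LR.iota (Gamma0 (L * q)) γ) = LR.iota (Gamma0 L) γ'

end Fermat.Agent.RT
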