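import Fermat.Agent.TWCoh.NewPt
import Fermat.Agent.TWCoh.NonZero
import Fermat.Agent.LR.Per2
import Fermat.Agent.RT.OmSt

/-!
# The structure of the eigenspaces in the complex modular symbols
-/

set_option autoImplicit false
set_option maxHeartbeats 400000

noncomputable section

namespace Fermat.Agent.RT

open Matrix CongruenceSubgroup Fermat.Agent.AnJac MvPolynomial Fermat.Agent.TWCoh
open ModularCurve ModularCurve.Period Fermat.Agent.EichlerShimura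
open Fermat.Agent.Newform (S2 GP Eig chi bset bL bfam)
open ModularFormClass (qCoeff)
open UpperHalfPlane ModularForm
open P2MW.S_ModularForm_heckeT_slash_eq_self_of_mem_Gamma0.ModularForm.HeckeSlashInvariance
open scoped MatrixGroups OnePoint ModularForm

namespace Om

/-- complex symbols -/
abbrev C1 (N : ℕ) (φ : P1 → P1 → ℂ) : Prop := CF (fun _ => (1 : ℂ)) N φ

theorem cf_iff {N : ℕ} {φ : P1 → P1 → ℂ} : φ ∈ SZ ℂ N ↔ C1 N φ := by
  constructor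
  · rintro ⟨h1, h2⟩
    refine ⟨h1, fun γ hγ x y => ?_⟩
    rw [h2 γ hγ x y, one_dir_apply, one_smul, one_smul]
  · rintro ⟨h1, h2⟩
    refine ⟨h1, fun γ hγ x y => ?_⟩
    rw [h2 γ hγ x y, one_dir_apply, one_smul, one_smul]

/-- the complex Hecke operator -/
abbrev TC {l : ℕ} (hl : l.Prime) : Module.End ℂ (P1 → P1 → ℂ) := tk (1 : ℂ) 1 ℂ l hl.ne_zero

theorem TC_eq {l : ℕ} (hl : l.Prime) (φ : P1 → P1 → ℂ) : TC hl φ = Tz ℂ hl φ := by
  rw [TC, tk_apply, one_smul, one_smul]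
  rfl

theorem C1.tinv {N : ℕ} {φ : P1 → P1 → ℂ} (h : C1 N φ) : TrInv φ := CF.trInv h rfl

theorem C1.TC {N : ℕ} {φ : P1 → P1 → ℂ} (h : C1 N φ) {l : ℕ} (hl : l.Prime) (hlN : ¬ l ∣ N) :
    C1 N (TC hl φ) := CF.tk (chF_one N) h hl hlN (by simp)

theorem TC_comm {φ : P1 → P1 → ℂ} (h : TrInv φ) {l m : ℕ} (hl : l.Prime) (hm : m.Prime) :
    TC hl (TC hm φ) = TC hm (TC hl φ) := by
  by_cases hlm : l = m
  · subst hlm; rfl
  have hco : l.Coprime m := (Nat.coprime_primes hl hm).mpr hlm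
  simp only [TC, tk_apply, one_smul, map_add]
  rw [Uop_comm hl.ne_zero hm.ne_zero, Bop_comm hl.ne_zero hm.ne_zero,
    h.uop_bop hl.ne_zero hm.ne_zero hco, h.uop_bop hm.ne_zero hl.ne_zero hco.symm]
  abel

/-- symbols with trivial periods are Eisenstein -/
theorem TC_of_hm_zero {N : ℕ} {φ : P1 → P1 → ℂ} (h : C1 N φ) (h0 : hm h = 0) {l : ℕ}
    (hl : l.Prime) (hl1 : (N : ℤ) ∣ l - 1) : TC hl φ = (1 + l : ℂ) • φ := by
  refine tk_one_of_trivial hl hl1 h fun γ hγ x => ?_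
  have h2 : φ ∞ (io γ • ∞) = 0 := DFunLike.congr_fun h0 (Additive.ofMul (⟨γ, hγ⟩ : Gamma0 N))
  have h3 := h.equi γ hγ ∞ x
  rw [one_smul] at h3
  rw [← h.add x ∞, ← h.add ∞ (io γ • ∞), h2, h3, zero_add, h.add, h.self]

theorem C1.sub {N : ℕ} {φ ψ : P1 → P1 → ℂ} (h : C1 N φ) (h' : C1 N ψ) : C1 N (φ - ψ) := by
  have : φ - ψ = φ + (-1 : ℂ) • ψ := by rw [neg_one_smul, sub_eq_add_neg]
  rw [this]
  exact h.add' (h'.smul _)

/-- **eigensymbols from eigenhomomorphisms** -/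
theorem exists_eigensymbol {M : ℕ} [NeZero M] {v : Additive (Gamma0 M) →+ ℂ}
    (hv : v ∈ NHA (Gamma0 M) ℂ) {a : ℕ → ℂ}
    (ha : ∀ l : ℕ, l.Prime → ¬ l ∣ M → MT M ℂ l v = a l • v) {l₀ : ℕ} (hl₀ : l₀.Prime)
    (hl₀1 : (M : ℤ) ∣ l₀ - 1) (hl₀M : ¬ l₀ ∣ M) (hne : a l₀ ≠ 1 + l₀) :
    ∃ (y : P1 → P1 → ℂ) (h : C1 M y), hm h = v ∧
      ∀ (l : ℕ) (hl : l.Prime), ¬ l ∣ M → TC hl y = a l • y := by
  obtain ⟨φ, hφ, hφv⟩ := exists_symbol (K := ℂ) hv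
  set c : ℂ := (a l₀ - (1 + l₀))⁻¹ with hc
  have hc0 : a l₀ - (1 + l₀) ≠ 0 := sub_ne_zero.mpr hne
  have hT : C1 M (TC hl₀ φ) := C1.TC hφ hl₀ hl₀M
  have hy : C1 M (c • (TC hl₀ φ - (1 + l₀ : ℂ) • φ)) := (C1.sub hT (hφ.smul _)).smul c
  refine ⟨c • (TC hl₀ φ - (1 + l₀ : ℂ) • φ), hy, ?_, ?_⟩
  · have h1 : hm hT = a l₀ • v := by rw [hm_tk hl₀ hl₀M hφ hT, hφv, ha l₀ hl₀ hl₀M]
    have h2 : hm hy = c • (hm hT - (1 + l₀ : ℂ) • hm hφ) := rfl
    rw [h2, h1, hφv, ← sub_smul, smul_smul, hc, inv_mul_cancel₀ hc0, one_smul]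
  · intro l hl hlM
    have hTl : C1 M (TC hl φ) := C1.TC hφ hl hlM
    have hψ : C1 M (TC hl φ - a l • φ) := C1.sub hTl (hφ.smul _)
    have h0 : hm hψ = 0 := by
      have h1 : hm hTl = a l • v := by rw [hm_tk hl hlM hφ hTl, hφv, ha l hl hlM]
      have h2 : hm hψ = hm hTl - a l • hm hφ := rfl
      rw [h2, h1, hφv, sub_self]
    have h3 := TC_of_hm_zero hψ h0 hl₀ hl₀1
    rw [map_sub, map_smul] at h3
    rw [map_smul, map_sub, map_smul, TC_comm (C1.tinv hφ) hl hl₀]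
    rw [smul_comm (a l) c]
    congr 1
    rw [smul_sub, smul_comm (a l) (1 + l₀ : ℂ)]
    rw [smul_sub] at h3
    linear_combination (exp := 1) h3

/-- the conjugate of an element of `Γ₀(L)` by `diag(d,1)` -/
theorem exists_conj {M L d : ℕ} (hd : d ≠ 0) (h : M * d ∣ L) {γ : SL(2, ℤ)} (hγ : γ ∈ Gamma0 L) :
    ∃ δ ∈ Gamma0 M, Di d hd * io γ = io δ * Di d hd := by
  have hγ' : γ ∈ Gamma0 (M * d) := mem_Gamma0.2 (dvd_trans (by exact_mod_cast h) (mem_Gamma0.1 hγ))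
  obtain ⟨e, he⟩ := mem_Gamma0.1 hγ'
  have hdet := det_SL γ
  push_cast at he
  obtain ⟨δ, h1, h2, h3, h4⟩ := exists_SL (γ 0 0) (d * γ 0 1) (M * e) (γ 1 1) (by
    rw [he] at hdet; linear_combination hdet)
  refine ⟨δ, mem_Gamma0.2 (by rw [h3]; exact dvd_mul_right _ _), ?_⟩
  refine (((ent_Di d hd).mul (ent_io γ))).ext (((ent_io δ).mul (ent_Di d hd)).congr ?_ ?_ ?_ ?_)
  · rw [h1, h2]; push_cast; ring
  · rw [h1, h2]; push_cast; ring
  · rw [h3, h4, he]; push_cast; ring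
  · rw [h3, h4]; push_cast; ring

theorem toR_Di {d : ℕ} (hd : d ≠ 0) : toR (Di d hd) = heckeDiagMatrix d := by
  have h1 := toR_RR d hd ∞
  rw [heckeRep_infty] at h1
  exact h1

theorem conj_real {d : ℕ} (hd : d ≠ 0) {γ δ : SL(2, ℤ)}
    (h : Di d hd * io γ = io δ * Di d hd) :
    heckeDiagMatrix d * gl γ = gl δ * heckeDiagMatrix d := by
  have h1 := congrArg toR h
  rwa [map_mul, map_mul, toR_Di, toR_io, toR_io] at h1

section Per

variable {M L : ℕ} [NeZero M] [NeZero L] {d : ℕ} (hd : d ≠ 0) (hML : M * d ∣ L)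
  {γ : SL(2, ℤ)} (hγ : γ ∈ Gamma0 L) {δ : SL(2, ℤ)} (hδ : δ ∈ Gamma0 M)
  (h : Di d hd * io γ = io δ * Di d hd)

include h in
theorem per_bd (v : S2 M) :
    periodLin L (bL M L d hd hML v) (Additive.ofMul ⟨γ, hγ⟩) =
      (d : ℂ)⁻¹ * periodLin M v (Additive.ofMul ⟨δ, hδ⟩) := by
  rw [periodLin_apply, periodLin_apply, Newform.coe_bL, Newform.Bd_eq hd]
  have hg : Good (⇑v ∣[(2 : ℤ)] heckeDiagMatrix d) := (isUT_heckeDiag hd).good (good_cusp v)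
  rw [symb_smul _ hg]
  congr 1
  have h2 := hecke_symb_of (ι := Unit) (A := fun _ => heckeDiagMatrix d)
    (fun _ => isUT_heckeDiag hd) (σ := id) (γ := γ)
    (γ' := fun _ => δ) (fun _ => conj_real hd h) (good_cusp v)
  rw [Fintype.sum_unique, Fintype.sum_unique] at h2
  exact h2

include h in
theorem per_bdc (v : S2 M) :
    charInvolution L ℂ ℂ (periodLin L (bL M L d hd hML v)) (Additive.ofMul ⟨γ, hγ⟩) =
      (d : ℂ)⁻¹ * charInvolution M ℂ ℂ (periodLin M v) (Additive.ofMul ⟨δ, hδ⟩) := by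
  rw [charInvolution_apply, charInvolution_apply,
    periodLin_apply, periodLin_apply, Newform.coe_bL, Newform.Bd_eq hd]
  have hg : Good (⇑v ∣[(2 : ℤ)] heckeDiagMatrix d) := (isUT_heckeDiag hd).good (good_cusp v)
  rw [symb_smul _ hg]
  congr 1
  have h2 := hecke_symb_conj (ι := Unit) (A := fun _ => heckeDiagMatrix d)
    (fun _ => isUT_heckeDiag hd) (σ := id) (γ := γ)
    (γ' := fun _ => δ) (fun _ => conj_real hd h) (good_cusp v)
  rw [Fintype.sum_unique, Fintype.sum_unique, J_heckeDiag_J hd] at h2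
  exact h2

include h in
theorem perPair_bd (u v : S2 M) :
    periodHomPair L (bL M L d hd hML u, bL M L d hd hML v) (Additive.ofMul ⟨γ, hγ⟩) =
      (d : ℂ)⁻¹ * periodHomPair M (u, v) (Additive.ofMul ⟨δ, hδ⟩) := by
  rw [periodHomPair_apply, periodHomPair_apply]
  simp only [AddMonoidHom.add_apply, AddMonoidHom.sub_apply]
  rw [per_bd hd hML hγ hδ h, per_bd hd hML hγ hδ h, per_bdc hd hML hγ hδ h,
    per_bdc hd hML hγ hδ h]
  ring

end Per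

/-- the transport of a symbol -/
theorem C1.bdz {M L d : ℕ} (hd : d ≠ 0) (hML : M * d ∣ L) {y : P1 → P1 → ℂ} (hy : C1 M y) :
    C1 L (Bdz d y) := by
  have h0 : Bdz d y = Bop ℤ ℂ P1 d hd y := dif_pos hd
  rw [h0]
  constructor
  · intro a b c
    exact hy.add _ _ _
  · intro γ hγ a b
    obtain ⟨δ, hδ, hc⟩ := exists_conj hd hML hγ
    rw [Bop_apply, Bop_apply, ← mul_smul, ← mul_smul, hc, mul_smul, mul_smul, hy.equi δ hδ]

theorem hm_bdz {M L d : ℕ} (hd : d ≠ 0) (hML : M * d ∣ L) {y : P1 → P1 → ℂ} (hy : C1 M y)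
    (hy' : C1 L (Bdz d y)) {γ : SL(2, ℤ)} (hγ : γ ∈ Gamma0 L) {δ : SL(2, ℤ)} (hδ : δ ∈ Gamma0 M)
    (h : Di d hd * io γ = io δ * Di d hd) :
    hm hy' (Additive.ofMul ⟨γ, hγ⟩) = hm hy (Additive.ofMul ⟨δ, hδ⟩) := by
  have h0 : Bdz d y = Bop ℤ ℂ P1 d hd y := dif_pos hd
  rw [hm_apply, hm_apply]
  change Bdz d y ∞ (io γ • ∞) = y ∞ (io δ • ∞)
  rw [h0, Bop_apply, ← mul_smul, h, mul_smul]
  have h1 : Di d hd • (∞ : P1) = ∞ := by
    rw [OnePoint.smul_infty_eq_self_iff]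
    have := ent_Di d hd
    rw [Ent] at this
    rw [this]
    simp
  rw [h1]

theorem TC_bdz {d : ℕ} (hd : d ≠ 0) {y : P1 → P1 → ℂ} (hy : TrInv y) {l : ℕ} (hl : l.Prime)
    (hld : ¬ l ∣ d) : TC hl (Bdz d y) = Bdz d (TC hl y) := by
  have h0 : ∀ z : P1 → P1 → ℂ, Bdz d z = Bop ℂ ℂ P1 d hd z := fun z => dif_pos hd
  rw [h0, h0]
  have hco : l.Coprime d := (Nat.Prime.coprime_iff_not_dvd hl).mpr hld
  simp only [TC, tk_apply, one_smul, map_add]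
  rw [Bop_comm hl.ne_zero hd, hy.uop_bop hl.ne_zero hd hco]

theorem bdz_smul {d : ℕ} (c : ℂ) (y : P1 → P1 → ℂ) : Bdz d (c • y) = c • Bdz d y := by
  by_cases hd : d ≠ 0
  · have h0 : ∀ z : P1 → P1 → ℂ, Bdz d z = Bop ℂ ℂ P1 d hd z := fun z => dif_pos hd
    rw [h0, h0, map_smul]
  · have h0 : ∀ z : P1 → P1 → ℂ, Bdz d z = 0 := fun z => dif_neg hd
    rw [h0, h0, smul_zero]

theorem C1.sum {N : ℕ} {ι : Type} (s : Finset ι) {y : ι → (P1 → P1 → ℂ)} (h : ∀ i, C1 N (y i)) :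
    C1 N (∑ i ∈ s, y i) := by
  classical
  induction s using Finset.induction_on with
  | empty =>
    rw [Finset.sum_empty]
    exact ⟨fun _ _ _ => add_zero _, fun _ _ _ _ => (smul_zero _).symm⟩
  | insert a s ha ih =>
    rw [Finset.sum_insert ha]
    exact (h a).add' ih

end Om

open Om in
/-- **(Om-Dec)** the structure of the eigenspaces in the complex modular symbols -/
theorem omDec (M : ℕ) [NeZero M] (f : S2 M) (hf : f.IsNewform) (L : ℕ) [NeZero L]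
    (hML : M ∣ L) (D : ℕ) (hD : D ≠ 0) (hLD : L ∣ D)
    (hne : ∃ l₀ : ℕ, l₀.Prime ∧ (L : ℤ) ∣ (l₀ : ℤ) - 1 ∧ ¬ l₀ ∣ D ∧
      qCoeff f l₀ ≠ 1 + (l₀ : ℂ)) (x : P1 → P1 → ℂ) (hx : x ∈ SZ ℂ L)
    (hxT : ∀ (l : ℕ) (hl : l.Prime), ¬ l ∣ D → Tz ℂ hl x = (fun a b => qCoeff f l * x a b)) :
    ∃ y : ℕ → (P1 → P1 → ℂ), (∀ d, y d ∈ SZ ℂ M) ∧
      (∀ d (l : ℕ) (hl : l.Prime), ¬ l ∣ M → Tz ℂ hl (y d) = (fun a b => qCoeff f l * y d a b)) ∧
      x = ∑ d ∈ (L / M).divisors, Bdz d (y d) := by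
  obtain ⟨l₀, hl₀, hl₀1, hl₀D, hl₀a⟩ := hne
  have hl₀L : ¬ l₀ ∣ L := fun h => hl₀D (h.trans hLD)
  have hl₀M : ¬ l₀ ∣ M := fun h => hl₀L (h.trans hML)
  have hl₀1M : (M : ℤ) ∣ (l₀ : ℤ) - 1 := dvd_trans (by exact_mod_cast hML) hl₀1
  have hxc : C1 L x := cf_iff.mp hx
  -- eigenhomomorphisms
  have hNHA : ∀ u v : S2 M, periodHomPair M (u, v) ∈ NHA (Gamma0 M) ℂ := by
    intro u v
    have h1 : periodHomPair M (u, v) ∈ parabolicHoms ℂ (Gamma0 M) ℂ := by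
      rw [← (S21.result M).2]; exact ⟨_, rfl⟩
    intro γ hγ
    refine SL2Pres.eq_zero_of_trace_le (fun γ hγ => ?_) γ ((trace_sq_le_iff _).mpr hγ)
    exact mem_parabolicHoms_iff.mp h1 γ hγ
  have hMf : ∀ l : ℕ, (hl : l.Prime) → ¬ l ∣ M →
      DSLift.heckeOp M 2 hl f = qCoeff f l • f := fun l hl hlM =>
    Newform.mem_Eig.1 (Newform.mem_Eig_chi hf.1 M) ⟨l, hl, hlM⟩
  obtain ⟨y₁, hy₁, hy₁v, hy₁T⟩ := exists_eigensymbol (v := periodHomPair M (f, 0)) (hNHA f 0)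
    (a := fun l => qCoeff f l) (fun l hl hlM => by
      rw [← periodHomPair_heckeOp hl, hMf l hl hlM, map_zero]
      have : ((qCoeff f l • f, (0 : S2 M)) : S2 M × S2 M) = qCoeff f l • (f, 0) := by
        rw [Prod.smul_mk, smul_zero]
      rw [this, map_smul]) hl₀ hl₀1M hl₀M hl₀a
  obtain ⟨y₂, hy₂, hy₂v, hy₂T⟩ := exists_eigensymbol (v := periodHomPair M (0, f)) (hNHA 0 f)
    (a := fun l => qCoeff f l) (fun l hl hlM => by
      rw [← periodHomPair_heckeOp hl, hMf l hl hlM, map_zero]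
      have : (((0 : S2 M), qCoeff f l • f) : S2 M × S2 M) = qCoeff f l • (0, f) := by
        rw [Prod.smul_mk, smul_zero]
      rw [this, map_smul]) hl₀ hl₀1M hl₀M hl₀a
  -- the periods of `x`
  have hν : hm hxc ∈ NHA (Gamma0 L) ℂ := hm_mem_NHA hxc
  obtain ⟨⟨f₁, f₂⟩, hf12⟩ : hm hxc ∈ LinearMap.range (periodHomPair L) := by
    rw [(S21.result L).2, mem_parabolicHoms_iff]
    intro γ hγ
    exact hν γ ((trace_sq_le_iff _).mp hγ.le)
  have hxT' : ∀ (l : ℕ) (hl : l.Prime), ¬ l ∣ D → TC hl x = qCoeff f l • x := fun l hl hlD => by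
    rw [TC_eq, hxT l hl hlD]
    rfl
  have heig : ∀ {l : ℕ} (hl : l.Prime), ¬ l ∣ D →
      DSLift.heckeOp L 2 hl f₁ = qCoeff f l • f₁ ∧ DSLift.heckeOp L 2 hl f₂ = qCoeff f l • f₂ := by
    intro l hl hlD
    have hlL : ¬ l ∣ L := fun h => hlD (h.trans hLD)
    have h' : C1 L (TC hl x) := C1.TC hxc hl hlL
    have h1 := hm_tk hl hlL hxc h'
    have h2 : hm h' = qCoeff f l • hm hxc := by
      refine AddMonoidHom.ext fun γ => ?_
      show TC hl x ∞ _ = _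
      rw [hxT' l hl hlD]; rfl
    have h3 : periodHomPair L (DSLift.heckeOp L 2 hl f₁, DSLift.heckeOp L 2 hl f₂) =
        periodHomPair L (qCoeff f l • f₁, qCoeff f l • f₂) := by
      rw [periodHomPair_heckeOp, hf12, ← h1, h2, ← Prod.smul_mk, map_smul, hf12]
    have h4 := periodHomPair_injective h3
    exact ⟨congrArg Prod.fst h4, congrArg Prod.snd h4⟩
  have hspan : ∀ F : S2 L, (∀ {l : ℕ} (hl : l.Prime), ¬ l ∣ D →
      DSLift.heckeOp L 2 hl F = qCoeff f l • F) →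
      ∃ c : (L / M).divisors → ℂ, ∑ d, c d • bfam hML f d = F := by
    intro F hF
    have h1 : F ∈ Eig L D (chi f D) := Newform.mem_Eig.2 fun l => hF l.2.1 l.2.2
    rw [Newform.Eig_eq_span hf hD hLD, Newform.bset_eq_range hML] at h1
    exact (Submodule.mem_span_range_iff_exists_fun ℂ).mp h1
  obtain ⟨c₁, hc₁⟩ := hspan f₁ fun hl hlD => (heig hl hlD).1
  obtain ⟨c₂, hc₂⟩ := hspan f₂ fun hl hlD => (heig hl hlD).2
  -- the symbols
  let y : ℕ → (P1 → P1 → ℂ) := fun d => if h : d ∈ (L / M).divisors then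
    ((d : ℂ)⁻¹ * c₁ ⟨d, h⟩) • y₁ + ((d : ℂ)⁻¹ * c₂ ⟨d, h⟩) • y₂ else (0 : ℂ) • y₁
  have hyc : ∀ d, C1 M (y d) := by
    intro d
    simp only [y]
    split_ifs with h
    · exact (hy₁.smul _).add' (hy₂.smul _)
    · exact hy₁.smul _
  have hyT : ∀ d (l : ℕ) (hl : l.Prime), ¬ l ∣ M → TC hl (y d) = qCoeff f l • y d := by
    intro d l hl hlM
    simp only [y]
    split_ifs with h
    · rw [map_add, map_smul, map_smul, hy₁T l hl hlM, hy₂T l hl hlM, smul_add, smul_comm,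
        smul_comm (_ : ℂ) (qCoeff f l) y₂]
    · rw [map_smul, zero_smul, zero_smul, smul_zero]
  refine ⟨y, fun d => cf_iff.mpr (hyc d), fun d l hl hlM => ?_, ?_⟩
  · rw [← TC_eq, hyT d l hl hlM]
    rfl
  -- comparison
  have hdd : ∀ d : (L / M).divisors, (d : ℕ) ≠ 0 ∧ M * (d : ℕ) ∣ L := fun d =>
    (Newform.mem_divisors_iff hML).1 d.2
  have hBc : ∀ d : (L / M).divisors, C1 L (Bdz (d : ℕ) (y d)) := fun d =>
    C1.bdz (hdd d).1 (hdd d).2 (hyc d)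
  have hSc : C1 L (∑ d : (L / M).divisors, Bdz (d : ℕ) (y d)) := C1.sum _ hBc
  have hz : C1 L (x - ∑ d : (L / M).divisors, Bdz (d : ℕ) (y d)) := C1.sub hxc hSc
  have hz0 : hm hz = 0 := by
    refine AddMonoidHom.ext fun γ' => ?_
    change hm hz (Additive.ofMul (Additive.toMul γ')) = 0
    obtain ⟨γ, hγ⟩ := Additive.toMul γ'
    have e1 : hm hz (Additive.ofMul ⟨γ, hγ⟩) = hm hxc (Additive.ofMul ⟨γ, hγ⟩) -
        ∑ d : (L / M).divisors, hm (hBc d) (Additive.ofMul ⟨γ, hγ⟩) := by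
      change (x - ∑ d : (L / M).divisors, Bdz (d : ℕ) (y d)) ∞ (io γ • ∞) = x ∞ (io γ • ∞) -
        ∑ d : (L / M).divisors, Bdz (d : ℕ) (y d) ∞ (io γ • ∞)
      rw [Pi.sub_apply, Pi.sub_apply, Finset.sum_apply, Finset.sum_apply]
    have e2 : hm hxc (Additive.ofMul ⟨γ, hγ⟩) = ∑ d : (L / M).divisors,
        (c₁ d * periodHomPair L (bfam hML f d, 0) (Additive.ofMul ⟨γ, hγ⟩) +
          c₂ d * periodHomPair L (0, bfam hML f d) (Additive.ofMul ⟨γ, hγ⟩)) := by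
      have e3 : ((f₁, f₂) : S2 L × S2 L) = ∑ d : (L / M).divisors,
          (c₁ d • ((bfam hML f d, 0) : S2 L × S2 L) + c₂ d • ((0, bfam hML f d) : S2 L × S2 L)) := by
        rw [← hc₁, ← hc₂]
        apply Prod.ext
        · rw [Prod.fst_sum]
          simp
        · rw [Prod.snd_sum]
          simp
      rw [← hf12, e3, map_sum]
      simp only [map_add, map_smul]
      rw [AddMonoidHom.finsetSum_apply]
      rfl
    rw [e1, e2, ← Finset.sum_sub_distrib]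
    refine Finset.sum_eq_zero fun d _ => ?_
    obtain ⟨δ, hδ, hc⟩ := exists_conj (hdd d).1 (hdd d).2 hγ
    rw [hm_bdz (hdd d).1 (hdd d).2 (hyc d) (hBc d) hγ hδ hc]
    have e4 : periodHomPair L (bfam hML f d, 0) (Additive.ofMul ⟨γ, hγ⟩) =
        (d : ℂ)⁻¹ * hm hy₁ (Additive.ofMul ⟨δ, hδ⟩) := by
      have := perPair_bd (hdd d).1 (hdd d).2 hγ hδ hc f 0
      rw [map_zero] at this
      rw [hy₁v]
      exact this
    have e5 : periodHomPair L (0, bfam hML f d) (Additive.ofMul ⟨γ, hγ⟩) =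
        (d : ℂ)⁻¹ * hm hy₂ (Additive.ofMul ⟨δ, hδ⟩) := by
      have := perPair_bd (hdd d).1 (hdd d).2 hγ hδ hc 0 f
      rw [map_zero] at this
      rw [hy₂v]
      exact this
    have e6 : hm (hyc d) (Additive.ofMul ⟨δ, hδ⟩) =
        ((d : ℂ)⁻¹ * c₁ d) * hm hy₁ (Additive.ofMul ⟨δ, hδ⟩) +
        ((d : ℂ)⁻¹ * c₂ d) * hm hy₂ (Additive.ofMul ⟨δ, hδ⟩) := by
      change y d ∞ (io δ • ∞) = _
      simp only [y]
      rw [dif_pos d.2]
      rfl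
    rw [e4, e5, e6]
    ring
  have h1 := TC_of_hm_zero hz hz0 hl₀ hl₀1
  have h2 : TC hl₀ (x - ∑ d : (L / M).divisors, Bdz (d : ℕ) (y d)) =
      qCoeff f l₀ • (x - ∑ d : (L / M).divisors, Bdz (d : ℕ) (y d)) := by
    rw [map_sub, map_sum, hxT' l₀ hl₀ hl₀D, smul_sub, Finset.smul_sum]
    congr 1
    refine Finset.sum_congr rfl fun d _ => ?_
    rw [TC_bdz (hdd d).1 (C1.tinv (hyc d)) hl₀ (fun h => hl₀L (h.trans
      ((dvd_mul_left _ _).trans (hdd d).2))), hyT d l₀ hl₀ hl₀M, bdz_smul]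
  rw [h1] at h2
  have h3 : (qCoeff f l₀ - (1 + l₀ : ℂ)) • (x - ∑ d : (L / M).divisors, Bdz (d : ℕ) (y d)) = 0 := by
    rw [sub_smul, ← h2, sub_self]
  have h4 := (smul_eq_zero.mp h3).resolve_left (sub_ne_zero.mpr hl₀a)
  rw [sub_eq_zero.mp h4]
  exact Finset.sum_coe_sort (L / M).divisors (fun d => Bdz d (y d))

end Fermat.Agent.RT
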