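import Fermat.Agent.RT.OmC

/-!
# The projection to the part killed by `U_q`
-/

set_option autoImplicit false
set_option linter.unusedSectionVars false
set_option linter.style.haveILetI false

noncomputable section

namespace Fermat.Agent.RT.Om

open Matrix CongruenceSubgroup MvPolynomial Fermat.Agent.TWCoh
open scoped MatrixGroups OnePoint

section

variable {O k : Type} [CommRing O] [IsDomain O] [IsDiscreteValuationRing O]
  [IsAdicComplete (IsLocalRing.maximalIdeal O) O] [CharZero O] [Field k] [Algebra O k]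
  {S : Set ℕ} {τ : PS S → k} {L : ℕ} [NeZero L]

/-- division by a scalar inside a localised module -/
theorem loc_of_smul {m : Ideal (HA O S)} {e : HA O S} (he : LocData m (SO O L) e) {c : O}
    (hc : c ≠ 0) {x : SO O L} (hx : c • x ∈ loc m (SO O L)) : x ∈ loc m (SO O L) := by
  rw [he.mem_iff] at hx ⊢
  have h1 : c • (e • x - x) = 0 := by rw [smul_sub, sub_eq_zero, smul_comm, hx]
  exact sub_eq_zero.1 ((smul_eq_zero.1 h1).resolve_left hc)

/-- division of a symbol with divisible values -/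
theorem exists_div {c : O} (hc : c ≠ 0) {N : ℕ} {x : P1 → P1 → O} (hx : x ∈ SZ O N)
    (h : ∀ a b, ∃ y, x a b = c * y) : ∃ y ∈ SZ O N, x = fun a b => c * y a b := by
  choose y hy using h
  refine ⟨y, mem_SZ.2 ⟨fun a b d => mul_left_cancel₀ hc ?_, fun γ hγ a b =>
    mul_left_cancel₀ hc ?_⟩, funext fun a => funext fun b => hy a b⟩
  · rw [mul_add, ← hy, ← hy, ← hy, hx.1]
  · rw [← hy, ← hy, SZ_inv hx hγ]

theorem isUnit_cast (hOk : Function.Surjective (algebraMap O k)) {q : ℕ} (hq : (q : k) ≠ 0) :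
    IsUnit (q : O) := isUnit_of_image_ne_zero hOk (by rwa [map_natCast])

/-- `U_q` is bijective at level `L₁ q` -/
theorem exists_preU (hOk : Function.Surjective (algebraMap O k)) {e : HA O S}
    (he : LocData (evI O τ) (SO O L) e) {q L₁ : ℕ} (hq : q.Prime) (hqk : (q : k) ≠ 0)
    (hL : L = L₁ * q * q) (hqL : ¬ q ∣ L₁) (x : SO O L) (hx : x ∈ loc (evI O τ) (SO O L)) :
    ∃ u ∈ loc (evI O τ) (SO O L), u.1 ∈ SZ O (L₁ * q) ∧ Uz O hq u.1 = Uz O hq x.1 := by
  have hL0 : L₁ ≠ 0 := by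
    rintro rfl
    exact NeZero.ne L (by rw [hL]; ring)
  have hqdL : q ∣ L := ⟨L₁ * q, by rw [hL]; ring⟩
  have hqu : IsUnit (q : O) := isUnit_cast hOk hqk
  obtain ⟨ϖ, hϖ⟩ := IsDiscreteValuationRing.exists_irreducible O
  have hϖ0 := hϖ.ne_zero
  -- the module
  let Vq : Submodule O (SO O L) :=
    { carrier := {u | u ∈ loc (evI O τ) (SO O L) ∧ u.1 ∈ SZ O (L₁ * q)}
      add_mem' := fun {a b} ha hb => ⟨add_mem ha.1 hb.1, Submodule.add_mem _ ha.2 hb.2⟩
      zero_mem' := ⟨zero_mem _, Submodule.zero_mem _⟩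
      smul_mem' := fun c x hx => ⟨by
        have := Submodule.smul_mem (loc (evI O τ) (SO O L)) (C c) hx.1
        rwa [C_smul] at this, by
        rw [coe_smul_cm]; exact cm_mem _ hx.2⟩ }
  have hUmem : ∀ u ∈ loc (evI O τ) (SO O L),
      opr (one_dvd L) (1 : DirichletCharacter O 1) O hq u ∈ Vq := by
    intro u hu
    refine ⟨?_, ?_⟩
    · rw [mem_loc] at hu ⊢
      intro s hs
      obtain ⟨v, rfl⟩ := hu s hs
      exact ⟨opr (one_dvd L) (1 : DirichletCharacter O 1) O hq v, (opr_smul_comm hq s v).symm⟩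
    · rw [opr_eq_Uz hq hqdL]
      refine SZ_Ulow hq (dvd_mul_left _ _) ?_
      rw [← hL]; exact SO.mem u
  let U : Vq →ₗ[O] Vq :=
    ((opr (one_dvd L) (1 : DirichletCharacter O 1) O hq).domRestrict Vq).codRestrict Vq
      fun u => hUmem u.1 u.2.1
  have hU : ∀ u : Vq, (U u).1.1 = Uz O hq u.1.1 := fun u => opr_eq_Uz hq hqdL _
  have hbij : Function.Bijective U := by
    refine surj_of_inj_mod hϖ U fun u ⟨y, hy⟩ => ?_
    -- reduction
    let g : O →+ O ⧸ Ideal.span {ϖ} := (Ideal.Quotient.mk (Ideal.span {ϖ})).toAddMonoidHom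
    have hg : ∀ a : O, g a = 0 ↔ ∃ c, a = ϖ * c := fun a => by
      show Ideal.Quotient.mk _ a = 0 ↔ _
      rw [Ideal.Quotient.eq_zero_iff_mem, Ideal.mem_span_singleton]
      rfl
    have h1 : Uz (O ⧸ Ideal.span {ϖ}) hq (cm g u.1.1) = 0 := by
      rw [← cm_Uz, ← hU, hy]
      funext a b
      exact (hg _).2 ⟨y.1.1 a b, rfl⟩
    have h2 := omU L₁ q hL0 hq hqL (O ⧸ Ideal.span {ϖ}) (by
      obtain ⟨v, hv⟩ := hqu
      intro a b hab
      have h3 : ∀ c : O ⧸ Ideal.span {ϖ}, (Ideal.Quotient.mk _ (↑v⁻¹ : O)) * (q • c) = c := by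
        intro c
        rw [nsmul_eq_mul, ← mul_assoc, ← map_natCast (Ideal.Quotient.mk (Ideal.span {ϖ})), ← map_mul,
          ← hv, Units.inv_mul, map_one, one_mul]
      rw [← h3 a, ← h3 b]
      exact congrArg _ hab) (cm g u.1.1) (cm_mem g u.2.2) h1
    obtain ⟨w, hw, hw'⟩ := exists_div hϖ0 u.2.2 fun a b =>
      (hg _).1 (congrFun (congrFun h2 a) b)
    have hwL : w ∈ SZ O L := SZ_mono (by rw [hL]; exact dvd_mul_right _ _) hw
    have h4 : u.1 = ϖ • ofSZ hwL := Subtype.ext hw'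
    exact ⟨⟨ofSZ hwL, loc_of_smul he hϖ0 (h4 ▸ u.2.1), hw⟩, Subtype.ext h4⟩
  obtain ⟨u, hu⟩ := hbij.2 ⟨_, hUmem x hx⟩
  refine ⟨u.1, u.2.1, u.2.2, ?_⟩
  rw [← hU, hu]
  exact opr_eq_Uz hq hqdL x

/-- injectivity at level `L₁ q` -/
theorem Uz_inj (hOk : Function.Surjective (algebraMap O k)) {q L₁ : ℕ} (hL₁ : L₁ ≠ 0)
    (hq : q.Prime) (hqL : ¬ q ∣ L₁) {u : P1 → P1 → O} (hu : u ∈ SZ O (L₁ * q))
    (h : Uz O hq u = 0) : u = 0 := by
  refine omU L₁ q hL₁ hq hqL O (fun a b hab => ?_) u hu h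
  have h1 : (q : O) * a = (q : O) * b := by
    rw [← nsmul_eq_mul, ← nsmul_eq_mul]; exact hab
  exact mul_left_cancel₀ (Nat.cast_ne_zero.2 hq.ne_zero) h1

/-- the data at a level, weak form -/
structure Lev0 (O k : Type) [CommRing O] [Field k] [Algebra O k] (L : ℕ) (Q : Finset ℕ) :
    Prop where
  surj : Function.Surjective (algebraMap O k)
  two : (2 : k) ≠ 0
  lev : ∀ q ∈ Q, q.Prime ∧ (q : k) ≠ 0 ∧ ∃ L₁, L = L₁ * q * q ∧ ¬ q ∣ L₁

/-- the data at a level -/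
structure Lev (O : Type) {k : Type} [CommRing O] [Field k] [Algebra O k] {S : Set ℕ}
    (τ : PS S → k) (L : ℕ) (Q : Finset ℕ) : Prop extends Lev0 O k L Q where
  notdvd : ∀ l : PS S, ¬ l.1 ∣ L
  eis : ∃ l : PS S, l.1 ≡ 1 [MOD L] ∧ τ l ≠ 1 + l.1

variable {Q : Finset ℕ}

theorem Lev0.isUnit₂ (h : Lev0 O k L Q) : IsUnit (2 : O) :=
  isUnit_of_image_ne_zero h.surj (by rw [map_ofNat]; exact h.two)

variable (O S L) in
/-- the symbols of lower level -/
theorem exists_projq (hlev : Lev0 O k L Q) {e : HA O S} (he : LocData (evI O τ) (SO O L) e) {q : ℕ}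
    (hqQ : q ∈ Q) (hq : q.Prime) :
    ∃ P : loc (evI O τ) (SO O L) →ₗ[O] loc (evI O τ) (SO O L),
      (∀ x, Uz O hq (P x).1.1 = 0) ∧ (∀ x, Uz O hq x.1.1 = 0 → P x = x) ∧
      (∀ x, (x - P x).1.1 ∈ SZ O (L / q)) ∧
      (∀ q' ∈ Q, ∀ hq' : q'.Prime, ∀ x, Uz O hq' x.1.1 = 0 → Uz O hq' (P x).1.1 = 0) := by
  obtain ⟨-, hqk, L₁, hL, hqL⟩ := hlev.lev q hqQ
  have hL0 : L₁ ≠ 0 := by
    rintro rfl
    exact NeZero.ne L (by rw [hL]; ring)
  have hLq : L / q = L₁ * q := by rw [hL]; exact Nat.mul_div_cancel _ hq.pos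
  choose! u hu1 hu2 hu3 using fun (x : SO O L) (hx : x ∈ loc (evI O τ) (SO O L)) =>
    exists_preU hlev.surj he hq hqk hL hqL x hx
  have hinj : ∀ v w : SO O L, v.1 ∈ SZ O (L₁ * q) → w.1 ∈ SZ O (L₁ * q) →
      Uz O hq v.1 = Uz O hq w.1 → v = w := by
    intro v w hv hw h
    apply Subtype.ext
    rw [← sub_eq_zero]
    refine Uz_inj hlev.surj hL0 hq hqL (Submodule.sub_mem _ hv hw) ?_
    rw [map_sub, h, sub_self]
  have hUadd : ∀ v w : SO O L, Uz O hq (v + w).1 = Uz O hq v.1 + Uz O hq w.1 := fun v w =>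
    map_add (Uz O hq) v.1 w.1
  have hUsmul : ∀ (c : O) (v : SO O L), Uz O hq (c • v).1 = fun a b => c * Uz O hq v.1 a b :=
    fun c v => by rw [coe_smul_cm, ← cm_Uz]; rfl
  let P : loc (evI O τ) (SO O L) →ₗ[O] loc (evI O τ) (SO O L) :=
    { toFun := fun x => ⟨x.1 - u x.1, sub_mem x.2 (hu1 x.1 x.2)⟩
      map_add' := fun x y => by
        apply Subtype.ext
        show (x + y).1 - u (x + y).1 = (x.1 - u x.1) + (y.1 - u y.1)
        have h1 : u (x + y).1 = u x.1 + u y.1 := by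
          refine hinj _ _ (hu2 _ (x + y).2) (Submodule.add_mem _ (hu2 _ x.2) (hu2 _ y.2)) ?_
          rw [hu3 _ (x + y).2, hUadd, hu3 _ x.2, hu3 _ y.2, ← hUadd]
          rfl
        rw [h1]
        show x.1 + y.1 - _ = _
        abel
      map_smul' := fun c x => by
        apply Subtype.ext
        show (c • x).1 - u (c • x).1 = c • (x.1 - u x.1)
        have h1 : u (c • x).1 = c • u x.1 := by
          refine hinj _ _ (hu2 _ (c • x).2) (by rw [coe_smul_cm]; exact cm_mem _ (hu2 _ x.2)) ?_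
          rw [hu3 _ (c • x).2, hUsmul, hu3 _ x.2, ← hUsmul]
          rfl
        rw [h1, smul_sub]
        rfl }
  have hP : ∀ x, (P x).1 = x.1 - u x.1 := fun x => rfl
  have hker : ∀ x, Uz O hq (P x).1.1 = 0 := by
    intro x
    rw [hP, SO.coe_sub, map_sub, hu3 _ x.2, sub_self]
  refine ⟨P, hker, fun x hx => ?_, fun x => ?_, fun q' hq'Q hq' x hx => ?_⟩
  · apply Subtype.ext
    rw [hP]
    have : u x.1 = 0 := hinj _ _ (hu2 _ x.2) (Submodule.zero_mem _) (by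
      rw [hu3 _ x.2, hx]
      exact (map_zero (Uz O hq)).symm)
    rw [this, sub_zero]
  · have : (x - P x).1 = u x.1 := by
      show x.1 - (x.1 - u x.1) = _
      rw [sub_sub_cancel]
    rw [this, hLq]
    exact hu2 _ x.2
  · rw [hP, SO.coe_sub, map_sub, hx, zero_sub, neg_eq_zero]
    -- `U_{q'} u` is killed by `U_q`
    by_cases hqq : q' = q
    · subst hqq
      rw [hu3 _ x.2, hx]
    have hq'L : q' ∣ L₁ * q := by
      obtain ⟨-, -, L₂, hL2, -⟩ := hlev.lev q' hq'Q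
      have h1 : q' ∣ L₁ * q * q := by rw [← hL, hL2]; exact dvd_mul_left _ _
      exact (hq'.dvd_mul.1 h1).resolve_right fun h => hqq ((Nat.prime_dvd_prime_iff_eq hq' hq).1 h)
    refine Uz_inj hlev.surj hL0 hq hqL (Sy.uop (one_dvd _) hq' hq'L (hu2 _ x.2)) ?_
    rw [Uz_comm hq hq', hu3 _ x.2, Uz_comm hq' hq, hx, map_zero]

/-- **The projection.** -/
theorem exists_proj (hlev : Lev0 O k L Q) {e : HA O S} (he : LocData (evI O τ) (SO O L) e)
    (B : loc (evI O τ) (SO O L) →ₗ[O] loc (evI O τ) (SO O L) →ₗ[O] O)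
    (hB : ∀ q ∈ Q, ∀ hq : q.Prime, ∀ y x, y.1.1 ∈ SZ O (L / q) → Uz O hq x.1.1 = 0 → B y x = 0)
    (Q' : Finset ℕ) : Q' ⊆ Q → ∃ P : loc (evI O τ) (SO O L) →ₗ[O] loc (evI O τ) (SO O L),
      (∀ q ∈ Q', ∀ hq : q.Prime, ∀ x, Uz O hq (P x).1.1 = 0) ∧
      (∀ x, (∀ q ∈ Q', ∀ hq : q.Prime, Uz O hq x.1.1 = 0) → P x = x) ∧
      (∀ y x, (∀ q ∈ Q', ∀ hq : q.Prime, Uz O hq x.1.1 = 0) → B (P y) x = B y x) := by
  classical
  induction Q' using Finset.induction_on with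
  | empty =>
    intro _
    exact ⟨LinearMap.id, fun q hq => absurd hq (Finset.notMem_empty q), fun x _ => rfl,
      fun y x _ => rfl⟩
  | insert q Q' hqQ' ih =>
    intro hsub
    obtain ⟨P, h1, h2, h3⟩ := ih ((Finset.subset_insert _ _).trans hsub)
    have hqQ : q ∈ Q := hsub (Finset.mem_insert_self _ _)
    have hq := (hlev.lev q hqQ).1
    obtain ⟨Pq, g1, g2, g3, g4⟩ := exists_projq O S L hlev he hqQ hq
    refine ⟨Pq ∘ₗ P, fun q' hq' hq'p x => ?_, fun x hx => ?_, fun y x hx => ?_⟩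
    · rcases Finset.mem_insert.1 hq' with rfl | hq'
      · exact g1 _
      · exact g4 q' ((Finset.subset_insert _ _).trans hsub hq') hq'p _ (h1 q' hq' hq'p x)
    · rw [LinearMap.comp_apply, h2 x fun q' hq' => hx q' (Finset.mem_insert_of_mem hq')]
      exact g2 x (hx q (Finset.mem_insert_self _ _) hq)
    · rw [LinearMap.comp_apply, ← h3 y x fun q' hq' => hx q' (Finset.mem_insert_of_mem hq')]
      have h4 := hB q hqQ hq (P y - Pq (P y)) x (g3 _) (hx q (Finset.mem_insert_self _ _) hq)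
      rw [map_sub, LinearMap.sub_apply, sub_eq_zero] at h4
      exact h4.symm

end

end Fermat.Agent.RT.Om
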