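import Fermat.Agent.RT.OmDec

/-!
# Existence of eigensymbols
-/

set_option autoImplicit false
set_option maxHeartbeats 400000

noncomputable section

namespace Fermat.Agent.RT

open Matrix CongruenceSubgroup Fermat.Agent.AnJac MvPolynomial Fermat.Agent.TWCoh
open ModularCurve ModularCurve.Period Fermat.Agent.EichlerShimura
open Fermat.Agent.Newform (S2 GP Eig chi bset bL bfam)
open ModularFormClass (qCoeff)
open UpperHalfPlane ModularForm
open P2MW.S_ModularForm_heckeT_slash_eq_self_of_mem_Gamma0.ModularForm.HeckeSlashInvariance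
open scoped MatrixGroups OnePoint ModularForm

open Om in
/-- **(Om-Eig)** existence of a nonzero eigensymbol, at all levels divisible by the level of the
newform -/
theorem omEig (M : ℕ) [NeZero M] (f : S2 M) (hf : f.IsNewform) (N : ℕ) (hMN : M ∣ N)
    (hne : ∃ l₀ : ℕ, l₀.Prime ∧ (M : ℤ) ∣ (l₀ : ℤ) - 1 ∧ ¬ l₀ ∣ M ∧
      qCoeff f l₀ ≠ 1 + (l₀ : ℂ)) :
    ∃ x ∈ SZ ℂ N, x ≠ 0 ∧ ∀ (l : ℕ) (hl : l.Prime), ¬ l ∣ M →
      Tz ℂ hl x = (fun a b => qCoeff f l * x a b) := by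
  obtain ⟨l₀, hl₀, hl₀1M, hl₀M, hl₀a⟩ := hne
  have hNHA : ∀ u v : S2 M, periodHomPair M (u, v) ∈ NHA (Gamma0 M) ℂ := by
    intro u v
    have h1 : periodHomPair M (u, v) ∈ parabolicHoms ℂ (Gamma0 M) ℂ := by
      rw [← (S21.result M).2]; exact ⟨_, rfl⟩
    intro γ hγ
    refine SL2Pres.eq_zero_of_trace_le (fun γ hγ => ?_) γ ((trace_sq_le_iff _).mpr hγ)
    exact mem_parabolicHoms_iff.mp h1 γ hγ
  have hMf : ∀ l : ℕ, (hl : l.Prime) → ¬ l ∣ M →
      DSLift.heckeOp M 2 hl f = qCoeff f l • f := fun l hl hlM =>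
    Newform.mem_Eig.1 (Newform.mem_Eig_chi hf.1 M) ⟨l, hl, hlM⟩
  obtain ⟨y₁, hy₁, hy₁v, hy₁T⟩ := exists_eigensymbol (v := periodHomPair M (f, 0)) (hNHA f 0)
    (a := fun l => qCoeff f l) (fun l hl hlM => by
      rw [← periodHomPair_heckeOp hl, hMf l hl hlM, map_zero]
      have : ((qCoeff f l • f, (0 : S2 M)) : S2 M × S2 M) = qCoeff f l • (f, 0) := by
        rw [Prod.smul_mk, smul_zero]
      rw [this, map_smul]) hl₀ hl₀1M hl₀M hl₀a
  have hy₁M : y₁ ∈ SZ ℂ M := cf_iff.mpr hy₁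
  refine ⟨y₁, ?_, ?_, fun l hl hlM => ?_⟩
  · refine ⟨hy₁M.1, fun γ hγ a b => ?_⟩
    have hγ' : γ ∈ Gamma0 M := mem_Gamma0.2 (dvd_trans (by exact_mod_cast hMN) (mem_Gamma0.1 hγ))
    rw [hy₁M.2 γ hγ' a b, one_dir_apply]
  · rintro rfl
    have h1 : periodHomPair M (f, 0) = 0 := by
      rw [← hy₁v]
      exact AddMonoidHom.ext fun γ => rfl
    have h2 := periodHomPair_injective (h1.trans (map_zero _).symm)
    exact hf.ne_zero (congrArg Prod.fst h2)
  · rw [← TC_eq, hy₁T l hl hlM]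
    rfl

end Fermat.Agent.RT
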