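import Fermat.Agent.RT.OmI

/-!
# The Fricke involution, the kernel and the cokernel
-/

set_option autoImplicit false
set_option linter.unusedSectionVars false
set_option linter.style.haveILetI false

noncomputable section

namespace Fermat.Agent.RT.Om

open Matrix CongruenceSubgroup MvPolynomial Fermat.Agent.TWCoh Fermat.Agent.LR
open Fermat.Agent.Ihara (InSym IsMS TS ES tr um coe_um rq)
open Fermat.Agent.AnJac (hfT)
open Fermat.Agent.IharaL (KC exists_sym kc_E es_eq_zero homOf)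
open scoped MatrixGroups OnePoint

/-- scalar matrices act trivially -/
theorem scalar_smul {g : GQ} {a : ℚ} (ha : a ≠ 0) (hg : Ent g a 0 0 a) (x : P1) : g • x = x := by
  have h00 : g 0 0 = a := congrFun (congrFun hg 0) 0
  have h01 : g 0 1 = 0 := congrFun (congrFun hg 0) 1
  have h10 : g 1 0 = 0 := congrFun (congrFun hg 1) 0
  have h11 : g 1 1 = a := congrFun (congrFun hg 1) 1
  induction x using OnePoint.rec with
  | infty =>
    rw [OnePoint.smul_infty_eq_ite]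
    exact if_pos h10
  | coe x =>
    rw [OnePoint.smul_some_eq_ite, h00, h01, h10, h11, if_neg (by simpa using ha)]
    congr 1
    rw [zero_mul, zero_add, add_zero, mul_div_cancel_left₀ _ ha]

/-- the Fricke matrix -/
def Wf (L : ℕ) (hL : L ≠ 0) : GQ := mk 0 (-1) L 0 (by simpa using hL)

theorem ent_Wf (L : ℕ) (hL : L ≠ 0) : Ent (Wf L hL) 0 (-1) L 0 := ent_mk _ _ _ _ _

theorem Wf_sq {L : ℕ} (hL : L ≠ 0) (x : P1) : Wf L hL • Wf L hL • x = x := by
  rw [← mul_smul]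
  refine scalar_smul (a := -(L : ℚ)) (by simpa using hL) ?_ x
  exact ((ent_Wf L hL).mul (ent_Wf L hL)).congr (by ring) (by ring) (by ring) (by ring)

theorem Wf_conj {L : ℕ} (hL : L ≠ 0) {γ : SL(2, ℤ)} (hγ : γ ∈ Gamma0 L) :
    ∃ γ' ∈ Gamma0 L, Wf L hL * io γ = io γ' * Wf L hL := by
  obtain ⟨c, hc⟩ := mem_Gamma0.1 hγ
  have hdet := det_SL γ
  obtain ⟨γ', h1, h2, h3, h4⟩ := exists_SL (γ 1 1) (-c) (-(L * γ 0 1)) (γ 0 0) (by
    rw [hc] at hdet; linear_combination hdet)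
  refine ⟨γ', mem_Gamma0.2 ⟨-γ 0 1, by rw [h3]; ring⟩, ?_⟩
  refine ((ent_Wf L hL).mul (ent_io γ)).ext (((ent_io γ').mul (ent_Wf L hL)).congr ?_ ?_ ?_ ?_)
  · rw [h1, h2, hc]; push_cast; ring
  · rw [h1, h2]; push_cast; ring
  · rw [h3, h4]; push_cast; ring
  · rw [h3, h4]; push_cast; ring

theorem Wf_conj' {L : ℕ} (hL : L ≠ 0) {γ' : SL(2, ℤ)} (hγ : γ' ∈ Gamma0 L) :
    ∃ γ ∈ Gamma0 L, Wf L hL * io γ = io γ' * Wf L hL := by
  obtain ⟨c, hc⟩ := mem_Gamma0.1 hγ
  have hdet := det_SL γ'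
  obtain ⟨γ, h1, h2, h3, h4⟩ := exists_SL (γ' 1 1) (-c) (-(L * γ' 0 1)) (γ' 0 0) (by
    rw [hc] at hdet; linear_combination hdet)
  refine ⟨γ, mem_Gamma0.2 ⟨-γ' 0 1, by rw [h3]; ring⟩, ?_⟩
  refine ((ent_Wf L hL).mul (ent_io γ)).ext (((ent_io γ').mul (ent_Wf L hL)).congr ?_ ?_ ?_ ?_)
  · rw [h3]; push_cast; ring
  · rw [h4]; push_cast; ring
  · rw [h1]; push_cast; ring
  · rw [h2, hc]; push_cast; ring

section

variable {A : Type*} [AddCommGroup A] {L : ℕ}

/-- the Fricke involution on functions -/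
def frz (hL : L ≠ 0) (φ : P1 → P1 → A) : P1 → P1 → A :=
  fun x y => φ (Wf L hL • x) (Wf L hL • y)

theorem inSym_frz (hL : L ≠ 0) {φ : P1 → P1 → A} (h : InSym L φ) : InSym L (frz hL φ) := by
  refine ⟨fun x y z => h.ms _ _ _, fun γ hγ => ?_⟩
  obtain ⟨γ', hγ', e⟩ := Wf_conj hL hγ
  funext x y
  show φ (Wf L hL • io γ • x) (Wf L hL • io γ • y) = φ (Wf L hL • x) (Wf L hL • y)
  rw [← mul_smul, ← mul_smul, e, mul_smul, mul_smul]
  exact congrFun (congrFun (h.inv γ' hγ') _) _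

theorem frz_frz (hL : L ≠ 0) (φ : P1 → P1 → A) : frz hL (frz hL φ) = φ := by
  funext x y
  show φ (Wf L hL • Wf L hL • x) (Wf L hL • Wf L hL • y) = _
  rw [Wf_sq, Wf_sq]

theorem Tz_apply {l : ℕ} (hl : l.Prime) (φ : P1 → P1 → A) (x y : P1) :
    Tz A hl φ x y = ∑ i : Ix l, φ (rp l hl.ne_zero i • x) (rp l hl.ne_zero i • y) := by
  rw [Fintype.sum_option, Tz, LinearMap.add_apply, add_comm]
  show _ + Uop ℤ A P1 l _ φ x y = _
  rw [Uop_apply, Finset.sum_range]
  rfl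

/-- `T_l` commutes with the Fricke involution -/
theorem Tz_frz (hL : L ≠ 0) {l : ℕ} (hl : l.Prime) (hlL : ¬ l ∣ L) {φ : P1 → P1 → A}
    (h : InSym L φ) : Tz A hl (frz hL φ) = frz hL (Tz A hl φ) := by
  have key : ∀ i : Ix l, ∃ j : Ix l, ∃ γ ∈ Gamma0 L,
      Wf L hL * rp l hl.ne_zero i = io γ * rp l hl.ne_zero j * Wf L hL := by
    intro i
    obtain ⟨j, γ, hγ, e⟩ := exists_rep hl hlL (rd l i) 0 (-rb l i) (re l i)
      (by rw [← re_mul_rd l i]; ring)
      (g := Wf L hL * rp l hl.ne_zero i * (Wf L hL)⁻¹) (by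
        have h1 : Ent (Wf L hL)⁻¹ 0 (1 / L) (-1) 0 := by
          have hL' : (L : ℚ) ≠ 0 := by exact_mod_cast hL
          have h2 : Wf L hL * mk 0 (1 / L) (-1) 0 (by simpa using hL) = 1 := by
            refine (((ent_Wf L hL).mul (ent_mk _ _ _ _ _)).congr ?_ ?_ ?_ ?_).ext ent_one
            · ring
            · ring
            · ring
            · field_simp
              ring
          rw [inv_eq_of_mul_eq_one_right h2]
          exact ent_mk _ _ _ _ _
        have hL' : (L : ℚ) ≠ 0 := by exact_mod_cast hL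
        refine (((ent_Wf L hL).mul (ent_rp l hl.ne_zero i)).mul h1).congr ?_ ?_ ?_ ?_
        · push_cast; ring
        · push_cast; ring
        · push_cast; ring
        · push_cast; field_simp; ring)
    exact ⟨j, γ, hγ, by rw [e, inv_mul_cancel_right]⟩
  choose σ γ hγ e using key
  have hinj : Function.Injective σ := by
    intro i j hij
    have e1 := e i
    have e2 := e j
    rw [← hij] at e2
    obtain ⟨δ, hδ, hδ'⟩ := Wf_conj' hL (mul_mem (hγ i) (inv_mem (hγ j)))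
    refine rep_inj hl i j δ ?_
    have e3 : Wf L hL * (io δ * rp l hl.ne_zero j) = Wf L hL * rp l hl.ne_zero i := by
      rw [← mul_assoc, hδ', mul_assoc, e2, e1, map_mul, map_inv]
      group
    exact mul_left_cancel e3
  funext x y
  show Tz A hl (frz hL φ) x y = Tz A hl φ (Wf L hL • x) (Wf L hL • y)
  rw [Tz_apply, Tz_apply]
  rw [← Equiv.sum_comp (Equiv.ofBijective σ (Finite.injective_iff_bijective.1 hinj))
    (fun i => φ (rp l hl.ne_zero i • Wf L hL • x) (rp l hl.ne_zero i • Wf L hL • y))]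
  refine Finset.sum_congr rfl fun i _ => ?_
  show φ (Wf L hL • rp l hl.ne_zero i • x) (Wf L hL • rp l hl.ne_zero i • y) =
    φ (rp l hl.ne_zero (σ i) • Wf L hL • x) (rp l hl.ne_zero (σ i) • Wf L hL • y)
  rw [← mul_smul, ← mul_smul, e i, mul_smul, mul_smul, mul_smul, mul_smul]
  exact congrFun (congrFun (h.inv _ (hγ i)) _) _

end

section

variable {O : Type} [CommRing O] {L : ℕ} {S : Set ℕ}

variable (O) in
/-- the Fricke involution -/
def frO (hL : L ≠ 0) : SO O L →ₗ[O] SO O L where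
  toFun φ := ofSym (inSym_frz hL (SO.inSym φ))
  map_add' _ _ := rfl
  map_smul' _ _ := rfl

theorem coe_frO (hL : L ≠ 0) (φ : SO O L) : (frO O hL φ).1 = frz hL φ.1 := rfl

theorem frO_frO (hL : L ≠ 0) (φ : SO O L) : frO O hL (frO O hL φ) = φ :=
  Subtype.ext (frz_frz hL φ.1)

theorem frO_smul (hL : L ≠ 0) (hS : ∀ l : PS S, ¬ l.1 ∣ L) (r : HA O S) (φ : SO O L) :
    frO O hL (r • φ) = r • frO O hL φ := by
  induction r using MvPolynomial.induction_on generalizing φ with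
  | C a => rw [C_smul, C_smul, map_smul]
  | add p q hp hq => rw [add_smul, add_smul, map_add, hp, hq]
  | mul_X p l hp =>
    rw [mul_smul, hp, mul_smul]
    congr 1
    apply Subtype.ext
    rw [coe_frO, coe_X_smul l (hS l), coe_X_smul l (hS l), coe_frO,
      Tz_frz hL l.2.1 (hS l) (SO.inSym φ)]

/-- the kernel is killed by Eisenstein operators -/
theorem ker_eis (l : PS S) (hlL : ¬ l.1 ∣ L) (h1 : l.1 ≡ 1 [MOD L]) {y : SO O L}
    (hy : ∀ γ : Gamma0 L, hv y γ = 0) :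
    ((X l : HA O S) - C (1 + (l.1 : O))) • y = 0 := by
  have h2 : homOf (SO.inSym y) = 0 := by
    ext γ
    exact hy γ
  have h3 := es_eq_zero (SO.inSym y) h2 l.2.1 h1
  rw [sub_smul, C_smul]
  apply Subtype.ext
  show ((X l : HA O S) • y).1 - (1 + (l.1 : O)) • y.1 = 0
  rw [coe_X_smul l hlL, Tz_eq_TS]
  rw [ES, sub_eq_zero] at h3
  rw [h3, add_smul, one_smul, add_smul, one_smul, add_comm, sub_eq_zero, Nat.cast_smul_eq_nsmul]

/-- the cokernel is killed by Eisenstein operators -/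
theorem coker_eis [NeZero L] [IsAddTorsionFree O] (l : PS S) (hlL : ¬ l.1 ∣ L)
    (h1 : l.1 ≡ 1 [MOD L]) (f : SO O L →ₗ[O] O) :
    ∃ y : SO O L, ∀ γ : Gamma0 L,
      f (((X l : HA O S) - C (1 + (l.1 : O))) • iot γ) = hv y γ := by
  haveI : Fact l.1.Prime := ⟨l.2.1⟩
  let x : Additive (Gamma0 L) →+ O :=
    AddMonoidHom.mk' (fun γ => f (iot (Additive.toMul γ))) fun γ γ' => by
      rw [← map_add]
      congr 1
      apply Subtype.ext
      funext a b
      show ((LR.iota (Gamma0 L) (((Additive.toMul γ : Gamma0 L) * (Additive.toMul γ' : Gamma0 L) :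
        Gamma0 L) : SL(2, ℤ)) a b : ℤ) : O) = ((LR.iota _ _ a b : ℤ) : O) + ((LR.iota _ _ a b : ℤ) : O)
      rw [Subgroup.coe_mul, iota_mul (Subtype.prop _) (Subtype.prop _), Int.cast_add]
  obtain ⟨s, a, ψ, hψ⟩ := exists_intL x
  have hT : ∀ γ : Gamma0 L, (AnJac.HF.T (hfT L l.1 hlL) x) (Additive.ofMul γ) =
      ∑ i, a i * (((AnJac.HF.T (hfT L l.1 hlL) (ψ i)) (Additive.ofMul γ) : ℤ) : O) := by
    intro γ
    rw [AnJac.HF.T_apply]
    simp only [hψ, AnJac.HF.T_apply, Int.cast_sum, Finset.mul_sum]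
    rw [Finset.sum_comm]
  have hKC : KC (AnJac.HF.T (hfT L l.1 hlL) x - (l.1 + 1) • x) := by
    intro γ α hγ
    have h2 : (AnJac.HF.T (hfT L l.1 hlL) x - (l.1 + 1) • x) (Additive.ofMul γ) =
      ∑ i, a i * (((AnJac.HF.T (hfT L l.1 hlL) (ψ i) - (l.1 + 1) • ψ i) (Additive.ofMul γ) : ℤ) : O) := by
      rw [AddMonoidHom.sub_apply, hT, AddMonoidHom.nsmul_apply, hψ]
      simp only [AddMonoidHom.sub_apply, AddMonoidHom.nsmul_apply, Int.cast_sub, mul_sub,
        Finset.sum_sub_distrib, Finset.smul_sum]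
      congr 1
      refine Finset.sum_congr rfl fun i _ => ?_
      simp only [nsmul_eq_mul]
      push_cast
      ring
    rw [h2]
    refine Finset.sum_eq_zero fun i _ => ?_
    rw [kc_E hlL (NeZero.ne L) h1 (ψ i) γ α hγ, Int.cast_zero, mul_zero]
  obtain ⟨φ, h, e⟩ := exists_sym hKC
  refine ⟨ofSym h, fun γ => ?_⟩
  have h3 : hv (ofSym h) γ = homOf h (Additive.ofMul γ) := rfl
  rw [h3, e, sub_smul, X_smul_iot l hlL, C_smul, map_sub, map_sum, f.map_smul,
    AddMonoidHom.sub_apply, AnJac.HF.T_apply, AddMonoidHom.nsmul_apply]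
  congr 1
  rw [nsmul_eq_mul, smul_eq_mul]
  push_cast
  rw [add_comm (1 : O)]
  rfl

variable (O S) in
/-- **the intersection data** -/
def ipd [NeZero L] [IsAddTorsionFree O] (h2 : IsUnit (2 : O)) (hS : ∀ l : PS S, ¬ l.1 ∣ L) :
    OmA.IPD O (HA O S) (SO O L) (Gamma0 L) where
  iot := iot
  hv := hv
  act r l y h := rel_act hS r l y h
  ex y := by
    obtain ⟨f, hf⟩ := theta_surj h2 (homOf (SO.inSym y))
    exact ⟨f, fun γ => by rw [hf]; rfl⟩
  fr := frO O (NeZero.ne L)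
  fr_fr := frO_frO _
  fr_smul r y := frO_smul _ hS r y

end

end Fermat.Agent.RT.Om
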