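import Fermat.Agent.RT.OmE

/-!
# The canonical pairing on the part killed by `U_q`
-/

set_option autoImplicit false
set_option linter.unusedSectionVars false
set_option linter.style.haveILetI false

noncomputable section

namespace Fermat.Agent.RT.Om

open Matrix CongruenceSubgroup MvPolynomial Fermat.Agent.TWCoh
open scoped MatrixGroups OnePoint

theorem Di_infty {q : ℕ} (hq : q ≠ 0) : Di q hq • (∞ : P1) = ∞ := by
  rw [OnePoint.smul_infty_eq_self_iff]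
  have := ent_Di q hq
  rw [Ent] at this
  rw [this]
  simp

section

variable {O k : Type} [CommRing O] [IsDomain O] [IsDiscreteValuationRing O]
  [IsAdicComplete (IsLocalRing.maximalIdeal O) O] [CharZero O] [Field k] [Algebra O k]

/-- `l` represents `y` -/
def Rel {L : ℕ} (l : SO O L →ₗ[O] O) (y : SO O L) : Prop := ∀ γ : Gamma0 L, l (iot γ) = hv y γ

instance addTF : IsAddTorsionFree O := by
  have : Module.IsTorsionFree ℤ O := inferInstance
  infer_instance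

theorem exists_rel {L : ℕ} [NeZero L] (h2 : IsUnit (2 : O)) (y : SO O L) : ∃ l, Rel l y := by
  obtain ⟨f, hf⟩ := theta_surj h2 (IharaL.homOf (SO.inSym y))
  exact ⟨f, fun γ => by rw [hf]; rfl⟩

/-- the map `U_q` from level `L q` to level `L` -/
def UL (O : Type) [CommRing O] {L q : ℕ} (hq : q.Prime) (hqL : q ∣ L) :
    SO O (L * q) →ₗ[O] SO O L where
  toFun x := ofSZ (SZ_Ulow hq hqL (SO.mem x))
  map_add' x y := Subtype.ext (map_add (Uz O hq) x.1 y.1)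
  map_smul' c x := Subtype.ext (by
    show Uz O hq (c • x).1 = (c • ofSZ (SZ_Ulow hq hqL (SO.mem x))).1
    rw [coe_smul_cm, ← cm_Uz]
    rfl)

theorem coe_UL {L q : ℕ} (hq : q.Prime) (hqL : q ∣ L) (x : SO O (L * q)) :
    (UL O hq hqL x).1 = Uz O hq x.1 := rfl

theorem iot_eq_cm {L : ℕ} (γ : Gamma0 L) :
    (iot γ : SO O L).1 = cm (Int.castAddHom O) (LR.iota (Gamma0 L) γ) := rfl

/-- the functional representing `B_q v` -/
theorem rel_UL {L q : ℕ} (hL : L ≠ 0) (hq : q.Prime) (hqL : q ∣ L) {l : SO O L →ₗ[O] O}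
    {v : SO O L} (h : Rel l v) : Rel (l ∘ₗ UL O hq hqL) (ofSZ (SZ_Bz hq (SO.mem v))) := by
  intro γ
  obtain ⟨γ', hγ', h1, h2⟩ := omUI L q hL hq hqL γ.1 γ.2
  have h3 : UL O hq hqL (iot γ) = iot ⟨γ', hγ'⟩ := by
    apply Subtype.ext
    rw [coe_UL, iot_eq_cm, iot_eq_cm, ← cm_Uz, h2]
  rw [LinearMap.comp_apply, h3, h]
  show v.1 ∞ (io γ' • ∞) = v.1 (Di q hq.ne_zero • ∞) (Di q hq.ne_zero • io γ.1 • ∞)
  rw [← mul_smul, h1, mul_smul, Di_infty]

/-- the canonical property of a pairing -/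
def IsCan {S : Set ℕ} {L : ℕ} [NeZero L] {H : Submodule (HA O S) (SO O L)}
    (B : H →ₗ[O] H →ₗ[O] O) : Prop :=
  ∀ (y x : H) (l : SO O L →ₗ[O] O), Rel l (frO O (NeZero.ne L) y.1) → B y x = l x.1

variable {S : Set ℕ} {τ : PS S → k} {L : ℕ} [NeZero L] {Q : Finset ℕ}

/-- the pairing on the localisation -/
theorem exists_can_loc (hlev : Lev O τ L Q) {e : HA O S} (he : LocData (evI O τ) (SO O L) e) :
    ∃ B : loc (evI O τ) (SO O L) →ₗ[O] loc (evI O τ) (SO O L) →ₗ[O] O, Function.Surjective B ∧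
      IsCan B ∧ ∀ (r : HA O S) (y x : loc (evI O τ) (SO O L)), B (r • y) x = B y (r • x) := by
  obtain ⟨l, hl, hτ⟩ := hlev.eis
  have hs : (X l - C (1 + (l.1 : O)) : HA O S) ∉ evI O τ := by
    rw [mem_evI, map_sub, aeval_X, aeval_C, map_add, map_one, map_natCast, sub_eq_zero]
    exact hτ
  exact OmA.IPD.exists_pairing (D := ipd O S hlev.isUnit₂ hlev.notdvd) he
    ⟨_, hs, fun y hy => ker_eis l (hlev.notdvd l) hl fun γ => (hy γ).symm⟩
    ⟨_, hs, fun f => coker_eis l (hlev.notdvd l) hl f⟩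

/-- orthogonality -/
theorem can_orth (hlev : Lev0 O k L Q) {B : loc (evI O τ) (SO O L) →ₗ[O]
    loc (evI O τ) (SO O L) →ₗ[O] O} (hB : IsCan B) {q : ℕ} (hqQ : q ∈ Q) (hq : q.Prime)
    (y x : loc (evI O τ) (SO O L)) (hy : y.1.1 ∈ SZ O (L / q)) (hx : Uz O hq x.1.1 = 0) :
    B y x = 0 := by
  obtain ⟨-, hqk, L₁, hL, hqL⟩ := hlev.lev q hqQ
  have hLq : L / q = L₁ * q := by rw [hL]; exact Nat.mul_div_cancel _ hq.pos
  rw [hLq] at hy
  have hL0 : L₁ * q ≠ 0 := by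
    intro h
    exact NeZero.ne L (by rw [hL, h, zero_mul])
  haveI : NeZero (L₁ * q) := ⟨hL0⟩
  have hqd : q ∣ L₁ * q := dvd_mul_left _ _
  subst hL
  obtain ⟨ρ, hρ⟩ := exists_rel hlev.isUnit₂ (frO O hL0 (ofSZ hy))
  have h1 := rel_UL hL0 hq hqd hρ
  have h2 : frO O (NeZero.ne (L₁ * q * q)) y.1 = ofSZ (SZ_Bz hq (SO.mem (frO O hL0 (ofSZ hy)))) :=
    Subtype.ext (frz_mul hL0 hq _ _)
  rw [hB y x _ (by rw [h2]; exact h1), LinearMap.comp_apply]
  have h3 : UL O hq hqd x.1 = 0 := Subtype.ext hx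
  rw [h3, map_zero]

/-- **The canonical perfect pairing on `HQ`.** -/
theorem exists_can' (hlev : Lev0 O k L Q) {e : HA O S} (he : LocData (evI O τ) (SO O L) e)
    {B : loc (evI O τ) (SO O L) →ₗ[O] loc (evI O τ) (SO O L) →ₗ[O] O}
    (hB1 : Function.Surjective B) (hB2 : IsCan B)
    (hB3 : ∀ (r : HA O S) (y x : loc (evI O τ) (SO O L)), B (r • y) x = B y (r • x)) :
    ∃ B : HQ O τ L Q →ₗ[O] HQ O τ L Q →ₗ[O] O,
    Function.Surjective B ∧ IsCan B ∧ ∀ (r : HA O S) (y x : HQ O τ L Q), B (r • y) x = B y (r • x) := by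
  obtain ⟨P, h1, h2, h3⟩ := exists_proj hlev he B
    (fun q hqQ hq y x hy hx => can_orth hlev hB2 hqQ hq y x hy hx) Q subset_rfl
  have hdvd : ∀ q ∈ Q, q ∣ L := fun q hq => by
    obtain ⟨-, -, L₁, h, -⟩ := hlev.lev q hq
    rw [h]; exact dvd_mul_left _ _
  let ι : HQ O τ L Q →ₗ[O] loc (evI O τ) (SO O L) :=
    { toFun := fun x => ⟨x.1, x.2.1⟩
      map_add' := fun _ _ => rfl
      map_smul' := fun _ _ => rfl }
  let P' : loc (evI O τ) (SO O L) →ₗ[O] HQ O τ L Q :=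
    { toFun := fun x => ⟨(P x).1, (P x).2, fun q hq hq' => Subtype.ext (by
        rw [opr_eq_Uz hq' (hdvd q hq)]; exact h1 q hq hq' x)⟩
      map_add' := fun x y => Subtype.ext (by
        show (P (x + y)).1 = (P x).1 + (P y).1
        rw [map_add]; rfl)
      map_smul' := fun c x => Subtype.ext (by
        show (P (c • x)).1 = c • (P x).1
        rw [map_smul]; rfl) }
  have hker : ∀ x : HQ O τ L Q, ∀ q ∈ Q, ∀ hq : q.Prime, Uz O hq (ι x).1.1 = 0 := by
    intro x q hqQ hq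
    rw [← opr_eq_Uz hq (hdvd q hqQ)]
    exact congrArg Subtype.val (x.2.2 q hqQ hq)
  refine ⟨(B.compl₁₂ ι ι), fun f => ?_, fun y x l hl => hB2 (ι y) (ι x) l hl,
    fun r y x => hB3 r (ι y) (ι x)⟩
  obtain ⟨y, hy⟩ := hB1 (f ∘ₗ P')
  refine ⟨P' y, LinearMap.ext fun x => ?_⟩
  show B (ι (P' y)) (ι x) = f x
  have h4 : ι (P' y) = P y := rfl
  rw [h4, h3 y (ι x) (hker x), hy]
  show f (P' (ι x)) = f x
  congr 1
  refine Subtype.ext ?_
  show (P (ι x)).1 = x.1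
  rw [h2 (ι x) (hker x)]
  rfl

/-- **The canonical perfect pairing on `HQ`.** -/
theorem exists_can (hlev : Lev O τ L Q) : ∃ B : HQ O τ L Q →ₗ[O] HQ O τ L Q →ₗ[O] O,
    Function.Surjective B ∧ IsCan B ∧ ∀ (r : HA O S) (y x : HQ O τ L Q), B (r • y) x = B y (r • x) := by
  haveI := evI_isMaximal hlev.surj τ
  obtain ⟨e, he⟩ := exists_locData (Λ := O) (evI O τ) (SO O L)
  obtain ⟨B, hB1, hB2, hB3⟩ := exists_can_loc hlev he
  exact exists_can' hlev.toLev0 he hB1 hB2 hB3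

end

end Fermat.Agent.RT.Om
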