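import Fermat.Agent.RT.OmAlg
import Fermat.Agent.RT.OmSt
import Fermat.Agent.LR.Two
import Fermat.Agent.LR.Adj2
import Fermat.Agent.TWCoh.NonZero

/-!
# The intersection data of the symbols of level `L`
-/

set_option autoImplicit false
set_option linter.unusedSectionVars false
set_option linter.style.haveILetI false

noncomputable section

namespace Fermat.Agent.RT.Om

open Matrix CongruenceSubgroup MvPolynomial Fermat.Agent.TWCoh Fermat.Agent.LR
open Fermat.Agent.Ihara (InSym IsMS TS tr um coe_um rq)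
open scoped MatrixGroups OnePoint

/-- the symbols of level `L` with values in `O` -/
abbrev SO (O : Type) [CommRing O] (L : ℕ) : Type := MS (one_dvd L) (1 : DirichletCharacter O 1) O

section Basic

variable {O : Type} [CommRing O] {L : ℕ}

theorem SO.inSym (φ : SO O L) : InSym L φ.1 :=
  ⟨fun α β γ => φ.2.1 α β γ, fun γ hγ => by
    funext x y
    have := φ.2.2 γ hγ x y
    rw [one_dir_apply, one_smul] at this
    exact this⟩

/-- the element attached to a symbol -/
def ofSym {φ : P1 → P1 → O} (h : InSym L φ) : SO O L :=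
  ⟨φ, fun x y z => h.ms x y z, fun γ hγ x y => by
    rw [one_dir_apply, one_smul]; exact congrFun (congrFun (h.inv γ hγ) x) y⟩

theorem Up_eq (n : ℕ) (hn : n ≠ 0) (j : ℤ) : Up n hn j = um 1 j n := by
  apply Units.ext
  refine (ent_Up n hn j).trans (coe_um (by simpa using hn)).symm

theorem Di_eq (n : ℕ) (hn : n ≠ 0) : Di n hn = um n 0 1 := by
  apply Units.ext
  refine (ent_Di n hn).trans (coe_um (by simpa using hn)).symm

theorem Tz_eq_TS {A : Type*} [AddCommGroup A] {l : ℕ} (hl : l.Prime) (φ : P1 → P1 → A) :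
    Tz A hl φ = TS l φ := by
  rw [Tz, TS, LinearMap.add_apply, add_comm]
  congr 1
  · funext x y
    show φ (Di l _ • x) (Di l _ • y) = φ (um l 0 1 • x) (um l 0 1 • y)
    rw [Di_eq]
  · funext x y
    rw [Finset.sum_apply, Finset.sum_apply, Uop_apply]
    refine Finset.sum_congr rfl fun j _ => ?_
    rw [Up_eq]
    simp [tr]

theorem hk_eq_Tz {l : ℕ} (hl : l.Prime) (hlL : ¬ l ∣ L) (φ : P1 → P1 → O) :
    hk (1 : DirichletCharacter O 1) O P1 L l hl.ne_zero φ = Tz O hl φ := by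
  rw [hk_of_not_dvd _ hlL, inv_one, one_dir_apply, one_smul]
  rfl

variable {S : Set ℕ}

theorem coe_X_smul (l : PS S) (hl : ¬ l.1 ∣ L) (φ : SO O L) :
    ((X l : HA O S) • φ).1 = Tz O l.2.1 φ.1 := by
  rw [X_smul]
  exact hk_eq_Tz l.2.1 hl φ.1

/-- the intersection symbols -/
def iot (γ : Gamma0 L) : SO O L :=
  ofSym (φ := fun x y => ((LR.iota (Gamma0 L) γ x y : ℤ) : O)) ⟨fun x y z => by
      rw [← Int.cast_add, (LR.iota_mem γ.2).ms x y z], fun δ hδ => by
    funext x y
    have := congrFun (congrFun ((LR.iota_mem γ.2).inv δ hδ) x) y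
    exact congrArg (fun z : ℤ => (z : O)) this⟩

theorem iot_apply (γ : Gamma0 L) (x y : P1) :
    (iot γ : SO O L).1 x y = ((LR.iota (Gamma0 L) γ x y : ℤ) : O) := rfl

/-- the values on the group -/
def hv : SO O L →ₗ[O] (Gamma0 L → O) where
  toFun φ γ := φ.1 ∞ (io γ • ∞)
  map_add' _ _ := rfl
  map_smul' _ _ := rfl

theorem hv_apply (φ : SO O L) (γ : Gamma0 L) : hv φ γ = φ.1 ∞ (io γ • ∞) := rfl

theorem hv_eq (φ : SO O L) (γ : Gamma0 L) :
    hv φ γ = IharaL.homOf (SO.inSym φ) (Additive.ofMul γ) := rfl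

theorem X_smul_iot (l : PS S) (hl : ¬ l.1 ∣ L) (γ : Gamma0 L) :
    haveI : Fact l.1.Prime := ⟨l.2.1⟩
    ((X l : HA O S) • iot γ : SO O L) = ∑ i, iot ((wT L l.1 hl).g γ i) := by
  haveI : Fact l.1.Prime := ⟨l.2.1⟩
  apply Subtype.ext
  rw [coe_X_smul l hl, Tz_eq_TS, Ihara.TS_eq_rq]
  funext x y
  have h1 := iota_T hl γ x y
  have h2 : (∑ i, (iot ((wT L l.1 hl).g γ i) : SO O L)).1 x y =
      ∑ i, (iot ((wT L l.1 hl).g γ i) : SO O L).1 x y := by
    rw [coe_sum_apply]
  rw [h2, Finset.sum_apply, Finset.sum_apply]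
  simp only [iot_apply]
  rw [← Int.cast_sum, ← h1, Int.cast_sum]
  rfl

theorem rel_X (l : PS S) (hl : ¬ l.1 ∣ L) (f : SO O L →ₗ[O] O) (y : SO O L)
    (h : ∀ γ, f (iot γ) = hv y γ) (γ : Gamma0 L) :
    f ((X l : HA O S) • iot γ) = hv ((X l : HA O S) • y) γ := by
  haveI : Fact l.1.Prime := ⟨l.2.1⟩
  rw [X_smul_iot l hl, map_sum]
  simp only [h]
  have h1 : ((X l : HA O S) • y).1 = TS l.1 y.1 := by rw [coe_X_smul l hl, Tz_eq_TS]
  have h2 : hv ((X l : HA O S) • y) γ = IharaL.homOf (IharaL.inSym_TS hl (SO.inSym y))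
      (Additive.ofMul γ) := by
    rw [hv_apply, IharaL.homOf_apply, h1]
    rfl
  rw [h2, IharaL.homOf_TS hl (SO.inSym y), ← wT_T, WF.T_apply]
  rfl

theorem rel_act (hS : ∀ l : PS S, ¬ l.1 ∣ L) (r : HA O S) :
    ∀ (f : SO O L →ₗ[O] O) (y : SO O L), (∀ γ, f (iot γ) = hv y γ) →
      ∀ γ : Gamma0 L, f (r • iot γ) = hv (r • y) γ := by
  induction r using MvPolynomial.induction_on with
  | C a =>
    intro f y h γ
    rw [C_smul, C_smul, map_smul, map_smul, h]
    rfl
  | add p q hp hq =>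
    intro f y h γ
    rw [add_smul, add_smul, map_add, map_add, hp f y h, hq f y h]
    rfl
  | mul_X p l hp =>
    intro f y h γ
    have h1 := rel_X l (hS l) (OmA.pre p f) (p • y) (hp f y h) γ
    rw [OmA.pre_apply] at h1
    rw [mul_smul, h1, mul_comm, mul_smul]

/-! ### Surjectivity -/

theorem exists_intL [NeZero L] [IsAddTorsionFree O] (x : Additive (Gamma0 L) →+ O) :
    ∃ (s : ℕ) (a : Fin s → O) (ψ : Fin s → LR.X L), ∀ γ, x γ = ∑ i, a i * (ψ i γ : ℤ) := by
  have h1 : Module.Finite ℤ x.range := by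
    rw [Module.Finite.iff_addGroup_fg]
    have : AddGroup.FG (Additive (Gamma0 L)) := inferInstance
    exact AddGroup.fg_range x
  have h2 : IsAddTorsionFree x.range :=
    Function.Injective.isAddTorsionFree x.range.subtype Subtype.val_injective
  have h3 : Module.Free ℤ x.range := inferInstance
  set b := Module.finBasis ℤ x.range with hb
  refine ⟨_, fun i => (b i : O), fun i =>
    { toFun := fun γ => b.repr (x.rangeRestrict γ) i
      map_zero' := by simp
      map_add' := fun γ γ' => by simp }, fun γ => ?_⟩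
  have h5 := congrArg (fun y : x.range => (y : O)) (b.sum_repr (x.rangeRestrict γ))
  simp only [AddSubgroup.val_finsetSum, AddSubgroup.coe_zsmul] at h5
  refine Eq.trans h5.symm ?_
  exact Finset.sum_congr rfl fun i _ => by rw [zsmul_eq_mul, mul_comm]; rfl

/-- evaluation of `O`-valued symbols on a formal combination -/
def evO (D : Dv) : SO O L →ₗ[O] O where
  toFun φ := D.sum fun c n => (n : O) * φ.1 c.1 c.2
  map_add' φ ψ := by
    simp only [Finsupp.sum]
    rw [← Finset.sum_add_distrib]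
    exact Finset.sum_congr rfl fun c _ => mul_add _ _ _
  map_smul' a φ := by
    simp only [Finsupp.sum, smul_eq_mul, RingHom.id_apply]
    rw [Finset.mul_sum]
    exact Finset.sum_congr rfl fun c _ => mul_left_comm _ _ _

theorem evO_iot (D : Dv) (γ : Gamma0 L) :
    evO D (iot γ : SO O L) = ((IP L D (Additive.ofMul γ) : ℤ) : O) := by
  rw [IP_apply]
  show D.sum (fun c n => (n : O) * (iot γ : SO O L).1 c.1 c.2) = _
  rw [Finsupp.sum]
  have h : ev (LR.iota (Gamma0 L) γ) D = ∑ c ∈ D.support, D c * LR.iota (Gamma0 L) γ c.1 c.2 := by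
    rw [ev, Finsupp.liftAddHom_apply, Finsupp.sum]
    rfl
  rw [h, Int.cast_sum]
  exact Finset.sum_congr rfl fun c _ => by rw [Int.cast_mul, iot_apply]

theorem theta_surj [NeZero L] [IsAddTorsionFree O] (h2 : IsUnit (2 : O))
    (x : Additive (Gamma0 L) →+ O) :
    ∃ f : SO O L →ₗ[O] O, ∀ γ : Gamma0 L, f (iot γ) = x (Additive.ofMul γ) := by
  obtain ⟨s, a, ψ, hψ⟩ := exists_intL x
  choose D hD using fun i => IP_surj (ψ i)
  obtain ⟨u, hu⟩ := h2
  refine ⟨∑ i, ((↑u⁻¹ : O) * a i) • evO (D i), fun γ => ?_⟩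
  rw [hψ, LinearMap.sum_apply]
  refine Finset.sum_congr rfl fun i _ => ?_
  rw [LinearMap.smul_apply, evO_iot, hD, smul_eq_mul]
  have h1 : (((2 • ψ i) (Additive.ofMul γ) : ℤ) : O) = u * ((ψ i (Additive.ofMul γ) : ℤ) : O) := by
    rw [hu]
    push_cast [AddMonoidHom.nsmul_apply]
    simp
  rw [h1]
  have h3 : (↑u⁻¹ : O) * u = 1 := Units.inv_mul u
  linear_combination (a i * ((ψ i (Additive.ofMul γ) : ℤ) : O)) * h3

end Basic

end Fermat.Agent.RT.Om
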