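import Fermat.Agent.IharaL.Main
import Fermat.Agent.RT.OmDec

/-!
# Ihara's lemma for the stabilisations
-/

set_option autoImplicit false

noncomputable section

namespace Fermat.Agent.RT

open Matrix CongruenceSubgroup Fermat.Agent.TWCoh
open scoped MatrixGroups

namespace Om

theorem um_Di {q : ℕ} (hq : q ≠ 0) : Ihara.um q 0 1 = Di q hq := by
  refine Units.ext ?_
  rw [Ihara.coe_um (by simpa using hq)]
  exact (ent_Di q hq).symm

theorem um_Up {l : ℕ} (hl : l ≠ 0) (j : ℕ) : Ihara.um 1 j l = Up l hl (j : ℤ) := by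
  refine Units.ext ?_
  rw [Ihara.coe_um (by simpa using hl)]
  refine Eq.trans ?_ (ent_Up l hl (j : ℤ)).symm
  rw [Int.cast_natCast]

variable {A : Type*} [AddCommGroup A]

theorem sz_iff {N : ℕ} {x : P1 → P1 → A} : x ∈ SZ A N ↔ Ihara.InSym N x := by
  constructor
  · rintro ⟨h1, h2⟩
    exact ⟨h1, fun γ hγ => by
      funext a b
      have := h2 γ hγ a b
      rw [one_dir_apply, one_smul] at this
      exact this⟩
  · rintro ⟨h1, h2⟩
    exact ⟨h1, fun γ hγ a b => by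
      rw [one_dir_apply, one_smul]
      exact congrFun (congrFun (h2 γ hγ) a) b⟩

theorem sz_mk {N : ℕ} {x : P1 → P1 → A} (h1 : ∀ a b c, x a b + x b c = x a c)
    (h2 : ∀ γ ∈ Gamma0 N, ∀ a b : P1, x (io γ • a) (io γ • b) = x a b) : x ∈ SZ A N :=
  ⟨h1, fun γ hγ a b => by rw [one_dir_apply, one_smul]; exact h2 γ hγ a b⟩

theorem sz_equi {N : ℕ} {x : P1 → P1 → A} (h : x ∈ SZ A N) {γ : SL(2, ℤ)} (hγ : γ ∈ Gamma0 N)
    (a b : P1) : x (io γ • a) (io γ • b) = x a b := by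
  have := h.2 γ hγ a b
  rwa [one_dir_apply, one_smul] at this

theorem Tz_TS {l : ℕ} (hl : l.Prime) (x : P1 → P1 → A) : Tz A hl x = Ihara.TS l x := by
  funext a b
  have h1 : Ihara.TS l x a b = x (Di l hl.ne_zero • a) (Di l hl.ne_zero • b) +
      ∑ j ∈ Finset.range l, x (Up l hl.ne_zero (j : ℤ) • a) (Up l hl.ne_zero (j : ℤ) • b) := by
    rw [Ihara.TS, Pi.add_apply, Pi.add_apply, Finset.sum_apply, Finset.sum_apply]
    congr 1
    · rw [Ihara.tr, um_Di hl.ne_zero]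
    · refine Finset.sum_congr rfl fun j _ => ?_
      rw [Ihara.tr, um_Up hl.ne_zero]
  rw [h1, add_comm]
  rfl

theorem sz_le {N M : ℕ} (h : N ∣ M) {x : P1 → P1 → A} (hx : x ∈ SZ A N) : x ∈ SZ A M :=
  sz_mk hx.1 fun _ hγ => sz_equi hx (mem_Gamma0.2 (dvd_trans (by exact_mod_cast h) (mem_Gamma0.1 hγ)))

theorem sz_T {N l : ℕ} (hl : l.Prime) (hlN : ¬ l ∣ N) {x : P1 → P1 → A} (hx : x ∈ SZ A N) :
    Tz A hl x ∈ SZ A N := by
  have h1 := Sy.hk (one_dvd _) hl hx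
  rwa [hk_of_not_dvd hl.ne_zero hlN, inv_one, one_dir_apply, one_smul] at h1

theorem sz_B {N q : ℕ} (hq : q.Prime) {x : P1 → P1 → A} (hx : x ∈ SZ A N) :
    Bz A hq x ∈ SZ A (N * q) := by
  refine sz_mk (fun a b c => hx.1 _ _ _) fun γ hγ a b => ?_
  obtain ⟨δ, hδ, hc⟩ := exists_conj hq.ne_zero dvd_rfl hγ
  rw [Bop_apply, Bop_apply, ← mul_smul, ← mul_smul, hc, mul_smul, mul_smul, sz_equi hx hδ]

theorem exists_Lo (N j : ℤ) : ∃ γ : SL(2, ℤ), γ 0 0 = 1 ∧ γ 0 1 = 0 ∧ γ 1 0 = N * j ∧ γ 1 1 = 1 :=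
  exists_SL 1 0 (N * j) 1 (by ring)

/-- descending the level -/
theorem sz_gen {N q : ℕ} (hq : q.Prime) (hqN : ¬ q ∣ N) {u v : P1 → P1 → A}
    (hu : u ∈ SZ A (N * q)) (hv : v ∈ SZ A (N * q)) (h : u + Bz A hq v = 0) : v ∈ SZ A N := by
  have hq' : Prime (q : ℤ) := Nat.prime_iff_prime_int.mp hq
  have hqN' : ¬ (q : ℤ) ∣ N := fun h => hqN (by exact_mod_cast h)
  have hvu : ∀ a b : P1, v a b =
      - u ((Di q hq.ne_zero)⁻¹ • a) ((Di q hq.ne_zero)⁻¹ • b) := by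
    intro a b
    have h1 := congrFun (congrFun h ((Di q hq.ne_zero)⁻¹ • a)) ((Di q hq.ne_zero)⁻¹ • b)
    change u _ _ + Bz A hq v _ _ = 0 at h1
    rw [Bop_apply, smul_inv_smul, smul_inv_smul] at h1
    exact eq_neg_of_add_eq_zero_right h1
  -- lower triangular matrices
  have hLo : ∀ (j : ℤ) (γ : SL(2, ℤ)), γ 0 0 = 1 → γ 0 1 = 0 → γ 1 0 = N * j → γ 1 1 = 1 →
      ∀ a b : P1, v (io γ • a) (io γ • b) = v a b := by
    intro j γ h1 h2 h3 h4 a b
    obtain ⟨δ, d1, d2, d3, d4⟩ := exists_Lo (N * q) j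
    have hδ : δ ∈ Gamma0 (N * q) := mem_Gamma0.2 (by rw [d3]; push_cast; exact dvd_mul_right _ _)
    have hc : (Di q hq.ne_zero)⁻¹ * io γ = io δ * (Di q hq.ne_zero)⁻¹ := by
      rw [inv_mul_eq_iff_eq_mul, ← mul_assoc, eq_mul_inv_iff_mul_eq]
      refine (((ent_io γ).mul (ent_Di q hq.ne_zero))).ext
        (((ent_Di q hq.ne_zero).mul (ent_io δ)).congr ?_ ?_ ?_ ?_)
      · rw [h1, h2, d1, d3]; push_cast; ring
      · rw [h1, h2, d2, d4]; push_cast; ring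
      · rw [h3, h4, d1, d3]; push_cast; ring
      · rw [h3, h4, d2, d4]; push_cast; ring
    rw [hvu, hvu a b, ← mul_smul, ← mul_smul, hc, mul_smul, mul_smul, sz_equi hu hδ]
  refine sz_mk hv.1 fun γ hγ => ?_
  -- the case `q ∤ γ 0 0`
  have key : ∀ γ ∈ Gamma0 N, ¬ (q : ℤ) ∣ γ 0 0 → ∀ a b : P1, v (io γ • a) (io γ • b) = v a b := by
    intro γ hγ hγ0 a b
    obtain ⟨e, he⟩ := mem_Gamma0.1 hγ
    have hcop : IsCoprime (q : ℤ) (N * γ 0 0) := by
      rw [Prime.coprime_iff_not_dvd hq']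
      intro h
      rcases hq'.dvd_or_dvd h with h | h
      · exact hqN' h
      · exact hγ0 h
    obtain ⟨s, t, hst⟩ := hcop
    obtain ⟨L, l1, l2, l3, l4⟩ := exists_Lo N (-t * N * e)
    have hδ : L * γ ∈ Gamma0 (N * q) := by
      rw [mem_Gamma0, Matrix.SpecialLinearGroup.coe_mul, Matrix.mul_apply, Fin.sum_univ_two,
        l3, l4, he]
      refine ⟨s * e, ?_⟩
      push_cast
      linear_combination (-(N : ℤ) * e) * hst
    have h1 := sz_equi hv hδ a b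
    rw [map_mul, mul_smul, mul_smul, hLo _ L l1 l2 l3 l4] at h1
    exact h1
  intro a b
  by_cases h0 : (q : ℤ) ∣ γ 0 0
  · have hT : ModularGroup.T ^ (1 : ℤ) ∈ Gamma0 (N * q) := by
      rw [mem_Gamma0, ModularGroup.coe_T_zpow]; simp
    have hT' : ModularGroup.T ^ (1 : ℤ) ∈ Gamma0 N := by
      rw [mem_Gamma0, ModularGroup.coe_T_zpow]; simp
    have h1 := key (ModularGroup.T ^ (1 : ℤ) * γ) (mul_mem hT' hγ) (by
      rw [Matrix.SpecialLinearGroup.coe_mul, Matrix.mul_apply, Fin.sum_univ_two,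
        ModularGroup.coe_T_zpow]
      intro h
      have h2 : (q : ℤ) ∣ γ 0 0 + γ 1 0 := by simpa using h
      have h3 : (q : ℤ) ∣ γ 1 0 := (dvd_add_right h0).mp h2
      have h4 : (q : ℤ) ∣ 1 := by
        rw [← det_SL γ]
        exact dvd_sub (h0.mul_right _) (h3.mul_left _)
      exact hq'.not_unit (isUnit_of_dvd_one h4)) a b
    rw [map_mul, mul_smul, mul_smul, sz_equi hv hT] at h1
    exact h1
  · exact key γ hγ h0 a b

theorem E_eq {l : ℕ} (hl : l.Prime) (x : P1 → P1 → A) :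
    (Tz A hl - ((l : ℤ) + 1) • LinearMap.id : (P1 → P1 → A) →ₗ[ℤ] (P1 → P1 → A)) x =
      Ihara.ES l x := by
  rw [LinearMap.sub_apply, LinearMap.smul_apply, LinearMap.id_apply, Ihara.ES, Tz_TS]
  congr 1
  rw [← natCast_zsmul]
  push_cast
  rfl

theorem F_eq {l : ℕ} (hl : l.Prime) (x : P1 → P1 → A) :
    (Tz A hl ∘ₗ Tz A hl - (((l : ℤ) + 1) ^ 2) • LinearMap.id :
      (P1 → P1 → A) →ₗ[ℤ] (P1 → P1 → A)) x = Ihara.FS l x := by
  rw [LinearMap.sub_apply, LinearMap.smul_apply, LinearMap.id_apply, Ihara.FS,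
    LinearMap.comp_apply, Tz_TS, Tz_TS]
  congr 1
  rw [← natCast_zsmul]
  push_cast
  rfl

end Om

open Om

/-- **(Om-2)** -/
theorem omTwo : OmTwoSt := by
  intro N q hN hq hqN A _ x hx y hy h l hl hlN
  obtain ⟨M', hM', hI⟩ := IharaL.iharaStatement N q hN hq hqN A x y (sz_iff.mp hx) (sz_iff.mp hy)
    (by
      rw [um_Di hq.ne_zero]
      exact eq_neg_of_add_eq_zero_left h) l hl hlN
  refine ⟨M', hM', fun l' hl' h' => ?_⟩
  rw [LinearMap.comp_apply, LinearMap.comp_apply, F_eq, E_eq, E_eq]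
  exact hI l' hl' h'

/-- **(Om-Sat)** -/
theorem omSat : OmSatSt := by
  intro N q hN hq hqN A _ hqA x hx h l hl hlN
  set v : P1 → P1 → A := Bz A hq x - Tz A hq x with hv
  have h0 : (q : ℤ) • x + Bz A hq v = 0 := by
    rw [← h, hv, map_sub]
    simp only [iz, LinearMap.add_apply, LinearMap.sub_apply, LinearMap.smul_apply,
      LinearMap.id_apply, LinearMap.comp_apply]
    abel
  have hvN : v ∈ SZ A N := sz_gen hq hqN (Submodule.smul_mem _ _ (sz_le (dvd_mul_right _ _) hx))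
    (Submodule.sub_mem _ (sz_B hq hx) (sz_le (dvd_mul_right _ _) (sz_T hq hqN hx))) h0
  obtain ⟨M', hM', hI⟩ := omTwo N q hN hq hqN A _ (Submodule.smul_mem _ (q : ℤ) hx) v hvN h0 l hl hlN
  refine ⟨M', hM', fun l' hl' h' => ?_⟩
  have h1 := hI l' hl' h'
  rw [map_smul] at h1
  funext a b
  have h2 := congrFun (congrFun h1 a) b
  refine hqA.1 ?_
  change q • _ = q • (0 : A)
  rw [smul_zero, ← natCast_zsmul]
  exact h2

end Fermat.Agent.RT
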