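import Fermat.Agent.RT.OmSt
import Fermat.Agent.LR.Adj2
import Fermat.Agent.TWCoh.TWLevel

/-!
# Traces of modular symbols
-/

set_option autoImplicit false
set_option maxHeartbeats 400000
set_option linter.style.haveILetI false

noncomputable section

namespace Fermat.Agent.RT

open Matrix CongruenceSubgroup Fermat.Agent.TWCoh
open scoped MatrixGroups

theorem mem_SZ {A : Type*} [AddCommGroup A] {N : ℕ} {φ : P1 → P1 → A} :
    φ ∈ SZ A N ↔ (∀ x y z, φ x y + φ y z = φ x z) ∧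
      ∀ γ ∈ Gamma0 N, ∀ x y, φ (io γ • x) (io γ • y) = φ x y := by
  constructor
  · intro h
    refine ⟨h.1, fun γ hγ x y => ?_⟩
    rw [h.2 γ hγ x y]
    have : (1 : DirichletCharacter ℤ 1) ((γ 0 0 : ℤ) : ZMod 1) = 1 :=
      MulChar.one_apply (isUnit_of_subsingleton _)
    rw [this, one_smul]
  · rintro ⟨h1, h2⟩
    refine ⟨h1, fun γ hγ x y => ?_⟩
    rw [h2 γ hγ x y]
    have : (1 : DirichletCharacter ℤ 1) ((γ 0 0 : ℤ) : ZMod 1) = 1 :=
      MulChar.one_apply (isUnit_of_subsingleton _)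
    rw [this, one_smul]

/-- coset representatives -/
structure CR (Γ' Γ : Subgroup SL(2, ℤ)) {ι : Type} (g : ι → SL(2, ℤ)) : Prop where
  le : Γ' ≤ Γ
  mem : ∀ i, g i ∈ Γ
  ex : ∀ δ ∈ Γ, ∃ i, δ * (g i)⁻¹ ∈ Γ'
  uq : ∀ i j, g i * (g j)⁻¹ ∈ Γ' → i = j

namespace CR

variable {Γ'' Γ' Γ : Subgroup SL(2, ℤ)} {ι κ : Type} {g : ι → SL(2, ℤ)} {β : κ → SL(2, ℤ)}

theorem trans (h1 : CR Γ'' Γ' β) (h2 : CR Γ' Γ g) :
    CR Γ'' Γ (fun ki : κ × ι => β ki.1 * g ki.2) where
  le := h1.le.trans h2.le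
  mem := fun ki => Γ.mul_mem (h2.le (h1.mem ki.1)) (h2.mem ki.2)
  ex := by
    intro δ hδ
    obtain ⟨i, hi⟩ := h2.ex δ hδ
    obtain ⟨k, hk⟩ := h1.ex _ hi
    exact ⟨(k, i), by rwa [_root_.mul_inv_rev, ← mul_assoc]⟩
  uq := by
    rintro ⟨k, i⟩ ⟨k', i'⟩ h
    have e : β k * g i * (β k' * g i')⁻¹ = β k * (g i * (g i')⁻¹) * (β k')⁻¹ := by group
    change β k * g i * (β k' * g i')⁻¹ ∈ Γ'' at h
    rw [e] at h
    have h3 : g i * (g i')⁻¹ ∈ Γ' := by
      have h4 := Γ'.mul_mem (Γ'.mul_mem (Γ'.inv_mem (h1.mem k)) (h1.le h)) (h1.mem k')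
      have e2 : (β k)⁻¹ * (β k * (g i * (g i')⁻¹) * (β k')⁻¹) * β k' = g i * (g i')⁻¹ := by group
      rwa [e2] at h4
    have hi := h2.uq i i' h3
    subst hi
    rw [mul_inv_cancel, mul_one] at h
    have hk := h1.uq k k' h
    rw [hk]

variable [Fintype ι]

/-- the permutation -/
theorem exists_perm (h : CR Γ' Γ g) {γ : SL(2, ℤ)} (hγ : γ ∈ Γ) :
    ∃ σ : Equiv.Perm ι, ∀ i, ∃ δ ∈ Γ', g i * γ = δ * g (σ i) := by
  have h1 : ∀ i, ∃ j, g i * γ * (g j)⁻¹ ∈ Γ' := fun i => h.ex _ (Γ.mul_mem (h.mem i) hγ)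
  choose s hs using h1
  have hinj : Function.Injective s := by
    intro i j hij
    apply h.uq
    have h2 := Γ'.mul_mem (hs i) (Γ'.inv_mem (hs j))
    rw [hij] at h2
    have e : g i * γ * (g (s j))⁻¹ * (g j * γ * (g (s j))⁻¹)⁻¹ = g i * (g j)⁻¹ := by group
    rwa [e] at h2
  refine ⟨Equiv.ofBijective s (Finite.injective_iff_bijective.mp hinj), fun i => ?_⟩
  refine ⟨g i * γ * (g (s i))⁻¹, hs i, ?_⟩
  change g i * γ = g i * γ * (g (s i))⁻¹ * g (s i)
  group

/-- the trace -/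
theorem trace_inv {A : Type*} [AddCommGroup A] (h : CR Γ' Γ g) {x : P1 → P1 → A}
    (hx : ∀ γ ∈ Γ', ∀ a b, x (io γ • a) (io γ • b) = x a b) {γ : SL(2, ℤ)} (hγ : γ ∈ Γ)
    (a b : P1) : ∑ i, x (io (g i) • io γ • a) (io (g i) • io γ • b) =
      ∑ i, x (io (g i) • a) (io (g i) • b) := by
  obtain ⟨σ, hσ⟩ := h.exists_perm hγ
  rw [← Equiv.sum_comp σ (fun i => x (io (g i) • a) (io (g i) • b))]
  refine Finset.sum_congr rfl fun i _ => ?_
  obtain ⟨δ, hδ, e⟩ := hσ i
  rw [← mul_smul, ← mul_smul, ← map_mul, e, map_mul, mul_smul, mul_smul, hx δ hδ]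

theorem trace_mem {A : Type*} [AddCommGroup A] {N N' : ℕ} (h : CR (Gamma0 N') (Gamma0 N) g)
    {x : P1 → P1 → A} (hx : x ∈ SZ A N') :
    (fun a b => ∑ i, x (io (g i) • a) (io (g i) • b)) ∈ SZ A N := by
  rw [mem_SZ] at hx ⊢
  refine ⟨fun a b c => ?_, fun γ hγ a b => h.trace_inv hx.2 hγ a b⟩
  rw [← Finset.sum_add_distrib]
  exact Finset.sum_congr rfl fun i _ => hx.1 _ _ _

/-- the trace of an intersection symbol -/
theorem trace_iota (h : CR Γ' Γ g) {γ : SL(2, ℤ)} (hγ : γ ∈ Γ') (a b : P1) :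
    ∑ i, LR.iota Γ' γ (io (g i) • a) (io (g i) • b) = LR.iota Γ γ a b := by
  let F : LR.WF Γ Γ' Unit :=
    { A := fun _ => 1
      g := fun γ _ => ⟨γ, h.le γ.2⟩
      s := fun _ _ => ()
      spec := fun γ i => by rw [one_mul, mul_one]
      s_one := fun _ => rfl
      s_mul := fun _ _ _ => rfl }
  have := LR.adj2 F (fun i => io (g i)) (fun _ => LR.dt_pos_one) 1 (fun x => one_smul _ x)
    ?_ ?_ ?_ ?_ ⟨γ, hγ⟩ a b
  · refine this.trans ?_
    exact (Fintype.sum_unique _).trans rfl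
  · intro i h'
    refine ⟨(), ⟨h' * g i, Γ.mul_mem (h.le h'.2) (h.mem i)⟩, ?_⟩
    change io (h' : SL(2, ℤ)) * io (g i) = 1 * (1⁻¹ * io (h' * g i))
    rw [one_mul, inv_one, one_mul, map_mul]
  · intro _ h'
    obtain ⟨i, hi⟩ := h.ex h' h'.2
    refine ⟨i, ⟨_, hi⟩, ?_⟩
    change io ((h' : SL(2, ℤ)) * (g i)⁻¹) * io (g i) = 1 * (1⁻¹ * io (h' : SL(2, ℤ)))
    rw [one_mul, inv_one, one_mul, ← map_mul, inv_mul_cancel_right]
  · intro i j _ _
    rfl
  · intro i j γ e
    apply h.uq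
    have e1 : io (g i) = io (γ : SL(2, ℤ)) * io (g j) := e
    have e2 : g i = γ * g j := io_injective (by rw [map_mul]; exact e1)
    rw [e2, mul_inv_cancel_right]
    exact γ.2

end CR

section Reps

/-- lower triangular matrices -/
def low (m : ℤ) : SL(2, ℤ) := ⟨!![1, 0; m, 1], by rw [Matrix.det_fin_two_of]; ring⟩

theorem low_zero : low 0 = 1 := by
  ext i j
  fin_cases i <;> fin_cases j <;> simp [low]

theorem ent_low (m : ℤ) : Ent (io (low m)) 1 0 m 1 :=
  (ent_io _).congr (by simp [low]) (by simp [low]) (by simp [low]) (by simp [low])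

/-- representatives of `Γ₀(Mq) \ Γ₀(M)`, `q ∣ M` -/
def bet (M q : ℕ) (k : Fin q) : SL(2, ℤ) := low (M * (k : ℕ))

theorem cr_bet {M q : ℕ} (hM : M ≠ 0) (hq : q.Prime) (hqM : q ∣ M) :
    CR (Gamma0 (M * q)) (Gamma0 M) (bet M q) where
  le := by
    intro γ hγ
    rw [mem_Gamma0] at hγ ⊢
    exact (by exact_mod_cast Dvd.intro _ rfl : (M : ℤ) ∣ ((M * q : ℕ) : ℤ)).trans hγ
  mem := by
    intro k
    rw [mem_Gamma0]
    change (M : ℤ) ∣ M * ((k : ℕ) : ℤ)
    exact Dvd.intro _ rfl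
  ex := by
    intro δ hδ
    rw [mem_Gamma0] at hδ
    obtain ⟨c, hc⟩ := hδ
    have hdet := det_SL δ
    have hcop : ¬ (q : ℤ) ∣ δ 1 1 := by
      intro h
      have h1 : (q : ℤ) ∣ 1 := by
        rw [← hdet, hc]
        refine dvd_sub (h.mul_left _) ?_
        exact ((Int.natCast_dvd_natCast.mpr hqM).mul_right _).mul_left _
      exact hq.one_lt.ne' (by exact_mod_cast Int.eq_one_of_dvd_one (by positivity) h1)
    haveI : Fact q.Prime := ⟨hq⟩
    haveI : NeZero q := ⟨hq.ne_zero⟩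
    have hd : ((δ 1 1 : ℤ) : ZMod q) ≠ 0 := by
      rwa [Ne, ZMod.intCast_zmod_eq_zero_iff_dvd]
    let k : ZMod q := (c : ZMod q) * ((δ 1 1 : ℤ) : ZMod q)⁻¹
    refine ⟨⟨k.val, ZMod.val_lt k⟩, ?_⟩
    rw [mem_Gamma0]
    have e : (δ * (bet M q ⟨k.val, ZMod.val_lt k⟩)⁻¹) 1 0 = M * (c - (k.val : ℤ) * δ 1 1) := by
      rw [Matrix.SpecialLinearGroup.coe_mul, Matrix.mul_apply, Fin.sum_univ_two,
        Matrix.SpecialLinearGroup.SL2_inv_expl, hc]
      simp [bet, low]
      ring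
    rw [e, Nat.cast_mul]
    apply mul_dvd_mul_left
    rw [← ZMod.intCast_zmod_eq_zero_iff_dvd]
    push_cast
    rw [ZMod.natCast_val, ZMod.cast_id]
    simp only [k]
    field_simp
    ring
  uq := by
    intro k k' h
    rw [mem_Gamma0] at h
    have e : (bet M q k * (bet M q k')⁻¹) 1 0 = M * ((k : ℕ) - ((k' : ℕ) : ℤ)) := by
      rw [Matrix.SpecialLinearGroup.coe_mul, Matrix.mul_apply, Fin.sum_univ_two,
        Matrix.SpecialLinearGroup.SL2_inv_expl]
      simp [bet, low]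
      ring
    rw [e, Nat.cast_mul] at h
    have h1 : (q : ℤ) ∣ (k : ℕ) - ((k' : ℕ) : ℤ) :=
      (mul_dvd_mul_iff_left (by exact_mod_cast hM)).mp h
    obtain ⟨t, ht⟩ := h1
    have hk := k.2
    have hk' := k'.2
    apply Fin.ext
    have ht0 : t = 0 := by
      by_contra h0
      rcases lt_or_gt_of_ne h0 with h2 | h2
      · have : (q : ℤ) * t ≤ q * (-1) := by
          apply mul_le_mul_of_nonneg_left (by omega) (by positivity)
        omega
      · have : (q : ℤ) * 1 ≤ q * t := by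
          apply mul_le_mul_of_nonneg_left (by omega) (by positivity)
        omega
    rw [ht0, mul_zero] at ht
    omega

/-- Bézout data -/
theorem exists_bez {N q : ℕ} (hq : q.Prime) (hqN : ¬ q ∣ N) :
    ∃ b d : ℤ, (q : ℤ) * d - b * N = 1 := by
  have hc : IsCoprime (q : ℤ) (N : ℤ) :=
    Nat.isCoprime_iff_coprime.mpr ((Nat.Prime.coprime_iff_not_dvd hq).mpr hqN)
  obtain ⟨u, v, h⟩ := hc
  exact ⟨-v, u, by linear_combination h⟩

/-- representatives of `Γ₀(Nq) \ Γ₀(N)`, `q ∤ N` -/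
def hre (N q : ℕ) (b d : ℤ) (h : (q : ℤ) * d - b * N = 1) : Option (Fin q) → SL(2, ℤ)
  | none => 1
  | some j => ⟨!![1, (j : ℕ) + b; N, N * (j : ℕ) + q * d], by
      rw [Matrix.det_fin_two_of]; linear_combination h⟩

theorem cr_hre {N q : ℕ} (hN : N ≠ 0) (hq : q.Prime) (hqN : ¬ q ∣ N) {b d : ℤ}
    (hb : (q : ℤ) * d - b * N = 1) :
    CR (Gamma0 (N * q)) (Gamma0 N) (hre N q b d hb) where
  le := by
    intro γ hγ
    rw [mem_Gamma0] at hγ ⊢
    exact (by exact_mod_cast Dvd.intro _ rfl : (N : ℤ) ∣ ((N * q : ℕ) : ℤ)).trans hγ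
  mem := by
    rintro (_ | j)
    · exact Subgroup.one_mem _
    · rw [mem_Gamma0]
      change (N : ℤ) ∣ (N : ℤ)
      exact dvd_rfl
  ex := by
    intro δ hδ
    rw [mem_Gamma0] at hδ
    obtain ⟨c, hc⟩ := hδ
    haveI : Fact q.Prime := ⟨hq⟩
    haveI : NeZero q := ⟨hq.ne_zero⟩
    by_cases hqc : (q : ℤ) ∣ c
    · refine ⟨none, ?_⟩
      change δ * 1⁻¹ ∈ _
      rw [inv_one, mul_one, mem_Gamma0, hc, Nat.cast_mul]
      exact mul_dvd_mul_left _ hqc
    · have hcz : ((c : ℤ) : ZMod q) ≠ 0 := by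
        rwa [Ne, ZMod.intCast_zmod_eq_zero_iff_dvd]
      have hNz : ((N : ℕ) : ZMod q) ≠ 0 := by
        rwa [Ne, ZMod.natCast_eq_zero_iff]
      let j : ZMod q := ((δ 1 1 : ℤ) : ZMod q) * ((N : ZMod q) * (c : ZMod q))⁻¹
      refine ⟨some ⟨j.val, ZMod.val_lt j⟩, ?_⟩
      rw [mem_Gamma0]
      have e : (δ * (hre N q b d hb (some ⟨j.val, ZMod.val_lt j⟩))⁻¹) 1 0 =
          N * (c * (N * (j.val : ℤ) + q * d) - δ 1 1) := by
        rw [Matrix.SpecialLinearGroup.coe_mul, Matrix.mul_apply, Fin.sum_univ_two,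
          Matrix.SpecialLinearGroup.SL2_inv_expl, hc]
        simp [hre]
        ring
      rw [e, Nat.cast_mul]
      apply mul_dvd_mul_left
      rw [← ZMod.intCast_zmod_eq_zero_iff_dvd]
      push_cast
      rw [ZMod.natCast_val, ZMod.cast_id, ZMod.natCast_self, zero_mul, add_zero]
      simp only [j]
      field_simp
      ring
  uq := by
    have key : ∀ j : Fin q, (hre N q b d hb (some j)) ∉ Gamma0 (N * q) := by
      intro j h
      rw [mem_Gamma0] at h
      change ((N * q : ℕ) : ℤ) ∣ (N : ℤ) at h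
      have h1 := Int.natCast_dvd_natCast.mp h
      have h2 := Nat.le_of_dvd (Nat.pos_of_ne_zero hN) h1
      have h3 := hq.two_le
      have h4 : 0 < N := Nat.pos_of_ne_zero hN
      nlinarith
    rintro (_ | k) (_ | k') h
    · rfl
    · exfalso
      apply key k'
      change 1 * _ ∈ _ at h
      rw [one_mul] at h
      have := Subgroup.inv_mem _ h
      rwa [inv_inv] at this
    · exfalso
      apply key k
      change _ * 1⁻¹ ∈ _ at h
      rwa [inv_one, mul_one] at h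
    · rw [mem_Gamma0] at h
      have e : (hre N q b d hb (some k) * (hre N q b d hb (some k'))⁻¹) 1 0 =
          N * (N * ((k' : ℕ) - ((k : ℕ) : ℤ))) := by
        rw [Matrix.SpecialLinearGroup.coe_mul, Matrix.mul_apply, Fin.sum_univ_two,
          Matrix.SpecialLinearGroup.SL2_inv_expl]
        simp [hre]
        ring
      rw [e, Nat.cast_mul] at h
      have h1 : (q : ℤ) ∣ N * ((k' : ℕ) - ((k : ℕ) : ℤ)) :=
        (mul_dvd_mul_iff_left (by exact_mod_cast hN)).mp h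
      have hqp : Prime (q : ℤ) := Nat.prime_iff_prime_int.mp hq
      have h2 : (q : ℤ) ∣ ((k' : ℕ) - ((k : ℕ) : ℤ)) := by
        rcases hqp.dvd_or_dvd h1 with h3 | h3
        · exact absurd (Int.natCast_dvd_natCast.mp h3) hqN
        · exact h3
      obtain ⟨t, ht⟩ := h2
      have hk := k.2
      have hk' := k'.2
      congr 1
      apply Fin.ext
      have ht0 : t = 0 := by
        by_contra h0
        rcases lt_or_gt_of_ne h0 with h2 | h2
        · have : (q : ℤ) * t ≤ q * (-1) := by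
            apply mul_le_mul_of_nonneg_left (by omega) (by positivity)
          omega
        · have : (q : ℤ) * 1 ≤ q * t := by
            apply mul_le_mul_of_nonneg_left (by omega) (by positivity)
          omega
      rw [ht0, mul_zero] at ht
      omega

end Reps

section Tr

variable {N q : ℕ} (hN : N ≠ 0) (hq : q.Prime) (hqN : ¬ q ∣ N) {A : Type*} [AddCommGroup A]

include hN hqN

/-- the trace of `B_q y` from level `N q` to level `N` -/
theorem tr_B {b d : ℤ} (hb : (q : ℤ) * d - b * N = 1) {y : P1 → P1 → A} (hy : y ∈ SZ A N)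
    (u v : P1) : ∑ i, Bz A hq y (io (hre N q b d hb i) • u) (io (hre N q b d hb i) • v) =
      Tz A hq y u v := by
  rw [mem_SZ] at hy
  rw [Fintype.sum_option]
  have h0 : Bz A hq y (io (hre N q b d hb none) • u) (io (hre N q b d hb none) • v) =
      Bz A hq y u v := by
    change Bz A hq y (io 1 • u) (io 1 • v) = _
    rw [map_one, one_smul, one_smul]
  obtain ⟨γ, e00, e01, e10, e11⟩ := exists_SL (q : ℤ) b N d (by linear_combination hb)
  have hγ : γ ∈ Gamma0 N := by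
    rw [mem_Gamma0, e10]
  have h1 : ∀ j : Fin q, Bz A hq y (io (hre N q b d hb (some j)) • u)
      (io (hre N q b d hb (some j)) • v) =
      y (Up q hq.ne_zero (j : ℕ) • u) (Up q hq.ne_zero (j : ℕ) • v) := by
    intro j
    have e : Di q hq.ne_zero * io (hre N q b d hb (some j)) = io γ * Up q hq.ne_zero (j : ℕ) := by
      refine (((ent_Di q hq.ne_zero).mul (ent_io _)).congr ?_ ?_ ?_ ?_).ext
        ((ent_io γ).mul (ent_Up q hq.ne_zero _)) <;>
      simp only [e00, e01, e10, e11] <;> simp [hre] <;> ring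
    change y (Di q hq.ne_zero • io (hre N q b d hb (some j)) • u)
      (Di q hq.ne_zero • io (hre N q b d hb (some j)) • v) = _
    rw [← mul_smul, ← mul_smul, e, mul_smul, mul_smul, hy.2 γ hγ]
  rw [h0]
  simp only [h1]
  have hU : Uz A hq y u v = ∑ j : Fin q, y (Up q hq.ne_zero (j : ℕ) • u)
      (Up q hq.ne_zero (j : ℕ) • v) := by
    rw [Uop_apply]
    exact Finset.sum_range fun j : ℕ => y (Up q hq.ne_zero (j : ℕ) • u)
      (Up q hq.ne_zero (j : ℕ) • v)
  rw [← hU, add_comm]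
  rfl

theorem tr_BB1 {y : P1 → P1 → A} (hy : y ∈ SZ A N) (u v : P1) :
    ∑ k : Fin q, Bz A hq y (io (bet (N * q) q k) • u) (io (bet (N * q) q k) • v) =
      (q : ℤ) • Bz A hq y u v := by
  rw [mem_SZ] at hy
  have h1 : ∀ k : Fin q, Bz A hq y (io (bet (N * q) q k) • u) (io (bet (N * q) q k) • v) =
      Bz A hq y u v := by
    intro k
    obtain ⟨γ, e00, e01, e10, e11⟩ := exists_SL 1 0 (N * (k : ℕ)) 1 (by ring)
    have hγ : γ ∈ Gamma0 N := by
      rw [mem_Gamma0, e10]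
      exact Dvd.intro _ rfl
    have e : Di q hq.ne_zero * io (bet (N * q) q k) = io γ * Di q hq.ne_zero := by
      refine (((ent_Di q hq.ne_zero).mul (ent_io _)).congr ?_ ?_ ?_ ?_).ext
        ((ent_io γ).mul (ent_Di q hq.ne_zero)) <;>
      simp only [e00, e01, e10, e11] <;> simp [bet, low] <;> ring
    change y (Di q hq.ne_zero • io (bet (N * q) q k) • u)
      (Di q hq.ne_zero • io (bet (N * q) q k) • v) = _
    rw [← mul_smul, ← mul_smul, e, mul_smul, mul_smul, hy.2 γ hγ]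
    rfl
  simp only [h1]
  rw [Finset.sum_const, Finset.card_univ, Fintype.card_fin, natCast_zsmul]

/-- the trace of `B_q² x` from level `N q²` to level `N q` -/
theorem tr_BB2 {x : P1 → P1 → A} (hx : x ∈ SZ A N) (u v : P1) :
    ∑ k : Fin q, Bz A hq (Bz A hq x) (io (bet (N * q) q k) • u) (io (bet (N * q) q k) • v) =
      Bz A hq (Tz A hq x) u v - x u v := by
  haveI : Fact q.Prime := ⟨hq⟩
  haveI : NeZero q := ⟨hq.ne_zero⟩
  have hx' := hx
  rw [mem_SZ] at hx
  have hq0 := hq.ne_zero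
  have hNz : ((N : ℕ) : ZMod q) ≠ 0 := by
    rwa [Ne, ZMod.natCast_eq_zero_iff]
  -- as sums over `range q`
  let F : ℕ → A := fun k =>
    x (Di q hq0 • Di q hq0 • io (low (((N * q : ℕ) : ℤ) * (k : ℕ))) • u)
      (Di q hq0 • Di q hq0 • io (low (((N * q : ℕ) : ℤ) * (k : ℕ))) • v)
  let F' : ℕ → A := fun j => x (Up q hq0 (j : ℕ) • Di q hq0 • u) (Up q hq0 (j : ℕ) • Di q hq0 • v)
  have hL : ∑ k : Fin q, Bz A hq (Bz A hq x) (io (bet (N * q) q k) • u)
      (io (bet (N * q) q k) • v) = ∑ k ∈ Finset.range q, F k := by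
    rw [Finset.sum_range]
    rfl
  have hR : Bz A hq (Tz A hq x) u v = (∑ j ∈ Finset.range q, F' j) +
      x (Di q hq0 • Di q hq0 • u) (Di q hq0 • Di q hq0 • v) := rfl
  have hF0 : F 0 = x (Di q hq0 • Di q hq0 • u) (Di q hq0 • Di q hq0 • v) := by
    have e : low (((N * q : ℕ) : ℤ) * ((0 : ℕ) : ℤ)) = 1 := by
      rw [Nat.cast_zero, mul_zero, low_zero]
    change x (Di q hq0 • Di q hq0 • io (low (((N * q : ℕ) : ℤ) * ((0 : ℕ) : ℤ))) • u)
      (Di q hq0 • Di q hq0 • io (low (((N * q : ℕ) : ℤ) * ((0 : ℕ) : ℤ))) • v) = _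
    rw [e, map_one, one_smul, one_smul]
  have hF'0 : F' 0 = x u v := by
    change x (Up q hq0 ((0 : ℕ) : ℤ) • Di q hq0 • u) (Up q hq0 ((0 : ℕ) : ℤ) • Di q hq0 • v) = _
    have e : Ent (Up q hq0 ((0 : ℕ) : ℤ) * Di q hq0) (q : ℚ) 0 0 (q : ℚ) :=
      ((ent_Up q hq0 _).mul (ent_Di q hq0)).congr (by simp) (by simp) (by simp) (by simp)
    rw [← mul_smul, ← mul_smul, scalar_smul e, scalar_smul e]
  have h0 : (0 : ℕ) ∈ Finset.range q := Finset.mem_range.mpr hq.pos
  rw [hL, hR, ← Finset.add_sum_erase _ F h0, ← Finset.add_sum_erase _ F' h0, hF0, hF'0]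
  have hmain : ∑ k ∈ (Finset.range q).erase 0, F k = ∑ j ∈ (Finset.range q).erase 0, F' j := by
    let i : ℕ → ℕ := fun k => (((N : ZMod q) * (k : ZMod q))⁻¹).val
    have hcast : ∀ k, ((i k : ℕ) : ZMod q) = ((N : ZMod q) * (k : ZMod q))⁻¹ := fun k => by
      simp only [i]
      rw [ZMod.natCast_val, ZMod.cast_id]
    have hkz : ∀ k ∈ (Finset.range q).erase 0, ((k : ℕ) : ZMod q) ≠ 0 := by
      intro k hk
      rw [Finset.mem_erase, Finset.mem_range] at hk
      rw [Ne, ZMod.natCast_eq_zero_iff]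
      intro h
      have := Nat.le_of_dvd (Nat.pos_of_ne_zero hk.1) h
      omega
    have hmaps : ∀ k ∈ (Finset.range q).erase 0, i k ∈ (Finset.range q).erase 0 := by
      intro k hk
      rw [Finset.mem_erase, Finset.mem_range]
      refine ⟨?_, ZMod.val_lt _⟩
      intro h
      have h1 := hcast k
      rw [h, Nat.cast_zero] at h1
      exact inv_ne_zero (mul_ne_zero hNz (hkz k hk)) h1.symm
    have hinv : ∀ k ∈ (Finset.range q).erase 0, i (i k) = k := by
      intro k hk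
      have hk' := hk
      rw [Finset.mem_erase, Finset.mem_range] at hk
      have h1 : (((i (i k) : ℕ)) : ZMod q) = ((k : ℕ) : ZMod q) := by
        rw [hcast, hcast]
        have := hkz k hk'
        field_simp
      have h2 := (ZMod.natCast_eq_natCast_iff' _ _ _).mp h1
      rw [Nat.mod_eq_of_lt (ZMod.val_lt _), Nat.mod_eq_of_lt hk.2] at h2
      exact h2
    refine Finset.sum_nbij' i i hmaps hmaps hinv hinv ?_
    intro k hk
    -- divisibility
    have hdvd : (q : ℤ) ∣ 1 - N * (k : ℕ) * (i k : ℕ) := by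
      rw [← ZMod.intCast_zmod_eq_zero_iff_dvd]
      push_cast
      rw [hcast]
      have := hkz k hk
      field_simp
      ring
    obtain ⟨t, ht⟩ := hdvd
    obtain ⟨γ, e00, e01, e10, e11⟩ := exists_SL (q : ℤ) (-(i k : ℕ)) (N * (k : ℕ)) t
      (by linear_combination -ht)
    have hγ : γ ∈ Gamma0 N := by
      rw [mem_Gamma0, e10]
      exact Dvd.intro _ rfl
    have e : ∀ w : P1, Di q hq0 • Di q hq0 • io (low (((N * q : ℕ) : ℤ) * (k : ℕ))) • w =
        io γ • Up q hq0 ((i k : ℕ) : ℤ) • Di q hq0 • w := by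
      intro w
      have ht' : (1 : ℚ) - N * (k : ℕ) * (i k : ℕ) = q * t := by exact_mod_cast ht
      rw [← mul_smul, ← mul_smul, ← mul_smul, ← mul_smul]
      congr 1
      refine ((((ent_Di q hq0).mul (ent_Di q hq0)).mul (ent_low _)).congr ?_ ?_ ?_ ?_).ext
        (((ent_io γ).mul (ent_Up q hq0 _)).mul (ent_Di q hq0)) <;>
      simp only [e00, e01, e10, e11] <;> push_cast
      · ring
      · ring
      · ring
      · linear_combination ht'
    change x _ _ = x _ _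
    rw [e u, e v, hx.2 γ hγ]
  rw [hmain]
  abel

end Tr

theorem omTr : OmTrSt := by
  intro N q hN hq hqN
  obtain ⟨b, d, hb⟩ := exists_bez hq hqN
  have hb' : (q : ℤ) * d - b * N = 1 := hb
  have hNq : N * q ≠ 0 := mul_ne_zero hN hq.ne_zero
  have hcr : CR (Gamma0 (N * q ^ 2)) (Gamma0 N)
      (fun ki : Fin q × Option (Fin q) => bet (N * q) q ki.1 * hre N q b d hb' ki.2) := by
    have h1 := (cr_bet hNq hq (Dvd.intro_left N rfl)).trans (cr_hre hN hq hqN hb')
    rwa [mul_assoc, ← pow_two] at h1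
  refine ⟨Fin q × Option (Fin q), inferInstance, _, fun A _ x hx => hcr.trace_mem hx, ?_,
    fun γ hγ a c => hcr.trace_iota hγ a c⟩
  intro A _ x hx
  have hq0 := hq.ne_zero
  have hTx : Tz A hq x ∈ SZ A N := by
    have h1 := (cr_hre hN hq hqN hb').trace_mem (x := Bz A hq x) (A := A) ?_
    · convert h1 using 1
      funext u v
      exact (tr_B hN hq hqN hb' hx u v).symm
    · rw [mem_SZ] at hx ⊢
      refine ⟨fun a c e => hx.1 _ _ _, fun γ hγ a c => ?_⟩
      rw [mem_Gamma0, Nat.cast_mul] at hγ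
      obtain ⟨t, ht⟩ := hγ
      have hdet := det_SL γ
      obtain ⟨δ, e00, e01, e10, e11⟩ := exists_SL (γ 0 0) (q * γ 0 1) (N * t) (γ 1 1) (by
        rw [ht] at hdet
        linear_combination hdet)
      have hδ : δ ∈ Gamma0 N := by
        rw [mem_Gamma0, e10]
        exact Dvd.intro _ rfl
      have e : Di q hq0 * io γ = io δ * Di q hq0 := by
        refine (((ent_Di q hq0).mul (ent_io γ)).congr ?_ ?_ ?_ ?_).ext
          ((ent_io δ).mul (ent_Di q hq0)) <;>
        simp only [e00, e01, e10, e11, ht] <;> push_cast <;> ring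
      change x (Di q hq0 • io γ • a) (Di q hq0 • io γ • c) = x (Di q hq0 • a) (Di q hq0 • c)
      rw [← mul_smul, ← mul_smul, e, mul_smul, mul_smul, hx.2 δ hδ]
  funext u v
  rw [Fintype.sum_prod_type_right]
  -- the trace to level `N q`
  have hstep : ∀ (u v : P1), ∑ k : Fin q, iz A hq x (io (bet (N * q) q k) • u)
      (io (bet (N * q) q k) • v) =
      ((q : ℤ) * q) • x u v - (q : ℤ) • Bz A hq (Tz A hq x) u v +
        (Bz A hq (Tz A hq x) u v - x u v) := by
    intro u v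
    have e : ∀ k : Fin q, iz A hq x (io (bet (N * q) q k) • u) (io (bet (N * q) q k) • v) =
        (q : ℤ) • x (io (bet (N * q) q k) • u) (io (bet (N * q) q k) • v) -
        Bz A hq (Tz A hq x) (io (bet (N * q) q k) • u) (io (bet (N * q) q k) • v) +
        Bz A hq (Bz A hq x) (io (bet (N * q) q k) • u) (io (bet (N * q) q k) • v) :=
      fun k => rfl
    simp only [e]
    rw [Finset.sum_add_distrib, Finset.sum_sub_distrib, tr_BB1 hN hq hqN hTx,
      tr_BB2 hN hq hqN hx]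
    congr 2
    have hin : ∀ k : Fin q, (q : ℤ) • x (io (bet (N * q) q k) • u) (io (bet (N * q) q k) • v) =
        (q : ℤ) • x u v := by
      intro k
      rw [(mem_SZ.mp hx).2]
      have h1 := (cr_bet hNq hq (Dvd.intro_left N rfl)).mem k
      rw [mem_Gamma0] at h1 ⊢
      exact (by exact_mod_cast Dvd.intro _ rfl : (N : ℤ) ∣ ((N * q : ℕ) : ℤ)).trans h1
    simp only [hin]
    rw [Finset.sum_const, Finset.card_univ, Fintype.card_fin, ← natCast_zsmul, smul_smul]
  have e2 : ∀ i : Option (Fin q), ∑ k : Fin q, iz A hq x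
      (io (bet (N * q) q k * hre N q b d hb' i) • u)
      (io (bet (N * q) q k * hre N q b d hb' i) • v) =
      ((q : ℤ) * q) • x u v - (q : ℤ) • Bz A hq (Tz A hq x) (io (hre N q b d hb' i) • u)
        (io (hre N q b d hb' i) • v) + (Bz A hq (Tz A hq x) (io (hre N q b d hb' i) • u)
        (io (hre N q b d hb' i) • v) - x u v) := by
    intro i
    have h1 := hstep (io (hre N q b d hb' i) • u) (io (hre N q b d hb' i) • v)
    rw [(mem_SZ.mp hx).2 _ ((cr_hre hN hq hqN hb').mem i)] at h1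
    rw [← h1]
    refine Finset.sum_congr rfl fun k _ => ?_
    rw [map_mul, mul_smul, mul_smul]
  simp only [e2]
  rw [Finset.sum_add_distrib, Finset.sum_sub_distrib, Finset.sum_sub_distrib,
    Finset.sum_const, Finset.sum_const, ← Finset.smul_sum, tr_B hN hq hqN hb' hTx,
    Finset.card_univ, Fintype.card_option, Fintype.card_fin]
  change _ = ((q : ℤ) - 1) • (((q : ℤ) + 1) ^ 2 • x u v - Tz A hq (Tz A hq x) u v)
  rw [← natCast_zsmul, ← natCast_zsmul]
  push_cast
  module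

/-- the Atkin–Lehner matrix -/
theorem omU : OmUSt := by
  intro N q hN hq hqN A _ hinj x hx hU
  obtain ⟨b, d, hb⟩ := exists_bez hq hqN
  have hb' : (q : ℤ) * d - b * N = 1 := hb
  have hq0 := hq.ne_zero
  have hx' := mem_SZ.mp hx
  obtain ⟨γ0, e00, e01, e10, e11⟩ := exists_SL (q : ℤ) b N d (by linear_combination hb)
  let W : GL (Fin 2) ℚ := (io γ0)⁻¹ * Di q hq0
  have hγ0i : io γ0⁻¹ = (io γ0)⁻¹ := map_inv _ _
  have hWe : Ent W (d * q) (-b) (-(N * q)) q := by
    have h1 : Ent (io γ0⁻¹) (d : ℚ) (-b) (-N) q := by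
      refine (ent_io _).congr ?_ ?_ ?_ ?_ <;>
      rw [Matrix.SpecialLinearGroup.SL2_inv_expl] <;> simp [e00, e01, e10, e11]
    change Ent ((io γ0)⁻¹ * Di q hq0) _ _ _ _
    rw [← hγ0i]
    refine (h1.mul (ent_Di q hq0)).congr ?_ ?_ ?_ ?_ <;> push_cast <;> ring
  let y : P1 → P1 → A := fun a c => x (W • a) (W • c)
  -- `y` has level `N q`
  have hy : ∀ γ ∈ Gamma0 (N * q), ∀ a c, y (io γ • a) (io γ • c) = y a c := by
    intro γ hγ a c
    rw [mem_Gamma0, Nat.cast_mul] at hγ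
    obtain ⟨t, ht⟩ := hγ
    have hdet := det_SL γ
    rw [ht] at hdet
    obtain ⟨δ, f00, f01, f10, f11⟩ := exists_SL
      (d * q * γ 0 0 - b * N * q * t + (d * q * γ 0 1 - b * γ 1 1) * N)
      ((d * γ 0 0 - b * N * t) * b + (d * q * γ 0 1 - b * γ 1 1) * d)
      (N * q * (-(γ 0 0) + q * t - N * γ 0 1 + γ 1 1))
      ((-N * γ 0 0 + N * q * t) * b + (-N * γ 0 1 + γ 1 1) * d * q)
      (by linear_combination ((q : ℤ) * d - b * N) ^ 2 * hdet + ((q : ℤ) * d - b * N + 1) * hb)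
    have hδ : δ ∈ Gamma0 (N * q) := by
      rw [mem_Gamma0, f10, Nat.cast_mul]
      exact Dvd.intro _ rfl
    have hbq : (d : ℚ) * q - b * N = 1 := by
      have : ((q * d - b * N : ℤ) : ℚ) = ((1 : ℤ) : ℚ) := by rw [hb]
      push_cast at this
      linear_combination this
    have e : W * io γ = io δ * W := by
      refine ((hWe.mul (ent_io γ)).congr ?_ ?_ ?_ ?_).ext ((ent_io δ).mul hWe) <;>
      simp only [f00, f01, f10, f11, ht] <;> push_cast
      · linear_combination (-(d : ℚ) * q * γ 0 0 + b * N * q * t) * hbq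
      · linear_combination (-(d : ℚ) * q * γ 0 1 + b * γ 1 1) * hbq
      · linear_combination ((N : ℚ) * q * γ 0 0 - N * q ^ 2 * t) * hbq
      · linear_combination ((N : ℚ) * q * γ 0 1 - q * γ 1 1) * hbq
    change x (W • io γ • a) (W • io γ • c) = x (W • a) (W • c)
    rw [← mul_smul, ← mul_smul, e, mul_smul (io δ) W a, mul_smul (io δ) W c, hx'.2 δ hδ]
  have htr : ∀ u v, ∑ i, y (io (hre N q b d hb' i) • u) (io (hre N q b d hb' i) • v) = y u v := by
    intro u v
    rw [Fintype.sum_option]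
    have h0 : y (io (hre N q b d hb' none) • u) (io (hre N q b d hb' none) • v) = y u v := by
      change y (io 1 • u) (io 1 • v) = _
      rw [map_one, one_smul, one_smul]
    have h1 : ∀ j : Fin q, y (io (hre N q b d hb' (some j)) • u)
        (io (hre N q b d hb' (some j)) • v) =
        x (Up q hq0 (j : ℕ) • u) (Up q hq0 (j : ℕ) • v) := by
      intro j
      have e : W * io (hre N q b d hb' (some j)) = Up q hq0 (j : ℕ) := by
        have e1 : Di q hq0 * io (hre N q b d hb' (some j)) = io γ0 * Up q hq0 (j : ℕ) := by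
          refine (((ent_Di q hq0).mul (ent_io _)).congr ?_ ?_ ?_ ?_).ext
            ((ent_io γ0).mul (ent_Up q hq0 _)) <;>
          simp only [e00, e01, e10, e11] <;> simp [hre] <;> ring
        change (io γ0)⁻¹ * Di q hq0 * _ = _
        rw [mul_assoc, e1, inv_mul_cancel_left]
      change x (W • io (hre N q b d hb' (some j)) • u) (W • io (hre N q b d hb' (some j)) • v) = _
      rw [← mul_smul, ← mul_smul, e]
    have hUx : ∑ j : Fin q, x (Up q hq0 (j : ℕ) • u) (Up q hq0 (j : ℕ) • v) = 0 := by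
      have h2 : Uz A hq x u v = ∑ j : Fin q, x (Up q hq0 (j : ℕ) • u)
          (Up q hq0 (j : ℕ) • v) := by
        rw [Uop_apply]
        exact Finset.sum_range fun j : ℕ => x (Up q hq0 (j : ℕ) • u) (Up q hq0 (j : ℕ) • v)
      rw [← h2, hU]
      rfl
    rw [h0]
    simp only [h1]
    rw [hUx, add_zero]
  have hyN : ∀ γ ∈ Gamma0 N, ∀ a c, y (io γ • a) (io γ • c) = y a c := by
    intro γ hγ a c
    have h1 := (cr_hre hN hq hqN hb').trace_inv (x := y) hy hγ a c
    rw [htr, htr] at h1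
    exact h1
  have hy0 : ∀ u v, y u v = 0 := by
    intro u v
    have h1 := htr u v
    have h2 : ∀ i, y (io (hre N q b d hb' i) • u) (io (hre N q b d hb' i) • v) = y u v :=
      fun i => hyN _ ((cr_hre hN hq hqN hb').mem i) u v
    simp only [h2] at h1
    rw [Finset.sum_const, Finset.card_univ, Fintype.card_option, Fintype.card_fin, succ_nsmul,
      add_eq_right] at h1
    exact hinj (h1.trans (smul_zero q).symm)
  funext a c
  have h1 := hy0 (W⁻¹ • a) (W⁻¹ • c)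
  change x (W • W⁻¹ • a) (W • W⁻¹ • c) = 0 at h1
  rwa [smul_inv_smul, smul_inv_smul] at h1

theorem omUI : OmUISt := by
  intro L q hL hq hqL γ hγ
  have hq0 := hq.ne_zero
  -- conjugation by the dilation
  have hconj : ∀ γ ∈ Gamma0 (L * q), ∃ γ' ∈ Gamma0 L, Di q hq0 * io γ = io γ' * Di q hq0 := by
    intro γ hγ
    rw [mem_Gamma0, Nat.cast_mul] at hγ
    obtain ⟨t, ht⟩ := hγ
    have hdet := det_SL γ
    obtain ⟨δ, e00, e01, e10, e11⟩ := exists_SL (γ 0 0) (q * γ 0 1) (L * t) (γ 1 1) (by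
      rw [ht] at hdet
      linear_combination hdet)
    refine ⟨δ, ?_, ?_⟩
    · rw [mem_Gamma0, e10]
      exact Dvd.intro _ rfl
    · refine (((ent_Di q hq0).mul (ent_io γ)).congr ?_ ?_ ?_ ?_).ext
        ((ent_io δ).mul (ent_Di q hq0)) <;>
      simp only [e00, e01, e10, e11, ht] <;> push_cast <;> ring
  choose! cj hcj hcj' using hconj
  refine ⟨cj γ, hcj γ hγ, hcj' γ hγ, ?_⟩
  let F : LR.WF (Gamma0 L) (Gamma0 (L * q)) Unit :=
    { A := fun _ => Di q hq0
      g := fun γ _ => ⟨cj γ, hcj γ γ.2⟩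
      s := fun _ _ => ()
      spec := fun γ i => hcj' γ γ.2
      s_one := fun _ => rfl
      s_mul := fun _ _ _ => rfl }
  let c : GL (Fin 2) ℚ := mk q 0 0 q (by simpa using hq0)
  have hc : ∀ x : P1, c • x = x := fun x => scalar_smul (ent_mk _ _ _ _ _) x
  have hcomm : ∀ g : GL (Fin 2) ℚ, c * g = g * c := by
    intro g
    obtain ⟨a, b, c', d, hg⟩ := exists_ent g
    refine ((((ent_mk _ _ _ _ _).mul hg).congr ?_ ?_ ?_ ?_).ext
        (hg.mul (ent_mk _ _ _ _ _))) <;> ring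
  have hcD : ∀ j : ℤ, c * ((Di q hq0)⁻¹ * io (ModularGroup.T ^ j)) = Up q hq0 j := by
    intro j
    have h1 : Di q hq0 * Up q hq0 j = c * Tr j := Di_mul_Up_self q hq0 j
    rw [← mul_assoc, hcomm, mul_assoc, io_T_zpow, ← h1, inv_mul_cancel_left]
  funext a e
  have key := LR.adj2 F (fun j : Fin q => Up q hq0 (j : ℕ)) ?_ c hc ?_ ?_ ?_ ?_ ⟨γ, hγ⟩ a e
  · have h2 : Uz ℤ hq (LR.iota (Gamma0 (L * q)) γ) a e =
        ∑ j : Fin q, LR.iota (Gamma0 (L * q)) γ (Up q hq0 (j : ℕ) • a)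
          (Up q hq0 (j : ℕ) • e) := by
      rw [Uop_apply]
      exact Finset.sum_range fun j : ℕ => LR.iota (Gamma0 (L * q)) γ (Up q hq0 (j : ℕ) • a)
          (Up q hq0 (j : ℕ) • e)
    rw [h2]
    exact key.trans ((Fintype.sum_unique _).trans rfl)
  · intro _
    change 0 < Ihara.dt (Di q hq0)
    have h1 : ((Di q hq0 : GL (Fin 2) ℚ) : Matrix (Fin 2) (Fin 2) ℚ) = !![(q : ℚ), 0; 0, 1] :=
      ent_Di q hq0
    rw [Ihara.dt_eq, h1, Matrix.det_fin_two_of]
    have : (0 : ℚ) < q := by exact_mod_cast hq.pos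
    simpa using this
  · intro j h
    refine ⟨(), ⟨cj h * ModularGroup.T ^ ((j : ℕ) : ℤ), ?_⟩, ?_⟩
    · apply Subgroup.mul_mem _ (hcj h h.2)
      rw [mem_Gamma0, ModularGroup.coe_T_zpow]
      simp
    · change io (h : SL(2, ℤ)) * Up q hq0 ((j : ℕ) : ℤ) =
        c * ((Di q hq0)⁻¹ * io (cj h * ModularGroup.T ^ ((j : ℕ) : ℤ)))
      have h3 : (Di q hq0)⁻¹ * io (cj h) = io (h : SL(2, ℤ)) * (Di q hq0)⁻¹ := by
        rw [inv_mul_eq_iff_eq_mul, ← mul_assoc, hcj' h h.2, mul_inv_cancel_right]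
      rw [map_mul, ← mul_assoc (Di q hq0)⁻¹, h3, mul_assoc (io (h : SL(2, ℤ))), ← mul_assoc c,
        hcomm, mul_assoc, hcD]
  · intro _ h'
    have hL' := h'.2
    rw [mem_Gamma0] at hL'
    obtain ⟨t, ht⟩ := hL'
    have hdet := det_SL (h' : SL(2, ℤ))
    haveI : Fact q.Prime := ⟨hq⟩
    haveI : NeZero q := ⟨hq.ne_zero⟩
    have hcop : ¬ (q : ℤ) ∣ (h' : SL(2, ℤ)) 0 0 := by
      intro h
      have h1 : (q : ℤ) ∣ 1 := by
        rw [← hdet, ht]
        refine dvd_sub (h.mul_right _) ?_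
        exact ((Int.natCast_dvd_natCast.mpr hqL).mul_right _).mul_left _
      exact hq.one_lt.ne' (by exact_mod_cast Int.eq_one_of_dvd_one (by positivity) h1)
    have hd : (((h' : SL(2, ℤ)) 0 0 : ℤ) : ZMod q) ≠ 0 := by
      rwa [Ne, ZMod.intCast_zmod_eq_zero_iff_dvd]
    let j : ZMod q := (((h' : SL(2, ℤ)) 0 1 : ℤ) : ZMod q) * (((h' : SL(2, ℤ)) 0 0 : ℤ) : ZMod q)⁻¹
    have hdvd : (q : ℤ) ∣ (h' : SL(2, ℤ)) 0 1 - (h' : SL(2, ℤ)) 0 0 * (j.val : ℤ) := by
      rw [← ZMod.intCast_zmod_eq_zero_iff_dvd]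
      push_cast
      rw [ZMod.natCast_val, ZMod.cast_id]
      simp only [j]
      field_simp
      ring
    obtain ⟨s, hs⟩ := hdvd
    rw [ht] at hdet
    obtain ⟨δ, e00, e01, e10, e11⟩ := exists_SL ((h' : SL(2, ℤ)) 0 0) s (L * q * t)
      ((h' : SL(2, ℤ)) 1 1 - L * t * (j.val : ℤ)) (by linear_combination hdet + L * t * hs)
    have hδ : δ ∈ Gamma0 (L * q) := by
      rw [mem_Gamma0, e10, Nat.cast_mul]
      exact Dvd.intro _ rfl
    refine ⟨⟨j.val, ZMod.val_lt j⟩, ⟨δ, hδ⟩, ?_⟩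
    change io δ * Up q hq0 ((j.val : ℕ) : ℤ) = c * ((Di q hq0)⁻¹ * io (h' : SL(2, ℤ)))
    have h5 : c * ((Di q hq0)⁻¹ * io (h' : SL(2, ℤ))) = Up q hq0 0 * io (h' : SL(2, ℤ)) := by
      have := hcD 0
      rw [zpow_zero, map_one, mul_one] at this
      rw [← mul_assoc, this]
    rw [h5]
    have hs' : (((h' : SL(2, ℤ)) 0 1 : ℤ) : ℚ) - (((h' : SL(2, ℤ)) 0 0 : ℤ) : ℚ) * (j.val : ℤ) =
      q * s := by exact_mod_cast hs
    refine (((ent_io δ).mul (ent_Up q hq0 _)).congr ?_ ?_ ?_ ?_).ext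
      ((ent_Up q hq0 _).mul (ent_io _)) <;>
    simp only [e00, e01, e10, e11, ht] <;> push_cast
    · ring
    · push_cast at hs'
      linear_combination -hs'
    · ring
    · ring
  · intro i j _ _
    rfl
  · intro i j g e
    have := rep_inj hq (some i) (some j) g e.symm
    exact Option.some_injective _ this

end Fermat.Agent.RT
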