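import Fermat.Agent.RT.OmPSt
import Fermat.Agent.RT.OmT
import Fermat.Agent.RT.OmDec

/-!
# The `p`-step: traces and the adjoint of `U`
-/

set_option autoImplicit false
set_option maxHeartbeats 400000
set_option linter.style.haveILetI false

noncomputable section

namespace Fermat.Agent.RT

open Matrix CongruenceSubgroup Fermat.Agent.TWCoh
open scoped MatrixGroups OnePoint

namespace Om

theorem adj3 {Γ Γ' : Subgroup SL(2, ℤ)} {ι ι' : Type} [Fintype ι] [Fintype ι']
    (A : ι → GQ) (A' : ι' → GQ) (hA : ∀ i, 0 < Ihara.dt (A i))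
    (c : GQ) (hc : ∀ x : P1, c • x = x)
    (ex1 : ∀ (i' : ι'), ∀ h ∈ Γ', ∃ i : ι, ∃ h' ∈ Γ, io h * A' i' = c * ((A i)⁻¹ * io h'))
    (ex2 : ∀ (i : ι), ∀ h' ∈ Γ, ∃ i' : ι', ∃ h ∈ Γ', io h * A' i' = c * ((A i)⁻¹ * io h'))
    (uq1 : ∀ (i j : ι), ∀ g ∈ Γ, A i = io g * A j → i = j)
    (uq2 : ∀ (i j : ι'), ∀ g ∈ Γ', A' i = io g * A' j → i = j)
    {γ : SL(2, ℤ)} (g : ι → SL(2, ℤ)) (hg : ∀ i, g i ∈ Γ) (s : ι ≃ ι)
    (hs : ∀ i, A i * io γ = io (g i) * A (s i)) (a b : P1) :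
    ∑ i', LR.iota Γ' γ (A' i' • a) (A' i' • b) = ∑ i, LR.iota Γ (g i) a b := by
  have ex1' : ∀ p : ι' × Γ', ∃ p' : ι × Γ, io (p.2 : SL(2, ℤ)) * A' p.1 =
      c * ((A p'.1)⁻¹ * io (p'.2 : SL(2, ℤ))) := by
    intro p
    obtain ⟨i, h', hh', e⟩ := ex1 p.1 p.2 p.2.2
    exact ⟨(i, ⟨h', hh'⟩), e⟩
  choose f hf using ex1'
  have hinj : Function.Injective f := by
    intro p p2 e
    have h1 := hf p
    rw [e, ← hf p2] at h1
    have h2 : A' p.1 = io ((p.2⁻¹ * p2.2 : Γ') : SL(2, ℤ)) * A' p2.1 := by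
      rw [Subgroup.coe_mul, map_mul, Subgroup.coe_inv, map_inv, mul_assoc, ← h1,
        inv_mul_cancel_left]
    have h3 := uq2 _ _ _ (p.2⁻¹ * p2.2 : Γ').2 h2
    rw [h3] at h1
    have h4 := mul_right_cancel h1
    exact Prod.ext h3 (Subtype.ext (io_injective h4))
  have hsurj : Function.Surjective f := by
    intro p'
    obtain ⟨i', h, hh, e⟩ := ex2 p'.1 p'.2 p'.2.2
    refine ⟨(i', ⟨h, hh⟩), ?_⟩
    have h1 := hf (i', ⟨h, hh⟩)
    change io h * A' i' = _ at h1
    rw [e] at h1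
    have h2 := mul_left_cancel h1
    have h3 : A (f (i', ⟨h, hh⟩)).1 =
        io (((f (i', ⟨h, hh⟩)).2 * p'.2⁻¹ : Γ) : SL(2, ℤ)) * A p'.1 := by
      rw [Subgroup.coe_mul, map_mul, Subgroup.coe_inv, map_inv]
      have h4 : io ((f (i', ⟨h, hh⟩)).2 : SL(2, ℤ)) =
          A (f (i', ⟨h, hh⟩)).1 * ((A p'.1)⁻¹ * io p'.2) := by
        rw [h2, mul_inv_cancel_left]
      rw [h4]
      simp only [mul_assoc, inv_mul_cancel, mul_one, mul_inv_cancel]
    have h5 := uq1 _ _ _ (((f (i', ⟨h, hh⟩)).2 * p'.2⁻¹ : Γ)).2 h3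
    refine Prod.ext h5 ?_
    rw [h5] at h2
    exact (Subtype.ext (io_injective (mul_left_cancel h2))).symm
  refine LR.adj A A' hA γ (fun i => (⟨g i, hg i⟩ : Γ)) s hs (Equiv.ofBijective f ⟨hinj, hsurj⟩)
    (fun p x => ?_) a b
  change io (p.2 : SL(2, ℤ)) • A' p.1 • x = (A (f p).1)⁻¹ • io ((f p).2 : SL(2, ℤ)) • x
  rw [← mul_smul, ← mul_smul, hf, mul_smul c, hc]

theorem dt_pos_of_ent {g : GQ} {a b c d : ℚ} (h : Ent g a b c d) (hp : 0 < a * d - b * c) :
    0 < Ihara.dt g := by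
  rw [Ihara.dt_eq, h, Matrix.det_fin_two_of]
  exact hp

end Om

open Om

theorem omPU : OmPUSt := by
  intro L q hL hq hqL γ hγ
  have hq0 := hq.ne_zero
  have hL' : (L : ℚ) ≠ 0 := by exact_mod_cast hL
  have hq' : (q : ℚ) ≠ 0 := by exact_mod_cast hq0
  haveI : Fact q.Prime := ⟨hq⟩
  haveI : NeZero q := ⟨hq0⟩
  let c : GQ := mk q 0 0 q (by simpa using hq')
  have hc : ∀ x : P1, c • x = x := fun x => Om.scalar_smul hq' (ent_mk _ _ _ _ _) x
  have hcomm : ∀ g : GQ, c * g = g * c := by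
    intro g
    obtain ⟨a, b, c', d, hg⟩ := exists_ent g
    refine ((((ent_mk _ _ _ _ _).mul hg).congr ?_ ?_ ?_ ?_).ext
        (hg.mul (ent_mk _ _ _ _ _))) <;> ring
  -- the dual representatives
  let A : Fin q → GQ := fun j => Wf L hL * Up q hq0 ((j : ℕ) : ℤ) * (Wf L hL)⁻¹
  have hWi : Ent (Wf L hL)⁻¹ 0 (1 / L) (-1) 0 := by
    have h2 : Wf L hL * mk 0 (1 / L) (-1) 0 (by simpa using hL) = 1 := by
      refine (((ent_Wf L hL).mul (ent_mk _ _ _ _ _)).congr ?_ ?_ ?_ ?_).ext ent_one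
      · ring
      · ring
      · ring
      · field_simp
        ring
    rw [inv_eq_of_mul_eq_one_right h2]
    exact ent_mk _ _ _ _ _
  have hAe : ∀ j, Ent (A j) q 0 (-(L * (j : ℕ))) 1 := by
    intro j
    refine (((ent_Wf L hL).mul (ent_Up q hq0 _)).mul hWi).congr ?_ ?_ ?_ ?_ <;> push_cast
    · ring
    · ring
    · ring
    · field_simp
      ring
  let A0 : Fin q → GQ := fun j => mk 1 0 (L * (j : ℕ)) q (by simpa using hq')
  have hA0 : ∀ j, c * (A j)⁻¹ = A0 j := by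
    intro j
    rw [mul_inv_eq_iff_eq_mul]
    refine (ent_mk _ _ _ _ _).ext (((ent_mk _ _ _ _ _).mul (hAe j)).congr ?_ ?_ ?_ ?_) <;> ring
  -- the permutation
  obtain ⟨γ1, hγ1, e1⟩ := Wf_conj' hL hγ
  obtain ⟨σ, δ, hδ, e2, -⟩ := exists_perm_U hq hqL hγ1
  have h3 : ∀ i, ∃ g ∈ Gamma0 L, Wf L hL * io (δ i) = io g * Wf L hL := fun i =>
    Wf_conj hL (hδ i)
  choose g hg hg' using h3
  have hs : ∀ i, A i * io γ = io (g i) * A (σ i) := by
    intro i
    have e3 : (Wf L hL)⁻¹ * io γ = io γ1 * (Wf L hL)⁻¹ := by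
      rw [inv_mul_eq_iff_eq_mul, ← mul_assoc, e1, mul_inv_cancel_right]
    calc A i * io γ = Wf L hL * Up q hq0 ((i : ℕ) : ℤ) * ((Wf L hL)⁻¹ * io γ) := by
          simp only [A, mul_assoc]
      _ = Wf L hL * (Up q hq0 ((i : ℕ) : ℤ) * io γ1) * (Wf L hL)⁻¹ := by
          rw [e3]; simp only [mul_assoc]
      _ = (Wf L hL * io (δ i)) * Up q hq0 ((σ i : ℕ) : ℤ) * (Wf L hL)⁻¹ := by
          rw [e2 i]; simp only [mul_assoc]
      _ = io (g i) * A (σ i) := by
          rw [hg' i]; simp only [A, mul_assoc]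
  refine ⟨Fin q, inferInstance, g, hg, fun a b => ?_, fun M _ x hx => ?_⟩
  · have hU : Uz ℤ hq (LR.iota (Gamma0 L) γ) a b =
        ∑ j : Fin q, LR.iota (Gamma0 L) γ (Up q hq0 (j : ℕ) • a) (Up q hq0 (j : ℕ) • b) := by
      rw [Uop_apply]
      exact Finset.sum_range fun j : ℕ => LR.iota (Gamma0 L) γ (Up q hq0 (j : ℕ) • a)
          (Up q hq0 (j : ℕ) • b)
    rw [hU]
    refine adj3 A (fun j : Fin q => Up q hq0 (j : ℕ)) (fun j => dt_pos_of_ent (hAe j) ?_) c hc
      ?_ ?_ ?_ ?_ g hg σ hs a b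
    · have : (0 : ℚ) < q := by exact_mod_cast hq.pos
      simpa using this
    · -- ex1
      intro j h hh
      obtain ⟨z, hz⟩ := mem_Gamma0.1 hh
      have hdet := det_SL h
      have hx : ¬ (q : ℤ) ∣ h 0 0 := by
        intro h'
        have h1 : (q : ℤ) ∣ 1 := by
          rw [← hdet, hz]
          refine dvd_sub (h'.mul_right _) ?_
          exact ((Int.natCast_dvd_natCast.mpr hqL).mul_right _).mul_left _
        exact hq.one_lt.ne' (by exact_mod_cast Int.eq_one_of_dvd_one (by positivity) h1)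
      have hxz : ((h 0 0 : ℤ) : ZMod q) ≠ 0 := by
        rwa [Ne, ZMod.intCast_zmod_eq_zero_iff_dvd]
      let i : ZMod q := (z : ZMod q) * ((h 0 0 : ℤ) : ZMod q)⁻¹
      have hdvd : (q : ℤ) ∣ z - i.val * h 0 0 := by
        rw [← ZMod.intCast_zmod_eq_zero_iff_dvd]
        push_cast
        rw [ZMod.natCast_val, ZMod.cast_id]
        simp only [i]
        field_simp
        ring
      obtain ⟨z', hz'⟩ := hdvd
      rw [hz] at hdet
      obtain ⟨h', e00, e01, e10, e11⟩ := exists_SL (h 0 0) (h 0 0 * (j : ℕ) + q * h 0 1)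
        (L * z') (L * (j : ℕ) * z' + h 1 1 - L * i.val * h 0 1) (by
          linear_combination hdet + L * h 0 1 * hz')
      refine ⟨⟨i.val, ZMod.val_lt i⟩, h', mem_Gamma0.2 (by rw [e10]; exact dvd_mul_right _ _), ?_⟩
      rw [← mul_assoc, hA0]
      have hzq : (z : ℚ) - i.val * (h 0 0 : ℤ) = q * z' := by exact_mod_cast hz'
      refine ((ent_io h).mul (ent_Up q hq0 _)).ext
        (((ent_mk _ _ _ _ _).mul (ent_io h')).congr ?_ ?_ ?_ ?_) <;>
        simp only [e00, e01, e10, e11, hz] <;> push_cast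
      · ring
      · ring
      · linear_combination (-(L : ℚ)) * hzq
      · linear_combination (-(L : ℚ) * (j : ℕ)) * hzq
    · -- ex2
      intro i h' hh'
      obtain ⟨z, hz⟩ := mem_Gamma0.1 hh'
      have hdet := det_SL h'
      have hx : ¬ (q : ℤ) ∣ h' 0 0 := by
        intro h2
        have h1 : (q : ℤ) ∣ 1 := by
          rw [← hdet, hz]
          refine dvd_sub (h2.mul_right _) ?_
          exact ((Int.natCast_dvd_natCast.mpr hqL).mul_right _).mul_left _
        exact hq.one_lt.ne' (by exact_mod_cast Int.eq_one_of_dvd_one (by positivity) h1)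
      have hxz : ((h' 0 0 : ℤ) : ZMod q) ≠ 0 := by
        rwa [Ne, ZMod.intCast_zmod_eq_zero_iff_dvd]
      let j : ZMod q := ((h' 0 1 : ℤ) : ZMod q) * ((h' 0 0 : ℤ) : ZMod q)⁻¹
      have hdvd : (q : ℤ) ∣ h' 0 1 - j.val * h' 0 0 := by
        rw [← ZMod.intCast_zmod_eq_zero_iff_dvd]
        push_cast
        rw [ZMod.natCast_val, ZMod.cast_id]
        simp only [j]
        field_simp
        ring
      obtain ⟨y, hy⟩ := hdvd
      rw [hz] at hdet
      obtain ⟨h, e00, e01, e10, e11⟩ := exists_SL (h' 0 0) y (L * ((i : ℕ) * h' 0 0 + q * z))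
        (L * (i : ℕ) * y + h' 1 1 - L * j.val * z) (by
          linear_combination hdet + L * z * hy)
      refine ⟨⟨j.val, ZMod.val_lt j⟩, h, mem_Gamma0.2 (by rw [e10]; exact dvd_mul_right _ _), ?_⟩
      rw [← mul_assoc, hA0]
      have hyq : ((h' 0 1 : ℤ) : ℚ) - j.val * (h' 0 0 : ℤ) = q * y := by exact_mod_cast hy
      refine ((ent_io h).mul (ent_Up q hq0 _)).ext
        (((ent_mk _ _ _ _ _).mul (ent_io h')).congr ?_ ?_ ?_ ?_) <;>
        simp only [e00, e01, e10, e11, hz] <;> push_cast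
      · ring
      · linear_combination hyq
      · ring
      · linear_combination (L * (i : ℕ) : ℚ) * hyq
    · -- uq1
      intro i j g _ e
      have h1 := (hAe i).inj (by rw [e]; exact (ent_io g).mul (hAe j))
      obtain ⟨a1, a2, a3, a4⟩ := h1
      have b1 : ((g 0 1 : ℤ) : ℚ) = 0 := by linarith
      have b2 : ((g 1 1 : ℤ) : ℚ) = 1 := by rw [mul_zero, zero_add, mul_one] at a4; exact a4.symm
      have b3 : ((g 1 0 : ℤ) : ℚ) * q = L * ((j : ℕ) - (i : ℕ)) := by
        rw [b2] at a3; linear_combination -a3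
      obtain ⟨z, hz⟩ := mem_Gamma0.1 ‹g ∈ Gamma0 L›
      have b4 : (q : ℤ) * z = ((j : ℕ) : ℤ) - ((i : ℕ) : ℤ) := by
        have : (q : ℚ) * z = (j : ℕ) - (i : ℕ) := by
          apply mul_left_cancel₀ hL'
          rw [← b3, hz]; push_cast; ring
        exact_mod_cast this
      have hi := i.2
      have hj := j.2
      apply Fin.ext
      have hz0 : z = 0 := by
        by_contra h0
        rcases lt_or_gt_of_ne h0 with h2 | h2
        · have : (q : ℤ) * z ≤ q * (-1) := by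
            apply mul_le_mul_of_nonneg_left (by omega) (by positivity)
          omega
        · have : (q : ℤ) * 1 ≤ q * z := by
            apply mul_le_mul_of_nonneg_left (by omega) (by positivity)
          omega
      rw [hz0, mul_zero] at b4
      omega
    · -- uq2
      intro i j g _ e
      exact Option.some_injective _ (rep_inj hq (some i) (some j) g e.symm)
  · -- the adjoint
    have hx' := mem_SZ.mp hx
    have hA1 : ∀ (j : Fin q) (a : P1), A j • a = Wf L hL • Up q hq0 ((j : ℕ) : ℤ) • Wf L hL • a := by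
      intro j a
      have h1 : (Wf L hL)⁻¹ • a = Wf L hL • a := by
        rw [inv_smul_eq_iff, Wf_sq]
      rw [← h1, mul_smul, mul_smul]
    have h1 : frz hL (Uz M hq (frz hL x)) ∞ (io γ • ∞) =
        ∑ j : Fin q, x (A j • ∞) (A j • io γ • ∞) := by
      change Uz M hq (frz hL x) (Wf L hL • ∞) (Wf L hL • io γ • ∞) = _
      rw [Uop_apply, Finset.sum_range]
      refine Finset.sum_congr rfl fun j _ => ?_
      rw [hA1, hA1]
      rfl
    have h2 : ∀ j : Fin q, x (A j • ∞) (A j • io γ • ∞) =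
        x ∞ (io (g j) • ∞) + (x ∞ (A (σ j) • ∞) - x ∞ (A j • ∞)) := by
      intro j
      rw [← mul_smul (A j), hs, mul_smul (io (g j))]
      have e1 := hx'.1 (A j • ∞) ∞ (io (g j) • A (σ j) • ∞)
      have e2 := hx'.1 ∞ (io (g j) • ∞) (io (g j) • A (σ j) • ∞)
      have e3 := hx'.2 (g j) (hg j) ∞ (A (σ j) • ∞)
      have e4 := hx'.1 (A j • ∞) ∞ (A j • ∞)
      have e5 := hx'.1 (A j • ∞) (A j • ∞) (A j • ∞)
      have e6 : x (A j • ∞) (A j • ∞) = 0 := by simpa using e5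
      rw [e6] at e4
      rw [← e1, ← e2, e3, eq_neg_of_add_eq_zero_left e4]
      abel
    rw [h1]
    simp only [h2]
    rw [Finset.sum_add_distrib, Finset.sum_sub_distrib,
      Equiv.sum_comp σ (fun j => x ∞ (A j • ∞)), sub_self, add_zero]

section AL

variable {N p : ℕ}

/-- Atkin–Lehner matrices at `p` -/
theorem al_conj (hp : p ≠ 0) {W1 W2 : GQ} {a1 b1 c1 d1 a2 b2 c2 d2 : ℤ}
    (h1 : Ent W1 (p * a1) b1 (N * p * c1) (p * d1)) (h2 : Ent W2 (p * a2) b2 (N * p * c2) (p * d2))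
    (hd1 : p * a1 * d1 - N * b1 * c1 = 1) (hd2 : p * a2 * d2 - N * b2 * c2 = 1)
    {γ : SL(2, ℤ)} (hγ : γ ∈ Gamma0 (N * p)) :
    ∃ δ ∈ Gamma0 (N * p), W1 * io γ * W2 = mk p 0 0 p (by simpa using hp) * io δ := by
  obtain ⟨z, hz⟩ := mem_Gamma0.1 hγ
  push_cast at hz
  have hdet := det_SL γ
  rw [hz] at hdet
  obtain ⟨δ, e00, e01, e10, e11⟩ := exists_SL
    (p * a2 * (a1 * γ 0 0 + b1 * N * z) + N * c2 * (p * a1 * γ 0 1 + b1 * γ 1 1))
    ((a1 * γ 0 0 + b1 * N * z) * b2 + (p * a1 * γ 0 1 + b1 * γ 1 1) * d2)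
    (N * p * ((c1 * γ 0 0 + d1 * p * z) * a2 + (N * c1 * γ 0 1 + d1 * γ 1 1) * c2))
    (N * (c1 * γ 0 0 + d1 * p * z) * b2 + (N * c1 * γ 0 1 + d1 * γ 1 1) * p * d2) (by
      linear_combination (p * a1 * d1 - N * b1 * c1) * (p * a2 * d2 - N * b2 * c2) * hdet +
        (p * a2 * d2 - N * b2 * c2) * hd1 + hd2)
  refine ⟨δ, mem_Gamma0.2 (by rw [e10]; push_cast; exact dvd_mul_right _ _), ?_⟩
  refine ((h1.mul (ent_io γ)).mul h2).ext (((ent_mk _ _ _ _ _).mul (ent_io δ)).congr ?_ ?_ ?_ ?_) <;>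
    simp only [e00, e01, e10, e11, hz] <;> push_cast <;> ring

end AL

theorem omPTr : OmPTrSt := by
  intro N p hN hp hpN
  obtain ⟨bb, d, hb⟩ := exists_bez hp hpN
  have hb' : (p : ℤ) * d - bb * N = 1 := hb
  have hNp : N * p ≠ 0 := mul_ne_zero hN hp.ne_zero
  have hp0 := hp.ne_zero
  have hp' : (p : ℚ) ≠ 0 := by exact_mod_cast hp0
  have hcr := cr_hre hN hp hpN hb'
  have hbq : (p : ℚ) * d - bb * N = 1 := by exact_mod_cast hb
  -- the scalar matrix
  set c : GQ := mk p 0 0 p (by simpa using hp0) with hcdef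
  have hc : ∀ x : P1, c • x = x := fun x => Om.scalar_smul hp' (ent_mk _ _ _ _ _) x
  have hcomm : ∀ g : GQ, c * g = g * c := by
    intro g
    obtain ⟨a, b, c', d, hg⟩ := exists_ent g
    refine ((((ent_mk _ _ _ _ _).mul hg).congr ?_ ?_ ?_ ?_).ext
        (hg.mul (ent_mk _ _ _ _ _))) <;> ring
  -- the Atkin–Lehner matrix and its adjugate
  let W : GQ := mk (p * d) (-bb) (-(N * p)) p (by
    have : (p : ℚ) * d * p - -bb * -(N * p) = p := by linear_combination p * hbq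
    rw [this]; exact hp')
  let V : GQ := mk p bb (N * p) (p * d) (by
    have : (p : ℚ) * (p * d) - bb * (N * p) = p := by linear_combination p * hbq
    rw [this]; exact hp')
  have hWe : Ent W (p * (d : ℤ)) ((-bb : ℤ)) (N * p * (-1 : ℤ)) (p * (1 : ℤ)) :=
    (ent_mk _ _ _ _ _).congr (by push_cast; ring) (by push_cast; ring) (by push_cast; ring)
      (by push_cast; ring)
  have hVe : Ent V (p * (1 : ℤ)) ((bb : ℤ)) (N * p * (1 : ℤ)) (p * (d : ℤ)) :=
    (ent_mk _ _ _ _ _).congr (by push_cast; ring) (by push_cast; ring) (by push_cast; ring)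
      (by push_cast; ring)
  have hWV : W * V = c := by
    refine ((hWe.mul hVe).congr ?_ ?_ ?_ ?_).ext (ent_mk _ _ _ _ _) <;> push_cast
    · linear_combination (p : ℚ) * hbq
    · ring
    · ring
    · linear_combination (p : ℚ) * hbq
  have hVW : V * W = c := by
    refine ((hVe.mul hWe).congr ?_ ?_ ?_ ?_).ext (ent_mk _ _ _ _ _) <;> push_cast
    · linear_combination (p : ℚ) * hbq
    · ring
    · ring
    · linear_combination (p : ℚ) * hbq
  have hW1 : ∀ γ ∈ Gamma0 (N * p), ∃ δ ∈ Gamma0 (N * p), W * io γ = io δ * W := by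
    intro γ hγ
    obtain ⟨δ, hδ, e⟩ := al_conj hp0 hWe hVe (by linear_combination hb) (by linear_combination hb) hγ
    refine ⟨δ, hδ, ?_⟩
    have : W * io γ * V * W = c * io δ * W := by rw [e]
    rw [mul_assoc, hVW, ← hcomm, mul_assoc c] at this
    exact mul_left_cancel this
  have hW2 : ∀ γ ∈ Gamma0 (N * p), ∃ δ ∈ Gamma0 (N * p), io γ * W = W * io δ := by
    intro γ hγ
    obtain ⟨δ, hδ, e⟩ := al_conj hp0 hVe hWe (by linear_combination hb) (by linear_combination hb) hγ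
    refine ⟨δ, hδ, ?_⟩
    have : W * (V * io γ * W) = W * (c * io δ) := by rw [e]
    rw [← mul_assoc, ← mul_assoc, hWV, mul_assoc, ← mul_assoc W, ← hcomm, mul_assoc c] at this
    exact mul_left_cancel this
  -- elements of `Γ₀(N)`
  obtain ⟨γ0, e00, e01, e10, e11⟩ := exists_SL (p : ℤ) bb N d (by linear_combination hb)
  have hγ0 : γ0 ∈ Gamma0 N := by rw [mem_Gamma0, e10]
  obtain ⟨γ2, f00, f01, f10, f11⟩ := exists_SL (p * d : ℤ) (-bb) (-N) 1 (by linear_combination hb)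
  have hγ2 : γ2 ∈ Gamma0 N := by rw [mem_Gamma0, f10]; exact (dvd_refl _).neg_right
  have hWD : io γ0 * W = Di p hp0 := by
    refine (((ent_io γ0).mul hWe).congr ?_ ?_ ?_ ?_).ext (ent_Di _ _) <;>
      simp only [e00, e01, e10, e11] <;> push_cast
    · linear_combination (p : ℚ) * hbq
    · ring
    · ring
    · linear_combination hbq
  have hDW : Di p hp0 * W = c * io γ2 := by
    refine ((ent_Di p hp0).mul hWe).ext (((ent_mk _ _ _ _ _).mul (ent_io γ2)).congr ?_ ?_ ?_ ?_) <;>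
      simp only [f00, f01, f10, f11] <;> push_cast <;> ring
  let h : Option (Fin p) → GQ := fun i => W * io (hre N p bb d hb' i)
  have hy : ∀ (A : Type) [AddCommGroup A], ∀ x ∈ SZ A (N * p),
      (fun a b => x (W • a) (W • b)) ∈ SZ A (N * p) := by
    intro A _ x hx
    rw [mem_SZ] at hx ⊢
    refine ⟨fun _ _ _ => hx.1 _ _ _, fun γ hγ a b => ?_⟩
    obtain ⟨δ, hδ, e⟩ := hW1 γ hγ
    rw [← mul_smul, ← mul_smul, e, mul_smul (io δ), mul_smul (io δ), hx.2 δ hδ]
  have hle : ∀ (A : Type) [AddCommGroup A], ∀ x ∈ SZ A N, x ∈ SZ A (N * p) := by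
    intro A _ x hx
    rw [mem_SZ] at hx ⊢
    exact ⟨hx.1, fun γ hγ => hx.2 γ (hcr.le hγ)⟩
  have hcount : ∀ (A : Type) [AddCommGroup A], ∀ x ∈ SZ A N, ∀ a b : P1,
      ∑ i, x (io (hre N p bb d hb' i) • a) (io (hre N p bb d hb' i) • b) =
        ((p : ℤ) + 1) • x a b := by
    intro A _ x hx a b
    rw [mem_SZ] at hx
    simp only [fun i => hx.2 _ (hcr.mem i) a b]
    rw [Finset.sum_const, Finset.card_univ, Fintype.card_option, Fintype.card_fin,
      ← natCast_zsmul]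
    push_cast
    rfl
  have hh : ∀ (A : Type) (x : P1 → P1 → A) (i : Option (Fin p)) (a b : P1),
      x (h i • a) (h i • b) = x (W • io (hre N p bb d hb' i) • a) (W • io (hre N p bb d hb' i) • b) := by
    intro A x i a b
    simp only [h, mul_smul]
  refine ⟨Option (Fin p), inferInstance, fun i => io (hre N p bb d hb' i), h, fun A _ x hx => ⟨?_, ?_⟩,
    fun A _ x hx => ⟨?_, ?_, ?_, ?_⟩, fun γ hγ => ⟨fun a b => hcr.trace_iota hγ a b, ?_⟩⟩
  · exact hcr.trace_mem hx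
  · have := hcr.trace_mem (hy A x hx)
    convert this using 1
    funext a b
    exact Finset.sum_congr rfl fun i _ => hh A x i a b
  · funext a b
    exact hcount A x hx a b
  · funext a b
    exact tr_B hN hp hpN hb' hx a b
  · funext a b
    rw [← tr_B hN hp hpN hb' hx a b]
    refine Finset.sum_congr rfl fun i _ => ?_
    refine (hh A x i a b).trans ?_
    have e : ∀ v : P1, io γ0 • W • v = Di p hp0 • v := fun v => by rw [← mul_smul, hWD]
    rw [← (mem_SZ.mp hx).2 γ0 hγ0, e, e]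
    rfl
  · funext a b
    refine Eq.trans ?_ (hcount A x hx a b)
    refine Finset.sum_congr rfl fun i _ => ?_
    refine (hh A (Bz A hp x) i a b).trans ?_
    have e : ∀ v : P1, Di p hp0 • W • v = io γ2 • v := fun v => by
      rw [← mul_smul, hDW, mul_smul, hc]
    change x (Di p hp0 • W • _) (Di p hp0 • W • _) = _
    rw [e, e, (mem_SZ.mp hx).2 γ2 hγ2]
  · -- the intersection symbols
    have hconj : ∀ γ ∈ Gamma0 (N * p), ∃ γ' ∈ Gamma0 N, Di p hp0 * io γ = io γ' * Di p hp0 :=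
      fun γ hγ => Om.exists_conj hp0 dvd_rfl hγ
    obtain ⟨γ', hγ', e⟩ := hconj γ hγ
    refine ⟨γ', hγ', e, fun a b => ?_⟩
    have hWc : W = c * ((Di p hp0)⁻¹ * io γ2) := by
      rw [← mul_assoc, hcomm, mul_assoc, ← hDW, inv_mul_cancel_left]
    refine (adj3 (fun _ : Unit => Di p hp0) h (fun _ => dt_pos_of_ent (ent_Di p hp0) ?_) c hc
      ?_ ?_ ?_ ?_ (fun _ => γ') (fun _ => hγ') (Equiv.refl _) (fun _ => e) a b).trans
      (Fintype.sum_unique _)
    · have : (0 : ℚ) < p := by exact_mod_cast hp.pos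
      simpa using this
    · intro i k hk
      obtain ⟨k', hk', e'⟩ := hconj k hk
      refine ⟨(), k' * γ2 * hre N p bb d hb' i,
        mul_mem (mul_mem hk' hγ2) (hcr.mem i), ?_⟩
      have e2 : io k * (Di p hp0)⁻¹ = (Di p hp0)⁻¹ * io k' := by
        rw [eq_inv_mul_iff_mul_eq, ← mul_assoc, e', mul_inv_cancel_right]
      simp only [h]
      rw [hWc, map_mul, map_mul]
      calc io k * (c * ((Di p hp0)⁻¹ * io γ2) * io (hre N p bb d hb' i))
          = c * (io k * (Di p hp0)⁻¹) * io γ2 * io (hre N p bb d hb' i) := by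
            rw [← mul_assoc, ← mul_assoc, ← hcomm]; simp only [mul_assoc]
        _ = _ := by rw [e2]; simp only [mul_assoc]
    · intro _ k hk
      obtain ⟨i, hi⟩ := hcr.ex (γ2⁻¹ * k) (mul_mem (inv_mem hγ2) hk)
      obtain ⟨k', hk', e'⟩ := hW1 _ hi
      refine ⟨i, k', hk', ?_⟩
      simp only [h]
      rw [← mul_assoc, ← e', mul_assoc, ← map_mul, inv_mul_cancel_right, hWc, map_mul, map_inv]
      simp only [mul_assoc, mul_inv_cancel_left]
    · intro _ _ _ _ _
      rfl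
    · intro i j k hk e'
      simp only [h] at e'
      obtain ⟨k', hk', e2⟩ := hW2 k hk
      rw [← mul_assoc, e2, mul_assoc, ← map_mul] at e'
      have e3 := io_injective (mul_left_cancel e')
      exact hcr.uq i j (by rw [e3, mul_inv_cancel_right]; exact hk')

end Fermat.Agent.RT
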