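import Fermat.Agent.RT.OmQF
import Fermat.Agent.RT.OmPT

/-!
# The pairing at level divisible by `p`, with `U_p`
-/

set_option autoImplicit false
set_option linter.unusedSectionVars false
set_option linter.style.haveILetI false

noncomputable section

namespace Fermat.Agent.RT.Om

open Matrix CongruenceSubgroup MvPolynomial Fermat.Agent.TWCoh
open ModularFormClass (qCoeff)
open scoped MatrixGroups OnePoint

section

variable {O : Type} [CommRing O] {L : ℕ} {S : Set ℕ}

theorem opr_coe (l : PS S) (x : SO O L) :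
    ((X l : HA O S) • x : SO O L) = opr (one_dvd L) (1 : DirichletCharacter O 1) O l.2.1 x :=
  X_smul l x

/-- `U_q` on the intersection symbols and its adjoint -/
theorem rel_U (hL : L ≠ 0) {q : ℕ} (hq : q.Prime) (hqL : q ∣ L) (f : SO O L →ₗ[O] O) (y : SO O L)
    (h : ∀ γ : Gamma0 L, f (iot γ) = hv (frO O hL y) γ) (γ : Gamma0 L) :
    f (opr (one_dvd L) (1 : DirichletCharacter O 1) O hq (iot γ)) =
      hv (frO O hL (opr (one_dvd L) (1 : DirichletCharacter O 1) O hq y)) γ := by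
  obtain ⟨ι, _, g, hg, h1, h2⟩ := omPU L q hL hq hqL γ.1 γ.2
  have h3 : opr (one_dvd L) (1 : DirichletCharacter O 1) O hq (iot γ : SO O L) =
      ∑ i, iot ⟨g i, hg i⟩ := by
    apply Subtype.ext
    funext a b
    rw [opr_eq_Uz hq hqL]
    show Uz O hq (cm (Int.castAddHom O) (LR.iota (Gamma0 L) γ)) a b = _
    rw [← cm_Uz, coe_sum_apply]
    show ((Uz ℤ hq (LR.iota (Gamma0 L) γ.1) a b : ℤ) : O) = _
    rw [h1, Int.cast_sum]
    rfl
  rw [h3, map_sum]
  simp only [h]
  have h4 := h2 O (frO O hL y).1 (SO.mem _)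
  have h5 : (∑ i, hv (frO O hL y) ⟨g i, hg i⟩) = ∑ i, (frO O hL y).1 ∞ (io (g i) • ∞) := rfl
  rw [h5, h4]
  have h6 : frz hL (frO O hL y).1 = y.1 := frz_frz hL y.1
  rw [h6, hv_apply, coe_frO, opr_eq_Uz hq hqL]

/-- twisted relation for the good operators -/
theorem rel_X' (hL : L ≠ 0) (l : PS S) (hl : ¬ l.1 ∣ L) (f : SO O L →ₗ[O] O) (y : SO O L)
    (h : ∀ γ : Gamma0 L, f (iot γ) = hv (frO O hL y) γ) (γ : Gamma0 L) :
    f ((X l : HA O S) • iot γ) = hv (frO O hL ((X l : HA O S) • y)) γ := by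
  rw [rel_X l hl f (frO O hL y) h γ]
  have h1 : (X l : HA O S) • frO O hL y = frO O hL ((X l : HA O S) • y) := by
    apply Subtype.ext
    rw [coe_X_smul l hl, coe_frO, coe_frO, coe_X_smul l hl, Tz_frz hL l.2.1 hl (SO.inSym y)]
  rw [h1]

theorem rel_act' (hL : L ≠ 0) (r : HA O S) :
    ∀ (f : SO O L →ₗ[O] O) (y : SO O L), (∀ γ, f (iot γ) = hv (frO O hL y) γ) →
      ∀ γ : Gamma0 L, f (r • iot γ) = hv (frO O hL (r • y)) γ := by
  induction r using MvPolynomial.induction_on with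
  | C a =>
    intro f y h γ
    rw [C_smul, C_smul, map_smul, map_smul, h, map_smul]
    rfl
  | add p q hp hq =>
    intro f y h γ
    rw [add_smul, add_smul, map_add, map_add, hp f y h, hq f y h, map_add]
    rfl
  | mul_X p l hp =>
    intro f y h γ
    have h2 := hp f y h
    have h1 : f (p • (X l : HA O S) • iot γ) = hv (frO O hL ((X l : HA O S) • p • y)) γ := by
      by_cases hl : l.1 ∣ L
      · have := rel_U hL l.2.1 hl (OmA.pre p f) (p • y) h2 γ
        rw [OmA.pre_apply] at this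
        rw [opr_coe, opr_coe]
        exact this
      · exact rel_X' hL l hl (OmA.pre p f) (p • y) h2 γ
    rw [mul_smul, h1, mul_comm, mul_smul]

variable (O S) in
/-- the intersection data including bad operators (the pairing is twisted by Fricke) -/
def ipdP [NeZero L] [IsAddTorsionFree O] (h2 : IsUnit (2 : O)) :
    OmA.IPD O (HA O S) (SO O L) (Gamma0 L) where
  iot := iot
  hv := hv ∘ₗ frO O (NeZero.ne L)
  act r l y h := rel_act' (NeZero.ne L) r l y h
  ex y := by
    obtain ⟨f, hf⟩ := theta_surj h2 (IharaL.homOf (SO.inSym (frO O (NeZero.ne L) y)))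
    exact ⟨f, fun γ => by rw [hf]; rfl⟩
  fr := LinearMap.id
  fr_fr := fun _ => rfl
  fr_smul _ _ := rfl

end

section

variable {O k : Type} [CommRing O] [IsDomain O] [IsDiscreteValuationRing O]
  [IsAdicComplete (IsLocalRing.maximalIdeal O) O] [CharZero O] [Field k] [Algebra O k]
  {S : Set ℕ} {τ : PS S → k} {L : ℕ} [NeZero L] {Q : Finset ℕ}

/-- the pairing on the localisation, with bad operators allowed -/
theorem exists_can_locP (hlev : Lev0 O k L Q) {e : HA O S}
    (he : LocData (evI O τ) (SO O L) e)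
    (heis : ∃ l : PS S, ¬ l.1 ∣ L ∧ l.1 ≡ 1 [MOD L] ∧ τ l ≠ 1 + l.1) :
    ∃ B : loc (evI O τ) (SO O L) →ₗ[O] loc (evI O τ) (SO O L) →ₗ[O] O, Function.Surjective B ∧
      IsCan B ∧ ∀ (r : HA O S) (y x : loc (evI O τ) (SO O L)), B (r • y) x = B y (r • x) := by
  obtain ⟨l, hlL, hl, hτ⟩ := heis
  have hs : (X l - C (1 + (l.1 : O)) : HA O S) ∉ evI O τ := by
    rw [mem_evI, map_sub, aeval_X, aeval_C, map_add, map_one, map_natCast, sub_eq_zero]
    exact hτ
  have hfr : ∀ y : SO O L, frO O (NeZero.ne L) (((X l : HA O S) - C (1 + (l.1 : O))) • y) =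
      ((X l : HA O S) - C (1 + (l.1 : O))) • frO O (NeZero.ne L) y := by
    intro y
    have h1 : frO O (NeZero.ne L) ((X l : HA O S) • y) =
        (X l : HA O S) • frO O (NeZero.ne L) y := by
      apply Subtype.ext
      rw [coe_X_smul l hlL, coe_frO, coe_frO, coe_X_smul l hlL,
        Tz_frz (NeZero.ne L) l.2.1 hlL (SO.inSym y)]
    rw [sub_smul, sub_smul, map_sub, C_smul, C_smul, h1, (frO O (NeZero.ne L)).map_smul]
  exact OmA.IPD.exists_pairing (D := ipdP O S hlev.isUnit₂) he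
    ⟨_, hs, fun y hy => by
      have h1 := ker_eis l hlL hl (y := frO O (NeZero.ne L) y) fun γ => (hy γ).symm
      rw [← hfr] at h1
      rw [← frO_frO (NeZero.ne L) (((X l : HA O S) - C (1 + (l.1 : O))) • y), h1, map_zero]⟩
    ⟨_, hs, fun f => by
      obtain ⟨y, hy⟩ := coker_eis l hlL hl f
      refine ⟨frO O (NeZero.ne L) y, fun γ => ?_⟩
      show f (((X l : HA O S) - C (1 + (l.1 : O))) • iot γ) =
        hv (frO O (NeZero.ne L) (frO O (NeZero.ne L) y)) γ
      rw [frO_frO]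
      exact hy γ⟩

end

/-! ### the stabilisation at `p` -/

section

variable {A : Type*} [CommRing A] {N p : ℕ}

/-- `x - b B_p x` -/
def jz (hp : p.Prime) (b : A) (x : P1 → P1 → A) : P1 → P1 → A := x - sc b (Bz A hp x)

theorem jz_sc (hp : p.Prime) (b c : A) (x : P1 → P1 → A) :
    jz hp b (sc c x) = sc c (jz hp b x) := by
  funext u v
  show c * x u v - b * (c * x _ _) = c * (x u v - b * x _ _)
  ring

theorem jz_add (hp : p.Prime) (b : A) (x y : P1 → P1 → A) :
    jz hp b (x + y) = jz hp b x + jz hp b y := by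
  funext u v
  show (x u v + y u v) - b * (x _ _ + y _ _) = (x u v - b * x _ _) + (y u v - b * y _ _)
  ring

theorem sc_mem {b : A} {x : P1 → P1 → A} (hx : x ∈ SZ A N) : sc b x ∈ SZ A N := by
  rw [sc_eq_cm]; exact cm_mem _ hx

theorem jz_mem (hp : p.Prime) (b : A) {x : P1 → P1 → A} (hx : x ∈ SZ A N) :
    jz hp b x ∈ SZ A (N * p) :=
  Submodule.sub_mem _ (SZ_mono (dvd_mul_right _ _) hx) (sc_mem (SZ_Bz hp hx))

theorem Tz_jz {l : ℕ} (hl : l.Prime) (hp : p.Prime) (h : l ≠ p) (b : A) {x : P1 → P1 → A}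
    (hx : TrInv x) : Tz A hl (jz hp b x) = jz hp b (Tz A hl x) := by
  rw [jz, map_sub, sc_eq_cm, ← cm_Tz, Tz_Bz hl hp h hx]
  rfl

theorem Uz_jz {l : ℕ} (hl : l.Prime) (hp : p.Prime) (h : l ≠ p) (b : A) {x : P1 → P1 → A}
    (hx : TrInv x) : Uz A hl (jz hp b x) = jz hp b (Uz A hl x) := by
  rw [jz, map_sub, sc_eq_cm, ← cm_Uz, Uz_Bz_comm hl hp h hx]
  rfl

/-- `U_p` of the stabilisation -/
theorem Up_jz (hp : p.Prime) {a b c : A} (hab : a * b = 1) (hc : a ^ 2 - c * a + p = 0)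
    {x : P1 → P1 → A} (hx : TrInv x) (hT : Tz A hp x = sc c x) :
    Uz A hp (jz hp b x) = sc a (jz hp b x) := by
  have h1 : Uz A hp x = sc c x - Bz A hp x := by
    rw [← hT, Tz, LinearMap.add_apply, add_sub_cancel_right]
  rw [jz, map_sub, sc_eq_cm b, ← cm_Uz, Uz_Bz hp hx, h1]
  funext u v
  show (c * x u v - Bz A hp x u v) - b * ((p : ℤ) • x u v) = a * (x u v - b * Bz A hp x u v)
  rw [zsmul_eq_mul]
  push_cast
  have h2 : c - b * p = a := by
    have h3 : b * (a ^ 2 - c * a + p) = 0 := by rw [hc, mul_zero]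
    linear_combination (-1 : A) * h3 + (a - c) * hab
  linear_combination (x u v) * h2 + (Bz A hp x u v) * hab

end

end Fermat.Agent.RT.Om
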