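import Fermat.Agent.RT.OmP1

/-!
# The eigenspaces and the `p`-step
-/

set_option autoImplicit false
set_option linter.unusedSectionVars false
set_option linter.style.haveILetI false

noncomputable section

namespace Fermat.Agent.RT.Om

open Matrix CongruenceSubgroup MvPolynomial Fermat.Agent.TWCoh
open ModularFormClass (qCoeff)
open scoped MatrixGroups OnePoint

section

variable {O k : Type} [CommRing O] [Field k] [Algebra O k] (D : OmD O k)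

/-- the decomposition of a complex eigensymbol of level `L p` -/
theorem cx_decp {L p : ℕ} [NeZero L] (hML : D.M ∣ L) (hp : p.Prime) (hpL : ¬ p ∣ L)
    (hLS : ∀ l : ℕ, l.Prime → l ∣ L * p → l ∈ D.S ∪ D.Q) {x : P1 → P1 → ℂ}
    (hx : x ∈ SZ ℂ (L * p))
    (hxT : ∀ (l : ℕ) (hl : l.Prime), l ∉ D.S ∪ D.Q → Tz ℂ hl x = sc (qCoeff D.f l) x) :
    ∃ Y₀ ∈ SZ ℂ L, ∃ Y₁ ∈ SZ ℂ L,
      (∀ (l : ℕ) (hl : l.Prime), ¬ l ∣ L → Tz ℂ hl Y₀ = sc (qCoeff D.f l) Y₀) ∧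
      (∀ (l : ℕ) (hl : l.Prime), ¬ l ∣ L → Tz ℂ hl Y₁ = sc (qCoeff D.f l) Y₁) ∧
      x = Y₀ + Bz ℂ hp Y₁ := by
  haveI : NeZero (L * p) := ⟨mul_ne_zero (NeZero.ne L) hp.ne_zero⟩
  obtain ⟨y, hy, hyT, hxy⟩ := cx_dec D (hML.mul_right _) hLS hx hxT
  have hdiv : ∀ d ∈ (L / D.M).divisors, d ≠ 0 ∧ D.M * d ∣ L := fun d hd =>
    ⟨(Nat.pos_of_mem_divisors hd).ne', by
      have := Nat.mul_dvd_mul_left D.M (Nat.dvd_of_mem_divisors hd)
      rwa [Nat.mul_div_cancel' hML] at this⟩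
  let Y : ℕ → (P1 → P1 → ℂ) := fun j => ∑ d ∈ (L / D.M).divisors, Bdz d (y (d * p ^ j))
  have hY : ∀ j, Y j ∈ SZ ℂ L ∧ ∀ (l : ℕ) (hl : l.Prime), ¬ l ∣ L → Tz ℂ hl (Y j) =
      sc (qCoeff D.f l) (Y j) := fun j => sum_Bdz_T D _ hdiv y hy hyT fun d => d * p ^ j
  have hco : (L / D.M).Coprime (p ^ 1) := by
    refine Nat.Coprime.pow_right 1 ((Nat.Prime.coprime_iff_not_dvd hp).2 fun h => hpL ?_).symm
    exact h.trans (Nat.div_dvd_of_dvd hML)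
  refine ⟨Y 0, (hY 0).1, Y 1, (hY 1).1, (hY 0).2, (hY 1).2, ?_⟩
  have e1 : L * p / D.M = (L / D.M) * p ^ 1 := by
    rw [Nat.div_mul_right_comm hML, pow_one]
  rw [hxy, e1, Nat.divisors_mul, Finset.mul_def, Finset.sum_image
    (fun a ha b hb h => hco.mul_injOn_divisors ha hb h), Finset.sum_product_right,
    Nat.divisors_prime_pow hp, Finset.sum_map, Finset.sum_range_succ,
    Finset.sum_range_one]
  simp only [Function.Embedding.coeFn_mk]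
  congr 1
  · refine Finset.sum_congr rfl fun d _ => ?_
    rw [pow_zero, mul_one]
  · rw [map_sum]
    refine Finset.sum_congr rfl fun d hd => ?_
    rw [pow_one, Bdz_mul hp (hdiv d hd).1]

theorem Uz_of_Tz {A : Type*} [CommRing A] {p : ℕ} (hp : p.Prime) {c : A} {Y : P1 → P1 → A}
    (h : Tz A hp Y = sc c Y) : Uz A hp Y = sc c Y - Bz A hp Y := by
  rw [← h, Tz, LinearMap.add_apply, add_sub_cancel_right]

/-- the quadratic equation of `U_p` -/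
theorem cx_quad {L p : ℕ} [NeZero L] (hML : D.M ∣ L) (hp : p.Prime) (hpL : ¬ p ∣ L)
    (hLS : ∀ l : ℕ, l.Prime → l ∣ L * p → l ∈ D.S ∪ D.Q) {x : P1 → P1 → ℂ}
    (hx : x ∈ SZ ℂ (L * p))
    (hxT : ∀ (l : ℕ) (hl : l.Prime), l ∉ D.S ∪ D.Q → Tz ℂ hl x = sc (qCoeff D.f l) x) :
    Uz ℂ hp (Uz ℂ hp x) - sc (qCoeff D.f p) (Uz ℂ hp x) + (p : ℤ) • x = 0 := by
  obtain ⟨Y₀, hY₀, Y₁, hY₁, h0, h1, rfl⟩ := cx_decp D hML hp hpL hLS hx hxT
  set c := qCoeff D.f p with hc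
  have a0 := Uz_of_Tz hp (h0 p hp hpL)
  have a1 := Uz_of_Tz hp (h1 p hp hpL)
  have b0 := Uz_Bz hp (SZ_trInv hY₀)
  have b1 := Uz_Bz hp (SZ_trInv hY₁)
  have c0 : Uz ℂ hp (sc c Y₀) = sc c (sc c Y₀ - Bz ℂ hp Y₀) := by
    rw [sc_eq_cm c Y₀, ← cm_Uz, a0]; rfl
  rw [map_add, a0, b1, map_add, map_sub, map_smul, a1, b0, c0]
  funext u v
  show (c * (c * Y₀ u v - Bz ℂ hp Y₀ u v) - (p : ℤ) • Y₀ u v +
    (p : ℤ) • (c * Y₁ u v - Bz ℂ hp Y₁ u v)) - c * ((c * Y₀ u v - Bz ℂ hp Y₀ u v) +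
    (p : ℤ) • Y₁ u v) + (p : ℤ) • (Y₀ u v + Bz ℂ hp Y₁ u v) = 0
  simp only [zsmul_eq_mul]
  ring

/-- **the old structure over `ℂ`** -/
theorem cx_oldp {L p : ℕ} [NeZero L] (hML : D.M ∣ L) (hp : p.Prime) (hpL : ¬ p ∣ L)
    (hLS : ∀ l : ℕ, l.Prime → l ∣ L * p → l ∈ D.S ∪ D.Q) {x : P1 → P1 → ℂ}
    (hx : x ∈ SZ ℂ (L * p)) {α β : ℂ} (hαβ : α * β = 1) (hU : Uz ℂ hp x = sc α x)
    (hxT : ∀ (l : ℕ) (hl : l.Prime), l ∉ D.S ∪ D.Q → Tz ℂ hl x = sc (qCoeff D.f l) x) :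
    ∃ Y ∈ SZ ℂ L, (∀ (l : ℕ) (hl : l.Prime), ¬ l ∣ L → Tz ℂ hl Y = sc (qCoeff D.f l) Y) ∧
      x = jz hp β Y := by
  have hLS' : ∀ l : ℕ, l.Prime → l ∣ L → l ∈ D.S ∪ D.Q := fun l hl h => hLS l hl (h.mul_right _)
  obtain ⟨Y₀, hY₀, Y₁, hY₁, h0, h1, rfl⟩ := cx_decp D hML hp hpL hLS hx hxT
  set c := qCoeff D.f p with hc
  have a0 := Uz_of_Tz hp (h0 p hp hpL)
  have b1 := Uz_Bz hp (SZ_trInv hY₁)
  have heq : (sc (c - α) Y₀ + (p : ℤ) • Y₁) + Bz ℂ hp (- Y₀ - sc α Y₁) = 0 := by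
    rw [map_add, a0, b1] at hU
    funext u v
    have h2 : (c * Y₀ u v - Bz ℂ hp Y₀ u v) + (p : ℤ) • Y₁ u v =
        α * (Y₀ u v + Bz ℂ hp Y₁ u v) := congrFun (congrFun hU u) v
    show ((c - α) * Y₀ u v + (p : ℤ) • Y₁ u v) + (- Bz ℂ hp Y₀ u v - α * Bz ℂ hp Y₁ u v) = 0
    linear_combination h2
  have hm1 : sc (c - α) Y₀ + (p : ℤ) • Y₁ ∈ SZ ℂ L := Submodule.add_mem _
    (sc_mem hY₀) (Submodule.smul_mem _ _ hY₁)
  have hm2 : - Y₀ - sc α Y₁ ∈ SZ ℂ L :=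
    Submodule.sub_mem _ (Submodule.neg_mem _ hY₀) (sc_mem hY₁)
  have hz := cx_two D (NeZero.ne L) hLS' hp hpL hm1 hm2 heq fun l hl hlS => by
    have hlL : ¬ l ∣ L := fun h => hlS (hLS' l hl h)
    rw [map_add, map_smul, h1 l hl hlL, sc_eq_cm (c - α), ← cm_Tz, h0 l hl hlL]
    funext u v
    show (c - α) * (qCoeff D.f l * Y₀ u v) + (p : ℤ) • (qCoeff D.f l * Y₁ u v) =
      qCoeff D.f l * ((c - α) * Y₀ u v + (p : ℤ) • Y₁ u v)
    rw [zsmul_eq_mul, zsmul_eq_mul]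
    ring
  rw [hz, zero_add] at heq
  have hz2 := Bz_inj hp heq
  refine ⟨Y₀, hY₀, h0, ?_⟩
  have h3 : Y₁ = - sc β Y₀ := by
    funext u v
    have h4 : - Y₀ u v - α * Y₁ u v = 0 := congrFun (congrFun hz2 u) v
    show Y₁ u v = - (β * Y₀ u v)
    linear_combination (-β) * h4 - Y₁ u v * hαβ
  rw [h3, jz, map_neg, sub_eq_add_neg]
  rfl

end

section

variable {O k : Type} [CommRing O] [IsDomain O] [IsDiscreteValuationRing O]
  [IsAdicComplete (IsLocalRing.maximalIdeal O) O] [CharZero O] [Field k]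
  [Algebra O k] (D : OmD O k)

/-- **saturation** -/
theorem jz_sat (hOk : Function.Surjective (algebraMap O k)) {L p : ℕ} (hL : L ≠ 0)
    (hLS : ∀ l : ℕ, l.Prime → l ∣ L → l ∈ D.S ∪ D.Q)
    (hp : p.Prime) (hpL : ¬ p ∣ L) (b : O) {ϖ : O} (hϖ : Irreducible ϖ)
    {y : P1 → P1 → O} (hy : y ∈ SZ O L)
    (hyT : ∀ (l : ℕ) (hl : l.Prime), ¬ l ∣ L → Tz O hl y = sc (D.lam l) y)
    {z : P1 → P1 → O} (h : jz hp b y = sc ϖ z) : ∃ w ∈ SZ O L, y = sc ϖ w := by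
  let g : O →+* O ⧸ Ideal.span {ϖ} := Ideal.Quotient.mk (Ideal.span {ϖ})
  have hg : ∀ a : O, g a = 0 ↔ ∃ c, a = ϖ * c := fun a => by
    show Ideal.Quotient.mk _ a = 0 ↔ _
    rw [Ideal.Quotient.eq_zero_iff_mem, Ideal.mem_span_singleton]
    rfl
  have hgu : ∀ a : O, algebraMap O k a ≠ 0 → IsUnit (g a) := fun a ha =>
    (isUnit_of_image_ne_zero hOk ha).map g
  have h1 : cm g.toAddMonoidHom y + Bz (O ⧸ Ideal.span {ϖ}) hp (sc (- g b) (cm g.toAddMonoidHom y))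
      = 0 := by
    funext u v
    have h2 : y u v - b * Bz O hp y u v = ϖ * z u v := congrFun (congrFun h u) v
    show g (y u v) + (- g b) * g (Bz O hp y u v) = 0
    have h3 := (hg _).2 ⟨z u v, h2⟩
    rw [map_sub, map_mul] at h3
    linear_combination h3
  obtain ⟨l, a1, a2, a3, a4⟩ := exists_ne₂ D
  have hl : l ∉ D.S ∪ D.Q := by rw [Finset.mem_union]; push Not; exact ⟨a2, a3⟩
  have hlL : ¬ l ∣ L := fun h => hl (hLS l a1 h)
  obtain ⟨M', hM', H⟩ := omTwo L p hL hp hpL (O ⧸ Ideal.span {ϖ}) _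
    (cm_mem g.toAddMonoidHom hy) _ (sc_mem (cm_mem g.toAddMonoidHom hy)) h1 l a1 hlL
  obtain ⟨l', b1, b2, b3, b4, b5⟩ := exists_ne₁ D hM'
  have hl' : l' ∉ D.S ∪ D.Q := by rw [Finset.mem_union]; push Not; exact ⟨b2, b3⟩
  have hl'L : ¬ l' ∣ L := fun h => hl' (hLS l' b1 h)
  have hT : ∀ (m : ℕ) (hm : m.Prime), ¬ m ∣ L → Tz (O ⧸ Ideal.span {ϖ}) hm
      (cm g.toAddMonoidHom y) = sc (g (D.lam m)) (cm g.toAddMonoidHom y) := by
    intro m hm hmL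
    rw [← cm_Tz, hyT m hm hmL]
    funext a b
    exact map_mul g _ _
  have h2 := H l' b1 b4
  rw [eis_apply a1 b1 (hT l a1 hlL) (hT l' b1 hl'L)] at h2
  have hu : IsUnit ((g (D.lam l') - (1 + (l' : O ⧸ Ideal.span {ϖ}))) ^ 2 *
      (g (D.lam l) ^ 2 - (1 + (l : O ⧸ Ideal.span {ϖ})) ^ 2)) := by
    have c1 := hgu _ a4
    have c2 := hgu _ b5
    rw [map_sub, map_pow, map_pow, map_add, map_one, map_natCast] at c1
    rw [map_sub, map_add, map_one, map_natCast] at c2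
    exact (c2.pow 2).mul c1
  have h3 : ∀ a b, g (y a b) = 0 := fun a b => by
    have := congrFun (congrFun h2 a) b
    exact (hu.mul_right_eq_zero).1 this
  obtain ⟨w, hw, hw'⟩ := exists_div hϖ.ne_zero hy fun a b => (hg _).1 (h3 a b)
  exact ⟨w, hw, hw'⟩

/-- removing a denominator -/
theorem exists_integralp (hOk : Function.Surjective (algebraMap O k)) {L p : ℕ} (hL : L ≠ 0)
    (hLS : ∀ l : ℕ, l.Prime → l ∣ L → l ∈ D.S ∪ D.Q)
    (hp : p.Prime) (hpL : ¬ p ∣ L) (b : O) {x : P1 → P1 → O} (c : O) (hc : c ≠ 0)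
    {y : P1 → P1 → O} (hy : y ∈ SZ O L)
    (hyT : ∀ (l : ℕ) (hl : l.Prime), ¬ l ∣ L → Tz O hl y = sc (D.lam l) y)
    (h : jz hp b y = sc c x) : ∃ w ∈ SZ O L,
      (∀ (l : ℕ) (hl : l.Prime), ¬ l ∣ L → Tz O hl w = sc (D.lam l) w) ∧ jz hp b w = x := by
  obtain ⟨ϖ, hϖ⟩ := IsDiscreteValuationRing.exists_irreducible O
  obtain ⟨n, u, rfl⟩ := IsDiscreteValuationRing.eq_unit_mul_pow_irreducible hc hϖ
  clear hc
  induction n generalizing y with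
  | zero =>
    refine ⟨sc (↑u⁻¹ : O) y, sc_mem hy, fun l hl hlL => ?_, ?_⟩
    · rw [Tz_sc, hyT l hl hlL, sc_sc_comm]
    · rw [jz_sc, h]
      funext a b
      show (↑u⁻¹ : O) * (↑u * ϖ ^ 0 * x a b) = x a b
      rw [pow_zero, mul_one, ← mul_assoc, Units.inv_mul, one_mul]
  | succ n ih =>
    have h1 : jz hp b y = sc ϖ (sc (↑u * ϖ ^ n) x) := by
      rw [h]
      funext a b
      show ↑u * ϖ ^ (n + 1) * x a b = ϖ * (↑u * ϖ ^ n * x a b)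
      ring
    obtain ⟨w, hw, rfl⟩ := jz_sat D hOk hL hLS hp hpL b hϖ hy hyT h1
    refine ih hw (fun l hl hlL => ?_) ?_
    · have := hyT l hl hlL
      rw [Tz_sc, sc_sc_comm] at this
      exact sc_cancel hϖ.ne_zero this
    · rw [jz_sc] at h1
      exact sc_cancel hϖ.ne_zero h1

/-- the eigenspace of level divisible by `p` -/
def Egp (L : ℕ) (Q' : Finset ℕ) {p : ℕ} (hp : p.Prime) (a : O) : Submodule O (SO O L) where
  carrier := {x | x ∈ Eg D L Q' ∧ Uz O hp x.1 = sc a x.1}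
  add_mem' := fun {x y} hx hy => ⟨add_mem hx.1 hy.1, by
    rw [SO.coe_add, map_add, hx.2, hy.2]
    funext u v
    exact (mul_add _ _ _).symm⟩
  zero_mem' := ⟨zero_mem _, by
    show Uz O hp 0 = sc a 0
    rw [map_zero, sc_zero_right]⟩
  smul_mem' := fun c x hx => ⟨Submodule.smul_mem _ _ hx.1, by
    rw [coe_smul_cm, ← cm_Uz, hx.2]
    funext u v
    show c * (a * x.1 u v) = a * (c * x.1 u v)
    ring⟩

/-- the stabilisation on the modules -/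
def jSO (O : Type) [CommRing O] (L : ℕ) {p : ℕ} (hp : p.Prime) (b : O) :
    SO O L →ₗ[O] SO O (L * p) where
  toFun x := ofSZ (jz_mem hp b (SO.mem x))
  map_add' x y := Subtype.ext (jz_add hp b x.1 y.1)
  map_smul' c x := Subtype.ext (jz_sc hp b c x.1)

theorem coe_jSO {L p : ℕ} (hp : p.Prime) (b : O) (x : SO O L) :
    (jSO O L hp b x).1 = jz hp b x.1 := rfl

theorem jz_zero {A : Type*} [CommRing A] {p : ℕ} (hp : p.Prime) (b : A) :
    jz hp b (0 : P1 → P1 → A) = 0 := by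
  funext u v
  show (0 : A) - b * 0 = 0
  ring

variable {D}

theorem jSO_mem {L p : ℕ} {Q' : Finset ℕ} (hp : p.Prime) (hpL : ¬ p ∣ L) (hQ : ∀ q ∈ Q', q ∣ L)
    {a b : O} (hab : a * b = 1) (ha : a ^ 2 - D.lam p * a + p = 0)
    {x : SO O L} (hx : x ∈ Eg D L Q') : jSO O L hp b x ∈ Egp D (L * p) Q' hp a := by
  refine ⟨⟨fun l hl hlL => ?_, fun q hq hqp => ?_⟩, ?_⟩
  · have h1 : l ≠ p := by
      rintro rfl
      exact hlL (dvd_mul_left _ _)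
    rw [coe_jSO, Tz_jz hl hp h1 b (SZ_trInv (SO.mem x)), hx.1 l hl fun h => hlL (h.mul_right _),
      jz_sc]
  · rw [coe_jSO, Uz_jz hqp hp (fun h => hpL (h ▸ hQ q hq)) b (SZ_trInv (SO.mem x)),
      hx.2 q hq hqp, jz_zero]
  · exact Up_jz hp hab ha (SZ_trInv (SO.mem x)) (hx.1 p hp hpL)

theorem jSO_inj {L p : ℕ} [NeZero L] {Q' : Finset ℕ} (hok : OkL D L Q') (hp : p.Prime)
    (hpL : ¬ p ∣ L) {b : O} {x : SO O L} (hx : x ∈ Eg D L Q') (h : jSO O L hp b x = 0) :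
    x = 0 := by
  have h1 : cx D x.1 + Bz ℂ hp (sc (- D.κ b) (cx D x.1)) = 0 := by
    funext u v
    have h2 : x.1 u v - b * Bz O hp x.1 u v = 0 :=
      congrFun (congrFun (congrArg Subtype.val h) u) v
    show D.κ (x.1 u v) + (- D.κ b) * D.κ (Bz O hp x.1 u v) = 0
    have h3 := congrArg D.κ h2
    rw [map_sub, map_mul, map_zero] at h3
    linear_combination h3
  have h2 := cx_two D (NeZero.ne L) hok.primes hp hpL (cm_mem _ (SO.mem x))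
    (sc_mem (cm_mem _ (SO.mem x))) h1 fun l hl hlS =>
    cx_eig D hl (not_dvd_N D hl fun h => hlS (Finset.mem_union_left _ h))
      (hx.1 l hl fun h => hlS (hok.primes l hl h))
  apply Subtype.ext
  refine cx_injective D (h2.trans ?_)
  funext a b
  exact (map_zero D.κ).symm

theorem jSO_surj (hOk : Function.Surjective (algebraMap O k)) {L p : ℕ} [NeZero L]
    {Q' : Finset ℕ} (hok : OkL D L Q') (hp : p.Prime) (hpS : p ∈ D.S)
    (hpL : ¬ p ∣ L) {a b : O} (hab : a * b = 1) {x : SO O (L * p)}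
    (hx : x ∈ Egp D (L * p) Q' hp a) : ∃ y ∈ Eg D L Q', jSO O L hp b y = x := by
  have hLS : ∀ l : ℕ, l.Prime → l ∣ L * p → l ∈ D.S ∪ D.Q := by
    intro l hl h
    rcases (hl.dvd_mul).1 h with h | h
    · exact hok.primes l hl h
    · rw [(Nat.prime_dvd_prime_iff_eq hl hp).1 h]; exact Finset.mem_union_left _ hpS
  obtain ⟨Y, hY, hYT, hxY⟩ := cx_oldp D (D.dvd.trans hok.N_dvd) hp hpL hLS (x := cx D x.1)
    (cm_mem _ (SO.mem x)) (α := D.κ a) (β := D.κ b) (by rw [← map_mul, hab, map_one]) (by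
      rw [← cm_Uz, hx.2]
      exact cx_sc D _ _) fun l hl hlS =>
    cx_eig D hl (not_dvd_N D hl fun h => hlS (Finset.mem_union_left _ h))
      (hx.1.1 l hl fun h => hlS (hLS l hl h))
  obtain ⟨ρ, hρ, hρ1⟩ := exists_rho D.κ D.κ_inj
  obtain ⟨c, hc, y, hy, hyY, hyT⟩ := exists_descent D hok.N_dvd hY hYT ρ hρ
  have hinj := IsFractionRing.injective O (FractionRing O)
  have h1 : jz hp b y = sc c x.1 := by
    funext u v
    apply hinj
    show algebraMap O (FractionRing O) (y u v - b * Bz O hp y u v) =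
      algebraMap O (FractionRing O) (c * x.1 u v)
    have h2 : D.κ (x.1 u v) = Y u v - D.κ b * Bz ℂ hp Y u v := congrFun (congrFun hxY u) v
    have h3 : algebraMap O (FractionRing O) c * ρ (Bz ℂ hp Y u v) =
        algebraMap O _ (Bz O hp y u v) := hyY _ _
    have h4 := hρ (x.1 u v) 1
    rw [mul_one, hρ1, mul_one, h2, map_sub, hρ] at h4
    rw [map_sub, map_mul, ← hyY, ← h3, map_mul, ← h4]
    ring
  obtain ⟨w, hw, hwT, hwx⟩ := exists_integralp D hOk (NeZero.ne L) hok.primes hp hpL b c hc hy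
    hyT h1
  refine ⟨ofSZ hw, ⟨hwT, fun q' hq' hq'p => ?_⟩, Subtype.ext hwx⟩
  -- `U_{q'} w = 0`
  have hne : q' ≠ p := fun h => hpL (h ▸ hok.Q_dvd q' hq')
  have h5 : Uz O hq'p w ∈ SZ O L := Sy.uop (one_dvd _) hq'p (hok.Q_dvd q' hq') hw
  have h6 : ofSZ h5 ∈ Eg D L ∅ := ⟨fun l hl hlL => by
    have hlq : l ≠ q' := fun h => hlL (h ▸ hok.Q_dvd q' hq')
    rw [coe_ofSZ, Tz_Uz hl hq'p hlq (SZ_trInv hw), hwT l hl hlL, sc_eq_cm, ← cm_Uz]; rfl,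
    fun q hq => absurd hq (Finset.notMem_empty q)⟩
  have h7 : jSO O L hp b (ofSZ h5) = 0 := by
    apply Subtype.ext
    rw [coe_jSO, coe_ofSZ, ← Uz_jz hq'p hp hne b (SZ_trInv hw), hwx]
    exact hx.1.2 q' hq' hq'p
  have h8 := jSO_inj (Q' := ∅) ⟨hok.N_dvd, hok.primes, fun q hq => absurd hq (Finset.notMem_empty q)⟩
    hp hpL h6 h7
  exact congrArg Subtype.val h8

/-- the isomorphism of the eigenspaces -/
theorem exists_equivp (hOk : Function.Surjective (algebraMap O k)) {L p : ℕ} [NeZero L]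
    {Q' : Finset ℕ} (hok : OkL D L Q') (hp : p.Prime) (hpS : p ∈ D.S) (hpL : ¬ p ∣ L)
    {a b : O} (hab : a * b = 1) (ha : a ^ 2 - D.lam p * a + p = 0) :
    ∃ f : Eg D L Q' ≃ₗ[O] Egp D (L * p) Q' hp a, ∀ x, (f x).1 = jSO O L hp b x.1 := by
  let f : Eg D L Q' →ₗ[O] Egp D (L * p) Q' hp a :=
    ((jSO O L hp b).domRestrict _).codRestrict _ fun x => jSO_mem hp hpL hok.Q_dvd hab ha x.2
  refine ⟨LinearEquiv.ofBijective f ⟨?_, fun x => ?_⟩, fun x => rfl⟩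
  · rw [injective_iff_map_eq_zero]
    intro x hx
    exact Subtype.ext (jSO_inj (b := b) hok hp hpL x.2 (congrArg Subtype.val hx))
  · obtain ⟨y, hy, hyx⟩ := jSO_surj hOk hok hp hpS hpL hab x.2
    exact ⟨⟨y, hy⟩, Subtype.ext hyx⟩

end

end Fermat.Agent.RT.Om
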