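import Fermat.Agent.RT.OmP2

/-!
# The congruence data of level divisible by `p`
-/

set_option autoImplicit false
set_option linter.unusedSectionVars false
set_option linter.style.haveILetI false

noncomputable section

namespace Fermat.Agent.RT.Om

open Matrix CongruenceSubgroup MvPolynomial Fermat.Agent.TWCoh
open ModularFormClass (qCoeff)
open scoped MatrixGroups OnePoint

section

variable {O : Type} [CommRing O] [IsDomain O] [IsDiscreteValuationRing O]
  [IsAdicComplete (IsLocalRing.maximalIdeal O) O] [CharZero O]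

/-- **the comparison of the pairings** -/
theorem can_stepp {S S' : Set ℕ} {L p : ℕ} [NeZero L] [NeZero (L * p)] (h2 : IsUnit (2 : O))
    (hp : p.Prime) (hpL : ¬ p ∣ L) {H : Submodule (HA O S) (SO O L)}
    {H' : Submodule (HA O S') (SO O (L * p))} {B : H →ₗ[O] H →ₗ[O] O}
    {B' : H' →ₗ[O] H' →ₗ[O] O} (hB : IsCan B) (hB' : IsCan B') (b : O) (y x : H) (y' x' : H')
    (hy : y'.1.1 = jz hp b y.1.1) (hx : x'.1.1 = jz hp b x.1.1) (c : O)
    (hc : Tz O hp x.1.1 = sc c x.1.1) :
    B' y' x' = (c - 2 * b * (p + 1) + b ^ 2 * c) * B y x := by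
  have hL := NeZero.ne L
  obtain ⟨ι, _, g, h, hg1, hg2, hg3⟩ := omPTr L p hL hp hpL
  -- the traces
  let Tr : SO O (L * p) →ₗ[O] SO O L :=
    { toFun := fun x => ofSZ (hg1 O x.1 (SO.mem x)).1
      map_add' := fun x y => Subtype.ext (by
        funext u v
        show ∑ i, (x.1 _ _ + y.1 _ _) = (∑ i, x.1 _ _) + ∑ i, y.1 _ _
        exact Finset.sum_add_distrib)
      map_smul' := fun c x => Subtype.ext (by
        funext u v
        show ∑ i, c * x.1 _ _ = c * ∑ i, x.1 _ _
        rw [Finset.mul_sum]) }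
  let Tr' : SO O (L * p) →ₗ[O] SO O L :=
    { toFun := fun x => ofSZ (hg1 O x.1 (SO.mem x)).2
      map_add' := fun x y => Subtype.ext (by
        funext u v
        show ∑ i, (x.1 _ _ + y.1 _ _) = (∑ i, x.1 _ _) + ∑ i, y.1 _ _
        exact Finset.sum_add_distrib)
      map_smul' := fun c x => Subtype.ext (by
        funext u v
        show ∑ i, c * x.1 _ _ = c * ∑ i, x.1 _ _
        rw [Finset.mul_sum]) }
  obtain ⟨μ, hμ⟩ := exists_rel h2 (frO O hL y.1)
  set z := frO O hL y.1 with hz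
  have hTr : ∀ γ : Gamma0 (L * p), μ (Tr (iot γ)) = z.1 ∞ (io γ.1 • ∞) := by
    intro γ
    have hγ : γ.1 ∈ Gamma0 L := mem_Gamma0.2
      ((Int.natCast_dvd_natCast.2 (dvd_mul_right _ _)).trans (mem_Gamma0.1 γ.2))
    have h3 : Tr (iot γ) = iot ⟨γ.1, hγ⟩ := by
      apply Subtype.ext
      funext u v
      show ∑ i, ((LR.iota (Gamma0 (L * p)) γ (g i • u) (g i • v) : ℤ) : O) =
        ((LR.iota (Gamma0 L) γ.1 u v : ℤ) : O)
      rw [← (hg3 γ.1 γ.2).1 u v, Int.cast_sum]
    rw [h3]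
    exact hμ ⟨γ.1, hγ⟩
  have hTr' : ∀ γ : Gamma0 (L * p), μ (Tr' (iot γ)) = Bz O hp z.1 ∞ (io γ.1 • ∞) := by
    intro γ
    obtain ⟨γ', hγ', h4, h5⟩ := (hg3 γ.1 γ.2).2
    have h3 : Tr' (iot γ) = iot ⟨γ', hγ'⟩ := by
      apply Subtype.ext
      funext u v
      show ∑ i, ((LR.iota (Gamma0 (L * p)) γ (h i • u) (h i • v) : ℤ) : O) =
        ((LR.iota (Gamma0 L) γ' u v : ℤ) : O)
      rw [← h5 u v, Int.cast_sum]
    rw [h3, hμ ⟨γ', hγ'⟩]
    show z.1 ∞ (io γ' • ∞) = z.1 (Di p hp.ne_zero • ∞) (Di p hp.ne_zero • io γ.1 • ∞)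
    rw [← mul_smul, h4, mul_smul, Di_infty]
  have hrel : Rel (μ ∘ₗ Tr' - b • (μ ∘ₗ Tr)) (frO O (NeZero.ne (L * p)) y'.1) := by
    intro γ
    rw [LinearMap.sub_apply, LinearMap.smul_apply, LinearMap.comp_apply, LinearMap.comp_apply,
      hTr, hTr']
    have e1 : frz (NeZero.ne (L * p)) y'.1.1 = Bz O hp z.1 - sc b z.1 := by
      rw [hy]
      have e2 := frz_mul hL hp (NeZero.ne (L * p)) y.1.1
      have e3 := frz_Bz hL hp (NeZero.ne (L * p)) y.1.1
      funext u v
      show y.1.1 _ _ - b * Bz O hp y.1.1 _ _ = Bz O hp (frz hL y.1.1) u v - b * frz hL y.1.1 u v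
      rw [← e2, ← e3]
      rfl
    have e4 : (frO O (NeZero.ne (L * p)) y'.1).1 ∞ (io γ.1 • ∞) =
        Bz O hp z.1 ∞ (io γ.1 • ∞) - b * z.1 ∞ (io γ.1 • ∞) := congrFun (congrFun e1 _) _
    rw [hv_apply, e4]
    rfl
  rw [hB' y' x' _ hrel, LinearMap.sub_apply, LinearMap.smul_apply, LinearMap.comp_apply,
    LinearMap.comp_apply]
  obtain ⟨f1, f2, f3, f4⟩ := hg2 O x.1.1 (SO.mem x.1)
  have h5 : Tr x'.1 = ((p : O) + 1 - b * c) • x.1 := by
    apply Subtype.ext
    funext u v
    show ∑ i, x'.1.1 (g i • u) (g i • v) = ((p : O) + 1 - b * c) * x.1.1 u v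
    rw [hx]
    show ∑ i, (x.1.1 (g i • u) (g i • v) - b * Bz O hp x.1.1 (g i • u) (g i • v)) = _
    rw [Finset.sum_sub_distrib, ← Finset.mul_sum]
    have e1 := congrFun (congrFun f1 u) v
    have e2 := congrFun (congrFun f2 u) v
    rw [hc] at e2
    simp only [Pi.smul_apply, zsmul_eq_mul] at e1 e2
    rw [e1, e2]
    push_cast
    ring
  have h6 : Tr' x'.1 = (c - b * (p + 1)) • x.1 := by
    apply Subtype.ext
    funext u v
    show ∑ i, x'.1.1 (h i • u) (h i • v) = (c - b * (p + 1)) * x.1.1 u v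
    rw [hx]
    show ∑ i, (x.1.1 (h i • u) (h i • v) - b * Bz O hp x.1.1 (h i • u) (h i • v)) = _
    rw [Finset.sum_sub_distrib, ← Finset.mul_sum]
    have e1 := congrFun (congrFun f3 u) v
    have e2 := congrFun (congrFun f4 u) v
    rw [hc] at e1
    simp only [Pi.smul_apply, zsmul_eq_mul] at e1 e2
    rw [e1, e2]
    push_cast
    ring
  rw [h5, h6, map_smul, map_smul, smul_eq_mul, smul_eq_mul, smul_eq_mul, hB y x μ hμ]
  ring

end

section

variable {O k : Type} [CommRing O] [IsDomain O] [IsDiscreteValuationRing O]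
  [IsAdicComplete (IsLocalRing.maximalIdeal O) O] [CharZero O] [Field k]
  [Algebra O k]

/-- polynomials act on simultaneous eigenvectors through the evaluation -/
theorem smul_of_X {S : Set ℕ} {L : ℕ} {μ : PS S → O} {x : SO O L}
    (hx : ∀ l : PS S, (X l : HA O S) • x = μ l • x) (r : HA O S) :
    r • x = aeval (R := O) μ r • x := by
  induction r using MvPolynomial.induction_on with
  | C a => rw [C_smul, aeval_C]; rfl
  | add p q hp hq => rw [add_smul, hp, hq, map_add, add_smul]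
  | mul_X p l hp =>
    rw [mul_smul, hx, smul_comm, hp, map_mul, aeval_X, smul_smul, mul_comm]

/-- simultaneous eigenvectors are in the localised part -/
theorem mem_loc_of_X (hOk : Function.Surjective (algebraMap O k)) {S : Set ℕ} {L : ℕ}
    {μ : PS S → O} {τ : PS S → k} (hτ : ∀ l, τ l = algebraMap O k (μ l)) {x : SO O L}
    (hx : ∀ l : PS S, (X l : HA O S) • x = μ l • x) : x ∈ loc (evI O τ) (SO O L) := by
  rw [mem_loc]
  intro s hs
  have h1 : algebraMap O k (aeval (R := O) μ s) ≠ 0 := by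
    rw [mem_evI] at hs
    intro h
    apply hs
    rw [← h]
    have : (algebraMap O k).comp (aeval (R := O) μ : HA O S →+* O) =
        (aeval (R := O) τ : HA O S →+* k) := by
      apply MvPolynomial.ringHom_ext
      · intro a
        show algebraMap O k (aeval (R := O) μ (C a)) = aeval τ (C a)
        rw [aeval_C, aeval_C]; rfl
      · intro l
        show algebraMap O k (aeval (R := O) μ (X l)) = aeval τ (X l)
        rw [aeval_X, aeval_X, hτ]
    exact (RingHom.congr_fun this s).symm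
  obtain ⟨u, hu⟩ := isUnit_of_image_ne_zero hOk h1
  refine ⟨(↑u⁻¹ : O) • x, ?_⟩
  rw [smul_comm, smul_of_X hx, smul_smul, ← hu, Units.inv_mul, one_smul]

variable {D : OmD O k} {p : ℕ} {a : O}

variable (D p a) in
/-- the residual eigensystem with `U_p` -/
def τp (S' : Finset ℕ) : PS ((S'.erase p : Finset ℕ) : Set ℕ) → k := fun l =>
  algebraMap O k (if l.1 = p then a else D.lam l.1)

/-- the inclusion of the Hecke algebras -/
def φp (O : Type) [CommRing O] (S' : Finset ℕ) (p : ℕ) :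
    HA O (S' : Set ℕ) →ₐ[O] HA O ((S'.erase p : Finset ℕ) : Set ℕ) :=
  aeval fun l => X ⟨l.1, l.2.1, fun h => l.2.2 (Finset.coe_subset.2 (Finset.erase_subset p S') h)⟩

theorem φp_smul {S' : Finset ℕ} {L : ℕ} (r : HA O (S' : Set ℕ)) (x : SO O L) :
    φp O S' p r • x = r • x := by
  induction r using MvPolynomial.induction_on generalizing x with
  | C b => rw [φp, aeval_C, C_smul]; exact C_smul b x
  | add u v hu hv => rw [map_add, add_smul, add_smul, hu, hv]
  | mul_X u l hu =>
    rw [map_mul, mul_smul, mul_smul, hu]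
    congr 1
    rw [φp, aeval_X, X_smul, X_smul]

theorem φp_eval {S' : Finset ℕ} (hpS : p ∈ S') (r : HA O (S' : Set ℕ)) :
    aeval (R := O) (τp D p a S') (φp O S' p r) = aeval (R := O) (D.τ S') r := by
  induction r using MvPolynomial.induction_on with
  | C b => rw [φp, aeval_C, aeval_C]; exact (aeval (R := O) (τp D p a S')).commutes b
  | add u v hu hv => rw [map_add, map_add, map_add, hu, hv]
  | mul_X u l hu =>
    rw [map_mul, map_mul, map_mul, hu]
    congr 1
    have h1 : l.1 ≠ p := by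
      rintro h
      apply l.2.2
      rw [h]
      exact hpS
    rw [φp, aeval_X, aeval_X, aeval_X, τp]
    rw [if_neg h1]
    rfl

theorem loc_le {S' : Finset ℕ} (hpS : p ∈ S') {L : ℕ} {x : SO O L}
    (hx : x ∈ loc (evI O (τp D p a S')) (SO O L)) : x ∈ loc (evI O (D.τ S')) (SO O L) := by
  rw [mem_loc] at hx ⊢
  intro s hs
  obtain ⟨y, hy⟩ := hx (φp O S' p s) (by
    rw [mem_evI, φp_eval hpS]
    rw [mem_evI] at hs
    exact hs)
  exact ⟨y, by rw [← hy, φp_smul]⟩

end

end Fermat.Agent.RT.Om
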