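import Fermat.Agent.RT.OmF

/-!
# The `p`-step: statements
-/

set_option autoImplicit false

noncomputable section

namespace Fermat.Agent.RT

open Matrix CongruenceSubgroup Fermat.Agent.TWCoh
open scoped MatrixGroups OnePoint

/-- **(OmP-Tr)** the two traces from level `N p` to level `N` -/
def OmPTrSt : Prop := ∀ (N p : ℕ), N ≠ 0 → ∀ (hp : p.Prime), ¬ p ∣ N →
  ∃ (ι : Type) (_ : Fintype ι) (g h : ι → GQ),
    (∀ (A : Type) [AddCommGroup A], ∀ x ∈ SZ A (N * p),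
      (fun a b => ∑ i, x (g i • a) (g i • b)) ∈ SZ A N ∧
      (fun a b => ∑ i, x (h i • a) (h i • b)) ∈ SZ A N) ∧
    (∀ (A : Type) [AddCommGroup A], ∀ x ∈ SZ A N,
      (fun a b => ∑ i, x (g i • a) (g i • b)) = ((p : ℤ) + 1) • x ∧
      (fun a b => ∑ i, Bz A hp x (g i • a) (g i • b)) = Tz A hp x ∧
      (fun a b => ∑ i, x (h i • a) (h i • b)) = Tz A hp x ∧
      (fun a b => ∑ i, Bz A hp x (h i • a) (h i • b)) = ((p : ℤ) + 1) • x) ∧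
    (∀ γ ∈ Gamma0 (N * p), (∀ a b : P1,
      ∑ i, LR.iota (Gamma0 (N * p)) γ (g i • a) (g i • b) = LR.iota (Gamma0 N) γ a b) ∧
      ∃ γ' ∈ Gamma0 N, Di p hp.ne_zero * io γ = io γ' * Di p hp.ne_zero ∧ ∀ a b : P1,
        ∑ i, LR.iota (Gamma0 (N * p)) γ (h i • a) (h i • b) = LR.iota (Gamma0 N) γ' a b)

/-- **(OmP-U)** the adjoint of `U_q` at level `L`, `q ∣ L` -/
def OmPUSt : Prop := ∀ (L q : ℕ) (hL : L ≠ 0) (hq : q.Prime), q ∣ L → ∀ γ ∈ Gamma0 L,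
  ∃ (ι : Type) (_ : Fintype ι) (g : ι → SL(2, ℤ)), (∀ i, g i ∈ Gamma0 L) ∧
    (∀ a b : P1, Uz ℤ hq (LR.iota (Gamma0 L) γ) a b = ∑ i, LR.iota (Gamma0 L) (g i) a b) ∧
    ∀ (A : Type) [AddCommGroup A], ∀ x ∈ SZ A L,
      ∑ i, x ∞ (io (g i) • ∞) = Om.frz hL (Uz A hq (Om.frz hL x)) ∞ (io γ • ∞)

end Fermat.Agent.RT
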