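import Fermat.Agent.RT.OmZ

/-!
# The passage to non-minimal level
-/

set_option autoImplicit false
set_option linter.unusedSectionVars false
set_option linter.style.haveILetI false

noncomputable section

namespace Fermat.Agent.RT.Om

open Matrix CongruenceSubgroup MvPolynomial Fermat.Agent.TWCoh
open ModularFormClass (qCoeff)
open scoped MatrixGroups OnePoint

/-- transport of congruence data -/
def congMap {O R H H' : Type} [CommRing O] [IsDomain O] [CommRing R] [Algebra O R] {π : R →ₐ[O] O}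
    [AddCommGroup H] [Module O H] [Module R H] [AddCommGroup H'] [Module O H'] [Module R H']
    {d : ℕ} (C : CongData O R π H d) (f : H' ≃ₗ[O] H) (hf : ∀ (r : R) x, f (r • x) = r • f x) :
    CongData O R π H' d where
  B := C.B.compl₁₂ f.toLinearMap f.toLinearMap
  perfect := fun g => by
    obtain ⟨y, hy⟩ := C.perfect (g ∘ₗ f.symm.toLinearMap)
    refine ⟨f.symm y, LinearMap.ext fun x => ?_⟩
    show C.B (f (f.symm y)) (f x) = g x
    rw [LinearEquiv.apply_symm_apply, hy]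
    show g (f.symm (f x)) = g x
    rw [LinearEquiv.symm_apply_apply]
  adj := fun r x y => by
    show C.B (f (r • x)) (f y) = C.B (f x) (f (r • y))
    rw [hf, hf, C.adj]
  e := fun i => f.symm (C.e i)
  indep := C.indep.map' f.symm.toLinearMap (LinearMap.ker_eq_bot.2 f.symm.injective)
  mem_span := fun x => by
    have h1 : x ∈ Submodule.span O (Set.range fun i => f.symm (C.e i)) ↔
        f x ∈ Submodule.span O (Set.range C.e) := by
      have h2 : (Set.range fun i => f.symm (C.e i)) = f.symm '' Set.range C.e := by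
        rw [← Set.range_comp]; rfl
      rw [h2, ← LinearEquiv.coe_coe, ← Submodule.map_span, Submodule.mem_map]
      constructor
      · rintro ⟨y, hy, rfl⟩
        simpa using hy
      · intro h
        exact ⟨f x, h, f.symm_apply_apply x⟩
    rw [h1, C.mem_span]
    refine forall_congr' fun r => forall_congr' fun _ => ?_
    rw [← hf, ← f.map_zero, f.injective.eq_iff]

theorem congMap_gram {O R H H' : Type} [CommRing O] [IsDomain O] [CommRing R] [Algebra O R]
    {π : R →ₐ[O] O} [AddCommGroup H] [Module O H] [Module R H] [AddCommGroup H'] [Module O H']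
    [Module R H'] {d : ℕ} (C : CongData O R π H d) (f : H' ≃ₗ[O] H)
    (hf : ∀ (r : R) x, f (r • x) = r • f x) : (congMap C f hf).gram = C.gram := by
  unfold CongData.gram
  congr 1
  ext i j
  show C.B (f (f.symm (C.e i))) (f (f.symm (C.e j))) = C.B (C.e i) (C.e j)
  rw [LinearEquiv.apply_symm_apply, LinearEquiv.apply_symm_apply]

section

variable {O k : Type} [CommRing O] [IsDomain O] [IsDiscreteValuationRing O]
  [IsAdicComplete (IsLocalRing.maximalIdeal O) O] [CharZero O] [Field k]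
  [Algebra O k] {D : OmD O k}

/-- strong multiplicity one over `O` -/
theorem mem_Eg {L : ℕ} [NeZero L] {Q' : Finset ℕ} (hok : OkL D L Q') {x : SO O L}
    (hT : ∀ (l : ℕ) (hl : l.Prime), l ∉ D.S ∪ D.Q → Tz O hl x.1 = sc (D.lam l) x.1)
    (hU : ∀ q ∈ Q', ∀ hq : q.Prime, Uz O hq x.1 = 0) : x ∈ Eg D L Q' := by
  refine ⟨fun l hl hlL => ?_, hU⟩
  refine cx_eig_iff D hl (fun h => hlL (h.trans hok.N_dvd)) ?_
  exact cx_sm D (D.dvd.trans hok.N_dvd) hok.primes (cm_mem _ (SO.mem x)) (fun l hl hlS =>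
    cx_eig D hl (not_dvd_N D hl fun h => hlS (Finset.mem_union_left _ h)) (hT l hl hlS)) l hl hlL

/-- polynomials act on eigensymbols through `π` -/
theorem smul_Eg {L : ℕ} {Q' S' : Finset ℕ} (hS' : ∀ l : ℕ, l.Prime → l ∣ L → l ∈ S')
    {x : SO O L} (hx : x ∈ Eg D L Q') (r : HA O (S' : Set ℕ)) : r • x = D.π S' r • x := by
  induction r using MvPolynomial.induction_on with
  | C a => rw [C_smul, OmD.π, aeval_C]; rfl
  | add p q hp hq => rw [add_smul, hp, hq, map_add, add_smul]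
  | mul_X p l hp =>
    have h1 : ¬ l.1 ∣ L := fun h => l.2.2 (hS' l.1 l.2.1 h)
    have h2 : ((X l : HA O (S' : Set ℕ)) • x : SO O L) = D.lam l.1 • x := by
      apply Subtype.ext
      rw [coe_X_smul l h1, hx.1 l.1 l.2.1 h1]
      rfl
    rw [mul_smul, h2, smul_comm, hp, map_mul, OmD.π, aeval_X, smul_smul, mul_comm]

theorem Eg_le_HQ (hOk : Function.Surjective (algebraMap O k)) {L : ℕ} {Q' S' : Finset ℕ}
    (hS' : ∀ l : ℕ, l.Prime → l ∣ L → l ∈ S') (hQ : ∀ q ∈ Q', q ∣ L) {x : SO O L}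
    (hx : x ∈ Eg D L Q') : x ∈ HQ O (D.τ S') L Q' := by
  refine ⟨mem_loc.2 fun s hs => ?_, fun q hq hq' => Subtype.ext ?_⟩
  · have h1 : algebraMap O k (D.π S' s) ≠ 0 := by
      rw [mem_evI] at hs
      intro h
      apply hs
      rw [← h]
      have : (algebraMap O k).comp (D.π S' : HA O (S' : Set ℕ) →+* O) =
          (aeval (R := O) (D.τ S') : HA O (S' : Set ℕ) →+* k) := by
        apply MvPolynomial.ringHom_ext
        · intro a
          show algebraMap O k (D.π S' (C a)) = aeval (D.τ S') (C a)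
          rw [OmD.π, aeval_C, aeval_C]; rfl
        · intro l
          show algebraMap O k (D.π S' (X l)) = aeval (D.τ S') (X l)
          rw [OmD.π, aeval_X, aeval_X]; rfl
      exact (RingHom.congr_fun this s).symm
    obtain ⟨u, hu⟩ := isUnit_of_image_ne_zero hOk h1
    refine ⟨(↑u⁻¹ : O) • x, ?_⟩
    rw [smul_comm, smul_Eg hS' hx, smul_smul, ← hu, Units.inv_mul, one_smul]
  · rw [opr_eq_Uz hq' (hQ q hq)]
    exact hx.2 q hq hq'

/-- the congruence data of a level -/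
theorem exists_cong {L : ℕ} [NeZero L] {Q' S' : Finset ℕ} (hok : OkL D L Q')
    (hS' : ∀ l : ℕ, l.Prime → l ∣ L → l ∈ S') (hSS : S' ⊆ D.S ∪ D.Q)
    (hlev : Lev O (D.τ S') L Q') {d : ℕ} (e : Module.Basis (Fin d) O (Eg D L Q')) :
    ∃ C : CongData O (HA O (S' : Set ℕ)) (D.π S') (HQ O (D.τ S') L Q') d,
      IsCan C.B ∧ ∀ i, (C.e i).1 = (e i).1 := by
  obtain ⟨B, hB1, hB2, hB3⟩ := exists_can hlev
  let ι : Eg D L Q' →ₗ[O] HQ O (D.τ S') L Q' :=
    { toFun := fun x => ⟨x.1, Eg_le_HQ hlev.surj hS' hok.Q_dvd x.2⟩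
      map_add' := fun _ _ => rfl
      map_smul' := fun _ _ => rfl }
  have hι : Function.Injective ι := by
    intro x y h
    apply Subtype.ext
    have h1 : (ι x).1 = (ι y).1 := by rw [h]
    exact h1
  have hspan : Submodule.span O (Set.range fun i => ι (e i)) = LinearMap.range ι := by
    have h1 : (Set.range fun i => ι (e i)) = ι '' Set.range e := by rw [← Set.range_comp]; rfl
    rw [h1, ← Submodule.map_span, e.span_eq, Submodule.map_top]
  refine ⟨⟨B, hB1, hB3, fun i => ι (e i), e.linearIndependent.map' ι (LinearMap.ker_eq_bot.2 hι),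
    fun x => ?_⟩, hB2, fun i => rfl⟩
  rw [hspan]
  constructor
  · rintro ⟨y, rfl⟩ r hr
    apply Subtype.ext
    show r • y.1 = 0
    rw [smul_Eg hS' y.2, hr, zero_smul]
  · intro h
    refine ⟨⟨x.1, mem_Eg hok (fun l hl hlS => ?_) fun q hq hq' => ?_⟩, rfl⟩
    · have hlS' : l ∉ (S' : Set ℕ) := fun h => hlS (hSS h)
      have h1 := h (X ⟨l, hl, hlS'⟩ - C (D.lam l)) (by
        rw [map_sub, OmD.π, aeval_X, aeval_C]
        exact sub_self _)
      rw [sub_smul, sub_eq_zero] at h1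
      have h2 : ((X ⟨l, hl, hlS'⟩ : HA O (S' : Set ℕ)) • x.1 : SO O L) = D.lam l • x.1 := by
        have := congrArg Subtype.val h1
        rw [← C_smul (S := (S' : Set ℕ))]
        exact this
      rw [← coe_X_smul (L := L) ⟨l, hl, hlS'⟩ (fun h' => hlS' (hS' l hl h')), h2]
      rfl
    · rw [← opr_eq_Uz hq' (hok.Q_dvd q hq)]
      exact congrArg Subtype.val (x.2.2 q hq hq')

/-! ### Levels -/

variable (D) in
/-- the level -/
def LL (Q' : Finset ℕ) : ℕ := D.N * ∏ q ∈ Q', q ^ 2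

theorem LL_ne {Q' : Finset ℕ} (hQ : Q' ⊆ D.Q) : LL D Q' ≠ 0 :=
  mul_ne_zero (NeZero.ne D.N) (Finset.prod_ne_zero_iff.2 fun q hq =>
    pow_ne_zero 2 (D.prime_Q q (hQ hq)).ne_zero)

theorem prime_dvd_LL {Q' : Finset ℕ} (hQ : Q' ⊆ D.Q) {l : ℕ} (hl : l.Prime) (h : l ∣ LL D Q') :
    l ∣ D.N ∨ l ∈ Q' := by
  rcases (hl.dvd_mul).1 h with h | h
  · exact Or.inl h
  · right
    obtain ⟨q, hq, hlq⟩ := (Prime.dvd_finsetProd_iff hl.prime _).1 h
    rw [(Nat.prime_dvd_prime_iff_eq hl (D.prime_Q q (hQ hq))).1 (hl.dvd_of_dvd_pow hlq)]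
    exact hq

theorem okL {Q' : Finset ℕ} (hQ : Q' ⊆ D.Q) : OkL D (LL D Q') Q' where
  N_dvd := Dvd.intro _ rfl
  primes := fun l hl h => by
    rcases prime_dvd_LL hQ hl h with h | h
    · exact Finset.mem_union_left _ (D.mem_S l hl h)
    · exact Finset.mem_union_right _ (hQ h)
  Q_dvd := fun q hq => Dvd.dvd.mul_left ((dvd_pow_self q two_ne_zero).trans
    (Finset.dvd_prod_of_mem (fun q => q ^ 2) hq)) _

theorem LL_erase {Q' : Finset ℕ} {q : ℕ} (hq : q ∈ Q') :
    LL D Q' = LL D (Q'.erase q) * q * q := by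
  rw [LL, LL, ← Finset.mul_prod_erase _ _ hq]
  ring

theorem LL_insert {Q' : Finset ℕ} {q : ℕ} (hq : q ∉ Q') :
    LL D (insert q Q') = LL D Q' * q * q := by
  rw [LL, LL, Finset.prod_insert hq]
  ring

theorem not_dvd_LL {Q' : Finset ℕ} (hQ : Q' ⊆ D.Q) {q : ℕ} (hqQ : q ∈ D.Q) (hq : q ∉ Q') :
    ¬ q ∣ LL D Q' := by
  intro h
  rcases prime_dvd_LL hQ (D.prime_Q q hqQ) h with h | h
  · exact D.disj q hqQ (D.mem_S q (D.prime_Q q hqQ) h)
  · exact hq h

theorem levL (hOk : Function.Surjective (algebraMap O k)) (h2 : (2 : k) ≠ 0) {Q' : Finset ℕ}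
    (hQ : Q' ⊆ D.Q) : Lev O (D.τ (D.S ∪ Q')) (LL D Q') Q' where
  surj := hOk
  two := h2
  notdvd := fun l h => by
    rcases prime_dvd_LL hQ l.2.1 h with h | h
    · exact l.2.2 (Finset.mem_coe.2 (Finset.mem_union_left _ (D.mem_S l.1 l.2.1 h)))
    · exact l.2.2 (Finset.mem_coe.2 (Finset.mem_union_right _ h))
  eis := by
    obtain ⟨l, h1, h2, h3, h4, h5⟩ := D.eis₁ (LL D Q') (LL_ne hQ)
    refine ⟨⟨l, h1, fun h => ?_⟩, h4, h5⟩
    rcases Finset.mem_union.1 (Finset.mem_coe.1 h) with h | h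
    · exact h2 h
    · exact h3 (hQ h)
  lev := fun q hq => ⟨D.prime_Q q (hQ hq), D.ne_Q q (hQ hq), LL D (Q'.erase q), LL_erase hq,
    not_dvd_LL ((Finset.erase_subset _ _).trans hQ) (hQ hq) (Finset.notMem_erase q Q')⟩

theorem cong_at (hOk : Function.Surjective (algebraMap O k)) (h2 : (2 : k) ≠ 0) {Q' : Finset ℕ}
    (hQ : Q' ⊆ D.Q) [NeZero (LL D Q')] {d : ℕ}
    (e : Module.Basis (Fin d) O (Eg D (LL D Q') Q')) :
    ∃ C : CongData O (HA O ((D.S ∪ Q' : Finset ℕ) : Set ℕ)) (D.π (D.S ∪ Q'))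
      (HQ O (D.τ (D.S ∪ Q')) (LL D Q') Q') d, IsCan C.B ∧ ∀ i, (C.e i).1 = (e i).1 :=
  exists_cong (okL hQ) (fun l hl h => by
    rcases prime_dvd_LL hQ hl h with h | h
    · exact Finset.mem_union_left _ (D.mem_S l hl h)
    · exact Finset.mem_union_right _ h)
    (Finset.union_subset_union_right hQ) (levL hOk h2 hQ) e

/-- the change of the discriminant -/
def cQ (D : OmD O k) (Q' : Finset ℕ) : O :=
  ∏ q ∈ Q', (((q : O) - 1) * (((q : O) + 1) ^ 2 - D.lam q ^ 2))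

/-- the comparison of discriminants between two levels -/
theorem gram_step {S S' : Set ℕ} {L q : ℕ} [NeZero L] [NeZero (L * q * q)] (h2 : IsUnit (2 : O))
    (hq : q.Prime) (hqL : ¬ q ∣ L) {H : Submodule (HA O S) (SO O L)}
    {H' : Submodule (HA O S') (SO O (L * q * q))} {π : HA O S →ₐ[O] O} {π' : HA O S' →ₐ[O] O}
    {d : ℕ} (C : CongData O (HA O S) π H d) (C' : CongData O (HA O S') π' H' d)
    (hC : IsCan C.B) (hC' : IsCan C'.B) {Q' : Finset ℕ}
    (hE : ∀ i, (C.e i).1 ∈ Eg D L Q') (he : ∀ i, (C'.e i).1 = iSO O L hq (C.e i).1) :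
    C'.gram = C.gram * ((((q : O) - 1) * (((q : O) + 1) ^ 2 - D.lam q ^ 2))) ^ d := by
  have h : (Matrix.of fun i j => C'.B (C'.e i) (C'.e j)) =
      (((q : O) - 1) * (((q : O) + 1) ^ 2 - D.lam q ^ 2)) •
        (Matrix.of fun i j => C.B (C.e i) (C.e j)) := by
    ext i j
    show C'.B (C'.e i) (C'.e j) = _ * C.B (C.e i) (C.e j)
    exact can_step h2 hq hqL hC hC' (C.e i) (C.e j) (C'.e i) (C'.e j)
      (congrArg Subtype.val (he i)) (congrArg Subtype.val (he j)) (D.lam q)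
      ((hE j).1 q hq hqL)
  unfold CongData.gram
  rw [h, Matrix.det_smul, Fintype.card_fin, mul_comm]

/-- **the chain** -/
theorem chain (hOk : Function.Surjective (algebraMap O k)) (h2 : (2 : k) ≠ 0) {d : ℕ}
    (e₀ : Module.Basis (Fin d) O (Eg D (LL D ∅) ∅)) (Q' : Finset ℕ) : Q' ⊆ D.Q →
    ∀ (L : ℕ) [NeZero L], L = LL D Q' → ∃ e : Module.Basis (Fin d) O (Eg D L Q'),
      ∀ [NeZero (LL D ∅)] (C₀ : CongData O (HA O ((D.S ∪ ∅ : Finset ℕ) : Set ℕ)) (D.π (D.S ∪ ∅))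
        (HQ O (D.τ (D.S ∪ ∅)) (LL D ∅) ∅) d) (_ : IsCan C₀.B) (_ : ∀ i, (C₀.e i).1 = (e₀ i).1)
        (C : CongData O (HA O ((D.S ∪ Q' : Finset ℕ) : Set ℕ)) (D.π (D.S ∪ Q'))
        (HQ O (D.τ (D.S ∪ Q')) L Q') d) (_ : IsCan C.B) (_ : ∀ i, (C.e i).1 = (e i).1),
        C.gram = C₀.gram * cQ D Q' ^ d := by
  classical
  induction Q' using Finset.induction_on with
  | empty =>
    rintro - L _ rfl
    refine ⟨e₀, fun C₀ hC₀ he₀ C hC he => ?_⟩
    have h : (Matrix.of fun i j => C.B (C.e i) (C.e j)) =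
        (Matrix.of fun i j => C₀.B (C₀.e i) (C₀.e j)) := by
      ext i j
      show C.B (C.e i) (C.e j) = C₀.B (C₀.e i) (C₀.e j)
      have e1 : C.e i = C₀.e i := Subtype.ext ((he i).trans (he₀ i).symm)
      have e2 : C.e j = C₀.e j := Subtype.ext ((he j).trans (he₀ j).symm)
      obtain ⟨l, hl⟩ := exists_rel (levL (D := D) hOk h2 (Finset.empty_subset _)).isUnit₂
        (frO O (NeZero.ne (LL D ∅)) (C₀.e i).1)
      rw [e1, e2, hC _ _ l hl, hC₀ _ _ l hl]
    unfold CongData.gram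
    rw [h, cQ, Finset.prod_empty, one_pow, mul_one]
  | insert q Q' hq ih =>
    intro hQ L' _ hL'
    have hQ' : Q' ⊆ D.Q := (Finset.subset_insert _ _).trans hQ
    have hqQ : q ∈ D.Q := hQ (Finset.mem_insert_self _ _)
    have hqp := D.prime_Q q hqQ
    rw [LL_insert hq] at hL'
    subst hL'
    haveI : NeZero (LL D Q') := ⟨LL_ne hQ'⟩
    obtain ⟨e, he⟩ := ih hQ' (LL D Q') rfl
    obtain ⟨f, hf⟩ := exists_equiv hOk (okL hQ') hqp (D.ne_Q q hqQ) hqQ hq
      (not_dvd_LL hQ' hqQ hq)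
    refine ⟨e.map f, fun C₀ hC₀ he₀ C' hC' he' => ?_⟩
    obtain ⟨C, hC, hCe⟩ := cong_at hOk h2 hQ' e
    rw [gram_step (D := D) (levL (D := D) hOk h2 hQ').isUnit₂ hqp (not_dvd_LL hQ' hqQ hq) C C'
      hC hC' (Q' := Q') (fun i => by rw [hCe]; exact (e i).2) (fun i => by
        rw [he', hCe, Module.Basis.map_apply, hf]), he C₀ hC₀ he₀ C hC hCe]
    have h3 : cQ D (insert q Q') =
        (((q : O) - 1) * (((q : O) + 1) ^ 2 - D.lam q ^ 2)) * cQ D Q' := Finset.prod_insert hq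
    rw [h3, mul_pow (((q : O) - 1) * (((q : O) + 1) ^ 2 - D.lam q ^ 2))]
    generalize (((q : O) - 1) * (((q : O) + 1) ^ 2 - D.lam q ^ 2)) ^ d = w
    ring

end

end Fermat.Agent.RT.Om
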