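import Fermat.Agent.RT.OmQ

/-!
# The passage to non-minimal level: final statement
-/

set_option autoImplicit false
set_option linter.unusedSectionVars false
set_option linter.style.haveILetI false

noncomputable section

namespace Fermat.Agent.RT

open Matrix CongruenceSubgroup MvPolynomial Fermat.Agent.TWCoh Fermat.Agent.RT.Om
open ModularFormClass (qCoeff)
open scoped MatrixGroups OnePoint

namespace Om

section

variable {O k : Type} [CommRing O] [IsDomain O] [IsDiscreteValuationRing O]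
  [IsAdicComplete (IsLocalRing.maximalIdeal O) O] [CharZero O] [Field k]
  [Algebra O k] (D : OmD O k)

/-- the base module -/
theorem to_M0 {d : ℕ} (S' : Finset ℕ) (hS : S' = D.S) (L : ℕ) (hL : L = D.N)
    (C : CongData O (HA O (S' : Set ℕ)) (D.π S') (HQ O (D.τ S') L ∅) d) :
    ∃ C' : CongData O (HA O (D.S : Set ℕ)) (D.π D.S) (M0 O D.N (D.τ D.S)) d,
      C'.gram = C.gram := by
  subst hS hL
  let f : M0 O D.N (D.τ D.S) ≃ₗ[O] HQ O (D.τ D.S) D.N ∅ :=
    { toFun := fun x => ⟨x.1, x.2, fun q hq => absurd hq (Finset.notMem_empty q)⟩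
      invFun := fun x => ⟨x.1, x.2.1⟩
      map_add' := fun _ _ => rfl
      map_smul' := fun _ _ => rfl
      left_inv := fun _ => rfl
      right_inv := fun _ => rfl }
  exact ⟨congMap C f fun _ _ => rfl, congMap_gram C f fun _ _ => rfl⟩

/-- the eigenspace is nonzero -/
theorem nontrivial_Eg {L : ℕ} [NeZero L] (hok : OkL D L ∅) : Nontrivial (Eg D L ∅) := by
  obtain ⟨l₀, g1, g2, g3, g4, g5⟩ := exists_ne₁ D (NeZero.ne D.M)
  obtain ⟨X, hX, hX0, hXT⟩ := omEig D.M D.f D.newform L (D.dvd.trans hok.N_dvd)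
    ⟨l₀, g1, Nat.modEq_iff_dvd.1 g4.symm, fun h => not_dvd_N D g1 g2 (h.trans D.dvd), by
      rw [← D.lam_eq l₀ g1 (not_dvd_N D g1 g2)]
      intro e
      have := κ_ne D g5
      rw [map_sub, map_add, map_one, map_natCast, sub_ne_zero] at this
      exact this e⟩
  obtain ⟨a₀, b₀, hab⟩ : ∃ a b, X a b ≠ 0 := by
    by_contra hcon
    push Not at hcon
    exact hX0 (funext fun a => funext fun b => hcon a b)
  obtain ⟨ρ, hρ, hρ1⟩ := exists_rho D.κ D.κ_inj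
  let ρ' : ℂ →+ FractionRing O := ρ.comp (AddMonoidHom.mulLeft (X a₀ b₀)⁻¹)
  have hρ' : ∀ (c : O) (z : ℂ), ρ' (D.κ c * z) = algebraMap O _ c * ρ' z := by
    intro c z
    show ρ ((X a₀ b₀)⁻¹ * (D.κ c * z)) = algebraMap O _ c * ρ ((X a₀ b₀)⁻¹ * z)
    rw [← hρ]
    congr 1
    ring
  obtain ⟨c, hc, y, hy, hyX, hyT⟩ := exists_descent D hok.N_dvd hX (fun l hl hlL =>
    hXT l hl fun h => hlL (h.trans (D.dvd.trans hok.N_dvd))) ρ' hρ'
  have h1 : y a₀ b₀ ≠ 0 := by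
    intro h
    have h2 := hyX a₀ b₀
    have h3 : ρ' (X a₀ b₀) = 1 := by
      show ρ ((X a₀ b₀)⁻¹ * X a₀ b₀) = 1
      rw [inv_mul_cancel₀ hab, hρ1]
    rw [h3, mul_one, h, map_zero] at h2
    exact hc ((map_eq_zero_iff _ (IsFractionRing.injective O (FractionRing O))).1 h2)
  refine ⟨⟨⟨ofSZ hy, ⟨hyT, fun q hq => absurd hq (Finset.notMem_empty q)⟩⟩, 0, fun h => h1 ?_⟩⟩
  exact congrFun (congrFun (congrArg (fun z : Eg D L ∅ => z.1.1) h) a₀) b₀

end

end Om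

/-- **(Om-Q)** -/
theorem omQ : OmQSt := by
  intro O k _ _ _ _ _ _ _ hOk h2 D
  have hN : LL D ∅ = D.N := by rw [LL, Finset.prod_empty, mul_one]
  haveI : NeZero (LL D ∅) := ⟨LL_ne (Finset.empty_subset _)⟩
  haveI : NeZero (LL D D.Q) := ⟨LL_ne subset_rfl⟩
  have hok : OkL D (LL D ∅) ∅ := okL (Finset.empty_subset _)
  have hnt := nontrivial_Eg D hok
  set e₀ := Module.finBasis O (Eg D (LL D ∅) ∅) with he₀
  obtain ⟨e, he⟩ := chain hOk h2 e₀ D.Q subset_rfl (LL D D.Q) rfl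
  obtain ⟨C₀, hC₀, hCe₀⟩ := cong_at hOk h2 (Finset.empty_subset D.Q) e₀
  obtain ⟨C, hC, hCe⟩ := cong_at hOk h2 (subset_rfl : D.Q ⊆ D.Q) e
  obtain ⟨C₀', hC₀'⟩ := to_M0 D (D.S ∪ ∅) (Finset.union_empty _) (LL D ∅) hN C₀
  refine ⟨_, Module.finrank_pos, C₀', C, 1, ?_⟩
  refine (he C₀ hC₀ hCe₀ C hC hCe).trans ?_
  rw [hC₀', Units.val_one, one_mul]
  rfl

end Fermat.Agent.RT
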