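import Fermat.Agent.RT.OmG

/-!
# The `q`-step: the pairing
-/

set_option autoImplicit false
set_option linter.unusedSectionVars false
set_option linter.style.haveILetI false

noncomputable section

namespace Fermat.Agent.RT.Om

open Matrix CongruenceSubgroup MvPolynomial Fermat.Agent.TWCoh
open scoped MatrixGroups OnePoint

section

variable {O : Type} [CommRing O] [IsDomain O] [IsDiscreteValuationRing O]
  [IsAdicComplete (IsLocalRing.maximalIdeal O) O] [CharZero O]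

theorem can_step {S S' : Set ℕ} {L q : ℕ} [NeZero L] [NeZero (L * q * q)] (h2 : IsUnit (2 : O))
    (hq : q.Prime) (hqL : ¬ q ∣ L) {H : Submodule (HA O S) (SO O L)}
    {H' : Submodule (HA O S') (SO O (L * q * q))} {B : H →ₗ[O] H →ₗ[O] O}
    {B' : H' →ₗ[O] H' →ₗ[O] O} (hB : IsCan B) (hB' : IsCan B') (y x : H) (y' x' : H')
    (hy : y'.1.1 = iz O hq y.1.1) (hx : x'.1.1 = iz O hq x.1.1) (a : O)
    (ha : Tz O hq x.1.1 = (a • x.1).1) :
    B' y' x' = (((q : O) - 1) * (((q : O) + 1) ^ 2 - a ^ 2)) * B y x := by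
  have hL := NeZero.ne L
  have hLq : L * q ≠ 0 := mul_ne_zero hL hq.ne_zero
  haveI : NeZero (L * q) := ⟨hLq⟩
  obtain ⟨ι, _, g, hg1, hg2, hg3⟩ := omTr L q hL hq hqL
  have hLL : L * q ^ 2 = L * q * q := by ring
  rw [hLL] at hg1 hg3
  -- the trace
  let TrL : SO O (L * q * q) →ₗ[O] SO O L :=
    { toFun := fun x => ofSZ (hg1 O x.1 (SO.mem x))
      map_add' := fun x y => Subtype.ext (by
        funext u v
        show ∑ i, (x.1 _ _ + y.1 _ _) = (∑ i, x.1 _ _) + ∑ i, y.1 _ _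
        exact Finset.sum_add_distrib)
      map_smul' := fun c x => Subtype.ext (by
        funext u v
        show ∑ i, c * x.1 _ _ = c * ∑ i, x.1 _ _
        rw [Finset.mul_sum]) }
  obtain ⟨μ, hμ⟩ := exists_rel h2 (frO O hL y.1)
  set z := frO O hL y.1 with hz
  have hv : Tz O hq z.1 - (q : ℤ) • Bz O hq z.1 ∈ SZ O (L * q) :=
    Submodule.sub_mem _ (SZ_mono (dvd_mul_right _ _) (SZ_Tz hq hqL (SO.mem z)))
      (Submodule.smul_mem _ _ (SZ_Bz hq (SO.mem z)))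
  obtain ⟨ρ, hρ⟩ := exists_rel h2 (ofSZ hv)
  have hqd : q ∣ L * q := dvd_mul_left _ _
  have h1 := rel_UL hLq hq hqd hρ
  have hTr : ∀ γ : Gamma0 (L * q * q), μ (TrL (iot γ)) = z.1 ∞ (io γ.1 • ∞) := by
    intro γ
    have hγ : γ.1 ∈ Gamma0 L := mem_Gamma0.2
      ((Int.natCast_dvd_natCast.2 ⟨q * q, by ring⟩).trans (mem_Gamma0.1 γ.2))
    have h3 : TrL (iot γ) = iot ⟨γ.1, hγ⟩ := by
      apply Subtype.ext
      funext u v
      show ∑ i, ((LR.iota (Gamma0 (L * q * q)) γ (io (g i) • u) (io (g i) • v) : ℤ) : O) =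
        ((LR.iota (Gamma0 L) γ.1 u v : ℤ) : O)
      rw [← hg3 γ.1 γ.2 u v, Int.cast_sum]
    rw [h3]
    exact hμ ⟨γ.1, hγ⟩
  have hrel : Rel (μ ∘ₗ TrL - ρ ∘ₗ UL O hq hqd) (frO O (NeZero.ne (L * q * q)) y'.1) := by
    intro γ
    rw [LinearMap.sub_apply, h1 γ, LinearMap.comp_apply, hTr]
    have h4 : (frO O (NeZero.ne (L * q * q)) y'.1).1 = _ :=
      (congrArg (frz (NeZero.ne (L * q * q))) hy).trans
        (frz_iz hL hq hqL hLq (NeZero.ne (L * q * q)) (SO.mem y.1))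
    rw [hv_apply, hv_apply, h4]
    rfl
  rw [hB' y' x' _ hrel, LinearMap.sub_apply, LinearMap.comp_apply, LinearMap.comp_apply]
  have h5 : UL O hq hqd x'.1 = 0 := by
    apply Subtype.ext
    rw [coe_UL, hx]
    exact Uz_iz hq (SZ_trInv (SO.mem x.1))
  have h6 : TrL x'.1 = (((q : O) - 1) * (((q : O) + 1) ^ 2 - a ^ 2)) • x.1 := by
    apply Subtype.ext
    have h7 : (TrL x'.1).1 = (fun u v => ∑ i, iz O hq x.1.1 (io (g i) • u) (io (g i) • v)) := by
      funext u v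
      show ∑ i, x'.1.1 _ _ = _
      rw [hx]
    rw [h7, hg2 O x.1.1 (SO.mem x.1)]
    have h8 : Tz O hq (Tz O hq x.1.1) = fun u v => a * (a * x.1.1 u v) := by
      rw [ha, coe_smul_cm, ← cm_Tz, ha]
      rfl
    rw [h8]
    funext u v
    show ((q : ℤ) - 1) • ((((q : ℤ) + 1) ^ 2) • x.1.1 u v - a * (a * x.1.1 u v)) =
      (((q : O) - 1) * (((q : O) + 1) ^ 2 - a ^ 2)) * x.1.1 u v
    rw [zsmul_eq_mul, zsmul_eq_mul]
    push_cast
    ring
  rw [h5, map_zero, sub_zero, h6, map_smul, smul_eq_mul, hB y x μ hμ]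

end

end Fermat.Agent.RT.Om
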