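import Fermat.Agent.RT.OmStep
import Fermat.Agent.RT.OmDec
import Fermat.Agent.LR.Sat

/-!
# Eigensymbols over the complex numbers
-/

set_option autoImplicit false
set_option linter.unusedSectionVars false
set_option linter.style.haveILetI false

noncomputable section

namespace Fermat.Agent.RT.Om

open Matrix CongruenceSubgroup MvPolynomial Fermat.Agent.TWCoh
open ModularFormClass (qCoeff)
open scoped MatrixGroups OnePoint

/-- scalar multiplication on functions -/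
abbrev sc {A : Type*} [Mul A] (c : A) (x : P1 → P1 → A) : P1 → P1 → A := fun a b => c * x a b

theorem sc_eq_cm {A : Type*} [Ring A] (c : A) (x : P1 → P1 → A) :
    sc c x = cm (AddMonoidHom.mulLeft c) x := rfl

section

variable {A : Type*} [AddCommGroup A]

theorem Bdz_of_ne {d : ℕ} (hd : d ≠ 0) (y : P1 → P1 → A) : Bdz d y = Bop ℤ A P1 d hd y :=
  dif_pos hd

theorem Tz_Bdz {l : ℕ} (hl : l.Prime) {d : ℕ} (hd : d ≠ 0) (hld : ¬ l ∣ d) {y : P1 → P1 → A}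
    (hy : TrInv y) : Tz A hl (Bdz d y) = Bdz d (Tz A hl y) := by
  have hco : l.Coprime d := (Nat.Prime.coprime_iff_not_dvd hl).mpr hld
  rw [Bdz_of_ne hd, Bdz_of_ne hd, Tz, LinearMap.add_apply, LinearMap.add_apply, map_add]
  rw [show Uz A hl (Bop ℤ A P1 d hd y) = Bop ℤ A P1 d hd (Uz A hl y) from
    hy.uop_bop hl.ne_zero hd hco, show Bz A hl (Bop ℤ A P1 d hd y) = Bop ℤ A P1 d hd (Bz A hl y)
    from Bop_comm hl.ne_zero hd y]

theorem Bdz_mul {q : ℕ} (hq : q.Prime) {d : ℕ} (hd : d ≠ 0) (y : P1 → P1 → A) :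
    Bdz (d * q) y = Bz A hq (Bdz d y) := by
  rw [Bdz_of_ne hd, Bdz_of_ne (mul_ne_zero hd hq.ne_zero)]
  exact (Bop_Bop hq.ne_zero hd y).symm

theorem SZ_Bdz {N L d : ℕ} (hd : d ≠ 0) (h : N * d ∣ L) {y : P1 → P1 → A} (hy : y ∈ SZ A N) :
    Bdz d y ∈ SZ A L := by
  rw [Bdz_of_ne hd]
  refine SZ_mono h (mem_SZ.2 ⟨fun a b c => hy.1 _ _ _, fun γ hγ a b => ?_⟩)
  obtain ⟨c, hc⟩ := mem_Gamma0.1 hγ
  have hdet := det_SL γ
  obtain ⟨δ, h1, h2, h3, h4⟩ := exists_SL (γ 0 0) (d * γ 0 1) (N * c) (γ 1 1) (by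
    rw [hc] at hdet
    push_cast at hdet
    linear_combination hdet)
  have h5 : Di d hd * io γ = io δ * Di d hd := by
    refine ((ent_Di d hd).mul (ent_io γ)).ext (((ent_io δ).mul (ent_Di d hd)).congr ?_ ?_ ?_ ?_)
    · rw [h1, h2]; ring
    · rw [h1, h2]; push_cast; ring
    · rw [h3, h4, hc]; push_cast; ring
    · rw [h3, h4]; push_cast; ring
  rw [Bop_apply, Bop_apply, ← mul_smul, ← mul_smul, h5, mul_smul, mul_smul,
    SZ_inv hy (mem_Gamma0.2 (by rw [h3]; exact dvd_mul_right _ _))]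

theorem Bz_inj {q : ℕ} (hq : q.Prime) {x : P1 → P1 → A} (h : Bz A hq x = 0) : x = 0 := by
  funext a b
  have h1 := congrFun (congrFun h ((Di q hq.ne_zero)⁻¹ • a)) ((Di q hq.ne_zero)⁻¹ • b)
  have h2 : x (Di q hq.ne_zero • (Di q hq.ne_zero)⁻¹ • a)
    (Di q hq.ne_zero • (Di q hq.ne_zero)⁻¹ • b) = 0 := h1
  rwa [smul_inv_smul, smul_inv_smul] at h2

/-- finitely many values suffice -/
theorem exists_finset {N : ℕ} [NeZero N] {x : P1 → P1 → A} (hx : x ∈ SZ A N) :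
    ∃ F : Finset A, ∀ J : AddSubgroup A, (∀ v ∈ F, v ∈ J) → ∀ a b, x a b ∈ J := by
  classical
  haveI : Fintype (SL(2,ℤ) ⧸ Gamma0 N) := Fintype.ofFinite _
  refine ⟨Finset.univ.image fun c : SL(2,ℤ) ⧸ Gamma0 N =>
    x (io (c.out⁻¹) • ((0 : ℚ) : P1)) (io (c.out⁻¹) • ∞), fun J hJ a b => ?_⟩
  refine LR.mem_of_unimod J (inSym_of_SZ hx).ms (fun g => ?_) a b
  have h1 := hJ _ (Finset.mem_image.2 ⟨((g⁻¹ : SL(2,ℤ)) : SL(2,ℤ) ⧸ Gamma0 N), Finset.mem_univ _, rfl⟩)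
  obtain ⟨γ, hγ⟩ := QuotientGroup.mk_out_eq_mul (Gamma0 N) g⁻¹
  rw [hγ, _root_.mul_inv_rev, inv_inv, map_mul, mul_smul, mul_smul, SZ_inv hx (inv_mem γ.2)] at h1
  exact h1

end

/-- applying the Eisenstein operators to an eigensymbol -/
theorem eis_apply {A : Type*} [CommRing A] {x : P1 → P1 → A} {l l' : ℕ} (hl : l.Prime)
    (hl' : l'.Prime) {c c' : A} (h : Tz A hl x = sc c x) (h' : Tz A hl' x = sc c' x) :
    ((Tz A hl' - ((l' : ℤ) + 1) • LinearMap.id) ∘ₗ (Tz A hl' - ((l' : ℤ) + 1) • LinearMap.id) ∘ₗ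
      (Tz A hl ∘ₗ Tz A hl - (((l : ℤ) + 1) ^ 2) • LinearMap.id)) x =
      sc ((c' - (1 + l')) ^ 2 * (c ^ 2 - (1 + l) ^ 2)) x := by
  have hT : ∀ (m : ℕ) (hm : m.Prime) (e f : A) , Tz A hm x = sc e x →
      Tz A hm (sc f x) = sc (e * f) x := by
    intro m hm e f h0
    rw [sc_eq_cm, ← cm_Tz, h0]
    funext a b
    show f * (e * x a b) = e * f * x a b
    ring
  have hE : ∀ f : A, (Tz A hl' - ((l' : ℤ) + 1) • LinearMap.id : (P1 → P1 → A) →ₗ[ℤ] _) (sc f x) =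
      sc ((c' - (1 + l')) * f) x := by
    intro f
    rw [LinearMap.sub_apply, LinearMap.smul_apply, LinearMap.id_apply, hT l' hl' c' f h']
    funext a b
    show c' * f * x a b - ((l' : ℤ) + 1) • (f * x a b) = (c' - (1 + l')) * f * x a b
    rw [zsmul_eq_mul]
    push_cast
    ring
  have hF : (Tz A hl ∘ₗ Tz A hl - (((l : ℤ) + 1) ^ 2) • LinearMap.id :
      (P1 → P1 → A) →ₗ[ℤ] _) x = sc (c ^ 2 - (1 + l) ^ 2) x := by
    rw [LinearMap.sub_apply, LinearMap.smul_apply, LinearMap.id_apply, LinearMap.comp_apply, h,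
      hT l hl c c h]
    funext a b
    show c * c * x a b - (((l : ℤ) + 1) ^ 2) • x a b = (c ^ 2 - (1 + l) ^ 2) * x a b
    rw [zsmul_eq_mul]
    push_cast
    ring
  rw [LinearMap.comp_apply, LinearMap.comp_apply, hF, hE, hE]
  congr 1
  ring

section

variable {O k : Type} [CommRing O] [Field k] [Algebra O k] (D : OmD O k)

theorem kne {a b : O} (h : algebraMap O k a ≠ algebraMap O k b) : a ≠ b := fun e => h (by rw [e])

/-- eigenvalues of `T_l` are not Eisenstein -/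
theorem exists_ne₁ {n : ℕ} (hn : n ≠ 0) : ∃ l : ℕ, l.Prime ∧ l ∉ D.S ∧ l ∉ D.Q ∧ l ≡ 1 [MOD n] ∧
    algebraMap O k (D.lam l - (1 + l)) ≠ 0 := by
  obtain ⟨l, h1, h2, h3, h4, h5⟩ := D.eis₁ n hn
  refine ⟨l, h1, h2, h3, h4, ?_⟩
  rw [map_sub, map_add, map_one, map_natCast, sub_ne_zero]
  exact h5

theorem exists_ne₂ : ∃ l : ℕ, l.Prime ∧ l ∉ D.S ∧ l ∉ D.Q ∧
    algebraMap O k (D.lam l ^ 2 - (1 + l) ^ 2) ≠ 0 := by
  obtain ⟨l, h1, h2, h3, h5⟩ := D.eis₂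
  refine ⟨l, h1, h2, h3, ?_⟩
  rw [map_sub, map_pow, map_pow, map_add, map_one, map_natCast, sub_ne_zero]
  exact h5

theorem κ_ne {a : O} (h : algebraMap O k a ≠ 0) : D.κ a ≠ 0 := by
  intro e
  apply h
  have : a = 0 := D.κ_inj (by rw [e, map_zero])
  rw [this, map_zero]

theorem not_dvd_N {l : ℕ} (hl : l.Prime) (h : l ∉ D.S) : ¬ l ∣ D.N := fun h' => h (D.mem_S l hl h')

/-- the decomposition -/
theorem cx_dec {L : ℕ} [NeZero L] (hL : D.M ∣ L) (hLS : ∀ l : ℕ, l.Prime → l ∣ L → l ∈ D.S ∪ D.Q)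
    {x : P1 → P1 → ℂ} (hx : x ∈ SZ ℂ L)
    (hxT : ∀ (l : ℕ) (hl : l.Prime), l ∉ D.S ∪ D.Q → Tz ℂ hl x = sc (qCoeff D.f l) x) :
    ∃ y : ℕ → (P1 → P1 → ℂ), (∀ d, y d ∈ SZ ℂ D.M) ∧
      (∀ d (l : ℕ) (hl : l.Prime), ¬ l ∣ D.M → Tz ℂ hl (y d) = sc (qCoeff D.f l) (y d)) ∧
      x = ∑ d ∈ (L / D.M).divisors, Bdz d (y d) := by
  classical
  set DD : ℕ := L * ∏ s ∈ (D.S ∪ D.Q).filter Nat.Prime, s with hDD
  have hDD0 : DD ≠ 0 := mul_ne_zero (NeZero.ne L) (Finset.prod_ne_zero_iff.2 fun s hs =>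
    (Finset.mem_filter.1 hs).2.ne_zero)
  have hmem : ∀ l : ℕ, l.Prime → ¬ l ∣ DD → l ∉ D.S ∪ D.Q := fun l hl h h' =>
    h (Dvd.dvd.mul_left (Finset.dvd_prod_of_mem _ (Finset.mem_filter.2 ⟨h', hl⟩)) _)
  have hmem' : ∀ l : ℕ, l.Prime → l ∉ D.S ∪ D.Q → ¬ l ∣ DD := by
    intro l hl h h'
    rcases (hl.dvd_mul).1 h' with h1 | h1
    · exact h (hLS l hl h1)
    · obtain ⟨s, hs, hls⟩ := (Prime.dvd_finsetProd_iff hl.prime _).1 h1
      rw [(Nat.prime_dvd_prime_iff_eq hl (Finset.mem_filter.1 hs).2).1 hls] at h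
      exact h (Finset.mem_filter.1 hs).1
  obtain ⟨l₀, g1, g2, g3, g4, g5⟩ := exists_ne₁ D (NeZero.ne L)
  have hl₀ : l₀ ∉ D.S ∪ D.Q := by
    rw [Finset.mem_union]; push Not; exact ⟨g2, g3⟩
  refine omDec D.M D.f D.newform L hL DD hDD0 (Dvd.intro _ rfl) ⟨l₀, g1, ?_, hmem' l₀ g1 hl₀, ?_⟩
    x hx fun l hl hlD => hxT l hl (hmem l hl hlD)
  · exact (Nat.modEq_iff_dvd.1 g4.symm)
  · rw [← D.lam_eq l₀ g1 (not_dvd_N D g1 g2)]
    intro e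
    have := κ_ne D g5
    rw [map_sub, map_add, map_one, map_natCast, sub_ne_zero] at this
    exact this e

/-- combinations of translates -/
theorem sum_Bdz_T {L : ℕ} (s : Finset ℕ) (hs : ∀ d ∈ s, d ≠ 0 ∧ D.M * d ∣ L) (y : ℕ → (P1 → P1 → ℂ))
    (hy : ∀ d, y d ∈ SZ ℂ D.M)
    (hyT : ∀ d (l : ℕ) (hl : l.Prime), ¬ l ∣ D.M → Tz ℂ hl (y d) = sc (qCoeff D.f l) (y d))
    (g : ℕ → ℕ) : (∑ d ∈ s, Bdz d (y (g d))) ∈ SZ ℂ L ∧
    ∀ (l : ℕ) (hl : l.Prime), ¬ l ∣ L → Tz ℂ hl (∑ d ∈ s, Bdz d (y (g d))) =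
      sc (qCoeff D.f l) (∑ d ∈ s, Bdz d (y (g d))) := by
  refine ⟨Submodule.sum_mem _ fun d hd => SZ_Bdz (hs d hd).1 (hs d hd).2 (hy _), fun l hl hlL => ?_⟩
  rw [map_sum]
  have h1 : ∀ d ∈ s, Tz ℂ hl (Bdz d (y (g d))) = sc (qCoeff D.f l) (Bdz d (y (g d))) := by
    intro d hd
    have h2 : ¬ l ∣ d := fun h => hlL ((h.trans (dvd_mul_left _ _)).trans (hs d hd).2)
    have h3 : ¬ l ∣ D.M := fun h => hlL ((h.trans (dvd_mul_right _ _)).trans (hs d hd).2)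
    rw [Tz_Bdz hl (hs d hd).1 h2 (SZ_trInv (hy _)), hyT _ l hl h3, Bdz_of_ne (hs d hd).1,
      Bdz_of_ne (hs d hd).1]
    rfl
  rw [Finset.sum_congr rfl h1]
  funext a b
  simp only [Finset.sum_apply, sc, Finset.mul_sum]

/-- strong multiplicity one -/
theorem cx_sm {L : ℕ} [NeZero L] (hL : D.M ∣ L) (hLS : ∀ l : ℕ, l.Prime → l ∣ L → l ∈ D.S ∪ D.Q)
    {x : P1 → P1 → ℂ} (hx : x ∈ SZ ℂ L)
    (hxT : ∀ (l : ℕ) (hl : l.Prime), l ∉ D.S ∪ D.Q → Tz ℂ hl x = sc (qCoeff D.f l) x)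
    (l : ℕ) (hl : l.Prime) (hlL : ¬ l ∣ L) : Tz ℂ hl x = sc (qCoeff D.f l) x := by
  obtain ⟨y, hy, hyT, rfl⟩ := cx_dec D hL hLS hx hxT
  exact (sum_Bdz_T D _ (fun d hd => ⟨Nat.pos_of_mem_divisors hd |>.ne', by
    have h1 := Nat.dvd_of_mem_divisors hd
    have := Nat.mul_dvd_mul_left D.M h1
    rwa [Nat.mul_div_cancel' hL] at this⟩) y hy hyT id).2 l hl hlL

end

end Fermat.Agent.RT.Om
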