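import Fermat.Agent.RT.OmX

/-!
# Descent and saturation
-/

set_option autoImplicit false
set_option linter.unusedSectionVars false
set_option linter.style.haveILetI false

noncomputable section

namespace Fermat.Agent.RT.Om

open Matrix CongruenceSubgroup MvPolynomial Fermat.Agent.TWCoh
open ModularFormClass (qCoeff)
open scoped MatrixGroups OnePoint

theorem sc_zero_right {A : Type*} [MulZeroClass A] (c : A) : sc c (0 : P1 → P1 → A) = 0 := by
  funext a b; exact mul_zero _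

theorem eq_zero_of_sc {A : Type*} [MulZeroClass A] [NoZeroDivisors A] {c : A} (hc : c ≠ 0)
    {x : P1 → P1 → A} (h : sc c x = 0) : x = 0 := by
  funext a b
  exact (mul_eq_zero.1 (congrFun (congrFun h a) b)).resolve_left hc

section

variable {O k : Type} [CommRing O] [Field k] [Algebra O k] (D : OmD O k)

/-- from `Om-2`: an eigensymbol which is also a translate vanishes -/
theorem cx_two {L q : ℕ} (hL : L ≠ 0) (hLS : ∀ l : ℕ, l.Prime → l ∣ L → l ∈ D.S ∪ D.Q)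
    (hq : q.Prime) (hqL : ¬ q ∣ L) {x y : P1 → P1 → ℂ} (hx : x ∈ SZ ℂ L) (hy : y ∈ SZ ℂ L)
    (h : x + Bz ℂ hq y = 0)
    (hxT : ∀ (l : ℕ) (hl : l.Prime), l ∉ D.S ∪ D.Q → Tz ℂ hl x = sc (qCoeff D.f l) x) :
    x = 0 := by
  obtain ⟨l, a1, a2, a3, a4⟩ := exists_ne₂ D
  have hl : l ∉ D.S ∪ D.Q := by rw [Finset.mem_union]; push Not; exact ⟨a2, a3⟩
  obtain ⟨M', hM', H⟩ := omTwo L q hL hq hqL ℂ x hx y hy h l a1 fun h => hl (hLS l a1 h)
  obtain ⟨l', b1, b2, b3, b4, b5⟩ := exists_ne₁ D hM'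
  have hl' : l' ∉ D.S ∪ D.Q := by rw [Finset.mem_union]; push Not; exact ⟨b2, b3⟩
  have h1 := H l' b1 b4
  rw [eis_apply a1 b1 (hxT l a1 hl) (hxT l' b1 hl')] at h1
  refine eq_zero_of_sc ?_ h1
  rw [← D.lam_eq l a1 (not_dvd_N D a1 a2), ← D.lam_eq l' b1 (not_dvd_N D b1 b2)]
  have h2 := κ_ne D a4
  have h3 := κ_ne D b5
  rw [map_sub, map_pow, map_pow, map_add, map_one, map_natCast] at h2
  rw [map_sub, map_add, map_one, map_natCast] at h3
  exact mul_ne_zero (pow_ne_zero 2 h3) h2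

/-- injectivity of the stabilisation on eigensymbols -/
theorem cx_inj {L q : ℕ} (hL : L ≠ 0) (hLS : ∀ l : ℕ, l.Prime → l ∣ L → l ∈ D.S ∪ D.Q)
    (hq : q.Prime) (hqL : ¬ q ∣ L) {x : P1 → P1 → ℂ} (hx : x ∈ SZ ℂ L) (h : iz ℂ hq x = 0)
    (hxT : ∀ (l : ℕ) (hl : l.Prime), l ∉ D.S ∪ D.Q → Tz ℂ hl x = sc (qCoeff D.f l) x) :
    x = 0 := by
  obtain ⟨l, a1, a2, a3, a4⟩ := exists_ne₂ D
  have hl : l ∉ D.S ∪ D.Q := by rw [Finset.mem_union]; push Not; exact ⟨a2, a3⟩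
  obtain ⟨M', hM', H⟩ := omSat L q hL hq hqL ℂ (by
    have hq0 : (q : ℂ) ≠ 0 := Nat.cast_ne_zero.2 hq.ne_zero
    constructor
    · intro a b hab
      have hab' : (q : ℂ) * a = q * b := by
        have : q • a = q • b := hab
        rwa [nsmul_eq_mul, nsmul_eq_mul] at this
      exact mul_left_cancel₀ hq0 hab'
    · intro b
      refine ⟨(q : ℂ)⁻¹ * b, ?_⟩
      show q • ((q : ℂ)⁻¹ * b) = b
      rw [nsmul_eq_mul, mul_inv_cancel_left₀ hq0]) x hx h l a1 fun h => hl (hLS l a1 h)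
  obtain ⟨l', b1, b2, b3, b4, b5⟩ := exists_ne₁ D hM'
  have hl' : l' ∉ D.S ∪ D.Q := by rw [Finset.mem_union]; push Not; exact ⟨b2, b3⟩
  have h1 := H l' b1 b4
  rw [eis_apply a1 b1 (hxT l a1 hl) (hxT l' b1 hl')] at h1
  refine eq_zero_of_sc ?_ h1
  rw [← D.lam_eq l a1 (not_dvd_N D a1 a2), ← D.lam_eq l' b1 (not_dvd_N D b1 b2)]
  have h2 := κ_ne D a4
  have h3 := κ_ne D b5
  rw [map_sub, map_pow, map_pow, map_add, map_one, map_natCast] at h2
  rw [map_sub, map_add, map_one, map_natCast] at h3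
  exact mul_ne_zero (pow_ne_zero 2 h3) h2

/-- **the old structure over `ℂ`** -/
theorem cx_old {L q : ℕ} [NeZero L] (hML : D.M ∣ L) (hq : q.Prime) (hqL : ¬ q ∣ L)
    (hLS : ∀ l : ℕ, l.Prime → l ∣ L * q * q → l ∈ D.S ∪ D.Q) {x : P1 → P1 → ℂ}
    (hx : x ∈ SZ ℂ (L * q * q)) (hU : Uz ℂ hq x = 0)
    (hxT : ∀ (l : ℕ) (hl : l.Prime), l ∉ D.S ∪ D.Q → Tz ℂ hl x = sc (qCoeff D.f l) x) :
    ∃ Y ∈ SZ ℂ L, (∀ (l : ℕ) (hl : l.Prime), ¬ l ∣ L → Tz ℂ hl Y = sc (qCoeff D.f l) Y) ∧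
      x = iz ℂ hq Y := by
  have hL := NeZero.ne L
  haveI : NeZero (L * q * q) := ⟨mul_ne_zero (mul_ne_zero hL hq.ne_zero) hq.ne_zero⟩
  have hLS' : ∀ l : ℕ, l.Prime → l ∣ L → l ∈ D.S ∪ D.Q := fun l hl h =>
    hLS l hl (by rw [mul_assoc]; exact h.mul_right _)
  have hqSQ : q ∈ D.S ∪ D.Q := hLS q hq (dvd_mul_left _ _)
  obtain ⟨y, hy, hyT, hxy⟩ := cx_dec D (by rw [mul_assoc]; exact hML.mul_right _) hLS hx hxT
  have hdiv : ∀ d ∈ (L / D.M).divisors, d ≠ 0 ∧ D.M * d ∣ L := fun d hd =>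
    ⟨(Nat.pos_of_mem_divisors hd).ne', by
      have := Nat.mul_dvd_mul_left D.M (Nat.dvd_of_mem_divisors hd)
      rwa [Nat.mul_div_cancel' hML] at this⟩
  let Y : ℕ → (P1 → P1 → ℂ) := fun j => ∑ d ∈ (L / D.M).divisors, Bdz d (y (d * q ^ j))
  have hY : ∀ j, Y j ∈ SZ ℂ L ∧ ∀ (l : ℕ) (hl : l.Prime), ¬ l ∣ L → Tz ℂ hl (Y j) =
      sc (qCoeff D.f l) (Y j) := fun j => sum_Bdz_T D _ hdiv y hy hyT fun d => d * q ^ j
  -- the decomposition
  have hco : (L / D.M).Coprime (q ^ 2) := by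
    refine Nat.Coprime.pow_right 2 ((Nat.Prime.coprime_iff_not_dvd hq).2 fun h => hqL ?_).symm
    exact h.trans (Nat.div_dvd_of_dvd hML)
  have hx3 : x = Y 0 + Bz ℂ hq (Y 1) + Bz ℂ hq (Bz ℂ hq (Y 2)) := by
    have e1 : L * q * q / D.M = (L / D.M) * q ^ 2 := by
      rw [mul_assoc, Nat.div_mul_right_comm hML, pow_two]
    rw [hxy, e1, Nat.divisors_mul, Finset.mul_def, Finset.sum_image
      (fun a ha b hb h => hco.mul_injOn_divisors ha hb h), Finset.sum_product_right,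
      Nat.divisors_prime_pow hq, Finset.sum_map, Finset.sum_range_succ, Finset.sum_range_succ,
      Finset.sum_range_one]
    simp only [Function.Embedding.coeFn_mk]
    congr 1
    · congr 1
      · refine Finset.sum_congr rfl fun d _ => ?_
        rw [pow_zero, mul_one]
      · rw [map_sum]
        refine Finset.sum_congr rfl fun d hd => ?_
        rw [pow_one, Bdz_mul hq (hdiv d hd).1]
    · rw [map_sum, map_sum]
      refine Finset.sum_congr rfl fun d hd => ?_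
      rw [pow_two, ← mul_assoc, Bdz_mul hq (mul_ne_zero (hdiv d hd).1 hq.ne_zero),
        Bdz_mul hq (hdiv d hd).1]
  -- the equation `U_q x = 0`
  set a := qCoeff D.f q with ha
  have hU0 : Uz ℂ hq (Y 0) = sc a (Y 0) - Bz ℂ hq (Y 0) := by
    have h1 := (hY 0).2 q hq hqL
    rw [Tz, LinearMap.add_apply] at h1
    rw [← h1, add_sub_cancel_right]
  have hU1 : Uz ℂ hq (Bz ℂ hq (Y 1)) = (q : ℤ) • Y 1 := Uz_Bz hq (SZ_trInv (hY 1).1)
  have hU2 : Uz ℂ hq (Bz ℂ hq (Bz ℂ hq (Y 2))) = (q : ℤ) • Bz ℂ hq (Y 2) :=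
    Uz_Bz hq ((SZ_trInv (hY 2).1).bop hq.ne_zero)
  have heq : (sc a (Y 0) + (q : ℤ) • Y 1) + Bz ℂ hq ((q : ℤ) • Y 2 - Y 0) = 0 := by
    rw [hx3, map_add, map_add, hU0, hU1, hU2] at hU
    rw [map_sub, map_smul, ← hU]
    abel
  have hm1 : sc a (Y 0) + (q : ℤ) • Y 1 ∈ SZ ℂ L := Submodule.add_mem _
    (by rw [sc_eq_cm]; exact cm_mem _ (hY 0).1) (Submodule.smul_mem _ _ (hY 1).1)
  have hm2 : (q : ℤ) • Y 2 - Y 0 ∈ SZ ℂ L :=
    Submodule.sub_mem _ (Submodule.smul_mem _ _ (hY 2).1) (hY 0).1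
  have hz := cx_two D hL hLS' hq hqL hm1 hm2 heq fun l hl hlS => by
    have hlL : ¬ l ∣ L := fun h => hlS (hLS' l hl h)
    rw [map_add, map_smul, (hY 1).2 l hl hlL, sc_eq_cm a, ← cm_Tz, (hY 0).2 l hl hlL]
    funext u v
    show a * (qCoeff D.f l * Y 0 u v) + (q : ℤ) • (qCoeff D.f l * Y 1 u v) =
      qCoeff D.f l * (a * Y 0 u v + (q : ℤ) • Y 1 u v)
    rw [zsmul_eq_mul, zsmul_eq_mul]
    ring
  rw [hz, zero_add] at heq
  have hz2 := Bz_inj hq heq
  have hY0 : Y 0 = (q : ℤ) • Y 2 := (sub_eq_zero.1 hz2).symm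
  have hq0 : (q : ℂ) ≠ 0 := Nat.cast_ne_zero.2 hq.ne_zero
  have hY1 : Y 1 = - sc a (Y 2) := by
    rw [hY0] at hz
    funext u v
    have h1 := congrFun (congrFun hz u) v
    have h2 : a * ((q : ℤ) • Y 2 u v) + (q : ℤ) • Y 1 u v = 0 := h1
    rw [zsmul_eq_mul, zsmul_eq_mul] at h2
    push_cast at h2
    have h3 : (q : ℂ) * (a * Y 2 u v + Y 1 u v) = 0 := by linear_combination h2
    have h4 := (mul_eq_zero.1 h3).resolve_left hq0
    show Y 1 u v = - (a * Y 2 u v)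
    linear_combination h4
  refine ⟨Y 2, (hY 2).1, (hY 2).2, ?_⟩
  rw [hx3, iz, LinearMap.add_apply, LinearMap.sub_apply, LinearMap.smul_apply, LinearMap.id_apply,
    LinearMap.comp_apply, LinearMap.comp_apply, (hY 2).2 q hq hqL, hY0, hY1, map_neg, ← ha]
  abel

end

section

variable {O : Type} [CommRing O] [IsDomain O]

/-- a retraction -/
theorem exists_rho (κ : O →+* ℂ) (hκ : Function.Injective κ) :
    ∃ ρ : ℂ →+ FractionRing O, (∀ (c : O) (z : ℂ), ρ (κ c * z) = algebraMap O _ c * ρ z) ∧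
      ρ 1 = 1 := by
  let g : FractionRing O →+* ℂ := IsFractionRing.lift hκ
  letI : Algebra (FractionRing O) ℂ := g.toAlgebra
  obtain ⟨ρ, hρ⟩ := LinearMap.exists_leftInverse_of_injective
    (Algebra.linearMap (FractionRing O) ℂ) (LinearMap.ker_eq_bot.2 g.injective)
  refine ⟨ρ.toAddMonoidHom, fun c z => ?_, ?_⟩
  · have h1 : κ c * z = (algebraMap O (FractionRing O) c) • z := by
      rw [Algebra.smul_def]
      congr 1
      exact (IsFractionRing.lift_algebraMap hκ c).symm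
    show ρ (κ c * z) = _
    rw [h1, map_smul, smul_eq_mul]
    rfl
  · have h1 := LinearMap.congr_fun hρ 1
    rw [LinearMap.comp_apply, Algebra.linearMap_apply, map_one] at h1
    exact h1

/-- clearing denominators -/
theorem exists_clear {N : ℕ} [NeZero N] {Z : P1 → P1 → FractionRing O}
    (hZ : Z ∈ SZ (FractionRing O) N) :
    ∃ c : O, c ≠ 0 ∧ ∃ y ∈ SZ O N, ∀ a b, algebraMap O (FractionRing O) c * Z a b =
      algebraMap O _ (y a b) := by
  obtain ⟨F, hF⟩ := exists_finset hZ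
  obtain ⟨c, hc⟩ := IsLocalization.exist_integer_multiples_of_finset (nonZeroDivisors O) F
  have h1 := hF ((algebraMap O (FractionRing O)).toAddMonoidHom.range.comap
    (AddMonoidHom.mulLeft (algebraMap O _ (c : O)))) fun v hv => by
      obtain ⟨w, hw⟩ := hc v hv
      exact ⟨w, hw.trans (Algebra.smul_def _ _)⟩
  choose y hy using h1
  have hy' : ∀ a b, algebraMap O (FractionRing O) (y a b) = algebraMap O _ (c : O) * Z a b :=
    fun a b => hy a b
  have hinj := IsFractionRing.injective O (FractionRing O)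
  refine ⟨c, nonZeroDivisors.ne_zero c.2, y, mem_SZ.2 ⟨fun a b d => hinj ?_,
    fun γ hγ a b => hinj ?_⟩, fun a b => (hy' a b).symm⟩
  · rw [map_add, hy', hy', hy', ← mul_add, hZ.1]
  · rw [hy', hy', SZ_inv hZ hγ]

end

section

variable {O k : Type} [CommRing O] [IsDomain O] [Field k] [Algebra O k] (D : OmD O k)

/-- the complex symbol of an `O`-valued one -/
abbrev cx (x : P1 → P1 → O) : P1 → P1 → ℂ := cm D.κ.toAddMonoidHom x

theorem cx_sc (c : O) (x : P1 → P1 → O) : cx D (sc c x) = sc (D.κ c) (cx D x) := by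
  funext a b; exact map_mul D.κ _ _

theorem cx_injective {x y : P1 → P1 → O} (h : cx D x = cx D y) : x = y := by
  funext a b
  exact D.κ_inj (congrFun (congrFun h a) b)

/-- complex eigenvalues of `O`-valued eigensymbols -/
theorem cx_eig {x : P1 → P1 → O} {l : ℕ} (hl : l.Prime) (hlN : ¬ l ∣ D.N)
    (h : Tz O hl x = sc (D.lam l) x) : Tz ℂ hl (cx D x) = sc (qCoeff D.f l) (cx D x) := by
  rw [← cm_Tz, h, ← D.lam_eq l hl hlN]
  exact cx_sc D _ _

theorem cx_eig_iff {x : P1 → P1 → O} {l : ℕ} (hl : l.Prime) (hlN : ¬ l ∣ D.N)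
    (h : Tz ℂ hl (cx D x) = sc (qCoeff D.f l) (cx D x)) : Tz O hl x = sc (D.lam l) x := by
  rw [← D.lam_eq l hl hlN, ← cm_Tz, ← cx_sc D] at h
  exact cx_injective D h

/-- **descent**: a complex eigensymbol `Y` with `F Y` defined over `O` -/
theorem exists_descent {N : ℕ} [NeZero N] (hN : D.N ∣ N) {Y : P1 → P1 → ℂ} (hY : Y ∈ SZ ℂ N)
    (hYT : ∀ (l : ℕ) (hl : l.Prime), ¬ l ∣ N → Tz ℂ hl Y = sc (qCoeff D.f l) Y)
    (ρ : ℂ →+ FractionRing O) (hρ : ∀ (c : O) (z : ℂ), ρ (D.κ c * z) = algebraMap O _ c * ρ z) :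
    ∃ c : O, c ≠ 0 ∧ ∃ y ∈ SZ O N,
      (∀ a b, algebraMap O (FractionRing O) c * ρ (Y a b) = algebraMap O _ (y a b)) ∧
      ∀ (l : ℕ) (hl : l.Prime), ¬ l ∣ N → Tz O hl y = sc (D.lam l) y := by
  have hinj := IsFractionRing.injective O (FractionRing O)
  obtain ⟨c, hc, y, hy, hy'⟩ := exists_clear (cm_mem ρ hY)
  refine ⟨c, hc, y, hy, hy', fun l hl hlN => ?_⟩
  have h1 : cm (algebraMap O (FractionRing O)).toAddMonoidHom y =
      cm (AddMonoidHom.mulLeft (algebraMap O _ c)) (cm ρ Y) := by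
    funext a b
    exact (hy' a b).symm
  have h2 : cm (algebraMap O (FractionRing O)).toAddMonoidHom (Tz O hl y) =
      cm (algebraMap O (FractionRing O)).toAddMonoidHom (sc (D.lam l) y) := by
    rw [cm_Tz, h1, ← cm_Tz, ← cm_Tz, hYT l hl hlN, ← D.lam_eq l hl fun h => hlN (h.trans hN)]
    funext a b
    show algebraMap O (FractionRing O) c * ρ (D.κ (D.lam l) * Y a b) =
      algebraMap O (FractionRing O) (D.lam l * y a b)
    rw [hρ, map_mul, ← hy']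
    show _ = _ * (_ * ρ (Y a b))
    ring
  funext a b
  exact hinj (congrFun (congrFun h2 a) b)

end

section

variable {O k : Type} [CommRing O] [IsDomain O] [IsDiscreteValuationRing O]
  [IsAdicComplete (IsLocalRing.maximalIdeal O) O] [CharZero O] [Field k]
  [Algebra O k] (D : OmD O k)

/-- **saturation** -/
theorem iz_sat (hOk : Function.Surjective (algebraMap O k)) {L q : ℕ} (hL : L ≠ 0)
    (hLS : ∀ l : ℕ, l.Prime → l ∣ L → l ∈ D.S ∪ D.Q)
    (hq : q.Prime) (hqk : (q : k) ≠ 0) (hqL : ¬ q ∣ L) {ϖ : O} (hϖ : Irreducible ϖ)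
    {y : P1 → P1 → O} (hy : y ∈ SZ O L)
    (hyT : ∀ (l : ℕ) (hl : l.Prime), ¬ l ∣ L → Tz O hl y = sc (D.lam l) y)
    {z : P1 → P1 → O} (h : iz O hq y = sc ϖ z) : ∃ w ∈ SZ O L, y = sc ϖ w := by
  let g : O →+* O ⧸ Ideal.span {ϖ} := Ideal.Quotient.mk (Ideal.span {ϖ})
  have hg : ∀ a : O, g a = 0 ↔ ∃ c, a = ϖ * c := fun a => by
    show Ideal.Quotient.mk _ a = 0 ↔ _
    rw [Ideal.Quotient.eq_zero_iff_mem, Ideal.mem_span_singleton]
    rfl
  have hgu : ∀ a : O, algebraMap O k a ≠ 0 → IsUnit (g a) := fun a ha =>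
    (isUnit_of_image_ne_zero hOk ha).map g
  have h1 : iz (O ⧸ Ideal.span {ϖ}) hq (cm g.toAddMonoidHom y) = 0 := by
    rw [← cm_iz, h]
    funext a b
    exact (hg _).2 ⟨z a b, rfl⟩
  have hqu : IsUnit (g (q : O)) := hgu _ (by rwa [map_natCast])
  rw [map_natCast] at hqu
  obtain ⟨l, a1, a2, a3, a4⟩ := exists_ne₂ D
  have hl : l ∉ D.S ∪ D.Q := by rw [Finset.mem_union]; push Not; exact ⟨a2, a3⟩
  have hlL : ¬ l ∣ L := fun h => hl (hLS l a1 h)
  obtain ⟨M', hM', H⟩ := omSat L q hL hq hqL (O ⧸ Ideal.span {ϖ}) (by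
    obtain ⟨v, hv⟩ := hqu
    constructor
    · intro a b hab
      have hab' : q • a = q • b := hab
      rw [nsmul_eq_mul, nsmul_eq_mul, ← hv] at hab'
      exact (Units.mul_right_inj v).1 hab'
    · intro b
      refine ⟨↑v⁻¹ * b, ?_⟩
      show q • (↑v⁻¹ * b) = b
      rw [nsmul_eq_mul, ← hv, Units.mul_inv_cancel_left]) _ (cm_mem _ hy) h1 l a1 hlL
  obtain ⟨l', b1, b2, b3, b4, b5⟩ := exists_ne₁ D hM'
  have hl' : l' ∉ D.S ∪ D.Q := by rw [Finset.mem_union]; push Not; exact ⟨b2, b3⟩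
  have hl'L : ¬ l' ∣ L := fun h => hl' (hLS l' b1 h)
  have hT : ∀ (m : ℕ) (hm : m.Prime), ¬ m ∣ L → Tz (O ⧸ Ideal.span {ϖ}) hm
      (cm g.toAddMonoidHom y) = sc (g (D.lam m)) (cm g.toAddMonoidHom y) := by
    intro m hm hmL
    rw [← cm_Tz, hyT m hm hmL]
    funext a b
    exact map_mul g _ _
  have h2 := H l' b1 b4
  rw [eis_apply a1 b1 (hT l a1 hlL) (hT l' b1 hl'L)] at h2
  have hu : IsUnit ((g (D.lam l') - (1 + (l' : O ⧸ Ideal.span {ϖ}))) ^ 2 *
      (g (D.lam l) ^ 2 - (1 + (l : O ⧸ Ideal.span {ϖ})) ^ 2)) := by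
    have c1 := hgu _ a4
    have c2 := hgu _ b5
    rw [map_sub, map_pow, map_pow, map_add, map_one, map_natCast] at c1
    rw [map_sub, map_add, map_one, map_natCast] at c2
    exact (c2.pow 2).mul c1
  have h3 : ∀ a b, g (y a b) = 0 := fun a b => by
    have := congrFun (congrFun h2 a) b
    exact (hu.mul_right_eq_zero).1 this
  obtain ⟨w, hw, hw'⟩ := exists_div hϖ.ne_zero hy fun a b => (hg _).1 (h3 a b)
  exact ⟨w, hw, hw'⟩

end

end Fermat.Agent.RT.Om
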