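import Fermat.Agent.RT.OmY
import Fermat.Agent.RT.OmEig

/-!
# The eigenspaces and the `q`-step
-/

set_option autoImplicit false
set_option linter.unusedSectionVars false
set_option linter.style.haveILetI false

noncomputable section

namespace Fermat.Agent.RT.Om

open Matrix CongruenceSubgroup MvPolynomial Fermat.Agent.TWCoh
open ModularFormClass (qCoeff)
open scoped MatrixGroups OnePoint

section

variable {O k : Type} [CommRing O] [IsDomain O] [IsDiscreteValuationRing O]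
  [IsAdicComplete (IsLocalRing.maximalIdeal O) O] [CharZero O] [Field k]
  [Algebra O k] (D : OmD O k)

/-- the eigenspace of level `L` -/
def Eg (L : ℕ) (Q' : Finset ℕ) : Submodule O (SO O L) where
  carrier := {x | (∀ (l : ℕ) (hl : l.Prime), ¬ l ∣ L → Tz O hl x.1 = sc (D.lam l) x.1) ∧
    ∀ q ∈ Q', ∀ hq : q.Prime, Uz O hq x.1 = 0}
  add_mem' := fun {x y} hx hy => ⟨fun l hl hlL => by
    rw [SO.coe_add, map_add, hx.1 l hl hlL, hy.1 l hl hlL]
    funext a b
    exact (mul_add _ _ _).symm, fun q hq hq' => by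
    rw [SO.coe_add, map_add, hx.2 q hq hq', hy.2 q hq hq', add_zero]⟩
  zero_mem' := ⟨fun l hl _ => by
    show Tz O hl 0 = sc (D.lam l) 0
    rw [map_zero, sc_zero_right], fun q _ hq => map_zero (Uz O hq)⟩
  smul_mem' := fun c x hx => ⟨fun l hl hlL => by
    rw [coe_smul_cm, ← cm_Tz, hx.1 l hl hlL]
    funext a b
    show c * (D.lam l * x.1 a b) = D.lam l * (c * x.1 a b)
    ring, fun q hq hq' => by
    rw [coe_smul_cm, ← cm_Uz, hx.2 q hq hq']
    funext a b
    exact mul_zero c⟩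

theorem sc_cancel {c : O} (hc : c ≠ 0) {x y : P1 → P1 → O} (h : sc c x = sc c y) : x = y := by
  funext a b
  exact mul_left_cancel₀ hc (congrFun (congrFun h a) b)

theorem iz_sc {q : ℕ} (hq : q.Prime) (c : O) (x : P1 → P1 → O) :
    iz O hq (sc c x) = sc c (iz O hq x) := by rw [sc_eq_cm, ← cm_iz]; rfl

theorem Tz_sc {q : ℕ} (hq : q.Prime) (c : O) (x : P1 → P1 → O) :
    Tz O hq (sc c x) = sc c (Tz O hq x) := by rw [sc_eq_cm, ← cm_Tz]; rfl

theorem sc_sc_comm (c c' : O) (x : P1 → P1 → O) : sc c (sc c' x) = sc c' (sc c x) := by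
  funext a b
  show c * (c' * x a b) = c' * (c * x a b)
  ring

/-- removing a denominator -/
theorem exists_integral (hOk : Function.Surjective (algebraMap O k)) {L q : ℕ} (hL : L ≠ 0)
    (hLS : ∀ l : ℕ, l.Prime → l ∣ L → l ∈ D.S ∪ D.Q)
    (hq : q.Prime) (hqk : (q : k) ≠ 0) (hqL : ¬ q ∣ L) {x : P1 → P1 → O} (c : O) (hc : c ≠ 0)
    {y : P1 → P1 → O} (hy : y ∈ SZ O L)
    (hyT : ∀ (l : ℕ) (hl : l.Prime), ¬ l ∣ L → Tz O hl y = sc (D.lam l) y)
    (h : iz O hq y = sc c x) : ∃ w ∈ SZ O L,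
      (∀ (l : ℕ) (hl : l.Prime), ¬ l ∣ L → Tz O hl w = sc (D.lam l) w) ∧ iz O hq w = x := by
  obtain ⟨ϖ, hϖ⟩ := IsDiscreteValuationRing.exists_irreducible O
  obtain ⟨n, u, rfl⟩ := IsDiscreteValuationRing.eq_unit_mul_pow_irreducible hc hϖ
  clear hc
  induction n generalizing y with
  | zero =>
    refine ⟨sc (↑u⁻¹ : O) y, by rw [sc_eq_cm]; exact cm_mem _ hy, fun l hl hlL => ?_, ?_⟩
    · rw [Tz_sc, hyT l hl hlL, sc_sc_comm]
    · rw [iz_sc, h]
      funext a b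
      show (↑u⁻¹ : O) * (↑u * ϖ ^ 0 * x a b) = x a b
      rw [pow_zero, mul_one, ← mul_assoc, Units.inv_mul, one_mul]
  | succ n ih =>
    have h1 : iz O hq y = sc ϖ (sc (↑u * ϖ ^ n) x) := by
      rw [h]
      funext a b
      show ↑u * ϖ ^ (n + 1) * x a b = ϖ * (↑u * ϖ ^ n * x a b)
      ring
    obtain ⟨w, hw, rfl⟩ := iz_sat D hOk hL hLS hq hqk hqL hϖ hy hyT h1
    refine ih hw (fun l hl hlL => ?_) ?_
    · have := hyT l hl hlL
      rw [Tz_sc, sc_sc_comm] at this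
      exact sc_cancel hϖ.ne_zero this
    · rw [iz_sc] at h1
      exact sc_cancel hϖ.ne_zero h1

/-- the stabilisation on the modules -/
def iSO (O : Type) [CommRing O] (L : ℕ) {q : ℕ} (hq : q.Prime) : SO O L →ₗ[O] SO O (L * q * q) where
  toFun x := ofSZ (SZ_iz hq (SO.mem x))
  map_add' x y := Subtype.ext (map_add (iz O hq) x.1 y.1)
  map_smul' c x := Subtype.ext (by
    show iz O hq (c • x).1 = _
    rw [coe_smul_cm, ← cm_iz]
    rfl)

theorem coe_iSO {L q : ℕ} (hq : q.Prime) (x : SO O L) : (iSO O L hq x).1 = iz O hq x.1 := rfl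

variable {D}

theorem iSO_mem {L q : ℕ} {Q' : Finset ℕ} (hq : q.Prime) (hqQ : q ∉ Q')
    {x : SO O L} (hx : x ∈ Eg D L Q') : iSO O L hq x ∈ Eg D (L * q * q) (insert q Q') := by
  refine ⟨fun l hl hlL => ?_, fun q' hq' hq'p => ?_⟩
  · have h1 : l ≠ q := by
      rintro rfl
      exact hlL (dvd_mul_left _ _)
    rw [coe_iSO, Tz_iz hl hq h1 (SZ_trInv (SO.mem x)), hx.1 l hl fun h => hlL
      (by rw [mul_assoc]; exact h.mul_right _), iz_sc]
  · rcases Finset.mem_insert.1 hq' with rfl | hq'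
    · exact Uz_iz hq (SZ_trInv (SO.mem x))
    · rw [coe_iSO, Uz_iz_comm hq'p hq (fun h => hqQ (h ▸ hq')) (SZ_trInv (SO.mem x)),
        hx.2 q' hq' hq'p, map_zero]

/-- the conditions on a level -/
structure OkL (D : OmD O k) (L : ℕ) (Q' : Finset ℕ) : Prop where
  N_dvd : D.N ∣ L
  primes : ∀ l : ℕ, l.Prime → l ∣ L → l ∈ D.S ∪ D.Q
  Q_dvd : ∀ q ∈ Q', q ∣ L

theorem iSO_inj {L q : ℕ} [NeZero L] {Q' : Finset ℕ} (hok : OkL D L Q') (hq : q.Prime)
    (hqL : ¬ q ∣ L) {x : SO O L} (hx : x ∈ Eg D L Q') (h : iSO O L hq x = 0) : x = 0 := by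
  have h1 : iz ℂ hq (cx D x.1) = 0 := by
    rw [← cm_iz, ← coe_iSO, h]
    funext a b
    exact map_zero D.κ
  have h2 := cx_inj D (NeZero.ne L) hok.primes hq hqL (cm_mem _ (SO.mem x)) h1 fun l hl hlS =>
    cx_eig D hl (not_dvd_N D hl fun h => hlS (Finset.mem_union_left _ h))
      (hx.1 l hl fun h => hlS (hok.primes l hl h))
  apply Subtype.ext
  refine cx_injective D (h2.trans ?_)
  funext a b
  exact (map_zero D.κ).symm

theorem iSO_surj (hOk : Function.Surjective (algebraMap O k)) {L q : ℕ} [NeZero L]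
    {Q' : Finset ℕ} (hok : OkL D L Q') (hq : q.Prime) (hqk : (q : k) ≠ 0) (hqQ : q ∈ D.Q)
    (hqL : ¬ q ∣ L) {x : SO O (L * q * q)} (hx : x ∈ Eg D (L * q * q) (insert q Q')) :
    ∃ y ∈ Eg D L Q', iSO O L hq y = x := by
  have hLS : ∀ l : ℕ, l.Prime → l ∣ L * q * q → l ∈ D.S ∪ D.Q := by
    intro l hl h
    rcases (hl.dvd_mul).1 h with h | h
    · rcases (hl.dvd_mul).1 h with h | h
      · exact hok.primes l hl h
      · rw [(Nat.prime_dvd_prime_iff_eq hl hq).1 h]; exact Finset.mem_union_right _ hqQ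
    · rw [(Nat.prime_dvd_prime_iff_eq hl hq).1 h]; exact Finset.mem_union_right _ hqQ
  have hxU : Uz O hq x.1 = 0 := hx.2 q (Finset.mem_insert_self _ _) hq
  obtain ⟨Y, hY, hYT, hxY⟩ := cx_old D (D.dvd.trans hok.N_dvd) hq hqL hLS (x := cx D x.1)
    (cm_mem _ (SO.mem x)) (by
      rw [← cm_Uz, hxU]
      funext a b
      exact map_zero D.κ) fun l hl hlS =>
    cx_eig D hl (not_dvd_N D hl fun h => hlS (Finset.mem_union_left _ h))
      (hx.1 l hl fun h => hlS (hLS l hl h))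
  obtain ⟨ρ, hρ, hρ1⟩ := exists_rho D.κ D.κ_inj
  obtain ⟨c, hc, y, hy, hyY, hyT⟩ := exists_descent D hok.N_dvd hY hYT ρ hρ
  have hinj := IsFractionRing.injective O (FractionRing O)
  have h1 : iz O hq y = sc c x.1 := by
    have h2 : cm (algebraMap O (FractionRing O)).toAddMonoidHom (iz O hq y) =
        cm (algebraMap O (FractionRing O)).toAddMonoidHom (sc c x.1) := by
      have h3 : cm (algebraMap O (FractionRing O)).toAddMonoidHom y =
          cm (AddMonoidHom.mulLeft (algebraMap O _ c)) (cm ρ Y) := by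
        funext a b
        exact (hyY a b).symm
      rw [cm_iz, h3, ← cm_iz, ← cm_iz, ← hxY]
      funext a b
      show algebraMap O (FractionRing O) c * ρ (D.κ (x.1 a b)) =
        algebraMap O (FractionRing O) (c * x.1 a b)
      have h4 := hρ (x.1 a b) 1
      rw [mul_one, hρ1, mul_one] at h4
      rw [h4, map_mul]
    funext a b
    exact hinj (congrFun (congrFun h2 a) b)
  obtain ⟨w, hw, hwT, hwx⟩ := exists_integral D hOk (NeZero.ne L) hok.primes hq hqk hqL c hc hy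
    hyT h1
  refine ⟨ofSZ hw, ⟨hwT, fun q' hq' hq'p => ?_⟩, Subtype.ext hwx⟩
  -- `U_{q'} w = 0`
  have hne : q' ≠ q := fun h => hqL (h ▸ hok.Q_dvd q' hq')
  have h5 : Uz O hq'p w ∈ SZ O L := Sy.uop (one_dvd _) hq'p (hok.Q_dvd q' hq') hw
  have h6 : ofSZ h5 ∈ Eg D L ∅ := ⟨fun l hl hlL => by
    have hlq : l ≠ q' := fun h => hlL (h ▸ hok.Q_dvd q' hq')
    rw [coe_ofSZ, Tz_Uz hl hq'p hlq (SZ_trInv hw), hwT l hl hlL, sc_eq_cm, ← cm_Uz]; rfl,
    fun q hq => absurd hq (Finset.notMem_empty q)⟩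
  have h7 : iSO O L hq (ofSZ h5) = 0 := by
    apply Subtype.ext
    rw [coe_iSO, coe_ofSZ, ← Uz_iz_comm hq'p hq hne (SZ_trInv hw), hwx]
    exact hx.2 q' (Finset.mem_insert_of_mem hq') hq'p
  have h8 := iSO_inj (Q' := ∅) ⟨hok.N_dvd, hok.primes, fun q hq => absurd hq (Finset.notMem_empty q)⟩
    hq hqL h6 h7
  exact congrArg Subtype.val h8

/-- the isomorphism of the eigenspaces -/
theorem exists_equiv (hOk : Function.Surjective (algebraMap O k)) {L q : ℕ} [NeZero L]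
    {Q' : Finset ℕ} (hok : OkL D L Q') (hq : q.Prime) (hqk : (q : k) ≠ 0) (hqQ : q ∈ D.Q)
    (hqQ' : q ∉ Q') (hqL : ¬ q ∣ L) :
    ∃ f : Eg D L Q' ≃ₗ[O] Eg D (L * q * q) (insert q Q'),
      ∀ x, (f x).1 = iSO O L hq x.1 := by
  let f : Eg D L Q' →ₗ[O] Eg D (L * q * q) (insert q Q') :=
    ((iSO O L hq).domRestrict _).codRestrict _ fun x => iSO_mem hq hqQ' x.2
  refine ⟨LinearEquiv.ofBijective f ⟨?_, fun x => ?_⟩, fun x => rfl⟩
  · rw [injective_iff_map_eq_zero]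
    intro x hx
    exact Subtype.ext (iSO_inj hok hq hqL x.2 (congrArg Subtype.val hx))
  · obtain ⟨y, hy, hyx⟩ := iSO_surj hOk hok hq hqk hqQ hqL x.2
    exact ⟨⟨y, hy⟩, Subtype.ext hyx⟩

end

end Fermat.Agent.RT.Om
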