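import Fermat.Agent.CondLev.FrobNode
import Fermat.Agent.ECRed.Star
import Fermat.Agent.ECRed.CompS

/-!
# Multiplicative reduction at a place of residue characteristic `p`: the `p`-power torsion
-/

set_option autoImplicit false
set_option linter.unusedSectionVars false
set_option linter.style.haveILetI false
set_option linter.unusedVariables false

noncomputable section

namespace Fermat.Agent.RT.Tate

open Fermat.Agent.ECRed OrdFn IsLocalRing

section Res

variable {K : Type*} [Field K] (v : OrdFn K) (A : ValuationSubring K)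

open Classical in
/-- the residue of an element -/
def rs (x : K) : ResidueField A := if h : x ∈ A then residue A ⟨x, h⟩ else 0

/-- compatibility of the order function and the valuation subring -/
structure CompatV : Prop where
  ge : ∀ x, v.Ge 0 x ↔ x ∈ A
  gt : ∀ x, v.Gt 0 x ↔ x ∈ A.nonunits

variable {v A} (hv : CompatV v A)

include hv

theorem rs_eq {x : K} (hx : v.Ge 0 x) : rs A x = residue A ⟨x, (hv.ge x).mp hx⟩ := by
  rw [rs, dif_pos ((hv.ge x).mp hx)]

theorem rs_add {x y : K} (hx : v.Ge 0 x) (hy : v.Ge 0 y) : rs A (x + y) = rs A x + rs A y := by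
  rw [rs_eq hv hx, rs_eq hv hy, rs_eq hv (hx.add hy), ← map_add]
  rfl

theorem rs_sub {x y : K} (hx : v.Ge 0 x) (hy : v.Ge 0 y) : rs A (x - y) = rs A x - rs A y := by
  rw [rs_eq hv hx, rs_eq hv hy, rs_eq hv (hx.sub hy), ← map_sub]
  rfl

theorem ge_mul {x y : K} (hx : v.Ge 0 x) (hy : v.Ge 0 y) : v.Ge 0 (x * y) := by
  simpa using hx.mul hy

theorem rs_mul {x y : K} (hx : v.Ge 0 x) (hy : v.Ge 0 y) : rs A (x * y) = rs A x * rs A y := by
  rw [rs_eq hv hx, rs_eq hv hy, rs_eq hv (ge_mul hv hx hy), ← map_mul]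
  rfl

theorem ge_pow {x : K} (hx : v.Ge 0 x) (n : ℕ) : v.Ge 0 (x ^ n) := by
  rw [hv.ge] at hx ⊢
  exact A.pow_mem hx n

theorem rs_pow {x : K} (hx : v.Ge 0 x) (n : ℕ) : rs A (x ^ n) = rs A x ^ n := by
  rw [rs_eq hv hx, rs_eq hv (ge_pow hv hx n), ← map_pow]
  rfl

theorem rs_zero_iff {x : K} (hx : v.Ge 0 x) : rs A x = 0 ↔ v.Gt 0 x := by
  rw [rs_eq hv hx, residue_eq_zero_iff, hv.gt]
  exact (A.valuation_lt_one_iff _)

theorem rs_zero {x : K} (hx : v.Gt 0 x) : rs A x = 0 := (rs_zero_iff hv hx.ge).mpr hx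

theorem rs_ne {x : K} (hx : v.Eq 0 x) : rs A x ≠ 0 := fun h =>
  hx.not_gt ((rs_zero_iff hv hx.ge).mp h)

theorem rs_ofNat (n : ℕ) [n.AtLeastTwo] : rs A (OfNat.ofNat n : K) = OfNat.ofNat n := by
  rw [rs_eq hv (ge_ofNat n)]
  exact map_ofNat (residue A) n

theorem eq_of_rs {x : K} (hx : v.Ge 0 x) (h : rs A x ≠ 0) : v.Eq 0 x := by
  have h1 : ¬ v.Gt 0 x := fun h2 => h (rs_zero hv h2)
  rw [not_gt_iff] at h1
  exact ⟨h1.1, le_antisymm h1.2 ((ge_iff h1.1).mp hx)⟩

end Res

section A1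

variable {G : Type*} [AddCommGroup G] {K : Type*} [Field K] {κ : KummerLine G K} {v : OrdFn K}
  {m : ℝ} {A : ValuationSubring K}

/-- **no `p`-power torsion with nonsingular, nonzero reduction** -/
theorem unit_not_torsion (hv : CompatV v A) (h : κ.MultAt v m) {p : ℕ} (hp : p.Prime)
    (hp2 : p ≠ 2) [CharP (ResidueField A) p] [IsAlgClosed (ResidueField A)] {n : ℕ} {P : G}
    (hP : p ^ n • P = 0) (hP0 : P ≠ 0) (hx : v.Eq 0 (κ.N P)) : False := by
  classical
  haveI : Fact p.Prime := ⟨hp⟩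
  have hint := h.integral
  have hb4 : v.Gt 0 κ.b₄ := h.b₄.gt h.pos
  have hb6 : v.Gt 0 κ.b₆ := h.b₆.gt (by linarith [h.pos])
  have hb8 : v.Gt 0 κ.b₈ := h.b₈.gt (by linarith [h.pos])
  set b := rs A κ.b₂ with hb
  have hb0 : b ≠ 0 := rs_ne hv h.b₂
  set x := rs A (κ.N P) with hxd
  have hx0 : x ≠ 0 := rs_ne hv hx
  -- the multiplicative parameter
  obtain ⟨a, ha⟩ : ∃ a : ResidueField A, x * (a - 1) ^ 2 = b * a := by
    obtain ⟨a, ha⟩ := IsAlgClosed.exists_root (Polynomial.C x * Polynomial.X ^ 2 +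
      Polynomial.C (-(2 * x + b)) * Polynomial.X + Polynomial.C x : Polynomial (ResidueField A)) (by
        rw [Polynomial.degree_quadratic hx0]
        norm_num)
    refine ⟨a, ?_⟩
    simp only [Polynomial.IsRoot.def, Polynomial.eval_add, Polynomial.eval_mul,
      Polynomial.eval_C, Polynomial.eval_pow, Polynomial.eval_X] at ha
    linear_combination ha
  have ha0 : a ≠ 0 := by
    rintro rfl
    apply hx0
    linear_combination ha
  -- the order of `P` modulo the kernel of reduction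
  have hex : ∃ j, 1 ≤ j ∧ κ.InE1 v (j • P) :=
    ⟨p ^ n, Nat.one_le_pow _ _ hp.pos, by rw [hP]; exact KummerLine.inE1_zero⟩
  set k₀ := Nat.find hex with hk₀
  have hk1 : 1 ≤ k₀ := (Nat.find_spec hex).1
  have hkE : κ.InE1 v (k₀ • P) := (Nat.find_spec hex).2
  have hmin : ∀ j, 1 ≤ j → j < k₀ → ¬ κ.InE1 v (j • P) := fun j hj1 hj hE =>
    Nat.find_min hex hj ⟨hj1, hE⟩
  have hdvd : k₀ ∣ p ^ n := by
    have h1 := Nat.div_add_mod (p ^ n) k₀
    have h2 : ((p ^ n) % k₀) • P = p ^ n • P - ((p ^ n) / k₀) • (k₀ • P) := by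
      rw [eq_sub_iff_add_eq, ← mul_smul, ← add_smul, add_comm, mul_comm, h1]
    have h3 : κ.InE1 v (((p ^ n) % k₀) • P) := by
      have h4 : (k₀ • P) ∈ KummerLine.E1sub hint := hkE
      have h5 := (KummerLine.E1sub hint).sub_mem (KummerLine.inE1_zero : (0 : G) ∈ _)
        ((KummerLine.E1sub hint).nsmul_mem h4 ((p ^ n) / k₀))
      rw [h2, hP]
      exact h5
    by_contra hd
    have h6 : 1 ≤ (p ^ n) % k₀ := Nat.one_le_iff_ne_zero.mpr fun h0 => hd (Nat.dvd_of_mod_eq_zero h0)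
    exact hmin _ h6 (Nat.mod_lt _ hk1) h3
  obtain ⟨i, -, hi⟩ := (Nat.dvd_prime_pow hp).mp hdvd
  have hPE : ¬ κ.InE1 v P := by
    rw [KummerLine.inE1_iff hP0, not_not]
    exact hx.ge
  have hi0 : i ≠ 0 := by
    rintro rfl
    rw [pow_zero] at hi
    rw [hi, one_smul] at hkE
    exact hPE hkE
  have hk3 : 3 ≤ k₀ := by
    rw [hi]
    have h3 : 3 ≤ p := by
      have := hp.two_le
      omega
    exact h3.trans (Nat.le_self_pow hi0 p)
  have hI : ∀ j, 1 ≤ j → j < k₀ → j • P ≠ 0 ∧ v.Ge 0 (κ.N (j • P)) := fun j h1 h2 =>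
    KummerLine.not_inE1 (hmin j h1 h2)
  have hone : ∀ {j : ℕ} {z : ResidueField A}, z * (a ^ j - 1) ^ 2 = b * a ^ j →
      a ^ j ≠ 1 ∧ z ≠ 0 := by
    intro j z hz
    have h1 : b * a ^ j ≠ 0 := mul_ne_zero hb0 (pow_ne_zero j ha0)
    constructor
    · intro h2
      rw [h2] at hz
      apply h1
      rw [h2, ← hz]
      ring
    · rintro rfl
      apply h1
      rw [← hz]
      ring
  -- the addition relation modulo the maximal ideal
  have hF2 : ∀ {y z : K}, v.Ge 0 y → v.Ge 0 z →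
      rs A ((y * z) ^ 2 - κ.b₄ * (y * z) - κ.b₆ * (y + z) - κ.b₈) = (rs A y * rs A z) ^ 2 := by
    intro y z hy hz
    have hyz := ge_mul hv hy hz
    have e1 := ge_pow hv hyz 2
    have e2 := ge_mul hv hb4.ge hyz
    have e3 := ge_mul hv hb6.ge (hy.add hz)
    rw [rs_sub hv ((e1.sub e2).sub e3) hb8.ge, rs_sub hv (e1.sub e2) e3, rs_sub hv e1 e2,
      rs_pow hv hyz, rs_mul hv hy hz, rs_mul hv hb4.ge hyz, rs_mul hv hb6.ge (hy.add hz),
      rs_zero hv hb4, rs_zero hv hb6, rs_zero hv hb8]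
    ring
  have hF1 : ∀ {y z : K}, v.Ge 0 y → v.Ge 0 z →
      rs A (2 * (y + z) * (y * z) + κ.b₂ * (y * z) + κ.b₄ * (y + z) + κ.b₆) =
        2 * (rs A y + rs A z) * (rs A y * rs A z) + b * (rs A y * rs A z) := by
    intro y z hy hz
    have hyz := ge_mul hv hy hz
    have h2 : v.Ge 0 (2 : K) := ge_ofNat 2
    have e0 := ge_mul hv (ge_mul hv h2 (hy.add hz)) hyz
    have e1 := ge_mul hv h.b₂.ge hyz
    have e2 := ge_mul hv hb4.ge (hy.add hz)
    rw [rs_add hv ((e0.add e1).add e2) hb6.ge, rs_add hv (e0.add e1) e2, rs_add hv e0 e1,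
      rs_mul hv (ge_mul hv h2 (hy.add hz)) hyz, rs_mul hv h2 (hy.add hz), rs_add hv hy hz,
      rs_mul hv hy hz, rs_mul hv h.b₂.ge hyz, rs_mul hv hb4.ge (hy.add hz), rs_mul hv hy hz,
      rs_zero hv hb4, rs_zero hv hb6, rs_ofNat hv 2]
    ring
  have key : ∀ j, 1 ≤ j → j < k₀ → rs A (κ.N (j • P)) * (a ^ j - 1) ^ 2 = b * a ^ j := by
    intro j
    induction j using Nat.strong_induction_on with
    | _ j ih =>
      intro h1 hj
      rcases Nat.lt_or_ge j 2 with hj2 | hj2
      · have : j = 1 := by omega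
        subst this
        rw [one_smul, pow_one]
        exact ha
      rcases Nat.lt_or_ge j 3 with hj3 | hj3
      · have : j = 2 := by omega
        subst this
        obtain ⟨h20, h2i⟩ := hI 2 (by norm_num) hj
        rw [two_smul] at h20 h2i ⊢
        obtain ⟨-, e⟩ := κ.dup hP0 h20
        have e1 := congrArg (rs A) e
        have hpsi : κ.psi (κ.N P) = 2 * (κ.N P + κ.N P) * (κ.N P * κ.N P) +
            κ.b₂ * (κ.N P * κ.N P) + κ.b₄ * (κ.N P + κ.N P) + κ.b₆ := by
          rw [KummerLine.psi]; ring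
        have hphi : κ.phi (κ.N P) = (κ.N P * κ.N P) ^ 2 - κ.b₄ * (κ.N P * κ.N P) -
            κ.b₆ * (κ.N P + κ.N P) - κ.b₈ := by
          rw [KummerLine.phi]; ring
        have hpsi' : v.Ge 0 (κ.psi (κ.N P)) := by
          rw [KummerLine.psi]
          have h4 : v.Ge 0 (4 : K) := ge_ofNat 4
          have h2 : v.Ge 0 (2 : K) := ge_ofNat 2
          exact (((ge_mul hv h4 (ge_pow hv hx.ge 3)).add (ge_mul hv h.b₂.ge
            (ge_pow hv hx.ge 2))).add (ge_mul hv (ge_mul hv h2 hb4.ge) hx.ge)).add hb6.ge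
        rw [rs_mul hv hpsi' h2i, hpsi, hphi, hF1 hx.ge hx.ge, hF2 hx.ge hx.ge] at e1
        refine CondLev.dup_alg hb0 ha0 hx0 ha ?_
        linear_combination e1
      · obtain ⟨i, rfl⟩ : ∃ i, j = i + 1 := ⟨j - 1, by omega⟩
        have hi2 : 2 ≤ i := by omega
        have c1 := ih i (by omega) (by omega) (by omega)
        have c2 := ih (i - 1) (by omega) (by omega) (by omega)
        obtain ⟨hi0', hii⟩ := hI i (by omega) (by omega)
        obtain ⟨hj0', hji⟩ := hI (i + 1) (by omega) hj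
        obtain ⟨hm0', hmi⟩ := hI (i - 1) (by omega) (by omega)
        have es : i • P + P = (i + 1) • P := (succ_nsmul P i).symm
        have ed : i • P - P = (i - 1) • P := by
          obtain ⟨l, rfl⟩ : ∃ l, i = l + 1 := ⟨i - 1, by omega⟩
          rw [succ_nsmul, add_sub_cancel_right]
          rfl
        obtain ⟨hne, r1, r2⟩ := κ.add_sub_ne hi0' hP0 (by
          intro h0
          exact hm0' (by rw [← ed, h0, sub_self])) (by
          intro h0
          exact hj0' (by rw [← es, h0, neg_add_cancel]))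
        rw [es, ed] at r1 r2
        have hd := hii.sub hx.ge
        have q1 := congrArg (rs A) r1
        have q2 := congrArg (rs A) r2
        rw [rs_mul hv (ge_pow hv hd 2) (hji.add hmi), rs_pow hv hd, rs_sub hv hii hx.ge,
          rs_add hv hji hmi, hF1 hii hx.ge] at q1
        rw [rs_mul hv (ge_pow hv hd 2) (ge_mul hv hji hmi), rs_pow hv hd, rs_sub hv hii hx.ge,
          rs_mul hv hji hmi, hF2 hii hx.ge] at q2
        have hzi : rs A (κ.N (i • P)) ≠ 0 := (hone c1).2
        have hxy : rs A (κ.N (i • P)) ≠ x := by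
          intro h0
          rw [← hxd, h0, sub_self] at q2
          have h1 : (x * x) ^ 2 = 0 := by rw [← q2]; ring
          exact pow_ne_zero 2 (mul_ne_zero hx0 hx0) h1
        have e4 : a ^ (i + 1) = a ^ i * a := pow_succ _ _
        rw [e4]
        refine CondLev.step_alg hb0 ha0 (pow_ne_zero i ha0) c1 ha
          (w := rs A (κ.N ((i - 1) • P))) ?_ q1 hxy
        have e3 : a ^ i = a ^ (i - 1) * a := by
          rw [← pow_succ]
          congr 1
          omega
        rw [e3]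
        linear_combination a ^ 2 * c2
  -- the last step
  have c1 := key (k₀ - 1) (by omega) (by omega)
  have c2 := key (k₀ - 2) (by omega) (by omega)
  obtain ⟨hi0', hii⟩ := hI (k₀ - 1) (by omega) (by omega)
  obtain ⟨hm0', hmi⟩ := hI (k₀ - 2) (by omega) (by omega)
  have hxx : rs A (κ.N ((k₀ - 1) • P)) = x := by
    by_cases hz : k₀ • P = 0
    · have h1 : (k₀ - 1) • P = -P := by
        rw [eq_neg_iff_add_eq_zero, ← succ_nsmul]
        rw [show k₀ - 1 + 1 = k₀ by omega]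
        exact hz
      rw [h1, κ.N_neg]
    · have es : (k₀ - 1) • P + P = k₀ • P := by
        rw [← succ_nsmul]
        congr 1
        omega
      have ed : (k₀ - 1) • P - P = (k₀ - 2) • P := by
        obtain ⟨l, hl⟩ : ∃ l, k₀ = l + 2 := ⟨k₀ - 2, by omega⟩
        rw [hl]
        rw [show l + 2 - 1 = l + 1 by omega, show l + 2 - 2 = l by omega, succ_nsmul,
          add_sub_cancel_right]
      obtain ⟨hne, r1, r2⟩ := κ.add_sub_ne hi0' hP0 (by
          intro h0
          exact hm0' (by rw [← ed, h0, sub_self])) (by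
          intro h0
          exact hz (by rw [← es, h0, neg_add_cancel]))
      rw [es, ed] at r2
      have hneg := (KummerLine.inE1_iff hz).mp hkE
      rw [not_ge_iff] at hneg
      have hu := eq_of_rs hv hmi (hone c2).2
      have hF : v.Ge 0 ((κ.N ((k₀ - 1) • P) * κ.N P) ^ 2 -
          κ.b₄ * (κ.N ((k₀ - 1) • P) * κ.N P) -
          κ.b₆ * (κ.N ((k₀ - 1) • P) + κ.N P) - κ.b₈) := by
        have hyz := ge_mul hv hii hx.ge
        exact (((ge_pow hv hyz 2).sub (ge_mul hv hb4.ge hyz)).sub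
          (ge_mul hv hb6.ge (hii.add hx.ge))).sub hb8.ge
      rw [← r2] at hF
      have h3 := (OrdFn.eq_self hneg.1).mul hu
      rw [mul_comm] at hF
      have h4 := hF.of_mul_eq h3
      have h5 : v.Gt 0 ((κ.N ((k₀ - 1) • P) - κ.N P) ^ 2) := h4.gt (by linarith [hneg.2])
      have hd := hii.sub hx.ge
      have h6 := rs_zero hv h5
      rw [rs_pow hv hd, rs_sub hv hii hx.ge] at h6
      exact sub_eq_zero.mp (pow_eq_zero_iff (two_ne_zero) |>.mp h6)
  rw [hxx] at c1
  set j := k₀ - 1 with hj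
  have h1 : (a - a ^ j) * (a ^ (j + 1) - 1) = 0 := by
    have ha1 : (a - 1) ^ 2 ≠ 0 := by
      intro h0
      rw [h0, mul_zero] at ha
      exact mul_ne_zero hb0 ha0 ha.symm
    have e : b * ((a - a ^ j) * (a ^ (j + 1) - 1)) = 0 := by
      have e1 : x * (a - 1) ^ 2 * (a ^ j - 1) ^ 2 = b * a ^ j * (a - 1) ^ 2 := by
        linear_combination (a - 1) ^ 2 * c1
      rw [ha] at e1
      rw [pow_succ]
      linear_combination -e1
    exact (mul_eq_zero.mp e).resolve_left hb0
  rcases mul_eq_zero.mp h1 with h2 | h2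
  · have h3 : a ^ j = a ^ (k₀ - 2) * a := by
      rw [← pow_succ]
      congr 1
      omega
    rw [h3] at h2
    have h4 : a * (1 - a ^ (k₀ - 2)) = 0 := by linear_combination h2
    have h5 := (mul_eq_zero.mp h4).resolve_left ha0
    exact (hone c2).1 (by linear_combination -h5)
  · have h3 : j + 1 = p ^ i := by omega
    rw [h3, ← sub_eq_zero.mp (sub_eq_zero.mpr (one_pow (M := ResidueField A) (p ^ i))),
      ← sub_pow_char_pow] at h2
    have h4 := pow_eq_zero_iff (pow_ne_zero i hp.ne_zero) |>.mp h2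
    have h5 := (hone (j := 1) (z := x) (by rw [pow_one]; exact ha)).1
    rw [pow_one] at h5
    exact h5 (sub_eq_zero.mp h4)

/-- points with the same component -/
theorem same_comp (h : κ.MultAt v m) {c : ℝ} (hc0 : 0 < c) (hcm : c < m) {P Q : G} (hP0 : P ≠ 0)
    (hQ0 : Q ≠ 0) (hP : v.Eq c (κ.N P)) (hQ : v.Eq c (κ.N Q)) :
    (P = Q ∨ P = -Q) ∨ ¬ v.Gt 0 (κ.N (P + Q)) ∨ ¬ v.Gt 0 (κ.N (P - Q)) := by
  by_cases h1 : P = Q
  · exact Or.inl (Or.inl h1)
  by_cases h2 : P = -Q
  · exact Or.inl (Or.inr h2)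
  right
  by_contra hcon
  push Not at hcon
  obtain ⟨-, r1, -⟩ := κ.add_sub_ne hP0 hQ0 h1 h2
  have hF := KummerLine.F1_eq h hP hQ hc0 hc0 hcm hcm
  have h3 : v.Gt (c + c) (κ.F1 (κ.N P) (κ.N Q)) := by
    have e : κ.F1 (κ.N P) (κ.N Q) = (κ.N P - κ.N Q) ^ 2 * (κ.N (P + Q) + κ.N (P - Q)) := by
      rw [r1, KummerLine.F1]
    rw [e]
    have h4 := (hP.ge.sub hQ.ge).pow_two.mul_gt (hcon.1.add hcon.2)
    exact h4.mono (by linarith)
  exact hF.not_gt h3

end A1

end Fermat.Agent.RT.Tate
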