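import Fermat.Agent.RT.Ord1
import Fermat.Agent.CondLev.Fixed

/-!
# Multiplicative reduction: the sign on inertia
-/

set_option autoImplicit false
set_option linter.unusedSectionVars false
set_option linter.style.haveILetI false
set_option linter.unusedVariables false

noncomputable section

namespace Fermat.Agent.RT.Tate

open Fermat.Agent.ECRed OrdFn IsLocalRing
open WeierstrassCurve WeierstrassCurve.Affine WeierstrassCurve.Affine.Point

variable {K : Type*} [Field K] [DecidableEq K] [Algebra ℚ K] {W : Affine ℚ} {v : OrdFn K}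

theorem gt_mul_gt {c d : ℝ} {x y : K} (hx : v.Gt c x) (hy : v.Ge d y) : v.Gt (c + d) (x * y) :=
  hx.mul_ge hy

/-- **inertia cannot act as `-1` modulo the kernel of reduction** -/
theorem sign_inertia {κ : KummerLine (W⁄K).Point K} {r : ℚ}
    (hκ : κ = (KummerLine.ofCurve (W⁄K)).translate (algebraMap ℚ K r))
    {m : ℝ} (h : κ.MultAt v m) (h2 : v.Eq 0 (2 : K)) {c : ℝ} (hc0 : 0 < c) (hcm : c < m)
    {P : (W⁄K).Point} (hP0 : P ≠ 0) (hN : v.Eq c (κ.N P)) {σ : K ≃ₐ[ℚ] K}
    (hσ : ∀ z, v.Ge 0 z → v.Gt 0 (σ z - z)) (hσP : v.Eq c (κ.N (σ • P))) (hσP0 : σ • P ≠ 0)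
    (hE2 : σ • P - P ≠ 0 ∧ v.Ge 0 (κ.N (σ • P - P)))
    (hunit : ¬ v.Eq 0 (κ.N (σ • P - P))) : ¬ κ.InE1 v (σ • P + P) := by
  intro hE
  have hm := h.pos
  have hb4 : v.Gt 0 κ.b₄ := h.b₄.gt h.pos
  -- the order of `η`
  have hpsi : v.Eq (2 * c) (κ.psi (κ.N P)) := by
    have e : κ.psi (κ.N P) = κ.b₂ * κ.N P ^ 2 + (4 * κ.N P ^ 3 + 2 * (κ.b₄ * κ.N P) + κ.b₆) := by
      rw [KummerLine.psi]; ring
    rw [e]
    have e1 : v.Eq (2 * c) (κ.b₂ * κ.N P ^ 2) := by
      have := h.b₂.mul hN.pow_two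
      rwa [zero_add] at this
    refine e1.add_gt (Gt.add (Gt.add ?_ ?_) ?_)
    · have := (ge_ofNat (v := v) 4).zero_mul (hN.pow 3).ge
      exact this.gt (by push_cast; linarith)
    · have := (ge_ofNat (v := v) 2).zero_mul (h.b₄.mul hN.ge)
      exact this.gt (by linarith)
    · exact h.b₆.gt (by linarith)
  have heta2 := eta_sq_translate hκ hP0
  have hη0 : eta P ≠ 0 := by
    intro h0
    rw [h0] at heta2
    exact hpsi.ne (by rw [← heta2]; ring)
  have hη : v.Eq c (eta P) := by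
    refine ⟨hη0, ?_⟩
    have := hpsi.2
    rw [← heta2, ord_pow hη0] at this
    push_cast at this
    linarith
  set t := eta P / κ.N P with ht
  have htη : eta P = t * κ.N P := by rw [ht, div_mul_cancel₀ _ hN.ne]
  have htu : v.Eq 0 t := by
    have := hη.mul hN.inv
    rw [ht, div_eq_mul_inv]
    simpa using this
  have htb : v.Gt 0 (t ^ 2 - κ.b₂) := by
    have e : κ.N P ^ 2 * (t ^ 2 - κ.b₂) = 4 * κ.N P ^ 3 + 2 * (κ.b₄ * κ.N P) + κ.b₆ := by
      have e1 : (t * κ.N P) ^ 2 = κ.psi (κ.N P) := by rw [← htη, heta2]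
      rw [KummerLine.psi] at e1
      linear_combination e1
    have e2 : v.Gt (2 * c) (κ.N P ^ 2 * (t ^ 2 - κ.b₂)) := by
      rw [e]
      refine Gt.add (Gt.add ?_ ?_) ?_
      · have := (ge_ofNat (v := v) 4).zero_mul (hN.pow 3).ge
        exact this.gt (by push_cast; linarith)
      · have := (ge_ofNat (v := v) 2).zero_mul (h.b₄.mul hN.ge)
        exact this.gt (by linarith)
      · exact h.b₆.gt (by linarith)
    have e3 := e2.of_mul_eq hN.pow_two
    rwa [sub_self] at e3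
  have hNσ : κ.N (σ • P) = σ (κ.N P) := by
    have e1 : κ.N (σ • P) = (KummerLine.ofCurve (W⁄K)).N (σ • P) - algebraMap ℚ K r := by
      rw [hκ]
      simp only [KummerLine.translate]
      rw [(KummerLine.ofCurve (W⁄K)).D_ne _ hσP0, mul_one]
    have e2 : κ.N P = (KummerLine.ofCurve (W⁄K)).N P - algebraMap ℚ K r := by
      rw [hκ]
      simp only [KummerLine.translate]
      rw [(KummerLine.ofCurve (W⁄K)).D_ne _ hP0, mul_one]
    rw [e1, e2, N_smul, map_sub]
    congr 1
    exact (σ.commutes r).symm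
  have hησ : eta (σ • P) = σ t * κ.N (σ • P) := by
    rw [eta_smul, htη, map_mul, hNσ]
  have hst := hσ t htu.ge
  have hstt : v.Gt 0 (σ t * t - κ.b₂) := by
    have e : σ t * t - κ.b₂ = (σ t - t) * t + (t ^ 2 - κ.b₂) := by ring
    rw [e]
    have := hst.mul_ge htu.ge
    rw [zero_add] at this
    exact this.add htb
  -- `σ P ≠ P`
  have h1 : σ • P ≠ P := sub_ne_zero.mp hE2.1
  by_cases h3 : σ • P = -P
  · -- `σ t = - t`
    have e1 : σ t = -t := by
      have e2 : σ t * κ.N (σ • P) = -(t * κ.N P) := by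
        rw [← hησ, ← htη, h3, eta_neg]
      rw [h3, κ.N_neg] at e2
      apply mul_right_cancel₀ hN.ne
      rw [e2]; ring
    rw [e1] at hst
    have e2 : -t - t = -(2 * t) := by ring
    rw [e2] at hst
    have e3 := (h2.mul htu).neg
    rw [zero_add] at e3
    exact e3.not_gt hst
  · obtain ⟨hne, r1, -⟩ := κ.add_sub_ne hσP0 hP0 h1 h3
    have r2 := eta_rel_translate hκ hσP0 hP0 h1 h3
    rw [hησ, htη] at r2
    set U := κ.N (σ • P) with hU
    set V := κ.N P with hV
    have hUV : v.Eq (c + c) (U * V) := hσP.mul hN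
    have e : 2 * κ.N (σ • P - P) * (U - V) ^ 2 = 2 * κ.b₂ * (U * V) +
        ((σ t * t - κ.b₂) * (U * V) + (2 * ((U + V) * (U * V)) + κ.b₄ * (U + V) + κ.b₆)) := by
      linear_combination r1 + r2
    have hs : v.Ge c (U + V) := hσP.ge.add hN.ge
    have e1 : v.Eq (c + c) (2 * κ.b₂ * (U * V)) := by
      have := (h2.mul h.b₂).mul hUV
      rwa [zero_add, zero_add] at this
    have e2 : v.Eq (c + c) (2 * κ.N (σ • P - P) * (U - V) ^ 2) := by
      rw [e]
      refine e1.add_gt (Gt.add ?_ (Gt.add (Gt.add ?_ ?_) ?_))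
      · have := hstt.mul_ge hUV.ge
        rwa [zero_add] at this
      · have := (ge_ofNat (v := v) 2).zero_mul (hs.mul hUV.ge)
        exact this.gt (by linarith)
      · exact (h.b₄.mul hs).gt (by linarith)
      · exact h.b₆.gt (by linarith)
    have hd : v.Ge c (U - V) := hσP.ge.sub hN.ge
    have hd2 : v.Ge (2 * c) ((U - V) ^ 2) := hd.pow_two
    -- the order of `N (σ P - P)`
    have hd0 : (U - V) ^ 2 ≠ 0 := fun h0 => e2.ne (by rw [h0, mul_zero])
    have hN0 : κ.N (σ • P - P) ≠ 0 := fun h0 => e2.ne (by rw [h0]; ring)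
    apply hunit
    refine ⟨hN0, le_antisymm ?_ ((ge_iff hN0).mp hE2.2)⟩
    have e3 := e2.2
    rw [ord_mul (mul_ne_zero h2.ne hN0) hd0, ord_mul h2.ne hN0, h2.2, zero_add] at e3
    have e4 := (ge_iff hd0).mp hd2
    linarith

end Fermat.Agent.RT.Tate
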