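import Fermat.Agent.RT.Tate2

/-!
# The Tate module of an elliptic curve: unipotence on inertia
-/

set_option autoImplicit false
set_option linter.style.haveILetI false

noncomputable section

namespace Fermat.Agent.RT.Tate

open IsLocalRing Polynomial Fermat.Agent.S43Glue Fermat.Agent.S58X Fermat.Agent.GalRep
open WeierstrassCurve WeierstrassCurve.Affine WeierstrassCurve.Affine.Point

local notation "Qbar" => AlgebraicClosure ℚ
local notation "GQ" => Qbar ≃ₐ[ℚ] Qbar

variable {W : WeierstrassCurve ℤ} {p : ℕ} [hp : Fact p.Prime]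

theorem cayley {R : Type*} [CommRing R] (M : Matrix (Fin 2) (Fin 2) R) :
    M * M - M.trace • M + M.det • (1 : Matrix (Fin 2) (Fin 2) R) = 0 := by
  ext i j
  fin_cases i <;> fin_cases j <;>
    simp [Matrix.mul_apply, Fin.sum_univ_two, Matrix.trace_fin_two, Matrix.det_fin_two] <;> ring

/-- a matrix relation gives a relation between points -/
theorem Bases.rel_of_Mn (B : Bases W p) (n : ℕ) {σ : GQ} {a c : ℤ}
    (h : B.Mn n σ * B.Mn n σ - (a : ZMod (p ^ n)) • B.Mn n σ +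
      (c : ZMod (p ^ n)) • (1 : Matrix (Fin 2) (Fin 2) (ZMod (p ^ n))) = 0) {P : Pts W}
    (hP : p ^ n • P = 0) : σ • σ • P - a • (σ • P) + c • P = 0 := by
  obtain ⟨v, hv⟩ := (B.E n).surjective ⟨P, hP⟩
  have h1 : (B.Mn n σ).mulVec ((B.Mn n σ).mulVec v) - a • (B.Mn n σ).mulVec v + c • v = 0 := by
    have h2 := congrArg (fun M => M.mulVec v) h
    simp only [Matrix.add_mulVec, Matrix.sub_mulVec, Matrix.smul_mulVec, Matrix.one_mulVec,
      Matrix.zero_mulVec, Int.cast_smul_eq_zsmul] at h2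
    rw [Matrix.mulVec_mulVec]
    exact h2
  have h2 := congrArg (fun w => ((B.E n w : torG W (p ^ n)) : Pts W)) h1
  simp only [map_add, map_sub, map_zsmul, _root_.map_zero] at h2
  have h3 : ((B.E n ((B.Mn n σ).mulVec ((B.Mn n σ).mulVec v)) -
      a • B.E n ((B.Mn n σ).mulVec v) + c • B.E n v : torG W (p ^ n)) : Pts W) =
      (B.E n ((B.Mn n σ).mulVec ((B.Mn n σ).mulVec v)) : Pts W) -
      a • (B.E n ((B.Mn n σ).mulVec v) : Pts W) + c • (B.E n v : Pts W) := rfl
  rw [h3, B.Mn_mulVec, B.Mn_mulVec, hv] at h2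
  exact h2

/-- the relation on points from the trace and the determinant -/
theorem Bases.rel_of_T (B : Bases W p) (n : ℕ) {σ : GQ} {a c : ℤ}
    (ha : PadicInt.toZModPow n (B.T σ).trace = (a : ZMod (p ^ n)))
    (hc : PadicInt.toZModPow n (B.T σ).det = (c : ZMod (p ^ n))) {P : Pts W}
    (hP : p ^ n • P = 0) : σ • σ • P - a • (σ • P) + c • P = 0 := by
  refine B.rel_of_Mn n ?_ hP
  have h1 := cayley (B.Mn n σ)
  have h2 : (B.Mn n σ).trace = (a : ZMod (p ^ n)) := by
    rw [← ha, ← B.T_spec]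
    exact (AddMonoidHom.map_trace (PadicInt.toZModPow (p := p) n).toAddMonoidHom _).symm
  have h3 : (B.Mn n σ).det = (c : ZMod (p ^ n)) := by
    rw [← hc, ← B.T_spec]
    exact ((PadicInt.toZModPow (p := p) n).map_det _).symm
  rwa [h2, h3] at h1

/-- **the trace on inertia at bad primes** -/
theorem trace_inertia_bad (hp2 : p ≠ 2) (B : Bases W p) (hΔ : W.Δ ≠ 0)
    (hss : W.IsSemistableModel) (hirr : W.ModRepIsIrreducible p) {q : ℕ} (hq : q.Prime)
    (hqp : q ≠ p) (hW : ¬ W.IsGoodPrimeFor q) {A : ValuationSubring Qbar}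
    (hA : A.LiesOverPrime q) {σ : GQ} (hσ : σ ∈ A.inertiaSubgroupIn ℚ) :
    (B.T σ).trace = 2 ∧ (B.T σ).det = 1 := by
  rw [IsGoodPrimeFor, not_not] at hW
  have hdet : (B.T σ).det = 1 := by
    rw [(trace_det B hΔ hirr σ).2, cycP_inertia p hq hA hqp hσ]
  refine ⟨?_, hdet⟩
  refine PadicInt.ext_of_toZModPow.mp fun j => ?_
  obtain ⟨P, hP, hP', hP''⟩ := exists_fixed_of_mult (lam := p) hq hA hΔ hW (hss q hq hW)
        hqp hp2 j
  obtain ⟨a, ha⟩ := ZMod.intCast_surjective (PadicInt.toZModPow (2 * j + 1) (B.T σ).trace)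
  have h1 := B.rel_of_T (2 * j + 1) (σ := σ) (a := a) (c := 1) ha.symm (by
    rw [hdet, map_one, Int.cast_one]) hP
  rw [hP'' σ hσ, hP'' σ hσ, one_zsmul] at h1
  have h2 : (2 - a) • P = 0 := by
    rw [sub_zsmul, two_zsmul, ← h1]
    abel
  have h3 := dvd_of_zsmul hp.out hP hP' h2
  have h4 : PadicInt.toZModPow j (B.T σ).trace = (a : ZMod (p ^ j)) := by
    have h5 := PadicInt.cast_toZModPow j (2 * j + 1) (by omega) (B.T σ).trace
    rw [← h5, ← ha]
    exact ZMod.cast_intCast (pow_dvd_pow p (by omega)) a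
  rw [h4, map_ofNat]
  rw [← ZMod.intCast_zmod_eq_zero_iff_dvd] at h3
  push_cast at h3
  rw [sub_eq_zero] at h3
  exact h3.symm

/-- **trace and determinant on inertia away from `p`** -/
theorem trace_inertia (hp2 : p ≠ 2) (B : Bases W p) (hΔ : W.Δ ≠ 0)
    (hss : W.IsSemistableModel) (hirr : W.ModRepIsIrreducible p) {q : ℕ} (hq : q.Prime)
    (hqp : q ≠ p) {A : ValuationSubring Qbar}
    (hA : A.LiesOverPrime q) {σ : GQ} (hσ : σ ∈ A.inertiaSubgroupIn ℚ) :
    (B.T σ).trace = 2 ∧ (B.T σ).det = 1 := by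
  by_cases hW : W.IsGoodPrimeFor q
  · rw [T_inertia B hq hqp hW hA hσ]
    simp
  · exact trace_inertia_bad hp2 B hΔ hss hirr hq hqp hW hA hσ

end Fermat.Agent.RT.Tate
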