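import Fermat.Agent.RT.Ord2
import Fermat.Agent.RT.Tate3
import Fermat.Agent.FU.NotAll

/-!
# Multiplicative reduction at `p`: the node and a `p`-torsion point outside the kernel of reduction
-/

set_option autoImplicit false
set_option linter.unusedSectionVars false
set_option linter.style.haveILetI false
set_option linter.unusedVariables false

noncomputable section

namespace Fermat.Agent.RT.Tate

open Fermat.Agent.ECRed OrdFn IsLocalRing Fermat.Agent.S58X Fermat.Agent.CondLev Polynomial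
  Fermat.Agent.ECFrob Fermat.Agent.ECRed.Frey
open WeierstrassCurve WeierstrassCurve.Affine WeierstrassCurve.Affine.Point

local notation "Qbar" => AlgebraicClosure ℚ
local notation "GQ" => Qbar ≃ₐ[ℚ] Qbar

variable {W : WeierstrassCurve ℤ} {p : ℕ} {A : ValuationSubring Qbar}

/-- the Kummer line of the curve, translated by `r` -/
def kl (W : WeierstrassCurve ℤ) (r : ℚ) : KummerLine (Pts W) Qbar :=
  (KummerLine.ofCurve ((W.map (Int.castRingHom ℚ))⁄Qbar)).translate (algebraMap ℚ Qbar r)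

/-- **the node** -/
theorem exists_node (hq : p.Prime) (hA : A.LiesOverPrime p) (hΔ : W.Δ ≠ 0)
    (hqΔ : (p : ℤ) ∣ W.Δ) (hqc : ¬ (p : ℤ) ∣ W.c₄) :
    ∃ (r : ℚ) (m : ℝ), (ordFnAt A hq hA).Ge 0 (algebraMap ℚ Qbar r) ∧
      (kl W r).MultAt (ordFnAt A hq hA) m := by
  classical
  set v := ordFnAt A hq hA with hv
  have hc4 : W.c₄ ≠ 0 := fun h => hqc (h ▸ dvd_zero _)
  let r : ℚ := (18 * (W.b₆ : ℚ) - W.b₂ * W.b₄) / (W.c₄ : ℚ)
  let κ₀ := KummerLine.ofCurve ((W.map (Int.castRingHom ℚ))⁄Qbar)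
  have hb2 : κ₀.b₂ = ((W.b₂ : ℤ) : Qbar) := by
    change (WQ W).b₂ = _
    simp [WQ]
  have hb4 : κ₀.b₄ = ((W.b₄ : ℤ) : Qbar) := by
    change (WQ W).b₄ = _
    simp [WQ]
  have hb6 : κ₀.b₆ = ((W.b₆ : ℤ) : Qbar) := by
    change (WQ W).b₆ = _
    simp [WQ]
  have hb8 : κ₀.b₈ = ((W.b₈ : ℤ) : Qbar) := by
    change (WQ W).b₈ = _
    simp [WQ]
  have hc : κ₀.b₂ ^ 2 - 24 * κ₀.b₄ = ((W.c₄ : ℤ) : Qbar) := by
    rw [hb2, hb4, WeierstrassCurve.c₄]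
    push_cast
    ring
  have hdisc : κ₀.disc = ((W.Δ : ℤ) : Qbar) := by
    rw [KummerLine.disc, hb2, hb4, hb6, hb8, WeierstrassCurve.Δ]
    push_cast
    ring
  have hnode : nodeX κ₀ = algebraMap ℚ Qbar r := by
    rw [nodeX, hc, hb2, hb4, hb6]
    simp only [r, map_div₀, map_sub, map_mul, map_ofNat, map_intCast]
  have hvc : v.Eq 0 (κ₀.b₂ ^ 2 - 24 * κ₀.b₄) := by
    rw [hc]
    exact eq_zero_of_not_dvd hq hA hqc
  have hΔ0 : ((W.Δ : ℤ) : Qbar) ≠ 0 := by exact_mod_cast hΔ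
  have hvΔ : v.Gt 0 ((W.Δ : ℤ) : Qbar) := by
    obtain ⟨z, hz⟩ := hqΔ
    rw [hz, Int.cast_mul]
    have h1 : v.Gt 0 (((p : ℤ) : ℤ) : Qbar) := by
      rw [Int.cast_natCast]
      exact (ordFnAt_gt A hq hA _).2 hA
    have h2 : v.Ge 0 ((z : ℤ) : Qbar) := OrdFn.ge_intCast _
    simpa using h1.mul_ge h2
  obtain ⟨m, hm, hm'⟩ : ∃ m : ℝ, 0 < m ∧ v.Eq (2 * m) κ₀.disc := by
    refine ⟨v.ord ((W.Δ : ℤ) : Qbar) / 2, ?_, ?_⟩
    · rw [OrdFn.gt_iff hΔ0] at hvΔ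
      linarith
    · rw [hdisc]
      exact ⟨hΔ0, by ring⟩
  have hmult : (κ₀.translate (nodeX κ₀)).MultAt v m :=
    multAt_node (integralK (W := W) hq hA) hm hvc hm'
  have hr : v.Ge 0 (algebraMap ℚ Qbar r) := by
    rw [← hnode, nodeX]
    have h1 : v.Ge 0 (18 * κ₀.b₆ - κ₀.b₂ * κ₀.b₄) := by
      rw [hb2, hb4, hb6]
      have e : (18 * ((W.b₆ : ℤ) : Qbar) - ((W.b₂ : ℤ) : Qbar) * ((W.b₄ : ℤ) : Qbar)) =
          ((18 * W.b₆ - W.b₂ * W.b₄ : ℤ) : Qbar) := by push_cast; ring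
      rw [e]
      exact OrdFn.ge_intCast _
    have h2 := h1.mul hvc.inv.ge
    rw [div_eq_mul_inv]
    simpa using h2
  refine ⟨r, m, hr, ?_⟩
  rw [hnode] at hmult
  exact hmult

theorem two_unit' (hq : p.Prime) (hp2 : p ≠ 2) (hA : A.LiesOverPrime p) :
    (ordFnAt A hq hA).Eq 0 (2 : Qbar) := by
  have := eq_zero_of_not_dvd hq hA (n := 2) (by
    intro h
    have h1 : p ∣ 2 := by exact_mod_cast h
    exact hp2 ((Nat.prime_dvd_prime_iff_eq hq Nat.prime_two).mp h1))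
  exact_mod_cast this

/-- the nonsingular point of order two -/
theorem exists_root {K : Type*} [Field K] [IsAlgClosed K] {v : OrdFn K} (h2 : v.Eq 0 (2 : K))
    {b₂ b₄ b₆ : K} (hb2 : v.Eq 0 b₂) (hb4 : v.Gt 0 b₄) (hb6 : v.Gt 0 b₆) :
    ∃ e : K, v.Eq 0 e ∧ 4 * e ^ 3 + b₂ * e ^ 2 + 2 * b₄ * e + b₆ = 0 ∧
      v.Eq 0 (12 * e ^ 2 + 2 * b₂ * e + 2 * b₄) := by
  classical
  have h4 : v.Eq 0 (4 : K) := by
    have := h2.mul h2
    rw [zero_add] at this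
    have e : (2 : K) * 2 = 4 := by norm_num
    rwa [e] at this
  set g : K[X] := C 4 * X ^ 3 + C b₂ * X ^ 2 + C (2 * b₄) * X + C b₆ with hg
  have hdeg : g.natDegree = 3 := natDegree_cubic h4.ne
  have hlc : g.leadingCoeff = 4 := leadingCoeff_cubic h4.ne
  have hev : ∀ x, g.eval x = 4 * x ^ 3 + b₂ * x ^ 2 + 2 * b₄ * x + b₆ := by
    intro x
    simp only [hg, eval_add, eval_mul, eval_C, eval_pow, eval_X]
  have hsplit := (IsAlgClosed.splits g).eq_prod_roots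
  have hev2 : ∀ x, g.eval x = 4 * (g.roots.map (fun a => x - a)).prod := by
    intro x
    conv_lhs => rw [hsplit]
    rw [eval_mul, eval_C, hlc, eval_multiset_prod, Multiset.map_map]
    congr 2
    apply Multiset.map_congr rfl
    intro a _
    simp
  set x₀ : K := -b₂ / 4 with hx₀
  have hx₀u : v.Eq 0 x₀ := by
    have := hb2.neg.mul h4.inv
    rw [hx₀, div_eq_mul_inv]
    simpa using this
  have hb : b₂ = -(4 * x₀) := by
    rw [hx₀, mul_div_cancel₀ _ h4.ne, neg_neg]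
  have hsm : v.Gt 0 (g.eval x₀) := by
    rw [hev]
    have e : 4 * x₀ ^ 3 + b₂ * x₀ ^ 2 + 2 * b₄ * x₀ + b₆ = 2 * (b₄ * x₀) + b₆ := by
      rw [hb]; ring
    rw [e]
    refine Gt.add ((ge_ofNat 2).zero_mul_gt ?_) hb6
    have := hb4.mul_ge hx₀u.ge
    rwa [zero_add] at this
  obtain ⟨e, he, he'⟩ : ∃ e ∈ g.roots, v.Gt 0 (x₀ - e) := by
    by_contra hcon
    push Not at hcon
    have hne : ∀ b ∈ g.roots.map (fun a => x₀ - a), b ≠ 0 := by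
      intro b hb'
      obtain ⟨a, ha, rfl⟩ := Multiset.mem_map.mp hb'
      exact (not_gt_iff.mp (hcon a ha)).1
    obtain ⟨h1, h3⟩ := FU.ord_multiset_prod (v := v) _ hne
    have h5 : v.ord (g.roots.map (fun a => x₀ - a)).prod ≤ 0 := by
      rw [h3]
      apply FU.multiset_sum_nonpos
      intro b hb'
      obtain ⟨c, hc, rfl⟩ := Multiset.mem_map.mp hb'
      obtain ⟨a, ha, rfl⟩ := Multiset.mem_map.mp hc
      exact (not_gt_iff.mp (hcon a ha)).2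
    rw [hev2, gt_iff (mul_ne_zero h4.ne h1), ord_mul h4.ne h1, h4.2] at hsm
    linarith
  have hroot : 4 * e ^ 3 + b₂ * e ^ 2 + 2 * b₄ * e + b₆ = 0 := by
    rw [← hev]
    have hg0 : g ≠ 0 := by
      intro h0
      rw [h0, natDegree_zero] at hdeg
      omega
    exact (mem_roots hg0).mp he
  have heu : v.Eq 0 e := by
    have := hx₀u.sub_gt he'
    rwa [sub_sub_cancel] at this
  refine ⟨e, heu, hroot, ?_⟩
  have e1 : 12 * e ^ 2 + 2 * b₂ * e + 2 * b₄ = 4 * e ^ 2 + (8 * (e * (e - x₀)) + 2 * b₄) := by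
    rw [hb]; ring
  rw [e1]
  have e2 : v.Eq 0 (4 * e ^ 2) := by
    have := h4.mul heu.pow_two
    simpa using this
  refine e2.add_gt (Gt.add ((ge_ofNat 8).zero_mul_gt ?_) ((ge_ofNat 2).zero_mul_gt hb4))
  have h5 : v.Gt 0 (e - x₀) := by
    have := he'.neg
    rwa [neg_sub] at this
  exact heu.ge.zero_mul_gt h5

/-- **a `p`-torsion point outside the kernel of reduction** -/
theorem exists_not_E1 (hq : p.Prime) (hp2 : p ≠ 2) (hA : A.LiesOverPrime p) (hΔ : W.Δ ≠ 0)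
    {r : ℚ} {m : ℝ} (hr : (ordFnAt A hq hA).Ge 0 (algebraMap ℚ Qbar r))
    (hm : (kl W r).MultAt (ordFnAt A hq hA) m) :
    ∃ Q : Pts W, Q ≠ 0 ∧ p • Q = 0 ∧ ¬ (kl W r).InE1 (ordFnAt A hq hA) Q := by
  classical
  set v := ordFnAt A hq hA with hv
  have h2 := two_unit' hq hp2 hA
  have hpos := hm.pos
  have h4 : v.Gt 0 (kl W r).b₄ := hm.b₄.gt hpos
  have h6 : v.Gt 0 (kl W r).b₆ := hm.b₆.gt (by linarith)
  have h8 : v.Gt 0 (kl W r).b₈ := hm.b₈.gt (by linarith)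
  obtain ⟨e, heu, hroot, hder⟩ := exists_root h2 hm.b₂ h4 h6
  set E := (W.map (Int.castRingHom ℚ))⁄Qbar with hE
  have hc := intCoeff (W := W) hq hA
  set R : Qbar := algebraMap ℚ Qbar r with hR
  have eb2 : (kl W r).b₂ = E.b₂ + 12 * R := rfl
  have eb4 : (kl W r).b₄ = E.b₄ + R * E.b₂ + 6 * R ^ 2 := rfl
  have eb6 : (kl W r).b₆ = E.b₆ + 2 * R * E.b₄ + R ^ 2 * E.b₂ + 4 * R ^ 3 := rfl
  have eb8 : (kl W r).b₈ = E.b₈ + 3 * R * E.b₆ + 3 * R ^ 2 * E.b₄ + R ^ 3 * E.b₂ + 3 * R ^ 4 := rfl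
  rw [eb2, eb4, eb6] at hroot
  rw [eb2, eb4] at hder
  have h2ne : (2 : Qbar) ≠ 0 := h2.ne
  suffices key : ∃ Q : (E).Point, Q ≠ 0 ∧ p • Q = 0 ∧
      ¬ (KummerLine.ofCurve E).InE1 (ordFnAt A hq hA) Q by
    obtain ⟨Q, hQ0, hQ, hQE⟩ := key
    refine ⟨Q, hQ0, hQ, fun h => hQE ?_⟩
    exact (KummerLine.inE1_translate hr).mp h
  refine FU.not_all A hq (hq.odd_of_ne_two hp2) hA
    (W.map (Int.castRingHom ℚ)) hc (ΔQ_ne hΔ)
    ⟨e + R, -(E.a₁ * (e + R) + E.a₃) / 2, heu.ge.add hr, ?_, ?_, ?_, ?_⟩ (r := R) hr ?_ ?_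
  · have h3 : v.Ge 0 (-(E.a₁ * (e + R) + E.a₃)) :=
      ((hc.a₁.zero_mul (heu.ge.add hr)).add hc.a₃).neg
    have := h3.mul h2.inv.ge
    rw [div_eq_mul_inv]
    simpa using this
  · rw [Affine.equation_iff]
    have hb2' : E.b₂ = E.a₁ ^ 2 + 4 * E.a₂ := rfl
    have hb4' : E.b₄ = 2 * E.a₄ + E.a₁ * E.a₃ := rfl
    have hb6' : E.b₆ = E.a₃ ^ 2 + 4 * E.a₆ := rfl
    rw [hb2', hb4', hb6'] at hroot
    have h4ne : (4 : Qbar) ≠ 0 := by norm_num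
    apply mul_left_cancel₀ h4ne
    have hy : 2 * (-(E.a₁ * (e + R) + E.a₃) / 2) = -(E.a₁ * (e + R) + E.a₃) := by
      field_simp
    set y := -(E.a₁ * (e + R) + E.a₃) / 2 with hyd
    linear_combination (2 * y + (E.a₁ * (e + R) + E.a₃)) * hy - hroot
  · have hy : 2 * (-(E.a₁ * (e + R) + E.a₃) / 2) = -(E.a₁ * (e + R) + E.a₃) := by
      field_simp
    rw [hy]
    ring
  · have hy : 2 * (-(E.a₁ * (e + R) + E.a₃) / 2) = -(E.a₁ * (e + R) + E.a₃) := by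
      field_simp
    set y := -(E.a₁ * (e + R) + E.a₃) / 2 with hyd
    have hb2' : E.b₂ = E.a₁ ^ 2 + 4 * E.a₂ := rfl
    have hb4' : E.b₄ = 2 * E.a₄ + E.a₁ * E.a₃ := rfl
    have e1 : (2 * 2) * (3 * (e + R) ^ 2 + 2 * E.a₂ * (e + R) + E.a₄ - E.a₁ * y) =
        12 * e ^ 2 + 2 * (E.b₂ + 12 * R) * e + 2 * (E.b₄ + R * E.b₂ + 6 * R ^ 2) := by
      rw [hb2', hb4']
      linear_combination (-2 * E.a₁) * hy
    rw [← e1] at hder
    have := hder.of_mul_eq (h2.mul h2)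
    have e0 : (0 : ℝ) - (0 + 0) = 0 := by norm_num
    rw [e0] at this
    exact this
  · rw [FU.eval_Ψ₃]
    change v.Gt 0 (E.b₈ + 3 * R * E.b₆ + 3 * R ^ 2 * E.b₄ + R ^ 3 * E.b₂ + 3 * R ^ 4)
    rw [← eb8]
    exact h8
  · rw [FU.eval_preΨ₄]
    change v.Gt 0 ((E.b₄ + R * E.b₂ + 6 * R ^ 2) *
      (E.b₈ + 3 * R * E.b₆ + 3 * R ^ 2 * E.b₄ + R ^ 3 * E.b₂ + 3 * R ^ 4) -
        (E.b₆ + 2 * R * E.b₄ + R ^ 2 * E.b₂ + 4 * R ^ 3) ^ 2)
    rw [← eb8, ← eb4, ← eb6]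
    refine Gt.sub ?_ ?_
    · have := h4.mul_ge h8.ge
      simpa using this
    · rw [pow_two]
      have := h6.mul_ge h6.ge
      simpa using this

end Fermat.Agent.RT.Tate
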