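import Fermat.Agent.RT.Ord3
import Fermat.Agent.RT.Tate4
import Fermat.Agent.FU.Grp
import Fermat.Agent.ECRed.AtP
import Fermat.Agent.GoodRed.ValRing

/-!
# Multiplicative reduction at `p`: strict ordinarity of the Tate module
-/

set_option autoImplicit false
set_option linter.unusedSectionVars false
set_option linter.style.haveILetI false
set_option linter.unusedVariables false

noncomputable section

namespace Fermat.Agent.RT.Tate

open Fermat.Agent.ECRed OrdFn IsLocalRing Fermat.Agent.S58X Fermat.Agent.CondLev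
  Fermat.Agent.ECFrob Fermat.Agent.ECRed.Frey Fermat.Agent.GalRep Fermat.Agent.TW56
open WeierstrassCurve WeierstrassCurve.Affine WeierstrassCurve.Affine.Point

local notation "Qbar" => AlgebraicClosure ℚ
local notation "GQ" => Qbar ≃ₐ[ℚ] Qbar

variable {W : WeierstrassCurve ℤ} {p : ℕ} [hp : Fact p.Prime]

namespace Bases

variable (B : Bases W p)

/-- the point of level `n` of an element of the Tate module -/
def pt (n : ℕ) (u : Fin 2 → ℤ_[p]) : Pts W := (B.E n fun i => PadicInt.toZModPow n (u i))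

theorem pt_tor (n : ℕ) (u : Fin 2 → ℤ_[p]) : p ^ n • B.pt n u = 0 := (B.E n _).2

theorem pt_add (n : ℕ) (u w : Fin 2 → ℤ_[p]) : B.pt n (u + w) = B.pt n u + B.pt n w := by
  have h : (fun i => PadicInt.toZModPow n ((u + w) i)) =
      (fun i => PadicInt.toZModPow n (u i)) + fun i => PadicInt.toZModPow n (w i) := by
    funext i
    exact map_add _ _ _
  rw [pt, h, map_add]
  rfl

theorem pt_smul (n : ℕ) (c : ℤ_[p]) (a : ℤ) (hc : PadicInt.toZModPow n c = (a : ZMod (p ^ n)))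
    (u : Fin 2 → ℤ_[p]) : B.pt n (c • u) = a • B.pt n u := by
  have h : (fun i => PadicInt.toZModPow n ((c • u) i)) =
      a • fun i => PadicInt.toZModPow n (u i) := by
    funext i
    rw [Pi.smul_apply, smul_eq_mul, map_mul, hc, Pi.smul_apply, zsmul_eq_mul]
  rw [pt, h, map_zsmul]
  rfl

theorem pt_sub_smul (n : ℕ) (c : ℤ_[p]) (a : ℤ) (hc : PadicInt.toZModPow n c = (a : ZMod (p ^ n)))
    (u w : Fin 2 → ℤ_[p]) : B.pt n (w - c • u) = B.pt n w - a • B.pt n u := by
  have h1 : w - c • u = w + (-c) • u := by rw [neg_smul, sub_eq_add_neg]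
  rw [h1, B.pt_add, B.pt_smul n (-c) (-a) (by rw [map_neg, hc]; push_cast; rfl), neg_zsmul,
    sub_eq_add_neg]

theorem pt_T (n : ℕ) (σ : GQ) (u : Fin 2 → ℤ_[p]) :
    B.pt n ((B.T σ).mulVec u) = σ • B.pt n u := by
  have h : (fun i => PadicInt.toZModPow n ((B.T σ).mulVec u i)) =
      (B.Mn n σ).mulVec fun i => PadicInt.toZModPow n (u i) := by
    funext i
    rw [Matrix.mulVec, dotProduct, map_sum, Matrix.mulVec, dotProduct]
    refine Finset.sum_congr rfl fun j _ => ?_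
    rw [map_mul, B.T_apply]
  rw [pt, h, B.Mn_mulVec]
  rfl

theorem pt_succ (n : ℕ) (u : Fin 2 → ℤ_[p]) : p • B.pt (n + 1) u = B.pt n u := by
  rw [pt, B.E_succ, pt]
  congr 2
  funext i
  have := congrArg (fun f : ℤ_[p] →+* ZMod (p ^ n) => f (u i))
    (PadicInt.zmod_cast_comp_toZModPow (p := p) n (n + 1) (Nat.le_succ n))
  exact this

theorem pt_pow (k n : ℕ) (u : Fin 2 → ℤ_[p]) : p ^ k • B.pt (n + k) u = B.pt n u := by
  induction k with
  | zero => rw [pow_zero, one_smul, add_zero]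
  | succ k ih => rw [pow_succ, mul_smul, ← add_assoc, B.pt_succ, ih]

theorem exists_pt {n : ℕ} {Q : Pts W} (hQ : p ^ n • Q = 0) : ∃ u, B.pt n u = Q := by
  obtain ⟨v, hv⟩ := (B.E n).surjective ⟨Q, hQ⟩
  have hsurj : Function.Surjective (PadicInt.toZModPow (p := p) n) := ZMod.ringHom_surjective _
  choose u hu using fun i => hsurj (v i)
  refine ⟨u, ?_⟩
  rw [pt, show (fun i => PadicInt.toZModPow n (u i)) = v from funext hu, hv]

theorem pt_zero_of (n : ℕ) {u : Fin 2 → ℤ_[p]} (h : ∀ i, PadicInt.toZModPow n (u i) = 0) :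
    B.pt n u = 0 := by
  rw [pt, show (fun i => PadicInt.toZModPow n (u i)) = 0 from funext h, _root_.map_zero]
  rfl

end Bases

section Main

variable (B : Bases W p) {A : ValuationSubring Qbar} (hA : A.LiesOverPrime p) (hp2 : p ≠ 2)
  {r : ℚ} {m : ℝ} (hm : (kl W r).MultAt (ordFnAt A hp.out hA) m)

local notation "vA" => ordFnAt A (Fact.out : p.Prime) hA

/-- the kernel of reduction -/
def E1s (r : ℚ) {m : ℝ} (hm : (kl W r).MultAt (ordFnAt A hp.out hA) m) : AddSubgroup (Pts W) :=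
  KummerLine.E1sub hm.integral

theorem mem_E1s {P : Pts W} : P ∈ E1s hA r hm ↔ (kl W r).InE1 (ordFnAt A hp.out hA) P := Iff.rfl

theorem compatV : CompatV (ordFnAt A hp.out hA) A :=
  ⟨ordFnAt_ge A hp.out hA, ordFnAt_gt A hp.out hA⟩

include hp2 in
/-- points of `p`-power order -/
theorem gt_of_not_mem {n : ℕ} {P : Pts W} (hP : p ^ n • P = 0) (hE : P ∉ E1s hA r hm) :
    P ≠ 0 ∧ (ordFnAt A hp.out hA).Gt 0 ((kl W r).N P) := by
  haveI : CharP (ResidueField A) p := FrobDens.charP_residueField A hp.out hA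
  obtain ⟨h1, h2⟩ := KummerLine.not_inE1 hE
  refine ⟨h1, ?_⟩
  by_contra h3
  rw [not_gt_iff] at h3
  exact unit_not_torsion (compatV hA) hm hp.out hp2 hP h1
    ⟨h3.1, le_antisymm h3.2 ((ge_iff h3.1).mp h2)⟩

/-- the action on the Kummer line -/
theorem N_smul' {P : Pts W} (σ : GQ) (hP : P ≠ 0) :
    (kl W r).N (σ • P) = σ ((kl W r).N P) := by
  have hσP : σ • P ≠ 0 := by
    intro h0
    apply hP
    have := congrArg (fun x => σ⁻¹ • x) h0
    simp only [inv_smul_smul] at this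
    rw [this, gal_smul_zero]
  change (KummerLine.ofCurve _).N (σ • P) - algebraMap ℚ Qbar r * (KummerLine.ofCurve _).D (σ • P) =
    σ ((KummerLine.ofCurve _).N P - algebraMap ℚ Qbar r * (KummerLine.ofCurve _).D P)
  rw [(KummerLine.ofCurve _).D_ne _ hσP, (KummerLine.ofCurve _).D_ne _ hP, mul_one, N_smul, map_sub]
  congr 1
  exact (σ.commutes r).symm

theorem smul_ne {P : Pts W} (σ : GQ) (hP : P ≠ 0) : σ • P ≠ 0 := by
  intro h0
  apply hP
  have := congrArg (fun x => σ⁻¹ • x) h0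
  simp only [inv_smul_smul] at this
  rw [this, gal_smul_zero]

theorem smul_mem_E1 {σ : GQ} (hσ : σ ∈ A.decompositionSubgroup ℚ) {P : Pts W}
    (hP : P ∈ E1s hA r hm) : σ • P ∈ E1s hA r hm := by
  by_cases h0 : P = 0
  · rw [h0, gal_smul_zero]
    exact (E1s hA r hm).zero_mem
  · rw [mem_E1s, KummerLine.inE1_iff (smul_ne σ h0), N_smul' σ h0, not_ge_iff]
    rw [mem_E1s, KummerLine.inE1_iff h0, not_ge_iff] at hP
    refine ⟨(_root_.map_ne_zero σ).mpr hP.1, ?_⟩
    rw [ordAt_smul A hp.out hA hσ]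
    exact hP.2

variable {t : Fin 2 → ℤ_[p]} (ht : B.pt 1 t ∉ E1s hA r hm)

include ht in
/-- multiples in the kernel of reduction -/
theorem dvd_of_mem (n : ℕ) : ∀ {c : ℤ}, c • B.pt n t ∈ E1s hA r hm → ((p ^ n : ℕ) : ℤ) ∣ c := by
  induction n with
  | zero => intro c _; simp
  | succ n ih =>
    intro c hc
    have h1 : c • B.pt n t ∈ E1s hA r hm := by
      have e : c • B.pt n t = p • (c • B.pt (n + 1) t) := by
        rw [← B.pt_succ, ← natCast_zsmul, ← natCast_zsmul, smul_smul, smul_smul, mul_comm]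
      rw [e]
      exact (E1s hA r hm).nsmul_mem hc p
    obtain ⟨c', rfl⟩ := ih h1
    have h2 : c' • B.pt 1 t ∈ E1s hA r hm := by
      have h3 : (((p ^ n : ℕ) : ℤ) * c') • B.pt (n + 1) t = c' • B.pt 1 t := by
        rw [mul_comm, mul_smul, natCast_zsmul, add_comm n 1, B.pt_pow]
      rw [← h3]
      exact hc
    have h4 : (p : ℤ) ∣ c' := by
      by_contra hd
      have hco : IsCoprime (p : ℤ) c' := (Nat.prime_iff_prime_int.mp hp.out).coprime_iff_not_dvd.mpr hd
      obtain ⟨a, b, hab⟩ := hco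
      apply ht
      have h5 : B.pt 1 t = b • (c' • B.pt 1 t) := by
        have h6 : (p : ℤ) • B.pt 1 t = 0 := by
          have := B.pt_tor 1 t
          rwa [pow_one, ← natCast_zsmul] at this
        calc B.pt 1 t = (a * p + b * c') • B.pt 1 t := by rw [hab, one_zsmul]
          _ = _ := by rw [add_zsmul, mul_smul, h6, zsmul_zero, _root_.zero_add, mul_smul]
      rw [h5]
      exact (E1s hA r hm).zsmul_mem h2 b
    rw [pow_succ, Nat.cast_mul]
    exact mul_dvd_mul_left _ h4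

include ht hp2 in
theorem tors (n : ℕ) : (kl W r).Tors (ordFnAt A hp.out hA) (p ^ n)
    (AddSubgroup.zmultiples (B.pt n t)) where
  odd := (hp.out.odd_of_ne_two hp2).pow
  tor := by
    intro Q hQ
    obtain ⟨c, rfl⟩ := AddSubgroup.mem_zmultiples_iff.mp hQ
    rw [smul_comm, B.pt_tor, zsmul_zero]
  int := by
    intro Q hQ hQ0
    obtain ⟨c, rfl⟩ := AddSubgroup.mem_zmultiples_iff.mp hQ
    refine (KummerLine.not_inE1 fun h => hQ0 ?_).2
    obtain ⟨d, rfl⟩ := dvd_of_mem B hA hm ht n h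
    rw [mul_comm, mul_smul, natCast_zsmul, B.pt_tor, zsmul_zero]

include ht hp2 in
theorem comp_pos {n : ℕ} {c : ℤ} (hc : ¬ ((p ^ n : ℕ) : ℤ) ∣ c) :
    0 < (kl W r).comp (ordFnAt A hp.out hA) (c • B.pt n t) ∧
      (kl W r).comp (ordFnAt A hp.out hA) (c • B.pt n t) < m := by
  have h1 : c • B.pt n t ∉ E1s hA r hm := fun h => hc (dvd_of_mem B hA hm ht n h)
  have h2 := gt_of_not_mem hA hp2 hm (n := n) (by rw [smul_comm, B.pt_tor, zsmul_zero]) h1
  have h3 := KummerLine.Sub.comp_range hm (tors B hA hp2 hm ht n)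
    (AddSubgroup.zsmul_mem _ (AddSubgroup.mem_zmultiples _) c)
  have h4 := KummerLine.Sub.comp_eq hm (tors B hA hp2 hm ht n) h2.1
    (AddSubgroup.zsmul_mem _ (AddSubgroup.mem_zmultiples _) c)
  refine ⟨?_, h3.2⟩
  have h5 := (gt_iff h4.ne).mp h2.2
  rwa [h4.2] at h5

include ht hp2 in
/-- the index of the component -/
theorem exists_idx {n : ℕ} (hn : n ≠ 0) : ∃ j : ℤ, ¬ (p : ℤ) ∣ j ∧
    ((p ^ n : ℕ) : ℝ) * (kl W r).comp (ordFnAt A hp.out hA) (B.pt n t) = 2 * m * j := by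
  obtain ⟨j, hj⟩ := KummerLine.Sub.comp_torsion hm (tors B hA hp2 hm ht n)
    (AddSubgroup.mem_zmultiples (B.pt n t))
  refine ⟨j, ?_, hj⟩
  rintro ⟨i, rfl⟩
  have hpn : ¬ ((p ^ n : ℕ) : ℤ) ∣ 1 := by
    intro h
    have h1 : p ^ n ∣ 1 := by exact_mod_cast h
    have := Nat.dvd_one.mp h1
    exact hn ((Nat.pow_eq_one.mp this).resolve_left hp.out.ne_one)
  have hpos := comp_pos B hA hp2 hm ht hpn
  rw [one_zsmul] at hpos
  obtain ⟨k, rfl⟩ : ∃ k, n = k + 1 := ⟨n - 1, by omega⟩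
  have hsim := KummerLine.Sub.comp_nsmul hm (tors B hA hp2 hm ht (k + 1))
    (AddSubgroup.mem_zmultiples (B.pt (k + 1) t)) hpos.1 (p ^ k)
  have h1 : p ^ k • B.pt (k + 1) t = B.pt 1 t := by rw [add_comm k 1, B.pt_pow]
  rw [h1] at hsim
  have hp1 : ¬ ((p ^ 1 : ℕ) : ℤ) ∣ 1 := by
    intro h
    have h1 : p ^ 1 ∣ 1 := by exact_mod_cast h
    have := Nat.dvd_one.mp h1
    rw [pow_one] at this
    exact hp.out.ne_one this
  have hpos1 := comp_pos B hA hp2 hm ht hp1
  rw [one_zsmul] at hpos1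
  have hp0 : (p : ℝ) ≠ 0 := by exact_mod_cast hp.out.ne_zero
  have h2 : ((p ^ k : ℕ) : ℝ) * (kl W r).comp (ordFnAt A hp.out hA) (B.pt (k + 1) t) =
      2 * m * i := by
    apply mul_left_cancel₀ hp0
    have e : ((p ^ (k + 1) : ℕ) : ℝ) = p * ((p ^ k : ℕ) : ℝ) := by push_cast; ring
    rw [e] at hj
    rw [← mul_assoc, hj]
    push_cast
    ring
  rw [h2] at hsim
  have hmpos := hm.pos
  rcases hsim with ⟨l, hl⟩ | ⟨l, hl⟩
  · have e : (kl W r).comp (ordFnAt A hp.out hA) (B.pt 1 t) = 2 * m * ((i + l : ℤ) : ℝ) := by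
      push_cast; linarith
    rw [e] at hpos1
    have h3 : (0 : ℝ) < ((i + l : ℤ) : ℝ) := by
      by_contra hle
      push Not at hle
      nlinarith [hpos1.1]
    have h4 : (1 : ℤ) ≤ i + l := by exact_mod_cast h3
    have h5 : (1 : ℝ) ≤ ((i + l : ℤ) : ℝ) := by exact_mod_cast h4
    nlinarith [hpos1.2]
  · have e : (kl W r).comp (ordFnAt A hp.out hA) (B.pt 1 t) = 2 * m * ((l - i : ℤ) : ℝ) := by
      push_cast; linarith
    rw [e] at hpos1
    have h3 : (0 : ℝ) < ((l - i : ℤ) : ℝ) := by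
      by_contra hle
      push Not at hle
      nlinarith [hpos1.1]
    have h4 : (1 : ℤ) ≤ l - i := by exact_mod_cast h3
    have h5 : (1 : ℝ) ≤ ((l - i : ℤ) : ℝ) := by exact_mod_cast h4
    nlinarith [hpos1.2]

/-- similar elements of `(0, m)` are equal -/
theorem eq_of_sim {m s t : ℝ} (hs : 0 < s) (hs' : s < m) (ht : 0 < t) (ht' : t < m)
    (h : Sim (2 * m) s t) : s = t := by
  have hm : 0 < m := hs.trans hs'
  rcases h with ⟨j, hj⟩ | ⟨j, hj⟩
  · have h1 : j = 0 := by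
      by_contra hne
      rcases lt_or_gt_of_ne hne with h2 | h2
      · have h3 : (j : ℝ) ≤ -1 := by exact_mod_cast Int.le_sub_one_of_lt h2
        nlinarith
      · have h3 : (1 : ℝ) ≤ j := by exact_mod_cast h2
        nlinarith
    rw [h1] at hj
    push_cast at hj
    linarith
  · exfalso
    have h2 : (0 : ℝ) < j := by
      by_contra hle
      push Not at hle
      nlinarith
    have h3 : (1 : ℤ) ≤ j := by exact_mod_cast h2
    have h4 : (1 : ℝ) ≤ j := by exact_mod_cast h3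
    nlinarith

include hp2 in
/-- points with the same component are congruent up to sign -/
theorem mem_of_same {n : ℕ} {P Q : Pts W} (hP : p ^ n • P = 0) (hQ : p ^ n • Q = 0)
    {c : ℝ} (hc0 : 0 < c) (hcm : c < m) (hP0 : P ≠ 0) (hQ0 : Q ≠ 0)
    (hPc : (ordFnAt A hp.out hA).Eq c ((kl W r).N P))
    (hQc : (ordFnAt A hp.out hA).Eq c ((kl W r).N Q)) :
    P - Q ∈ E1s hA r hm ∨ P + Q ∈ E1s hA r hm := by
  rcases same_comp hm hc0 hcm hP0 hQ0 hPc hQc with (h | h) | h | h
  · left; rw [h, sub_self]; exact (E1s hA r hm).zero_mem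
  · right; rw [h, neg_add_cancel]; exact (E1s hA r hm).zero_mem
  · right
    by_contra hE
    exact h (gt_of_not_mem hA hp2 hm (n := n) (by rw [nsmul_add, hP, hQ, _root_.add_zero]) hE).2
  · left
    by_contra hE
    exact h (gt_of_not_mem hA hp2 hm (n := n) (by rw [nsmul_sub, hP, hQ, sub_self]) hE).2

end Main

end Fermat.Agent.RT.Tate
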