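import Fermat.Agent.RT.Ord4

/-!
# Multiplicative reduction at `p`: strict ordinarity of the Tate module, end of the proof
-/

set_option autoImplicit false
set_option linter.unusedSectionVars false
set_option linter.style.haveILetI false
set_option linter.unusedVariables false

noncomputable section

namespace Fermat.Agent.RT.Tate

open Fermat.Agent.ECRed OrdFn IsLocalRing Fermat.Agent.S58X Fermat.Agent.CondLev
  Fermat.Agent.ECFrob Fermat.Agent.ECRed.Frey Fermat.Agent.GalRep Fermat.Agent.TW56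
open WeierstrassCurve WeierstrassCurve.Affine WeierstrassCurve.Affine.Point

local notation "Qbar" => AlgebraicClosure ℚ
local notation "GQ" => Qbar ≃ₐ[ℚ] Qbar

variable {W : WeierstrassCurve ℤ} {p : ℕ} [hp : Fact p.Prime]

section Main

variable (B : Bases W p) {A : ValuationSubring Qbar} (hA : A.LiesOverPrime p) (hp2 : p ≠ 2)
  {r : ℚ} {m : ℝ} (hm : (kl W r).MultAt (ordFnAt A hp.out hA) m)

theorem tor_zsmul {n : ℕ} (c : ℤ) {P : Pts W} (hP : p ^ n • P = 0) : p ^ n • (c • P) = 0 := by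
  rw [← natCast_zsmul, smul_smul, mul_comm, mul_smul, natCast_zsmul, hP, zsmul_zero]

theorem nsmul_zsmul' (k : ℕ) (c : ℤ) (P : Pts W) : k • (c • P) = c • (k • P) := by
  rw [← natCast_zsmul, ← natCast_zsmul, smul_smul, smul_smul, mul_comm]

theorem not_pow_dvd_one {n : ℕ} (hn : n ≠ 0) : ¬ ((p ^ n : ℕ) : ℤ) ∣ 1 := by
  intro h
  have h1 : p ^ n ∣ 1 := by exact_mod_cast h
  exact hn ((Nat.pow_eq_one.mp (Nat.dvd_one.mp h1)).resolve_left hp.out.ne_one)

include hp2 in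
/-- the order of the Kummer coordinate of a point outside the kernel of reduction -/
theorem eq_comp {t : Fin 2 → ℤ_[p]} (ht : B.pt 1 t ∉ E1s hA r hm) {n : ℕ} {c : ℤ}
    (hc : ¬ ((p ^ n : ℕ) : ℤ) ∣ c) : c • B.pt n t ≠ 0 ∧
      (ordFnAt A hp.out hA).Eq ((kl W r).comp (ordFnAt A hp.out hA) (c • B.pt n t))
        ((kl W r).N (c • B.pt n t)) := by
  have h1 : c • B.pt n t ∉ E1s hA r hm := fun h => hc (dvd_of_mem B hA hm ht n h)
  have h2 := gt_of_not_mem hA hp2 hm (n := n) (tor_zsmul c (B.pt_tor n t)) h1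
  exact ⟨h2.1, KummerLine.Sub.comp_eq hm (tors B hA hp2 hm ht n) h2.1
    (AddSubgroup.zsmul_mem _ (AddSubgroup.mem_zmultiples _) c)⟩

include hp2 in
/-- two good elements are proportional modulo the kernel of reduction -/
theorem exists_mult {t t' : Fin 2 → ℤ_[p]} (ht : B.pt 1 t ∉ E1s hA r hm)
    (ht' : B.pt 1 t' ∉ E1s hA r hm) (n : ℕ) :
    ∃ w : ℤ, B.pt n t' - w • B.pt n t ∈ E1s hA r hm := by
  rcases Nat.eq_zero_or_pos n with rfl | hn
  · refine ⟨0, ?_⟩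
    have h := B.pt_tor 0 t'
    rw [pow_zero, one_smul] at h
    rw [h, zero_zsmul, sub_zero]
    exact (E1s hA r hm).zero_mem
  have hn0 : n ≠ 0 := hn.ne'
  obtain ⟨j, hj, hjc⟩ := exists_idx B hA hp2 hm ht hn0
  obtain ⟨j', hj', hjc'⟩ := exists_idx B hA hp2 hm ht' hn0
  -- solve `u j ≡ j'`
  obtain ⟨u, l, hul⟩ : ∃ (u : ℕ) (l : ℤ), (u : ℤ) * j = j' + ((p ^ n : ℕ) : ℤ) * l := by
    have hco : IsCoprime ((p ^ n : ℕ) : ℤ) j := by
      push_cast
      exact ((Nat.prime_iff_prime_int.mp hp.out).coprime_iff_not_dvd.mpr hj).pow_left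
    obtain ⟨a, b, hab⟩ := hco
    -- `b j ≡ 1`
    have hpos : (0 : ℤ) < ((p ^ n : ℕ) : ℤ) := by exact_mod_cast pow_pos hp.out.pos n
    set u₀ : ℤ := (b * j') % ((p ^ n : ℕ) : ℤ) with hu₀
    have h0 : 0 ≤ u₀ := Int.emod_nonneg _ hpos.ne'
    obtain ⟨u, hu⟩ := Int.eq_ofNat_of_zero_le h0
    have h1 := Int.emod_add_mul_ediv (b * j') ((p ^ n : ℕ) : ℤ)
    refine ⟨u, -(a * j') - (b * j') / ((p ^ n : ℕ) : ℤ) * j, ?_⟩
    rw [← hu₀, hu] at h1
    linear_combination j * h1 + j' * hab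
  have hpu : ¬ (p : ℤ) ∣ u := by
    intro h
    apply hj'
    have h1 : (p : ℤ) ∣ (u : ℤ) * j := h.mul_right j
    rw [hul] at h1
    have h2 : (p : ℤ) ∣ ((p ^ n : ℕ) : ℤ) * l := by
      refine Dvd.dvd.mul_right ?_ l
      exact_mod_cast dvd_pow_self p hn0
    exact (dvd_add_left h2).mp h1
  have hpnu : ¬ ((p ^ n : ℕ) : ℤ) ∣ (u : ℤ) := fun h => hpu (by
    refine dvd_trans ?_ h
    exact_mod_cast dvd_pow_self p hn0)
  have hone := not_pow_dvd_one (p := p) hn0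
  have c1 := comp_pos B hA hp2 hm ht hone
  have c1' := comp_pos B hA hp2 hm ht' hone
  have cu := comp_pos B hA hp2 hm ht hpnu
  rw [one_zsmul] at c1 c1'
  have hsim := KummerLine.Sub.comp_nsmul hm (tors B hA hp2 hm ht n)
    (AddSubgroup.mem_zmultiples (B.pt n t)) c1.1 u
  rw [← natCast_zsmul] at hsim
  have hpn0 : ((p ^ n : ℕ) : ℝ) ≠ 0 := by exact_mod_cast pow_ne_zero n hp.out.ne_zero
  have e1 : (u : ℝ) * (kl W r).comp (ordFnAt A hp.out hA) (B.pt n t) =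
      (kl W r).comp (ordFnAt A hp.out hA) (B.pt n t') + 2 * m * l := by
    apply mul_left_cancel₀ hpn0
    have h1 : ((u : ℤ) * j : ℤ) = (j' + ((p ^ n : ℕ) : ℤ) * l : ℤ) := hul
    have h2 : (u : ℝ) * (j : ℝ) = (j' : ℝ) + ((p ^ n : ℕ) : ℝ) * (l : ℝ) := by exact_mod_cast h1
    linear_combination (u : ℝ) * hjc - hjc' + (2 * m) * h2
  rw [e1] at hsim
  have hsim' : Sim (2 * m) ((kl W r).comp (ordFnAt A hp.out hA) ((u : ℤ) • B.pt n t))
      ((kl W r).comp (ordFnAt A hp.out hA) (B.pt n t')) :=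
    hsim.trans (Or.inl ⟨l, by ring⟩)
  have heq := eq_of_sim cu.1 cu.2 c1'.1 c1'.2 hsim'
  obtain ⟨hu0, hu1⟩ := eq_comp B hA hp2 hm ht hpnu
  obtain ⟨hu0', hu1'⟩ := eq_comp B hA hp2 hm ht' hone
  rw [one_zsmul] at hu0' hu1'
  rw [heq] at hu1
  rcases mem_of_same hA hp2 hm (n := n) (B.pt_tor n t')
    (tor_zsmul _ (B.pt_tor n t)) c1'.1 c1'.2 hu0' hu0 hu1' hu1 with h | h
  · exact ⟨u, h⟩
  · refine ⟨-u, ?_⟩
    rw [neg_zsmul, sub_neg_eq_add]
    exact h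

include hp2 in
theorem exists_mult_lim {t t' : Fin 2 → ℤ_[p]} (ht : B.pt 1 t ∉ E1s hA r hm)
    (ht' : B.pt 1 t' ∉ E1s hA r hm) :
    ∃ w : ℤ_[p], ∀ n, B.pt n (t' - w • t) ∈ E1s hA r hm := by
  choose w hw using exists_mult B hA hp2 hm ht ht'
  obtain ⟨x, hx⟩ := AnJac.exists_padic_lim p (fun n => ((w n : ℤ) : ZMod (p ^ n))) (fun n => by
    rw [map_intCast, ← sub_eq_zero, ← Int.cast_sub, ZMod.intCast_zmod_eq_zero_iff_dvd]
    refine dvd_of_mem B hA hm ht n ?_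
    have h1 := (E1s hA r hm).nsmul_mem (hw (n + 1)) p
    rw [nsmul_sub, B.pt_succ] at h1
    rw [nsmul_zsmul', B.pt_succ] at h1
    have h3 := (E1s hA r hm).sub_mem (hw n) h1
    rw [sub_sub_sub_cancel_left, ← _root_.sub_smul] at h3
    exact h3)
  refine ⟨x, fun n => ?_⟩
  rw [B.pt_sub_smul n x (w n) (hx n)]
  exact hw n

end Main

end Fermat.Agent.RT.Tate
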