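import Fermat.Agent.RT.Ord5

/-!
# Multiplicative reduction at `p`: the Tate module is strictly ordinary
-/

set_option autoImplicit false
set_option linter.unusedSectionVars false
set_option linter.style.haveILetI false
set_option linter.unusedVariables false

noncomputable section

namespace Fermat.Agent.RT.Tate

open Fermat.Agent.ECRed OrdFn IsLocalRing Fermat.Agent.S58X Fermat.Agent.CondLev
  Fermat.Agent.ECFrob Fermat.Agent.ECRed.Frey Fermat.Agent.GalRep Fermat.Agent.TW56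
open WeierstrassCurve WeierstrassCurve.Affine WeierstrassCurve.Affine.Point

local notation "Qbar" => AlgebraicClosure ℚ
local notation "GQ" => Qbar ≃ₐ[ℚ] Qbar

variable {W : WeierstrassCurve ℤ} {p : ℕ} [hp : Fact p.Prime]

theorem isUnit_iff_toZModPow_one {x : ℤ_[p]} : IsUnit x ↔ PadicInt.toZModPow 1 x ≠ 0 := by
  have h1 : PadicInt.toZModPow 1 x = 0 ↔ x ∈ maximalIdeal ℤ_[p] := by
    rw [← RingHom.mem_ker, PadicInt.ker_toZModPow, pow_one, PadicInt.maximalIdeal_eq_span_p]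
  rw [Ne, h1, mem_maximalIdeal, mem_nonunits_iff, not_not]

section Main

variable (B : Bases W p) {A : ValuationSubring Qbar} (hA : A.LiesOverPrime p) (hp2 : p ≠ 2)
  {r : ℚ} {m : ℝ} (hm : (kl W r).MultAt (ordFnAt A hp.out hA) m)

include hp2 in
/-- **a basis adapted to the kernel of reduction** -/
theorem exists_adapted (hΔ : W.Δ ≠ 0)
    (hr : (ordFnAt A hp.out hA).Ge 0 (algebraMap ℚ Qbar r)) :
    ∃ l t : Fin 2 → ℤ_[p], IsUnit (l 0 * t 1 - l 1 * t 0) ∧ B.pt 1 t ∉ E1s hA r hm ∧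
      ∀ n, B.pt n l ∈ E1s hA r hm := by
  obtain ⟨Q, hQ0, hQ, hQE⟩ := exists_not_E1 hp.out hp2 hA hΔ hr hm
  obtain ⟨t, ht⟩ := B.exists_pt (n := 1) (Q := Q) (by rw [pow_one]; exact hQ)
  have htE : B.pt 1 t ∉ E1s hA r hm := by rw [ht]; exact hQE
  -- the key step
  have key : ∀ e : Fin 2 → ℤ_[p], IsUnit (e 0 * t 1 - e 1 * t 0) →
      ∃ l : Fin 2 → ℤ_[p], IsUnit (l 0 * t 1 - l 1 * t 0) ∧ ∀ n, B.pt n l ∈ E1s hA r hm := by
    intro e he
    obtain ⟨e', he', hE'⟩ : ∃ e' : Fin 2 → ℤ_[p], IsUnit (e' 0 * t 1 - e' 1 * t 0) ∧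
        B.pt 1 e' ∉ E1s hA r hm := by
      by_cases h : B.pt 1 e ∈ E1s hA r hm
      · refine ⟨e + t, ?_, ?_⟩
        · have e1 : (e + t) 0 * t 1 - (e + t) 1 * t 0 = e 0 * t 1 - e 1 * t 0 := by
            simp only [Pi.add_apply]; ring
          rw [e1]; exact he
        · rw [B.pt_add]
          intro h2
          apply htE
          have := (E1s hA r hm).sub_mem h2 h
          rwa [add_sub_cancel_left] at this
      · exact ⟨e, he, h⟩
    obtain ⟨w, hw⟩ := exists_mult_lim B hA hp2 hm htE hE'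
    refine ⟨e' - w • t, ?_, hw⟩
    have e1 : (e' - w • t) 0 * t 1 - (e' - w • t) 1 * t 0 = e' 0 * t 1 - e' 1 * t 0 := by
      simp only [Pi.sub_apply, Pi.smul_apply, smul_eq_mul]; ring
    rw [e1]; exact he'
  -- a unit coordinate
  have hunit : IsUnit (t 0) ∨ IsUnit (t 1) := by
    by_contra hcon
    push Not at hcon
    apply hQ0
    rw [← ht]
    apply B.pt_zero_of
    intro i
    by_contra h0
    fin_cases i
    · exact hcon.1 (isUnit_iff_toZModPow_one.mpr h0)
    · exact hcon.2 (isUnit_iff_toZModPow_one.mpr h0)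
  rcases hunit with h | h
  · obtain ⟨l, hl, hlE⟩ := key ![0, 1] (by
      have e : (![0, 1] : Fin 2 → ℤ_[p]) 0 * t 1 - (![0, 1] : Fin 2 → ℤ_[p]) 1 * t 0 = -t 0 := by
        simp
      rw [e]
      exact h.neg)
    exact ⟨l, t, hl, htE, hlE⟩
  · obtain ⟨l, hl, hlE⟩ := key ![1, 0] (by
      have e : (![1, 0] : Fin 2 → ℤ_[p]) 0 * t 1 - (![1, 0] : Fin 2 → ℤ_[p]) 1 * t 0 = t 1 := by
        simp
      rw [e]
      exact h)
    exact ⟨l, t, hl, htE, hlE⟩

/-- an element whose multiples at all levels are in the kernel of reduction vanishes -/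
theorem eq_zero_of_levels {t : Fin 2 → ℤ_[p]} (ht : B.pt 1 t ∉ E1s hA r hm) {y : ℤ_[p]}
    (h : ∀ n, B.pt n (y • t) ∈ E1s hA r hm) : y = 0 := by
  refine PadicInt.ext_of_toZModPow.mp fun n => ?_
  obtain ⟨a, ha⟩ := ZMod.intCast_surjective (PadicInt.toZModPow n y)
  have h1 := h n
  rw [B.pt_smul n y a ha.symm] at h1
  have h2 := dvd_of_mem B hA hm ht n h1
  rw [← ha, _root_.map_zero, ZMod.intCast_zmod_eq_zero_iff_dvd]
  exact h2

theorem mem_smul_pt {l : Fin 2 → ℤ_[p]} (hl : ∀ n, B.pt n l ∈ E1s hA r hm) (c : ℤ_[p]) (n : ℕ) :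
    B.pt n (c • l) ∈ E1s hA r hm := by
  obtain ⟨a, ha⟩ := ZMod.intCast_surjective (PadicInt.toZModPow n c)
  rw [B.pt_smul n c a ha.symm]
  exact (E1s hA r hm).zsmul_mem (hl n) a

include hp2 in
/-- the decomposition group acts by a sign -/
theorem sign_level {t : Fin 2 → ℤ_[p]} (ht : B.pt 1 t ∉ E1s hA r hm) {σ : GQ}
    (hσ : σ ∈ A.decompositionSubgroup ℚ) (n : ℕ) :
    σ • B.pt n t - B.pt n t ∈ E1s hA r hm ∨ σ • B.pt n t + B.pt n t ∈ E1s hA r hm := by
  rcases Nat.eq_zero_or_pos n with rfl | hn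
  · left
    have h := B.pt_tor 0 t
    rw [pow_zero, one_smul] at h
    rw [h, gal_smul_zero, sub_zero]
    exact (E1s hA r hm).zero_mem
  have hone := not_pow_dvd_one (p := p) hn.ne'
  have c1 := comp_pos B hA hp2 hm ht hone
  obtain ⟨h0, h1⟩ := eq_comp B hA hp2 hm ht hone
  rw [one_zsmul] at c1 h0 h1
  have hσ0 := smul_ne σ h0
  have h2 : (ordFnAt A hp.out hA).Eq ((kl W r).comp (ordFnAt A hp.out hA) (B.pt n t))
      ((kl W r).N (σ • B.pt n t)) := by
    rw [N_smul' σ h0]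
    exact ⟨(_root_.map_ne_zero σ).mpr h1.1, by rw [ordAt_smul A hp.out hA hσ]; exact h1.2⟩
  exact mem_of_same hA hp2 hm (n := n) (by rw [← gal_nsmul, B.pt_tor, gal_smul_zero])
    (B.pt_tor n t) c1.1 c1.2 hσ0 h0 h2 h1

include hp2 in
theorem inertia_level {t : Fin 2 → ℤ_[p]} (ht : B.pt 1 t ∉ E1s hA r hm) {σ : GQ}
    (hσ : σ ∈ A.inertiaSubgroupIn ℚ) : σ • B.pt 1 t - B.pt 1 t ∈ E1s hA r hm := by
  by_contra hcon
  have hdec := FU.inertia_decomp hσ
  have h1 := (sign_level B hA hp2 hm ht hdec 1).resolve_left hcon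
  have hone := not_pow_dvd_one (p := p) one_ne_zero
  have c1 := comp_pos B hA hp2 hm ht hone
  obtain ⟨h0, h2⟩ := eq_comp B hA hp2 hm ht hone
  rw [one_zsmul] at c1 h0 h2
  have hσ0 := smul_ne σ h0
  have h3 : (ordFnAt A hp.out hA).Eq ((kl W r).comp (ordFnAt A hp.out hA) (B.pt 1 t))
      ((kl W r).N (σ • B.pt 1 t)) := by
    rw [N_smul' σ h0]
    exact ⟨(_root_.map_ne_zero σ).mpr h2.1, by rw [ordAt_smul A hp.out hA hdec]; exact h2.2⟩
  have htor : p ^ 1 • (σ • B.pt 1 t - B.pt 1 t) = 0 := by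
    rw [nsmul_sub, B.pt_tor, ← gal_nsmul, B.pt_tor, gal_smul_zero, sub_zero]
  have h4 := gt_of_not_mem hA hp2 hm (n := 1) htor hcon
  refine sign_inertia (κ := kl W r) (r := r) rfl hm (two_unit' hp.out hp2 hA) c1.1 c1.2 h0 h2
    (σ := σ) (fun z hz => ?_) h3 hσ0 ⟨h4.1, h4.2.ge⟩ (fun h => h.not_gt h4.2) h1
  exact (ordFnAt_gt A hp.out hA _).2 (inertia_sub A hσ ((ordFnAt_ge A hp.out hA z).1 hz))

end Main

/-- **strict ordinarity at a multiplicative prime** -/
theorem mord_T (hp2 : p ≠ 2) (B : Bases W p) (hΔ : W.Δ ≠ 0) (hss : W.IsSemistableModel)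
    (hirr : W.ModRepIsIrreducible p) (hW : ¬ W.IsGoodPrimeFor p) : MOrd p B.T := by
  rw [IsGoodPrimeFor, not_not] at hW
  intro A hA
  obtain ⟨r, m, hr, hm⟩ := exists_node hp.out hA hΔ hW (hss p hp.out hW)
  obtain ⟨l, t, hdet, ht, hl⟩ := exists_adapted B hA hp2 hm hΔ hr
  set M : Matrix (Fin 2) (Fin 2) ℤ_[p] := !![l 0, t 0; l 1, t 1] with hM
  have hMdet : IsUnit M.det := by
    rw [hM, Matrix.det_fin_two_of]
    have e : l 0 * t 1 - t 0 * l 1 = l 0 * t 1 - l 1 * t 0 := by ring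
    rw [e]; exact hdet
  have hM1 : M * M⁻¹ = 1 := Matrix.mul_nonsing_inv M hMdet
  have hM2 : M⁻¹ * M = 1 := Matrix.nonsing_inv_mul M hMdet
  have hvec : ∀ v : Fin 2 → ℤ_[p], M.mulVec v = v 0 • l + v 1 • t := by
    intro v
    funext i
    fin_cases i
    · simp [hM, Matrix.mulVec, dotProduct, Fin.sum_univ_two]
      ring
    · simp [hM, Matrix.mulVec, dotProduct, Fin.sum_univ_two]
      ring
  have hdecomp : ∀ u : Fin 2 → ℤ_[p], ∃ x y : ℤ_[p], u = x • l + y • t := by
    intro u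
    refine ⟨(M⁻¹.mulVec u) 0, (M⁻¹.mulVec u) 1, ?_⟩
    rw [← hvec, Matrix.mulVec_mulVec, hM1, Matrix.one_mulVec]
  -- the action of the decomposition group
  have hD : ∀ σ ∈ A.decompositionSubgroup ℚ, ∃ x z' z : ℤ_[p],
      (B.T σ).mulVec l = x • l ∧ (B.T σ).mulVec t = z' • l + z • t ∧ z * z = 1 ∧
      (σ ∈ A.inertiaSubgroupIn ℚ → z = 1) := by
    intro σ hσ
    obtain ⟨x, y, hxy⟩ := hdecomp ((B.T σ).mulVec l)
    obtain ⟨z', z, hz⟩ := hdecomp ((B.T σ).mulVec t)
    have hy : y = 0 := by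
      refine eq_zero_of_levels B hA hm ht fun n => ?_
      have h1 : B.pt n (y • t) = B.pt n ((B.T σ).mulVec l) - B.pt n (x • l) := by
        rw [hxy, B.pt_add, add_sub_cancel_left]
      rw [h1, B.pt_T]
      exact (E1s hA r hm).sub_mem (smul_mem_E1 hA hm hσ (hl n)) (mem_smul_pt B hA hm hl x n)
    have hzl : ∀ n, σ • B.pt n t - B.pt n (z • t) ∈ E1s hA r hm := by
      intro n
      rw [← B.pt_T, hz, B.pt_add, add_sub_cancel_right]
      exact mem_smul_pt B hA hm hl z' n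
    have hzn : ∀ n, PadicInt.toZModPow n z = 1 ∨ PadicInt.toZModPow n z = -1 := by
      intro n
      obtain ⟨a, ha⟩ := ZMod.intCast_surjective (PadicInt.toZModPow n z)
      have h1 := hzl n
      rw [B.pt_smul n z a ha.symm] at h1
      rcases sign_level B hA hp2 hm ht hσ n with h2 | h2
      · left
        have h3 := (E1s hA r hm).sub_mem h1 h2
        have e : σ • B.pt n t - a • B.pt n t - (σ • B.pt n t - B.pt n t) =
            (1 - a) • B.pt n t := by
          rw [_root_.sub_smul, one_zsmul]; abel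
        rw [e] at h3
        have h4 := dvd_of_mem B hA hm ht n h3
        rw [← ZMod.intCast_zmod_eq_zero_iff_dvd] at h4
        push_cast at h4
        rw [← ha]
        exact (sub_eq_zero.mp h4).symm
      · right
        have h3 := (E1s hA r hm).sub_mem h1 h2
        have e : σ • B.pt n t - a • B.pt n t - (σ • B.pt n t + B.pt n t) =
            (-1 - a) • B.pt n t := by
          rw [_root_.sub_smul, neg_one_zsmul]; abel
        rw [e] at h3
        have h4 := dvd_of_mem B hA hm ht n h3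
        rw [← ZMod.intCast_zmod_eq_zero_iff_dvd] at h4
        push_cast at h4
        rw [← ha]
        exact (sub_eq_zero.mp h4).symm
    have hzz : z * z = 1 := by
      refine PadicInt.ext_of_toZModPow.mp fun n => ?_
      rw [map_mul, map_one]
      rcases hzn n with h | h <;> rw [h] <;> ring
    refine ⟨x, z', z, ?_, hz, hzz, fun hI => ?_⟩
    · rw [hxy, hy, _root_.zero_smul, _root_.add_zero]
    · have h1 : (z - 1) * (z + 1) = 0 := by linear_combination hzz
      rcases mul_eq_zero.mp h1 with h2 | h2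
      · exact sub_eq_zero.mp h2
      · exfalso
        have h3 : z = -1 := by linear_combination h2
        have h4 := hzl 1
        rw [B.pt_smul 1 z (-1) (by rw [h3]; simp)] at h4
        have h5 := inertia_level B hA hp2 hm ht hI
        have h6 := (E1s hA r hm).sub_mem h4 h5
        have e : σ • B.pt 1 t - (-1 : ℤ) • B.pt 1 t - (σ • B.pt 1 t - B.pt 1 t) =
            (2 : ℤ) • B.pt 1 t := by
          rw [neg_one_zsmul, two_zsmul]; abel
        rw [e] at h6
        have h7 := dvd_of_mem B hA hm ht 1 h6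
        rw [pow_one] at h7
        have h8 : p ∣ 2 := by exact_mod_cast h7
        exact hp2 ((Nat.prime_dvd_prime_iff_eq hp.out Nat.prime_two).mp h8)
  -- the matrices
  have hmat : ∀ {σ : GQ} {x z' z : ℤ_[p]}, (B.T σ).mulVec l = x • l →
      (B.T σ).mulVec t = z' • l + z • t → M⁻¹ * B.T σ * M = !![x, z'; 0, z] := by
    intro σ x z' z h1 h2
    have h3 : B.T σ * M = M * !![x, z'; 0, z] := by
      have hl' : M.mulVec ![1, 0] = l := by rw [hvec]; simp
      have ht' : M.mulVec ![0, 1] = t := by rw [hvec]; simp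
      apply Matrix.toLin'.injective
      refine LinearMap.ext fun v => ?_
      rw [Matrix.toLin'_apply, Matrix.toLin'_apply, ← Matrix.mulVec_mulVec, hvec,
        ← Matrix.mulVec_mulVec, hvec, Matrix.mulVec_add, Matrix.mulVec_smul, Matrix.mulVec_smul,
        h1, h2]
      funext i
      simp [Matrix.mulVec, dotProduct, Fin.sum_univ_two]
      ring
    rw [mul_assoc, h3, ← mul_assoc, hM2, one_mul]
  refine ⟨M, M⁻¹, hM1, hM2, ?_, ?_, ?_⟩
  · intro σ hσ
    obtain ⟨x, z', z, h1, h2, h3, h4⟩ := hD σ hσ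
    rw [hmat h1 h2]
    rfl
  · intro σ hσ
    obtain ⟨x, z', z, h1, h2, h3, h4⟩ := hD σ (FU.inertia_decomp hσ)
    rw [hmat h1 h2]
    exact h4 hσ
  · intro σ hσ n a ha
    obtain ⟨x, z', z, h1, h2, h3, h4⟩ := hD σ hσ
    have h5 := hmat h1 h2
    have h6 : (B.T σ).det = x * z := by
      have h7 := congrArg Matrix.det h5
      have h9 : M⁻¹.det * M.det = 1 := by rw [← Matrix.det_mul, hM2, Matrix.det_one]
      have h10 : (!![x, z'; 0, z] : Matrix (Fin 2) (Fin 2) ℤ_[p]).det = x * z := by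
        rw [Matrix.det_fin_two_of]; ring
      rw [Matrix.det_mul, Matrix.det_mul, h10] at h7
      linear_combination h7 - (B.T σ).det * h9
    have h8 := mdet_T B hΔ hirr n σ a ha
    rw [h6] at h8
    rw [h5]
    change x - (a : ℤ_[p]) * z ∈ _
    have e : x - (a : ℤ_[p]) * z = (x * z - a) * z := by linear_combination (-x) * h3
    rw [e]
    exact Ideal.mul_mem_right _ _ h8

end Fermat.Agent.RT.Tate
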