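import Fermat.Agent.RT.PatchLvl
import Fermat.Agent.S57

/-!
# Patching: from Taylor--Wiles levels to a patching level with trivial relation ideal
-/

set_option autoImplicit false
set_option linter.style.haveILetI false

noncomputable section

namespace Fermat.Agent.RT

open IsLocalRing Fermat.Agent.TWPatch Filter

section Lim

variable {R T : Type*} [CommRing R] [CommRing T] [CNL T]

/-- the ultralimit of ring homomorphisms -/
def ulimHom (θ : ℕ → R →+* T) : R →+* T where
  toFun x := ulim UF (fun n => θ n x)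
  map_one' := by
    refine (eq_ulim fun k => Eventually.of_forall fun n => ?_).symm
    rw [map_one, sub_self]; exact zero_mem _
  map_zero' := by
    refine (eq_ulim fun k => Eventually.of_forall fun n => ?_).symm
    rw [map_zero, sub_self]; exact zero_mem _
  map_add' x y := by
    refine (eq_ulim fun k => ?_).symm
    filter_upwards [ulim_spec UF (fun n => θ n x) k, ulim_spec UF (fun n => θ n y) k]
      with n h1 h2
    rw [map_add, add_sub_add_comm]
    exact add_mem h1 h2
  map_mul' x y := by
    refine (eq_ulim fun k => ?_).symm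
    filter_upwards [ulim_spec UF (fun n => θ n x) k, ulim_spec UF (fun n => θ n y) k]
      with n h1 h2
    rw [map_mul]
    set a := ulim UF (fun n => θ n x)
    set b := ulim UF (fun n => θ n y)
    have e : a * b - θ n x * θ n y = (a - θ n x) * b + θ n x * (b - θ n y) := by ring
    rw [e]
    exact add_mem (Ideal.mul_mem_right _ _ h1) (Ideal.mul_mem_left _ _ h2)

theorem ulimHom_spec (θ : ℕ → R →+* T) (x : R) (k : ℕ) :
    ∀ᶠ n in (UF : Filter ℕ), ulimHom θ x - θ n x ∈ maximalIdeal T ^ k :=
  ulim_spec UF (fun n => θ n x) k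

theorem ulimHom_eq_of_forall {θ : ℕ → R →+* T} {x : R} {t : T} (h : ∀ n, θ n x = t) :
    ulimHom θ x = t := by
  refine (eq_ulim fun k => Eventually.of_forall fun n => ?_).symm
  rw [h, sub_self]; exact zero_mem _

theorem ulimHom_ulim [CNL R] {θ : ℕ → R →+* T} (hθ : ∀ n, IsLocalHom (θ n)) {x : ℕ → R} {t : T}
    (h : ∀ n, θ n (x n) = t) : ulimHom θ (ulim UF x) = t := by
  refine (eq_ulim fun k => ?_).symm
  filter_upwards [ulim_spec UF x k] with n hn
  haveI := hθ n
  have h2 := map_pow_mem (θ n) hn
  rw [map_sub, h] at h2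
  rw [← neg_sub]
  exact neg_mem h2

end Lim

section Main

variable {O : Type} [CommRing O] [IsDomain O] [CNL O] {p : ℕ} [Fact p.Prime] {r : ℕ}
  {R₀ : Type} [CommRing R₀] [Algebra O R₀] {M₀ : Type} [AddCommGroup M₀] [Module R₀ M₀]

/-- the module structure through matrices -/
@[reducible] def pm {d : ℕ} (X : MvPowerSeries (Fin r) O →+*
    Matrix (Fin d) (Fin d) (MvPowerSeries (Fin r) O)) :
    Module (MvPowerSeries (Fin r) O) (Fin d → MvPowerSeries (Fin r) O) where
  smul f x := (X f).mulVec x
  one_smul x := by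
    change (X 1).mulVec x = x
    rw [map_one, Matrix.one_mulVec]
  mul_smul f g x := by
    change (X (f * g)).mulVec x = (X f).mulVec ((X g).mulVec x)
    rw [map_mul, Matrix.mulVec_mulVec]
  smul_zero f := by
    change (X f).mulVec 0 = 0
    rw [Matrix.mulVec_zero]
  smul_add f x y := by
    change (X f).mulVec (_ + _) = (X f).mulVec _ + (X f).mulVec _
    rw [Matrix.mulVec_add]
  add_smul f g x := by
    change (X (f + g)).mulVec x = (X f).mulVec x + (X g).mulVec x
    rw [map_add, Matrix.add_mulVec]
  zero_smul x := by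
    change (X 0).mulVec x = 0
    rw [map_zero, Matrix.zero_mulVec]

/-- scalar matrices on vectors -/
theorem scalar_mulVec {S : Type*} [CommRing S] {d : ℕ} (s : S) (x : Fin d → S) :
    (Matrix.scalar (Fin d) s).mulVec x = s • x := by
  ext i
  rw [Matrix.scalar_apply, Matrix.mulVec_diagonal]
  rfl

theorem sum_smul_mem {A N ι : Type*} [CommRing A] [AddCommGroup N] [Module A N] [Fintype ι]
    {I : Ideal A} {a : ι → A} (ha : ∀ i, a i ∈ I) (y : ι → N) :
    ∑ i, a i • y i ∈ I • (⊤ : Submodule A N) :=
  Submodule.sum_mem _ fun i _ => Submodule.smul_mem_smul (ha i) trivial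

theorem map_eq_zero_of_mem {A N M : Type*} [CommRing A] [AddCommGroup N] [Module A N]
    [AddCommGroup M] {I : Ideal A} {π : N →+ M} (h : ∀ a ∈ I, ∀ y : N, π (a • y) = 0) {x : N}
    (hx : x ∈ I • (⊤ : Submodule A N)) : π x = 0 := by
  refine Submodule.smul_induction_on hx (fun a ha y _ => h a ha y) ?_
  intro y z hy hz
  rw [map_add, hy, hz, add_zero]

/-- the data of the limit -/
theorem exists_limit (hp : (p : O) ∈ maximalIdeal O) [Nontrivial M₀] [Module O M₀]
    [IsScalarTower O R₀ M₀] {d : ℕ} (b₀ : Module.Basis (Fin d) O M₀)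
    (L : ∀ n, Lvl O p n r R₀ M₀) :
    ∃ (X : MvPowerSeries (Fin r) O →+* Matrix (Fin d) (Fin d) (MvPowerSeries (Fin r) O))
      (φ : MvPowerSeries (Fin r) O →ₐ[O] MvPowerSeries (Fin r) O)
      (ψ : MvPowerSeries (Fin r) O →ₐ[O] R₀),
      (∀ f, X (φ f) = Matrix.scalar (Fin d) f) ∧ Function.Surjective ψ ∧
      (∀ i, ψ (φ (MvPowerSeries.X i)) = 0) ∧
      ∀ f, (MvPowerSeries.constantCoeff (σ := Fin r) (R := O)).mapMatrix (X f) =
        matHom b₀ (Module.toModuleEnd O (S := R₀) M₀) (ψ f) := by
  classical
  -- nontriviality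
  haveI hR₀ : Nontrivial R₀ := by
    by_contra h
    rw [not_nontrivial_iff_subsingleton] at h
    obtain ⟨m, hm⟩ := exists_ne (0 : M₀)
    exact hm (by rw [← one_smul R₀ m, Subsingleton.elim (1 : R₀) 0, zero_smul])
  have hd : 0 < d := by
    rcases Nat.eq_zero_or_pos d with rfl | h
    · exfalso
      obtain ⟨m, hm⟩ := exists_ne (0 : M₀)
      exact hm (by rw [← b₀.sum_repr m, Finset.univ_eq_empty, Finset.sum_empty])
    · exact h
  let i₀ : Fin d := ⟨0, hd⟩
  -- the level maps to `R₀`
  let θ : ℕ → MvPowerSeries (Fin r) O →+* R₀ := fun n =>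
    ((L n).ρ : (L n).R →+* R₀).comp ((L n).γ : MvPowerSeries (Fin r) O →+* (L n).R)
  have hθ : ∀ n f, θ n f = (L n).ρ ((L n).γ f) := fun n f => rfl
  have hθs : ∀ n, Function.Surjective (θ n) := fun n => (L n).ρ_surj.comp (L n).γ_surj
  haveI : CNL R₀ := CNL.of_surjective (θ 0) (hθs 0)
  have hθl : ∀ n, IsLocalHom (θ n) := fun n => IsLocalHom.of_surjective _ (hθs n)
  -- the diamond presentations
  have hdia : ∀ n, ∃ δ : MvPowerSeries (Fin r) O →+* DRing O p n r, IsLocalHom δ ∧
      (∀ a, δ (MvPowerSeries.C a) = algebraMap O _ a) ∧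
      (∀ j, δ (MvPowerSeries.X j) = MonoidAlgebra.of O _ (dgen j) - 1) ∧
      Function.Surjective δ := fun n => exists_diamond O p hp n r
  choose δ hδl hδC hδX hδs using hdia
  have hker : ∀ k : ℕ, ∃ n₀, ∀ n ≥ n₀, RingHom.ker (δ n) ≤
      maximalIdeal (MvPowerSeries (Fin r) O) ^ k := fun k =>
    ⟨k, fun n hn => ker_diamond_le (hδl n) (hδC n) (hδX n) hp (by omega)⟩
  have haug : ∀ n, (aug O (DG p n r)).toRingHom.comp (δ n) =
      MvPowerSeries.constantCoeff (σ := Fin r) (R := O) := by
    intro n
    haveI := hδl n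
    haveI := aug_isLocalHom (O := O) (G := DG p n r) hp (DG_pow p n r)
    haveI : IsLocalHom ((aug O (DG p n r)).toRingHom.comp (δ n)) := inferInstance
    haveI : IsLocalHom (MvPowerSeries.constantCoeff (σ := Fin r) (R := O)) := by
      constructor
      intro f hf
      rwa [MvPowerSeries.isUnit_iff_constantCoeff]
    apply mv_hom_ext
    · intro a
      rw [RingHom.comp_apply, hδC, MvPowerSeries.constantCoeff_C]
      exact (aug O (DG p n r)).commutes a
    · intro j
      rw [RingHom.comp_apply, hδX, MvPowerSeries.constantCoeff_X]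
      change aug O (DG p n r) (MonoidAlgebra.of O _ (dgen j) - 1) = 0
      rw [map_sub, aug_of, map_one, sub_self]
  -- the matrices
  choose Y hYs hYC hYa t ht using fun n => (L n).exists_matrices hp b₀
  let X := patched δ hδs hker Y
  -- values of the limit
  have hlim : ∀ (g : ℕ → MvPowerSeries (Fin r) O) (f : MvPowerSeries (Fin r) O),
      (∀ n, Y n (g n) = Matrix.scalar (Fin d) (δ n f)) →
        X (ulim UF g) = Matrix.scalar (Fin d) f := by
    intro g f hg
    refine limHom_ulim_eq fun n => ?_
    ext i j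
    rw [lvl_apply, hg n]
    rw [RingEquiv.symm_apply_eq]
    simp only [Matrix.scalar_apply, RingHom.mapMatrix_apply, Matrix.map_apply]
    by_cases hij : i = j
    · subst hij
      rw [Matrix.diagonal_apply_eq, Matrix.diagonal_apply_eq, quotEquiv_mk]
    · rw [Matrix.diagonal_apply_ne _ hij, Matrix.diagonal_apply_ne _ hij, map_zero, map_zero]
  have hXs : HasScalars X := patched_hasScalars δ hδs hker Y fun n s => hYs n (δ n s)
  have hXC : ∀ a : O, X (MvPowerSeries.C a) = Matrix.scalar (Fin d) (MvPowerSeries.C a) :=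
    fun a => patched_eq_scalar δ hδs hker Y fun n => by rw [hYC, hδC]
  let τ : Fin r → MvPowerSeries (Fin r) O := fun i => ulim UF (fun n => t n i)
  have hXτ : ∀ i, X (τ i) = Matrix.scalar (Fin d) (MvPowerSeries.X i) :=
    fun i => hlim _ _ fun n => by rw [(ht n i).1, hδX]
  -- scalars with unit image are units
  have hunit : ∀ (s f : MvPowerSeries (Fin r) O) (g : MvPowerSeries (Fin r) O),
      X f = Matrix.scalar (Fin d) s → X (f * g) = 1 → IsUnit s := by
    intro s f g h1 h2
    rw [map_mul, h1, scalar_mul_apply] at h2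
    have h3 := congrFun (congrFun h2 i₀) i₀
    rw [Matrix.smul_apply, Matrix.one_apply_eq, smul_eq_mul] at h3
    exact IsUnit.of_mul_eq_one _ h3
  have hτm : ∀ i, τ i ∈ maximalIdeal (MvPowerSeries (Fin r) O) := by
    intro i
    by_contra h
    have h1 : IsUnit (τ i) := by
      by_contra h2
      exact h h2
    obtain ⟨g, hg⟩ := h1.exists_right_inv
    have h2 := hunit _ _ g (hXτ i) (by rw [hg, map_one])
    rw [MvPowerSeries.isUnit_iff_constantCoeff, MvPowerSeries.constantCoeff_X] at h2
    exact not_isUnit_zero h2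
  -- the structure map
  haveI hCl : IsLocalHom (MvPowerSeries.C (σ := Fin r) (R := O)) := by
    constructor
    intro a ha
    rwa [MvPowerSeries.isUnit_iff_constantCoeff, MvPowerSeries.constantCoeff_C] at ha
  obtain ⟨Φ, hΦl, hΦC, hΦX⟩ := exists_evalMv (MvPowerSeries.C (σ := Fin r) (R := O)) τ hτm
  have hXΦ : ∀ f, X (Φ f) = Matrix.scalar (Fin d) f := by
    obtain ⟨σ, hσ⟩ := exists_structure X hXs
    haveI hnt : Nontrivial (MvPowerSeries (Fin r) O ⧸ RingHom.ker X) := by
      rw [Ideal.Quotient.nontrivial_iff]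
      intro h
      have h1 : (1 : MvPowerSeries (Fin r) O) ∈ RingHom.ker X := by rw [h]; trivial
      rw [RingHom.mem_ker, map_one] at h1
      have h2 := congrFun (congrFun h1 i₀) i₀
      rw [Matrix.one_apply_eq, Matrix.zero_apply] at h2
      exact one_ne_zero h2
    haveI : CNL (MvPowerSeries (Fin r) O ⧸ RingHom.ker X) :=
      CNL.of_surjective (Ideal.Quotient.mk _) Ideal.Quotient.mk_surjective
    haveI : IsLocalHom (Ideal.Quotient.mk (RingHom.ker X)) :=
      IsLocalHom.of_surjective _ Ideal.Quotient.mk_surjective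
    haveI : IsLocalHom ((Ideal.Quotient.mk (RingHom.ker X)).comp Φ) := inferInstance
    haveI : IsLocalHom σ := by
      constructor
      intro s hs
      obtain ⟨f, hf⟩ := hXs s
      rw [(hσ s f).2 hf] at hs
      obtain ⟨g', hg'⟩ := hs.exists_right_inv
      obtain ⟨g, rfl⟩ := Ideal.Quotient.mk_surjective g'
      refine hunit s f g hf ?_
      rw [← map_mul, ← map_one (Ideal.Quotient.mk (RingHom.ker X)), Ideal.Quotient.eq,
        RingHom.mem_ker, map_sub, sub_eq_zero, map_one] at hg'
      exact hg'
    have key : σ = (Ideal.Quotient.mk (RingHom.ker X)).comp Φ := by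
      apply mv_hom_ext
      · intro a
        rw [RingHom.comp_apply, hΦC]
        exact (hσ _ _).2 (hXC a)
      · intro j
        rw [RingHom.comp_apply, hΦX]
        exact (hσ _ _).2 (hXτ j)
    intro f
    exact (hσ f (Φ f)).1 (by rw [key]; rfl)
  have halg : ∀ a : O, algebraMap O (MvPowerSeries (Fin r) O) a = MvPowerSeries.C a :=
    fun a => rfl
  have hφ : ∀ a : O, Φ (algebraMap O _ a) = algebraMap O _ a := fun a => by
    rw [halg, hΦC]
  have hψ0 : ∀ a : O, ulimHom θ (algebraMap O _ a) = algebraMap O R₀ a := fun a => by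
    refine ulimHom_eq_of_forall fun n => ?_
    rw [hθ, AlgHom.commutes, AlgHom.commutes]
  let φ : MvPowerSeries (Fin r) O →ₐ[O] MvPowerSeries (Fin r) O :=
    { Φ with commutes' := hφ }
  let ψ : MvPowerSeries (Fin r) O →ₐ[O] R₀ :=
    { ulimHom θ with commutes' := hψ0 }
  have hψ : ∀ f, ψ f = ulimHom θ f := fun f => rfl
  refine ⟨X, φ, ψ, hXΦ, ?_, ?_, ?_⟩
  · intro y
    choose f hf using fun n => hθs n y
    exact ⟨ulim UF f, ulimHom_ulim hθl hf⟩
  · intro i
    change ulimHom θ (Φ (MvPowerSeries.X i)) = 0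
    rw [hΦX]
    exact ulimHom_ulim hθl fun n => (ht n i).2
  · intro f
    ext i j
    rw [RingHom.mapMatrix_apply, Matrix.map_apply]
    refine eq_of_forall_sub_mem fun k => ?_
    haveI := finite_quot O k
    -- continuity of the action on `M₀`
    let mk : O →+* O ⧸ (maximalIdeal O ^ k) := Ideal.Quotient.mk _
    have hcont : ∀ x ∈ maximalIdeal R₀ ^ (Nat.card (Matrix (Fin d) (Fin d)
        (O ⧸ (maximalIdeal O ^ k)))), ∀ i j,
        matHom b₀ (Module.toModuleEnd O (S := R₀) M₀) x i j ∈ maximalIdeal O ^ k := by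
      intro x hx i j
      have h1 := map_pow_card_eq_zero ((mk.mapMatrix (m := Fin d)).comp
        (matHom b₀ (Module.toModuleEnd O (S := R₀) M₀))) le_rfl hx
      have h2 := congrFun (congrFun h1 i) j
      rw [RingHom.comp_apply, RingHom.mapMatrix_apply, Matrix.map_apply] at h2
      exact Ideal.Quotient.eq_zero_iff_mem.1 h2
    obtain ⟨n, h1, h2⟩ := ((limHom_isLim UF (ker_eventually δ hker) (lvl δ hδs Y) f k).and
      (ulimHom_spec θ f _)).exists
    have h3 := congrFun (congrFun h1 i) j
    simp only [RingHom.mapMatrix_apply, Matrix.map_apply] at h3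
    rw [lvl_apply] at h3
    obtain ⟨s, hs⟩ := hδs n (Y n f i j)
    rw [← hs, ← quotEquiv_mk (δ n) (hδs n) s, RingEquiv.symm_apply_apply, qmap_mk,
      Ideal.Quotient.eq] at h3
    have h4 : MvPowerSeries.constantCoeff (X f i j - s) ∈ maximalIdeal O ^ k := by
      obtain ⟨u, hu, v, hv, huv⟩ := Submodule.mem_sup.1 h3
      have e : X f i j - s = u + v := huv.symm
      rw [e, map_add]
      refine add_mem ?_ ?_
      · haveI : IsLocalHom (MvPowerSeries.constantCoeff (σ := Fin r) (R := O)) := by
          constructor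
          intro f hf
          rwa [MvPowerSeries.isUnit_iff_constantCoeff]
        exact map_pow_mem _ hu
      · rw [RingHom.mem_ker] at hv
        rw [← haug n, RingHom.comp_apply, hv, map_zero]
        exact zero_mem _
    have h5 : MvPowerSeries.constantCoeff s =
        matHom b₀ (Module.toModuleEnd O (S := R₀) M₀) (θ n f) i j := by
      rw [hθ, ← hYa n f, RingHom.mapMatrix_apply, Matrix.map_apply, ← hs, ← haug n,
        RingHom.comp_apply]
    have h6 := hcont _ h2 i j
    rw [map_sub, Matrix.sub_apply] at h6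
    rw [map_sub, h5] at h4
    have e : MvPowerSeries.constantCoeff (X f i j) -
        matHom b₀ (Module.toModuleEnd O (S := R₀) M₀) (ψ f) i j =
        (MvPowerSeries.constantCoeff (X f i j) -
          matHom b₀ (Module.toModuleEnd O (S := R₀) M₀) (θ n f) i j) -
        (matHom b₀ (Module.toModuleEnd O (S := R₀) M₀) (ulimHom θ f) i j -
          matHom b₀ (Module.toModuleEnd O (S := R₀) M₀) (θ n f) i j) := by
      rw [hψ]; ring
    rw [e]
    exact sub_mem h4 h6

/-- **patching** -/
theorem exists_patchingLevel (hp : (p : O) ∈ maximalIdeal O) [Nontrivial M₀] [Module O M₀]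
    [IsScalarTower O R₀ M₀] [Module.Finite O M₀] [Module.Free O M₀]
    (L : ∀ n, Lvl O p n r R₀ M₀) : Nonempty (Algebra.PatchingLevel O r R₀ M₀ ⊥) := by
  classical
  set d := Module.finrank O M₀ with hd
  let b₀ : Module.Basis (Fin d) O M₀ := Module.finBasis O M₀
  obtain ⟨X, φ, ψ, hX, hψ, hψφ, hXψ⟩ := exists_limit hp b₀ L
  let π : (Fin d → MvPowerSeries (Fin r) O) →+ M₀ :=
    { toFun := fun x => ∑ i, MvPowerSeries.constantCoeff (x i) • b₀ i
      map_zero' := by simp
      map_add' := fun x y => by
        simp only [Pi.add_apply, map_add, add_smul, Finset.sum_add_distrib] }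
  have hπ : ∀ x, π x = ∑ i, MvPowerSeries.constantCoeff (x i) • b₀ i := fun x => rfl
  have hentry : ∀ f i j, MvPowerSeries.constantCoeff (X f i j) =
      b₀.repr (ψ f • b₀ j) i := by
    intro f i j
    have := congrFun (congrFun (hXψ f) i) j
    rw [RingHom.mapMatrix_apply, Matrix.map_apply, matHom_apply] at this
    exact this
  have hπs : ∀ f (x : Fin d → MvPowerSeries (Fin r) O), π ((X f).mulVec x) = ψ f • π x := by
    intro f x
    rw [hπ, hπ, Finset.smul_sum]
    have h1 : ∀ i, MvPowerSeries.constantCoeff ((X f).mulVec x i) • b₀ i =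
        ∑ j, MvPowerSeries.constantCoeff (x j) • (b₀.repr (ψ f • b₀ j) i • b₀ i) := by
      intro i
      rw [Matrix.mulVec, dotProduct, map_sum, Finset.sum_smul]
      refine Finset.sum_congr rfl fun j _ => ?_
      rw [map_mul, hentry, mul_comm, mul_smul]
    rw [Finset.sum_congr rfl fun i _ => h1 i, Finset.sum_comm]
    refine Finset.sum_congr rfl fun j _ => ?_
    rw [← Finset.smul_sum, b₀.sum_repr, smul_comm]
  have hsc : ∀ f (x : Fin d → MvPowerSeries (Fin r) O), (X (φ f)).mulVec x = f • x := by
    intro f x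
    rw [hX, scalar_mulVec]
  refine ⟨{
    N := Fin d → MvPowerSeries (Fin r) O
    instAddCommGroup := inferInstance
    instModule := pm X
    φ := φ
    ψ := ψ
    ψ_surjective := hψ
    ψ_φ_X := hψφ
    π := π
    π_smul := hπs
    π_surjective := ?_
    ker_π := ?_
    d := d
    b := fun i => Pi.single i 1
    b_span := ?_
    b_rel := ?_ }⟩
  · intro m
    refine ⟨fun i => MvPowerSeries.C (b₀.repr m i), ?_⟩
    rw [hπ]
    simp only [MvPowerSeries.constantCoeff_C]
    exact b₀.sum_repr m
  · intro x
    constructor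
    · intro hx
      rw [hπ] at hx
      have h1 : ∀ i, MvPowerSeries.constantCoeff (x i) = 0 := by
        intro i
        have := congrArg (fun m => b₀.repr m i) hx
        simp only [map_sum, map_smul, Finsupp.finsetSum_apply, Finsupp.smul_apply,
          Module.Basis.repr_self, smul_eq_mul, Finsupp.single_apply] at this
        simpa using this
      have h2 := fun i => Patching.mem_span_X_of_constantCoeff_eq_zero r (x i) (h1 i)
      simp only [Ideal.mem_span_range_iff_exists_fun] at h2
      choose c hc using h2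
      have h3 : x = ∑ j, (X (φ (MvPowerSeries.X j))).mulVec (fun i => c i j) := by
        funext i
        rw [Finset.sum_apply]
        simp only [hsc, Pi.smul_apply, smul_eq_mul]
        rw [← hc i]
        exact Finset.sum_congr rfl fun j _ => mul_comm _ _
      rw [h3]
      refine @sum_smul_mem _ _ _ _ _ (pm X) _ _ (fun j => φ (MvPowerSeries.X j)) ?_ _
      intro j
      exact Ideal.subset_span ⟨j, rfl⟩
    · intro hx
      refine @map_eq_zero_of_mem _ _ _ _ _ (pm X) _ _ π ?_ _ hx
      intro a ha y
      change π ((X a).mulVec y) = 0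
      rw [hπs]
      have : ψ a = 0 := by
        have h4 : Ideal.span (Set.range fun i : Fin r => φ (MvPowerSeries.X i)) ≤
            RingHom.ker ψ := by
          rw [Ideal.span_le]
          rintro _ ⟨i, rfl⟩
          exact hψφ i
        exact h4 ha
      rw [this, zero_smul]
  · intro x
    refine ⟨x, ?_⟩
    change x = ∑ i, (X (φ (x i))).mulVec (Pi.single i 1)
    simp only [hsc]
    funext j
    rw [Finset.sum_apply]
    simp [Pi.single_apply]
  · intro c
    change ∑ i, (X (φ (c i))).mulVec (Pi.single i 1) = 0 ↔ _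
    have h1 : ∑ i, (X (φ (c i))).mulVec (Pi.single i 1) = c := by
      simp only [hsc]
      funext j
      rw [Finset.sum_apply]
      simp [Pi.single_apply]
    rw [h1]
    simp only [Ideal.mem_bot]
    exact funext_iff

end Main

end Fermat.Agent.RT
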