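import Mathlib
import Fermat.Prelude.Def_Algebra_PatchingDatum
import Fermat.Agent.TWPatch.Main
import Fermat.Agent.TWPatch.Level
import Fermat.Agent.TWPatch.Group

/-!
# Taylor--Wiles levels: the interface for patching
-/

set_option autoImplicit false
set_option linter.style.haveILetI false

noncomputable section

namespace Fermat.Agent.RT

open IsLocalRing Fermat.Agent.TWPatch

/-- The data at a Taylor--Wiles level `n`: a deformation ring `R` (a quotient of the power series
ring in `r` variables) with a surjection `ρ` to `R₀`, elements `s i` of `R` with `ρ (s i) = 0`, a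
module `M` over `R`, finite free over the group ring `O[(ℤ/p^n)^r]`, the generators of the group
acting as `1 + s i`, and a surjection `π : M → M₀`, semilinear along `ρ`, whose kernel is
contained in the augmentation ideal times `M`. -/
structure Lvl (O : Type) [CommRing O] (p n r : ℕ) (R₀ : Type) [CommRing R₀] [Algebra O R₀]
    (M₀ : Type) [AddCommGroup M₀] [Module R₀ M₀] : Type 1 where
  R : Type
  [commRing : CommRing R]
  [algebra : Algebra O R]
  γ : MvPowerSeries (Fin r) O →ₐ[O] R
  γ_surj : Function.Surjective γ
  ρ : R →ₐ[O] R₀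
  ρ_surj : Function.Surjective ρ
  s : Fin r → R
  ρ_s : ∀ i, ρ (s i) = 0
  M : Type
  [addCommGroup : AddCommGroup M]
  [modR : Module R M]
  [modD : Module (DRing O p n r) M]
  [fin : Module.Finite (DRing O p n r) M]
  [free : Module.Free (DRing O p n r) M]
  smul_alg : ∀ (a : O) (x : M), algebraMap O R a • x = algebraMap O (DRing O p n r) a • x
  smul_s : ∀ (i : Fin r) (x : M),
    (1 + s i) • x = MonoidAlgebra.of O (DG p n r) (dgen i) • x
  π : M →+ M₀
  π_surj : Function.Surjective π
  π_smul : ∀ (a : R) (x : M), π (a • x) = ρ a • π x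
  ker_π : ∀ x : M, π x = 0 →
    x ∈ RingHom.ker (aug O (DG p n r)) • (⊤ : Submodule (DRing O p n r) M)

attribute [instance] Lvl.commRing Lvl.algebra Lvl.addCommGroup Lvl.modR Lvl.modD Lvl.fin Lvl.free

end Fermat.Agent.RT
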