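import Fermat.Agent.RT.PatchDefs

/-!
# Taylor--Wiles levels: matrices
-/

set_option autoImplicit false
set_option linter.style.haveILetI false

noncomputable section

namespace Fermat.Agent.RT

open IsLocalRing Fermat.Agent.TWPatch

namespace Lvl

variable {O : Type} [CommRing O] {p : ℕ} {n r : ℕ}
  {R₀ : Type} [CommRing R₀] [Algebra O R₀] {M₀ : Type} [AddCommGroup M₀] [Module R₀ M₀]
  (L : Lvl O p n r R₀ M₀)

/-- the group ring elements acting through the deformation ring -/
def actSub : Subring (DRing O p n r) where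
  carrier := {a | ∃ y : L.R, (∀ x : L.M, y • x = a • x) ∧
    L.ρ y = algebraMap O R₀ (aug O (DG p n r) a)}
  mul_mem' := by
    rintro a b ⟨y, hy, hy2⟩ ⟨z, hz, hz2⟩
    refine ⟨y * z, fun x => ?_, ?_⟩
    · rw [mul_smul, hz, hy, mul_smul]
    · rw [map_mul, hy2, hz2, map_mul, map_mul]
  one_mem' := ⟨1, fun x => by rw [one_smul, one_smul], by rw [map_one, map_one, map_one]⟩
  add_mem' := by
    rintro a b ⟨y, hy, hy2⟩ ⟨z, hz, hz2⟩
    refine ⟨y + z, fun x => ?_, ?_⟩
    · rw [add_smul, hy, hz, add_smul]
    · rw [map_add, hy2, hz2, map_add, map_add]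
  zero_mem' := ⟨0, fun x => by rw [zero_smul, zero_smul], by rw [map_zero, map_zero, map_zero]⟩
  neg_mem' := by
    rintro a ⟨y, hy, hy2⟩
    refine ⟨-y, fun x => ?_, ?_⟩
    · rw [neg_smul, hy, neg_smul]
    · rw [map_neg, hy2, map_neg, map_neg]

theorem mem_actSub_algebraMap (a : O) : algebraMap O (DRing O p n r) a ∈ L.actSub := by
  refine ⟨algebraMap O L.R a, fun x => L.smul_alg a x, ?_⟩
  rw [AlgHom.commutes, AlgHom.commutes]
  rfl

theorem mem_actSub_dgen (i : Fin r) :
    MonoidAlgebra.of O (DG p n r) (dgen i) ∈ L.actSub := by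
  refine ⟨1 + L.s i, fun x => L.smul_s i x, ?_⟩
  rw [map_add, map_one, L.ρ_s, add_zero, aug_of, map_one]

variable [Fact p.Prime]

/-- the group ring acts through the deformation ring -/
theorem exists_act (a : DRing O p n r) : ∃ y : L.R, (∀ x : L.M, y • x = a • x) ∧
    L.ρ y = algebraMap O R₀ (aug O (DG p n r) a) := by
  have h : a ∈ L.actSub := by
    induction a using MonoidAlgebra.induction_on with
    | of g =>
      rw [DG_eq_prod g, map_prod]
      refine Subring.prod_mem _ fun j _ => ?_
      rw [map_pow]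
      exact Subring.pow_mem _ (L.mem_actSub_dgen j) _
    | add x y hx hy => exact Subring.add_mem _ hx hy
    | smul a x hx =>
      rw [Algebra.smul_def]
      exact Subring.mul_mem _ (L.mem_actSub_algebraMap a) hx
  exact h

theorem smul_comm' (y : L.R) (a : DRing O p n r) (x : L.M) : y • a • x = a • y • x := by
  obtain ⟨z, hz, -⟩ := L.exists_act a
  rw [← hz, ← hz, smul_smul, smul_smul, mul_comm]

/-- the action of the deformation ring -/
def act : L.R →+* Module.End (DRing O p n r) L.M where
  toFun y :=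
    { toFun := fun x => y • x
      map_add' := fun x x' => smul_add _ _ _
      map_smul' := fun a x => L.smul_comm' y a x }
  map_one' := by ext x; exact one_smul _ _
  map_zero' := by ext x; exact zero_smul _ _
  map_mul' y z := by ext x; exact mul_smul _ _ _
  map_add' y z := by ext x; exact add_smul _ _ _

theorem act_apply (y : L.R) (x : L.M) : L.act y x = y • x := rfl

variable [Module O M₀] [IsScalarTower O R₀ M₀]

/-- the reduction map -/
def red : L.M →ₛₗ[(aug O (DG p n r)).toRingHom] M₀ where
  toFun := L.π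
  map_add' := map_add L.π
  map_smul' a x := by
    obtain ⟨y, hy, hy2⟩ := L.exists_act a
    rw [← hy, L.π_smul, hy2, algebraMap_smul]
    rfl

theorem red_apply (x : L.M) : L.red x = L.π x := rfl

/-- coordinates of elements of `I • ⊤` -/
theorem coord_mem {Λ M ι : Type*} [CommRing Λ] [AddCommGroup M] [Module Λ M]
    (b : Module.Basis ι Λ M) (I : Ideal Λ) {x : M} (hx : x ∈ I • (⊤ : Submodule Λ M)) (i : ι) :
    b.repr x i ∈ I := by
  refine Submodule.smul_induction_on hx ?_ ?_
  · intro a ha n _
    rw [map_smul, Finsupp.smul_apply, smul_eq_mul]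
    exact Ideal.mul_mem_right _ _ ha
  · intro x y hx hy
    rw [map_add, Finsupp.add_apply]
    exact add_mem hx hy

/-- the reduction of a basis is a basis -/
theorem exists_basis_red {ι : Type*} [Finite ι] (b : Module.Basis ι (DRing O p n r) L.M) :
    ∃ b' : Module.Basis ι O M₀, ∀ i, b' i = L.π (b i) := by
  classical
  cases nonempty_fintype ι
  have hli : LinearIndependent O (fun i => L.π (b i)) := by
    rw [Fintype.linearIndependent_iff]
    intro g hg i
    have h1 : L.red (∑ i, algebraMap O (DRing O p n r) (g i) • b i) = 0 := by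
      rw [map_sum, ← hg]
      refine Finset.sum_congr rfl fun i _ => ?_
      rw [LinearMap.map_smulₛₗ]
      change (aug O (DG p n r)) (algebraMap O (DRing O p n r) (g i)) • _ = _
      rw [AlgHom.commutes]
      rfl
    have h2 := coord_mem b _ (L.ker_π _ h1) i
    have h3 : b.repr (∑ i, algebraMap O (DRing O p n r) (g i) • b i) i =
        algebraMap O (DRing O p n r) (g i) := by
      rw [map_sum, Finsupp.finsetSum_apply]
      simp [Finsupp.single_apply]
    rw [h3, RingHom.mem_ker, AlgHom.commutes] at h2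
    exact h2
  have hspan : ⊤ ≤ Submodule.span O (Set.range (fun i => L.π (b i))) := by
    intro m _
    obtain ⟨x, rfl⟩ := L.π_surj m
    rw [← b.sum_repr x, map_sum]
    refine Submodule.sum_mem _ fun i _ => ?_
    have : L.π (b.repr x i • b i) = aug O (DG p n r) (b.repr x i) • L.π (b i) :=
      LinearMap.map_smulₛₗ L.red _ _
    rw [this]
    exact Submodule.smul_mem _ _ (Submodule.subset_span ⟨i, rfl⟩)
  exact ⟨Module.Basis.mk hli hspan, fun i => by rw [Module.Basis.mk_apply]⟩

/-- **the matrices at a level** -/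
theorem exists_matrices [IsDomain O] [CNL O] (hp : (p : O) ∈ maximalIdeal O) {d : ℕ}
    (b₀ : Module.Basis (Fin d) O M₀) :
    ∃ X : MvPowerSeries (Fin r) O →+* Matrix (Fin d) (Fin d) (DRing O p n r),
      (∀ a : DRing O p n r, ∃ f, X f = Matrix.scalar (Fin d) a) ∧
      (∀ a : O, X (MvPowerSeries.C a) = Matrix.scalar (Fin d) (algebraMap O _ a)) ∧
      (∀ f, (aug O (DG p n r)).toRingHom.mapMatrix (X f) =
        matHom b₀ (Module.toModuleEnd O (S := R₀) M₀) (L.ρ (L.γ f))) ∧
      ∃ t : Fin r → MvPowerSeries (Fin r) O, ∀ i,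
        X (t i) = Matrix.scalar (Fin d) (MonoidAlgebra.of O _ (dgen i) - 1) ∧
        L.ρ (L.γ (t i)) = 0 := by
  haveI := cnl_DRing O p hp n r
  have hsurj : Function.Surjective (aug O (DG p n r)).toRingHom := fun a =>
    ⟨algebraMap O _ a, (aug O (DG p n r)).commutes a⟩
  have hker : RingHom.ker (aug O (DG p n r)).toRingHom ≤ maximalIdeal (DRing O p n r) :=
    IsLocalRing.le_maximalIdeal (RingHom.ker_ne_top _)
  have hd : Module.finrank (DRing O p n r) L.M = d := by
    obtain ⟨b', -⟩ := L.exists_basis_red (Module.finBasis (DRing O p n r) L.M)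
    have h1 := Module.finrank_eq_card_basis b'
    have h2 := Module.finrank_eq_card_basis b₀
    rw [Fintype.card_fin] at h1 h2
    rw [← h1, h2]
  obtain ⟨b, hb⟩ := exists_basis_lift hd (aug O (DG p n r)).toRingHom hsurj hker b₀ L.red
    L.π_surj (fun x hx => L.ker_π x hx)
  refine ⟨matHom b (L.act.comp (L.γ : MvPowerSeries (Fin r) O →+* L.R)), ?_, ?_, ?_, ?_⟩
  · intro a
    obtain ⟨y, hy, -⟩ := L.exists_act a
    obtain ⟨f, hf⟩ := L.γ_surj y
    refine ⟨f, matHom_scalar _ _ fun x => ?_⟩
    rw [RingHom.comp_apply]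
    change L.act (L.γ f) x = _
    rw [hf, act_apply, hy]
  · intro a
    refine matHom_scalar _ _ fun x => ?_
    rw [RingHom.comp_apply]
    change L.act (L.γ (MvPowerSeries.C a)) x = _
    have : L.γ (MvPowerSeries.C a) = algebraMap O L.R a := L.γ.commutes a
    rw [this, act_apply, L.smul_alg]
  · intro f
    ext i j
    rw [RingHom.mapMatrix_apply, Matrix.map_apply, matHom_apply b₀]
    have h1 : Module.toModuleEnd O (S := R₀) M₀ (L.ρ (L.γ f)) (b₀ j) =
        ∑ i, (aug O (DG p n r)).toRingHom (matHom b (L.act.comp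
          (L.γ : MvPowerSeries (Fin r) O →+* L.R)) f i j) • b₀ i := by
      have h2 : L.red (L.γ f • b j) = L.ρ (L.γ f) • L.red (b j) := L.π_smul _ _
      rw [Module.toModuleEnd_apply, DistribSMul.toLinearMap_apply, ← hb j, ← h2]
      have h3 : L.γ f • b j = (L.act.comp (L.γ : MvPowerSeries (Fin r) O →+* L.R)) f (b j) := rfl
      rw [h3, sum_matHom b, map_sum]
      simp only [LinearMap.map_smulₛₗ, hb]
    rw [h1, map_sum, Finsupp.finsetSum_apply]
    simp only [map_smul, Finsupp.smul_apply, Module.Basis.repr_self, smul_eq_mul,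
      Finsupp.single_apply]
    simp
  · choose t ht using fun i => L.γ_surj (L.s i)
    refine ⟨t, fun i => ⟨matHom_scalar _ _ fun x => ?_, by rw [ht, L.ρ_s]⟩⟩
    rw [RingHom.comp_apply]
    change L.act (L.γ (t i)) x = _
    rw [ht, act_apply, sub_smul, ← L.smul_s, one_smul, add_smul, one_smul, add_sub_cancel_left]

end Lvl

end Fermat.Agent.RT
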