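import Fermat.Agent.RT.Patch

/-!
# Patching: the main conclusion
-/

set_option autoImplicit false
set_option linter.style.haveILetI false

noncomputable section

namespace Fermat.Agent.RT

open IsLocalRing Fermat.Agent.TWPatch

/-- complete discrete valuation rings with finite residue field -/
theorem cnl_of_dvr (O : Type*) [CommRing O] [IsDomain O] [IsDiscreteValuationRing O]
    [IsAdicComplete (maximalIdeal O) O] [Finite (ResidueField O)] : CNL O :=
  ⟨inferInstance, inferInstance, inferInstance, inferInstance⟩

/-- **T2: the patching theorem.** -/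
theorem patching {O : Type} [CommRing O] [IsDomain O] [IsDiscreteValuationRing O]
    [IsAdicComplete (maximalIdeal O) O] [Finite (ResidueField O)] {p : ℕ} [Fact p.Prime]
    (hp : (p : O) ∈ maximalIdeal O) {r : ℕ}
    {R₀ : Type} [CommRing R₀] [Algebra O R₀] {M₀ : Type} [AddCommGroup M₀] [Module R₀ M₀]
    [Nontrivial M₀] [Module O M₀] [IsScalarTower O R₀ M₀] [Module.Finite O M₀] [Module.Free O M₀]
    (L : ∀ n, Lvl O p n r R₀ M₀) :
    Module.Free R₀ M₀ ∧ Module.annihilator R₀ M₀ = ⊥ ∧ Module.Finite O R₀ ∧ Module.Free O R₀ ∧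
      ∃ ψ : MvPowerSeries (Fin r) O →ₐ[O] R₀, Function.Surjective ψ ∧
        ∃ g : Fin r → MvPowerSeries (Fin r) O,
          RingHom.ker ψ = Ideal.span (Set.range g) := by
  haveI := cnl_of_dvr O
  obtain ⟨P⟩ := exists_patchingLevel hp L
  obtain ⟨h1, h2, h3⟩ := Fermat.Agent.S57.result P
  let f : R₀ →ₗ[O] Module.End O M₀ :=
    { toFun := fun x => Module.toModuleEnd O (S := R₀) M₀ x
      map_add' := fun x y => map_add _ _ _
      map_smul' := fun a x => by
        ext m
        change (a • x) • m = a • (x • m)
        rw [smul_assoc] }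
  have hf : Function.Injective f := by
    rw [injective_iff_map_eq_zero]
    intro x hx
    have h4 : x ∈ Module.annihilator R₀ M₀ := by
      rw [Module.mem_annihilator]
      intro m
      exact congrArg (fun g : Module.End O M₀ => g m) hx
    rwa [h2, Ideal.mem_bot] at h4
  refine ⟨h1, h2, Module.Finite.of_injective f hf, ?_, P.ψ, P.ψ_surjective, _, h3⟩
  exact Module.Free.of_equiv (LinearEquiv.ofInjective f hf).symm

end Fermat.Agent.RT
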