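import Fermat.Agent.Mink.Minkowski
import Fermat.Agent.TWGal.Tame
import Fermat.Agent.TWGal.TameInertia
import Fermat.Agent.Frob.Exists
import Fermat.Agent.Frob.Qbar

/-!
# Quadratic extensions of `ℚ` unramified outside `p`
-/

set_option autoImplicit false
set_option maxHeartbeats 400000

noncomputable section

namespace Fermat.Agent.RT

open Fermat.Agent.Frob
open scoped Pointwise

local notation "Qbar" => AlgebraicClosure ℚ
local notation "GQ" => Qbar ≃ₐ[ℚ] Qbar

theorem exists_smul_place_aux {L : Type} [Field L] [Algebra ℚ L] [IsGalois ℚ L] {ℓ : ℕ}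
    (hℓ : ℓ.Prime) {A B : ValuationSubring L}
    (hA : A.LiesOverPrime ℓ) (hB : B.LiesOverPrime ℓ) : ∃ g : L ≃ₐ[ℚ] L, B = g • A := by
  haveI : CharZero L := algebraRat.charZero L
  letI : TopologicalSpace (integralClosure ℤ L) := ⊥
  haveI : DiscreteTopology (integralClosure ℤ L) := ⟨rfl⟩
  haveI : ContinuousSMul (L ≃ₐ[ℚ] L) (integralClosure ℤ L) := continuousSMul_integralClosure
  have hunder : (center A).under ℤ = (center B).under ℤ := by
    rw [center_under _ hℓ hA, center_under _ hℓ hB]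
  obtain ⟨g, hg⟩ := Algebra.IsInvariant.exists_smul_of_under_eq_of_profinite (A := ℤ)
    (G := L ≃ₐ[ℚ] L) (center A) (center B) hunder
  exact ⟨g, eq_smul_of_center_eq A B hℓ hA hB hg⟩

theorem exists_smul_place {ℓ : ℕ} (hℓ : ℓ.Prime) {A B : ValuationSubring Qbar}
    (hA : A.LiesOverPrime ℓ) (hB : B.LiesOverPrime ℓ) : ∃ g : GQ, B = g • A :=
  exists_smul_place_aux hℓ hA hB

theorem level_of_open {N : Subgroup GQ} (hN : IsOpen (N : Set GQ)) :
    ∃ K : IntermediateField ℚ Qbar, FiniteDimensional ℚ K ∧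
      ∀ σ : GQ, (∀ x ∈ K, σ x = x) → σ ∈ N := by
  have h1 := (krullTopology_mem_nhds_one_iff ℚ Qbar (N : Set GQ)).mp
    (hN.mem_nhds N.one_mem)
  obtain ⟨K, hK, hKN⟩ := h1
  exact ⟨K, hK, fun σ hσ => hKN (fun x => hσ x x.2)⟩

/-- A normal subgroup with quotient of exponent two, unramified outside `p`, has index at most
two. -/
theorem index_le_two {p : ℕ} (hp : p.Prime) (hp2 : p ≠ 2) (N : Subgroup GQ) [hNn : N.Normal]
    (hN : IsOpen (N : Set GQ)) (hsq : ∀ x : GQ, x * x ∈ N)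
    (hunr : ∀ q : ℕ, q.Prime → q ≠ p → ∀ A : ValuationSubring Qbar, A.LiesOverPrime q →
      ∀ σ ∈ A.inertiaSubgroupIn ℚ, σ ∈ N) :
    ∃ z : GQ, ∀ x : GQ, x ∈ N ∨ z⁻¹ * x ∈ N := by
  obtain ⟨A₀, hA₀, -⟩ := exists_place_frobenius hp
  obtain ⟨z, hz, hzm⟩ := TWGal.exists_inertia_moving (p := 2) hp hA₀ Nat.prime_two hp2.symm
  obtain ⟨K, hK, hKN⟩ := level_of_open hN
  let m : GQ →* GQ ⧸ N := QuotientGroup.mk' N
  have hm1 : ∀ x, m x = 1 ↔ x ∈ N := fun x => QuotientGroup.eq_one_iff x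
  have hm2 : ∀ x, m x * m x = 1 := fun x => by rw [← map_mul, hm1]; exact hsq x
  have hall2 : ∀ y : GQ ⧸ N, y * y = 1 := by
    intro y
    obtain ⟨x, rfl⟩ := QuotientGroup.mk'_surjective N y
    exact hm2 x
  have hcomm : ∀ x y : GQ ⧸ N, x * y = y * x := by
    intro x y
    have h1 := hall2 (x * y)
    have h2 : x * y = (x * y)⁻¹ := eq_inv_of_mul_eq_one_left h1
    rw [h2, mul_inv_rev, inv_eq_of_mul_eq_one_left (hall2 x), inv_eq_of_mul_eq_one_left (hall2 y)]
  have hI0 : ∀ σ ∈ A₀.inertiaSubgroupIn ℚ, m σ ∈ Subgroup.zpowers (m z) := by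
    intro σ hσ
    exact TWGal.mem_zpowers_inertia (p := 2) hp hA₀ Nat.prime_two hp2.symm
      (m.comp (A₀.inertiaSubgroupIn ℚ).subtype) K
      (fun τ hτ => (hm1 _).mpr (hKN _ hτ))
      (fun τ => ⟨1, by rw [pow_one, pow_two]; exact hm2 _⟩) (σ₀ := ⟨z, hz⟩) hzm ⟨σ, hσ⟩
  have htop : (Subgroup.zpowers (m z)).comap m = ⊤ := by
    apply Mink.eq_top_of_inertia_le
    · have h1 : N ≤ (Subgroup.zpowers (m z)).comap m := fun x hx => by
        rw [Subgroup.mem_comap, (hm1 x).mpr hx]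
        exact Subgroup.one_mem _
      exact Subgroup.isOpen_mono h1 hN
    · intro q hq A hA σ hσ
      rw [Subgroup.mem_comap]
      by_cases hqp : q = p
      · subst hqp
        obtain ⟨g, rfl⟩ := exists_smul_place hq hA hA₀
        have h1 := hI0 _ (Mink.conj_mem_inertia A g σ hσ)
        rw [map_mul, map_mul, hcomm (m g), mul_assoc, ← map_mul, mul_inv_cancel, map_one,
          mul_one] at h1
        exact h1
      · rw [(hm1 σ).mpr (hunr q hq hqp A hA σ hσ)]
        exact Subgroup.one_mem _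
  refine ⟨z, fun x => ?_⟩
  have hx : m x ∈ Subgroup.zpowers (m z) := by
    have : x ∈ (Subgroup.zpowers (m z)).comap m := htop ▸ Subgroup.mem_top x
    exact this
  obtain ⟨n, hn⟩ := Subgroup.mem_zpowers_iff.mp hx
  rcases Int.even_or_odd' n with ⟨k, hk | hk⟩
  · left
    rw [← hm1, ← hn, hk, zpow_mul]
    have : (m z) ^ (2 : ℤ) = 1 := by rw [zpow_two]; exact hm2 z
    rw [this, one_zpow]
  · right
    rw [← hm1, map_mul, map_inv, ← hn, hk, zpow_add, zpow_mul, zpow_one]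
    have : (m z) ^ (2 : ℤ) = 1 := by rw [zpow_two]; exact hm2 z
    rw [this, one_zpow, one_mul, inv_mul_cancel]

end Fermat.Agent.RT
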