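import Fermat.Agent.RT.SelLen

/-!
# Kernels on cotangent spaces
-/

set_option autoImplicit false
set_option maxHeartbeats 400000
set_option linter.unusedSimpArgs false

namespace Fermat.Agent.RT.Sel

open IsDiscreteValuationRing Module

section Gen

variable {O R₁ : Type*} [CommRing O] [CommRing R₁] [Algebra O R₁] (π₁ : R₁ →ₐ[O] O)

/-- the span of classes in the cotangent space -/
def clsSpan (E : Set R₁) : Submodule O (RingHom.ker π₁).Cotangent :=
  Submodule.span O {c | ∃ y : RingHom.ker π₁, (y : R₁) ∈ E ∧ (RingHom.ker π₁).toCotangent y = c}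

theorem smul_cot (r : R₁) (c : (RingHom.ker π₁).Cotangent) : r • c = π₁ r • c := by
  have h1 : r - algebraMap O R₁ (π₁ r) ∈ RingHom.ker π₁ := by
    rw [RingHom.mem_ker, map_sub, AlgHom.commutes, Algebra.algebraMap_self, RingHom.id_apply,
      sub_self]
  have h2 := Ideal.Cotangent.smul_eq_zero_of_mem h1 c
  rw [sub_smul, sub_eq_zero] at h2
  rw [h2]
  exact algebraMap_smul R₁ _ c

theorem cls_mem {E : Set R₁} (hE : ∀ x ∈ E, π₁ x = 0) {y : R₁} (hy : y ∈ Ideal.span E)
    (hy' : y ∈ RingHom.ker π₁) : (RingHom.ker π₁).toCotangent ⟨y, hy'⟩ ∈ clsSpan π₁ E := by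
  have key : ∃ hy' : y ∈ RingHom.ker π₁,
      (RingHom.ker π₁).toCotangent ⟨y, hy'⟩ ∈ clsSpan π₁ E := by
    refine Submodule.span_induction (p := fun y _ => ∃ hy' : y ∈ RingHom.ker π₁,
      (RingHom.ker π₁).toCotangent ⟨y, hy'⟩ ∈ clsSpan π₁ E) ?_ ?_ ?_ ?_ hy
    · intro x hx
      exact ⟨hE x hx, Submodule.subset_span ⟨⟨x, hE x hx⟩, hx, rfl⟩⟩
    · refine ⟨Ideal.zero_mem _, ?_⟩
      have : (⟨0, Ideal.zero_mem _⟩ : RingHom.ker π₁) = 0 := rfl
      rw [this, map_zero]
      exact Submodule.zero_mem _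
    · rintro x y _ _ ⟨hx, hx'⟩ ⟨hy, hy'⟩
      refine ⟨Ideal.add_mem _ hx hy, ?_⟩
      have : (⟨x + y, Ideal.add_mem _ hx hy⟩ : RingHom.ker π₁) = ⟨x, hx⟩ + ⟨y, hy⟩ := rfl
      rw [this, map_add]
      exact Submodule.add_mem _ hx' hy'
    · rintro r x _ ⟨hx, hx'⟩
      refine ⟨Ideal.mul_mem_left _ r hx, ?_⟩
      have : (⟨r • x, Ideal.mul_mem_left _ r hx⟩ : RingHom.ker π₁) = r • ⟨x, hx⟩ := rfl
      rw [this, map_smul, smul_cot]
      exact Submodule.smul_mem _ _ hx'
  exact key.2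

theorem clsSpan_biUnion {ι : Type*} (s : Finset ι) (E : ι → Set R₁) :
    clsSpan π₁ (⋃ i ∈ s, E i) ≤ ⨆ i ∈ s, clsSpan π₁ (E i) := by
  unfold clsSpan
  rw [Submodule.span_le]
  rintro c ⟨y, hy, rfl⟩
  simp only [Set.mem_iUnion] at hy
  obtain ⟨i, hi, hy⟩ := hy
  have h1 : (RingHom.ker π₁).toCotangent y ∈ clsSpan π₁ (E i) := Submodule.subset_span ⟨y, hy, rfl⟩
  exact (le_iSup₂ (f := fun i (_ : i ∈ s) => clsSpan π₁ (E i)) i hi) h1

end Gen

section Two

variable {O R₁ R₀ : Type*} [CommRing O] [CommRing R₁] [CommRing R₀] [Algebra O R₁] [Algebra O R₀]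

theorem length_cot_le (φ : R₁ →ₐ[O] R₀) (hφ : Function.Surjective φ) (π : R₀ →ₐ[O] O) (E : Set R₁)
    (hE : ∀ x ∈ E, φ x = 0) (hker : RingHom.ker φ ≤ Ideal.span E) :
    Module.length O (RingHom.ker (π.comp φ)).Cotangent ≤
      Module.length O (RingHom.ker π).Cotangent + Module.length O (clsSpan (π.comp φ) E) := by
  have hle : RingHom.ker (π.comp φ) ≤ (RingHom.ker π).comap φ := by
    intro x hx
    rw [Ideal.mem_comap, RingHom.mem_ker]
    exact hx
  let g := Ideal.mapCotangent (RingHom.ker (π.comp φ)) (RingHom.ker π) φ hle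
  have hg : Function.Surjective g := by
    intro c
    obtain ⟨⟨y, hy⟩, rfl⟩ := Ideal.toCotangent_surjective _ c
    obtain ⟨x, rfl⟩ := hφ y
    refine ⟨Ideal.toCotangent _ ⟨x, hy⟩, ?_⟩
    rw [Ideal.mapCotangent_toCotangent]
  have hkg : LinearMap.ker g ≤ clsSpan (π.comp φ) E := by
    intro c hc
    obtain ⟨⟨x, hx⟩, rfl⟩ := Ideal.toCotangent_surjective _ c
    rw [LinearMap.mem_ker, Ideal.mapCotangent_toCotangent, Ideal.toCotangent_eq_zero] at hc
    have h1 : RingHom.ker π = (RingHom.ker (π.comp φ)).map φ := by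
      apply le_antisymm
      · intro y hy
        obtain ⟨x, rfl⟩ := hφ y
        exact Ideal.mem_map_of_mem φ hy
      · rw [Ideal.map_le_iff_le_comap]
        exact hle
    have h2 : φ x ∈ ((RingHom.ker (π.comp φ)) ^ 2).map φ := by
      rw [Ideal.map_pow, ← h1]
      exact hc
    obtain ⟨z, hz, hzx⟩ := (Ideal.mem_map_iff_of_surjective φ hφ).mp h2
    have hzx' : φ z = φ x := hzx
    have hz1 : z ∈ RingHom.ker (π.comp φ) := Ideal.pow_le_self two_ne_zero hz
    have h3 : x - z ∈ Ideal.span E := by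
      apply hker
      rw [RingHom.mem_ker, map_sub, hzx', sub_self]
    have h4 := cls_mem (π.comp φ) (E := E) (fun y hy => by
      rw [AlgHom.comp_apply, hE y hy, map_zero]) h3 (Ideal.sub_mem _ hx hz1)
    have h5 : Ideal.toCotangent (RingHom.ker (π.comp φ)) ⟨x, hx⟩ =
        Ideal.toCotangent (RingHom.ker (π.comp φ)) ⟨x - z, Ideal.sub_mem _ hx hz1⟩ := by
      rw [Ideal.toCotangent_eq]
      simpa using hz
    rw [h5]
    exact h4
  have h6 := Module.length_eq_add_of_exact (LinearMap.ker g).subtype g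
    (Submodule.injective_subtype _) hg (LinearMap.exact_subtype_ker_map g)
  rw [h6, add_comm]
  exact add_le_add le_rfl (Module.length_le_of_injective (Submodule.inclusion hkg)
    (Submodule.inclusion_injective hkg))

end Two

section Rel

variable {O R₁ : Type*} [CommRing O] [IsDomain O] [IsDiscreteValuationRing O] [CommRing R₁]
  [Algebra O R₁] (π₁ : R₁ →ₐ[O] O)

/-- the entries of a matrix -/
def ents (X : Matrix (Fin 2) (Fin 2) R₁) : Set R₁ := {x | ∃ i j, X i j = x}

omit [CommRing R₁] [Algebra O R₁] in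
theorem one_add_pow_eq {A : Type*} [Ring A] (X : A) (n : ℕ) :
    ∃ Y : A, (1 + X) ^ n = 1 + (n : A) * X + X * X * Y := by
  induction n with
  | zero => exact ⟨0, by simp⟩
  | succ n ih =>
    obtain ⟨Y, hY⟩ := ih
    refine ⟨Y * (1 + X) + (n : A), ?_⟩
    rw [pow_succ, hY]
    have h : (n : A) * X = X * (n : A) := (Nat.cast_commute n X).eq
    push_cast
    have h2 : (n : A) * X * X = X * X * (n : A) := by
      rw [h, mul_assoc, h, ← mul_assoc]
    rw [mul_add, mul_one, mul_add, add_mul, add_mul, add_mul, one_mul, h2, mul_assoc (X * X) Y]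
    noncomm_ring

theorem length_clsSpan_le {X F : Matrix (Fin 2) (Fin 2) R₁} {q : ℕ} (hX : ∀ i j, π₁ (X i j) = 0)
    (hrel : F * (1 + X) = (1 + X) ^ q * F) (hdet : (1 + X).det = 1)
    (hF : π₁ F.det = q) {t : O} (ht : π₁ F.trace = t) (hq : IsUnit (q : O)) :
    Module.length O (clsSpan π₁ (ents X)) ≤
      addVal O (((q : O) - 1) * (((q : O) + 1) ^ 2 - t ^ 2)) := by
  set P := RingHom.ker π₁ with hP
  have hXP : ∀ i j, X i j ∈ P := hX
  -- classes
  let x : Fin 2 → Fin 2 → P.Cotangent := fun i j => P.toCotangent ⟨X i j, hXP i j⟩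
  have hXX : ∀ (Y : Matrix (Fin 2) (Fin 2) R₁) i j, (X * X * Y) i j ∈ P ^ 2 := by
    intro Y i j
    rw [Matrix.mul_apply]
    refine Ideal.sum_mem _ fun k _ => Ideal.mul_mem_right _ _ ?_
    rw [Matrix.mul_apply, pow_two]
    exact Ideal.sum_mem _ fun l _ => Ideal.mul_mem_mul (hXP _ _) (hXP _ _)
  -- trace zero
  have htr : x 0 0 + x 1 1 = 0 := by
    have h1 : X 0 0 + X 1 1 ∈ P ^ 2 := by
      have h2 : X 0 0 + X 1 1 = -(X 0 0 * X 1 1 - X 0 1 * X 1 0) := by
        rw [Matrix.det_fin_two] at hdet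
        simp only [Matrix.add_apply, Matrix.one_apply_eq, ne_eq, zero_ne_one, not_false_eq_true,
          Matrix.one_apply_ne, one_ne_zero, zero_add] at hdet
        linear_combination hdet
      rw [h2, pow_two]
      exact (P * P).neg_mem (Ideal.sub_mem _ (Ideal.mul_mem_mul (hXP _ _) (hXP _ _))
        (Ideal.mul_mem_mul (hXP _ _) (hXP _ _)))
    have h3 : x 0 0 + x 1 1 = P.toCotangent ⟨X 0 0 + X 1 1, P.add_mem (hXP _ _) (hXP _ _)⟩ :=
      (map_add P.toCotangent ⟨X 0 0, hXP 0 0⟩ ⟨X 1 1, hXP 1 1⟩).symm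
    rw [h3, Ideal.toCotangent_eq_zero]
    exact h1
  -- the relation
  obtain ⟨Y, hY⟩ := one_add_pow_eq X q
  have hrel2 : F * X - (q : Matrix (Fin 2) (Fin 2) R₁) * X * F = X * X * (Y * F) := by
    rw [hY] at hrel
    have h1 : F + F * X = F + (q : Matrix (Fin 2) (Fin 2) R₁) * X * F + X * X * Y * F := by
      calc F + F * X = F * (1 + X) := by rw [mul_add, mul_one]
        _ = _ := by rw [hrel, add_mul, add_mul, one_mul]
    have h2 : F * X = (q : Matrix (Fin 2) (Fin 2) R₁) * X * F + X * X * Y * F := by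
      have := congrArg (fun M => M - F) h1
      simpa [add_assoc] using this
    rw [h2, add_sub_cancel_left, mul_assoc (X * X)]
  have hq' : ∀ M : Matrix (Fin 2) (Fin 2) R₁, ∀ i j,
      ((q : Matrix (Fin 2) (Fin 2) R₁) * M) i j = (q : R₁) * M i j := by
    intro M i j
    rw [← nsmul_eq_mul, Matrix.smul_apply, nsmul_eq_mul]
  have hc : ∀ i j, π₁ (F i 0) • x 0 j + π₁ (F i 1) • x 1 j -
      (q : O) • (π₁ (F 0 j) • x i 0 + π₁ (F 1 j) • x i 1) = 0 := by
    intro i j
    have h1 := congrFun (congrFun hrel2 i) j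
    rw [Matrix.sub_apply, mul_assoc, hq', Matrix.mul_apply, Matrix.mul_apply, Fin.sum_univ_two,
      Fin.sum_univ_two] at h1
    have h2 : F i 0 * X 0 j + F i 1 * X 1 j - (q : R₁) * (X i 0 * F 0 j + X i 1 * F 1 j) ∈ P ^ 2 := by
      rw [h1]; exact hXX _ i j
    have hm : F i 0 * X 0 j + F i 1 * X 1 j - (q : R₁) * (X i 0 * F 0 j + X i 1 * F 1 j) ∈ P :=
      Ideal.pow_le_self two_ne_zero h2
    have h3 := (P.toCotangent_eq_zero ⟨_, hm⟩).mpr h2
    have h4 : (⟨_, hm⟩ : P) = F i 0 • ⟨X 0 j, hXP 0 j⟩ + F i 1 • ⟨X 1 j, hXP 1 j⟩ -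
        (q : R₁) • (F 0 j • ⟨X i 0, hXP i 0⟩ + F 1 j • ⟨X i 1, hXP i 1⟩) := by
      apply Subtype.ext
      simp only [Submodule.coe_add, Submodule.coe_sub, Submodule.coe_smul, smul_eq_mul]
      ring
    rw [h4, map_sub, map_add, map_smul, map_smul, map_smul, map_add, map_smul, map_smul,
      smul_cot, smul_cot, smul_cot π₁ (q : R₁), smul_cot, smul_cot, map_natCast] at h3
    exact h3
  set a := π₁ (F 0 0) with ha
  set b := π₁ (F 0 1) with hb
  set c := π₁ (F 1 0) with hc'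
  set d := π₁ (F 1 1) with hd
  have h11 : x 1 1 = -x 0 0 := by rw [eq_neg_iff_add_eq_zero, add_comm]; exact htr
  have r00 := hc 0 0
  have r01 := hc 0 1
  have r10 := hc 1 0
  have r11 := hc 1 1
  rw [← ha, ← hb, ← hc'] at r00
  rw [← ha, ← hb, ← hd] at r01
  rw [← hc', ← hd, ← ha] at r10
  rw [← hc', ← hd, ← hb] at r11
  rw [h11] at r01 r10 r11
  have hδ : a * d - b * c = q := by
    rw [Matrix.det_fin_two, map_sub, map_mul, map_mul] at hF
    exact hF
  have htt : a + d = t := by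
    rw [Matrix.trace_fin_two, map_add] at ht
    exact ht
  let M : Matrix (Fin 3) (Fin 3) O :=
    !![(a * d + b * c) - q * (a * d - b * c), -(a * c), b * d;
       -(2 * a * b), a ^ 2 - q * (a * d - b * c), -b ^ 2;
       2 * c * d, -c ^ 2, d ^ 2 - q * (a * d - b * c)]
  have hM : M.det = (a * d - b * c) ^ 2 * (1 - q) * ((a * d - b * c) * (1 + q) ^ 2 - q * (a + d) ^ 2) := by
    rw [Matrix.det_fin_three]
    simp only [M, Matrix.of_apply, Matrix.cons_val', Matrix.cons_val_zero, Matrix.cons_val_one,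
      Matrix.cons_val_two, Matrix.head_cons, Matrix.tail_cons, Matrix.cons_val_fin_one,
      Matrix.head_fin_const, Matrix.empty_val', Matrix.cons_val]
    ring
  have hM2 : addVal O M.det = addVal O (((q : O) - 1) * (((q : O) + 1) ^ 2 - t ^ 2)) := by
    rw [hM, hδ, htt]
    have h1 : (q : O) ^ 2 * (1 - q) * (q * (1 + q) ^ 2 - q * t ^ 2) =
        (-(q : O) ^ 3) * (((q : O) - 1) * (((q : O) + 1) ^ 2 - t ^ 2)) := by ring
    rw [h1, addVal_mul, addVal_eq_zero_iff.mpr ((hq.pow 3).neg), zero_add]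
  rw [← hM2]
  -- generators
  let g : (Fin 3 → O) →ₗ[O] P.Cotangent :=
    (LinearMap.toSpanSingleton O _ (x 0 0)).comp (LinearMap.proj 0) +
    (LinearMap.toSpanSingleton O _ (x 0 1)).comp (LinearMap.proj 1) +
    (LinearMap.toSpanSingleton O _ (x 1 0)).comp (LinearMap.proj 2)
  have hgv : ∀ v, g v = v 0 • x 0 0 + v 1 • x 0 1 + v 2 • x 1 0 := fun v => rfl
  have hmemx : ∀ i j, x i j ∈ clsSpan π₁ (ents X) := fun i j =>
    Submodule.subset_span ⟨⟨X i j, hXP i j⟩, ⟨i, j, rfl⟩, rfl⟩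
  have hgmem : ∀ v, g v ∈ clsSpan π₁ (ents X) := by
    intro v
    rw [hgv]
    exact Submodule.add_mem _ (Submodule.add_mem _ (Submodule.smul_mem _ _ (hmemx _ _))
      (Submodule.smul_mem _ _ (hmemx _ _))) (Submodule.smul_mem _ _ (hmemx _ _))
  let g' : (Fin 3 → O) →ₗ[O] clsSpan π₁ (ents X) := g.codRestrict _ hgmem
  have hg' : Function.Surjective g' := by
    have h1 : clsSpan π₁ (ents X) ≤ LinearMap.range g := by
      unfold clsSpan
      rw [Submodule.span_le]
      rintro _ ⟨⟨y, hy⟩, ⟨i, j, hij⟩, rfl⟩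
      have hij' : X i j = y := hij
      subst hij'
      change x i j ∈ LinearMap.range g
      fin_cases i <;> fin_cases j
      · exact ⟨![1, 0, 0], by rw [hgv]; simp⟩
      · exact ⟨![0, 1, 0], by rw [hgv]; simp⟩
      · exact ⟨![0, 0, 1], by rw [hgv]; simp⟩
      · exact ⟨![-1, 0, 0], by rw [hgv]; simp [h11]⟩
    rintro ⟨y, hy⟩
    obtain ⟨v, rfl⟩ := h1 hy
    exact ⟨v, rfl⟩
  refine length_le_of_relations g' hg' M ?_
  intro i
  apply Subtype.ext
  change g (M i) = 0
  rw [hgv]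
  fin_cases i
  · simp only [M, Matrix.of_apply, Matrix.cons_val', Matrix.cons_val_zero, Matrix.cons_val_one,
      Matrix.cons_val_two, Matrix.head_cons, Matrix.tail_cons, Matrix.cons_val_fin_one,
      Matrix.head_fin_const, Matrix.empty_val', Matrix.cons_val, Fin.zero_eta, Fin.mk_one,
      Fin.reduceFinMk]
    linear_combination (norm := module) d • r00 - c • r01
  · simp only [M, Matrix.of_apply, Matrix.cons_val', Matrix.cons_val_zero, Matrix.cons_val_one,
      Matrix.cons_val_two, Matrix.head_cons, Matrix.tail_cons, Matrix.cons_val_fin_one,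
      Matrix.head_fin_const, Matrix.empty_val', Matrix.cons_val, Fin.zero_eta, Fin.mk_one,
      Fin.reduceFinMk]
    linear_combination (norm := module) -b • r00 + a • r01
  · simp only [M, Matrix.of_apply, Matrix.cons_val', Matrix.cons_val_zero, Matrix.cons_val_one,
      Matrix.cons_val_two, Matrix.head_cons, Matrix.tail_cons, Matrix.cons_val_fin_one,
      Matrix.head_fin_const, Matrix.empty_val', Matrix.cons_val, Fin.zero_eta, Fin.mk_one,
      Fin.reduceFinMk]
    linear_combination (norm := module) d • r10 - c • r11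

end Rel

end Fermat.Agent.RT.Sel
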