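import Mathlib

/-!
# Lengths of cokernels over a discrete valuation ring
-/

set_option autoImplicit false

namespace Fermat.Agent.RT.Sel

open IsDiscreteValuationRing Module

variable {O : Type*} [CommRing O] [IsDomain O] [IsDiscreteValuationRing O]

theorem length_quot_span {a : O} (ha : a ≠ 0) :
    Module.length O (O ⧸ Ideal.span {a}) = addVal O a := by
  obtain ⟨ϖ, hϖ⟩ := exists_irreducible O
  obtain ⟨n, u, hu⟩ := eq_unit_mul_pow_irreducible ha hϖ
  rw [addVal_def a u hϖ n hu, ← length_quotient_pow_maximalIdeal O n, hϖ.maximalIdeal_eq,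
    Ideal.span_singleton_pow, hu]
  rw [Ideal.span_singleton_mul_left_unit u.isUnit]

theorem addVal_prod {ι : Type*} (s : Finset ι) (c : ι → O) :
    addVal O (∏ i ∈ s, c i) = ∑ i ∈ s, addVal O (c i) := by
  classical
  induction s using Finset.induction_on with
  | empty => simp
  | insert i s hi ih => rw [Finset.prod_insert hi, Finset.sum_insert hi, addVal_mul, ih]

theorem length_coker_le {n : ℕ} (f : (Fin n → O) →ₗ[O] (Fin n → O)) :
    Module.length O ((Fin n → O) ⧸ LinearMap.range f) ≤ addVal O (LinearMap.det f) := by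
  by_cases hd : LinearMap.det f = 0
  · rw [hd, addVal_zero]; exact le_top
  have hinj : Function.Injective f := by
    rw [← LinearMap.ker_eq_bot]
    by_contra h
    obtain ⟨x, hx, hx0⟩ := (Submodule.ne_bot_iff _).mp h
    have h1 : (LinearMap.toMatrix' f).mulVec x = 0 := by
      rw [LinearMap.toMatrix'_mulVec]
      exact hx
    have h2 := Matrix.exists_mulVec_eq_zero_iff.mp ⟨x, hx0, h1⟩
    rw [LinearMap.det_toMatrix'] at h2
    exact hd h2
  set N := LinearMap.range f with hN
  let b := Pi.basisFun O (Fin n)
  have hr : Module.finrank O N = Module.finrank O (Fin n → O) :=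
    LinearMap.finrank_range_of_inj hinj
  have h1 := (N.quotientEquivPiSpan b hr).length_eq
  rw [h1, Module.length_pi_of_fintype]
  let c := Submodule.smithNormalFormCoeffs b hr
  have hc : ∀ i, c i ≠ 0 := Submodule.smithNormalFormCoeffs_ne_zero b hr
  have h2 : ∑ i, Module.length O (O ⧸ Ideal.span {Submodule.smithNormalFormCoeffs b hr i}) =
      addVal O (∏ i, c i) := by
    rw [addVal_prod]
    exact Finset.sum_congr rfl fun i _ => length_quot_span (hc i)
  rw [h2]
  -- the determinant
  let b' := Submodule.smithNormalFormTopBasis b hr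
  let bN := Submodule.smithNormalFormBotBasis b hr
  have hbN : ∀ i, (bN i : Fin n → O) = c i • b' i := Submodule.smithNormalFormBotBasis_def b hr
  let e : (Fin n → O) ≃ₗ[O] N := LinearEquiv.ofInjective f hinj
  let g : N ≃ₗ[O] (Fin n → O) := bN.equiv b' (Equiv.refl _)
  let D : (Fin n → O) →ₗ[O] (Fin n → O) := b'.constr O fun i => c i • b' i
  have hD : LinearMap.det D = ∏ i, c i := by
    rw [← LinearMap.det_toMatrix b' D]
    have : LinearMap.toMatrix b' b' D = Matrix.diagonal c := by
      ext i j
      rw [LinearMap.toMatrix_apply, Basis.constr_basis, map_smul, Finsupp.smul_apply,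
        Basis.repr_self, Finsupp.single_apply, Matrix.diagonal_apply]
      by_cases h : i = j
      · subst h; simp
      · rw [if_neg (Ne.symm h), if_neg h, smul_zero]
    rw [this, Matrix.det_diagonal]
  have hcomp : D ∘ₗ (g : N →ₗ[O] (Fin n → O)) = N.subtype := by
    refine bN.ext fun i => ?_
    rw [LinearMap.comp_apply, LinearEquiv.coe_coe, Basis.equiv_apply, Equiv.refl_apply,
      Basis.constr_basis, Submodule.subtype_apply, hbN]
  have hf : f = D ∘ₗ ((e.trans g : (Fin n → O) ≃ₗ[O] (Fin n → O)) : (Fin n → O) →ₗ[O] (Fin n → O)) := by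
    ext1 i
    ext x
    simp only [LinearMap.comp_apply, LinearMap.single_apply, LinearEquiv.coe_coe,
      LinearEquiv.trans_apply]
    have h3 := LinearMap.congr_fun hcomp (e (Pi.single i 1))
    rw [LinearMap.comp_apply, LinearEquiv.coe_coe, Submodule.subtype_apply] at h3
    rw [h3]
    rfl
  have hdet : LinearMap.det f = (∏ i, c i) * LinearMap.det
      ((e.trans g : (Fin n → O) ≃ₗ[O] (Fin n → O)) : (Fin n → O) →ₗ[O] (Fin n → O)) := by
    conv_lhs => rw [hf]
    rw [LinearMap.det_comp, hD]
  rw [hdet, addVal_mul]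
  exact le_self_add

/-- a module with `n` generators and `n` relations -/
theorem length_le_of_relations {N : Type*} [AddCommGroup N] [Module O N] {n : ℕ}
    (g : (Fin n → O) →ₗ[O] N) (hg : Function.Surjective g) (M : Matrix (Fin n) (Fin n) O)
    (hM : ∀ i, g (M i) = 0) : Module.length O N ≤ addVal O M.det := by
  let f : (Fin n → O) →ₗ[O] (Fin n → O) := Matrix.toLin' M.transpose
  have hle : LinearMap.range f ≤ LinearMap.ker g := by
    rintro _ ⟨x, rfl⟩
    rw [LinearMap.mem_ker]
    have h1 : f x = ∑ i, x i • M i := by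
      rw [Matrix.toLin'_apply]
      ext j
      rw [Matrix.mulVec, dotProduct, Finset.sum_apply]
      refine Finset.sum_congr rfl fun i _ => ?_
      rw [Matrix.transpose_apply, Pi.smul_apply, smul_eq_mul, mul_comm]
    rw [h1, map_sum]
    exact Finset.sum_eq_zero fun i _ => by rw [map_smul, hM, smul_zero]
  have h2 : Function.Surjective ((LinearMap.range f).liftQ g hle) := by
    intro y
    obtain ⟨x, rfl⟩ := hg y
    exact ⟨Submodule.Quotient.mk x, Submodule.liftQ_apply _ _ _⟩
  refine (Module.length_le_of_surjective _ h2).trans ?_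
  have h3 := length_coker_le f
  rwa [LinearMap.det_toLin', Matrix.det_transpose] at h3

theorem length_sup_le {R N : Type*} [CommRing R] [AddCommGroup N] [Module R N] (A B : Submodule R N) :
    Module.length R ↥(A ⊔ B) ≤ Module.length R A + Module.length R B := by
  rw [← Module.length_prod]
  let f : (A × B) →ₗ[R] ↥(A ⊔ B) :=
    (Submodule.inclusion le_sup_left).coprod (Submodule.inclusion le_sup_right)
  refine Module.length_le_of_surjective f ?_
  rintro ⟨x, hx⟩
  obtain ⟨a, ha, b, hb, rfl⟩ := Submodule.mem_sup.mp hx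
  exact ⟨(⟨a, ha⟩, ⟨b, hb⟩), rfl⟩

theorem length_biSup_le {R N : Type*} [CommRing R] [AddCommGroup N] [Module R N] {ι : Type*}
    (s : Finset ι) (A : ι → Submodule R N) :
    Module.length R ↥(⨆ i ∈ s, A i) ≤ ∑ i ∈ s, Module.length R (A i) := by
  classical
  induction s using Finset.induction_on with
  | empty =>
    have h : (⨆ i ∈ (∅ : Finset ι), A i) = ⊥ := by simp
    rw [Finset.sum_empty, nonpos_iff_eq_zero, Module.length_eq_zero_iff, h]
    infer_instance
  | insert i s hi ih =>
    rw [Finset.sum_insert hi, Finset.iSup_insert]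
    exact (length_sup_le _ _).trans (add_le_add le_rfl ih)

end Fermat.Agent.RT.Sel
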