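import Fermat.Agent.RT.SelQ

/-!
# Growth of the cotangent space at primes where the residual representation is unramified
-/

set_option autoImplicit false
set_option maxHeartbeats 1000000
set_option linter.unusedSectionVars false
set_option linter.style.haveILetI false

noncomputable section

namespace Fermat.Agent.RT.Sel

open IsLocalRing Matrix Fermat.Agent.DefRing Fermat.Agent.GalRep Fermat.Agent.TWGal
  Fermat.Agent.TWInst GaloisRep IsDiscreteValuationRing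

local notation "Qbar" => AlgebraicClosure ℚ

section Det

variable {R : Type} [CommRing R] [IsLocalRing R] [IsNoetherianRing R]
  {ρ : GaloisRepAdic R} {T : GQ →* Matrix (Fin 2) (Fin 2) R} {hT : MatCont T} {p q : ℕ}

theorem eq_of_forall_sub_mem {x y : R} (hp : (p : R) ∈ maximalIdeal R)
    (h : ∀ n : ℕ, x - y ∈ Ideal.span {((p ^ n : ℕ) : R)}) : x = y := by
  have h1 : x - y ∈ ⨅ n : ℕ, maximalIdeal R ^ n := by
    rw [Ideal.mem_iInf]
    intro n
    refine (Ideal.span_singleton_le_iff_mem _).mpr ?_ (h n)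
    push_cast
    exact Ideal.pow_mem_pow hp n
  rw [Ideal.iInf_pow_eq_bot_of_isLocalRing _ (Ideal.IsPrime.ne_top inferInstance)] at h1
  exact sub_eq_zero.mp h1

theorem det_inertia (hρ : ρ.IsEquiv (matRep T hT)) (hd : ρ.DetIsCyclotomic p) (hp : p.Prime)
    (hq : q.Prime) (hpq : p ≠ q) {A : ValuationSubring Qbar} (hA : A.LiesOverPrime q) {σ : GQ}
    (hσ : σ ∈ A.inertiaSubgroupIn ℚ) : (T σ).det = 1 := by
  rw [← det_matRep T hT, det_of_isEquiv hρ]
  refine eq_of_forall_sub_mem hd.1 fun n => ?_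
  have := hd.2 n σ 1 (fun μ hμ => by
    rw [pow_one]
    exact inertia_rootOfUnity hq hA hσ (m := p ^ n) (fun h =>
      hpq ((Nat.prime_dvd_prime_iff_eq hq hp).mp (hq.dvd_of_dvd_pow h)).symm) hμ)
  rwa [Nat.cast_one] at this

theorem det_frob (hρ : ρ.IsEquiv (matRep T hT)) (hd : ρ.DetIsCyclotomic p) (hp : p.Prime)
    (hq : q.Prime) (hpq : p ≠ q) {A : ValuationSubring Qbar} (hA : A.LiesOverPrime q) {σ : GQ}
    (hσ : A.IsFrobeniusAt σ q) : (T σ).det = q := by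
  rw [← det_matRep T hT, det_of_isEquiv hρ]
  refine eq_of_forall_sub_mem hd.1 fun n => ?_
  exact hd.2 n σ q (fun μ hμ => frob_rootOfUnity hq hA hσ (m := p ^ n) (fun h =>
      hpq ((Nat.prime_dvd_prime_iff_eq hq hp).mp (hq.dvd_of_dvd_pow h)).symm) hμ)

end Det

section Main

variable {O : Type} [CommRing O] [IsDomain O] [IsDiscreteValuationRing O]
  [IsAdicComplete (maximalIdeal O) O] {ρbar : ResidualGaloisRep (ResidueField O)}
  {D₀ D₁ : ∀ ⦃A : Type⦄ [CommRing A] [IsLocalRing A] [Algebra O A], GaloisRepAdic A → Prop}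
  {p : ℕ} {S : Finset ℕ}

/-- the set of generators -/
def gens {R : Type} [CommRing R] (S : Finset ℕ) (T : GQ →* Matrix (Fin 2) (Fin 2) R)
    (σ : ℕ → GQ) : Set R := ⋃ q ∈ S, ents (T (σ q) - 1)

theorem phi_main (hp : p.Prime) (hS : ∀ q ∈ S, q.Prime ∧ q ≠ p ∧ ρbar.IsUnramifiedAt q)
    (hD : IsDeformationCondition O D₁)
    (hdet : ∀ ⦃A : Type⦄ [CommRing A] [IsLocalRing A] [Algebra O A] (ρ : GaloisRepAdic A),
      D₁ ρ → ρ.DetIsCyclotomic p)
    (hiff : ∀ ⦃A : Type⦄ [CommRing A] [IsLocalRing A] [Algebra O A] (ρ : GaloisRepAdic A),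
      D₀ ρ ↔ D₁ ρ ∧ ∀ q ∈ S, ρ.IsUnramifiedAt q)
    (R₀ : DeformationRingData O ρbar D₀) (R₁ : DeformationRingData O ρbar D₁)
    (b : Module.Basis (Fin 2) (ResidueField O) ρbar.V)
    {T : GQ →* Matrix (Fin 2) (Fin 2) R₁.R} {hT : MatCont T} (hρ : R₁.ρ.IsEquiv (matRep T hT))
    (hTb : ∀ g i j, residue R₁.R (T g i j) =
      ResidueField.map (algebraMap O R₁.R) (resMat ρbar b g i j))
    (A : ℕ → ValuationSubring Qbar) (hA : ∀ q ∈ S, (A q).LiesOverPrime q)
    (σ : ℕ → GQ) (hσI : ∀ q ∈ S, σ q ∈ (A q).inertiaSubgroupIn ℚ)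
    (hσ : ∀ q ∈ S, ∀ π : Qbar, π ^ p = q → σ q π ≠ π)
    (φ : R₁.R →ₐ[O] R₀.R) (hφ : IsLocalHom (φ : R₁.R →+* R₀.R))
    (hφe : (R₁.ρ.baseChangeAlong (φ : R₁.R →+* R₀.R) hφ).IsEquiv R₀.ρ) :
    Function.Surjective φ ∧ (∀ x ∈ gens S T σ, φ x = 0) ∧
      RingHom.ker φ ≤ Ideal.span (gens S T σ) := by
  -- residual triviality on inertia
  have hI : ∀ q ∈ S, ∀ P : ValuationSubring Qbar, P.LiesOverPrime q →
      ∀ τ ∈ P.inertiaSubgroupIn ℚ, ∀ i j, (T τ - 1) i j ∈ maximalIdeal R₁.R := by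
    intro q hq P hP τ hτ i j
    have h1 : ρbar.ρ τ = 1 := (hS q hq).2.2 P hP τ hτ
    have h2 : resMat ρbar b τ = 1 := by
      rw [resMat, h1, Module.End.one_eq_id, LinearMap.toMatrix_id]
    rw [← residue_eq_zero_iff, Matrix.sub_apply, map_sub, hTb, h2, Matrix.one_apply,
      Matrix.one_apply]
    split_ifs
    · rw [map_one, map_one, sub_self]
    · rw [map_zero, map_zero, sub_self]
  have hpR : (p : R₁.R) ∈ maximalIdeal R₁.R := (hdet _ R₁.isOfType).1
  set J : Ideal R₁.R := Ideal.span (gens S T σ) with hJdef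
  have hJ : J ≤ maximalIdeal R₁.R := by
    rw [hJdef, Ideal.span_le]
    intro x hx
    simp only [gens, Set.mem_iUnion] at hx
    obtain ⟨q, hq, i, j, rfl⟩ := hx
    exact hI q hq (A q) (hA q hq) _ (hσI q hq) i j
  haveI : IsLocalRing (R₁.R ⧸ J) := quot_isLocalRing hJ
  haveI := quot_isAdicComplete (R := R₁.R) hJ
  have hmk : IsLocalHom (Ideal.Quotient.mkₐ O J : R₁.R →+* R₁.R ⧸ J) := mk_isLocalHom hJ
  haveI hlocB : IsLocalHom (algebraMap O (R₁.R ⧸ J)) := by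
    haveI := mk_isLocalHom hJ
    exact RingHom.isLocalHom_comp (Ideal.Quotient.mk J) (algebraMap O R₁.R)
  have hresB := quot_residue_surjective (O := O) hJ R₁.residue_surjective
  -- the pushed forward representation is of type D₁
  have h1 : D₁ (R₁.ρ.baseChangeAlong (Ideal.Quotient.mkₐ O J : R₁.R →+* R₁.R ⧸ J) hmk) :=
    cond_quot hD inferInstance R₁.residue_surjective R₁.isOfType hJ hmk
  have hmodel := baseChange_model (Ideal.Quotient.mkₐ O J : R₁.R →+* R₁.R ⧸ J) hmk hρ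
  have hpB : (p : R₁.R ⧸ J) ∈ maximalIdeal (R₁.R ⧸ J) := (hdet _ h1).1
  have hent : ∀ q ∈ S, mapT (Ideal.Quotient.mkₐ O J : R₁.R →+* R₁.R ⧸ J) T (σ q) = 1 := by
    intro q hq
    ext i j
    rw [mapT_apply, ← sub_eq_zero]
    have h2 : (T (σ q) - 1) i j ∈ J := Ideal.subset_span (by
      simp only [gens, Set.mem_iUnion]
      exact ⟨q, hq, i, j, rfl⟩)
    have h3 := Ideal.Quotient.eq_zero_iff_mem.mpr h2
    rw [Matrix.sub_apply, map_sub] at h3
    have h4 : Ideal.Quotient.mk J ((1 : Matrix (Fin 2) (Fin 2) R₁.R) i j) =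
        (1 : Matrix (Fin 2) (Fin 2) (R₁.R ⧸ J)) i j := by
      rw [Matrix.one_apply, Matrix.one_apply]
      split_ifs
      · exact map_one _
      · exact map_zero _
    rw [h4] at h3
    exact h3
  have hunr : ∀ q ∈ S,
      (R₁.ρ.baseChangeAlong (Ideal.Quotient.mkₐ O J : R₁.R →+* R₁.R ⧸ J) hmk).IsUnramifiedAt q := by
    intro q hq
    refine unr_of_isEquiv (isEquiv_symm hmodel) ?_
    intro P hP τ hτ
    rw [one_matRep]
    refine one_all_places (hS q hq).1 (hA q hq) (fun τ' hτ' => ?_) hP hτ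
    refine eq_one_of_eq_one (hT.map _ hmk) (hS q hq).1 (hA q hq) hp (Ne.symm (hS q hq).2.1) hpB
      ?_ (hσI q hq) (hσ q hq) (hent q hq) hτ'
    intro τ'' hτ'' i j
    have h5 := hI q hq (A q) (hA q hq) τ'' hτ'' i j
    have h6 : (mapT (Ideal.Quotient.mkₐ O J : R₁.R →+* R₁.R ⧸ J) T τ'' - 1) i j =
        Ideal.Quotient.mk J ((T τ'' - 1) i j) := by
      rw [Matrix.sub_apply, Matrix.sub_apply, mapT_apply, map_sub]
      congr 1
      rw [Matrix.one_apply, Matrix.one_apply]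
      split_ifs
      · exact (map_one _).symm
      · exact (map_zero _).symm
    rw [h6, mem_maximalIdeal, mem_nonunits_iff]
    intro hu
    haveI := mk_isLocalHom hJ
    exact (mem_maximalIdeal _).mp h5 (isUnit_of_map_unit (Ideal.Quotient.mk J) _ hu)
  have h0 : D₀ (R₁.ρ.baseChangeAlong (Ideal.Quotient.mkₐ O J : R₁.R →+* R₁.R ⧸ J) hmk) :=
    (hiff _).mpr ⟨h1, hunr⟩
  have hres := residual_quot (ρbar := ρbar) (R := R₁.R) inferInstance b hρ hTb hlocB
    (Ideal.Quotient.mkₐ O J) hmk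
  obtain ⟨ψ, ⟨hψ, hψe⟩, -⟩ := R₀.universal (R₁.R ⧸ J) hresB _ h0 hres
  obtain ⟨χ, -, hχu⟩ := R₁.universal (R₁.R ⧸ J) hresB _ h1 hres
  have e1 : ψ.comp φ = χ := by
    apply hχu
    have hloc : IsLocalHom ((ψ.comp φ : R₁.R →ₐ[O] R₁.R ⧸ J) : R₁.R →+* R₁.R ⧸ J) := by
      haveI := hψ
      haveI := hφ
      exact RingHom.isLocalHom_comp (ψ : R₀.R →+* R₁.R ⧸ J) (φ : R₁.R →+* R₀.R)
    refine ⟨hloc, ?_⟩
    refine isEquiv_trans (isEquiv_symm (baseChange_comp (φ : R₁.R →+* R₀.R) hφ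
      (ψ : R₀.R →+* R₁.R ⧸ J) hψ _ hloc rfl R₁.ρ)) ?_
    exact isEquiv_trans (isEquiv_baseChange _ hψ hφe) hψe
  have e2 : Ideal.Quotient.mkₐ O J = χ := by
    apply hχu
    exact ⟨hmk, ⟨GaloisRepAdic.Equiv.refl _⟩⟩
  have e3 : ψ.comp φ = Ideal.Quotient.mkₐ O J := e1.trans e2.symm
  have hker : RingHom.ker φ ≤ J := by
    intro x hx
    rw [RingHom.mem_ker] at hx
    have := DFunLike.congr_fun e3 x
    rw [AlgHom.comp_apply, hx, map_zero] at this
    exact Ideal.Quotient.eq_zero_iff_mem.mp this.symm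
  have hz : ∀ x ∈ gens S T σ, φ x = 0 := by
    intro x hx
    simp only [gens, Set.mem_iUnion] at hx
    obtain ⟨q, hq, i, j, rfl⟩ := hx
    have h7 := ((hiff _).mp R₀.isOfType).2 q hq (A q) (hA q hq) (σ q) (hσI q hq)
    have h8 := baseChange_model (φ : R₁.R →+* R₀.R) hφ hρ
    have h9 := one_of_isEquiv (isEquiv_trans (isEquiv_symm hφe) h8) h7
    rw [one_matRep] at h9
    have h10 := congrFun (congrFun h9 i) j
    rw [mapT_apply] at h10
    rw [Matrix.sub_apply, map_sub, sub_eq_zero]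
    refine Eq.trans h10 ?_
    rw [Matrix.one_apply, Matrix.one_apply]
    split_ifs
    · exact (map_one φ).symm
    · exact (map_zero φ).symm
  -- surjectivity
  have hJz : ∀ x ∈ J, φ x = 0 := by
    intro x hx
    have : J ≤ RingHom.ker φ := by
      rw [hJdef, Ideal.span_le]
      exact fun y hy => hz y hy
    exact this hx
  let φ' : (R₁.R ⧸ J) →ₐ[O] R₀.R := Ideal.Quotient.liftₐ J φ hJz
  have hφ' : φ'.comp (Ideal.Quotient.mkₐ O J) = φ := Ideal.Quotient.liftₐ_comp J φ hJz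
  have hφ'l : IsLocalHom (φ' : R₁.R ⧸ J →+* R₀.R) := by
    constructor
    intro y hy
    obtain ⟨x, rfl⟩ := Ideal.Quotient.mk_surjective y
    have h11 : φ' (Ideal.Quotient.mk J x) = φ x := DFunLike.congr_fun hφ' x
    have hy' : IsUnit (φ x) := by
      rw [← h11]
      exact hy
    haveI := hφ
    have hx : IsUnit x := isUnit_of_map_unit (φ : R₁.R →+* R₀.R) x hy'
    exact hx.map (Ideal.Quotient.mk J)
  obtain ⟨χ₀, -, hχ₀⟩ := R₀.universal R₀.R R₀.residue_surjective R₀.ρ R₀.isOfType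
    R₀.residual_isEquiv
  have e4 : φ'.comp ψ = χ₀ := by
    apply hχ₀
    have hloc : IsLocalHom ((φ'.comp ψ : R₀.R →ₐ[O] R₀.R) : R₀.R →+* R₀.R) := by
      haveI := hψ
      haveI := hφ'l
      exact RingHom.isLocalHom_comp (φ' : R₁.R ⧸ J →+* R₀.R) (ψ : R₀.R →+* R₁.R ⧸ J)
    refine ⟨hloc, ?_⟩
    refine isEquiv_trans (isEquiv_symm (baseChange_comp (ψ : R₀.R →+* R₁.R ⧸ J) hψ
      (φ' : R₁.R ⧸ J →+* R₀.R) hφ'l _ hloc rfl R₀.ρ)) ?_
    refine isEquiv_trans (isEquiv_baseChange _ hφ'l hψe) ?_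
    refine isEquiv_trans (baseChange_comp _ hmk (φ' : R₁.R ⧸ J →+* R₀.R) hφ'l
      (φ : R₁.R →+* R₀.R) hφ ?_ R₁.ρ) hφe
    rw [← hφ']
    rfl
  have e5 : AlgHom.id O R₀.R = χ₀ := by
    apply hχ₀
    have hloc : IsLocalHom ((AlgHom.id O R₀.R : R₀.R →ₐ[O] R₀.R) : R₀.R →+* R₀.R) :=
      ⟨fun a ha => ha⟩
    exact ⟨hloc, baseChange_id _ hloc rfl R₀.ρ⟩
  refine ⟨fun y => ?_, hz, hker⟩
  have h12 := DFunLike.congr_fun (e4.trans e5.symm) y
  rw [AlgHom.comp_apply, AlgHom.id_apply] at h12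
  obtain ⟨x, hx⟩ := Ideal.Quotient.mk_surjective (ψ y)
  refine ⟨x, ?_⟩
  have h13 := DFunLike.congr_fun hφ' x
  rw [AlgHom.comp_apply] at h13
  rw [← h13, ← h12, ← hx]
  rfl

theorem selQ : SelQSt := by
  intro O _ _ _ _ ρbar D₀ D₁ p S hp hS hD hdet hiff R₀ R₁
  have b : Module.Basis (Fin 2) (ResidueField O) ρbar.V :=
    Module.finBasisOfFinrankEq _ _ ρbar.finrank_eq
  obtain ⟨T, hT, hTb, hρ⟩ := exists_matRep ρbar b (ResidueField.map (algebraMap O R₁.R)) R₁.ρ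
    R₁.residual_isEquiv
  obtain ⟨φ, ⟨hφ, hφe⟩, -⟩ := R₁.universal R₀.R R₀.residue_surjective R₀.ρ
    ((hiff _).mp R₀.isOfType).1 R₀.residual_isEquiv
  refine ⟨φ, hφ, ?_, hφe, ?_⟩
  · have hex : ∀ q : ℕ, ∃ A : ValuationSubring Qbar, ∃ σ : GQ, q ∈ S → A.LiesOverPrime q ∧
        σ ∈ A.inertiaSubgroupIn ℚ ∧ ∀ π : Qbar, π ^ p = q → σ π ≠ π := by
      intro q
      by_cases hq : q ∈ S
      · obtain ⟨A, hA, -⟩ := Frob.exists_place_frobenius (hS q hq).1
        obtain ⟨σ, h1, h2⟩ := exists_inertia_moving (hS q hq).1 hA hp (Ne.symm (hS q hq).2.1)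
        exact ⟨A, σ, fun _ => ⟨hA, h1, h2⟩⟩
      · exact ⟨⊤, 1, fun h => absurd h hq⟩
    choose A σ h using hex
    exact (phi_main hp hS hD hdet hiff R₀ R₁ b hρ hTb A (fun q hq => (h q hq).1) σ
      (fun q hq => (h q hq).2.1) (fun q hq => (h q hq).2.2) φ hφ hφe).1
  · intro π a ha
    have hex : ∀ q : ℕ, ∃ A : ValuationSubring Qbar, ∃ F : GQ, ∃ σ : GQ, q ∈ S →
        A.LiesOverPrime q ∧ A.IsFrobeniusAt F q ∧ π (R₀.ρ.trace F) = a q ∧
        σ ∈ A.inertiaSubgroupIn ℚ ∧ ∀ π : Qbar, π ^ p = q → σ π ≠ π := by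
      intro q
      by_cases hq : q ∈ S
      · obtain ⟨A, hA, F, hF, hFa⟩ := ha q hq
        obtain ⟨σ, h1, h2⟩ := exists_inertia_moving (hS q hq).1 hA hp (Ne.symm (hS q hq).2.1)
        exact ⟨A, F, σ, fun _ => ⟨hA, hF, hFa, h1, h2⟩⟩
      · exact ⟨⊤, 1, 1, fun h => absurd h hq⟩
    choose A F σ h using hex
    obtain ⟨hsurj, hz, hker⟩ := phi_main hp hS hD hdet hiff R₀ R₁ b hρ hTb A
      (fun q hq => (h q hq).1) σ (fun q hq => (h q hq).2.2.2.1) (fun q hq => (h q hq).2.2.2.2)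
      φ hφ hφe
    refine (length_cot_le φ hsurj π (gens S T σ) hz hker).trans (add_le_add le_rfl ?_)
    have h1 : Module.length O (clsSpan (π.comp φ) (gens S T σ)) ≤
        ∑ q ∈ S, Module.length O (clsSpan (π.comp φ) (ents (T (σ q) - 1))) := by
      refine le_trans ?_ (length_biSup_le S fun q => clsSpan (π.comp φ) (ents (T (σ q) - 1)))
      exact Module.length_le_of_injective (Submodule.inclusion (clsSpan_biUnion _ S _))
        (Submodule.inclusion_injective _)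
    refine h1.trans (Finset.sum_le_sum fun q hq => ?_)
    obtain ⟨hA, hF, hFa, hσI, hσ⟩ := h q hq
    have hd := hdet _ R₁.isOfType
    have hI : ∀ τ ∈ (A q).inertiaSubgroupIn ℚ, ∀ i j, (T τ - 1) i j ∈ maximalIdeal R₁.R := by
      intro τ hτ i j
      have h1 : ρbar.ρ τ = 1 := (hS q hq).2.2 (A q) hA τ hτ
      have h2 : resMat ρbar b τ = 1 := by
        rw [resMat, h1, Module.End.one_eq_id, LinearMap.toMatrix_id]
      rw [← residue_eq_zero_iff, Matrix.sub_apply, map_sub, hTb, h2, Matrix.one_apply,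
        Matrix.one_apply]
      split_ifs
      · rw [map_one, map_one, sub_self]
      · rw [map_zero, map_zero, sub_self]
    have htame := tame_rel hT (hS q hq).1 hA hp (Ne.symm (hS q hq).2.1) hd.1 hI hF hσI hσ
    have hdet1 := det_inertia hρ hd hp (hS q hq).1 (Ne.symm (hS q hq).2.1) hA hσI
    have hdetF := det_frob hρ hd hp (hS q hq).1 (Ne.symm (hS q hq).2.1) hA hF
    refine length_clsSpan_le (π.comp φ) (X := T (σ q) - 1) (F := T (F q)) (q := q) ?_ ?_ ?_ ?_ ?_ ?_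
    · intro i j
      rw [AlgHom.comp_apply, hz _ (by
        simp only [gens, Set.mem_iUnion]
        exact ⟨q, hq, i, j, rfl⟩), map_zero]
    · rw [add_sub_cancel]
      exact htame
    · rw [add_sub_cancel]
      exact hdet1
    · rw [hdetF, map_natCast]
    · rw [AlgHom.comp_apply, ← hFa]
      congr 1
      have h2 := trace_baseChange (φ : R₁.R →+* R₀.R) hφ R₁.ρ (F q)
      rw [← trace_of_isEquiv hφe] at h2
      rw [h2, ← trace_of_isEquiv hρ, trace_matRep]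
      rfl
    · -- `q` is a unit
      by_contra hu
      have h3 : (q : O) ∈ IsLocalRing.maximalIdeal O := (mem_maximalIdeal _).mpr hu
      have h4 : (p : O) ∈ IsLocalRing.maximalIdeal O := by
        rw [mem_maximalIdeal, mem_nonunits_iff]
        intro h5
        have h6 : IsUnit (algebraMap O R₁.R (p : O)) := h5.map _
        rw [map_natCast] at h6
        exact (mem_maximalIdeal _).mp hd.1 h6
      have h7 : Nat.Coprime p q := (Nat.coprime_primes hp (hS q hq).1).mpr (Ne.symm (hS q hq).2.1)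
      have h8 := Nat.isCoprime_iff_coprime.mpr h7
      obtain ⟨u, v, huv⟩ := h8
      have h9 : (u : O) * p + v * q = 1 := by exact_mod_cast congrArg (Int.cast : ℤ → O) huv
      have h10 : (1 : O) ∈ IsLocalRing.maximalIdeal O := by
        rw [← h9]
        exact Ideal.add_mem _ (Ideal.mul_mem_left _ _ h4) (Ideal.mul_mem_left _ _ h3)
      exact (Ideal.ne_top_iff_one _).mp (Ideal.IsPrime.ne_top inferInstance) h10

end Main

end Fermat.Agent.RT.Sel
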