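import Fermat.Agent.RT.T10St

/-!
# Growth of the cotangent space at `p`: statement
-/

set_option autoImplicit false

namespace Fermat.Agent.RT

open GaloisRep IsLocalRing

/-- comparison of the ordinary and the flat deformation rings. `a` is the eigenvalue of the
Frobenius elements at `p` on the unramified quotient: a common root of the characteristic
polynomials of all Frobenius elements at one place above `p`. -/
def SelPSt : Prop := ∀ (O : Type) [CommRing O] [IsDomain O] [IsDiscreteValuationRing O]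
  [IsAdicComplete (maximalIdeal O) O] [Finite (ResidueField O)] [CharZero O]
  (p : ℕ) [Fact p.Prime] (_ : p ≠ 2) (_ : (p : O) ∈ maximalIdeal O)
  (ρbar : ResidualGaloisRep (ResidueField O)) (S Smin : Finset ℕ) (_ : p ∈ S)
  (R₀ : DeformationRingData O ρbar (DD O .fl p S Smin))
  (R₁ : DeformationRingData O ρbar (DD O .ord p S Smin)) (π₁ : R₁.R →ₐ[O] O) (a : O)
  (_ : a ^ 2 ≠ 1)
  (_ : ∃ A : ValuationSubring (AlgebraicClosure ℚ), A.LiesOverPrime p ∧
    ∀ σ : AlgebraicClosure ℚ ≃ₐ[ℚ] AlgebraicClosure ℚ, A.IsFrobeniusAt σ p →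
      a ^ 2 - π₁ (R₁.ρ.trace σ) * a + π₁ (LinearMap.det (R₁.ρ.ρ σ)) = 0),
  ∃ π₀ : R₀.R →ₐ[O] O, (∀ σ, π₀ (R₀.ρ.trace σ) = π₁ (R₁.ρ.trace σ)) ∧
    Module.length O (RingHom.ker π₁).Cotangent ≤
      Module.length O (RingHom.ker π₀).Cotangent + IsDiscreteValuationRing.addVal O (a ^ 2 - 1)

end Fermat.Agent.RT
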