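import Fermat.Agent.DefRing.MatRep
import Fermat.Agent.TWInst.Tame
import Fermat.Prelude.Def_GaloisRep_DeformationCondition
import Fermat.Prelude.Def_GaloisRep_DeformationRingData
import Fermat.Prelude.Def_GaloisRep_LocalConditions
import Fermat.Prelude.Thm_IsLocalRing_isAdicComplete_of_module_finite

/-!
# Matrix models of adic representations
-/

set_option autoImplicit false
set_option maxHeartbeats 400000
set_option linter.unusedSectionVars false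
set_option linter.style.haveILetI false

noncomputable section

namespace Fermat.Agent.RT.Sel

open IsLocalRing Matrix Fermat.Agent.DefRing Fermat.Agent.GalRep Fermat.Agent.TWGal
  Fermat.Agent.TWInst GaloisRep

local notation "Qbar" => AlgebraicClosure ℚ

section Basic

variable {A : Type} [CommRing A] [IsLocalRing A]

theorem isEquiv_trans {ρ₁ ρ₂ ρ₃ : GaloisRepAdic A} (h : ρ₁.IsEquiv ρ₂) (h' : ρ₂.IsEquiv ρ₃) :
    ρ₁.IsEquiv ρ₃ := by
  obtain ⟨e⟩ := h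
  obtain ⟨e'⟩ := h'
  exact ⟨e.trans e'⟩

theorem isEquiv_symm {ρ₁ ρ₂ : GaloisRepAdic A} (h : ρ₁.IsEquiv ρ₂) : ρ₂.IsEquiv ρ₁ := by
  obtain ⟨e⟩ := h
  exact ⟨e.symm⟩

theorem isEquiv_conj {ρ₁ ρ₂ : GaloisRepAdic A} (h : ρ₁.IsEquiv ρ₂) :
    ∃ e : ρ₁.V ≃ₗ[A] ρ₂.V, ∀ σ, ρ₂.ρ σ = e.conj (ρ₁.ρ σ) := by
  obtain ⟨e⟩ := h
  refine ⟨e.toLinearEquiv, fun σ => ?_⟩
  ext x
  rw [LinearEquiv.conj_apply_apply, e.map_apply, LinearEquiv.apply_symm_apply]

theorem det_of_isEquiv {ρ₁ ρ₂ : GaloisRepAdic A} (h : ρ₁.IsEquiv ρ₂) (σ : GQ) :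
    LinearMap.det (ρ₂.ρ σ) = LinearMap.det (ρ₁.ρ σ) := by
  obtain ⟨e, he⟩ := isEquiv_conj h
  rw [he, LinearEquiv.conj_apply, LinearMap.comp_assoc, LinearMap.det_conj]

theorem trace_of_isEquiv {ρ₁ ρ₂ : GaloisRepAdic A} (h : ρ₁.IsEquiv ρ₂) (σ : GQ) :
    ρ₂.trace σ = ρ₁.trace σ := by
  obtain ⟨e, he⟩ := isEquiv_conj h
  unfold GaloisRepAdic.trace
  rw [he, LinearMap.trace_conj']

theorem one_of_isEquiv {ρ₁ ρ₂ : GaloisRepAdic A} (h : ρ₁.IsEquiv ρ₂) {σ : GQ}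
    (h1 : ρ₁.ρ σ = 1) : ρ₂.ρ σ = 1 := by
  obtain ⟨e, he⟩ := isEquiv_conj h
  rw [he, h1]
  ext x
  rw [LinearEquiv.conj_apply_apply, Module.End.one_apply, LinearEquiv.apply_symm_apply,
    Module.End.one_apply]

theorem det_matRep (T : GQ →* Matrix (Fin 2) (Fin 2) A) (hT : MatCont T) (σ : GQ) :
    LinearMap.det ((matRep T hT).ρ σ) = (T σ).det :=
  LinearMap.det_toLin' (T σ)

theorem trace_matRep (T : GQ →* Matrix (Fin 2) (Fin 2) A) (hT : MatCont T) (σ : GQ) :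
    (matRep T hT).trace σ = (T σ).trace :=
  Matrix.trace_toLin'_eq (T σ)

theorem one_matRep (T : GQ →* Matrix (Fin 2) (Fin 2) A) (hT : MatCont T) (σ : GQ) :
    (matRep T hT).ρ σ = 1 ↔ T σ = 1 := by
  constructor
  · intro h
    have h1 : Matrix.toLin' (T σ) = Matrix.toLin' 1 := by
      rw [Matrix.toLin'_one]
      exact h
    exact Matrix.toLin'.injective h1
  · intro h
    change Matrix.toLin' (T σ) = 1
    rw [h, Matrix.toLin'_one]
    rfl

theorem unr_of_isEquiv {ρ₁ ρ₂ : GaloisRepAdic A} (h : ρ₁.IsEquiv ρ₂) {q : ℕ}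
    (h1 : ρ₁.IsUnramifiedAt q) : ρ₂.IsUnramifiedAt q :=
  fun P hP σ hσ => one_of_isEquiv h (h1 P hP σ hσ)

theorem detCyc_of_isEquiv {ρ₁ ρ₂ : GaloisRepAdic A} (h : ρ₁.IsEquiv ρ₂) {p : ℕ}
    (h1 : ρ₁.DetIsCyclotomic p) : ρ₂.DetIsCyclotomic p := by
  refine ⟨h1.1, fun n σ a ha => ?_⟩
  rw [det_of_isEquiv h]
  exact h1.2 n σ a ha

variable {B : Type} [CommRing B] [IsLocalRing B]

theorem isEquiv_baseChange (φ : A →+* B) (hφ : IsLocalHom φ) {ρ₁ ρ₂ : GaloisRepAdic A}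
    (h : ρ₁.IsEquiv ρ₂) : (ρ₁.baseChangeAlong φ hφ).IsEquiv (ρ₂.baseChangeAlong φ hφ) := by
  obtain ⟨e⟩ := h
  exact ⟨e.baseChangeAlong φ hφ⟩

theorem baseChange_model (φ : A →+* B) (hφ : IsLocalHom φ) {ρ : GaloisRepAdic A}
    {T : GQ →* Matrix (Fin 2) (Fin 2) A} {hT : MatCont T} (h : ρ.IsEquiv (matRep T hT)) :
    (ρ.baseChangeAlong φ hφ).IsEquiv (matRep (mapT φ T) (hT.map φ hφ)) :=
  isEquiv_trans (isEquiv_baseChange φ hφ h) (matRep_baseChangeAlong φ hφ hT)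

theorem exists_model (ρ : GaloisRepAdic A) :
    ∃ (T : GQ →* Matrix (Fin 2) (Fin 2) A) (hT : MatCont T), ρ.IsEquiv (matRep T hT) := by
  haveI := Module.finite_of_finrank_eq_succ ρ.finrank_eq
  have b : Module.Basis (Fin 2) A ρ.V := Module.finBasisOfFinrankEq A ρ.V ρ.finrank_eq
  let T : GQ →* Matrix (Fin 2) (Fin 2) A :=
    { toFun := fun g => LinearMap.toMatrix b b (ρ.ρ g)
      map_one' := by rw [map_one, Module.End.one_eq_id, LinearMap.toMatrix_id]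
      map_mul' := fun g h => by
        rw [map_mul, Module.End.mul_eq_comp, LinearMap.toMatrix_comp b b b] }
  have hT : MatCont T := by
    intro n
    obtain ⟨L, hL, h1⟩ := ρ.isAdicContinuous n
    refine ⟨L, hL, fun σ hσ i j => ?_⟩
    have h2 := h1 σ hσ (b j)
    have h3 : T σ i j - (1 : Matrix (Fin 2) (Fin 2) A) i j = b.repr (ρ.ρ σ (b j) - b j) i := by
      rw [map_sub, Finsupp.sub_apply, Module.Basis.repr_self]
      congr 1
      · exact LinearMap.toMatrix_apply b b (ρ.ρ σ) i j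
      · rw [Matrix.one_apply, Finsupp.single_apply]
        simp only [eq_comm]
    rw [h3]
    have h4 : b.equivFun (ρ.ρ σ (b j) - b j) ∈
        (maximalIdeal A ^ n) • (⊤ : Submodule A (Fin 2 → A)) := by
      have h5 : (maximalIdeal A ^ n) • (⊤ : Submodule A (Fin 2 → A)) =
          ((maximalIdeal A ^ n) • (⊤ : Submodule A ρ.V)).map (b.equivFun : ρ.V →ₗ[A] (Fin 2 → A)) := by
        rw [Submodule.map_smul'', Submodule.map_top, LinearEquiv.range]
      rw [h5]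
      exact Submodule.mem_map_of_mem h2
    exact (mem_smul_top_pi _ _).mp h4 i
  refine ⟨T, hT, ⟨{ toLinearEquiv := b.equivFun, map_apply := fun σ x => ?_ }⟩⟩
  change b.equivFun (ρ.ρ σ x) = T σ *ᵥ b.equivFun x
  have := LinearMap.toMatrix_mulVec_repr b b (ρ.ρ σ) x
  ext i
  exact (congrFun this i).symm

end Basic

end Fermat.Agent.RT.Sel
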