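import Fermat.Agent.RT.SelSt
import Fermat.Agent.RT.SelCot
import Fermat.Agent.RT.SelRep

/-!
# Allowing ramification at primes where the residual representation is unramified
-/

set_option autoImplicit false
set_option maxHeartbeats 800000
set_option linter.unusedSectionVars false
set_option linter.style.haveILetI false

noncomputable section

namespace Fermat.Agent.RT.Sel

open IsLocalRing Matrix Fermat.Agent.DefRing Fermat.Agent.GalRep Fermat.Agent.TWGal
  Fermat.Agent.TWInst GaloisRep IsDiscreteValuationRing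

local notation "Qbar" => AlgebraicClosure ℚ

section Quot

variable {O : Type} [CommRing O] [IsLocalRing O] {R : Type} [CommRing R] [IsLocalRing R]
  [Algebra O R]

theorem mk_isLocalHom {J : Ideal R} (hJ : J ≤ maximalIdeal R) :
    IsLocalHom (Ideal.Quotient.mk J) := by
  constructor
  intro x hx
  by_contra h
  have h1 : x ∈ maximalIdeal R := (mem_maximalIdeal x).mpr h
  obtain ⟨y, hy⟩ := hx.exists_right_inv
  obtain ⟨y, rfl⟩ := Ideal.Quotient.mk_surjective y
  rw [← map_mul, ← map_one (Ideal.Quotient.mk J), Ideal.Quotient.eq] at hy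
  have h2 : (1 : R) ∈ maximalIdeal R := by
    have := (maximalIdeal R).sub_mem ((maximalIdeal R).mul_mem_right y h1) (hJ hy)
    simpa using this
  exact (Ideal.ne_top_iff_one _).mp (Ideal.IsPrime.ne_top inferInstance) h2

theorem quot_isLocalRing {J : Ideal R} (hJ : J ≤ maximalIdeal R) : IsLocalRing (R ⧸ J) := by
  haveI : Nontrivial (R ⧸ J) := Ideal.Quotient.nontrivial_iff.mpr (by
    rintro rfl
    exact Ideal.IsPrime.ne_top (inferInstance : (maximalIdeal R).IsPrime) (top_le_iff.mp hJ))
  exact IsLocalRing.of_surjective' (Ideal.Quotient.mk J) Ideal.Quotient.mk_surjective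

theorem quot_isAdicComplete {J : Ideal R} [IsLocalRing (R ⧸ J)] (hJ : J ≤ maximalIdeal R)
    [IsNoetherianRing R] [IsAdicComplete (maximalIdeal R) R] :
    IsAdicComplete (maximalIdeal (R ⧸ J)) (R ⧸ J) := by
  haveI : IsLocalHom (algebraMap R (R ⧸ J)) := mk_isLocalHom hJ
  exact IsLocalRing.isAdicComplete_of_module_finite (𝒪 := R)

theorem quot_residue_surjective {J : Ideal R} [IsLocalRing (R ⧸ J)] (hJ : J ≤ maximalIdeal R)
    (h : Function.Surjective (residue R ∘ algebraMap O R)) :
    Function.Surjective (residue (R ⧸ J) ∘ algebraMap O (R ⧸ J)) := by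
  haveI := mk_isLocalHom hJ
  intro y
  obtain ⟨y, rfl⟩ := residue_surjective y
  obtain ⟨x, rfl⟩ := Ideal.Quotient.mk_surjective y
  obtain ⟨c, hc⟩ := h (residue R x)
  refine ⟨c, ?_⟩
  have h1 := congrArg (ResidueField.map (Ideal.Quotient.mk J)) hc
  rw [Function.comp_apply, ResidueField.map_residue, ResidueField.map_residue] at h1
  exact h1

end Quot

section Comp

variable {A B C : Type} [CommRing A] [IsLocalRing A] [CommRing B] [IsLocalRing B] [CommRing C]
  [IsLocalRing C]

theorem baseChange_comp (f : A →+* B) (hf : IsLocalHom f) (g : B →+* C) (hg : IsLocalHom g)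
    (h : A →+* C) (hh : IsLocalHom h) (hc : g.comp f = h) (ρ : GaloisRepAdic A) :
    ((ρ.baseChangeAlong f hf).baseChangeAlong g hg).IsEquiv (ρ.baseChangeAlong h hh) := by
  subst hc
  obtain ⟨T, hT, hρ⟩ := exists_model ρ
  have h1 := baseChange_model g hg (baseChange_model f hf hρ)
  have h2 := baseChange_model (g.comp f) hh hρ
  exact isEquiv_trans h1 (isEquiv_symm h2)

theorem baseChange_id (f : A →+* A) (hf : IsLocalHom f) (h : f = RingHom.id A)
    (ρ : GaloisRepAdic A) : (ρ.baseChangeAlong f hf).IsEquiv ρ := by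
  subst h
  obtain ⟨T, hT, hρ⟩ := exists_model ρ
  have h1 := baseChange_model (RingHom.id A) hf hρ
  exact isEquiv_trans h1 (isEquiv_symm hρ)

theorem trace_baseChange (f : A →+* B) (hf : IsLocalHom f) (ρ : GaloisRepAdic A) (σ : GQ) :
    (ρ.baseChangeAlong f hf).trace σ = f (ρ.trace σ) := by
  obtain ⟨T, hT, hρ⟩ := exists_model ρ
  have h1 := baseChange_model f hf hρ
  rw [← trace_of_isEquiv h1, ← trace_of_isEquiv hρ, trace_matRep, trace_matRep,
    Matrix.trace_fin_two, Matrix.trace_fin_two, map_add]
  rfl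

end Comp

section Main

variable {O : Type} [CommRing O] [IsDomain O] [IsDiscreteValuationRing O]
  [IsAdicComplete (maximalIdeal O) O] {ρbar : ResidualGaloisRep (ResidueField O)}
  {D₀ D₁ : ∀ ⦃A : Type⦄ [CommRing A] [IsLocalRing A] [Algebra O A], GaloisRepAdic A → Prop}
  {p : ℕ} {S : Finset ℕ}

/-- `D₁` is stable under quotients of complete rings -/
theorem cond_quot (hD : IsDeformationCondition O D₁) {R : Type} [CommRing R] [IsLocalRing R]
    [IsNoetherianRing R] [IsAdicComplete (maximalIdeal R) R] [Algebra O R]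
    (hloc : IsLocalHom (algebraMap O R))
    (hres : Function.Surjective (residue R ∘ algebraMap O R)) {ρ : GaloisRepAdic R} (h : D₁ ρ)
    {J : Ideal R} (hJ : J ≤ maximalIdeal R) [IsLocalRing (R ⧸ J)]
    (hmk : IsLocalHom (Ideal.Quotient.mkₐ O J : R →+* R ⧸ J)) :
    D₁ (ρ.baseChangeAlong (Ideal.Quotient.mkₐ O J : R →+* R ⧸ J) hmk) := by
  haveI := quot_isAdicComplete (R := R) hJ
  have hlocB : IsLocalHom (algebraMap O (R ⧸ J)) := by
    haveI := hloc
    haveI := mk_isLocalHom hJ
    exact RingHom.isLocalHom_comp (Ideal.Quotient.mk J) (algebraMap O R)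
  rw [hD.iff_forall_surjective hlocB (quot_residue_surjective hJ hres)]
  intro C _ _ _ hC q hq hqs
  have h1 := (hD.iff_forall_surjective hloc hres ρ).mp h hC (q.comp (Ideal.Quotient.mkₐ O J))
    (by
      haveI := hq
      haveI := hmk
      exact RingHom.isLocalHom_comp (q : R ⧸ J →+* C) (Ideal.Quotient.mkₐ O J : R →+* R ⧸ J))
    (hqs.comp (Ideal.Quotient.mkₐ_surjective O J))
  exact hD.of_isEquiv hC (isEquiv_symm (baseChange_comp _ hmk _ hq _ _ rfl ρ)) h1

/-- residual matrices of a quotient -/
theorem residual_quot {R : Type} [CommRing R] [IsLocalRing R] [Algebra O R]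
    (hloc : IsLocalHom (algebraMap O R)) (b : Module.Basis (Fin 2) (ResidueField O) ρbar.V)
    {ρ : GaloisRepAdic R} {T : GQ →* Matrix (Fin 2) (Fin 2) R} {hT : MatCont T}
    (hρ : ρ.IsEquiv (matRep T hT))
    (hTb : ∀ g i j, residue R (T g i j) =
      ResidueField.map (algebraMap O R) (resMat ρbar b g i j))
    {B : Type} [CommRing B] [IsLocalRing B] [Algebra O B] (hB : IsLocalHom (algebraMap O B))
    (f : R →ₐ[O] B) (hf : IsLocalHom (f : R →+* B)) :
    (ρ.baseChangeAlong (f : R →+* B) hf).residual.IsEquiv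
      (ρbar.baseChangeAlong (ResidueField.map (algebraMap O B))) := by
  have h1 := baseChange_model (f : R →+* B) hf hρ
  obtain ⟨e⟩ := h1
  obtain ⟨e'⟩ := matRep_residual_isEquiv ρbar b (ResidueField.map (algebraMap O B))
    (mapT (f : R →+* B) T) (hT.map _ hf) (by
      intro g i j
      have h2 := congrArg (ResidueField.map (f : R →+* B)) (hTb g i j)
      rw [ResidueField.map_residue, ResidueField.map_map] at h2
      rw [mapT_apply, h2]
      congr 1
      have : (f : R →+* B).comp (algebraMap O R) = algebraMap O B := f.comp_algebraMap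
      congr 1)
  exact ⟨e.residual.trans e'⟩

end Main

end Fermat.Agent.RT.Sel
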