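import Mathlib
import Fermat.Prelude.Def_GaloisRep_DeformationCondition
import Fermat.Prelude.Def_GaloisRep_DeformationRingData
import Fermat.Prelude.Def_GaloisRep_LocalConditions

/-!
# Growth of the cotangent space: statements
-/

set_option autoImplicit false

namespace Fermat.Agent.RT

open IsDiscreteValuationRing GaloisRep

/-- comparison of deformation rings when ramification is allowed at a set `S` of primes, where the
residual representation is unramified -/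
def SelQSt : Prop := ∀ (O : Type) [CommRing O] [IsDomain O] [IsDiscreteValuationRing O]
  [IsAdicComplete (IsLocalRing.maximalIdeal O) O]
  (ρbar : ResidualGaloisRep (IsLocalRing.ResidueField O))
  (D₀ D₁ : ∀ ⦃A : Type⦄ [CommRing A] [IsLocalRing A] [Algebra O A], GaloisRepAdic A → Prop)
  (p : ℕ) (S : Finset ℕ), p.Prime → (∀ q ∈ S, q.Prime ∧ q ≠ p ∧ ρbar.IsUnramifiedAt q) →
  IsDeformationCondition O D₁ →
  (∀ ⦃A : Type⦄ [CommRing A] [IsLocalRing A] [Algebra O A] (ρ : GaloisRepAdic A),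
    D₁ ρ → ρ.DetIsCyclotomic p) →
  (∀ ⦃A : Type⦄ [CommRing A] [IsLocalRing A] [Algebra O A] (ρ : GaloisRepAdic A),
    D₀ ρ ↔ D₁ ρ ∧ ∀ q ∈ S, ρ.IsUnramifiedAt q) →
  ∀ (R₀ : DeformationRingData O ρbar D₀) (R₁ : DeformationRingData O ρbar D₁),
  ∃ (φ : R₁.R →ₐ[O] R₀.R) (hφ : IsLocalHom (φ : R₁.R →+* R₀.R)), Function.Surjective φ ∧
    (R₁.ρ.baseChangeAlong (φ : R₁.R →+* R₀.R) hφ).IsEquiv R₀.ρ ∧
    ∀ (π : R₀.R →ₐ[O] O) (a : ℕ → O),
      (∀ q ∈ S, ∃ A : ValuationSubring (AlgebraicClosure ℚ), A.LiesOverPrime q ∧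
        ∃ σ : AlgebraicClosure ℚ ≃ₐ[ℚ] AlgebraicClosure ℚ, A.IsFrobeniusAt σ q ∧
          π (R₀.ρ.trace σ) = a q) →
      Module.length O (RingHom.ker (π.comp φ)).Cotangent ≤
        Module.length O (RingHom.ker π).Cotangent +
          ∑ q ∈ S, addVal O (((q : O) - 1) * (((q : O) + 1) ^ 2 - a q ^ 2))

end Fermat.Agent.RT
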