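import Fermat.Agent.RT.StepSt
import Fermat.Agent.TWG.Raise
import Fermat.Agent.S43Glue.Dict

/-!
# The non-minimal case, I
-/

set_option autoImplicit false
set_option maxHeartbeats 400000
set_option linter.unusedSectionVars false

noncomputable section

namespace Fermat.Agent.RT

open IsLocalRing Matrix Fermat.Agent.DefRing Fermat.Agent.GalRep Fermat.Agent.TWPatch
  Fermat.Agent.TWLoc Fermat.Agent.TWGal CuspForm Fermat.Agent.AnJac Fermat.Agent.HeckeQ GaloisRep
open Fermat.Agent.TWInst (zq exists_inertia_zq Psi Psi_apply Psi_inertia KK exists_fields)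
open Fermat.Agent.TWCoh hiding GQ

local notation "Qbar" => AlgebraicClosure ℚ

attribute [local instance] algDk BLev.cnl

variable {p : ℕ} [hpf : Fact p.Prime] {O : Type} [CommRing O] [CNL O]

section Up

/-- the residual eigensystem at higher level -/
theorem Bas.exists_upf (G : Bas p O) {N' : ℕ} [NeZero N'] (h : G.N ∣ N') {S' : Set ℕ}
    (hS' : G.S ⊆ S') (hNS : ∀ q : ℕ, q.Prime → q ∣ N' → q ∈ S') :
    ∃ f' : heckeAlgebra N' 2 S' →+* ResidueField O,
      ∀ (ℓ : ℕ) (hℓ : ℓ.Prime) (hℓN : ¬ ℓ ∣ N') (hℓS : ℓ ∉ S') (hℓN' : ¬ ℓ ∣ G.N)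
        (hℓS' : ℓ ∉ G.S), f' (heckeAlgebra.T hℓ hℓN hℓS) = G.f (heckeAlgebra.T hℓ hℓN' hℓS') := by
  obtain ⟨R, hR⟩ := TWG.exists_restrict (M := G.N) (N := N') h hNS
  refine ⟨G.f.comp ((Subalgebra.inclusion (heckeAlgebra_mono (N := G.N) (k := 2) hS')).toRingHom.comp
    R), fun ℓ hℓ hℓN hℓS hℓN' hℓS' => ?_⟩
  rw [RingHom.comp_apply, RingHom.comp_apply, hR ℓ hℓ hℓN' hℓN hℓS]
  rfl

/-- the base data at higher level -/
def Bas.up (G : Bas p O) {N' : ℕ} [NeZero N'] (h : G.N ∣ N') {S' : Set ℕ}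
    (hS' : G.S ⊆ S') (hfin : S'.Finite) (hNS : ∀ q : ℕ, q.Prime → q ∣ N' → q ∈ S') : Bas p O where
  N := N'
  aux := G.aux.imp id fun ⟨r, h1, h2, h3⟩ => ⟨r, h1, h2, h3.trans h⟩
  hp2 := G.hp2
  hpO := G.hpO
  S := S'
  hS := hfin
  hpS := hS' G.hpS
  hNS := hNS
  ρb := G.ρb
  cont := G.cont
  span := G.span
  f := (G.exists_upf h hS' hNS).choose
  frob := fun ℓ hℓ hℓN hℓS A hA τ hτ => by
    have hℓN' : ¬ ℓ ∣ G.N := fun h' => hℓN (h'.trans h)
    have hℓS' : ℓ ∉ G.S := fun h' => hℓS (hS' h')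
    rw [(G.exists_upf h hS' hNS).choose_spec ℓ hℓ hℓN hℓS hℓN' hℓS']
    exact G.frob ℓ hℓ hℓN' hℓS' A hA τ hτ
  comm := G.comm

variable (G : Bas p O) {N' : ℕ} [NeZero N'] (h : G.N ∣ N') {S' : Set ℕ}
    (hS' : G.S ⊆ S') (hfin : S'.Finite) (hNS : ∀ q : ℕ, q.Prime → q ∣ N' → q ∈ S')

theorem Bas.up_τ (l : PS S') : (G.up h hS' hfin hNS).τ l = G.τ (inclPS hS' l) :=
  (G.exists_upf h hS' hNS).choose_spec l.1 l.2.1 (fun h' => l.2.2 (hNS _ l.2.1 h')) l.2.2
    (fun h' => l.2.2 (hS' (G.hNS _ l.2.1 h'))) (fun h' => l.2.2 (hS' h'))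

end Up

section Cond

variable [IsDomain O] [IsDiscreteValuationRing O] [CharZero O] {G : Bas p O} (D : GalD G)

/-- **the deformation condition for representations over rings receiving the Hecke algebra** -/
theorem GalD.dd_of' (HB : DatumB) {t' : PType} {N' : ℕ} [NeZero N']
    (hN' : ∀ q ∈ D.Sf, q ≠ p → q ∣ N' ∧ ¬ q ^ 2 ∣ N') (ht : LevelType t' p N' D.ρbar)
    {S' : Set ℕ} {Q : Finset ℕ} (hS' : ((D.Sf ∪ Q : Finset ℕ) : Set ℕ) = S')
    (hNS : ∀ q : ℕ, q.Prime → q ∣ N' → q ∈ S')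
    {B : Type} [CommRing B] [CNL B] [Algebra O B] [Module.Finite O B] (κ : B →ₐ[O] ResidueField O)
    (g : heckeAlgebra N' 2 S' →+* B) {T : GQ →* Matrix (Fin 2) (Fin 2) B} (hT : MatCont T)
    (hres : ∀ σ, (T σ).map κ = G.ρb σ)
    (hfrob : ∀ (ℓ : ℕ) (hℓ : ℓ.Prime) (hℓN : ¬ ℓ ∣ N') (hℓS : ℓ ∉ S'),
      ∀ A : ValuationSubring Qbar, A.LiesOverPrime ℓ → ∀ τ : GQ, A.IsFrobeniusAt τ ℓ →
          (T τ).trace = g (heckeAlgebra.T hℓ hℓN hℓS) ∧ (T τ).det = (ℓ : B)) :
    DD O t' p (D.Smin ∪ Q) D.Smin (matRep T hT) := by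
  haveI := isLocalHom_of_kappa κ
  have hpS' : p ∈ S' := by
    rw [← hS']
    exact Finset.mem_coe.mpr (Finset.mem_union_left _ (D.hsub D.hpSmin))
  have hresB : ∀ σ i j, residue B (T σ i j) =
      ResidueField.map (algebraMap O B) (resMat D.ρbar D.b σ i j) := by
    intro σ i j
    rw [residue_eq_map_kappa κ, D.hb, ← hres]
    rfl
  have h1 : DD O t' p (D.Sf ∪ Q) D.Sf (matRep T hT) :=
    HB O p G.hp2 G.hpO D.ρbar D.habs D.b N' S' (D.Sf ∪ Q) hS' hpS' hNS B (residue_comp_surj κ) g T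
      hT hresB hfrob t' D.Sf (fun q hq _ hqp => hN' q hq hqp) ht
  refine h1.change (fun q hq hqS => ?_) D.hsub
  rw [Finset.mem_union, not_or] at hqS
  by_cases hqf : q ∈ D.Sf
  swap
  · exact h1.unr hq (by rw [Finset.mem_union, not_or]; exact ⟨hqf, hqS.2⟩)
  have hqp : q ≠ p := fun h => hqS.1 (h ▸ D.hpSmin)
  have hur : D.ρbar.IsUnramifiedAt q := by
    by_contra h
    exact hqS.1 ((D.hmin q hq hqp).mpr h)
  obtain ⟨hq1, haux⟩ := D.haux q hqf hqS.1
  have hdc := h1.detCyc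
  have hrefl : (matRep T hT).IsEquiv (matRep T hT) := ⟨GaloisRepAdic.Equiv.refl _⟩
  have hpB : (p : B) ∈ maximalIdeal B := hdc.1
  have hκ := kappa_surjective κ
  have hk0 : ((q : ℕ) : ResidueField O) ≠ 0 := by
    haveI := G.charP
    intro h
    exact hqp ((Nat.prime_dvd_prime_iff_eq hpf.out hq).mp
      ((CharP.cast_eq_zero_iff (ResidueField O) p q).mp h)).symm
  intro P hP σ hσ
  rw [Sel.one_matRep]
  obtain ⟨A, hA, Φ, hΦ⟩ := Frob.exists_place_frobenius hq
  refine TWInst.one_all_places hq hA (fun σ hσ => ?_) hP hσ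
  have hcp : ∀ σ ∈ A.inertiaSubgroupIn ℚ, (T σ).charpoly = (Polynomial.X - 1) ^ 2 := by
    intro σ hσ
    have h2 := h1.2 q hqf hq hqp A hA σ hσ
    have h3 : (matRep T hT).ρ σ = Matrix.toLin' (T σ) := rfl
    rw [h3] at h2
    have h4 : (LinearMap.toMatrix (Pi.basisFun B (Fin 2)) (Pi.basisFun B (Fin 2))
        (Matrix.toLin' (T σ))).charpoly = (Matrix.toLin' (T σ)).charpoly :=
      LinearMap.charpoly_toMatrix _ _
    rw [LinearMap.toMatrix_eq_toMatrix', LinearMap.toMatrix'_toLin'] at h4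
    exact h4.trans h2
  have htd : ∀ σ ∈ A.inertiaSubgroupIn ℚ, (T σ).trace = 2 ∧ (T σ).det = 1 := by
    intro σ hσ
    have h2 := hcp σ hσ
    rw [Matrix.charpoly_fin_two] at h2
    have h3 : (Polynomial.X - 1 : Polynomial B) ^ 2 =
        Polynomial.X ^ 2 - Polynomial.C 2 * Polynomial.X + Polynomial.C 1 := by
      rw [Polynomial.C_1]
      have : (Polynomial.C 2 : Polynomial B) = 2 := rfl
      rw [this]
      ring
    rw [h3] at h2
    constructor
    · have h4 := congrArg (fun P => Polynomial.coeff P 1) h2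
      simp only [Polynomial.coeff_add, Polynomial.coeff_sub, Polynomial.coeff_C_mul,
        Polynomial.coeff_X_pow, Polynomial.coeff_X_one, Polynomial.coeff_C] at h4
      norm_num at h4
      exact h4
    · have h4 := congrArg (fun P => Polynomial.coeff P 0) h2
      simp only [Polynomial.coeff_add, Polynomial.coeff_sub, Polynomial.coeff_C_mul,
        Polynomial.coeff_X_pow, Polynomial.coeff_X_zero, Polynomial.coeff_C] at h4
      norm_num at h4
      exact h4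
  have htrκ : κ (T Φ).trace = (G.ρb Φ).trace := by
    rw [← hres, Matrix.trace_fin_two, Matrix.trace_fin_two, map_add]
    rfl
  refine TWG.unram_of_unip hT hq hA hpf.out hqp.symm hpB ?_ (fun σ hσ => (htd σ hσ).1)
    (fun σ hσ => (htd σ hσ).2) hΦ (Sel.det_frob hrefl hdc hpf.out hq hqp.symm hA hΦ)
    ?_ ?_ ?_ hσ
  · intro σ hσ i j
    have h2 : D.ρbar.ρ σ = 1 := hur A hA σ hσ
    have h3 : G.ρb σ = 1 := by
      rw [← D.hb, resMat, h2, Module.End.one_eq_id, LinearMap.toMatrix_id]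
    have h4 : (T σ).map κ = 1 := (hres σ).trans h3
    rw [← ker_kappa κ, RingHom.mem_ker, Matrix.sub_apply]
    have h5 := congrFun (congrFun h4 i) j
    rw [Matrix.map_apply] at h5
    rw [map_sub]
    have h6 : κ ((1 : Matrix (Fin 2) (Fin 2) B) i j) =
        (1 : Matrix (Fin 2) (Fin 2) (ResidueField O)) i j := by
      rw [Matrix.one_apply, Matrix.one_apply]
      split_ifs
      · exact map_one _
      · exact map_zero _
    rw [h6]
    exact sub_eq_zero.mpr h5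
  · exact isUnit_of_kappa (κ := (κ : B →+* ResidueField O)) hκ (by rw [map_natCast]; exact hk0)
  · exact isUnit_of_kappa (κ := (κ : B →+* ResidueField O)) hκ (by
      rw [map_sub, map_natCast, map_one]
      exact sub_ne_zero.mpr hq1)
  · refine isUnit_of_kappa (κ := (κ : B →+* ResidueField O)) hκ ?_
    have h7 : (κ : B →+* ResidueField O) (T Φ).trace = (G.ρb Φ).trace := htrκ
    rw [map_sub, map_pow, map_add, map_natCast, map_one, map_pow, h7]
    exact sub_ne_zero.mpr (haux A hA Φ hΦ)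

end Cond

end Fermat.Agent.RT
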