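import Fermat.Agent.RT.StepA
import Fermat.Agent.RT.CotFin

/-!
# The non-minimal case, II
-/

set_option autoImplicit false
set_option maxHeartbeats 400000
set_option linter.unusedSectionVars false

noncomputable section

namespace Fermat.Agent.RT

open IsLocalRing Matrix Fermat.Agent.DefRing Fermat.Agent.GalRep Fermat.Agent.TWPatch
  Fermat.Agent.TWLoc Fermat.Agent.TWGal CuspForm Fermat.Agent.AnJac Fermat.Agent.HeckeQ GaloisRep
open Fermat.Agent.TWInst (zq exists_inertia_zq Psi Psi_apply Psi_inertia KK exists_fields)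
open Fermat.Agent.TWCoh hiding GQ

local notation "Qbar" => AlgebraicClosure ℚ

attribute [local instance] algDk BLev.cnl

variable {p : ℕ} [hpf : Fact p.Prime] {O : Type} [CommRing O] [CNL O]
  [IsDomain O] [IsDiscreteValuationRing O] [CharZero O] {G : Bas p O} (D : GalD G)
  [Algebra ℤ_[p] O] [Module.Finite ℤ_[p] O]

/-- the set of bad primes at higher level -/
abbrev GalD.SQ (Q : Finset ℕ) : Set ℕ := ((D.Sf ∪ Q : Finset ℕ) : Set ℕ)

theorem GalD.sub_SQ (Q : Finset ℕ) : G.S ⊆ D.SQ Q := by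
  rw [← D.hSf]
  exact Finset.coe_subset.mpr Finset.subset_union_left

theorem injective_Zp : Function.Injective (algebraMap ℤ_[p] O) := by
  rw [injective_iff_map_eq_zero]
  intro x hx
  by_contra hne
  obtain ⟨u, m, rfl⟩ : ∃ (u : ℤ_[p]ˣ) (m : ℕ), x = u * (p : ℤ_[p]) ^ m :=
    ⟨_, _, PadicInt.unitCoeff_spec hne⟩
  rw [map_mul, map_pow, map_natCast] at hx
  rcases mul_eq_zero.mp hx with h1 | h1
  · exact (u.isUnit.map (algebraMap ℤ_[p] O)).ne_zero h1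
  · exact pow_ne_zero m (Nat.cast_ne_zero.mpr hpf.out.ne_zero) h1

/-- **the map from the deformation ring to the Hecke ring of higher level** -/
theorem GalD.exists_theta (HB : DatumB) {t' : PType} {N' : ℕ} [NeZero N'] (h : G.N ∣ N')
    {Q : Finset ℕ} (hNS : ∀ q : ℕ, q.Prime → q ∣ N' → q ∈ D.SQ Q)
    (hN' : ∀ q ∈ D.Sf, q ≠ p → ¬ q ^ 2 ∣ N') (ht : LevelType t' p N' D.ρbar)
    (R₁ : DeformationRingData O D.ρbar (DD O t' p (D.Smin ∪ Q) D.Smin)) :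
    ∃ (x₀ : heckeAlgebra N' 2 (D.SQ Q) →+*
        (G.up h (D.sub_SQ Q) (Finset.finite_toSet _) hNS).R₀)
      (θ : R₁.R →ₐ[O] (G.up h (D.sub_SQ Q) (Finset.finite_toSet _) hNS).R₀),
      Function.Surjective θ ∧
      (∀ l : PS (D.SQ Q), x₀ (gT (fun l h' => l.2.2 (hNS _ l.2.1 h')) l) =
        T0.T (Set.Subset.refl _) l) ∧
      ∀ l : PS (D.SQ Q), ∀ A : ValuationSubring Qbar, A.LiesOverPrime l.1 → ∀ σ : GQ,
        A.IsFrobeniusAt σ l.1 → θ (R₁.ρ.trace σ) = T0.T (Set.Subset.refl _) l := by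
  set G' := G.up h (D.sub_SQ Q) (Finset.finite_toSet _) hNS with hG'
  haveI := G'.nontrivial_M0
  haveI := G'.free_M0
  haveI : Module.Finite O (M0 O G'.N G'.τ) := finite_loc
  haveI := G'.cnl_R₀
  haveI := G'.finite_R₀
  haveI hl₀ : IsLocalHom (algebraMap O G'.R₀) := isLocalHom_of_kappa G'.κ₀
  obtain ⟨φK, c, hinj, -, -, -⟩ := exists_fields (p := p) O injective_Zp
  obtain ⟨x₀, hx₀⟩ := G'.exists_x₀ φK hinj
  obtain ⟨ρ₀⟩ := exists_Rep0 x₀ hx₀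
  -- the representation is of the right type
  have hdd₀ : DD O t' p (D.Smin ∪ Q) D.Smin (matRep ρ₀.T ρ₀.cont) :=
    D.dd_of' (Q := Q) HB (N' := N') (fun q hq hqp => ⟨((D.hSN q hq hqp).1).trans h, hN' q hq hqp⟩)
      ht (S' := D.SQ Q) rfl hNS G'.κ₀ x₀ ρ₀.cont ρ₀.res
      (fun ℓ hℓ hℓN hℓS A hA τ hτ => by
        obtain ⟨e1, e2⟩ := ρ₀.frob ⟨ℓ, hℓ, hℓS⟩ A hA τ hτ
        exact ⟨e1.trans (hx₀ ⟨ℓ, hℓ, hℓS⟩).symm, e2⟩)
  obtain ⟨θ₀, ⟨hθ₀, hθ₀e⟩, -⟩ := R₁.universal G'.R₀ (residue_comp_surj G'.κ₀)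
    (matRep ρ₀.T ρ₀.cont) hdd₀ (matRep_residual_isEquiv D.ρbar D.b
      (ResidueField.map (algebraMap O G'.R₀)) ρ₀.T ρ₀.cont (fun g i j => by
        rw [residue_eq_map_kappa G'.κ₀, D.hb]
        have := ρ₀.res g
        change (ρ₀.T g).map G'.κ₀ = G.ρb g at this
        rw [← this]
        rfl))
  have htr : ∀ l : PS (D.SQ Q), ∀ A : ValuationSubring Qbar, A.LiesOverPrime l.1 → ∀ σ : GQ,
      A.IsFrobeniusAt σ l.1 → θ₀ (R₁.ρ.trace σ) = T0.T (Set.Subset.refl _) l := by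
    intro l A hA σ hσ
    have h7 := trace_of_bc hθ₀e σ
    rw [Sel.trace_matRep] at h7
    exact h7.trans (ρ₀.frob l A hA σ hσ).1
  refine ⟨x₀, θ₀, ?_, hx₀, htr⟩
  have h6 : (⊤ : Subalgebra O G'.R₀) ≤ θ₀.range := by
    rw [← G'.adjoin₀, Algebra.adjoin_le_iff]
    rintro _ ⟨l, rfl⟩
    obtain ⟨A, hA, τ, hτ⟩ := Frob.exists_place_frobenius l.2.1
    exact ⟨R₁.ρ.trace τ, htr l A hA τ hτ⟩
  intro x
  exact h6 (show x ∈ ⊤ from trivial)

end Fermat.Agent.RT
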