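import Fermat.Agent.RT.DatB
import Fermat.Agent.RT.StepB

/-!
# Points of the deformation rings are determined by traces of Frobenius elements
-/

set_option autoImplicit false
set_option maxHeartbeats 400000
set_option linter.unusedSectionVars false

noncomputable section

namespace Fermat.Agent.RT

open IsLocalRing Matrix Fermat.Agent.DefRing Fermat.Agent.GalRep Fermat.Agent.TWPatch
  Fermat.Agent.TWLoc Fermat.Agent.TWGal CuspForm Fermat.Agent.AnJac Fermat.Agent.HeckeQ GaloisRep
open Fermat.Agent.TW56 (exists_basis_of_equiv trace_mapT det_mapT)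
open Fermat.Agent.TWCoh hiding GQ

local notation "Qbar" => AlgebraicClosure ℚ

section Frob

variable {A : Type} [CommRing A] [IsLocalRing A]

theorem matCont_sub {T : GQ →* Matrix (Fin 2) (Fin 2) A} {n : ℕ} {g h : GQ}
    (hh : ∀ i j, T h i j - (1 : Matrix (Fin 2) (Fin 2) A) i j ∈ maximalIdeal A ^ n) :
    (T (g * h)).trace - (T g).trace ∈ maximalIdeal A ^ n := by
  have h1 : T (g * h) - T g = T g * (T h - 1) := by rw [map_mul, mul_sub, mul_one]
  have h2 : (T (g * h)).trace - (T g).trace = (T g * (T h - 1)).trace := by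
    rw [← h1, Matrix.trace_sub]
  rw [h2, Matrix.trace_fin_two, Matrix.mul_apply, Matrix.mul_apply, Fin.sum_univ_two,
    Fin.sum_univ_two]
  have h3 : ∀ i j, (T h - 1) i j ∈ maximalIdeal A ^ n := fun i j => by
    rw [Matrix.sub_apply]
    exact hh i j
  exact add_mem (add_mem (Ideal.mul_mem_left _ _ (h3 _ _)) (Ideal.mul_mem_left _ _ (h3 _ _)))
    (add_mem (Ideal.mul_mem_left _ _ (h3 _ _)) (Ideal.mul_mem_left _ _ (h3 _ _)))

/-- traces are determined by the Frobenius elements -/
theorem trace_eq_of_frob' [IsHausdorff (maximalIdeal A) A]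
    {T₁ T₂ : GQ →* Matrix (Fin 2) (Fin 2) A} (h₁ : MatCont T₁) (h₂ : MatCont T₂) (S : Set ℕ)
    (hS : S.Finite)
    (h : ∀ ℓ : ℕ, ℓ.Prime → ℓ ∉ S → ∀ P : ValuationSubring Qbar, P.LiesOverPrime ℓ →
      ∀ τ : GQ, P.IsFrobeniusAt τ ℓ → (T₁ τ).trace = (T₂ τ).trace ∧ (T₁ τ).det = (T₂ τ).det)
    (g : GQ) : (T₁ g).trace = (T₂ g).trace := by
  rw [← sub_eq_zero]
  refine IsHausdorff.haus (inferInstance : IsHausdorff (maximalIdeal A) A) _ fun n => ?_
  rw [SModEq.zero, smul_eq_mul, Ideal.mul_top]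
  obtain ⟨L₁, hL₁, e₁⟩ := h₁ n
  obtain ⟨L₂, hL₂, e₂⟩ := h₂ n
  obtain ⟨ℓ, hℓ, hℓS, P, hP, τ, hτ, m, -, hm, -⟩ := FrobDens.exists_frobenius (L₁ ⊔ L₂) S hS g
  obtain ⟨h3, h4⟩ := h ℓ hℓ hℓS P hP τ hτ
  have h5 : τ ^ m = g * (g⁻¹ * τ ^ m) := by group
  have hfix : ∀ x ∈ L₁ ⊔ L₂, (g⁻¹ * τ ^ m) x = x := by
    intro x hx
    rw [AlgEquiv.mul_apply, hm x hx]
    exact inv_smul_smul g x
  have h6 := matCont_sub (g := g) (e₁ _ fun x hx => hfix x (le_sup_left (a := L₁) hx))
  have h7 := matCont_sub (g := g) (e₂ _ fun x hx => hfix x (le_sup_right (a := L₁) hx))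
  rw [← h5] at h6 h7
  have h8 : (T₁ (τ ^ m)).trace = (T₂ (τ ^ m)).trace := by
    rw [map_pow, map_pow, trace_pow_two, trace_pow_two, h3, h4]
  rw [h8] at h6
  have h9 := sub_mem h7 h6
  have h10 : (T₂ (τ ^ m)).trace - (T₂ g).trace - ((T₂ (τ ^ m)).trace - (T₁ g).trace) =
    (T₁ g).trace - (T₂ g).trace := by ring
  rwa [h10] at h9

end Frob

section Ext

variable {p : ℕ} [hpf : Fact p.Prime] {O : Type} [CommRing O] [CNL O]
  [IsDomain O] [IsDiscreteValuationRing O]

theorem isLocalHom_to {R : Type} [CommRing R] [IsLocalRing R] [Algebra O R]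
    (hs : Function.Surjective (residue R ∘ algebraMap O R)) (f : R →ₐ[O] O) :
    IsLocalHom (f : R →+* O) := by
  constructor
  intro x hx
  by_contra h
  have h1 : x ∈ maximalIdeal R := h
  have h2 : algebraMap O R (f x) - x ∉ maximalIdeal R → False := by
    intro h3
    have h4 : IsUnit (algebraMap O R (f x) - x) := by
      by_contra h5
      exact h3 h5
    have h5 := h4.map f
    rw [map_sub, AlgHom.commutes] at h5
    have : algebraMap O O (f x) = f x := rfl
    rw [this, sub_self] at h5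
    exact not_isUnit_zero h5
  have h3 : algebraMap O R (f x) ∈ maximalIdeal R := by
    by_contra h3
    exact h2 fun h4 => h3 (by simpa using add_mem h4 h1)
  have h4 : IsUnit (algebraMap O R (f x)) := (hx.map (algebraMap O R))
  exact h3 h4

variable {ρbar : ResidualGaloisRep (ResidueField O)} {t : PType} {S Smin : Finset ℕ}

theorem exists_model_def {b : Module.Basis (Fin 2) (ResidueField O) ρbar.V}
    (R : DeformationRingData O ρbar (DD O t p S Smin)) :
    ∃ (T : GQ →* Matrix (Fin 2) (Fin 2) R.R) (hT : MatCont T), R.ρ.IsEquiv (matRep T hT) ∧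
      Submodule.span R.R (Set.range T) = ⊤ ∧ ∀ x i j, residue R.R (T x i j) =
        ResidueField.map (algebraMap O R.R) (resMat ρbar b x i j) := by
  obtain ⟨T, hT, hres, he⟩ := exists_matRep ρbar b (ResidueField.map (algebraMap O R.R)) R.ρ
    R.residual_isEquiv
  refine ⟨T, hT, he, ?_, hres⟩
  refine span_eq_top_of_residue _ ?_
  have e := Fermat.Agent.DefRing.span_range_eq_top (k := ResidueField O)
    (K := AlgebraicClosure (ResidueField O)) (resMatHom ρbar b)
    (matrix_irreducible ρbar b R.absIrr)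
  have e2 := span_map_eq_top (ResidueField.map (algebraMap O R.R)) e
  have e3 : (fun x => (residue R.R).mapMatrix (T x)) =
      mapT (ResidueField.map (algebraMap O R.R)) (resMatHom ρbar b) := by
    funext x
    ext i j
    exact hres x i j
  rw [e3]
  exact e2

/-- **points are determined by the traces of Frobenius elements** -/
theorem ext_of_frob (hp2 : p ≠ 2) (R : DeformationRingData O ρbar (DD O t p S Smin))
    (f g : R.R →ₐ[O] O) {S' : Set ℕ} (hS' : S'.Finite)
    (h : ∀ ℓ : ℕ, ℓ.Prime → ℓ ∉ S' → ∀ P : ValuationSubring Qbar, P.LiesOverPrime ℓ →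
      ∀ τ : GQ, P.IsFrobeniusAt τ ℓ → f (R.ρ.trace τ) = g (R.ρ.trace τ)) : f = g := by
  let b : Module.Basis (Fin 2) (ResidueField O) ρbar.V :=
    Module.finBasisOfFinrankEq (ResidueField O) ρbar.V ρbar.finrank_eq
  obtain ⟨T, hT, he, hspan, hres⟩ := exists_model_def (b := b) R
  have hf := isLocalHom_to R.residue_surjective f
  have hg := isLocalHom_to R.residue_surjective g
  have hdc := R.isOfType.detCyc
  have htr : ∀ τ : GQ, R.ρ.trace τ = (T τ).trace := fun τ => by
    exact (Sel.trace_of_isEquiv he τ).symm.trans (Sel.trace_matRep _ _ _)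
  have key := trace_eq_of_frob' (hT.map _ hf) (hT.map _ hg) (S' ∪ {p})
    (hS'.union (Set.finite_singleton p)) (fun ℓ hℓ hℓS P hP τ hτ => by
      have hℓ1 : ℓ ∉ S' := fun h' => hℓS (Or.inl h')
      have hℓ2 : ℓ ≠ p := fun h' => hℓS (Or.inr h')
      refine ⟨?_, ?_⟩
      · rw [trace_mapT, trace_mapT, ← htr]
        exact h ℓ hℓ hℓ1 P hP τ hτ
      · rw [det_mapT, det_mapT, Sel.det_frob he hdc hpf.out hℓ hℓ2.symm hP hτ, map_natCast,
          map_natCast])
  have hs1 : Submodule.span O (Set.range (mapT (f : R.R →+* O) T)) = ⊤ := span_map_eq_top _ hspan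
  have hs2 : Submodule.span O (Set.range (mapT (g : R.R →+* O) T)) = ⊤ := span_map_eq_top _ hspan
  obtain ⟨Q, Q', h1, h2, h3⟩ := exists_conj key hs1 hs2
  have hconj : (matRep (mapT (f : R.R →+* O) T) (hT.map _ hf)).IsEquiv
      (matRep (mapT (g : R.R →+* O) T) (hT.map _ hg)) :=
    matRep_isEquiv_of_conj _ _ Q Q' h1 h2 h3
  -- the type of the representation over `O`
  have hloc : IsLocalHom (algebraMap O O) := ⟨fun a ha => ha⟩
  have hs : Function.Surjective (residue O ∘ algebraMap O O) := residue_surjective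
  have hdd : DD O t p S Smin (matRep (mapT (g : R.R →+* O) T) (hT.map _ hg)) := by
    obtain ⟨b', hb'⟩ := exists_basis_of_equiv he
    have h4 : CC t p S Smin T := by
      rw [← hb']
      exact (DD_iff_CC (𝒪 := O) R.ρ b' t S Smin).mp R.isOfType
    have h5 : CC t p S Smin (mapT (g : R.R →+* O) T) :=
      (mc_CC (𝒪 := O) hp2 t S Smin).map_complete hloc hs g hg h4
    obtain ⟨b'', hb''⟩ := exists_basis_of_equiv
      (show (matRep (mapT (g : R.R →+* O) T) (hT.map _ hg)).IsEquiv
        (matRep (mapT (g : R.R →+* O) T) (hT.map _ hg)) from ⟨GaloisRepAdic.Equiv.refl _⟩)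
    rw [DD_iff_CC (𝒪 := O) _ b'' t S Smin, hb'']
    exact h5
  have hbc : ∀ (u : R.R →ₐ[O] O) (hu : IsLocalHom (u : R.R →+* O)),
      (R.ρ.baseChangeAlong (u : R.R →+* O) hu).IsEquiv
        (matRep (mapT (u : R.R →+* O) T) (hT.map _ hu)) := fun u hu =>
    Sel.baseChange_model _ hu he
  haveI := hloc
  have hresid : (matRep (mapT (g : R.R →+* O) T) (hT.map _ hg)).residual.IsEquiv
      (ρbar.baseChangeAlong (ResidueField.map (algebraMap O O))) := by
    refine matRep_residual_isEquiv ρbar b _ _ _ (fun x i j => ?_)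
    haveI := hg
    have h1 : residue O ((mapT (g : R.R →+* O) T) x i j) =
        ResidueField.map (g : R.R →+* O) (residue R.R (T x i j)) := rfl
    rw [h1, hres, ResidueField.map_map]
    congr 1
    have h2 : (g : R.R →+* O).comp (algebraMap O R.R) = algebraMap O O :=
      RingHom.ext fun a => g.commutes a
    simp only [h2]
  obtain ⟨w, -, hw⟩ := R.universal O hs _ hdd hresid
  rw [hw f ⟨hf, Sel.isEquiv_trans (hbc f hf) hconj⟩, hw g ⟨hg, hbc g hg⟩]

end Ext

end Fermat.Agent.RT
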