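import Fermat.Agent.RT.StepC
import Fermat.Agent.NumC.N1
import Fermat.Agent.NumC.N2

/-!
# The non-minimal case: congruence data
-/

set_option autoImplicit false
set_option maxHeartbeats 400000
set_option linter.unusedSectionVars false

noncomputable section

namespace Fermat.Agent.RT

open IsLocalRing Matrix MvPolynomial Fermat.Agent.DefRing Fermat.Agent.GalRep Fermat.Agent.TWPatch
  Fermat.Agent.TWLoc Fermat.Agent.TWGal CuspForm Fermat.Agent.AnJac Fermat.Agent.HeckeQ GaloisRep
open Fermat.Agent.RT.Om (SO)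
open IsDiscreteValuationRing (addVal)
open Fermat.Agent.TWCoh hiding GQ

local notation "Qbar" => AlgebraicClosure ℚ

section Transfer

/-- transfer of congruence data -/
def CongData.transfer' {O : Type} [CommRing O] [IsDomain O] {A R : Type} [CommRing A] [Algebra O A]
    [CommRing R] [Algebra O R] {πA : A →ₐ[O] O} (πR : R →ₐ[O] O) {H : Type} [AddCommGroup H]
    [Module O H] [Module A H] [Module R H] {d : ℕ} (C : CongData O A πA H d)
    (h1 : ∀ r : R, ∃ t : A, πA t = πR r ∧ ∀ x : H, r • x = t • x)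
    (h2 : ∀ t : A, ∃ r : R, πR r = πA t ∧ ∀ x : H, r • x = t • x) : CongData O R πR H d where
  B := C.B
  perfect := C.perfect
  adj r x y := by
    obtain ⟨t, -, ht⟩ := h1 r
    rw [ht, ht, C.adj]
  e := C.e
  indep := C.indep
  mem_span x := by
    rw [C.mem_span]
    constructor
    · intro h r hr
      obtain ⟨t, ht, ht'⟩ := h1 r
      rw [ht']
      exact h t (ht.trans hr)
    · intro h t ht
      obtain ⟨r, hr, hr'⟩ := h2 t
      rw [← hr']
      exact h r (hr.trans ht)

theorem CongData.gram_transfer' {O : Type} [CommRing O] [IsDomain O] {A R : Type} [CommRing A]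
    [Algebra O A] [CommRing R] [Algebra O R] {πA : A →ₐ[O] O} (πR : R →ₐ[O] O) {H : Type}
    [AddCommGroup H] [Module O H] [Module A H] [Module R H] {d : ℕ} (C : CongData O A πA H d)
    (h1 : ∀ r : R, ∃ t : A, πA t = πR r ∧ ∀ x : H, r • x = t • x)
    (h2 : ∀ t : A, ∃ r : R, πR r = πA t ∧ ∀ x : H, r • x = t • x) :
    (C.transfer' πR h1 h2).gram = C.gram := rfl

variable {O : Type} [CommRing O] [IsDomain O] {k : Type} [Field k] [Algebra O k]

theorem cong_cast₀ {N N' : ℕ} (hN : N = N') {S S' : Set ℕ} (hS : S = S') {τ : PS S → k}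
    {τ' : PS S' → k} (lam : ℕ → O) (hτ : ∀ l, τ l = algebraMap O k (lam l.1))
    (hτ' : ∀ l, τ' l = algebraMap O k (lam l.1)) {d : ℕ}
    (C : CongData O (HA O S) (aeval fun l : PS S => lam l.1) (M0 O N τ) d) :
    ∃ C' : CongData O (HA O S') (aeval fun l : PS S' => lam l.1) (M0 O N' τ') d,
      C'.gram = C.gram := by
  subst hN hS
  obtain rfl : τ = τ' := funext fun l => (hτ l).trans (hτ' l).symm
  exact ⟨C, rfl⟩

theorem cong_cast₁ {N N' : ℕ} (hN : N = N') {S S' : Set ℕ} (hS : S = S')
    (lam : ℕ → O) {d : ℕ} (H : Submodule (HA O S) (SO O N))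
    (hH : H ≤ loc (evI O (fun l : PS S => algebraMap O k (lam l.1))) (SO O N))
    (C : CongData O (HA O S) (aeval fun l : PS S => lam l.1) H d) :
    ∃ (H' : Submodule (HA O S') (SO O N'))
      (C' : CongData O (HA O S') (aeval fun l : PS S' => lam l.1) H' d),
      H' ≤ loc (evI O (fun l : PS S' => algebraMap O k (lam l.1))) (SO O N') ∧
      C'.gram = C.gram := by
  subst hN hS
  exact ⟨H, C, hH, rfl⟩

end Transfer

section Core

variable {p : ℕ} [hpf : Fact p.Prime] {O : Type} [CommRing O] [CNL O]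
  [IsDomain O] [IsDiscreteValuationRing O] [CharZero O] (G : Bas p O)
  (H : Submodule (HA O G.S) (SO O G.N)) (hH : H ≤ loc (evI O G.τ) (SO O G.N))

/-- the action of the Hecke ring on a submodule of the localised symbols -/
def Bas.actH : G.R₀ →+* Module.End O H :=
  Ideal.Quotient.lift _ (Algebra.lsmul O O H : HA O G.S →ₐ[O] _).toRingHom
    (fun t ht => LinearMap.ext fun x => by
      have h1 := (G.mk₀_eq_zero).mp (Ideal.Quotient.eq_zero_iff_mem.mpr ht) ⟨x.1, hH x.2⟩
      have h2 : t • x.1 = 0 := congrArg Subtype.val h1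
      exact Subtype.ext h2)

theorem Bas.actH_mk (t : HA O G.S) (x : H) :
    G.actH H hH (Ideal.Quotient.mk _ t) x = t • x := rfl

theorem Bas.actH_algebraMap (a : O) (x : H) :
    G.actH H hH (algebraMap O G.R₀ a) x = a • x := by
  change G.actH H hH (Ideal.Quotient.mk _ (algebraMap O (HA O G.S) a)) x = a • x
  rw [G.actH_mk, algebraMap_smul]

theorem noZeroSMul_SO : ∀ (a : O) (x : SO O G.N), a • x = 0 → a = 0 ∨ x = 0 := by
  intro a x h
  by_cases ha : a = 0
  · exact Or.inl ha
  right
  apply Subtype.ext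
  funext u v
  have h1 := congrFun (congrFun (congrArg Subtype.val h) u) v
  have h2 : a * x.1 u v = 0 := h1
  exact (mul_eq_zero.mp h2).resolve_left ha

variable {G H}

theorem free_H : Module.Finite O H ∧ Module.Free O H := by
  haveI : IsNoetherian O (SO O G.N) := inferInstance
  have hinj : Function.Injective (H.subtype.restrictScalars O) := Subtype.val_injective
  haveI : IsNoetherian O H := isNoetherian_of_injective (H.subtype.restrictScalars O) hinj
  haveI : Module.IsTorsionFree O H := by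
    rw [Module.isTorsionFree_iff_smul_eq_zero]
    intro a x hx
    rcases noZeroSMul_SO G a x.1 (congrArg Subtype.val hx) with h | h
    · exact Or.inl h
    · exact Or.inr (Subtype.ext h)
  exact ⟨inferInstance, inferInstance⟩

variable {lam : ℕ → O} {d : ℕ} (hd : 0 < d)
  (C : CongData O (HA O G.S) (aeval fun l : PS G.S => lam l.1) H d)

include hd C hH in
/-- the point of the Hecke ring -/
theorem exists_pt : ∃ lamT : G.R₀ →ₐ[O] O, ∀ t : HA O G.S,
    lamT (Ideal.Quotient.mk _ t) = aeval (fun l : PS G.S => lam l.1) t := by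
  set πA : HA O G.S →ₐ[O] O := aeval fun l : PS G.S => lam l.1 with hπA
  have he : C.e ⟨0, hd⟩ ≠ 0 := C.indep.ne_zero _
  have hmem := (C.mem_span (C.e ⟨0, hd⟩)).mp (Submodule.subset_span ⟨_, rfl⟩)
  have hker : ∀ t : HA O G.S, (Ideal.Quotient.mk _ t : G.R₀) = 0 → πA t = 0 := by
    intro t ht
    have h1 : t • C.e ⟨0, hd⟩ = 0 := by
      rw [← G.actH_mk H hH, ht, map_zero]
      rfl
    have h2 : (t - algebraMap O (HA O G.S) (πA t)) • C.e ⟨0, hd⟩ = 0 :=
      hmem _ (by rw [map_sub, AlgHom.commutes]; exact sub_self _)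
    have h3 := (sub_smul t (algebraMap O (HA O G.S) (πA t)) (C.e ⟨0, hd⟩)).symm.trans h2
    rw [h1, zero_sub, neg_eq_zero, algebraMap_smul] at h3
    rcases noZeroSMul_SO G (πA t) (C.e ⟨0, hd⟩).1 (congrArg Subtype.val h3) with h | h
    · exact h
    · exact absurd (Subtype.ext h) he
  refine ⟨Ideal.Quotient.liftₐ _ πA (fun t ht => hker t (Ideal.Quotient.eq_zero_iff_mem.mpr ht)),
    fun t => rfl⟩

include hd C hH in
/-- **the numerical criterion** -/
theorem core_injective {R : Type} [CommRing R] [IsLocalRing R] [IsNoetherianRing R] [Algebra O R]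
    (θ : R →ₐ[O] G.R₀) (hθ : Function.Surjective θ) (lamT : G.R₀ →ₐ[O] O)
    (hlamT : ∀ t : HA O G.S, lamT (Ideal.Quotient.mk _ t) = aeval (fun l : PS G.S => lam l.1) t)
    (hfin : Module.length O (RingHom.ker (lamT.comp θ)).Cotangent ≠ ⊤)
    (hlen : (d : ℕ∞) * Module.length O (RingHom.ker (lamT.comp θ)).Cotangent ≤
      addVal O C.gram) : Function.Injective θ := by
  obtain ⟨hf1, hf2⟩ := free_H (G := G) (H := H)
  letI : Module R H := Module.compHom _ ((G.actH H hH).comp (θ : R →+* G.R₀))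
  have hsm : ∀ (r : R) (x : H), r • x = G.actH H hH (θ r) x := fun _ _ => rfl
  haveI : IsScalarTower O R H := by
    constructor
    intro a r x
    rw [hsm, hsm, Algebra.smul_def, map_mul, AlgHom.commutes, map_mul, Module.End.mul_apply,
      G.actH_algebraMap]
  have h1 : ∀ r : R, ∃ t : HA O G.S, (aeval fun l : PS G.S => lam l.1) t = (lamT.comp θ) r ∧
      ∀ x : H, r • x = t • x := by
    intro r
    obtain ⟨t, ht⟩ := Ideal.Quotient.mk_surjective (θ r)
    refine ⟨t, ?_, fun x => ?_⟩
    · rw [← hlamT, ht]; rfl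
    · rw [hsm, ← ht, G.actH_mk]
  have h2 : ∀ t : HA O G.S, ∃ r : R, (lamT.comp θ) r = (aeval fun l : PS G.S => lam l.1) t ∧
      ∀ x : H, r • x = t • x := by
    intro t
    obtain ⟨r, hr⟩ := hθ (Ideal.Quotient.mk _ t)
    refine ⟨r, ?_, fun x => ?_⟩
    · rw [← hlamT, AlgHom.comp_apply, hr]
    · rw [hsm, hr, G.actH_mk]
  have h3 := n1 O R (lamT.comp θ) H d hd (C.transfer' (lamT.comp θ) h1 h2) hfin
    (by rw [C.gram_transfer']; exact hlen)
  rw [injective_iff_map_eq_zero]
  intro r hr
  have h4 : r ∈ Module.annihilator R H := by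
    rw [Module.mem_annihilator]
    intro x
    rw [hsm, hr, map_zero]
    rfl
  rwa [h3, Ideal.mem_bot] at h4

end Core

end Fermat.Agent.RT
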