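import Fermat.Agent.RT.StepD
import Fermat.Agent.RT.Bound
import Fermat.Agent.RT.SelMain

/-!
# The non-minimal case: the base level and the top level
-/

set_option autoImplicit false
set_option maxHeartbeats 400000
set_option linter.unusedSectionVars false
set_option linter.style.haveILetI false

noncomputable section

namespace Fermat.Agent.RT

open IsLocalRing Matrix MvPolynomial Fermat.Agent.DefRing Fermat.Agent.GalRep Fermat.Agent.TWPatch
  Fermat.Agent.TWLoc Fermat.Agent.TWGal CuspForm Fermat.Agent.AnJac Fermat.Agent.HeckeQ GaloisRep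
open Fermat.Agent.RT.Om (SO)
open IsDiscreteValuationRing (addVal)
open Fermat.Agent.TWInst (exists_fields)
open Fermat.Agent.TWCoh hiding GQ

local notation "Qbar" => AlgebraicClosure ℚ

variable {p : ℕ} [hpf : Fact p.Prime] {O : Type} [CommRing O] [CNL O]
  [IsDomain O] [IsDiscreteValuationRing O] [CharZero O] {G : Bas p O} (D : GalD G)
  [Algebra ℤ_[p] O] [Module.Finite ℤ_[p] O]

/-- **the top level** -/
theorem GalD.finish (HB : DatumB) {t' : PType} {N' : ℕ} [NeZero N'] (h : G.N ∣ N')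
    {Q : Finset ℕ} (hNS : ∀ q : ℕ, q.Prime → q ∣ N' → q ∈ D.SQ Q)
    (hN' : ∀ q ∈ D.Sf, q ≠ p → ¬ q ^ 2 ∣ N') (ht : LevelType t' p N' D.ρbar)
    (R₁ : DeformationRingData O D.ρbar (DD O t' p (D.Smin ∪ Q) D.Smin))
    (lam : ℕ → O) (hlam : ∀ l : PS G.S, G.τ l = algebraMap O (ResidueField O) (lam l.1))
    {d : ℕ} (hd : 0 < d) {S₂ : Set ℕ} (hS₂ : S₂ = D.SQ Q) {L : ℕ} (hL : L = N')
    (H : Submodule (HA O S₂) (SO O L))
    (hH : H ≤ loc (evI O (fun l : PS S₂ => algebraMap O (ResidueField O) (lam l.1))) (SO O L))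
    (C : CongData O (HA O S₂) (aeval fun l : PS S₂ => lam l.1) H d)
    (hlen : ∀ π₁ : R₁.R →ₐ[O] O, (∀ l : PS (D.SQ Q), ∀ A : ValuationSubring Qbar,
      A.LiesOverPrime l.1 → ∀ σ : GQ, A.IsFrobeniusAt σ l.1 → π₁ (R₁.ρ.trace σ) = lam l.1) →
      Module.length O (RingHom.ker π₁).Cotangent ≠ ⊤ ∧
      (d : ℕ∞) * Module.length O (RingHom.ker π₁).Cotangent ≤ addVal O C.gram)
    (ρ : GaloisRepAdic O) (hρ : DD O t' p (D.Smin ∪ Q) D.Smin ρ)
    (hρb : ρ.residual.IsEquiv (D.ρbar.baseChangeAlong (ResidueField.map (algebraMap O O)))) :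
    ∃ χ : heckeAlgebra N' 2 (D.SQ Q) →+* O,
      ∀ (l : ℕ) (hl : l.Prime) (hlL : ¬ l ∣ N') (hlS : l ∉ D.SQ Q),
        ∀ A : ValuationSubring Qbar, A.LiesOverPrime l → ∀ σ : GQ, A.IsFrobeniusAt σ l →
          χ (heckeAlgebra.T hl hlL hlS) = ρ.trace σ := by
  set G' := G.up h (D.sub_SQ Q) (Finset.finite_toSet _) hNS with hG'
  obtain ⟨x₀, θ, hθs, hx₀, htr⟩ := D.exists_theta HB h hNS hN' ht R₁
  obtain ⟨H', C', hH', hC'⟩ := cong_cast₁ (k := ResidueField O) hL hS₂ lam H hH C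
  have hτ : ∀ l : PS (D.SQ Q), algebraMap O (ResidueField O) (lam l.1) = G'.τ l := by
    intro l
    refine Eq.trans ?_ (G.up_τ h (D.sub_SQ Q) (Finset.finite_toSet _) hNS l).symm
    rw [hlam]
    rfl
  have hτ' : (fun l : PS (D.SQ Q) => algebraMap O (ResidueField O) (lam l.1)) = G'.τ := funext hτ
  have hH'' : H' ≤ loc (evI O G'.τ) (SO O G'.N) := hH'.trans_eq
    (congrArg (fun τ : PS (D.SQ Q) → ResidueField O => loc (evI O τ) (SO O N')) hτ')
  obtain ⟨lamT, hlamT⟩ := exists_pt (G := G') (H := H') hH'' hd C'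
  have hpi : ∀ l : PS (D.SQ Q), ∀ A : ValuationSubring Qbar,
      A.LiesOverPrime l.1 → ∀ σ : GQ, A.IsFrobeniusAt σ l.1 →
        (lamT.comp θ) (R₁.ρ.trace σ) = lam l.1 := by
    intro l A hA σ hσ
    rw [AlgHom.comp_apply, htr l A hA σ hσ]
    exact (hlamT (X l)).trans (aeval_X _ _)
  obtain ⟨h1, h2⟩ := hlen _ hpi
  have hinj := core_injective (G := G') (H := H') hH'' hd C' θ hθs lamT hlamT h1
    (h2.trans_eq (congrArg (addVal O) hC').symm)
  have hloc : IsLocalHom (algebraMap O O) := ⟨fun a ha => ha⟩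
  have hs : Function.Surjective (residue O ∘ algebraMap O O) := residue_surjective
  haveI := hloc
  obtain ⟨w, ⟨hw, hwe⟩, -⟩ := R₁.universal O hs ρ hρ hρb
  let e := AlgEquiv.ofBijective θ ⟨hinj, hθs⟩
  refine ⟨(w : R₁.R →+* O).comp ((e.symm : _ →+* R₁.R).comp x₀), fun l hl hlL hlS A hA σ hσ => ?_⟩
  rw [RingHom.comp_apply, RingHom.comp_apply]
  have h3 : x₀ (heckeAlgebra.T hl hlL hlS) = e (R₁.ρ.trace σ) :=
    (hx₀ ⟨l, hl, hlS⟩).trans (htr ⟨l, hl, hlS⟩ A hA σ hσ).symm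
  rw [h3]
  have h4 : (e.symm : _ →+* R₁.R) (e (R₁.ρ.trace σ)) = R₁.ρ.trace σ := e.symm_apply_apply _
  rw [h4]
  exact trace_of_bc hwe σ

/-- **the base level** -/
theorem StepD.base {D : GalD G} (X : StepD D) (HB : DatumB) (HR : ExistsDefRing)
    (HD : IsDefCondDD O p) (D₀ : DeformationRingData O D.ρbar (DD O D.t p D.Smin D.Smin))
    {d : ℕ} (hd : 0 < d)
    (C₀ : CongData O (HA O (X.OD.S : Set ℕ)) (X.OD.π X.OD.S) (M0 O X.OD.N (X.OD.τ X.OD.S)) d) :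
    ∃ π₀ : D₀.R →ₐ[O] O,
      (∀ l : PS G.S, ∀ A : ValuationSubring Qbar, A.LiesOverPrime l.1 → ∀ σ : GQ,
        A.IsFrobeniusAt σ l.1 → π₀ (D₀.ρ.trace σ) = X.OD.lam l.1) ∧
      Module.length O (RingHom.ker π₀).Cotangent ≠ ⊤ ∧
      addVal O C₀.gram = (d : ℕ∞) * Module.length O (RingHom.ker π₀).Cotangent := by
  haveI := G.nontrivial_M0
  haveI := G.free_M0
  haveI : Module.Finite O (M0 O G.N G.τ) := finite_loc
  haveI := G.cnl_R₀
  haveI := G.finite_R₀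
  obtain ⟨θ₀, hbij, htr, hfree, hann, hfin, hfreeO, r, ψ, hψ, g, hg⟩ :=
    D.minimal HB HR HD X.hbar (D.s56 X.ht X.hdet X.hsplit X.hTW) D₀
  have hS : ((X.OD.S : Finset ℕ) : Set ℕ) = G.S := by rw [X.hS]; exact D.hSf
  obtain ⟨C₀', hC₀'⟩ := cong_cast₀ (k := ResidueField O) X.hN hS (τ := X.OD.τ X.OD.S) (τ' := G.τ)
    X.OD.lam (fun l => rfl) (fun l => X.hlam l) C₀
  obtain ⟨lamT, hlamT⟩ := exists_pt (G := G) (H := loc (evI O G.τ) (SO O G.N)) le_rfl hd C₀'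
  refine ⟨lamT.comp θ₀, ?_, ?_⟩
  · intro l A hA σ hσ
    rw [AlgHom.comp_apply, htr l A hA σ hσ]
    exact (hlamT (MvPolynomial.X l)).trans (aeval_X _ _)
  obtain ⟨φK, c, hinj, -, -, -⟩ := exists_fields (p := p) O injective_Zp
  obtain ⟨x₀, hx₀⟩ := G.exists_x₀ φK hinj
  let e := AlgEquiv.ofBijective θ₀ hbij
  have hgen : Algebra.adjoin O (Set.range fun l : PS G.S =>
      ((e.symm : G.R₀ →+* D₀.R).comp x₀) (gT G.not_dvd_N l)) = ⊤ := by
    have h1 : (fun l : PS G.S => ((e.symm : G.R₀ →+* D₀.R).comp x₀) (gT G.not_dvd_N l)) =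
        fun l => e.symm (T0.T (Set.Subset.refl G.S) l) := by
      funext l
      rw [RingHom.comp_apply, hx₀]
      rfl
    have h2 : Set.range (fun l : PS G.S => e.symm (T0.T (Set.Subset.refl G.S) l)) =
        e.symm.toAlgHom '' (Set.range (T0.T (O := O) (N := G.N) (τ := G.τ)
          (Set.Subset.refl G.S))) := by
      rw [← Set.range_comp]
      rfl
    rw [h1, h2, ← AlgHom.map_adjoin, G.adjoin₀, Algebra.map_top]
    exact AlgHom.range_eq_top _ |>.mpr e.symm.surjective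
  have hlt := length_cot_ne_top G.not_dvd_N ((e.symm : G.R₀ →+* D₀.R).comp x₀) hgen
    (lamT.comp θ₀)
  refine ⟨hlt, ?_⟩
  letI := modOf θ₀
  haveI : IsScalarTower O D₀.R (M0 O G.N G.τ) := by
    constructor
    intro a x m
    change G.act₀ (θ₀ (a • x)) m = a • G.act₀ (θ₀ x) m
    rw [Algebra.smul_def, map_mul, AlgHom.commutes, map_mul, Module.End.mul_apply,
      G.act₀_algebraMap]
  have hsm : ∀ (r : D₀.R) (x : M0 O G.N G.τ), r • x = G.act₀ (θ₀ r) x := fun _ _ => rfl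
  have h1 : ∀ r : D₀.R, ∃ t : HA O G.S, (aeval fun l : PS G.S => X.OD.lam l.1) t =
      (lamT.comp θ₀) r ∧ ∀ x : M0 O G.N G.τ, r • x = t • x := by
    intro r
    obtain ⟨t, ht⟩ := Ideal.Quotient.mk_surjective (θ₀ r)
    refine ⟨t, ?_, fun x => ?_⟩
    · rw [← hlamT, ht]; rfl
    · rw [hsm, ← ht]; rfl
  have h2 : ∀ t : HA O G.S, ∃ r : D₀.R, (lamT.comp θ₀) r =
      (aeval fun l : PS G.S => X.OD.lam l.1) t ∧ ∀ x : M0 O G.N G.τ, r • x = t • x := by
    intro t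
    obtain ⟨r, hr⟩ := hbij.2 (Ideal.Quotient.mk _ t)
    refine ⟨r, ?_, fun x => ?_⟩
    · rw [← hlamT, AlgHom.comp_apply, hr]
    · rw [hsm, hr]; rfl
  have h3 := n2 O D₀.R r ψ g hψ hg (lamT.comp θ₀) (M0 O G.N G.τ) d
    (C₀'.transfer' (lamT.comp θ₀) h1 h2) hlt
  rw [C₀'.gram_transfer', hC₀'] at h3
  exact h3

end Fermat.Agent.RT
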