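import Fermat.Agent.RT.StepE
import Fermat.Agent.RT.OmQF

/-!
# The non-minimal case, away from `p`
-/

set_option autoImplicit false
set_option maxHeartbeats 400000
set_option linter.unusedSectionVars false
set_option linter.style.haveILetI false

noncomputable section

namespace Fermat.Agent.RT

open IsLocalRing Matrix MvPolynomial Fermat.Agent.DefRing Fermat.Agent.GalRep Fermat.Agent.TWPatch
  Fermat.Agent.TWLoc Fermat.Agent.TWGal CuspForm Fermat.Agent.AnJac Fermat.Agent.HeckeQ GaloisRep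
open Fermat.Agent.RT.Om (SO)
open IsDiscreteValuationRing (addVal)
open Fermat.Agent.TWInst (exists_fields)
open Fermat.Agent.TWCoh hiding GQ

local notation "Qbar" => AlgebraicClosure ℚ

variable {p : ℕ} [hpf : Fact p.Prime] {O : Type} [CommRing O] [CNL O]
  [IsDomain O] [IsDiscreteValuationRing O] [CharZero O] {G : Bas p O}
  [Algebra ℤ_[p] O] [Module.Finite ℤ_[p] O] {D : GalD G} (X : StepD D)

theorem StepD.mem_S_iff (q : ℕ) : q ∈ X.OD.S ↔ q ∈ G.S := by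
  rw [X.hS, ← D.hSf, Finset.mem_coe]

theorem StepD.neZero_L : NeZero X.OD.L := ⟨by
  refine mul_ne_zero X.OD.neN.out (Finset.prod_ne_zero_iff.mpr fun q hq => ?_)
  exact pow_ne_zero 2 (X.OD.prime_Q q hq).ne_zero⟩

theorem StepD.N_dvd_L : G.N ∣ X.OD.L := by
  rw [← X.hN]
  exact dvd_mul_right _ _

theorem StepD.coprime_Q {q : ℕ} (hq : q.Prime) (hqS : q ∈ G.S) :
    ¬ q ∣ ∏ q ∈ X.OD.Q, q ^ 2 := by
  intro h2
  rw [Prime.dvd_finsetProd_iff hq.prime] at h2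
  obtain ⟨l, hl, h3⟩ := h2
  have h4 := (Nat.prime_dvd_prime_iff_eq hq (X.OD.prime_Q l hl)).1 (hq.dvd_of_dvd_pow h3)
  exact X.OD.disj l hl ((X.mem_S_iff l).mpr (h4 ▸ hqS))

theorem StepD.pow_dvd_L {q : ℕ} (hq : q.Prime) (hqS : q ∈ G.S) (k : ℕ) :
    q ^ k ∣ X.OD.L ↔ q ^ k ∣ G.N := by
  constructor
  · intro h
    have hcop : Nat.Coprime (q ^ k) (∏ q ∈ X.OD.Q, q ^ 2) := by
      apply Nat.Coprime.pow_left
      rw [Nat.Prime.coprime_iff_not_dvd hq]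
      exact X.coprime_Q hq hqS
    have h1 := hcop.dvd_of_dvd_mul_right h
    rwa [X.hN] at h1
  · intro h
    exact h.trans X.N_dvd_L

theorem StepD.prime_dvd_L {q : ℕ} (hq : q.Prime) (h : q ∣ X.OD.L) : q ∈ D.SQ X.OD.Q := by
  rw [GalD.SQ, Finset.coe_union]
  rcases hq.dvd_mul.mp h with h1 | h1
  · left
    rw [X.hN] at h1
    rw [D.hSf]
    exact G.hNS q hq h1
  · right
    rw [Prime.dvd_finsetProd_iff hq.prime] at h1
    obtain ⟨l, hl, h3⟩ := h1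
    rw [(Nat.prime_dvd_prime_iff_eq hq (X.OD.prime_Q l hl)).1 (hq.dvd_of_dvd_pow h3)]
    exact hl

theorem StepD.mem_Sf {q : ℕ} (hq : q ∈ D.Sf) : q ∈ G.S := by
  rw [← D.hSf]; exact Finset.mem_coe.mpr hq

theorem StepD.Q_prop {q : ℕ} (hq : q ∈ X.OD.Q) : q ∉ G.S ∧ q ∉ D.Smin ∧ q.Prime ∧ q ≠ p := by
  have h1 : q ∉ G.S := fun h => X.OD.disj q hq ((X.mem_S_iff q).mpr h)
  have h2 : q ∉ D.Smin := fun h => h1 (StepD.mem_Sf (D.hsub h))
  exact ⟨h1, h2, X.OD.prime_Q q hq, fun h => h2 (h ▸ D.hpSmin)⟩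

theorem addVal_prod {ι : Type*} (s : Finset ι) (f : ι → O) :
    addVal O (∏ i ∈ s, f i) = ∑ i ∈ s, addVal O (f i) := by
  classical
  induction s using Finset.induction_on with
  | empty => simp
  | insert a s ha ih =>
    rw [Finset.prod_insert ha, Finset.sum_insert ha, AddValuation.map_mul, ih]

theorem addVal_pow' (a : O) (n : ℕ) : addVal O (a ^ n) = (n : ℕ∞) * addVal O a := by
  rw [AddValuation.map_pow, nsmul_eq_mul]

theorem addVal_units (u : Oˣ) : addVal O (u : O) = 0 := by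
  rw [IsDiscreteValuationRing.addVal_eq_zero_iff]
  exact u.isUnit

theorem StepD.c_ne {q : ℕ} (hq : q ∈ X.OD.Q) :
    ((q : O) - 1) * (((q : O) + 1) ^ 2 - X.OD.lam q ^ 2) ≠ 0 := by
  obtain ⟨h1, h2, h3, h4⟩ := X.Q_prop hq
  have hqN : ¬ q ∣ X.OD.N := by
    rw [X.hN]
    exact fun h => h1 (G.hNS q h3 h)
  have hqM : ¬ q ∣ X.OD.M := fun h => hqN (h.trans X.OD.dvd)
  refine mul_ne_zero ?_ ?_
  · rw [sub_ne_zero]
    exact_mod_cast h3.one_lt.ne'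
  · rw [sub_ne_zero]
    intro h
    have h5 := qCoeff_sq_ne X.OD.newform h3 hqM
    rw [← X.OD.lam_eq q h3 hqN] at h5
    apply h5
    have h6 := congrArg X.OD.κ h
    rw [map_pow, map_pow, map_add, map_natCast, map_one] at h6
    exact h6.symm

theorem StepD.addVal_c_ne : addVal O X.OD.c ≠ ⊤ := by
  rw [Ne, IsDiscreteValuationRing.addVal_eq_top_iff]
  exact Finset.prod_ne_zero_iff.mpr fun q hq => X.c_ne hq

/-- the comparison away from `p` -/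
theorem StepD.exists_pi (HD : IsDefCondDD O p)
    (D₀ : DeformationRingData O D.ρbar (DD O D.t p D.Smin D.Smin))
    (R' : DeformationRingData O D.ρbar (DD O D.t p (D.Smin ∪ X.OD.Q) D.Smin))
    (π₀ : D₀.R →ₐ[O] O)
    (hπ₀ : ∀ l : PS G.S, ∀ A : ValuationSubring Qbar, A.LiesOverPrime l.1 → ∀ σ : GQ,
        A.IsFrobeniusAt σ l.1 → π₀ (D₀.ρ.trace σ) = X.OD.lam l.1) :
    ∃ π' : R'.R →ₐ[O] O, (∀ l : PS (D.SQ X.OD.Q), ∀ A : ValuationSubring Qbar,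
      A.LiesOverPrime l.1 → ∀ σ : GQ, A.IsFrobeniusAt σ l.1 →
        π' (R'.ρ.trace σ) = X.OD.lam l.1) ∧
      Module.length O (RingHom.ker π').Cotangent ≤
        Module.length O (RingHom.ker π₀).Cotangent + addVal O X.OD.c := by
  have hQS : ∀ q ∈ X.OD.Q, q ∉ D.Smin ∧ q.Prime := fun q hq =>
    ⟨(X.Q_prop hq).2.1, (X.Q_prop hq).2.2.1⟩
  obtain ⟨φ, hφ, hφs, hφe, hb⟩ := Sel.selQ O D.ρbar (DD O D.t p D.Smin D.Smin)
      (DD O D.t p (D.Smin ∪ X.OD.Q) D.Smin) p X.OD.Q hpf.out (fun q hq => by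
        have h1 : q ≠ p := fun h => (hQS q hq).1 (h ▸ D.hpSmin)
        refine ⟨(hQS q hq).2, h1, ?_⟩
        by_contra h2
        exact (hQS q hq).1 ((D.hmin q (hQS q hq).2 h1).mpr h2))
      (HD D.t _ _ (Finset.mem_union_left _ D.hpSmin))
      (fun _ _ _ _ ρ h => h.detCyc) (fun _ _ _ _ ρ => DD_iffQ hQS) D₀ R'
  refine ⟨π₀.comp φ, ?_, ?_⟩
  · intro l A hA σ hσ
    rw [AlgHom.comp_apply]
    have h1 : φ (R'.ρ.trace σ) = D₀.ρ.trace σ := trace_of_bc hφe σ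
    rw [h1]
    exact hπ₀ ⟨l.1, l.2.1, fun h => l.2.2 (D.sub_SQ X.OD.Q h)⟩ A hA σ hσ
  · refine (hb π₀ X.OD.lam ?_).trans_eq ?_
    · intro q hq
      obtain ⟨h1, h2, h3, h4⟩ := X.Q_prop hq
      obtain ⟨A, hA, σ, hσ⟩ := Frob.exists_place_frobenius h3
      exact ⟨A, hA, σ, hσ, hπ₀ ⟨q, h3, h1⟩ A hA σ hσ⟩
    · rw [OmD.c, addVal_prod]

/-- **the non-minimal case, away from `p`** -/
theorem StepD.case₁ (HB : DatumB) (HR : ExistsDefRing) (HD : IsDefCondDD O p)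
    (h : X.t₁ = D.t) : StepSt X := by
  intro ρ hρ hρb
  rw [h] at hρ
  haveI := X.neZero_L
  obtain ⟨D₀⟩ := HR O p G.hp2 G.hpO D.ρbar D.habs D.t D.Smin D.Smin D.hpSmin (X.hbar _ subset_rfl)
  obtain ⟨R₁⟩ := HR O p G.hp2 G.hpO D.ρbar D.habs D.t (D.Smin ∪ X.OD.Q) D.Smin
      (Finset.mem_union_left _ D.hpSmin) (X.hbar _ Finset.subset_union_left)
  obtain ⟨d, hd, C₀, C, u, hgram⟩ := omQ O (ResidueField O) residue_surjective G.two_ne X.OD
  obtain ⟨π₀, hπ₀, hfin, hval⟩ := X.base HB HR HD D₀ hd C₀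
  obtain ⟨π', hπ', hb⟩ := X.exists_pi HD D₀ R₁ π₀ hπ₀
  have hgv : addVal O C.gram = (d : ℕ∞) * Module.length O (RingHom.ker π₀).Cotangent +
      (d : ℕ∞) * addVal O X.OD.c := by
    rw [hgram, AddValuation.map_mul, AddValuation.map_mul, addVal_units, addVal_pow', hval,
      zero_add]
  have ht : LevelType D.t p X.OD.L D.ρbar := by
    have h1 := X.pow_dvd_L hpf.out G.hpS 1
    rw [pow_one] at h1
    exact levelType_of D.htN h1.mp h1.mpr (X.pow_dvd_L hpf.out G.hpS 2).mp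
  obtain ⟨χ, hχ⟩ := D.finish HB X.N_dvd_L (fun q hq h => X.prime_dvd_L hq h)
    (fun q hq hqp h2 => (D.hSN q hq hqp).2
      ((X.pow_dvd_L (D.hSfp q hq) (StepD.mem_Sf hq) 2).mp h2)) ht R₁ X.OD.lam
    (fun l => X.hlam l) hd (S₂ := ((X.OD.S ∪ X.OD.Q : Finset ℕ) : Set ℕ))
    (by rw [X.hS]) (L := X.OD.L) rfl (HQ O (X.OD.τ (X.OD.S ∪ X.OD.Q)) X.OD.L X.OD.Q)
    (fun x (hx : x ∈ HQ O (X.OD.τ (X.OD.S ∪ X.OD.Q)) X.OD.L X.OD.Q) => hx.1) C (fun π₁ hπ₁ => by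
      have h1 : π₁ = π' := ext_of_frob G.hp2 R₁ π₁ π' (Finset.finite_toSet (D.Sf ∪ X.OD.Q))
        (fun ℓ hℓ hℓS P hP τ hτ => (hπ₁ ⟨ℓ, hℓ, hℓS⟩ P hP τ hτ).trans
          (hπ' ⟨ℓ, hℓ, hℓS⟩ P hP τ hτ).symm)
      subst h1
      constructor
      · exact ne_top_of_le_ne_top (WithTop.add_ne_top.mpr ⟨hfin, X.addVal_c_ne⟩) hb
      · refine le_trans ?_ hgv.symm.le
        rw [← mul_add]
        exact mul_le_mul_right hb _) ρ hρ hρb
  exact ⟨X.OD.L, inferInstance, χ, Or.inl rfl, hχ⟩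

end Fermat.Agent.RT
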