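import Fermat.Agent.RT.StepF
import Fermat.Agent.RT.Lgcp
import Fermat.Agent.SelP.Main

/-!
# The non-minimal case: the step at `p`, preparations
-/

set_option autoImplicit false
set_option maxHeartbeats 400000
set_option linter.unusedSectionVars false
set_option linter.style.haveILetI false

noncomputable section

namespace Fermat.Agent.RT

open IsLocalRing Matrix MvPolynomial Fermat.Agent.DefRing Fermat.Agent.GalRep Fermat.Agent.TWPatch
  Fermat.Agent.TWLoc Fermat.Agent.TWGal CuspForm Fermat.Agent.AnJac Fermat.Agent.HeckeQ GaloisRep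
open Fermat.Agent.TW56 (exists_basis_of_equiv trace_mapT det_mapT)
open IsDiscreteValuationRing (addVal)
open Fermat.Agent.TWCoh hiding GQ

local notation "Qbar" => AlgebraicClosure ℚ

section Eig

variable {O : Type} [CommRing O]

/-- the eigencharacter of a newform, with values in `O` -/
theorem exists_eig {M N : ℕ} [NeZero M] [NeZero N] (hMN : M ∣ N) {f : Newform.S2 M}
    (hf : f.IsNewform) (κ : O →+* ℂ) (hκ : Function.Injective κ) (lam : ℕ → O)
    (hlam : ∀ l : ℕ, l.Prime → ¬ l ∣ N → κ (lam l) = ModularFormClass.qCoeff f l) {S : Set ℕ}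
    (hNS : ∀ r : ℕ, r.Prime → r ∣ N → r ∈ S) :
    ∃ θ : heckeAlgebra N 2 S →+* O, ∀ (ℓ : ℕ) (hℓ : ℓ.Prime) (hℓN : ¬ ℓ ∣ N) (hℓS : ℓ ∉ S),
      θ (heckeAlgebra.T hℓ hℓN hℓS) = lam ℓ := by
  have h1 : M * 1 ∣ N := by rwa [mul_one]
  let b := Newform.bL M N 1 one_ne_zero h1
  have hb : Function.Injective b := Newform.bL_injective one_ne_zero h1
  have hT : ∀ (ℓ : ℕ) (hℓ : ℓ.Prime) (hℓN : ¬ ℓ ∣ N),
      heckeTLin 2 hℓ hℓN (b f) = κ (lam ℓ) • b f := by
    intro ℓ hℓ hℓN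
    have hℓM : ¬ ℓ ∣ M := fun h => hℓN (h.trans hMN)
    have h2 := Newform.bL_heckeOp (M := M) (N := N) one_ne_zero h1 hℓ
      (fun h => hℓ.one_lt.ne' (Nat.dvd_one.mp h)) (fun h => absurd h hℓN) f
    rw [DSLift.heckeOp_apply_of_isNormalizedEigenform M hf.1 hℓ,
      DSLift.heckeOp_of_not_dvd hℓ hℓN] at h2
    rw [hlam ℓ hℓ hℓN, ← map_smul]
    exact h2.symm
  set v := b f with hv
  have hv0 : v ≠ 0 := by
    rw [hv, ← map_zero b]
    exact hb.ne hf.1.ne_zero
  have key : ∀ t : heckeAlgebra N 2 S, ∃ c : O,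
      (t : Module.End ℂ (CuspForm (CongruenceSubgroup.Gamma0 N) 2)) v = κ c • v := by
    rintro ⟨t, ht⟩
    refine Algebra.adjoin_induction (p := fun t _ => ∃ c : O,
      (t : Module.End ℂ (CuspForm (CongruenceSubgroup.Gamma0 N) 2)) v = κ c • v) ?_ ?_ ?_ ?_ ht
    · rintro t (⟨ℓ, hℓ, hℓN, hℓS, rfl⟩ | ⟨q, hqN, hq, hqS, rfl⟩)
      · exact ⟨lam ℓ, hT ℓ hℓ hℓN⟩
      · exact absurd (hNS q hq hqN) hqS
    · intro r
      refine ⟨(r : O), ?_⟩
      rw [Algebra.algebraMap_eq_smul_one, LinearMap.smul_apply, Module.End.one_apply, map_intCast,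
        Int.cast_smul_eq_zsmul]
    · rintro x y - - ⟨x', hx⟩ ⟨y', hy⟩
      refine ⟨x' + y', ?_⟩
      rw [LinearMap.add_apply, hx, hy, map_add, add_smul]
    · rintro x y - - ⟨x', hx⟩ ⟨y', hy⟩
      refine ⟨x' * y', ?_⟩
      rw [Module.End.mul_apply, hy, map_smul, hx, map_mul, smul_smul, mul_comm]
  choose R hR using key
  have huniq : ∀ s t : O, κ s • v = κ t • v → s = t := by
    intro s t h
    exact hκ (smul_left_injective ℂ hv0 h)
  refine ⟨{ toFun := R, map_one' := ?_, map_mul' := ?_, map_zero' := ?_, map_add' := ?_ }, ?_⟩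
  · refine huniq _ _ ?_
    rw [← hR, map_one, one_smul]
    rfl
  · intro x y
    refine huniq _ _ ?_
    have e : ((x * y : heckeAlgebra N 2 S) :
        Module.End ℂ (CuspForm (CongruenceSubgroup.Gamma0 N) 2)) v = x.1 (y.1 v) := rfl
    rw [← hR, e, hR y, map_smul, hR x, map_mul, smul_smul, mul_comm]
  · refine huniq _ _ ?_
    rw [← hR, map_zero, zero_smul]
    rfl
  · intro x y
    refine huniq _ _ ?_
    have e : ((x + y : heckeAlgebra N 2 S) :
        Module.End ℂ (CuspForm (CongruenceSubgroup.Gamma0 N) 2)) v = x.1 v + y.1 v := rfl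
    rw [← hR, e, hR x, hR y, map_add, add_smul]
  · intro ℓ hℓ hℓN hℓS
    refine huniq _ _ ?_
    change κ (R _) • v = _
    rw [← hR, ← hT ℓ hℓ hℓN]
    rfl

end Eig

section Lgcp

variable {p : ℕ} [hpf : Fact p.Prime] {N : ℕ} [NeZero N] {S : Set ℕ} {O : Type} [CommRing O]
  [IsDomain O] [IsDiscreteValuationRing O] [IsAdicComplete (maximalIdeal O) O] [CharZero O]
  [Algebra ℤ_[p] O] [Module.Finite ℤ_[p] O]

/-- local-global compatibility at `p`, matrix version -/
theorem lgcp_mat (hp2 : p ≠ 2) (hpN : ¬ p ∣ N) (hpS : p ∉ S) (hS : S.Finite)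
    (hpO : (p : O) ∈ maximalIdeal O) (θ : heckeAlgebra N 2 S →+* O)
    {T : GQ →* Matrix (Fin 2) (Fin 2) O} (hT : MatCont T)
    (hspan : Submodule.span O (Set.range T) = ⊤)
    (hfr : ∀ (ℓ : ℕ) (hℓ : ℓ.Prime) (hℓN : ¬ ℓ ∣ N) (hℓS : ℓ ∉ S), ℓ ≠ p →
      ∀ A : ValuationSubring Qbar, A.LiesOverPrime ℓ → ∀ σ : GQ, A.IsFrobeniusAt σ ℓ →
        (T σ).trace = θ (heckeAlgebra.T hℓ hℓN hℓS) ∧ (T σ).det = (ℓ : O))
    (hord : (matRep T hT).IsOrdinaryAt p) {a : O} (ha : IsUnit a)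
    (hroot : a ^ 2 - θ (heckeAlgebra.T (Fact.out : p.Prime) hpN hpS) * a + p = 0)
    {A : ValuationSubring Qbar} (hA : A.LiesOverPrime p) {φ : GQ} (hφ : A.IsFrobeniusAt φ p) :
    a ^ 2 - (T φ).trace * a + (T φ).det = 0 := by
  set ρ := matRep T hT with hρ
  obtain ⟨L, ⟨b, rfl⟩, hst, hin⟩ := hord A hA
  set T' := repMat ρ b with hT'
  let e : Module.Basis (Fin 2) O ρ.V := Pi.basisFun O (Fin 2)
  have hTe : ∀ g, LinearMap.toMatrix e e (ρ.ρ g) = T g := by
    intro g
    have h1 : ρ.ρ g = Matrix.toLin' (T g) := rfl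
    rw [h1]
    exact (LinearMap.toMatrix'_toLin' (T g))
  have hTb : ∀ g, LinearMap.toMatrix b b (ρ.ρ g) = T' g := fun g => by
    rw [hT', repMat_apply]
  have htr : ∀ g, (T' g).trace = (T g).trace := by
    intro g
    rw [← hTb, ← hTe, ← LinearMap.trace_eq_matrix_trace, ← LinearMap.trace_eq_matrix_trace]
  have hdet : ∀ g, (T' g).det = (T g).det := by
    intro g
    rw [← hTb, ← hTe, LinearMap.det_toMatrix, LinearMap.det_toMatrix]
  have hspan' : Submodule.span O (Set.range T') = ⊤ := by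
    refine span_eq_top_of_conj ⟨b.toMatrix e, e.toMatrix b, ?_, ?_, fun g => ?_⟩ hspan
    · exact b.toMatrix_mul_toMatrix_flip e
    · exact e.toMatrix_mul_toMatrix_flip b
    · rw [← hTb, ← hTe, basis_toMatrix_mul_linearMap_toMatrix,
        linearMap_toMatrix_mul_basis_toMatrix]
  -- the Frobenius condition
  have hπ : HData.FrobCond (D := Lgcp.DN N p) (S := S)
      (θ.comp (HData.Phi S (hdata_link (esHyp N p)))) T' := by
    intro ℓ hℓ hℓN hℓS A hA τ hτ
    have hℓN' : ¬ ℓ ∣ N := fun h => hℓN (h.mul_right p)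
    have hℓp : ℓ ≠ p := fun h => hℓN (h ▸ dvd_mul_left ℓ N)
    obtain ⟨h1, h2⟩ := hfr ℓ hℓ hℓN' hℓS hℓp A hA τ hτ
    rw [RingHom.comp_apply, HData.Phi_T _ (hdata_link (esHyp N p)) hℓ hℓN hℓS]
    exact ⟨(htr τ).trans h1, (hdet τ).trans h2⟩
  -- the shape of the matrices
  have hL : ∀ v ∈ Submodule.span O {b 0}, b.repr v 1 = 0 := by
    intro v hv
    obtain ⟨c, rfl⟩ := Submodule.mem_span_singleton.1 hv
    rw [map_smul, b.repr_self, Finsupp.smul_apply, Finsupp.single_apply, if_neg (by decide),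
      smul_zero]
  have hT0 : ∀ g, T' g 1 0 = b.repr (ρ.ρ g (b 0)) 1 := fun g => by
    rw [hT', repMat_apply, LinearMap.toMatrix_apply]
  have hT1 : ∀ g, T' g 1 1 = b.repr (ρ.ρ g (b 1)) 1 := fun g => by
    rw [hT', repMat_apply, LinearMap.toMatrix_apply]
  have hD : T' φ 1 0 = 0 := by
    rw [hT0]
    exact hL _ (hst φ hφ.mem_decompositionSubgroup _ (Submodule.mem_span_singleton_self _))
  have hI0 : ∀ σ ∈ A.inertiaSubgroupIn ℚ, T' σ 1 0 = 0 := by
    intro σ hσ
    have h1 := hL _ (hin σ hσ (b 0))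
    rw [map_sub, Finsupp.sub_apply, b.repr_self, Finsupp.single_apply, if_neg (by decide),
      sub_zero] at h1
    rw [hT0]
    exact h1
  have hI1 : ∀ σ ∈ A.inertiaSubgroupIn ℚ, T' σ 1 1 = 1 := by
    intro σ hσ
    have h1 := hL _ (hin σ hσ (b 1))
    rw [map_sub, Finsupp.sub_apply, b.repr_self, Finsupp.single_apply, if_pos rfl,
      sub_eq_zero] at h1
    rw [hT1]
    exact h1
  have key := Lgcp.lgcp_core hp2 hpN hpS hS hA hpO θ (repMat_matCont ρ b)
    hspan' hπ hφ hD hI0 hI1 ha hroot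
  have h1 : (T φ).trace = T' φ 0 0 + T' φ 1 1 := by rw [← htr, Matrix.trace_fin_two]
  have h2 : (T φ).det = T' φ 0 0 * T' φ 1 1 := by
    rw [← hdet, Matrix.det_fin_two, hD, mul_zero, sub_zero]
  rw [h1, h2, key]
  ring

end Lgcp

section Pt

variable {p : ℕ} [hpf : Fact p.Prime] {O : Type} [CommRing O] [CNL O]
  [IsDomain O] [IsDiscreteValuationRing O]
variable {ρbar : ResidualGaloisRep (ResidueField O)} {t : PType} {S Smin : Finset ℕ}

/-- a model of the representation at a point of the deformation ring -/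
theorem exists_point_model (hp2 : p ≠ 2) (R : DeformationRingData O ρbar (DD O t p S Smin))
    (π : R.R →ₐ[O] O) : ∃ (T : GQ →* Matrix (Fin 2) (Fin 2) O) (hT : MatCont T),
      DD O t p S Smin (matRep T hT) ∧ Submodule.span O (Set.range T) = ⊤ ∧
      (∀ σ, (T σ).trace = π (R.ρ.trace σ)) ∧
      ∀ σ, (T σ).det = π (LinearMap.det (R.ρ.ρ σ)) := by
  let b : Module.Basis (Fin 2) (ResidueField O) ρbar.V :=
    Module.finBasisOfFinrankEq (ResidueField O) ρbar.V ρbar.finrank_eq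
  obtain ⟨T, hT, he, hspan, hres⟩ := exists_model_def (b := b) R
  have hg := isLocalHom_to R.residue_surjective π
  have htr : ∀ τ : GQ, R.ρ.trace τ = (T τ).trace := fun τ => by
    exact (Sel.trace_of_isEquiv he τ).symm.trans (Sel.trace_matRep _ _ _)
  have hdt : ∀ τ : GQ, LinearMap.det (R.ρ.ρ τ) = (T τ).det := fun τ => by
    exact (Sel.det_of_isEquiv he τ).symm.trans (Sel.det_matRep _ _ _)
  have hs1 : Submodule.span O (Set.range (mapT (π : R.R →+* O) T)) = ⊤ := span_map_eq_top _ hspan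
  have hloc : IsLocalHom (algebraMap O O) := ⟨fun a ha => ha⟩
  have hs : Function.Surjective (residue O ∘ algebraMap O O) := residue_surjective
  refine ⟨mapT (π : R.R →+* O) T, hT.map _ hg, ?_, hs1, fun σ => ?_, fun σ => ?_⟩
  · obtain ⟨b', hb'⟩ := exists_basis_of_equiv he
    have h4 : CC t p S Smin T := by
      rw [← hb']
      exact (DD_iff_CC (𝒪 := O) R.ρ b' t S Smin).mp R.isOfType
    have h5 : CC t p S Smin (mapT (π : R.R →+* O) T) :=
      (mc_CC (𝒪 := O) hp2 t S Smin).map_complete hloc hs π hg h4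
    obtain ⟨b'', hb''⟩ := exists_basis_of_equiv
      (show (matRep (mapT (π : R.R →+* O) T) (hT.map _ hg)).IsEquiv
        (matRep (mapT (π : R.R →+* O) T) (hT.map _ hg)) from ⟨GaloisRepAdic.Equiv.refl _⟩)
    rw [DD_iff_CC (𝒪 := O) _ b'' t S Smin, hb'']
    exact h5
  · rw [trace_mapT, htr]
    rfl
  · rw [det_mapT, hdt]
    rfl

end Pt

end Fermat.Agent.RT
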