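import Fermat.Agent.RT.DCond
import Fermat.Agent.TWGal.Inertia
import Fermat.Agent.Frob.Exists

/-!
# T10 (b): strict ordinarity from a relation at Frobenius
-/

set_option autoImplicit false
set_option maxHeartbeats 400000
set_option linter.unusedSectionVars false

noncomputable section

namespace Fermat.Agent.RT

open IsLocalRing Matrix Fermat.Agent.DefRing Fermat.Agent.GalRep Fermat.Agent.TWGal
  Fermat.Agent.TWPatch Fermat.Agent.TW56 GaloisRep

local notation "Qbar" => AlgebraicClosure ℚ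

theorem mem_mul3 {R : Type} [CommRing R] {I : Ideal R} {X : Matrix (Fin 2) (Fin 2) R}
    (hX : ∀ i j, X i j ∈ I) (M N : Matrix (Fin 2) (Fin 2) R) (i j : Fin 2) :
    (M * X * N) i j ∈ I := by
  rw [Matrix.mul_apply]
  refine Ideal.sum_mem _ fun a _ => Ideal.mul_mem_right _ _ ?_
  rw [Matrix.mul_apply]
  exact Ideal.sum_mem _ fun c _ => Ideal.mul_mem_left _ _ (hX c a)

theorem sub_mem_of_agree {R : Type} [CommRing R] [IsLocalRing R]
    {T : GQ →* Matrix (Fin 2) (Fin 2) R} {n : ℕ} {L : IntermediateField ℚ Qbar}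
    (hL : ∀ σ : GQ, (∀ x ∈ L, σ x = x) → ∀ i j,
      T σ i j - (1 : Matrix (Fin 2) (Fin 2) R) i j ∈ maximalIdeal R ^ n)
    {g g' : GQ} (h : ∀ x ∈ L, g' x = g x) (i j : Fin 2) :
    (T g - T g') i j ∈ maximalIdeal R ^ n := by
  have h1 : ∀ x ∈ L, (g'⁻¹ * g) x = x := by
    intro x hx
    rw [AlgEquiv.mul_apply, ← h x hx]
    change (g'⁻¹ * g') x = x
    rw [inv_mul_cancel]; rfl
  have h2 : T g - T g' = T g' * (T (g'⁻¹ * g) - 1) * 1 := by
    rw [Matrix.mul_one, mul_sub, mul_one, ← map_mul, mul_inv_cancel_left]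
  rw [h2]
  exact mem_mul3 (fun i j => hL _ h1 i j) _ _ i j

theorem row_rel {R : Type} [CommRing R] {Y₀ Y : Matrix (Fin 2) (Fin 2) R} {u : R}
    (h : (Y₀ - u • (1 : Matrix (Fin 2) (Fin 2) R)) * (Y * Y - 1) = 0) (h10 : Y₀ 1 0 = 0)
    (h11 : Y₀ 1 1 = 1) (hY : Y 1 0 = 0) : (1 - u) * (Y 1 1 * Y 1 1 - 1) = 0 := by
  have h1 := congrFun (congrFun h 1) 1
  simp only [Matrix.mul_apply, Fin.sum_univ_two, Matrix.sub_apply, Matrix.smul_apply, h10, h11, hY,
    Matrix.one_apply_eq, Matrix.zero_apply, smul_eq_mul, mul_one, zero_mul, zero_add,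
    Matrix.one_apply_ne (show (1 : Fin 2) ≠ 0 by decide), mul_zero, sub_zero] at h1
  linear_combination h1

theorem strict_of_rel {p : ℕ} [hp : Fact p.Prime] {R : Type} [CommRing R] [IsLocalRing R]
    [IsNoetherianRing R] {T : GQ →* Matrix (Fin 2) (Fin 2) R} (hT : MatCont T)
    (hord : MOr False p T)
    (h : ∀ A : ValuationSubring Qbar, A.LiesOverPrime p → ∃ σ₀ ∈ A.inertiaSubgroupIn ℚ,
      IsUnit ((T σ₀).det - 1) ∧ ∀ φ : GQ, A.IsFrobeniusAt φ p →
        (T σ₀ - (T σ₀).det • (1 : Matrix (Fin 2) (Fin 2) R)) * (T φ * T φ - 1) = 0) :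
    MOr True p T := by
  intro P hP
  obtain ⟨B, B', h1, h2, h3, h4, -⟩ := hord P hP
  refine ⟨B, B', h1, h2, h3, h4, fun _ => ?_⟩
  obtain ⟨σ₀, hσ₀, hu, hrel⟩ := h P hP
  haveI := Fermat.Agent.Frob.isGalois_Qbar
  obtain ⟨φ, hφ⟩ := Fermat.Agent.Frob.exists_isFrobeniusAt P hp.out hP
  have hφD := hφ.mem_decompositionSubgroup
  have hID : ∀ {σ : GQ}, σ ∈ P.inertiaSubgroupIn ℚ → σ ∈ P.decompositionSubgroup ℚ := by
    rintro _ ⟨τ, -, rfl⟩
    exact τ.2
  set Y : GQ → Matrix (Fin 2) (Fin 2) R := fun σ => B' * T σ * B with hY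
  have hYm : ∀ σ τ, Y (σ * τ) = Y σ * Y τ := by
    intro σ τ
    simp only [hY]
    rw [map_mul]
    calc B' * (T σ * T τ) * B = B' * T σ * (B * B') * T τ * B := by
          rw [h1, Matrix.mul_one]; simp only [Matrix.mul_assoc]
      _ = _ := by simp only [Matrix.mul_assoc]
  have hz : ∀ σ ∈ P.decompositionSubgroup ℚ, ∀ τ, Y (σ * τ) 1 1 = Y σ 1 1 * Y τ 1 1 := by
    intro σ hσ τ
    rw [hYm, Matrix.mul_apply, Fin.sum_univ_two]
    have : Y σ 1 0 = 0 := h3 σ hσ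
    rw [this, zero_mul, zero_add]
  have hz1 : Y 1 1 1 = 1 := by
    simp only [hY]
    rw [map_one, Matrix.mul_one, h2, Matrix.one_apply_eq]
  -- Frobenius
  have hzφ : Y φ 1 1 * Y φ 1 1 = 1 := by
    have e1 : (Y σ₀ - (T σ₀).det • (1 : Matrix (Fin 2) (Fin 2) R)) * (Y φ * Y φ - 1) = 0 := by
      have e2 : (Y σ₀ - (T σ₀).det • (1 : Matrix (Fin 2) (Fin 2) R)) =
          B' * (T σ₀ - (T σ₀).det • (1 : Matrix (Fin 2) (Fin 2) R)) * B := by
        rw [mul_sub, sub_mul, Matrix.mul_smul, Matrix.smul_mul, Matrix.mul_one, h2]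
      have e3 : Y φ * Y φ - 1 = B' * (T φ * T φ - 1) * B := by
        rw [mul_sub, sub_mul, Matrix.mul_one, h2, ← hYm]
        simp only [hY]
        rw [map_mul]
      rw [e2, e3]
      calc B' * (T σ₀ - (T σ₀).det • (1 : Matrix (Fin 2) (Fin 2) R)) * B *
            (B' * (T φ * T φ - 1) * B)
          = B' * (T σ₀ - (T σ₀).det • (1 : Matrix (Fin 2) (Fin 2) R)) * (B * B') *
            (T φ * T φ - 1) * B := by simp only [Matrix.mul_assoc]
        _ = B' * ((T σ₀ - (T σ₀).det • (1 : Matrix (Fin 2) (Fin 2) R)) *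
            (T φ * T φ - 1)) * B := by rw [h1, Matrix.mul_one]; simp only [Matrix.mul_assoc]
        _ = 0 := by rw [hrel φ hφ, Matrix.mul_zero, Matrix.zero_mul]
    have e4 : (1 - (T σ₀).det) * (Y φ 1 1 * Y φ 1 1 - 1) = 0 :=
      row_rel e1 (h3 σ₀ (hID hσ₀)) (h4 σ₀ hσ₀) (h3 φ hφD)
    have e7 : IsUnit (1 - (T σ₀).det) := by
      rw [← neg_sub]; exact hu.neg
    have e8 := e7.mul_right_eq_zero.mp e4
    exact sub_eq_zero.mp e8
  have hzk : ∀ k : ℕ, Y (φ ^ k) 1 1 * Y (φ ^ k) 1 1 = 1 := by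
    intro k
    induction k with
    | zero => rw [pow_zero, hz1, one_mul]
    | succ n ih =>
      rw [pow_succ, hz _ (pow_mem hφD n)]
      calc _ = (Y (φ ^ n) 1 1 * Y (φ ^ n) 1 1) * (Y φ 1 1 * Y φ 1 1) := by ring
        _ = 1 := by rw [ih, hzφ, one_mul]
  intro g hg
  have hzg : Y g 1 1 * Y g 1 1 = 1 := by
    rw [← sub_eq_zero]
    have hmem : Y g 1 1 * Y g 1 1 - 1 ∈ (⨅ n : ℕ, maximalIdeal R ^ n : Ideal R) := by
      rw [Ideal.mem_iInf]
      intro n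
      obtain ⟨L, hL, hLn⟩ := hT n
      haveI := hL
      obtain ⟨k, σ, hσ, hk⟩ := exists_frob_mul_inertia hp.out hP hφ hg L
      have e1 : (B' * (T g - T (φ ^ k * σ)) * B) 1 1 ∈ maximalIdeal R ^ n :=
        mem_mul3 (fun i j => sub_mem_of_agree hLn hk i j) _ _ 1 1
      have e2 : (B' * (T g - T (φ ^ k * σ)) * B) 1 1 = Y g 1 1 - Y (φ ^ k) 1 1 := by
        have e3 : B' * (T g - T (φ ^ k * σ)) * B = Y g - Y (φ ^ k * σ) := by
          simp only [hY]
          rw [mul_sub, sub_mul]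
        rw [e3, Matrix.sub_apply, hz _ (pow_mem hφD k)]
        have e4 : Y σ 1 1 = 1 := h4 σ hσ
        rw [e4, mul_one]
      rw [e2] at e1
      have e5 : Y g 1 1 * Y g 1 1 - 1 = (Y g 1 1 - Y (φ ^ k) 1 1) * (Y g 1 1 + Y (φ ^ k) 1 1) := by
        have := hzk k
        linear_combination this
      rw [e5]
      exact Ideal.mul_mem_right _ _ e1
    rw [Ideal.iInf_pow_eq_bot_of_isLocalRing _ (maximalIdeal.isMaximal R).ne_top] at hmem
    exact hmem
  have hdet : (Y g).det = (T g).det := det_conj h2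
  rw [Matrix.det_fin_two] at hdet
  have e0 : Y g 1 0 = 0 := h3 g hg
  rw [e0, mul_zero, sub_zero] at hdet
  change Y g 0 0 = (T g).det * Y g 1 1
  rw [← hdet, mul_assoc, hzg, mul_one]

end Fermat.Agent.RT
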