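import Fermat.Agent.RT.BLgc
import Fermat.Agent.RT.PatchMain
import Fermat.Agent.RT.T10St

/-!
# T11: the Taylor-Wiles levels in the minimal case
-/

set_option autoImplicit false
set_option maxHeartbeats 400000
set_option linter.unusedSectionVars false

noncomputable section

namespace Fermat.Agent.RT

open IsLocalRing Matrix Fermat.Agent.DefRing Fermat.Agent.GalRep Fermat.Agent.TWPatch
  Fermat.Agent.TWLoc Fermat.Agent.TWGal CuspForm Fermat.Agent.AnJac Fermat.Agent.HeckeQ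
open Fermat.Agent.TWInst (zq exists_inertia_zq Psi Psi_apply Psi_inertia)
open Fermat.Agent.TWCoh hiding GQ

local notation "Qbar" => AlgebraicClosure ℚ

attribute [local instance] algDk BLev.cnl

section Hensel

variable {R k : Type} [CommRing R] [IsLocalRing R] [Field k] {κ : R →+* k}

theorem isUnit_of_kappa (hκ : Function.Surjective κ) {x : R} (hx : κ x ≠ 0) : IsUnit x := by
  by_contra h
  have h1 : RingHom.ker κ = maximalIdeal R :=
    IsLocalRing.eq_maximalIdeal (RingHom.ker_isMaximal_of_surjective κ hκ)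
  have h2 : x ∈ maximalIdeal R := h
  rw [← h1] at h2
  exact hx h2

/-- uniqueness of the root of a quadratic polynomial with given simple residual root -/
theorem root_unique (hκ : Function.Surjective κ) {t d a b : R} (ha : a ^ 2 - t * a + d = 0)
    (hb : b ^ 2 - t * b + d = 0) {α β : k} (ht : κ t = α + β) (hne : α ≠ β) (hκa : κ a = α)
    (hκb : κ b = α) : a = b := by
  have h1 : IsUnit (a + b - t) := isUnit_of_kappa hκ (by
    rw [map_sub, map_add, hκa, hκb, ht]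
    intro h
    apply hne
    linear_combination h)
  have h2 : (a - b) * (a + b - t) = 0 := by linear_combination ha - hb
  obtain ⟨u, hu⟩ := h1
  rw [← hu, Units.mul_left_eq_zero] at h2
  exact sub_eq_zero.mp h2

/-- existence of the root -/
theorem exists_root [IsAdicComplete (maximalIdeal R) R] (hκ : Function.Surjective κ) {t d : R}
    {α β : k} (ht : κ t = α + β) (hd : κ d = α * β) (hne : α ≠ β) :
    ∃ a : R, a ^ 2 - t * a + d = 0 ∧ κ a = α := by
  have hker : RingHom.ker κ = maximalIdeal R :=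
    IsLocalRing.eq_maximalIdeal (RingHom.ker_isMaximal_of_surjective κ hκ)
  have hmem : ∀ x : R, x ∈ maximalIdeal R ↔ κ x = 0 := fun x => by
    rw [← hker]; exact Iff.rfl
  obtain ⟨a₀, ha₀⟩ := hκ α
  let f : Polynomial R := Polynomial.X ^ 2 - Polynomial.C t * Polynomial.X + Polynomial.C d
  have hf : f.Monic := by
    have h1 : f = Polynomial.X ^ 2 + (Polynomial.C (-t) * Polynomial.X + Polynomial.C d) := by
      simp only [f, Polynomial.C_neg]; ring
    rw [h1]
    refine Polynomial.monic_X_pow_add ?_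
    refine lt_of_le_of_lt Polynomial.degree_linear_le ?_
    norm_num
  haveI : HenselianRing R (maximalIdeal R) := IsAdicComplete.henselianRing _ _
  obtain ⟨a, ha1, ha2⟩ := HenselianRing.is_henselian (I := maximalIdeal R) f hf a₀ (by
    rw [hmem]
    simp only [f, Polynomial.eval_add, Polynomial.eval_sub, Polynomial.eval_mul,
      Polynomial.eval_pow, Polynomial.eval_X, Polynomial.eval_C, map_add, map_sub, map_mul,
      map_pow, ht, hd, ha₀]
    ring) (by
    refine IsUnit.map _ ?_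
    by_contra hu
    have hu' : f.derivative.eval a₀ ∈ maximalIdeal R := hu
    rw [hmem] at hu'
    simp only [f, Polynomial.derivative_add, Polynomial.derivative_sub, Polynomial.derivative_mul,
      Polynomial.derivative_X_pow, Polynomial.derivative_C, Polynomial.derivative_X,
      Polynomial.eval_add, Polynomial.eval_sub, Polynomial.eval_mul, Polynomial.eval_pow,
      Polynomial.eval_X, Polynomial.eval_C, Polynomial.eval_natCast, Polynomial.eval_one,
      map_add, map_sub, map_mul, map_pow, ht, ha₀, Polynomial.eval_zero, map_zero, map_one,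
      map_natCast] at hu'
    apply hne
    have h3 : α - β = 0 := by
      rw [← hu']
      push_cast
      ring
    exact sub_eq_zero.mp h3)
  refine ⟨a, ?_, ?_⟩
  · have h1 : f.eval a = 0 := ha1
    simp only [f, Polynomial.eval_add, Polynomial.eval_sub, Polynomial.eval_mul,
      Polynomial.eval_pow, Polynomial.eval_X, Polynomial.eval_C] at h1
    exact h1
  · rw [hmem, map_sub, ha₀, sub_eq_zero] at ha2
    exact ha2

end Hensel

variable {p : ℕ} [hpf : Fact p.Prime] {O : Type} [CommRing O] [CNL O]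

section Act

variable (G : Bas p O)

/-- the action of the Hecke ring of level zero -/
def Bas.act₀ : G.R₀ →+* Module.End O (M0 O G.N G.τ) :=
  Ideal.Quotient.lift _ (Algebra.lsmul O O (M0 O G.N G.τ) : HA O G.S →ₐ[O] _).toRingHom
    (fun t ht => LinearMap.ext fun x =>
      (G.mk₀_eq_zero).mp (Ideal.Quotient.eq_zero_iff_mem.mpr ht) x)

theorem Bas.act₀_mk (t : HA O G.S) (x : M0 O G.N G.τ) :
    G.act₀ (Ideal.Quotient.mk _ t) x = t • x := rfl

theorem Bas.act₀_injective : Function.Injective G.act₀ := by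
  rw [injective_iff_map_eq_zero]
  intro t ht
  obtain ⟨t, rfl⟩ := Ideal.Quotient.mk_surjective t
  rw [G.mk₀_eq_zero]
  exact fun x => LinearMap.congr_fun ht x

theorem Bas.act₀_algebraMap (a : O) (x : M0 O G.N G.τ) :
    G.act₀ (algebraMap O G.R₀ a) x = a • x := by
  change G.act₀ (Ideal.Quotient.mk _ (algebraMap O (HA O G.S) a)) x = a • x
  rw [G.act₀_mk, algebraMap_smul]

variable {G} {r n : ℕ} (L : BLev G r n)

/-- the module of level `n` -/
abbrev BLev.M : Type := MQ (N := G.N) (I := ∅) G.τ L.α L.pcond.cdr_dvd L.ψ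

/-- the action of the Hecke ring of level `n` -/
def BLev.act : L.R →+* Module.End (DRing O p n r) L.M :=
  aC₁ (sub_bad L.Q) L.ψ L.ψ (allP L.Q ∅) L.M L.M

theorem BLev.act_mk (t : HA (DRing O p n r) (bad L.Q)) (x : L.M) :
    L.act (Ideal.Quotient.mk _ t) x = twp L.ψ (allP L.Q ∅) (sub_bad L.Q) t • x := rfl

theorem BLev.act_algebraMap (a : DRing O p n r) (x : L.M) :
    L.act (algebraMap _ L.R a) x = a • x := by
  change L.act (Ideal.Quotient.mk _ (algebraMap _ (HA (DRing O p n r) (bad L.Q)) a)) x = a • x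
  rw [L.act_mk, AlgHom.commutes, algebraMap_smul]

/-- the reduction map -/
theorem BLev.exists_red [Nontrivial (M0 O G.N G.τ)] : ∃ π : L.M →+ M0 O G.N G.τ, Function.Surjective π ∧
    (∀ a x, π (L.act a x) = G.act₀ (L.bt a) (π x)) ∧
    ∀ x, π x = 0 → x ∈ RingHom.ker (aug O (DG p n r)) • (⊤ : Submodule (DRing O p n r) L.M) := by
  haveI := G.cnlDk n r
  obtain ⟨π, h1, h2, h3⟩ := exists_pi L.pcond
  refine ⟨π.toAddMonoidHom, h1, ?_, h2⟩
  intro a x
  obtain ⟨t, rfl⟩ := Ideal.Quotient.mk_surjective a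
  rw [L.bt_mk, G.act₀_mk, L.act_mk]
  exact h3 t x

end Act

section Elements

variable {G : Bas p O} [Nontrivial (M0 O G.N G.τ)] [CNL G.R₀] {ρ₀ : Rep0 G} {r n : ℕ}
  {L : BLev G r n} {gn : heckeAlgebra L.NN 2 (bad L.Q) →+* L.R}

theorem RepN.trace_res (ρn : RepN (ρ₀ := ρ₀) gn) (g : GQ) :
    L.κ (ρn.T g).trace = (G.ρb g).trace := by
  rw [← ρn.res, Matrix.trace_fin_two, Matrix.trace_fin_two, map_add]
  rfl

theorem RepN.det_res (ρn : RepN (ρ₀ := ρ₀) gn) (g : GQ) :
    L.κ (ρn.T g).det = (G.ρb g).det := by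
  rw [← ρn.res]
  exact RingHom.map_det (L.κ : L.R →+* ResidueField O) (ρn.T g)

theorem RepN.det_mul_inertia (ρn : RepN (ρ₀ := ρ₀) gn) (j : Fin r) {A : ValuationSubring Qbar}
    (hA : A.LiesOverPrime (L.qs j).1) (Φ : GQ) {σ : GQ} (hσ : σ ∈ A.inertiaSubgroupIn ℚ) :
    (ρn.T (Φ * σ)).det = (ρn.T Φ).det := by
  rw [map_mul, Matrix.det_mul, ρn.det σ, cyc_inertia p _ _ (L.qs j).2.1 hA
      (fun h => (L.qs j).2.2 (by rw [h]; exact G.hpS)) hσ, mul_one]

/-- **the elements `s j`** -/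
theorem exists_s {K : Type} [Field K] [CharZero K] [IsAlgClosed K] [Algebra O K]
    (hinj : Function.Injective (algebraMap O K)) (ρn : RepN (ρ₀ := ρ₀) gn) (hlgc : LGC K ρn)
    {RQ R₁ : Type} [CommRing RQ] [IsLocalRing RQ] [IsAdicComplete (maximalIdeal RQ) RQ]
    [Algebra O RQ] [CommRing R₁] [IsLocalRing R₁] [Algebra O R₁]
    (tQ dQ : GQ → RQ) (θ : RQ →ₐ[O] L.R) (hθt : ∀ g, θ (tQ g) = (ρn.T g).trace)
    (hθd : ∀ g, θ (dQ g) = (ρn.T g).det) (φ : RQ →ₐ[O] R₁) (θ₀ : R₁ →ₐ[O] G.R₀)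
    (hcomp : ∀ x, θ₀ (φ x) = L.bt (θ x)) (j : Fin r)
    (hφt : ∀ A : ValuationSubring Qbar, A.LiesOverPrime (L.qs j).1 → ∀ Φ : GQ, ∀ σ ∈
      A.inertiaSubgroupIn ℚ, φ (tQ (Φ * σ)) = φ (tQ Φ) ∧ φ (dQ (Φ * σ)) = φ (dQ Φ)) :
    ∃ s : RQ, φ s = 0 ∧ θ (1 + s) =
      algebraMap (DRing O p n r) L.R (MonoidAlgebra.of O (DG p n r) (dgen j)) := by
  haveI : NeZero (L.qs j).1 := ⟨(L.qs j).2.1.ne_zero⟩
  obtain ⟨A, hA, Φ, hΦ⟩ := Frob.exists_place_frobenius (L.qs j).2.1
  obtain ⟨u, hu⟩ := L.hfl j (Multiplicative.ofAdd 1)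
  obtain ⟨σ, hσ, rfl⟩ := exists_inertia_zq (L.qs j).2.1 hA u
  -- residue maps
  let κQ : RQ →ₐ[O] ResidueField O := L.κ.comp θ
  have hκQ : Function.Surjective κQ := kappa_surjective κQ
  let κ₁ : R₁ →ₐ[O] ResidueField O := G.κ₀.comp θ₀
  have hκ₁ : Function.Surjective κ₁ := kappa_surjective κ₁
  have hκ₁φ : ∀ x, κ₁ (φ x) = κQ x := fun x => by
    change G.κ₀ (θ₀ (φ x)) = L.κ (θ x)
    rw [hcomp, L.κ₀_bt]
  have hαβ : L.α (L.qs j) ≠ L.β (L.qs j) := L.dist j
  have htr : (G.ρb Φ).trace = L.α (L.qs j) + L.β (L.qs j) := by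
    rw [← L.sum, ← G.trace_frob _ hA hΦ]
  have htr' : (G.ρb (Φ * σ)).trace = L.α (L.qs j) + L.β (L.qs j) := by
    rw [← L.sum, ← G.trace_frob _ hA (frob_mul_inertia hΦ hσ)]
  have hdt : (G.ρb Φ).det = L.α (L.qs j) * L.β (L.qs j) := by
    rw [L.prod, G.det_frob _ hA hΦ, L.qs_one]
  have hdt' : (G.ρb (Φ * σ)).det = L.α (L.qs j) * L.β (L.qs j) := by
    rw [L.prod, G.det_frob _ hA (frob_mul_inertia hΦ hσ), L.qs_one]
  have hQt : ∀ g, κQ (tQ g) = (G.ρb g).trace := fun g => by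
    change L.κ (θ (tQ g)) = _
    rw [hθt, ρn.trace_res]
  have hQd : ∀ g, κQ (dQ g) = (G.ρb g).det := fun g => by
    change L.κ (θ (dQ g)) = _
    rw [hθd, ρn.det_res]
  -- the roots
  obtain ⟨a, ha, hκa⟩ := exists_root (κ := (κQ : RQ →+* ResidueField O)) hκQ
    (t := tQ Φ) (d := dQ Φ) ((hQt Φ).trans htr) ((hQd Φ).trans hdt) hαβ
  obtain ⟨a', ha', hκa'⟩ := exists_root (κ := (κQ : RQ →+* ResidueField O)) hκQ
    (t := tQ (Φ * σ)) (d := dQ (Φ * σ)) ((hQt _).trans htr') ((hQd _).trans hdt') hαβ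
  have hα0 : L.α (L.qs j) ≠ 0 := fun h0 => by
    have := L.prod j
    rw [h0, zero_mul] at this
    exact zero_ne_one this
  have hau : IsUnit a := isUnit_of_kappa (κ := (κQ : RQ →+* ResidueField O)) hκQ (by
    rw [hκa]; exact hα0)
  obtain ⟨v, hv⟩ := hau.exists_left_inv
  refine ⟨(a' * v) ^ 2 - 1, ?_, ?_⟩
  · -- the image in `R₁`
    obtain ⟨e1, e2⟩ := hφt A hA Φ σ hσ
    have h1 : φ a = φ a' := by
      refine root_unique (κ := (κ₁ : R₁ →+* ResidueField O)) hκ₁ (t := φ (tQ Φ))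
        (d := φ (dQ Φ)) (α := L.α (L.qs j)) (β := L.β (L.qs j)) ?_ ?_ ?_ hαβ ?_ ?_
      · rw [← map_pow, ← map_mul, ← map_sub, ← map_add, ha, map_zero]
      · rw [← e1, ← e2, ← map_pow, ← map_mul, ← map_sub, ← map_add, ha', map_zero]
      · exact (hκ₁φ _).trans ((hQt Φ).trans htr)
      · exact (hκ₁φ _).trans hκa
      · exact (hκ₁φ _).trans hκa'
    rw [map_sub, map_pow, map_mul, ← h1, ← map_mul, mul_comm a v, hv, map_one, one_pow, sub_self]
  · -- the image in the Hecke ring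
    have hθa : θ a ^ 2 - (ρn.T Φ).trace * θ a + (ρn.T Φ).det = 0 := by
      rw [← hθt, ← hθd, ← map_pow, ← map_mul, ← map_sub, ← map_add, ha, map_zero]
    have key := trace_identity hinj ρn hlgc j hA hΦ hθa hκa hσ
    set δ := algebraMap _ L.R (L.ψ (L.qs j).1 (zq (L.qs j).1 σ : (ZMod (L.qs j).1)ˣ)) with hδ
    have hκδ : L.κ δ = 1 := by
      rw [hδ, L.κ_Λ, L.hψa, map_one]
    have h1 : θ a' = θ a * δ := by
      refine root_unique (κ := (L.κ : L.R →+* ResidueField O)) (kappa_surjective L.κ)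
        (t := (ρn.T (Φ * σ)).trace) (d := (ρn.T (Φ * σ)).det)
        (α := L.α (L.qs j)) (β := L.β (L.qs j)) ?_ ?_ ?_ hαβ ?_ ?_
      · rw [← hθt, ← hθd, ← map_pow, ← map_mul, ← map_sub, ← map_add, ha', map_zero]
      · rw [ρn.det_mul_inertia j hA Φ hσ, key]
        ring
      · exact (ρn.trace_res _).trans htr'
      · exact hκa'
      · change L.κ (θ a * δ) = _
        rw [map_mul, hκδ, mul_one]
        exact hκa
    have h2 : θ (a' * v) = δ := by
      rw [map_mul, h1, mul_right_comm, ← map_mul θ a v, mul_comm a v, hv, map_one, one_mul]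
    rw [add_sub_cancel, map_pow, h2, hδ, ← map_pow, L.hψsq, hu]
    rfl

end Elements

section Level

variable {G : Bas p O} [Nontrivial (M0 O G.N G.τ)] [CNL G.R₀] {ρ₀ : Rep0 G} {r n : ℕ}
  {L : BLev G r n} {gn : heckeAlgebra L.NN 2 (bad L.Q) →+* L.R}

/-- **the Taylor-Wiles level** -/
theorem exists_Lvl {K : Type} [Field K] [CharZero K] [IsAlgClosed K] [Algebra O K]
    (hinj : Function.Injective (algebraMap O K)) (ρn : RepN (ρ₀ := ρ₀) gn) (hlgc : LGC K ρn)
    {RQ R₁ : Type} [CommRing RQ] [IsLocalRing RQ] [IsAdicComplete (maximalIdeal RQ) RQ]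
    [Algebra O RQ] [CommRing R₁] [IsLocalRing R₁] [Algebra O R₁]
    (tQ dQ : GQ → RQ) (θ : RQ →ₐ[O] L.R) (hθt : ∀ g, θ (tQ g) = (ρn.T g).trace)
    (hθd : ∀ g, θ (dQ g) = (ρn.T g).det) (φ : RQ →ₐ[O] R₁) (hφ : Function.Surjective φ)
    (θ₀ : R₁ →ₐ[O] G.R₀)
    (hcomp : ∀ x, θ₀ (φ x) = L.bt (θ x))
    (hφt : ∀ j, ∀ A : ValuationSubring Qbar, A.LiesOverPrime (L.qs j).1 → ∀ Φ : GQ, ∀ σ ∈
      A.inertiaSubgroupIn ℚ, φ (tQ (Φ * σ)) = φ (tQ Φ) ∧ φ (dQ (Φ * σ)) = φ (dQ Φ))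
    (γ : MvPowerSeries (Fin r) O →ₐ[O] RQ) (hγ : Function.Surjective γ) :
    letI : Module R₁ (M0 O G.N G.τ) := Module.compHom _ (G.act₀.comp (θ₀ : R₁ →+* G.R₀))
    Nonempty (Lvl O p n r R₁ (M0 O G.N G.τ)) := by
  letI : Module R₁ (M0 O G.N G.τ) := Module.compHom _ (G.act₀.comp (θ₀ : R₁ →+* G.R₀))
  haveI := G.cnlDk n r
  choose s hs1 hs2 using fun j => exists_s hinj ρn hlgc tQ dQ θ hθt hθd φ θ₀ hcomp j (hφt j)
  letI mR : Module RQ L.M := Module.compHom _ (L.act.comp (θ : RQ →+* L.R))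
  obtain ⟨π, hπ1, hπ2, hπ3⟩ := L.exists_red
  haveI : Module.Free (DRing O p n r) L.M := free_MQ L.pcond L.ψ
  exact ⟨
  { R := RQ
    γ := γ
    γ_surj := hγ
    ρ := φ
    ρ_surj := hφ
    s := s
    ρ_s := hs1
    M := L.M
    fin := inferInstance
    free := inferInstance
    smul_alg := fun a x => by
      change L.act (θ (algebraMap O RQ a)) x = _
      rw [AlgHom.commutes, ← L.act_algebraMap]
      rfl
    smul_s := fun i x => by
      change L.act (θ (1 + s i)) x = _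
      rw [hs2, L.act_algebraMap]
    π := π
    π_surj := hπ1
    π_smul := fun a x => by
      change π (L.act (θ a) x) = G.act₀ (θ₀ (φ a)) (π x)
      rw [hcomp, hπ2]
    ker_π := hπ3 }⟩

end Level

end Fermat.Agent.RT
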