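import Fermat.Agent.RT.T11a
import Fermat.Agent.RT.T11St
import Fermat.Agent.RT.SelMain
import Fermat.Agent.TWG.Unip
import Fermat.Agent.S56
import Fermat.Agent.TWInst.Fields

/-!
# T11: the minimal case
-/

set_option autoImplicit false
set_option maxHeartbeats 400000
set_option linter.unusedSectionVars false

noncomputable section

namespace Fermat.Agent.RT

open IsLocalRing Matrix Fermat.Agent.DefRing Fermat.Agent.GalRep Fermat.Agent.TWPatch
  Fermat.Agent.TWLoc Fermat.Agent.TWGal CuspForm Fermat.Agent.AnJac Fermat.Agent.HeckeQ GaloisRep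
open Fermat.Agent.TWInst (zq exists_inertia_zq Psi Psi_apply Psi_inertia KK exists_fields)
open Fermat.Agent.TWCoh hiding GQ

local notation "Qbar" => AlgebraicClosure ℚ

attribute [local instance] algDk BLev.cnl

section Charpoly

variable {k V : Type} [Field k] [AddCommGroup V] [Module k V] [Module.Finite k V]

/-- trace and determinant from the characteristic polynomial -/
theorem trace_det_of_charpoly (b : Module.Basis (Fin 2) k V) {f : Module.End k V} {α β : k}
    (h : LinearMap.charpoly f = (Polynomial.X - Polynomial.C α) * (Polynomial.X - Polynomial.C β)) :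
    (LinearMap.toMatrix b b f).trace = α + β ∧ (LinearMap.toMatrix b b f).det = α * β := by
  have h1 : (LinearMap.toMatrix b b f).charpoly =
      (Polynomial.X - Polynomial.C α) * (Polynomial.X - Polynomial.C β) := by
    rw [← h, LinearMap.charpoly_toMatrix]
  rw [Matrix.charpoly_fin_two] at h1
  have h2 : (Polynomial.X - Polynomial.C α) * (Polynomial.X - Polynomial.C β) =
      Polynomial.X ^ 2 - Polynomial.C (α + β) * Polynomial.X + Polynomial.C (α * β) := by
    rw [Polynomial.C_add, Polynomial.C_mul]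
    ring
  rw [h2] at h1
  constructor
  · have h3 := congrArg (fun P => Polynomial.coeff P 1) h1
    simp only [Polynomial.coeff_add, Polynomial.coeff_sub, Polynomial.coeff_C_mul,
      Polynomial.coeff_X_pow, Polynomial.coeff_X_one, Polynomial.coeff_C] at h3
    norm_num at h3
    linear_combination -h3
  · have h3 := congrArg (fun P => Polynomial.coeff P 0) h1
    simp only [Polynomial.coeff_add, Polynomial.coeff_sub, Polynomial.coeff_C_mul,
      Polynomial.coeff_X_pow, Polynomial.coeff_X_zero, Polynomial.coeff_C] at h3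
    norm_num at h3
    rw [LinearMap.det_toMatrix]
    exact h3

end Charpoly

section BC

variable {A B : Type} [CommRing A] [IsLocalRing A] [CommRing B] [IsLocalRing B]

theorem trace_of_bc {φ : A →+* B} {hφ : IsLocalHom φ} {ρ : GaloisRepAdic A} {ρ' : GaloisRepAdic B}
    (h : (ρ.baseChangeAlong φ hφ).IsEquiv ρ') (σ : GQ) : φ (ρ.trace σ) = ρ'.trace σ := by
  rw [Sel.trace_of_isEquiv h, Sel.trace_baseChange]

theorem det_of_bc {φ : A →+* B} {hφ : IsLocalHom φ} {ρ : GaloisRepAdic A} {ρ' : GaloisRepAdic B}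
    (h : (ρ.baseChangeAlong φ hφ).IsEquiv ρ') (σ : GQ) :
    φ (LinearMap.det (ρ.ρ σ)) = LinearMap.det (ρ'.ρ σ) := by
  obtain ⟨T, hT, hρ⟩ := Sel.exists_model ρ
  have h1 := Sel.baseChange_model φ hφ hρ
  rw [Sel.det_of_isEquiv h, ← Sel.det_of_isEquiv h1, ← Sel.det_of_isEquiv hρ, Sel.det_matRep,
    Sel.det_matRep]
  exact RingHom.map_det φ (T σ)

end BC

section DDl

variable {O : Type} [CommRing O] {t : PType} {p : ℕ}
  {A : Type} [CommRing A] [IsLocalRing A] [Algebra O A] {ρ : GaloisRepAdic A}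

theorem DD.unr {S Smin : Finset ℕ} (h : DD O t p S Smin ρ) {q : ℕ} (hq : q.Prime) (hqS : q ∉ S) :
    ρ.IsUnramifiedAt q := by
  cases t
  · exact h.1.2.2 q hq hqS
  · exact h.1.2.2 q hq hqS
  · exact h.1.2.2 q hq hqS

theorem DD.detCyc {S Smin : Finset ℕ} (h : DD O t p S Smin ρ) : ρ.DetIsCyclotomic p := by
  cases t
  · exact h.1.1
  · exact h.1.1
  · exact h.1.1

theorem DD.change {S Smin S' Smin' : Finset ℕ} (h : DD O t p S Smin ρ)
    (h1 : ∀ q : ℕ, q.Prime → q ∉ S' → ρ.IsUnramifiedAt q) (h2 : Smin' ⊆ Smin) :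
    DD O t p S' Smin' ρ := by
  refine ⟨?_, fun q hq => h.2 q (h2 hq)⟩
  cases t
  · exact ⟨h.1.1, h.1.2.1, h1⟩
  · exact ⟨h.1.1, h.1.2.1, h1⟩
  · exact ⟨h.1.1, h.1.2.1, h1⟩

theorem DD_iffQ {Smin Q : Finset ℕ} (hQ : ∀ q ∈ Q, q ∉ Smin ∧ q.Prime) :
    DD O t p Smin Smin ρ ↔ DD O t p (Smin ∪ Q) Smin ρ ∧ ∀ q ∈ Q, ρ.IsUnramifiedAt q := by
  constructor
  · intro h
    refine ⟨h.change (fun q hq hqS => h.unr hq fun h' => hqS (Finset.mem_union_left _ h'))
      le_rfl, fun q hq => h.unr (hQ q hq).2 (hQ q hq).1⟩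
  · rintro ⟨h1, h2⟩
    refine h1.change (fun q hq hqS => ?_) le_rfl
    by_cases hqQ : q ∈ Q
    · exact h2 q hqQ
    · exact h1.unr hq fun h' => (Finset.mem_union.mp h').elim hqS hqQ

end DDl

variable {p : ℕ} [hpf : Fact p.Prime] {O : Type} [CommRing O] [CNL O]

section Build

variable (G : Bas p O) {ρbar : ResidualGaloisRep (ResidueField O)}
  (b : Module.Basis (Fin 2) (ResidueField O) ρbar.V) (hb : ∀ g, resMat ρbar b g = G.ρb g)

include hb in
/-- the auxiliary data from the Taylor-Wiles primes of S56 -/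
theorem exists_BLev_of_qv {r n : ℕ} (qv : Fin r → ℕ) (hinj : Function.Injective qv)
    (h1 : ∀ i, (qv i).Prime ∧ qv i ∉ G.S ∧ p ^ (n + 1) ∣ qv i - 1)
    (h2 : ∀ i, ∀ P : ValuationSubring Qbar, P.LiesOverPrime (qv i) → ∀ φ : GQ,
      P.IsFrobeniusAt φ (qv i) → ∃ α β : ResidueField O, α ≠ β ∧
        LinearMap.charpoly (ρbar.ρ φ) =
          (Polynomial.X - Polynomial.C α) * (Polynomial.X - Polynomial.C β)) :
    ∃ L : BLev G r n, ∀ i, (L.qs i).1 = qv i := by
  let qs : Fin r → PS G.S := fun i => ⟨qv i, (h1 i).1, (h1 i).2.1⟩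
  have hqs : Function.Injective qs := fun i j hij => hinj (congrArg (fun x : PS G.S => x.1) hij)
  have h3 : ∀ i, ∃ α β : ResidueField O, α ≠ β ∧ G.τ (qs i) = α + β ∧ α * β = 1 := by
    intro i
    obtain ⟨A, hA, Φ, hΦ⟩ := Frob.exists_place_frobenius (h1 i).1
    obtain ⟨α, β, hne, hcp⟩ := h2 i A hA Φ hΦ
    obtain ⟨e1, e2⟩ := trace_det_of_charpoly b hcp
    have e3 : LinearMap.toMatrix b b (ρbar.ρ Φ) = G.ρb Φ := hb Φ
    rw [e3] at e1 e2
    refine ⟨α, β, hne, ?_, ?_⟩
    · rw [← e1, G.trace_frob (qs i) hA hΦ]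
    · rw [← e2, G.det_frob (qs i) hA hΦ]
      change ((qv i : ℕ) : ResidueField O) = 1
      obtain ⟨c, hc⟩ := (h1 i).2.2
      have h4 := (h1 i).1.one_lt
      have h5 : qv i = p * (p ^ n * c) + 1 := by
        have : p ^ (n + 1) * c = p * (p ^ n * c) := by ring
        omega
      rw [h5]
      push_cast
      rw [G.pk, zero_mul, zero_add]
  choose α β hne hsum hprod using h3
  obtain ⟨L, hL, -, -⟩ := exists_BLev G r n qs hqs (fun j => (h1 j).2.2)
    (Function.extend qs α 0) (Function.extend qs β 0)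
    (fun j => by rw [hqs.extend_apply, hqs.extend_apply]; exact hsum j)
    (fun j => by rw [hqs.extend_apply, hqs.extend_apply]; exact hprod j)
    (fun j => by rw [hqs.extend_apply, hqs.extend_apply]; exact hne j)
  exact ⟨L, fun i => by rw [hL]⟩

theorem Bas.tf_M0 [IsDomain O] (a : O) (ha : a ≠ 0) (x : M0 O G.N G.τ) (h : a • x = 0) :
    x = 0 := by
  apply Subtype.ext
  apply MS.ext'
  intro u v
  have h1 : a * x.1.1 u v = 0 := by
    have h2 := congrArg (fun z : M0 O G.N G.τ => z.1.1 u v) h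
    exact h2
  exact (mul_eq_zero.mp h1).resolve_left ha

theorem Bas.free_M0 [IsDomain O] [IsDiscreteValuationRing O] : Module.Free O (M0 O G.N G.τ) := by
  haveI : Module.IsTorsionFree O (M0 O G.N G.τ) := by
    rw [Module.isTorsionFree_iff_smul_eq_zero]
    intro a x h
    by_cases ha : a = 0
    · exact Or.inl ha
    · exact Or.inr (G.tf_M0 a ha x h)
  haveI : Module.Finite O (M0 O G.N G.τ) := finite_loc
  exact Module.free_of_finite_type_torsion_free'

theorem Bas.cnl_R₀ [IsDomain O] [IsDiscreteValuationRing O] [CharZero O] : CNL G.R₀ := by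
  haveI := G.nontrivial_M0
  haveI := G.free_M0
  haveI : Module.Finite O (M0 O G.N G.τ) := finite_loc
  exact G.cnl₀ (Module.finBasis O (M0 O G.N G.τ))

theorem Bas.finite_R₀ [IsDomain O] [IsDiscreteValuationRing O] [CharZero O] :
    Module.Finite O G.R₀ := by
  haveI := G.nontrivial_M0
  haveI := G.free_M0
  haveI : Module.Finite O (M0 O G.N G.τ) := finite_loc
  exact G.fin₀ (Module.finBasis O (M0 O G.N G.τ))

end Build

end Fermat.Agent.RT
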