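import Fermat.Agent.RT.T11b

/-!
# T11: the minimal case, II
-/

set_option autoImplicit false
set_option maxHeartbeats 400000
set_option linter.unusedSectionVars false

noncomputable section

namespace Fermat.Agent.RT

open IsLocalRing Matrix Fermat.Agent.DefRing Fermat.Agent.GalRep Fermat.Agent.TWPatch
  Fermat.Agent.TWLoc Fermat.Agent.TWGal CuspForm Fermat.Agent.AnJac Fermat.Agent.HeckeQ GaloisRep
open Fermat.Agent.TWInst (zq exists_inertia_zq Psi Psi_apply Psi_inertia KK exists_fields)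
open Fermat.Agent.TWCoh hiding GQ

local notation "Qbar" => AlgebraicClosure ℚ

attribute [local instance] algDk BLev.cnl

variable {p : ℕ} [hpf : Fact p.Prime] {O : Type} [CommRing O] [CNL O]

section Kappa

variable {B : Type} [CommRing B] [IsLocalRing B] [Algebra O B] (κ : B →ₐ[O] ResidueField O)

theorem isLocalHom_of_kappa (κ : B →ₐ[O] ResidueField O) : IsLocalHom (algebraMap O B) := by
  constructor
  intro a ha
  have h1 : IsUnit (κ (algebraMap O B a)) := ha.map κ
  rw [AlgHom.commutes] at h1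
  by_contra h2
  have h3 : a ∈ maximalIdeal O := h2
  have h4 : algebraMap O (ResidueField O) a = 0 := (residue_eq_zero_iff a).mpr h3
  rw [h4] at h1
  exact not_isUnit_zero h1

theorem residue_eq_map_kappa [IsLocalHom (algebraMap O B)] (x : B) :
    residue B x = ResidueField.map (algebraMap O B) (κ x) := by
  obtain ⟨a, ha⟩ := residue_surjective (κ x)
  have h1 : x - algebraMap O B a ∈ maximalIdeal B := by
    rw [← ker_kappa κ, RingHom.mem_ker, map_sub, AlgHom.commutes]
    have : algebraMap O (ResidueField O) a = residue O a := rfl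
    rw [this, ha, sub_self]
  rw [← residue_eq_zero_iff, map_sub, sub_eq_zero] at h1
  rw [h1, ← ha]
  rfl

theorem residue_comp_surj (κ : B →ₐ[O] ResidueField O) :
    Function.Surjective (residue B ∘ algebraMap O B) := by
  haveI := isLocalHom_of_kappa κ
  intro y
  obtain ⟨x, rfl⟩ := residue_surjective y
  obtain ⟨a, ha⟩ := residue_surjective (κ x)
  refine ⟨a, ?_⟩
  rw [residue_eq_map_kappa κ x, ← ha]
  rfl

end Kappa

/-- the Galois-theoretic data accompanying the base data -/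
structure GalD (G : Bas p O) where
  ρbar : ResidualGaloisRep (ResidueField O)
  b : Module.Basis (Fin 2) (ResidueField O) ρbar.V
  hb : ∀ g, resMat ρbar b g = G.ρb g
  habs : ρbar.IsAbsolutelyIrreducible
  t : PType
  htN : LevelType t p G.N ρbar
  Smin : Finset ℕ
  hpSmin : p ∈ Smin
  Sf : Finset ℕ
  hSf : (Sf : Set ℕ) = G.S
  hsub : Smin ⊆ Sf
  hSfp : ∀ q ∈ Sf, q.Prime
  hSN : ∀ q ∈ Sf, q ≠ p → q ∣ G.N ∧ ¬ q ^ 2 ∣ G.N
  hmin : ∀ q : ℕ, q.Prime → q ≠ p → (q ∈ Smin ↔ ¬ ρbar.IsUnramifiedAt q)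
  haux : ∀ q ∈ Sf, q ∉ Smin → (q : ResidueField O) ≠ 1 ∧
    ∀ A : ValuationSubring Qbar, A.LiesOverPrime q → ∀ Φ : GQ, A.IsFrobeniusAt Φ q →
      ((q : ResidueField O) + 1) ^ 2 ≠ (G.ρb Φ).trace ^ 2

section Cond

variable [IsDomain O] [IsDiscreteValuationRing O] [CharZero O] {G : Bas p O} (D : GalD G)

/-- **the deformation condition for representations over rings receiving the Hecke algebra** -/
theorem GalD.dd_of (HB : DatumB) {N' : ℕ} [NeZero N']
    (hN' : ∀ q ∈ D.Sf, q ≠ p → q ∣ N' ∧ ¬ q ^ 2 ∣ N') (ht : LevelType D.t p N' D.ρbar)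
    {S' : Set ℕ} {Q : Finset ℕ} (hS' : ((D.Sf ∪ Q : Finset ℕ) : Set ℕ) = S')
    (hNS : ∀ q : ℕ, q.Prime → q ∣ N' → q ∈ S')
    {B : Type} [CommRing B] [CNL B] [Algebra O B] [Module.Finite O B] (κ : B →ₐ[O] ResidueField O)
    (g : heckeAlgebra N' 2 S' →+* B) {T : GQ →* Matrix (Fin 2) (Fin 2) B} (hT : MatCont T)
    (hres : ∀ σ, (T σ).map κ = G.ρb σ)
    (hfrob : ∀ (ℓ : ℕ) (hℓ : ℓ.Prime) (hℓN : ¬ ℓ ∣ N') (hℓS : ℓ ∉ S'),
      ∀ A : ValuationSubring Qbar, A.LiesOverPrime ℓ → ∀ τ : GQ, A.IsFrobeniusAt τ ℓ →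
          (T τ).trace = g (heckeAlgebra.T hℓ hℓN hℓS) ∧ (T τ).det = (ℓ : B)) :
    DD O D.t p (D.Smin ∪ Q) D.Smin (matRep T hT) := by
  haveI := isLocalHom_of_kappa κ
  have hpS' : p ∈ S' := by
    rw [← hS']
    exact Finset.mem_coe.mpr (Finset.mem_union_left _ (D.hsub D.hpSmin))
  have hresB : ∀ σ i j, residue B (T σ i j) =
      ResidueField.map (algebraMap O B) (resMat D.ρbar D.b σ i j) := by
    intro σ i j
    rw [residue_eq_map_kappa κ, D.hb, ← hres]
    rfl
  have h1 : DD O D.t p (D.Sf ∪ Q) D.Sf (matRep T hT) :=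
    HB O p G.hp2 G.hpO D.ρbar D.habs D.b N' S' (D.Sf ∪ Q) hS' hpS' hNS B (residue_comp_surj κ) g T
      hT hresB hfrob D.t D.Sf (fun q hq _ hqp => hN' q hq hqp) ht
  refine h1.change (fun q hq hqS => ?_) D.hsub
  rw [Finset.mem_union, not_or] at hqS
  by_cases hqf : q ∈ D.Sf
  swap
  · exact h1.unr hq (by rw [Finset.mem_union, not_or]; exact ⟨hqf, hqS.2⟩)
  have hqp : q ≠ p := fun h => hqS.1 (h ▸ D.hpSmin)
  have hur : D.ρbar.IsUnramifiedAt q := by
    by_contra h
    exact hqS.1 ((D.hmin q hq hqp).mpr h)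
  obtain ⟨hq1, haux⟩ := D.haux q hqf hqS.1
  have hdc := h1.detCyc
  have hrefl : (matRep T hT).IsEquiv (matRep T hT) := ⟨GaloisRepAdic.Equiv.refl _⟩
  have hpB : (p : B) ∈ maximalIdeal B := hdc.1
  have hκ := kappa_surjective κ
  have hk0 : ((q : ℕ) : ResidueField O) ≠ 0 := by
    haveI := G.charP
    intro h
    exact hqp ((Nat.prime_dvd_prime_iff_eq hpf.out hq).mp
      ((CharP.cast_eq_zero_iff (ResidueField O) p q).mp h)).symm
  intro P hP σ hσ
  rw [Sel.one_matRep]
  obtain ⟨A, hA, Φ, hΦ⟩ := Frob.exists_place_frobenius hq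
  refine TWInst.one_all_places hq hA (fun σ hσ => ?_) hP hσ
  have hcp : ∀ σ ∈ A.inertiaSubgroupIn ℚ, (T σ).charpoly = (Polynomial.X - 1) ^ 2 := by
    intro σ hσ
    have h2 := h1.2 q hqf hq hqp A hA σ hσ
    have h3 : (matRep T hT).ρ σ = Matrix.toLin' (T σ) := rfl
    rw [h3] at h2
    have h4 : (LinearMap.toMatrix (Pi.basisFun B (Fin 2)) (Pi.basisFun B (Fin 2))
        (Matrix.toLin' (T σ))).charpoly = (Matrix.toLin' (T σ)).charpoly :=
      LinearMap.charpoly_toMatrix _ _
    rw [LinearMap.toMatrix_eq_toMatrix', LinearMap.toMatrix'_toLin'] at h4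
    exact h4.trans h2
  have htd : ∀ σ ∈ A.inertiaSubgroupIn ℚ, (T σ).trace = 2 ∧ (T σ).det = 1 := by
    intro σ hσ
    have h2 := hcp σ hσ
    rw [Matrix.charpoly_fin_two] at h2
    have h3 : (Polynomial.X - 1 : Polynomial B) ^ 2 =
        Polynomial.X ^ 2 - Polynomial.C 2 * Polynomial.X + Polynomial.C 1 := by
      rw [Polynomial.C_1]
      have : (Polynomial.C 2 : Polynomial B) = 2 := rfl
      rw [this]
      ring
    rw [h3] at h2
    constructor
    · have h4 := congrArg (fun P => Polynomial.coeff P 1) h2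
      simp only [Polynomial.coeff_add, Polynomial.coeff_sub, Polynomial.coeff_C_mul,
        Polynomial.coeff_X_pow, Polynomial.coeff_X_one, Polynomial.coeff_C] at h4
      norm_num at h4
      exact h4
    · have h4 := congrArg (fun P => Polynomial.coeff P 0) h2
      simp only [Polynomial.coeff_add, Polynomial.coeff_sub, Polynomial.coeff_C_mul,
        Polynomial.coeff_X_pow, Polynomial.coeff_X_zero, Polynomial.coeff_C] at h4
      norm_num at h4
      exact h4
  have htrκ : κ (T Φ).trace = (G.ρb Φ).trace := by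
    rw [← hres, Matrix.trace_fin_two, Matrix.trace_fin_two, map_add]
    rfl
  refine TWG.unram_of_unip hT hq hA hpf.out hqp.symm hpB ?_ (fun σ hσ => (htd σ hσ).1)
    (fun σ hσ => (htd σ hσ).2) hΦ (Sel.det_frob hrefl hdc hpf.out hq hqp.symm hA hΦ)
    ?_ ?_ ?_ hσ
  · intro σ hσ i j
    have h2 : D.ρbar.ρ σ = 1 := hur A hA σ hσ
    have h3 : G.ρb σ = 1 := by
      rw [← D.hb, resMat, h2, Module.End.one_eq_id, LinearMap.toMatrix_id]
    have h4 : (T σ).map κ = 1 := (hres σ).trans h3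
    rw [← ker_kappa κ, RingHom.mem_ker, Matrix.sub_apply]
    have h5 := congrFun (congrFun h4 i) j
    rw [Matrix.map_apply] at h5
    rw [map_sub]
    have h6 : κ ((1 : Matrix (Fin 2) (Fin 2) B) i j) =
        (1 : Matrix (Fin 2) (Fin 2) (ResidueField O)) i j := by
      rw [Matrix.one_apply, Matrix.one_apply]
      split_ifs
      · exact map_one _
      · exact map_zero _
    rw [h6]
    exact sub_eq_zero.mpr h5
  · exact isUnit_of_kappa (κ := (κ : B →+* ResidueField O)) hκ (by rw [map_natCast]; exact hk0)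
  · exact isUnit_of_kappa (κ := (κ : B →+* ResidueField O)) hκ (by
      rw [map_sub, map_natCast, map_one]
      exact sub_ne_zero.mpr hq1)
  · refine isUnit_of_kappa (κ := (κ : B →+* ResidueField O)) hκ ?_
    have h7 : (κ : B →+* ResidueField O) (T Φ).trace = (G.ρb Φ).trace := htrκ
    rw [map_sub, map_pow, map_add, map_natCast, map_one, map_pow, h7]
    exact sub_ne_zero.mpr (haux A hA Φ hΦ)

end Cond

end Fermat.Agent.RT
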