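import Fermat.Agent.RT.T11c

/-!
# T11: the minimal case, III
-/

set_option autoImplicit false
set_option maxHeartbeats 800000
set_option linter.unusedSectionVars false

noncomputable section

namespace Fermat.Agent.RT

open IsLocalRing Matrix Fermat.Agent.DefRing Fermat.Agent.GalRep Fermat.Agent.TWPatch
  Fermat.Agent.TWLoc Fermat.Agent.TWGal CuspForm Fermat.Agent.AnJac Fermat.Agent.HeckeQ GaloisRep
open Fermat.Agent.TWInst (zq exists_inertia_zq Psi Psi_apply Psi_inertia KK exists_fields)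
open Fermat.Agent.TWCoh hiding GQ

local notation "Qbar" => AlgebraicClosure ℚ

attribute [local instance] algDk BLev.cnl

variable {p : ℕ} [hpf : Fact p.Prime] {O : Type} [CommRing O] [CNL O]
  [IsDomain O] [IsDiscreteValuationRing O] [CharZero O] {G : Bas p O} (D : GalD G)

/-- the deformation conditions are deformation conditions -/
def IsDefCondDD (O : Type) [CommRing O] [IsLocalRing O] (p : ℕ) : Prop :=
  ∀ (t : PType) (S Smin : Finset ℕ), p ∈ S → IsDeformationCondition O (DD O t p S Smin)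

/-- the conclusion of S56 -/
def GalD.S56C : Prop :=
  ∃ r : ℕ, ∀ n : ℕ, ∃ qv : Fin r → ℕ, Function.Injective qv ∧
    (∀ i, (qv i).Prime ∧ qv i ∉ D.Sf ∧ p ^ (n + 1) ∣ qv i - 1) ∧
    (∀ i, ∀ P : ValuationSubring (AlgebraicClosure ℚ), P.LiesOverPrime (qv i) →
      ∀ φ : AlgebraicClosure ℚ ≃ₐ[ℚ] AlgebraicClosure ℚ, P.IsFrobeniusAt φ (qv i) →
        ∃ α β : ResidueField O, α ≠ β ∧ LinearMap.charpoly (D.ρbar.ρ φ) =
          (Polynomial.X - Polynomial.C α) * (Polynomial.X - Polynomial.C β)) ∧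
    ∀ DQ : DeformationRingData O D.ρbar
      (DD O D.t p (D.Smin ∪ Finset.univ.image qv) D.Smin),
      ∃ γ : MvPowerSeries (Fin r) O →ₐ[O] DQ.R, Function.Surjective γ

theorem GalD.s56 (ht : D.t ≠ .ord)
    (hdet : (GaloisRepAdic.ofResidualGaloisRep D.ρbar).DetIsCyclotomic p)
    (hsplit : ∀ σ : AlgebraicClosure ℚ ≃ₐ[ℚ] AlgebraicClosure ℚ,
      ∃ α β : ResidueField O, LinearMap.charpoly (D.ρbar.ρ σ) =
        (Polynomial.X - Polynomial.C α) * (Polynomial.X - Polynomial.C β))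
    (hTW : ∀ (K : Type) [Field K] [Algebra (ResidueField O) K]
      (G : Subgroup (AlgebraicClosure ℚ ≃ₐ[ℚ] AlgebraicClosure ℚ)), G.index = 2 →
      ∀ V : Submodule K (D.ρbar.baseChange K).V,
        (∀ σ ∈ G, ∀ x ∈ V, (D.ρbar.baseChange K).ρ σ x ∈ V) → V = ⊥ ∨ V = ⊤) : D.S56C := by
  have h := Fermat.Agent.S56.result p G.hp2 G.hpO D.ρbar D.habs hdet hsplit hTW D.Sf D.Smin
    D.hpSmin D.hsub D.hSfp D.hmin
  unfold GalD.S56C
  cases hD : D.t with
  | fl => exact h.2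
  | st => exact h.1
  | ord => exact absurd hD ht

theorem residual_isEquiv_of {B : Type} [CommRing B] [IsLocalRing B] [Algebra O B]
    [IsLocalHom (algebraMap O B)] (κ : B →ₐ[O] ResidueField O)
    {T : GQ →* Matrix (Fin 2) (Fin 2) B} (hT : MatCont T) (hres : ∀ σ, (T σ).map κ = G.ρb σ) :
    (matRep T hT).residual.IsEquiv
      (D.ρbar.baseChangeAlong (ResidueField.map (algebraMap O B))) :=
  matRep_residual_isEquiv D.ρbar D.b (ResidueField.map (algebraMap O B)) T hT (fun g i j => by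
    rw [residue_eq_map_kappa κ, D.hb, ← hres]
    rfl)

theorem levelType_of {k : Type} [Field k] {t : PType} {N N' : ℕ} {ρbar : ResidualGaloisRep k}
    (h : LevelType t p N ρbar) (h1 : p ∣ N' → p ∣ N) (h2 : p ∣ N → p ∣ N')
    (h3 : p ^ 2 ∣ N' → p ^ 2 ∣ N) : LevelType t p N' ρbar := by
  cases t with
  | fl => exact fun h' => h (h1 h')
  | ord => exact ⟨h2 h.1, fun h' => h.2.1 (h3 h'), h.2.2⟩
  | st => exact ⟨h2 h.1, fun h' => h.2.1 (h3 h'), h.2.2⟩

/-- divisibility of the big level -/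
theorem BLev.pow_dvd_NN {r n : ℕ} (L : BLev G r n) {q : ℕ} (hq : q.Prime) (hqS : q ∈ G.S)
    (k : ℕ) : q ^ k ∣ L.NN ↔ q ^ k ∣ G.N := by
  constructor
  · intro h
    have hcop : Nat.Coprime (q ^ k) ((∏ q ∈ L.Q, q.1) * cdr L.Q ∅) := by
      apply Nat.Coprime.pow_left
      rw [Nat.Prime.coprime_iff_not_dvd hq]
      intro h1
      rcases hq.dvd_mul.mp h1 with h2 | h2
      · rw [Prime.dvd_finsetProd_iff hq.prime] at h2
        obtain ⟨l, hl, h3⟩ := h2
        exact l.2.2 ((Nat.prime_dvd_prime_iff_eq hq l.2.1).1 h3 ▸ hqS)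
      · rw [cdr, Prime.dvd_finsetProd_iff hq.prime] at h2
        obtain ⟨l, hl, h3⟩ := h2
        have h4 := (Nat.prime_dvd_prime_iff_eq hq (L.prime_allP hl)).1 h3
        obtain ⟨j, hj⟩ := L.mem_allP.mp hl
        exact (L.qs j).2.2 (by rw [hj, ← h4]; exact hqS)
    have h5 : L.NN = G.N * ((∏ q ∈ L.Q, q.1) * cdr L.Q ∅) := mul_assoc _ _ _
    rw [h5] at h
    exact hcop.dvd_of_dvd_mul_right h
  · intro h
    have h5 : L.NN = G.N * ((∏ q ∈ L.Q, q.1) * cdr L.Q ∅) := mul_assoc _ _ _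
    rw [h5]
    exact h.trans (dvd_mul_right _ _)

/-- the module structure on the symbols -/
@[reducible] def modOf {R : Type} [CommRing R] [Algebra O R] (θ : R →ₐ[O] G.R₀) :
    Module R (M0 O G.N G.τ) :=
  Module.compHom _ (G.act₀.comp (θ : R →+* G.R₀))

section Main

variable [Algebra ℤ_[p] O] [Module.Finite ℤ_[p] O]

/-- **the minimal case of `R = T`** -/
theorem GalD.minimal (HB : DatumB) (HR : ExistsDefRing) (HD : IsDefCondDD O p)
    (hbar : ∀ S : Finset ℕ, D.Smin ⊆ S →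
      DD O D.t p S D.Smin (GaloisRepAdic.ofResidualGaloisRep D.ρbar))
    (HS : D.S56C)
    (D₀ : DeformationRingData O D.ρbar (DD O D.t p D.Smin D.Smin)) :
    ∃ θ₀ : D₀.R →ₐ[O] G.R₀, Function.Bijective θ₀ ∧
      (∀ l : PS G.S, ∀ A : ValuationSubring Qbar, A.LiesOverPrime l.1 → ∀ σ : GQ,
        A.IsFrobeniusAt σ l.1 → θ₀ (D₀.ρ.trace σ) = T0.T (Set.Subset.refl G.S) l) ∧
      (letI := modOf θ₀
       Module.Free D₀.R (M0 O G.N G.τ) ∧ Module.annihilator D₀.R (M0 O G.N G.τ) = ⊥ ∧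
        Module.Finite O D₀.R ∧ Module.Free O D₀.R ∧
        ∃ (r : ℕ) (ψ : MvPowerSeries (Fin r) O →ₐ[O] D₀.R), Function.Surjective ψ ∧
          ∃ g : Fin r → MvPowerSeries (Fin r) O, RingHom.ker ψ = Ideal.span (Set.range g)) := by
  haveI := G.nontrivial_M0
  haveI := G.free_M0
  haveI : Module.Finite O (M0 O G.N G.τ) := finite_loc
  haveI := G.cnl_R₀
  haveI := G.finite_R₀
  haveI hl₀ : IsLocalHom (algebraMap O G.R₀) := isLocalHom_of_kappa G.κ₀
  have htf : Function.Injective (algebraMap ℤ_[p] O) := by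
    rw [injective_iff_map_eq_zero]
    intro x hx
    by_contra hne
    obtain ⟨u, m, rfl⟩ : ∃ (u : ℤ_[p]ˣ) (m : ℕ), x = u * (p : ℤ_[p]) ^ m :=
      ⟨_, _, PadicInt.unitCoeff_spec hne⟩
    rw [map_mul, map_pow, map_natCast] at hx
    rcases mul_eq_zero.mp hx with h1 | h1
    · exact (u.isUnit.map (algebraMap ℤ_[p] O)).ne_zero h1
    · exact pow_ne_zero m (Nat.cast_ne_zero.mpr hpf.out.ne_zero) h1
  obtain ⟨φK, c, hinj, -, -, -⟩ := exists_fields (p := p) O htf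
  letI : Algebra O (KK p) := φK.toAlgebra
  have hinj' : Function.Injective (algebraMap O (KK p)) := hinj
  obtain ⟨x₀, hx₀⟩ := G.exists_x₀ φK hinj
  obtain ⟨ρ₀⟩ := exists_Rep0 x₀ hx₀
  -- the representation at level zero is of the right type
  have hdd₀ : DD O D.t p D.Smin D.Smin (matRep ρ₀.T ρ₀.cont) := by
    have h1 := D.dd_of (Q := ∅) HB D.hSN D.htN (S' := G.S)
      (by rw [Finset.union_empty, D.hSf]) G.hNS G.κ₀ x₀ ρ₀.cont ρ₀.res
      (fun ℓ hℓ hℓN hℓS A hA τ hτ => by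
        obtain ⟨e1, e2⟩ := ρ₀.frob ⟨ℓ, hℓ, hℓS⟩ A hA τ hτ
        exact ⟨e1.trans (hx₀ ⟨ℓ, hℓ, hℓS⟩).symm, e2⟩)
    rwa [Finset.union_empty] at h1
  obtain ⟨θ₀, ⟨hθ₀, hθ₀e⟩, -⟩ := D₀.universal G.R₀ (residue_comp_surj G.κ₀)
    (matRep ρ₀.T ρ₀.cont) hdd₀ (residual_isEquiv_of D G.κ₀ ρ₀.cont ρ₀.res)
  obtain ⟨r, hr⟩ := HS
  -- the levels
  have hlev : ∀ n : ℕ, letI := modOf θ₀
      Nonempty (Lvl O p n r D₀.R (M0 O G.N G.τ)) := by
    intro n
    obtain ⟨qv, hqi, hq1, hq2, hγ⟩ := hr n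
    set Q : Finset ℕ := Finset.univ.image qv with hQdef
    have hq1' : ∀ i, (qv i).Prime ∧ qv i ∉ G.S ∧ p ^ (n + 1) ∣ qv i - 1 := fun i =>
      ⟨(hq1 i).1, fun h => (hq1 i).2.1 (by rw [← D.hSf] at h; exact Finset.mem_coe.mp h),
        (hq1 i).2.2⟩
    obtain ⟨L, hL⟩ := exists_BLev_of_qv G D.b D.hb qv hqi hq1' hq2
    haveI := L.fin
    haveI hlL : IsLocalHom (algebraMap O L.R) := isLocalHom_of_kappa L.κ
    obtain ⟨gn, hg⟩ := L.exists_hecke φK hinj
    obtain ⟨hsurj, ⟨ρn⟩⟩ := exists_RepN (ρ₀ := ρ₀) gn hg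
    have hQp : ∀ q ∈ Q, q.Prime ∧ q ∉ D.Sf := by
      intro q hq
      obtain ⟨i, -, rfl⟩ := Finset.mem_image.mp hq
      exact ⟨(hq1 i).1, (hq1 i).2.1⟩
    -- the set of bad primes
    have hbad : ((D.Sf ∪ Q : Finset ℕ) : Set ℕ) = bad L.Q := by
      rw [Finset.coe_union, D.hSf, bad]
      congr 1
      ext l
      rw [Finset.mem_coe, hQdef, Finset.mem_image]
      constructor
      · rintro ⟨i, -, rfl⟩
        exact ⟨L.qs i, L.mem_Q.mpr ⟨i, rfl⟩, hL i⟩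
      · rintro ⟨q, hq, rfl⟩
        obtain ⟨i, rfl⟩ := L.mem_Q.mp hq
        exact ⟨i, Finset.mem_univ i, (hL i).symm⟩
    have hSfG : ∀ q ∈ D.Sf, q ∈ G.S := fun q hq => by
      rw [← D.hSf]; exact Finset.mem_coe.mpr hq
    have hddn : DD O D.t p (D.Smin ∪ Q) D.Smin (matRep ρn.T ρn.cont) := by
      refine D.dd_of (N' := L.NN) HB (fun q hq hqp => ?_) ?_ hbad L.pcond.supp L.κ gn ρn.cont
        ρn.res ?_
      · obtain ⟨e1, e2⟩ := D.hSN q hq hqp
        have h1 := L.pow_dvd_NN (D.hSfp q hq) (hSfG q hq) 1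
        rw [pow_one] at h1
        exact ⟨h1.mpr e1, fun h => e2 ((L.pow_dvd_NN (D.hSfp q hq) (hSfG q hq) 2).mp h)⟩
      · have h1 := L.pow_dvd_NN hpf.out G.hpS 1
        rw [pow_one] at h1
        exact levelType_of D.htN h1.mp h1.mpr (L.pow_dvd_NN hpf.out G.hpS 2).mp
      · intro ℓ hℓ hℓN hℓS A hA τ hτ
        have hlp : ¬ ℓ ∣ L.NN * p := NN_p_of L hℓ hℓN
          (fun h => hℓS (Or.inl (by rw [h]; exact G.hpS)))
        obtain ⟨h3, h4⟩ := ρn.frob ℓ hℓ hlp hℓS A hA τ hτ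
        rw [TWInst.piH_T _ hℓ hlp hℓS] at h3
        exact ⟨h3, h4⟩
    -- the deformation ring of level `Q`
    obtain ⟨DQ⟩ := HR O p G.hp2 G.hpO D.ρbar D.habs D.t (D.Smin ∪ Q) D.Smin
      (Finset.mem_union_left _ D.hpSmin) (hbar _ Finset.subset_union_left)
    obtain ⟨γ, hγs⟩ := hγ DQ
    obtain ⟨θ, ⟨hθ, hθe⟩, -⟩ := DQ.universal L.R (residue_comp_surj L.κ)
      (matRep ρn.T ρn.cont) hddn (residual_isEquiv_of D L.κ ρn.cont ρn.res)
    have hQS : ∀ q ∈ Q, q ∉ D.Smin ∧ q.Prime := fun q hq =>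
      ⟨fun h => (hQp q hq).2 (D.hsub h), (hQp q hq).1⟩
    obtain ⟨φ, hφ, hφs, hφe, -⟩ := Sel.selQ O D.ρbar (DD O D.t p D.Smin D.Smin)
      (DD O D.t p (D.Smin ∪ Q) D.Smin) p Q hpf.out (fun q hq => by
        have h1 : q ≠ p := fun h => (hQS q hq).1 (h ▸ D.hpSmin)
        refine ⟨(hQS q hq).2, h1, ?_⟩
        by_contra h2
        exact (hQS q hq).1 ((D.hmin q (hQS q hq).2 h1).mpr h2))
      (HD D.t _ _ (Finset.mem_union_left _ D.hpSmin))
      (fun _ _ _ _ ρ h => h.detCyc) (fun _ _ _ _ ρ => DD_iffQ hQS) D₀ DQ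
    -- compatibility
    have hbtl : IsLocalHom (L.bt : L.R →+* G.R₀) := isLocalHom_bt L
    have hred : mapT (L.bt : L.R →+* G.R₀) ρn.T = ρ₀.T := MonoidHom.ext fun g => ρn.red g
    have hcomp : θ₀.comp φ = L.bt.comp θ := by
      obtain ⟨u, -, hu⟩ := DQ.universal G.R₀ (residue_comp_surj G.κ₀)
        (matRep ρ₀.T ρ₀.cont) ((DD_iffQ hQS).mp hdd₀).1
        (residual_isEquiv_of D G.κ₀ ρ₀.cont ρ₀.res)
      have e1 : θ₀.comp φ = u := by
        refine hu _ ?_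
        haveI := hφ
        haveI := hθ₀
        refine ⟨RingHom.isLocalHom_comp (θ₀ : D₀.R →+* G.R₀) (φ : DQ.R →+* D₀.R), ?_⟩
        refine Sel.isEquiv_trans (Sel.isEquiv_symm (Sel.baseChange_comp (φ : DQ.R →+* D₀.R) hφ
          (θ₀ : D₀.R →+* G.R₀) hθ₀ _ _ rfl DQ.ρ)) ?_
        exact Sel.isEquiv_trans (Sel.isEquiv_baseChange _ hθ₀ hφe) hθ₀e
      have e2 : L.bt.comp θ = u := by
        refine hu _ ?_
        haveI := hθ
        refine ⟨RingHom.isLocalHom_comp (L.bt : L.R →+* G.R₀) (θ : DQ.R →+* L.R), ?_⟩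
        refine Sel.isEquiv_trans (Sel.isEquiv_symm (Sel.baseChange_comp (θ : DQ.R →+* L.R) hθ
          (L.bt : L.R →+* G.R₀) hbtl _ _ rfl DQ.ρ)) ?_
        refine Sel.isEquiv_trans (Sel.isEquiv_baseChange _ hbtl hθe) ?_
        have h1 := matRep_baseChangeAlong (L.bt : L.R →+* G.R₀) hbtl ρn.cont
        refine Sel.isEquiv_trans h1 ?_
        refine matRep_isEquiv_of_conj _ _ 1 1 (one_mul 1) (one_mul 1) (fun g => ?_)
        rw [one_mul, mul_one, hred]
      rw [e1, e2]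
    have hcomp' : ∀ x, θ₀ (φ x) = L.bt (θ x) := fun x => DFunLike.congr_fun hcomp x
    refine exists_Lvl hinj' ρn (lgc hg ρn) (fun g => DQ.ρ.trace g)
      (fun g => LinearMap.det (DQ.ρ.ρ g)) θ (fun g => ?_) (fun g => ?_) φ hφs θ₀ hcomp'
      (fun j A hA Φ σ hσ => ?_) γ hγs
    · have := trace_of_bc hθe g
      rw [Sel.trace_matRep] at this
      exact this
    · have := det_of_bc hθe g
      rw [Sel.det_matRep] at this
      exact this
    · have h1 : D₀.ρ.IsUnramifiedAt (L.qs j).1 := by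
        have hmem : (L.qs j).1 ∈ Q := by
          rw [hL, hQdef]
          exact Finset.mem_image.mpr ⟨j, Finset.mem_univ j, rfl⟩
        exact D₀.isOfType.unr (L.qs j).2.1 (hQS _ hmem).1
      have h2 : D₀.ρ.ρ (Φ * σ) = D₀.ρ.ρ Φ := by
        rw [map_mul, h1 A hA σ hσ, mul_one]
      have h3 := fun g => trace_of_bc hφe g
      have h4 := fun g => det_of_bc hφe g
      constructor
      · have e1 := h3 (Φ * σ)
        have e2 := h3 Φ
        have e3 : D₀.ρ.trace (Φ * σ) = D₀.ρ.trace Φ := by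
          unfold GaloisRepAdic.trace
          rw [h2]
        exact e1.trans (e3.trans e2.symm)
      · have e1 := h4 (Φ * σ)
        have e2 := h4 Φ
        rw [h2] at e1
        exact e1.trans e2.symm
  letI := modOf θ₀
  haveI : IsScalarTower O D₀.R (M0 O G.N G.τ) := by
    constructor
    intro a x m
    change G.act₀ (θ₀ (a • x)) m = a • G.act₀ (θ₀ x) m
    rw [Algebra.smul_def, map_mul, AlgHom.commutes, map_mul, Module.End.mul_apply,
      G.act₀_algebraMap]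
  obtain ⟨h1, h2, h3, h4, h5⟩ := patching (O := O) (p := p) G.hpO
    (fun n => (hlev n).some)
  refine ⟨θ₀, ⟨?_, ?_⟩, ?_, h1, h2, h3, h4, r, h5⟩
  · rw [injective_iff_map_eq_zero]
    intro x hx
    have h6 : x ∈ Module.annihilator D₀.R (M0 O G.N G.τ) := by
      rw [Module.mem_annihilator]
      intro m
      change G.act₀ (θ₀ x) m = 0
      rw [hx, map_zero]
      rfl
    rwa [h2, Ideal.mem_bot] at h6
  · have h6 : (⊤ : Subalgebra O G.R₀) ≤ θ₀.range := by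
      rw [← G.adjoin₀, Algebra.adjoin_le_iff]
      rintro _ ⟨l, rfl⟩
      obtain ⟨A, hA, τ, hτ⟩ := Frob.exists_place_frobenius l.2.1
      refine ⟨D₀.ρ.trace τ, ?_⟩
      have h7 := trace_of_bc hθ₀e τ
      rw [Sel.trace_matRep] at h7
      exact h7.trans (ρ₀.frob l A hA τ hτ).1
    intro x
    exact h6 (show x ∈ ⊤ from trivial)
  · intro l A hA σ hσ
    have h7 := trace_of_bc hθ₀e σ
    rw [Sel.trace_matRep] at h7
    exact h7.trans (ρ₀.frob l A hA σ hσ).1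

end Main

end Fermat.Agent.RT
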