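import Fermat.Agent.RT.DCond
import Fermat.Agent.EulerC.Low
import Fermat.Agent.DefRing.Tangent

/-!
# T10 (a): finiteness of the tangent space
-/

set_option autoImplicit false
set_option maxHeartbeats 400000
set_option linter.unusedSectionVars false

noncomputable section

namespace Fermat.Agent.RT

open IsLocalRing Matrix Fermat.Agent.DefRing Fermat.Agent.GalRep Fermat.Agent.EulerC
  GaloisRep
open Fermat.Agent.CFT (Z1 le_of_fixing_le)

local notation "Qbar" => AlgebraicClosure ℚ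
local notation "GQ" => (AlgebraicClosure ℚ ≃ₐ[ℚ] AlgebraicClosure ℚ)

/-- the level of a representation -/
theorem exists_level {X : Type*} [Monoid X] {T : Finset Nat.Primes} (ρ : GQ →* X)
    (hlev : ∃ L : IntermediateField ℚ Qbar, FiniteDimensional ℚ L ∧
      ∀ σ : GQ, (∀ x ∈ L, σ x = x) → ρ σ = 1)
    (hI : ∀ q : Nat.Primes, q ∉ T → ∀ A : ValuationSubring Qbar, A.LiesOverPrime (q : ℕ) →
      ∀ s ∈ A.inertiaSubgroupIn ℚ, ρ s = 1) :
    ∃ E : IntermediateField ℚ Qbar, E.IsUnramifiedOutside T ∧ ∀ s ∈ E.fixingSubgroup, ρ s = 1 := by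
  haveI := Fermat.Agent.Frob.isGalois_Qbar
  obtain ⟨E₂, hE₂, h₂⟩ := hlev
  haveI := hE₂
  let H : Subgroup GQ := ρ.ker
  have hle2 : E₂.fixingSubgroup ≤ H := fun g hg => h₂ g fun y hy =>
    (IntermediateField.mem_fixingSubgroup_iff _ _).mp hg y hy
  have hopen : IsOpen (H : Set GQ) :=
    Subgroup.isOpen_mono hle2 (IntermediateField.fixingSubgroup_isOpen E₂)
  have h' : (IntermediateField.fixedField H).fixingSubgroup = H :=
    InfiniteGalois.fixingSubgroup_fixedField (k := ℚ) (K := Qbar)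
      ⟨H, Subgroup.isClosed_of_isOpen _ hopen⟩
  have hle : IntermediateField.fixedField H ≤ E₂ := by
    refine le_of_fixing_le ?_
    rw [h']
    exact hle2
  refine ⟨IntermediateField.fixedField H, ⟨FiniteDimensional.of_injective
    (IntermediateField.inclusion hle).toLinearMap (IntermediateField.inclusion_injective hle),
    fun q hq A hA s hs => ?_⟩, fun s hs => ?_⟩
  · rw [h']
    exact hI q hq A hA s hs
  · rw [h'] at hs
    exact hs

section AdM

variable {k : Type} [Field k] (R : GQ →* Matrix (Fin 2) (Fin 2) k)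

/-- matrices with the adjoint action -/
def AdM (_ : GQ →* Matrix (Fin 2) (Fin 2) k) : Type := Matrix (Fin 2) (Fin 2) k

instance : AddCommGroup (AdM R) := inferInstanceAs (AddCommGroup (Matrix (Fin 2) (Fin 2) k))

instance [Finite k] : Finite (AdM R) := inferInstanceAs (Finite (Matrix (Fin 2) (Fin 2) k))

/-- to the module -/
def toAd (X : Matrix (Fin 2) (Fin 2) k) : AdM R := X

/-- from the module -/
def ofAd (X : AdM R) : Matrix (Fin 2) (Fin 2) k := X

instance : DistribMulAction GQ (AdM R) where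
  smul g X := toAd R (R g * ofAd R X * R g⁻¹)
  one_smul X := by
    change R 1 * ofAd R X * R 1⁻¹ = X
    rw [inv_one, map_one, one_mul, mul_one]; rfl
  mul_smul g h X := by
    change R (g * h) * ofAd R X * R (g * h)⁻¹ = R g * (R h * ofAd R X * R h⁻¹) * R g⁻¹
    rw [_root_.mul_inv_rev, map_mul, map_mul]
    simp only [Matrix.mul_assoc]
  smul_zero g := by
    change R g * (0 : Matrix (Fin 2) (Fin 2) k) * R g⁻¹ = 0
    rw [mul_zero, zero_mul]
  smul_add g X Y := by
    change R g * (ofAd R X + ofAd R Y) * R g⁻¹ = R g * ofAd R X * R g⁻¹ + R g * ofAd R Y * R g⁻¹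
    rw [mul_add, add_mul]

theorem ofAd_smul (g : GQ) (X : AdM R) : ofAd R (g • X) = R g * ofAd R X * R g⁻¹ := rfl

end AdM

section Dual

variable {k : Type} [Field k]

/-- first components -/
def fstM (M : Matrix (Fin 2) (Fin 2) (DualNumber k)) : Matrix (Fin 2) (Fin 2) k :=
  M.map TrivSqZeroExt.fst

/-- second components -/
def sndM (M : Matrix (Fin 2) (Fin 2) (DualNumber k)) : Matrix (Fin 2) (Fin 2) k :=
  M.map TrivSqZeroExt.snd

theorem sndM_mul (M N : Matrix (Fin 2) (Fin 2) (DualNumber k)) :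
    sndM (M * N) = fstM M * sndM N + sndM M * fstM N := by
  ext i j
  simp only [sndM, fstM, Matrix.map_apply, Matrix.mul_apply, Matrix.add_apply, Fin.sum_univ_two,
    TrivSqZeroExt.snd_add, TrivSqZeroExt.snd_mul, smul_eq_mul, MulOpposite.smul_eq_mul_unop,
    MulOpposite.unop_op]
  ring

theorem ext_fst_snd {M N : Matrix (Fin 2) (Fin 2) (DualNumber k)} (h1 : fstM M = fstM N)
    (h2 : sndM M = sndM N) : M = N := by
  ext i j
  · exact congrFun (congrFun h1 i) j
  · exact congrFun (congrFun h2 i) j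

end Dual

variable {𝒪 : Type} [CommRing 𝒪] [IsLocalRing 𝒪] [Finite (ResidueField 𝒪)]

theorem mem_max_dual {k : Type} [Field k] {x : DualNumber k}
    (h : x ∈ maximalIdeal (DualNumber k)) : TrivSqZeroExt.fst x = 0 := by
  by_contra hne
  rw [mem_maximalIdeal, mem_nonunits_iff] at h
  exact h (TrivSqZeroExt.isUnit_iff_isUnit_fst.mpr (isUnit_iff_ne_zero.mpr hne))

theorem tangentFinite (p : ℕ) [hp : Fact p.Prime] (hp2 : p ≠ 2)
    (hp𝒪 : (p : 𝒪) ∈ maximalIdeal 𝒪) (ρbar : ResidualGaloisRep (ResidueField 𝒪))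
    {𝒟 : ∀ ⦃A : Type⦄ [CommRing A] [IsLocalRing A] [Algebra 𝒪 A], GaloisRepAdic A → Prop}
    (S : Finset ℕ) (hpS : p ∈ S) (hbar : ∀ q : ℕ, q.Prime → q ∉ S → ρbar.IsUnramifiedAt q)
    (h𝒟 : ∀ ⦃A : Type⦄ [CommRing A] [IsLocalRing A] [Algebra 𝒪 A] (ρ : GaloisRepAdic A), 𝒟 ρ →
      ∀ q : ℕ, q.Prime → q ∉ S → ρ.IsUnramifiedAt q) :
    GaloisRep.TangentFinite 𝒪 ρbar 𝒟 := by
  letI i1 : Algebra 𝒪 (DualNumber (ResidueField 𝒪)) :=
    ((algebraMap (ResidueField 𝒪) (DualNumber (ResidueField 𝒪))).comp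
      (algebraMap 𝒪 (ResidueField 𝒪))).toAlgebra
  letI i2 : Algebra (ResidueField 𝒪) (ResidueField (DualNumber (ResidueField 𝒪))) :=
    ((IsLocalRing.residue (DualNumber (ResidueField 𝒪))).comp
      (algebraMap (ResidueField 𝒪) (DualNumber (ResidueField 𝒪)))).toAlgebra
  unfold GaloisRep.TangentFinite
  set k := ResidueField 𝒪 with hk
  set ψ : k →+* ResidueField (DualNumber k) :=
    (IsLocalRing.residue (DualNumber k)).comp (algebraMap k (DualNumber k)) with hψ
  let b : Module.Basis (Fin 2) k ρbar.V := Module.finBasisOfFinrankEq k ρbar.V ρbar.finrank_eq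
  let R : GQ →* Matrix (Fin 2) (Fin 2) k := resMatHom ρbar b
  let S' : Finset Nat.Primes := S.subtype Nat.Prime
  have hS' : ∀ q : Nat.Primes, q ∉ S' → (q : ℕ) ∉ S := fun q hq h => hq
    ((Finset.mem_subtype (p := Nat.Prime) (s := S) (a := q)).mpr h)
  have hpT : Fermat.Agent.CFT.pP p ∈ S' :=
    (Finset.mem_subtype (p := Nat.Prime) (s := S) (a := Fermat.Agent.CFT.pP p)).mpr hpS
  obtain ⟨ζ, hζ⟩ := HasEnoughRootsOfUnity.exists_primitiveRoot Qbar (p ^ 1)
  rw [pow_one] at hζ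
  have hpk : (p : k) = 0 := by
    have := (residue_eq_zero_iff (p : 𝒪)).mpr hp𝒪
    rwa [map_natCast] at this
  have hpN : ∀ x : AdM R, p • x = 0 := by
    intro x
    change p • (ofAd R x) = 0
    ext i j
    rw [Matrix.smul_apply, nsmul_eq_mul, hpk, zero_mul, Matrix.zero_apply]
  have hRE : ∃ E : IntermediateField ℚ Qbar, E.IsUnramifiedOutside S' ∧
      ∀ s ∈ E.fixingSubgroup, R s = 1 := by
    refine exists_level R ?_ ?_
    · obtain ⟨L, hL, h1⟩ := ρbar.factorsThroughFiniteLevel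
      refine ⟨L, hL, fun σ hσ => ?_⟩
      change LinearMap.toMatrix b b (ρbar.ρ σ) = 1
      rw [h1 σ hσ, Module.End.one_eq_id, LinearMap.toMatrix_id]
    · intro q hq A hA s hs
      change LinearMap.toMatrix b b (ρbar.ρ s) = 1
      rw [hbar q q.2 (hS' q hq) A hA s hs, Module.End.one_eq_id, LinearMap.toMatrix_id]
  have hlev : LvM S' (MonoidHom.id GQ) (AdM R) := by
    obtain ⟨E, hE, h1⟩ := hRE
    refine ⟨E, hE, fun s hs x => ?_⟩
    change R s * ofAd R x * R s⁻¹ = ofAd R x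
    rw [h1 s hs, h1 s⁻¹ (E.fixingSubgroup.inv_mem hs), one_mul, mul_one]
  have hp3 : 2 < p := lt_of_le_of_ne hp.out.two_le (Ne.symm hp2)
  haveI hfin : Finite (Z1L S' (MonoidHom.id GQ) (AdM R)) := finite_Z1L hp3 hζ hpT hpN hlev
  -- the matrices
  have hex : ∀ ρ : {ρ : GaloisRepAdic (DualNumber k) // 𝒟 ρ ∧
      ρ.residual.IsEquiv (ρbar.baseChange (ResidueField (DualNumber k)))},
      ∃ (T : GQ →* Matrix (Fin 2) (Fin 2) (DualNumber k)) (hT : MatCont T),
      (∀ g, fstM (T g) = R g) ∧ (ρ.1).IsEquiv (matRep T hT) := by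
    intro ρ
    obtain ⟨T, hT, h1, h2⟩ := exists_matRep (A := DualNumber k) ρbar b ψ ρ.1 ρ.2.2
    refine ⟨T, hT, fun g => ?_, h2⟩
    ext i j
    have h3 := h1 g i j
    have h4 : residue (DualNumber k) (T g i j -
        algebraMap k (DualNumber k) (resMat ρbar b g i j)) = 0 := by
      rw [map_sub, h3, sub_eq_zero]; rfl
    have h5 := mem_max_dual ((residue_eq_zero_iff _).mp h4)
    rw [TrivSqZeroExt.fst_sub, sub_eq_zero] at h5
    exact h5
  choose T hT hTR hTe using hex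
  have hT1 : ∀ ρ, ∃ E : IntermediateField ℚ Qbar, E.IsUnramifiedOutside S' ∧
      ∀ s ∈ E.fixingSubgroup, T ρ s = 1 := by
    intro ρ
    refine exists_level (T ρ) ?_ ?_
    · obtain ⟨L, hL, h1⟩ := hT ρ 2
      refine ⟨L, hL, fun σ hσ => ?_⟩
      have hm2 : (maximalIdeal (DualNumber k)) ^ 2 = ⊥ := by
        rw [eq_bot_iff, sq, Ideal.mul_le]
        intro x hx y hy
        have e1 := mem_max_dual hx
        have e2 := mem_max_dual hy
        rw [Ideal.mem_bot]
        ext
        · rw [TrivSqZeroExt.fst_mul, e1, zero_mul, TrivSqZeroExt.fst_zero]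
        · rw [TrivSqZeroExt.snd_mul, e1, e2, zero_smul, MulOpposite.op_zero, zero_smul, add_zero,
            TrivSqZeroExt.snd_zero]
      ext1 i j
      have h2 := h1 σ hσ i j
      rw [hm2, Ideal.mem_bot, sub_eq_zero] at h2
      exact h2
    · intro q hq A hA s hs
      obtain ⟨b', hb'⟩ := TW56.exists_basis_of_equiv (hTe ρ)
      rw [← hb']
      exact (TW56.unr_iff ρ.1 b').mp (h𝒟 ρ.1 ρ.2.1 q q.2 (hS' q hq)) A hA s hs
  let c : ∀ _ : {ρ : GaloisRepAdic (DualNumber k) // 𝒟 ρ ∧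
      ρ.residual.IsEquiv (ρbar.baseChange (ResidueField (DualNumber k)))},
      Z1L S' (MonoidHom.id GQ) (AdM R) := fun ρ =>
    ⟨fun g => toAd R (sndM (T ρ g) * R g⁻¹), by
      constructor
      · intro g h
        change sndM (T ρ (g * h)) * R (g * h)⁻¹ = sndM (T ρ g) * R g⁻¹ +
          R g * (sndM (T ρ h) * R h⁻¹) * R g⁻¹
        rw [map_mul, sndM_mul, hTR, hTR, _root_.mul_inv_rev, map_mul, add_mul, add_comm]
        congr 1
        · rw [Matrix.mul_assoc, ← Matrix.mul_assoc (R h), ← map_mul, mul_inv_cancel, map_one,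
            one_mul]
        · simp only [Matrix.mul_assoc]
      · obtain ⟨E, hE, h1⟩ := hT1 ρ
        obtain ⟨E', hE', h1'⟩ := hRE
        refine ⟨E ⊔ E', hE.sup hE', fun g s hs => ?_⟩
        have hs1 : T ρ s = 1 := h1 s (IntermediateField.fixingSubgroup_antitone le_sup_left hs)
        have hs2 : R s⁻¹ = 1 := h1' s⁻¹ ((E').fixingSubgroup.inv_mem
          (IntermediateField.fixingSubgroup_antitone le_sup_right hs))
        change sndM (T ρ (g * s)) * R (g * s)⁻¹ = sndM (T ρ g) * R g⁻¹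
        rw [map_mul, hs1, mul_one, _root_.mul_inv_rev, map_mul, hs2, one_mul]⟩
  have hc : ∀ ρ ρ', c ρ = c ρ' → (ρ.1).IsEquiv ρ'.1 := by
    intro ρ ρ' h
    have h1 : T ρ = T ρ' := by
      refine MonoidHom.ext fun g => ?_
      refine ext_fst_snd (by rw [hTR, hTR]) ?_
      have h2 : sndM (T ρ g) * R g⁻¹ = sndM (T ρ' g) * R g⁻¹ := congrFun (congrArg Subtype.val h) g
      have h3 := congrArg (· * R g) h2
      simp only [Matrix.mul_assoc] at h3
      rw [← map_mul, inv_mul_cancel, map_one, mul_one, mul_one] at h3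
      exact h3
    obtain ⟨e⟩ := hTe ρ
    obtain ⟨e'⟩ := hTe ρ'
    have h3 : (matRep (T ρ) (hT ρ)).IsEquiv (matRep (T ρ') (hT ρ')) := by
      have : ∀ (T₁ T₂ : GQ →* Matrix (Fin 2) (Fin 2) (DualNumber k)) (h₁ : MatCont T₁)
          (h₂ : MatCont T₂), T₁ = T₂ → (matRep T₁ h₁).IsEquiv (matRep T₂ h₂) := by
        intro T₁ T₂ h₁ h₂ h12
        subst h12
        exact ⟨GaloisRepAdic.Equiv.refl _⟩
      exact this _ _ _ _ h1
    obtain ⟨e''⟩ := h3
    exact ⟨(e.trans e'').trans e'.symm⟩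
  refine Finite.of_injective (fun q => c (Quotient.out q)) ?_
  intro q q' h
  have h1 := hc _ _ h
  rw [← Quotient.out_eq q, ← Quotient.out_eq q']
  exact Quotient.sound h1

end Fermat.Agent.RT
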