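import Fermat.Agent.RT.TateSt
import Fermat.Agent.S58X.Tor
import Fermat.Agent.AnJac.PadicRep

/-!
# The Tate module of an elliptic curve: compatible bases
-/

set_option autoImplicit false
set_option linter.style.haveILetI false

noncomputable section

namespace Fermat.Agent.RT.Tate

open IsLocalRing Polynomial Fermat.Agent.S43Glue Fermat.Agent.S58X Fermat.Agent.GalRep
open WeierstrassCurve WeierstrassCurve.Affine WeierstrassCurve.Affine.Point

local notation "Qbar" => AlgebraicClosure ℚ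
local notation "GQ" => Qbar ≃ₐ[ℚ] Qbar

variable {W : WeierstrassCurve ℤ} {p : ℕ} [hp : Fact p.Prime]

/-- `E(Qbar)` is `p`-divisible on `p`-power torsion -/
theorem exists_div (hΔ : W.Δ ≠ 0) {k : ℕ} {Q : Pts W} (hQ : p ^ k • Q = 0) :
    ∃ R : Pts W, p • R = Q := by
  classical
  have hp0 : p ≠ 0 := hp.out.ne_zero
  haveI := torG_finite' (W := W) hΔ (pow_ne_zero (k + 1) hp0)
  haveI := torG_finite' (W := W) hΔ (pow_ne_zero k hp0)
  haveI := torG_finite' (W := W) hΔ hp0
  let f : torG W (p ^ (k + 1)) →+ torG W (p ^ k) :=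
    { toFun := fun x => ⟨p • (x : Pts W), by
        have h := x.2
        rw [mem_torG] at h ⊢
        rw [smul_smul, ← pow_succ]
        exact h⟩
      map_zero' := Subtype.ext (smul_zero _)
      map_add' := fun x y => Subtype.ext (nsmul_add _ _ _) }
  have hf : ∀ x, ((f x : torG W (p ^ k)) : Pts W) = p • (x : Pts W) := fun x => rfl
  have h1 : Nat.card f.ker ≤ p ^ 2 := by
    rw [← card_torG (W := W) hΔ hp0]
    refine Nat.card_le_card_of_injective (fun x : f.ker => (⟨((x : torG W (p ^ (k + 1))) : Pts W),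
      by
        have h := x.2
        rw [AddMonoidHom.mem_ker] at h
        exact congrArg Subtype.val h⟩ : torG W p)) ?_
    intro x y hxy
    apply Subtype.ext
    apply Subtype.ext
    have := congrArg (fun z : torG W p => (z : Pts W)) hxy
    exact this
  have h2 := f.ker.card_mul_index
  rw [AddSubgroup.index_ker, card_torG (W := W) hΔ (pow_ne_zero (k + 1) hp0)] at h2
  have h3 : Nat.card (torG W (p ^ k)) ≤ Nat.card f.range := by
    rw [card_torG (W := W) hΔ (pow_ne_zero k hp0)]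
    have h4 : (p ^ (k + 1)) ^ 2 ≤ p ^ 2 * Nat.card f.range := by
      rw [← h2]
      exact Nat.mul_le_mul_right _ h1
    have h5 : (p ^ (k + 1)) ^ 2 = p ^ 2 * (p ^ k) ^ 2 := by ring
    rw [h5] at h4
    exact Nat.le_of_mul_le_mul_left h4 (pow_pos hp.out.pos 2)
  have h4 : f.range = ⊤ := by
    apply AddSubgroup.eq_top_of_le_card
    exact h3
  have h5 : (⟨Q, hQ⟩ : torG W (p ^ k)) ∈ f.range := by rw [h4]; trivial
  obtain ⟨R, hR⟩ := h5
  exact ⟨R, congrArg Subtype.val hR⟩

/-- a compatible system of bases of the `p^n`-torsion -/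
structure Bases (W : WeierstrassCurve ℤ) (p : ℕ) [Fact p.Prime] where
  b : Module.Basis (Fin 2) (ZMod p) (Tor (W.map (Int.castRingHom ℚ)) p)
  P : ℕ → Fin 2 → Pts W
  P_zero : ∀ i, P 0 i = 0
  P_one : ∀ i, P 1 i = (b i : Pts W)
  p_smul : ∀ n i, p • P (n + 1) i = P n i

theorem exists_bases (hΔ : W.Δ ≠ 0) : Nonempty (Bases W p) := by
  classical
  obtain ⟨b⟩ := exists_basis (E := W.map (Int.castRingHom ℚ)) (p := p) (ΔQ_ne hΔ)
  let X := {P : Pts W // ∃ k, p ^ k • P = 0}
  have hX : ∀ x : X, ∃ y : X, p • (y : Pts W) = x := by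
    rintro ⟨x, k, hx⟩
    obtain ⟨R, hR⟩ := exists_div hΔ hx
    refine ⟨⟨R, k + 1, ?_⟩, hR⟩
    rw [pow_succ, mul_smul, hR, hx]
  choose g hg using hX
  have hb : ∀ i, p • ((b i : Tor (W.map (Int.castRingHom ℚ)) p) : Pts W) = 0 := by
    intro i
    have := (Submodule.mem_torsionBy_iff _ _).mp (b i).2
    rwa [Nat.cast_smul_eq_nsmul] at this
  let x₀ : Fin 2 → X := fun i => ⟨(b i : Pts W), 1, by rw [pow_one]; exact hb i⟩
  have hit : ∀ n i, p • ((g^[n + 1] (x₀ i) : X) : Pts W) = (g^[n] (x₀ i) : X) := by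
    intro n i
    rw [Function.iterate_succ_apply']
    exact hg _
  refine ⟨⟨b, fun n i => p • ((g^[n] (x₀ i) : X) : Pts W), ?_, ?_, ?_⟩⟩
  · intro i
    exact hb i
  · intro i
    exact hit 0 i
  · intro n i
    rw [hit]

namespace Bases

variable (B : Bases W p)

theorem pow_smul (n k : ℕ) (i : Fin 2) : p ^ n • B.P (n + k) i = B.P k i := by
  induction n with
  | zero => rw [pow_zero, one_smul, zero_add]
  | succ n ih =>
    rw [pow_succ, mul_smul, show n + 1 + k = n + k + 1 by ring, B.p_smul, ih]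

theorem pow_smul_self (n : ℕ) (i : Fin 2) : p ^ n • B.P n i = 0 := by
  have := B.pow_smul n 0 i
  rw [add_zero, B.P_zero] at this
  exact this

theorem basis_rel (c : Fin 2 → ℤ) : ∑ i, c i • B.P 1 i = 0 ↔ ∀ i, (p : ℤ) ∣ c i := by
  have h1 : ∑ i, c i • B.P 1 i = ((∑ i, ((c i : ℤ) : ZMod p) • B.b i :
      Tor (W.map (Int.castRingHom ℚ)) p) : Pts W) := by
    rw [AddSubmonoidClass.coe_finsetSum]
    refine Finset.sum_congr rfl fun i _ => ?_
    rw [B.P_one, Int.cast_smul_eq_zsmul]
    rfl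
  rw [h1, ZeroMemClass.coe_eq_zero]
  constructor
  · intro h i
    have h2 := (Fintype.linearIndependent_iff.mp B.b.linearIndependent) _ h i
    rwa [ZMod.intCast_zmod_eq_zero_iff_dvd] at h2
  · intro h
    refine Finset.sum_eq_zero fun i _ => ?_
    rw [(ZMod.intCast_zmod_eq_zero_iff_dvd _ _).mpr (h i), zero_smul]

theorem basis_span {Q : Pts W} (hQ : p • Q = 0) : ∃ c : Fin 2 → ℤ, Q = ∑ i, c i • B.P 1 i := by
  have hQ' : Q ∈ Submodule.torsionBy ℤ (Pts W) p := by
    rw [Submodule.mem_torsionBy_iff, Nat.cast_smul_eq_nsmul]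
    exact hQ
  choose c hc using fun i => ZMod.intCast_surjective (B.b.repr ⟨Q, hQ'⟩ i)
  refine ⟨c, ?_⟩
  have h1 := B.b.sum_repr ⟨Q, hQ'⟩
  have h2 : ∑ i, c i • B.P 1 i = ((∑ i, ((c i : ℤ) : ZMod p) • B.b i :
      Tor (W.map (Int.castRingHom ℚ)) p) : Pts W) := by
    rw [AddSubmonoidClass.coe_finsetSum]
    refine Finset.sum_congr rfl fun i _ => ?_
    rw [B.P_one, Int.cast_smul_eq_zsmul]
    rfl
  rw [h2]
  simp only [hc]
  rw [h1]

theorem rel (n : ℕ) : ∀ c : Fin 2 → ℤ, ∑ i, c i • B.P n i = 0 ↔ ∀ i, ((p ^ n : ℕ) : ℤ) ∣ c i := by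
  induction n with
  | zero =>
    intro c
    simp only [B.P_zero, zsmul_zero, Finset.sum_const_zero, pow_zero, Nat.cast_one, isUnit_one,
      IsUnit.dvd, implies_true]
  | succ n ih =>
    intro c
    constructor
    · intro h
      have h1 : ∑ i, c i • B.P 1 i = 0 := by
        have h2 := congrArg (fun x => p ^ n • x) h
        simp only [Finset.smul_sum, nsmul_zero] at h2
        rw [← h2]
        refine Finset.sum_congr rfl fun i _ => ?_
        rw [smul_comm, B.pow_smul]
      rw [basis_rel] at h1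
      choose c' hc' using h1
      have h3 : ∑ i, c' i • B.P n i = 0 := by
        rw [← h]
        refine Finset.sum_congr rfl fun i _ => ?_
        rw [hc', mul_comm, mul_smul, natCast_zsmul, B.p_smul]
      rw [ih] at h3
      intro i
      obtain ⟨y, hy⟩ := h3 i
      refine ⟨y, ?_⟩
      rw [hc', hy]
      push_cast
      ring
    · intro h
      refine Finset.sum_eq_zero fun i _ => ?_
      obtain ⟨y, hy⟩ := h i
      rw [hy, mul_comm, mul_smul, natCast_zsmul, B.pow_smul_self, zsmul_zero]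

theorem span (n : ℕ) : ∀ {Q : Pts W}, p ^ n • Q = 0 → ∃ c : Fin 2 → ℤ, Q = ∑ i, c i • B.P n i := by
  induction n with
  | zero =>
    intro Q hQ
    refine ⟨0, ?_⟩
    rw [pow_zero, one_smul] at hQ
    rw [hQ]
    simp
  | succ n ih =>
    intro Q hQ
    have h1 : p ^ n • (p • Q) = 0 := by rw [smul_smul, ← pow_succ, hQ]
    obtain ⟨c, hc⟩ := ih h1
    have h2 : p • (Q - ∑ i, c i • B.P (n + 1) i) = 0 := by
      rw [nsmul_sub, hc, Finset.smul_sum, sub_eq_zero]
      refine Finset.sum_congr rfl fun i _ => ?_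
      rw [smul_comm p, B.p_smul]
    obtain ⟨d, hd⟩ := B.basis_span h2
    refine ⟨fun i => c i + (p : ℤ) ^ n * d i, ?_⟩
    rw [sub_eq_iff_eq_add] at hd
    rw [hd, ← Finset.sum_add_distrib]
    refine Finset.sum_congr rfl fun i _ => ?_
    change d i • B.P 1 i + c i • B.P (n + 1) i = (c i + (p : ℤ) ^ n * d i) • B.P (n + 1) i
    rw [add_zsmul, add_comm]
    congr 1
    rw [mul_comm, mul_smul, ← B.pow_smul n 1 i]
    have : ((p : ℤ) ^ n) • B.P (n + 1) i = p ^ n • B.P (n + 1) i := by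
      rw [← natCast_zsmul]
      push_cast
      rfl
    rw [this]

/-- the multiples of a basis point -/
def zl (n : ℕ) (i : Fin 2) : ZMod (p ^ n) →+ Pts W :=
  ZMod.lift (p ^ n) ⟨zmultiplesHom (Pts W) (B.P n i), by
    change ((p ^ n : ℕ) : ℤ) • B.P n i = 0
    rw [natCast_zsmul, B.pow_smul_self]⟩

theorem zl_int (n : ℕ) (i : Fin 2) (c : ℤ) : B.zl n i (c : ZMod (p ^ n)) = c • B.P n i := by
  rw [zl, ZMod.lift_coe]
  rfl

theorem zl_pow (n : ℕ) (i : Fin 2) (a : ZMod (p ^ n)) : p ^ n • B.zl n i a = 0 := by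
  rw [← map_nsmul]
  have : p ^ n • a = 0 := by rw [nsmul_eq_mul, ZMod.natCast_self, zero_mul]
  rw [this, _root_.map_zero]

/-- **coordinates on the torsion** -/
def E (n : ℕ) : (Fin 2 → ZMod (p ^ n)) ≃+ torG W (p ^ n) :=
  AddEquiv.ofBijective
    ({ toFun := fun v => ⟨∑ i, B.zl n i (v i), by
        rw [mem_torG, Finset.smul_sum]
        exact Finset.sum_eq_zero fun i _ => B.zl_pow n i _⟩
       map_zero' := by
        apply Subtype.ext
        change ∑ i, B.zl n i 0 = 0
        simp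
       map_add' := fun v w => by
        apply Subtype.ext
        change ∑ i, B.zl n i (v i + w i) = ∑ i, B.zl n i (v i) + ∑ i, B.zl n i (w i)
        rw [← Finset.sum_add_distrib]
        exact Finset.sum_congr rfl fun i _ => map_add _ _ _ } :
      (Fin 2 → ZMod (p ^ n)) →+ torG W (p ^ n)) (by
    constructor
    · rw [injective_iff_map_eq_zero]
      intro v hv
      choose c hc using fun i => ZMod.intCast_surjective (v i)
      have h1 : ∑ i, B.zl n i (v i) = 0 := congrArg Subtype.val hv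
      have h2 : ∑ i, c i • B.P n i = 0 := by
        rw [← h1]
        refine Finset.sum_congr rfl fun i _ => ?_
        rw [← hc, B.zl_int]
      rw [B.rel] at h2
      funext i
      rw [← hc, Pi.zero_apply, ZMod.intCast_zmod_eq_zero_iff_dvd]
      exact h2 i
    · rintro ⟨Q, hQ⟩
      obtain ⟨c, hc⟩ := B.span n hQ
      refine ⟨fun i => (c i : ZMod (p ^ n)), Subtype.ext ?_⟩
      change ∑ i, B.zl n i ((c i : ℤ) : ZMod (p ^ n)) = Q
      rw [hc]
      exact Finset.sum_congr rfl fun i _ => B.zl_int n i _)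

theorem coe_E (n : ℕ) (v : Fin 2 → ZMod (p ^ n)) :
    ((B.E n v : torG W (p ^ n)) : Pts W) = ∑ i, B.zl n i (v i) := rfl

theorem E_single (n : ℕ) (j : Fin 2) :
    ((B.E n (Pi.single j 1) : torG W (p ^ n)) : Pts W) = B.P n j := by
  rw [coe_E, Finset.sum_eq_single j]
  · rw [Pi.single_eq_same]
    have := B.zl_int n j 1
    rwa [Int.cast_one, one_smul] at this
  · intro i _ hi
    rw [Pi.single_eq_of_ne hi, _root_.map_zero]
  · intro h
    exact absurd (Finset.mem_univ _) h

/-- compatibility of the coordinates -/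
theorem E_succ (n : ℕ) (v : Fin 2 → ZMod (p ^ (n + 1))) :
    p • ((B.E (n + 1) v : torG W (p ^ (n + 1))) : Pts W) =
      (B.E n (fun i => ZMod.castHom (pow_dvd_pow p (Nat.le_succ n)) (ZMod (p ^ n)) (v i)) :
        torG W (p ^ n)) := by
  choose c hc using fun i => ZMod.intCast_surjective (v i)
  rw [coe_E, coe_E, Finset.smul_sum]
  refine Finset.sum_congr rfl fun i _ => ?_
  rw [← hc, B.zl_int, map_intCast, B.zl_int, smul_comm, B.p_smul]

/-- the Galois action on the torsion -/
def gal (n : ℕ) (σ : GQ) : torG W (p ^ n) →+ torG W (p ^ n) where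
  toFun x := ⟨σ • (x : Pts W), smul_mem_torG σ x.2⟩
  map_zero' := Subtype.ext (ECRed.gal_smul_zero σ)
  map_add' x y := by
    apply Subtype.ext
    exact (Point.map (W' := W.map (Int.castRingHom ℚ)) σ.toAlgHom).map_add _ _

theorem coe_gal (n : ℕ) (σ : GQ) (x : torG W (p ^ n)) : ((gal n σ x : torG W (p ^ n)) : Pts W) =
    σ • (x : Pts W) := rfl

/-- the matrices of the Galois action -/
def Mn (n : ℕ) : GQ →* Matrix (Fin 2) (Fin 2) (ZMod (p ^ n)) where
  toFun σ := LinearMap.toMatrix' (AddMonoidHom.toZModLinearMap (p ^ n)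
    (((B.E n).symm : torG W (p ^ n) →+ (Fin 2 → ZMod (p ^ n))).comp
      ((gal n σ).comp (B.E n : (Fin 2 → ZMod (p ^ n)) →+ torG W (p ^ n)))))
  map_one' := by
    rw [← LinearMap.toMatrix'_id]
    congr 1
    refine LinearMap.ext fun v => ?_
    change (B.E n).symm (gal n 1 (B.E n _)) = _
    have : ∀ x : torG W (p ^ n), gal n 1 x = x := fun x => Subtype.ext (one_smul _ _)
    rw [this, AddEquiv.symm_apply_apply]
    rfl
  map_mul' σ τ := by
    rw [← LinearMap.toMatrix'_mul]
    congr 1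
    refine LinearMap.ext fun v => ?_
    change (B.E n).symm (gal n (σ * τ) (B.E n _)) =
      (B.E n).symm (gal n σ (B.E n ((B.E n).symm (gal n τ (B.E n _)))))
    rw [AddEquiv.apply_symm_apply]
    congr 1
    apply Subtype.ext
    exact mul_smul σ τ _

theorem Mn_mulVec (n : ℕ) (σ : GQ) (v : Fin 2 → ZMod (p ^ n)) :
    ((B.E n ((B.Mn n σ).mulVec v) : torG W (p ^ n)) : Pts W) = σ • ((B.E n v : torG W (p ^ n)) :
      Pts W) := by
  have h1 : (B.Mn n σ).mulVec v = (B.E n).symm (gal n σ (B.E n v)) := by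
    rw [Mn]
    change (LinearMap.toMatrix' _).mulVec v = _
    rw [LinearMap.toMatrix'_mulVec]
    rfl
  rw [h1, AddEquiv.apply_symm_apply, coe_gal]

/-- compatibility of the matrices -/
theorem Mn_succ (n : ℕ) (σ : GQ) (i j : Fin 2) :
    ZMod.castHom (pow_dvd_pow p (Nat.le_succ n)) (ZMod (p ^ n)) (B.Mn (n + 1) σ i j) =
      B.Mn n σ i j := by
  have h1 := B.Mn_mulVec (n + 1) σ (Pi.single j 1)
  have h2 : p • ((B.E (n + 1) ((B.Mn (n + 1) σ).mulVec (Pi.single j 1)) :
      torG W (p ^ (n + 1))) : Pts W) =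
      p • (σ • ((B.E (n + 1) (Pi.single j 1) : torG W (p ^ (n + 1))) : Pts W)) := by rw [h1]
  rw [B.E_succ, ← gal_nsmul, B.E_single, B.p_smul] at h2
  have h3 := B.Mn_mulVec n σ (Pi.single j 1)
  rw [B.E_single] at h3
  rw [← h3] at h2
  have h4 := (B.E n).injective (Subtype.ext h2)
  have h5 := congrFun h4 i
  rw [Matrix.mulVec_single_one] at h5
  rw [Matrix.mulVec_single_one] at h5
  exact h5

theorem exists_entry (σ : GQ) (i j : Fin 2) :
    ∃ x : ℤ_[p], ∀ n, PadicInt.toZModPow n x = B.Mn n σ i j :=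
  AnJac.exists_padic_lim p _ fun n => B.Mn_succ n σ i j

/-- **the `p`-adic representation** -/
def T : GQ →* Matrix (Fin 2) (Fin 2) ℤ_[p] where
  toFun σ := Matrix.of fun i j => (B.exists_entry σ i j).choose
  map_one' := by
    apply AnJac.KSys.padic_mat_ext
    intro n
    rw [map_one, ← (B.Mn n).map_one]
    ext i j
    exact (B.exists_entry 1 i j).choose_spec n
  map_mul' σ τ := by
    apply AnJac.KSys.padic_mat_ext
    intro n
    have h : ∀ σ, (PadicInt.toZModPow n).mapMatrix
        (Matrix.of fun i j => (B.exists_entry σ i j).choose) = B.Mn n σ := by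
      intro σ
      ext i j
      exact (B.exists_entry σ i j).choose_spec n
    rw [map_mul, h, h, h, map_mul]

theorem T_spec (σ : GQ) (n : ℕ) : (PadicInt.toZModPow n).mapMatrix (B.T σ) = B.Mn n σ := by
  ext i j
  exact (B.exists_entry σ i j).choose_spec n

end Bases

end Fermat.Agent.RT.Tate
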