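import Fermat.Agent.RT.Tate1
import Fermat.Agent.S58X.Main
import Fermat.Agent.S43Glue.FreyRep

/-!
# The Tate module of an elliptic curve: trace and determinant
-/

set_option autoImplicit false
set_option linter.style.haveILetI false

noncomputable section

namespace Fermat.Agent.RT.Tate

open IsLocalRing Polynomial Fermat.Agent.S43Glue Fermat.Agent.S58X Fermat.Agent.GalRep
open WeierstrassCurve WeierstrassCurve.Affine WeierstrassCurve.Affine.Point

local notation "Qbar" => AlgebraicClosure ℚ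
local notation "GQ" => Qbar ≃ₐ[ℚ] Qbar

variable {W : WeierstrassCurve ℤ} {p : ℕ} [hp : Fact p.Prime]

namespace Bases

variable (B : Bases W p)

/-- a relation between operators gives a relation between matrices -/
theorem Mn_rel (n : ℕ) {σ : GQ} {a c : ℤ}
    (h : ∀ P : Pts W, p ^ n • P = 0 → σ • σ • P - a • (σ • P) + c • P = 0) :
    B.Mn n σ * B.Mn n σ - (a : ZMod (p ^ n)) • B.Mn n σ +
      (c : ZMod (p ^ n)) • (1 : Matrix (Fin 2) (Fin 2) (ZMod (p ^ n))) = 0 := by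
  apply Matrix.toLin'.injective
  refine LinearMap.ext fun v => ?_
  rw [_root_.map_zero, LinearMap.zero_apply, Matrix.toLin'_apply, Matrix.add_mulVec,
    Matrix.sub_mulVec, Matrix.smul_mulVec, Matrix.smul_mulVec, Matrix.one_mulVec,
    ← Matrix.mulVec_mulVec]
  apply (B.E n).injective
  apply Subtype.ext
  rw [_root_.map_zero, map_add, map_sub, Int.cast_smul_eq_zsmul, Int.cast_smul_eq_zsmul,
    map_zsmul, map_zsmul]
  have h1 : ((B.E n ((B.Mn n σ).mulVec ((B.Mn n σ).mulVec v)) -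
      a • B.E n ((B.Mn n σ).mulVec v) + c • B.E n v : torG W (p ^ n)) : Pts W) =
      (B.E n ((B.Mn n σ).mulVec ((B.Mn n σ).mulVec v)) : Pts W) -
      a • (B.E n ((B.Mn n σ).mulVec v) : Pts W) + c • (B.E n v : Pts W) := rfl
  rw [h1, B.Mn_mulVec, B.Mn_mulVec]
  exact h _ (B.E n v).2

theorem Mn_one (n : ℕ) {σ : GQ} (h : ∀ P : Pts W, p ^ n • P = 0 → σ • P = P) :
    B.Mn n σ = 1 := by
  apply Matrix.toLin'.injective
  refine LinearMap.ext fun v => ?_
  rw [Matrix.toLin'_apply, Matrix.toLin'_one, LinearMap.id_apply]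
  apply (B.E n).injective
  apply Subtype.ext
  rw [B.Mn_mulVec]
  exact h _ (B.E n v).2

/-- conversely -/
theorem smul_eq_of_Mn_one (n : ℕ) {σ : GQ} (h : B.Mn n σ = 1) {P : Pts W} (hP : p ^ n • P = 0) :
    σ • P = P := by
  obtain ⟨v, hv⟩ := (B.E n).surjective ⟨P, hP⟩
  have h1 := B.Mn_mulVec n σ v
  rw [h, Matrix.one_mulVec, hv] at h1
  exact h1.symm

theorem T_apply (σ : GQ) (n : ℕ) (i j : Fin 2) :
    PadicInt.toZModPow n (B.T σ i j) = B.Mn n σ i j := by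
  have := congrFun (congrFun (B.T_spec σ n) i) j
  exact this

theorem T_one {σ : GQ} (h : ∀ n, ∀ P : Pts W, p ^ n • P = 0 → σ • P = P) : B.T σ = 1 := by
  apply AnJac.KSys.padic_mat_ext
  intro n
  rw [B.T_spec, B.Mn_one n (h n), map_one]

theorem T_rel {σ : GQ} {a c : ℤ}
    (h : ∀ n, ∀ P : Pts W, p ^ n • P = 0 → σ • σ • P - a • (σ • P) + c • P = 0) :
    B.T σ * B.T σ - (a : ℤ_[p]) • B.T σ + (c : ℤ_[p]) • (1 : Matrix (Fin 2) (Fin 2) ℤ_[p]) = 0 := by
  apply AnJac.KSys.padic_mat_ext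
  intro n
  have h1 := B.Mn_rel n (h n)
  have h2 : ∀ (x : ℤ) (M : Matrix (Fin 2) (Fin 2) ℤ_[p]),
      (PadicInt.toZModPow n).mapMatrix ((x : ℤ_[p]) • M) =
        (x : ZMod (p ^ n)) • (PadicInt.toZModPow n).mapMatrix M := by
    intro x M
    ext i j
    simp only [RingHom.mapMatrix_apply, Matrix.map_apply, Matrix.smul_apply, smul_eq_mul, map_mul,
      map_intCast]
  rw [map_add, map_sub, map_mul, h2, h2, map_one, B.T_spec, _root_.map_zero]
  exact h1

end Bases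

theorem not_dvd_pow {q n : ℕ} (hq : q.Prime) (hqp : q ≠ p) : ¬ q ∣ p ^ n := fun h =>
  hqp ((Nat.prime_dvd_prime_iff_eq hq hp.out).mp (hq.dvd_of_dvd_pow h))

theorem good_of_not_dvd {q : ℕ} (h : ¬ q ∣ W.Δ.natAbs * p) : W.IsGoodPrimeFor q := fun h1 =>
  h ((Int.natCast_dvd.mp h1).mul_right p)

/-- **the Hecke-Galois datum of an elliptic curve** -/
def hd (B : Bases W p) (hΔ : W.Δ ≠ 0) : HData W.Δ.natAbs p where
  r := 2
  T ℓ := (W.apOfModel ℓ) • (1 : Matrix (Fin 2) (Fin 2) ℤ)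
  ρ := B.T
  cont n := by
    obtain ⟨L, hL, h⟩ := finite_level hΔ (pow_ne_zero n hp.out.ne_zero)
    refine ⟨L, hL, fun σ hσ i j => ?_⟩
    rw [B.T_apply, B.Mn_one n (fun P hP => h σ hσ P hP)]
  comm g ℓ _ _ := by
    rw [map_zsmul, map_one, mul_smul_comm, smul_mul_assoc, mul_one, one_mul]
  frob ℓ hℓ hℓN A hA τ hτ := by
    have h1 := B.T_rel (σ := τ) (a := W.apOfModel ℓ) (c := ℓ) (fun n P hP => by
      exact ECFrob.frob_rel_torsion W hℓ (good_of_not_dvd hℓN) hA hτ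
        (n := p ^ n) (not_dvd_pow hℓ (HData.ne_p hℓN)) hP)
    rw [map_zsmul, map_one, smul_mul_assoc, one_mul]
    rw [Int.cast_smul_eq_zsmul, Int.cast_natCast] at h1
    exact h1
  inert q hq hqN A hA σ hσ := by
    refine B.T_one fun n P hP => ?_
    exact smul_eq_of_good hq hA (good_of_not_dvd hqN) hσ (n := p ^ n)
        (not_dvd_pow hq (HData.ne_p hqN)) hP

/-- the operators `th g` are scalar -/
theorem exists_th (B : Bases W p) (hΔ : W.Δ ≠ 0) (g : GQ) :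
    ∃ t : ℤ_[p], B.T g + cycP p g • B.T g⁻¹ = t • (1 : Matrix (Fin 2) (Fin 2) ℤ_[p]) := by
  have h1 := HData.th_mem_span (D := hd B hΔ) (S := (∅ : Set ℕ)) Set.finite_empty
    (Int.natAbs_ne_zero.mpr hΔ) g
  have h2 : ∀ x ∈ (hd B hΔ).TT (∅ : Set ℕ), ∃ c : ℤ,
      x = c • (1 : Matrix (Fin (hd B hΔ).r) (Fin (hd B hΔ).r) ℤ) := by
    intro x hx
    induction hx using Algebra.adjoin_induction with
    | mem x hx =>
      obtain ⟨ℓ, hℓ, hℓN, -, rfl⟩ := hx
      exact ⟨_, rfl⟩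
    | algebraMap m =>
      refine ⟨m, ?_⟩
      rw [Algebra.algebraMap_eq_smul_one]
    | add x y _ _ hx hy =>
      obtain ⟨c, rfl⟩ := hx
      obtain ⟨d, rfl⟩ := hy
      exact ⟨c + d, (add_smul _ _ _).symm⟩
    | mul x y _ _ hx hy =>
      obtain ⟨c, rfl⟩ := hx
      obtain ⟨d, rfl⟩ := hy
      refine ⟨c * d, ?_⟩
      rw [smul_mul_smul_comm, mul_one]
  have h3 : Submodule.span ℤ_[p] ((castHom (hd B hΔ).r ℤ_[p]) ''
      ((hd B hΔ).TT (∅ : Set ℕ) : Set (Matrix (Fin (hd B hΔ).r) (Fin (hd B hΔ).r) ℤ))) ≤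
      Submodule.span ℤ_[p] {(1 : Matrix (Fin (hd B hΔ).r) (Fin (hd B hΔ).r) ℤ_[p])} := by
    rw [Submodule.span_le]
    rintro _ ⟨x, hx, rfl⟩
    obtain ⟨c, rfl⟩ := h2 x hx
    refine Submodule.mem_span_singleton.mpr ⟨(c : ℤ_[p]), ?_⟩
    rw [map_zsmul, map_one, Int.cast_smul_eq_zsmul]
  obtain ⟨t, ht⟩ := Submodule.mem_span_singleton.mp (h3 h1)
  exact ⟨t, ht.symm⟩

/-- the trace function -/
def tr (B : Bases W p) (hΔ : W.Δ ≠ 0) (g : GQ) : ℤ_[p] := (exists_th B hΔ g).choose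

theorem mquad (B : Bases W p) (hΔ : W.Δ ≠ 0) : MQuad B.T (tr B hΔ) (cycP p) := fun g =>
  (exists_th B hΔ g).choose_spec

/-- the reduction of `T` is the representation on the `p`-torsion -/
theorem toZMod_T (B : Bases W p) (σ : GQ) (i j : Fin 2) :
    PadicInt.toZMod (B.T σ i j) = curveRep B.b σ i j := by
  choose c hc using fun i => ZMod.intCast_surjective (B.Mn 1 σ i j)
  have h1 : σ • B.P 1 j = ∑ i, c i • B.P 1 i := by
    have h2 := B.Mn_mulVec 1 σ (Pi.single j 1)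
    rw [B.E_single, Matrix.mulVec_single_one, B.coe_E] at h2
    rw [← h2]
    refine Finset.sum_congr rfl fun i _ => ?_
    rw [← B.zl_int, hc]
    rfl
  have h2 : σ • B.b j = ∑ i, ((c i : ℤ) : ZMod p) • B.b i := by
    apply Subtype.ext
    have e1 : ((σ • B.b j : Tor (W.map (Int.castRingHom ℚ)) p) : Pts W) = σ • (B.b j : Pts W) := rfl
    rw [e1, ← B.P_one, h1, AddSubmonoidClass.coe_finsetSum]
    refine Finset.sum_congr rfl fun i _ => ?_
    rw [B.P_one, Int.cast_smul_eq_zsmul]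
    rfl
  have h3 : curveRep B.b σ i j = (c i : ZMod p) := by
    have h4 := curveRep_mulVec B.b σ (B.b j)
    rw [B.b.repr_self, h2] at h4
    have h5 := congrFun h4 i
    rw [Finsupp.single_eq_pi_single, Matrix.mulVec_single_one] at h5
    change curveRep B.b σ i j = _ at h5
    rw [h5, map_sum, Finsupp.finsetSum_apply]
    rw [Finset.sum_eq_single i]
    · rw [map_smul, B.b.repr_self, Finsupp.smul_apply, Finsupp.single_eq_same, smul_eq_mul, mul_one]
    · intro k _ hk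
      rw [map_smul, B.b.repr_self, Finsupp.smul_apply, Finsupp.single_eq_of_ne hk.symm, smul_zero]
    · intro h
      exact absurd (Finset.mem_univ _) h
  rw [h3, ← map_intCast (PadicInt.toZMod (p := p)), ← sub_eq_zero, ← map_sub, ← RingHom.mem_ker,
    PadicInt.ker_toZMod, PadicInt.maximalIdeal_eq_span_p, ← pow_one (p : ℤ_[p]),
    ← PadicInt.ker_toZModPow, RingHom.mem_ker, map_sub, B.T_apply, map_intCast, ← hc, sub_self]

theorem exists_nonscalar (B : Bases W p) (hirr : W.ModRepIsIrreducible p) :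
    ∃ c, ∀ s : ZMod p, curveRep B.b c ≠ s • (1 : Matrix (Fin 2) (Fin 2) (ZMod p)) := by
  have hirr' : ∀ V : Submodule (ZMod p) (Fin 2 → ZMod p),
      (∀ σ, ∀ x ∈ V, (curveRep B.b σ).mulVec x ∈ V) → V = ⊥ ∨ V = ⊤ := irred_of_irreducible B.b hirr
  by_contra hcon
  push Not at hcon
  have hst : ∀ σ, ∀ x ∈ Submodule.span (ZMod p) {(Pi.single 0 1 : Fin 2 → ZMod p)},
      (curveRep B.b σ).mulVec x ∈ Submodule.span (ZMod p) {(Pi.single 0 1 : Fin 2 → ZMod p)} := by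
    intro σ x hx
    obtain ⟨s, hs⟩ := hcon σ
    rw [hs, Matrix.smul_mulVec, Matrix.one_mulVec]
    exact Submodule.smul_mem _ _ hx
  rcases hirr' _ hst with h | h
  · rw [Submodule.span_singleton_eq_bot] at h
    have := congrFun h 0
    simp at this
  · have h1 : (Pi.single 1 1 : Fin 2 → ZMod p) ∈
        Submodule.span (ZMod p) {(Pi.single 0 1 : Fin 2 → ZMod p)} := by
      rw [h]; trivial
    obtain ⟨a, ha⟩ := Submodule.mem_span_singleton.mp h1
    have := congrFun ha 1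
    simp at this

/-- **trace and determinant of the Tate module** -/
theorem trace_det (B : Bases W p) (hΔ : W.Δ ≠ 0) (hirr : W.ModRepIsIrreducible p) (g : GQ) :
    (B.T g).trace = tr B hΔ g ∧ (B.T g).det = cycP p g := by
  refine (mquad B hΔ).trace_det ?_ g
  obtain ⟨c, hc⟩ := exists_nonscalar B hirr
  refine ⟨c, fun s hs => hc (PadicInt.toZMod s) ?_⟩
  ext i j
  rw [← toZMod_T, hs, Matrix.smul_apply, Matrix.smul_apply, smul_eq_mul, smul_eq_mul, map_mul]
  congr 1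
  rw [Matrix.one_apply, Matrix.one_apply]
  split_ifs <;> simp

theorem scal_inj {R : Type*} [CommRing R] {a b : R}
    (h : a • (1 : Matrix (Fin 2) (Fin 2) R) = b • (1 : Matrix (Fin 2) (Fin 2) R)) : a = b := by
  have := congrFun (congrFun h 0) 0
  simpa using this

/-- trace at a Frobenius element -/
theorem trace_frob (B : Bases W p) (hΔ : W.Δ ≠ 0) (hirr : W.ModRepIsIrreducible p) {ℓ : ℕ}
    (hℓ : ℓ.Prime) (hW : W.IsGoodPrimeFor ℓ) (hℓp : ℓ ≠ p) {A : ValuationSubring Qbar}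
    (hA : A.LiesOverPrime ℓ) {τ : GQ} (hτ : A.IsFrobeniusAt τ ℓ) :
    (B.T τ).trace = (W.apOfModel ℓ : ℤ_[p]) ∧ (B.T τ).det = (ℓ : ℤ_[p]) := by
  have hdvd : ¬ ℓ ∣ W.Δ.natAbs * p := by
    intro h
    rcases hℓ.dvd_mul.mp h with h | h
    · exact hW (Int.natCast_dvd.mpr h)
    · exact hℓp ((Nat.prime_dvd_prime_iff_eq hℓ hp.out).mp h)
  have h1 := trace_det B hΔ hirr τ
  refine ⟨?_, by rw [h1.2, cycP_frob p hℓ hA hℓp hτ]⟩
  have h2 := HData.th_frob (D := hd B hΔ) hℓ hdvd hA hτ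
  have h3 := mquad B hΔ τ
  have h4 : (castHom (hd B hΔ).r ℤ_[p]) ((hd B hΔ).T ℓ) =
      (W.apOfModel ℓ : ℤ_[p]) • (1 : Matrix (Fin 2) (Fin 2) ℤ_[p]) := by
    change (castHom 2 ℤ_[p]) ((W.apOfModel ℓ) • (1 : Matrix (Fin 2) (Fin 2) ℤ)) = _
    rw [map_zsmul, map_one, Int.cast_smul_eq_zsmul]
  rw [h1.1]
  exact scal_inj (h3.symm.trans (h2.trans h4))

/-- inertia at good primes -/
theorem T_inertia (B : Bases W p) {q : ℕ} (hq : q.Prime) (hqp : q ≠ p) (hW : W.IsGoodPrimeFor q)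
    {A : ValuationSubring Qbar} (hA : A.LiesOverPrime q) {σ : GQ}
    (hσ : σ ∈ A.inertiaSubgroupIn ℚ) : B.T σ = 1 :=
  B.T_one fun n _ hP => smul_eq_of_good hq hA hW hσ (n := p ^ n) (not_dvd_pow hq hqp) hP

end Fermat.Agent.RT.Tate
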